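/-
Programme W (S33), chapter ALG, helper26: **faithfulness of the inertia coinvariants from (E).**

`𝒪` a discrete valuation ring, `p ∈ 𝔪_𝒪`, `T` a reduced `𝒪`-algebra, finite over `𝒪`; `V` a `T`-module,
`C ≤ V`.  If for every MINIMAL prime `𝔭` of `T` and every `c` one has `p^c V ⊄ C + 𝔭 V` (the shape of
`WIface8.CoinvUnbounded`), then `V ⧸ C` is a faithful `T`-module.

Proof: let `t V ⊆ C`, `t ≠ 0`; pick a minimal prime `𝔭 ∌ t` (`T` reduced).  `T ⧸ 𝔭` is a domain, integral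
over `𝒪`, so some `0 ≠ r ∈ 𝒪` lies in `(t) + 𝔭`; `p^c ∈ r 𝒪` for `c` large, so
`p^c V ⊆ t V + 𝔭 V ⊆ C + 𝔭 V`.
-/
import Mathlib

set_option autoImplicit false
set_option linter.unusedSectionVars false
set_option linter.style.haveILetI false

namespace Fermat.Agent.ES.W33.FaithfulE26

section DVR

variable {𝒪 : Type*} [CommRing 𝒪] [IsDomain 𝒪] [IsDiscreteValuationRing 𝒪]

/-- in a discrete valuation ring, a power of any element of the maximal ideal is divisible by a given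
nonzero element. -/
theorem exists_pow_mem_span {x r : 𝒪} (hx : x ∈ IsLocalRing.maximalIdeal 𝒪) (hr : r ≠ 0) :
    ∃ c : ℕ, x ^ c ∈ Ideal.span {r} := by
  obtain ⟨ϖ, hϖ⟩ := IsDiscreteValuationRing.exists_irreducible 𝒪
  have hne : Ideal.span {r} ≠ ⊥ := by
    rw [Ne, Ideal.span_singleton_eq_bot]
    exact hr
  obtain ⟨e, he⟩ := IsDiscreteValuationRing.ideal_eq_span_pow_irreducible hne hϖ
  refine ⟨e, ?_⟩
  rw [he, ← Ideal.span_singleton_pow, ← hϖ.maximalIdeal_eq]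
  exact Ideal.pow_mem_pow hx e

end DVR

section Main

variable (𝒪 : Type*) [CommRing 𝒪] [IsDomain 𝒪] [IsDiscreteValuationRing 𝒪]
  {T : Type*} [CommRing T] [Algebra 𝒪 T] [Module.Finite 𝒪 T] [IsReduced T]
  {V : Type*} [AddCommGroup V] [Module T V]

include 𝒪

/-- for `t ∉ 𝔭` (`𝔭` prime) and `x ∈ 𝔪_𝒪`, a power of `x` lies in `(t) + 𝔭`. -/
theorem exists_pow_mem_span_sup {x : 𝒪} (hx : x ∈ IsLocalRing.maximalIdeal 𝒪)
    (𝔭 : Ideal T) [𝔭.IsPrime] {t : T} (ht : t ∉ 𝔭) :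
    ∃ c : ℕ, ∃ s : T, algebraMap 𝒪 T x ^ c - t * s ∈ 𝔭 := by
  have hint : IsIntegral 𝒪 (Ideal.Quotient.mk 𝔭 t) :=
    (Algebra.IsIntegral.isIntegral (R := 𝒪) t).map (Ideal.Quotient.mkₐ 𝒪 𝔭)
  have hne : Ideal.Quotient.mk 𝔭 t ≠ 0 := by
    rwa [Ne, Ideal.Quotient.eq_zero_iff_mem]
  obtain ⟨r, hr, s, hs⟩ := hint.isAlgebraic.exists_nonzero_dvd (mem_nonZeroDivisors_of_ne_zero hne)
  obtain ⟨s, rfl⟩ := Ideal.Quotient.mk_surjective s
  obtain ⟨c, hc⟩ := exists_pow_mem_span hx hr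
  obtain ⟨y, hy⟩ := Ideal.mem_span_singleton'.mp hc
  refine ⟨c, s * algebraMap 𝒪 T y, ?_⟩
  have h1 : algebraMap 𝒪 T r - t * s ∈ 𝔭 := by
    rw [← Ideal.Quotient.eq, map_mul, ← hs]
    rfl
  have h2 : algebraMap 𝒪 T x ^ c - t * (s * algebraMap 𝒪 T y) =
      algebraMap 𝒪 T y * (algebraMap 𝒪 T r - t * s) := by
    rw [← map_pow, ← hy, map_mul]
    ring
  rw [h2]
  exact 𝔭.mul_mem_left _ h1

/-- **faithfulness from (E).** -/
theorem faithful_of_unbounded {p : ℕ} (hp𝒪 : (p : 𝒪) ∈ IsLocalRing.maximalIdeal 𝒪)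
    (C : Submodule T V)
    (hE : ∀ 𝔭 ∈ minimalPrimes T, ∀ c : ℕ,
      ¬ ∀ v : V, ((p : T) ^ c) • v ∈ C ⊔ 𝔭 • (⊤ : Submodule T V))
    (t : T) (ht : ∀ v : V, t • v ∈ C) : t = 0 := by
  by_contra ht0
  -- a minimal prime not containing `t`
  obtain ⟨𝔭, h𝔭, ht𝔭⟩ : ∃ 𝔭 ∈ minimalPrimes T, t ∉ 𝔭 := by
    by_contra hcon
    have hcon : ∀ 𝔭 ∈ minimalPrimes T, t ∈ 𝔭 := fun 𝔭 h𝔭 => by
      by_contra h
      exact hcon ⟨𝔭, h𝔭, h⟩
    apply ht0
    have h1 : t ∈ sInf (minimalPrimes T) := by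
      rw [Submodule.mem_sInf]
      exact hcon
    have h2 : sInf (minimalPrimes T) = nilradical T := by
      rw [minimalPrimes, Ideal.sInf_minimalPrimes]
      rfl
    rw [h2, nilradical_eq_zero, Ideal.zero_eq_bot, Ideal.mem_bot] at h1
    exact h1
  haveI : 𝔭.IsPrime := h𝔭.1.1
  obtain ⟨c, s, hcs⟩ := exists_pow_mem_span_sup 𝒪 hp𝒪 𝔭 ht𝔭
  rw [map_natCast] at hcs
  apply hE 𝔭 h𝔭 c
  intro v
  have e : ((p : T) ^ c) • v = s • (t • v) + ((p : T) ^ c - t * s) • v := by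
    rw [sub_smul, mul_smul, smul_comm s t v]
    abel
  rw [e]
  exact Submodule.add_mem _ (Submodule.mem_sup_left (C.smul_mem _ (ht v)))
    (Submodule.mem_sup_right (Submodule.smul_mem_smul hcs Submodule.mem_top))

end Main

end Fermat.Agent.ES.W33.FaithfulE26
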