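/-
S33 (ordinary at `p ∥ N`), chapter (Alg), helper26: **inertia coinvariants and the ordinary line** —
the abstract skeleton.

`T` a commutative ring, `V` a `T`-module, `ρ : Γ →* End_T V`, `I ≤ D ≤ Γ` with `I` normalised by `D`.
* `augSub ρ I` : the `T`-submodule of `V` generated by the `ρ σ v - v`, `σ ∈ I` (so that
  `V ⧸ augSub ρ I` is the module of `I`-coinvariants);
* `sub_mem_augSub`, `augSub_le_iff` : it is the smallest submodule `L` with `I` acting trivially on `V ⧸ L`;
* `map_mem_augSub` : it is stable under every `δ` normalising `I`.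
-/
import Mathlib

set_option autoImplicit false

namespace Fermat.Agent.ES.W33.CoinvLine26

variable {T : Type*} [CommRing T] {V : Type*} [AddCommGroup V] [Module T V]
  {Γ : Type*} [Group Γ] (ρ : Γ →* Module.End T V) (I : Subgroup Γ)

/-- the submodule generated by the `ρ σ v - v`, `σ ∈ I`. -/
def augSub : Submodule T V :=
  Submodule.span T {w : V | ∃ σ ∈ I, ∃ v : V, w = ρ σ v - v}

theorem sub_mem_augSub {σ : Γ} (hσ : σ ∈ I) (v : V) : ρ σ v - v ∈ augSub ρ I :=
  Submodule.subset_span ⟨σ, hσ, v, rfl⟩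

/-- `augSub ρ I ≤ L` iff `I` acts trivially on `V ⧸ L`. -/
theorem augSub_le_iff (L : Submodule T V) :
    augSub ρ I ≤ L ↔ ∀ σ ∈ I, ∀ v : V, ρ σ v - v ∈ L := by
  constructor
  · intro h σ hσ v
    exact h (sub_mem_augSub ρ I hσ v)
  · intro h
    refine Submodule.span_le.mpr ?_
    rintro w ⟨σ, hσ, v, rfl⟩
    exact h σ hσ v

/-- `augSub ρ I` is stable under every `δ` which normalises `I`. -/
theorem map_mem_augSub {δ : Γ} (hδ : ∀ σ ∈ I, δ * σ * δ⁻¹ ∈ I) {w : V} (hw : w ∈ augSub ρ I) :
    ρ δ w ∈ augSub ρ I := by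
  induction hw using Submodule.span_induction with
  | mem w hw =>
      obtain ⟨σ, hσ, v, rfl⟩ := hw
      have e : ρ δ (ρ σ v - v) = ρ (δ * σ * δ⁻¹) (ρ δ v) - ρ δ v := by
        rw [map_sub]
        congr 1
        rw [← Module.End.mul_apply, ← Module.End.mul_apply, ← map_mul, ← map_mul]
        congr 2
        group
      rw [e]
      exact sub_mem_augSub ρ I (hδ σ hσ) _
  | zero => rw [map_zero]; exact Submodule.zero_mem _
  | add x y _ _ hx hy => rw [map_add]; exact Submodule.add_mem _ hx hy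
  | smul a x _ hx => rw [map_smul]; exact Submodule.smul_mem _ _ hx

end Fermat.Agent.ES.W33.CoinvLine26
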