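/-
S33, chapter (Alg), helper26: **the inertia coinvariants are cyclic** (residual input).

`A` local with residue field `k`, `V` a finite `A`-module with `V̄ := k ⊗ V` of dimension two,
`ρ : Γ →* End_A V`, `I ≤ Γ`.  If
* (res) `I` acts trivially on `V̄ ⧸ L̄` for a line `L̄ = k ∙ b̄ 0` (first vector of a basis), and
* (nt)  some `σ₀ ∈ I` acts nontrivially on `V̄`, e.g. `det (ρ σ₀) ≢ 1 mod 𝔪`,
then `V = A v₀ + augSub ρ I` for some `v₀` (Nakayama): the coinvariants `V ⧸ augSub ρ I` are cyclic.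
-/
import Mathlib
import Fermat.Agent.ES.W33.CoinvLine26

set_option autoImplicit false
set_option linter.unusedSectionVars false
set_option linter.style.haveILetI false

open Module TensorProduct

namespace Fermat.Agent.ES.W33.ResCyclic26

open Fermat.Agent.ES.W33.CoinvLine26

variable {A : Type*} [CommRing A] [IsLocalRing A] {V : Type*} [AddCommGroup V] [Module A V]
  {Γ : Type*} [Group Γ]

local notation "k" => IsLocalRing.ResidueField A

/-- pure tensors `1 ⊗ v` generate `k ⊗ V` over `k`: a `k`-subspace containing them all is `⊤`. -/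
theorem eq_top_of_one_tmul_mem (L : Submodule k (k ⊗[A] V))
    (h : ∀ v : V, (1 : k) ⊗ₜ[A] v ∈ L) : L = ⊤ := by
  rw [eq_top_iff]
  rintro x -
  induction x using TensorProduct.induction_on with
  | zero => exact L.zero_mem
  | tmul a v =>
      have e : a ⊗ₜ[A] v = a • ((1 : k) ⊗ₜ[A] v) := by
        rw [TensorProduct.smul_tmul', smul_eq_mul, mul_one]
      rw [e]
      exact L.smul_mem _ (h v)
  | add x y hx hy => exact L.add_mem hx hy

/-- **cyclicity of the coinvariants.** -/
theorem exists_gen [Module.Finite A V] (h2 : Module.finrank k (k ⊗[A] V) = 2)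
    (ρ : Γ →* Module.End A V) (I : Subgroup Γ)
    (Lbar : Submodule k (k ⊗[A] V)) (bbar : Basis (Fin 2) k (k ⊗[A] V))
    (hL : Lbar = Submodule.span k {bbar 0})
    (htriv : ∀ σ ∈ I, ∀ x : k ⊗[A] V, (ρ σ).baseChange k x - x ∈ Lbar)
    {σ₀ : Γ} (hσ₀ : σ₀ ∈ I) (v₁ : V) (hne : (1 : k) ⊗ₜ[A] (ρ σ₀ v₁ - v₁) ≠ 0) :
    ∃ v₀ : V, (⊤ : Submodule A V) ≤ Submodule.span A {v₀} ⊔ augSub ρ I := by
  classical
  set c : V := ρ σ₀ v₁ - v₁ with hc
  have hcC : c ∈ augSub ρ I := sub_mem_augSub ρ I hσ₀ v₁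
  have hxc : (1 : k) ⊗ₜ[A] c ∈ Lbar := by
    have := htriv σ₀ hσ₀ ((1 : k) ⊗ₜ[A] v₁)
    rwa [LinearMap.baseChange_tmul, ← TensorProduct.tmul_sub] at this
  -- a vector outside the line
  obtain ⟨v₀, hv₀⟩ : ∃ v₀ : V, (1 : k) ⊗ₜ[A] v₀ ∉ Lbar := by
    by_contra hcon
    have hall : ∀ v : V, (1 : k) ⊗ₜ[A] v ∈ Lbar := fun v => by
      by_contra h
      exact hcon ⟨v, h⟩
    have htop := eq_top_of_one_tmul_mem Lbar hall
    have h1 : bbar 1 ∈ Lbar := by rw [htop]; exact Submodule.mem_top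
    rw [hL, Submodule.mem_span_singleton] at h1
    obtain ⟨a, ha⟩ := h1
    have := congrArg (fun x => bbar.repr x 1) ha
    simp only [map_smul, Basis.repr_self, Finsupp.smul_apply, smul_eq_mul] at this
    rw [Finsupp.single_eq_same, Finsupp.single_eq_of_ne (by decide), mul_zero] at this
    exact zero_ne_one this
  -- the two vectors are linearly independent
  have hli : LinearIndependent k ![(1 : k) ⊗ₜ[A] c, (1 : k) ⊗ₜ[A] v₀] := by
    rw [LinearIndependent.pair_iff' hne]
    intro a ha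
    apply hv₀
    rw [← ha]
    exact Lbar.smul_mem _ hxc
  have hcard : Fintype.card (Fin 2) = Module.finrank k (k ⊗[A] V) := by
    rw [h2, Fintype.card_fin]
  let b' : Basis (Fin 2) k (k ⊗[A] V) := basisOfLinearIndependentOfCardEqFinrank hli hcard
  have hb' : ∀ i, (1 : k) ⊗ₜ[A] (![c, v₀] i) = b' i := by
    intro i
    rw [coe_basisOfLinearIndependentOfCardEqFinrank]
    fin_cases i <;> rfl
  have hspan := IsLocalRing.span_eq_top_of_tmul_eq_basis (R := A) (M := V) ![c, v₀] b' hb'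
  refine ⟨v₀, ?_⟩
  rw [← hspan, Submodule.span_le]
  rintro _ ⟨i, rfl⟩
  fin_cases i
  · exact Submodule.mem_sup_right hcC
  · exact Submodule.mem_sup_left (Submodule.mem_span_singleton_self v₀)

/-- an endomorphism with `det ≢ 1 mod 𝔪` acts nontrivially on `k ⊗ V`. -/
theorem exists_tmul_ne_of_det [Module.Free A V] [Module.Finite A V] (f : Module.End A V)
    (hdet : LinearMap.det f - 1 ∉ IsLocalRing.maximalIdeal A) :
    ∃ v₁ : V, (1 : k) ⊗ₜ[A] (f v₁ - v₁) ≠ 0 := by
  by_contra hcon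
  have hall : ∀ v : V, (1 : k) ⊗ₜ[A] (f v - v) = 0 := fun v => by
    by_contra h
    exact hcon ⟨v, h⟩
  apply hdet
  have hid : f.baseChange k = LinearMap.id := by
    apply TensorProduct.AlgebraTensorModule.ext
    intro a v
    rw [LinearMap.baseChange_tmul, LinearMap.id_apply]
    have e : a ⊗ₜ[A] f v = a ⊗ₜ[A] v + a • ((1 : k) ⊗ₜ[A] (f v - v)) := by
      rw [TensorProduct.smul_tmul', smul_eq_mul, mul_one, ← TensorProduct.tmul_add,
        add_sub_cancel]
    rw [e, hall v, smul_zero, add_zero]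
  have h1 : LinearMap.det (f.baseChange k) = algebraMap A k (LinearMap.det f) :=
    LinearMap.det_baseChange f
  rw [hid, LinearMap.det_id] at h1
  have h2 : IsLocalRing.residue A (LinearMap.det f - 1) = 0 := by
    rw [map_sub, map_one, sub_eq_zero]
    exact h1.symm
  exact (IsLocalRing.residue_eq_zero_iff _).mp h2

end Fermat.Agent.ES.W33.ResCyclic26
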