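/-
Programme W (S33), chapter ALG, helper26: **the residual determinant of a Hecke–Galois datum is the
mod-`p` cyclotomic character.**

`det_sub_natCast_mem` : `H` a Hecke–Galois datum of level `N` away from `S ⊇ {q ∣ N}`, `p ∈ 𝔪_T`.  If
`g ∈ G_ℚ` acts on `μ_p` by `μ ↦ μ ^ a` then `det (H.ρ g) ≡ a mod 𝔪_T`.
(Chebotarev in the generator form `ChebQbar23.exists_frobenius_inv_mul_pow_fixes` at the compositum of a
level-one field of `ρ` and `ℚ(μ_p)`, `charpoly_frob`, and `CycloChar8.cyclo_of_isFrobeniusAt`.)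
-/
import Mathlib
import Fermat.Prelude.Def_CuspForm_HeckeGaloisRepDatum
import Fermat.Agent.ES.GAL.ChebQbar23
import Fermat.Agent.ES.J.CycloChar8
import Fermat.Agent.ES.W33.ResCyclic26

set_option autoImplicit false
set_option linter.unusedSectionVars false
set_option linter.style.haveILetI false

open Polynomial TensorProduct

namespace Fermat.Agent.ES.W33.ResDet26

open Fermat.Agent.ES.J.CycloChar8 Fermat.Agent.ES.W33.ResCyclic26

local notation "Qbar" => AlgebraicClosure ℚ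
local notation "GQ" => (AlgebraicClosure ℚ ≃ₐ[ℚ] AlgebraicClosure ℚ)

section Local

variable {A : Type*} [CommRing A] [IsLocalRing A] {V : Type*} [AddCommGroup V] [Module A V]

local notation "k" => IsLocalRing.ResidueField A

/-- `1 ⊗ x = 0` in `k ⊗ V` for `x ∈ 𝔪 V`. -/
theorem one_tmul_eq_zero_of_mem {x : V}
    (hx : x ∈ IsLocalRing.maximalIdeal A • (⊤ : Submodule A V)) : (1 : k) ⊗ₜ[A] x = 0 := by
  refine Submodule.smul_induction_on (p := fun x => (1 : k) ⊗ₜ[A] x = 0) hx ?_ ?_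
  · intro a ha w _
    rw [TensorProduct.tmul_smul, TensorProduct.smul_tmul', Algebra.smul_def,
      IsLocalRing.ResidueField.algebraMap_eq, (IsLocalRing.residue_eq_zero_iff a).mpr ha,
      zero_mul, TensorProduct.zero_tmul]
  · intro x y hx hy
    rw [TensorProduct.tmul_add, hx, hy, add_zero]

/-- an endomorphism congruent to `1` modulo `𝔪` has determinant congruent to `1`. -/
theorem det_sub_one_mem [Module.Free A V] [Module.Finite A V] (f : Module.End A V)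
    (h : ∀ v : V, f v - v ∈ IsLocalRing.maximalIdeal A • (⊤ : Submodule A V)) :
    LinearMap.det f - 1 ∈ IsLocalRing.maximalIdeal A := by
  by_contra hcon
  obtain ⟨v₁, hv₁⟩ := exists_tmul_ne_of_det f hcon
  exact hv₁ (one_tmul_eq_zero_of_mem (h v₁))

end Local

variable {p : ℕ} {N : ℕ} [NeZero N] {S : Finset ℕ}
  {𝒪 : Type} [CommRing 𝒪] [IsDomain 𝒪] [IsDiscreteValuationRing 𝒪]
  [IsAdicComplete (IsLocalRing.maximalIdeal 𝒪) 𝒪]
  {θ : CuspForm.heckeAlgebra N 2 (↑S : Set ℕ) →+* IsLocalRing.ResidueField 𝒪}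
  {T : Type} [CommRing T] [IsLocalRing T] [IsNoetherianRing T]
  [IsAdicComplete (IsLocalRing.maximalIdeal T) T] [Algebra 𝒪 T] [IsLocalHom (algebraMap 𝒪 T)]
  [Module.Finite 𝒪 T] [Module.Free 𝒪 T]

/-- `det = ℓ` at a Frobenius element. -/
theorem det_frob (H : CuspForm.HeckeGaloisRepDatum N (↑S : Set ℕ) 𝒪 θ T)
    {ℓ : ℕ} (hℓ : ℓ.Prime) (hℓN : ¬ ℓ ∣ N) (hℓS : ℓ ∉ (↑S : Set ℕ))
    (A : ValuationSubring Qbar) (hA : A.LiesOverPrime ℓ) {φ : GQ} (hφ : A.IsFrobeniusAt φ ℓ) :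
    LinearMap.det (H.ρ.ρ φ) = (ℓ : T) := by
  have hcp := H.charpoly_frob ℓ hℓ hℓN hℓS A hA φ hφ
  generalize H.π (CuspForm.heckeAlgebra.T hℓ hℓN hℓS) = t at hcp
  rw [LinearMap.det_eq_sign_charpoly_coeff, H.ρ.finrank_eq, hcp]
  simp [coeff_X_pow]

/-- **the residual determinant is the mod-`p` cyclotomic character.** -/
theorem det_sub_natCast_mem (hp : p.Prime) (hpT : (p : T) ∈ IsLocalRing.maximalIdeal T)
    (hNS : ∀ q : ℕ, q.Prime → q ∣ N → q ∈ S)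
    (H : CuspForm.HeckeGaloisRepDatum N (↑S : Set ℕ) 𝒪 θ T) (g : GQ) (a : ℕ)
    (hga : ∀ μ : Qbar, μ ^ p = 1 → g μ = μ ^ a) :
    LinearMap.det (H.ρ.ρ g) - (a : T) ∈ IsLocalRing.maximalIdeal T := by
  classical
  haveI : Fact p.Prime := ⟨hp⟩
  -- the fields
  obtain ⟨L₁, hL₁, h1⟩ := H.ρ.isAdicContinuous 1
  obtain ⟨ζ, hζ⟩ := exists_primitiveRoot p 1
  have hp1 : p ^ 1 ≠ 0 := pow_ne_zero _ hp.ne_zero
  set L₂ : IntermediateField ℚ Qbar := IntermediateField.adjoin ℚ {ζ} with hL₂def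
  have hL₂ : FiniteDimensional ℚ L₂ :=
    IntermediateField.adjoin.finiteDimensional
      ((hζ.isIntegral (Nat.pos_of_ne_zero hp1)).tower_top)
  haveI := hL₁
  haveI := hL₂
  haveI : FiniteDimensional ℚ (L₁ ⊔ L₂ : IntermediateField ℚ Qbar) :=
    IntermediateField.finiteDimensional_sup _ _
  -- Chebotarev
  obtain ⟨ℓ, A, φ, j, hℓ, hℓS, hA, hφ, hfix⟩ :=
    Fermat.Agent.ES.GAL.ChebQbar23.exists_frobenius_inv_mul_pow_fixes (L₁ ⊔ L₂) g (insert p S)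
  have hℓp : ℓ ≠ p := fun h => hℓS (h ▸ Finset.mem_insert_self _ _)
  have hℓS' : ℓ ∉ (↑S : Set ℕ) := fun h => hℓS (Finset.mem_insert_of_mem (Finset.mem_coe.mp h))
  have hℓN : ¬ ℓ ∣ N := fun hdvd => hℓS' (Finset.mem_coe.mpr (hNS ℓ hℓ hdvd))
  obtain ⟨h, hh⟩ : ∃ h : GQ, h = g⁻¹ * φ ^ j := ⟨_, rfl⟩
  have hfix' : ∀ x ∈ (L₁ ⊔ L₂ : IntermediateField ℚ Qbar), h x = x := by
    intro x hx
    rw [hh]
    exact hfix x hx
  have hφj : φ ^ j = g * h := by rw [hh, mul_inv_cancel_left]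
  -- the determinant side
  have hdetφ : LinearMap.det (H.ρ.ρ (φ ^ j)) = ((ℓ ^ j : ℕ) : T) := by
    rw [map_pow, map_pow, det_frob H hℓ hℓN hℓS' A hA hφ]
    push_cast
    rfl
  have hdeth : LinearMap.det (H.ρ.ρ h) - 1 ∈ IsLocalRing.maximalIdeal T := by
    apply det_sub_one_mem
    intro v
    have := h1 h (fun x hx => hfix' x (le_sup_left (a := L₁) (b := L₂) hx)) v
    rwa [pow_one] at this
  have hmul : LinearMap.det (H.ρ.ρ g) * LinearMap.det (H.ρ.ρ h) = ((ℓ ^ j : ℕ) : T) := by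
    rw [← hdetφ, hφj, map_mul, map_mul]
  -- the cyclotomic side
  have hζL : ζ ∈ (L₁ ⊔ L₂ : IntermediateField ℚ Qbar) :=
    le_sup_right (a := L₁) (b := L₂) (IntermediateField.mem_adjoin_simple_self ℚ ζ)
  have hhζ : h ζ = ζ ^ 1 := by rw [pow_one]; exact hfix' ζ hζL
  have hgζ : g ζ = ζ ^ a := hga ζ (by have := hζ.pow_eq_one; rwa [pow_one] at this)
  have hc1 : (cyclo p h : ℤ_[p]).toZModPow 1 = ((1 : ℕ) : ZMod (p ^ 1)) := toZModPow_cyclo p hζ hhζ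
  have hc2 : (cyclo p g : ℤ_[p]).toZModPow 1 = ((a : ℕ) : ZMod (p ^ 1)) := toZModPow_cyclo p hζ hgζ
  have hc3 : (cyclo p (φ ^ j) : ℤ_[p]) = ((ℓ ^ j : ℕ) : ℤ_[p]) := by
    rw [map_pow, Units.val_pow_eq_pow_val, cyclo_of_isFrobeniusAt p hℓ hℓp A hA hφ]
    push_cast
    rfl
  have hc4 : ((a : ℕ) : ZMod (p ^ 1)) = ((ℓ ^ j : ℕ) : ZMod (p ^ 1)) := by
    have e : (cyclo p (φ ^ j) : ℤ_[p]) = (cyclo p g : ℤ_[p]) * (cyclo p h : ℤ_[p]) := by
      rw [hφj, map_mul, Units.val_mul]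
    have := congrArg (PadicInt.toZModPow 1) e
    rw [map_mul, hc1, hc2, hc3, map_natCast, Nat.cast_one, mul_one] at this
    exact this.symm
  have hdvd : (p : ℤ) ∣ ((ℓ ^ j : ℕ) : ℤ) - (a : ℤ) := by
    have h5 := (ZMod.natCast_eq_natCast_iff _ _ _).mp hc4
    rw [pow_one] at h5
    exact (Nat.modEq_iff_dvd.mp h5)
  have hmem : ((ℓ ^ j : ℕ) : T) - (a : T) ∈ IsLocalRing.maximalIdeal T := by
    obtain ⟨z, hz⟩ := hdvd
    have e : ((ℓ ^ j : ℕ) : T) - (a : T) = (((ℓ ^ j : ℕ) : ℤ) - (a : ℤ) : ℤ) := by push_cast; ring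
    rw [e, hz]
    push_cast
    exact Ideal.mul_mem_right _ _ hpT
  -- conclusion
  have e : LinearMap.det (H.ρ.ρ g) - (a : T) =
      (((ℓ ^ j : ℕ) : T) - (a : T)) - LinearMap.det (H.ρ.ρ g) * (LinearMap.det (H.ρ.ρ h) - 1) := by
    rw [mul_sub, hmul]
    ring
  rw [e]
  exact Ideal.sub_mem _ hmem (Ideal.mul_mem_left _ _ hdeth)

end Fermat.Agent.ES.W33.ResDet26
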