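/-
Programme W (S33, route `S33_ROUTE8.md`), the SPINE (helper8): **the frozen exit literals**.

Chain:  S33  ⇐(ALG)  `CoinvUnbounded` (E)  ⇐(ASM)  `HasConnOrder p N m A` for all `m` (O)
        ⇐(TOP/LVL)  `HasNodalChart p (auxLevel p N) A` (G)  ⇐  geometry on N34's nodal model at `q = p`.

* `inertiaSpan ρ P` : the `T`-submodule of `ρ.V` spanned by all `ρ(σ) v - v`, `σ` in the inertia group.
* `CoinvBounded ρ P 𝔭 p c` : `p^c V ⊆ 𝔞 V + 𝔭 V` (the coinvariants of `V/𝔭V` are killed by `p^c`).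
* (E) `CoinvUnbounded ρ p` : for every `P ∣ p`, every minimal prime `𝔭`, every `c`: not `CoinvBounded`.
* `IsConnOrderV A H` : pointwise connectedness w.r.t. the valuation ring `A` of `ℚ̄`:
  `h x ∈ A` and `h x - h y ∈ A.nonunits`.
* (O) `HasConnOrder p N m A` : for every `f₀` a level `f`, `f₀ ∣ f`, a finite `Γ_f`-module `X` with an
  injective equivariant `ι : X → J₀(N)[p^m]` whose range contains every mixed second difference
  `(τ'-1)(τ-1)x`, `τ, τ'` in the inertia group, and a CONNECTED `Γ_f`-equivariant order over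
  `fixRing A Γ_f` on `X`.
* (G) `HasNodalChart p N' A` (SPINE v1.1) : a `Γ_f`-stable `J1 ⊆ J₀(N')` containing every mixed second
  difference of `p`-power torsion points,
  with ONE chart `Ξ` satisfying `Assemble11.XiData` over `(fixRing A Γ_f, Γ_f)` and residually constant.
-/
import Mathlib
import Fermat.Prelude.Def_CuspForm_HeckeGaloisRepDatum
import Fermat.Prelude.Def_GaloisRep_LocalConditions
import Fermat.Agent.ES.V19.TopInst19

set_option autoImplicit false

noncomputable section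

namespace Fermat.Agent.ES.W33.WIface8

open ModularCurve
open Fermat.Agent.ES.V19.OrderHyp4 Fermat.Agent.ES.V19.TopLevel19 Fermat.Agent.ES.V19.Assemble11
  Fermat.Agent.ES.V19.GammaF16 Fermat.Agent.ES.V19.TraceDescent26

local notation "Qbar" => AlgebraicClosure ℚ
local notation "GQ" => (AlgebraicClosure ℚ ≃ₐ[ℚ] AlgebraicClosure ℚ)

/-! ### (E): the algebra exit -/

section E

variable {T : Type} [CommRing T] [IsLocalRing T]

/-- `𝔞 V`: the `T`-span of all `ρ(σ) v - v`, `σ` in the inertia group of `P`. -/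
def inertiaSpan (ρ : GaloisRepAdic T) (P : ValuationSubring Qbar) : Submodule T ρ.V :=
  Submodule.span T {w | ∃ σ ∈ P.inertiaSubgroupIn ℚ, ∃ v : ρ.V, w = ρ.ρ σ v - v}

/-- `p^c V ⊆ 𝔞 V + 𝔭 V`. -/
def CoinvBounded (ρ : GaloisRepAdic T) (P : ValuationSubring Qbar) (𝔭 : Ideal T) (p c : ℕ) : Prop :=
  ∀ v : ρ.V, ((p : T) ^ c) • v ∈ inertiaSpan ρ P ⊔ 𝔭 • (⊤ : Submodule T ρ.V)

/-- **(E)**: at every place over `p` and every minimal prime of `T` the inertia coinvariants of
`V / 𝔭 V` are not killed by a power of `p`. -/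
def CoinvUnbounded (ρ : GaloisRepAdic T) (p : ℕ) : Prop :=
  ∀ P : ValuationSubring Qbar, P.LiesOverPrime p → ∀ 𝔭 ∈ minimalPrimes T, ∀ c : ℕ,
    ¬ CoinvBounded ρ P 𝔭 p c

end E

/-! ### Connectedness -/

/-- Pointwise connectedness of an algebra of functions with respect to a valuation ring `A`. -/
def IsConnOrderV {R Ω M : Type*} [CommRing R] [Field Ω] [Algebra R Ω] (A : ValuationSubring Ω)
    (H : Subalgebra R (M → Ω)) : Prop :=
  ∀ h ∈ H, ∀ x y : M, h x ∈ A ∧ h x - h y ∈ A.nonunits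

/-! ### (O): the order-level literal at level `N` -/

/-- **(O)** at `J₀(N)[p^m]`, for the place `A` over `p`. -/
def HasConnOrder (p N m : ℕ) (A : ValuationSubring Qbar) : Prop :=
  ∀ f₀ : ℕ, 0 < f₀ → ∃ f : ℕ, 0 < f ∧ f₀ ∣ f ∧
    ∃ (X : Type) (_ : AddCommGroup X) (_ : Finite X) (_ : DistribMulAction ↥(gammaF A p f) X)
      (ι : X →+ Tors N p m),
      Function.Injective ι ∧
      (∀ (σ : ↥(gammaF A p f)) (x : X), ι (σ • x) = (σ : GQ) • ι x) ∧
      (∀ τ ∈ A.inertiaSubgroupIn ℚ, ∀ τ' ∈ A.inertiaSubgroupIn ℚ, ∀ x : Tors N p m,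
        ∃ y : X, ι y = τ' • (τ • x - x) - (τ • x - x)) ∧
      ∃ H : Subalgebra ↥(fixRing A (gammaF A p f)) (X → Qbar),
        IsEquivOrder ↥(gammaF A p f) H ∧ IsConnOrderV A H

/-! ### (G): the geometric exit at the auxiliary level -/

/-- **(G)** at level `N'` (`p ∥ N'`), for the place `A` over `p`: the kernel of reduction `J1` of the
nodal model (stable under `Γ_f` only: SPINE v1.1) contains all mixed second differences along the
inertia group, and carries one residually constant chart `Ξ` with the literals of `Assemble11.XiData`. -/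
def HasNodalChart (p N' : ℕ) (A : ValuationSubring Qbar) : Prop :=
  ∃ (f : ℕ) (_ : 0 < f) (J1 : AddSubgroup (JZero N'))
    (_ : ∀ τ ∈ gammaF A p f, ∀ y ∈ J1, τ • y ∈ J1)
    (_ : ∀ τ ∈ A.inertiaSubgroupIn ℚ, ∀ τ' ∈ A.inertiaSubgroupIn ℚ, ∀ x : JZero N',
      (∃ m : ℕ, (p ^ m) • x = 0) → τ' • (τ • x - x) - (τ • x - x) ∈ J1)
    (g : ℕ) (Ξ : JZero N' → Fin g → Qbar),
    XiData A.toSubring J1 Ξ ↥(fixRing A (gammaF A p f)) ↥(gammaF A p f) ∧
    ∀ y ∈ J1, ∀ y' ∈ J1, ∀ i, Ξ y i - Ξ y' i ∈ A.nonunits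

end Fermat.Agent.ES.W33.WIface8
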