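/-
Programme W (S33), chapter ALG, helper26: **the ALG exit** —
`isOrdinaryAt_of_coinvUnbounded` : S33's hypotheses + (E) `WIface8.CoinvUnbounded H.ρ p` ⇒ `H.ρ.IsOrdinaryAt p`.

For a place `P ∣ p` put `L := inertiaSpan H.ρ P` (`= CoinvLine26.augSub`, the span of the `ρ(σ)v − v`, `σ ∈ I_P`).
* `V ⧸ L` is cyclic: `hres` makes `I_P` trivial on `V̄ ⧸ L̄` for a line `L̄`, and `I_P` acts nontrivially on
  `V̄` because `det ρ̄ = ω` (`ResDet26`) is nontrivial on `I_P` for `p` odd (main's `T56/RamOmega11`); Nakayama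
  (`ResCyclic26.exists_gen`).
* `V ⧸ L` is faithful: `T` is reduced (`TReduced19`) and (E) holds at every minimal prime (`FaithfulE26`).
* hence `V ⧸ L ≅ T`, `L = T ∙ b 0` for a basis `b`; `L` is `D_P`-stable because `D_P` normalises `I_P`
  (`OrdLine26.exists_line`).
-/
import Mathlib
import Fermat.Prelude.Def_CuspForm_HeckeGaloisRepDatum
import Fermat.Prelude.Def_GaloisRep_LocalConditions
import Fermat.Agent.ES.W33.WIface8
import Fermat.Agent.ES.W33.OrdLine26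
import Fermat.Agent.ES.W33.FaithfulE26
import Fermat.Agent.ES.W33.ResCyclic26
import Fermat.Agent.ES.W33.ResDet26
import Fermat.Agent.ES.T56.RamOmega11
import Fermat.Agent.ES.V32.TReduced19
import Fermat.Agent.ES.FROB.FrobFacts12

set_option autoImplicit false
set_option linter.unusedSectionVars false
set_option linter.unusedVariables false
set_option linter.style.haveILetI false

open CuspForm CuspForm.HeckeGaloisRepDatum

namespace Fermat.Agent.ES.W33.AlgExit26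

open Fermat.Agent.ES.W33.WIface8 Fermat.Agent.ES.W33.CoinvLine26

local notation "Qbar" => AlgebraicClosure ℚ
local notation "GQ" => (AlgebraicClosure ℚ ≃ₐ[ℚ] AlgebraicClosure ℚ)

variable {p : ℕ} {N : ℕ} [NeZero N] {S : Finset ℕ}
  {𝒪 : Type} [CommRing 𝒪] [IsDomain 𝒪] [IsDiscreteValuationRing 𝒪]
  [IsAdicComplete (IsLocalRing.maximalIdeal 𝒪) 𝒪]
  {θ : CuspForm.heckeAlgebra N 2 (↑S : Set ℕ) →+* IsLocalRing.ResidueField 𝒪}
  {T : Type} [CommRing T] [IsLocalRing T] [IsNoetherianRing T]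
  [IsAdicComplete (IsLocalRing.maximalIdeal T) T] [Algebra 𝒪 T] [IsLocalHom (algebraMap 𝒪 T)]
  [Module.Finite 𝒪 T] [Module.Free 𝒪 T]

/-- `p ∈ 𝔪_T`. -/
theorem natCast_mem_maximalIdeal (hp𝒪 : (p : 𝒪) ∈ IsLocalRing.maximalIdeal 𝒪) :
    (p : T) ∈ IsLocalRing.maximalIdeal T := by
  rw [IsLocalRing.mem_maximalIdeal, mem_nonunits_iff] at hp𝒪 ⊢
  intro h
  apply hp𝒪
  have : IsUnit (algebraMap 𝒪 T (p : 𝒪)) := by rwa [map_natCast]
  exact isUnit_of_map_unit (algebraMap 𝒪 T) _ this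

/-- an integer prime to `p` is not in `𝔪_T`. -/
theorem intCast_not_mem (hp : p.Prime) (hpT : (p : T) ∈ IsLocalRing.maximalIdeal T) {m : ℤ}
    (hm : ¬ (p : ℤ) ∣ m) : (m : T) ∉ IsLocalRing.maximalIdeal T := by
  intro hmem
  have hcop : IsCoprime m (p : ℤ) :=
    ((Nat.prime_iff_prime_int.mp hp).coprime_iff_not_dvd.mpr hm).symm
  obtain ⟨u, v, huv⟩ := hcop
  have h1 : ((u * m + v * (p : ℤ) : ℤ) : T) ∈ IsLocalRing.maximalIdeal T := by
    push_cast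
    exact Ideal.add_mem _ (Ideal.mul_mem_left _ _ hmem) (Ideal.mul_mem_left _ _ hpT)
  rw [huv, Int.cast_one] at h1
  exact (Ideal.ne_top_iff_one _).mp (IsLocalRing.maximalIdeal.isMaximal T).ne_top h1

/-- **ALG exit of Programme W.** -/
theorem isOrdinaryAt_of_coinvUnbounded
    [Finite (IsLocalRing.ResidueField 𝒪)] [CharZero 𝒪]
    (hp : p.Prime) (hp2 : p ≠ 2) (hp𝒪 : (p : 𝒪) ∈ IsLocalRing.maximalIdeal 𝒪)
    (hN : p ∣ N ∧ ¬ p ^ 2 ∣ N)
    (hNS : ∀ q : ℕ, q.Prime → q ∣ N → q ∈ S)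
    (H : CuspForm.HeckeGaloisRepDatum N (↑S : Set ℕ) 𝒪 θ T)
    (hres : (GaloisRepAdic.ofResidualGaloisRep H.ρ.residual).IsOrdinaryAt p)
    (hE : CoinvUnbounded H.ρ p) :
    H.ρ.IsOrdinaryAt p := by
  intro P hP
  have hpT : (p : T) ∈ IsLocalRing.maximalIdeal T := natCast_mem_maximalIdeal hp𝒪
  haveI : IsReduced T := Fermat.Agent.ES.V32.TReduced19.isReduced_T_finset hNS H
  -- the residual line
  obtain ⟨Lbar, ⟨bbar, hL⟩, -, htriv⟩ := hres P hP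
  -- an inertia element with `det ≢ 1`
  obtain ⟨τ, hτ, a, hτa, hmod⟩ :=
    Fermat.Agent.ES.T56.RamOmega11.exists_inertia_exponent_ne_one P hp hp2 hP
  have hpa : ¬ (p : ℤ) ∣ (a : ℤ) - 1 := by
    intro hdvd
    apply hmod
    rw [Nat.modEq_iff_dvd]
    have e : ((1 : ℕ) : ℤ) - (a : ℤ) = -((a : ℤ) - 1) := by push_cast; ring
    rw [e]
    exact (dvd_neg).mpr hdvd
  have hdet : LinearMap.det (H.ρ.ρ τ) - (a : T) ∈ IsLocalRing.maximalIdeal T :=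
    Fermat.Agent.ES.W33.ResDet26.det_sub_natCast_mem hp hpT hNS H τ a hτa
  have hdet1 : LinearMap.det (H.ρ.ρ τ) - 1 ∉ IsLocalRing.maximalIdeal T := by
    intro hmem
    have h1 : (((a : ℤ) - 1 : ℤ) : T) ∈ IsLocalRing.maximalIdeal T := by
      have e : (((a : ℤ) - 1 : ℤ) : T) =
          (LinearMap.det (H.ρ.ρ τ) - 1) - (LinearMap.det (H.ρ.ρ τ) - (a : T)) := by
        push_cast
        ring
      rw [e]
      exact Ideal.sub_mem _ hmem hdet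
    exact intCast_not_mem hp hpT hpa h1
  obtain ⟨v₁, hv₁⟩ := Fermat.Agent.ES.W33.ResCyclic26.exists_tmul_ne_of_det (H.ρ.ρ τ) hdet1
  -- cyclicity
  obtain ⟨v₀, hgen⟩ := Fermat.Agent.ES.W33.ResCyclic26.exists_gen
    (A := T) (V := H.ρ.V) H.ρ.residual.finrank_eq H.ρ.ρ (P.inertiaSubgroupIn ℚ) Lbar bbar hL
    (fun σ hσ x => htriv σ hσ x) hτ v₁ hv₁
  -- faithfulness
  have hfaith : ∀ t : T, (∀ v : H.ρ.V, t • v ∈ augSub H.ρ.ρ (P.inertiaSubgroupIn ℚ)) → t = 0 :=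
    Fermat.Agent.ES.W33.FaithfulE26.faithful_of_unbounded 𝒪 hp𝒪
      (augSub H.ρ.ρ (P.inertiaSubgroupIn ℚ)) (fun 𝔭 h𝔭 c hb => hE P hP 𝔭 h𝔭 c hb)
  -- the line
  obtain ⟨L, ⟨b, hb⟩, hD, hI⟩ := Fermat.Agent.ES.W33.OrdLine26.exists_line H.ρ.finrank_eq H.ρ.ρ
    (P.inertiaSubgroupIn ℚ) (P.decompositionSubgroup ℚ)
    (fun δ hδ σ hσ => Fermat.Agent.ES.FROB.FrobFacts12.conj_mem_inertiaSubgroupIn P hδ hσ)
    v₀ hgen hfaith
  exact ⟨L, ⟨b, hb⟩, hD, hI⟩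

end Fermat.Agent.ES.W33.AlgExit26
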