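/-
Programme W (S33), chapter (B3′) "places / discs on the nodal model" — helper3 (chapter cutter):
**THE DEFINITIONS OF THE NODAL INSTANCE at the `ℚ̄`-level** (definitions only; every property is
proved elsewhere).  This is what `XiIfaceN29.RedCtxN A π N G red r` is instantiated at.

PARAMETERS (copy this `variable` block verbatim):
  `(n e M' : ℕ) [NeZero n] [NeZero M'] (p : ℕ) [Fact p.Prime] (hpM : ¬ p ∣ M')`
  `(hb : BaseHyp n e) (hnM : n ∣ M') (A : ValuationSubring Qbar) (hA : A.LiesOverPrime p)`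
(a Hauptmodul base `(n, e)`, the GOOD level `M'` with `n ∣ M'`, `p ∤ M'`, the BAD level `N' = M' * p`,
`A ≤ ℚ̄` over `p`).  The level of S33 is `N' = auxLevel p N` (`p ∥ N`): `IfaceN4.auxLevel_eq_mul`.

CARRIERS
  `K = Qbar`, `F := ↥(Fbar (M' * p))` (generic fibre, BAD level), `F' := ↥(Fbar M')` (GOOD level),
  `k̄ := kA A`, `Ft₁ = Ft₂ := Ft M' A` (the function field of the special fibre of the GOOD level: both
  components of the nodal fibre are copies of it, via `α` resp. `β = α ∘ W`).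
NAMES
* `alphaN : F' →ₐ[ℚ̄] F` (`levelIncl`), `alphaN_isIntegral`; `frickeN : F ≃ₐ[ℚ̄] F` (`frickeBarEquiv`),
  `WN : SemilinearAut ℚ̄ F` its semilinear form (acts on places, divisors, `Pic⁰`);
* `tN`, `hxN : IsGen ℚ̄ tN` : the generator `t` at the bad level (`= alphaN tV`, same `q`-expansion);
* `Gq1`, `redq1` : `q`-expansions at `∞` with coefficients in `A` whose reduction lies in `F̃_{M'}`
  (`GaussRing15.gaussRing`), `O1 := gaussInt Gq1 redq1` THE FIRST GAUSS VALUATION RING, `rho1` its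
  reduction; `O2 := W⁻¹ O1`, `rho2 := rho1 ∘ W` THE SECOND ONE; **`GN := O1 ⊓ O2`**,
  **`redN : ↥GN →+* Ft × Ft`**;
* `resAlpha P` : the restriction of a place of `F` to `F'` along `α`;
  `r1 P := rV (resAlpha P)` : the point of the first component under `P`
  (`rV` = main's reduction map of the GOOD level, `InstNames3.rV`);
  `coordAt P` (`t` if `t(P) ∈ A`, else `t⁻¹`), `cSet_i s P` (the local ring of the `i`-th component at the
  centre of `P`: fractions `rho_i a / rho_i d`, `a, d ∈ chart ↥A s ∩ O_i`, `d(P) ∈ Aˣ`), `IsR_i P X`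
  (`O_X = cSet_i (coordAt P) P`; unique `X`); **v2: `r2 P := THE X with IsR2 P X`** (NO `W` on places);
* `IsChartCoord s` (`s = t` or `s = t⁻¹`), `InW1 P` : `P` reduces to a point of the first component OFF
  the second one — there are a chart coordinate `s` with `s(P) ∈ A`, and `e` in the chart ring
  (integral over `A[s]`) with `e ∈ O2`, `rho2 e = 0` ("`e` vanishes on `C₂`") and `e(P) ∈ Aˣ`
  (the `ℚ̄`-form of N34's `OffBranch`); **v2: `InW2 P` := the `t`-model TWIN (`e ∈ O1`, `rho1 e = 0`)**;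
* `nodePairs`, `sN`, `nodeFin`, **`nodesN : Nodes k̄ Ft Ft sN`** : the nodes `(ν₁ j, ν₂ j)`, the pairs
  `(r1 P, r2 P)` for `P` in neither `W₁` nor `W₂`;
* **`rN : Place ℚ̄ F → SPt k̄ Ft Ft ⊕ Fin sN`** THE TOTAL REDUCTION MAP;
* `NodalRedCtx`, `InertiaInvisible` : the statements `RedCtxN …` and (I-a) at the instance.
-/
import Mathlib
import Fermat.Agent.ES.V19.InstNames3
import Fermat.Agent.ES.N34.FrickeFK8
import Fermat.Agent.ES.HECKE.LevelPullback12
import Fermat.Agent.ES.W33.XiIfaceN29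

set_option autoImplicit false
set_option synthInstance.maxHeartbeats 400000
set_option linter.unusedSectionVars false

open HahnSeries ModularCurve AlgebraicCurve
open scoped MatrixGroups

noncomputable section

namespace Fermat.Agent.ES.W33.NodalDefs3

open Fermat.Agent.RED.Interface4 Fermat.Agent.RED.BASE.Interface12 Fermat.Agent.RED.BASE.Hauptmodul12
  Fermat.Agent.RED.PUR.ChartGeneric22
  Fermat.Agent.ES.RED.Contract8 Fermat.Agent.ES.RED.ModelInst4 Fermat.Agent.ES.RED.GaussRing15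
  Fermat.Agent.ES.RED.PlaceValue13 Fermat.Agent.ES.RED.SpecialInv25
  Fermat.Agent.ES.HECKE.LevelPullback12 Fermat.Agent.ES.N34.FrickeFK8
  Fermat.Agent.X0 Fermat.Agent.X0.FF
  Fermat.Agent.ES.V19.GaussFrac15 Fermat.Agent.ES.V19.InstNames3 Fermat.Agent.ES.W33.XiIfaceN29

attribute [local instance 5000] HahnSeries.powerSeriesAlgebra SubalgebraClass.toAlgebra

variable (n e M' : ℕ) [NeZero n] [NeZero M'] (p : ℕ) [Fact p.Prime] (hpM : ¬ p ∣ M')
  (hb : BaseHyp n e) (hnM : n ∣ M') (A : ValuationSubring Qbar) (hA : A.LiesOverPrime p)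

/-- the bad level `N' = M' * p` is not zero. -/
instance neZero_bad : NeZero (M' * p) :=
  ⟨Nat.mul_ne_zero (NeZero.ne M') (Fact.out : p.Prime).ne_zero⟩

/-! ### the two levels -/

/-- `α^* : F_{M'} → F_{M' p}` (inclusion of function fields). -/
abbrev alphaN : ↥(Fbar M') →ₐ[Qbar] ↥(Fbar (M' * p)) := levelIncl (Dvd.intro p rfl)

theorem alphaN_isIntegral : (alphaN M' p).toRingHom.IsIntegral := levelIncl_isIntegral _

/-- the Fricke involution `W_{N'}` of the bad level. -/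
abbrev frickeN : ↥(Fbar (M' * p)) ≃ₐ[Qbar] ↥(Fbar (M' * p)) := frickeBarEquiv (M' * p)

/-- `W_{N'}` as a semilinear automorphism (trivial on `ℚ̄`). -/
def WN : SemilinearAut Qbar ↥(Fbar (M' * p)) := SemilinearAut.ofAlgAut (frickeN M' p)

include hb hnM in
theorem hmemN : TMem n e (M' * p) := tMem_of_dvd hb (Dvd.dvd.mul_right hnM p)

/-- THE generator `t` of `F / ℚ̄` at the bad level. -/
abbrev tN : ↥(Fbar (M' * p)) := tF (M' * p) (tMem_of_dvd hb (Dvd.dvd.mul_right hnM p))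

theorem hxN : IsGen Qbar (tN n e M' p hb hnM) :=
  isGen_tF n e (M' * p) (tMem_of_dvd hb (Dvd.dvd.mul_right hnM p))

theorem alphaN_tV : alphaN M' p (tV n e M' hb hnM) = tN n e M' p hb hnM := rfl

/-! ### the two Gauss valuation rings -/

/-- `q`-expansions at `∞` with coefficients in `A` and reduction in `F̃_{M'}`. -/
abbrev Gq1 : Subring ↥(Fbar (M' * p)) :=
  gaussRing A (resA A) (Fbar (M' * p)) (modularFunctionFieldFullC (kA A) M')

/-- coefficientwise reduction. -/
abbrev redq1 : ↥(Gq1 M' p A) →+* Ft M' A :=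
  gaussRed A (resA A) (Fbar (M' * p)) (modularFunctionFieldFullC (kA A) M')

/-- **THE FIRST GAUSS VALUATION RING** (expansion at `∞`): fractions `a / b`, `b̄ ≠ 0`. -/
abbrev O1 : Subring ↥(Fbar (M' * p)) := gaussInt (Gq1 M' p A) (redq1 M' p A)

/-- its reduction. -/
abbrev rho1 : ↥(O1 M' p A) →+* Ft M' A := rho (Gq1 M' p A) (redq1 M' p A)

/-- **THE SECOND GAUSS VALUATION RING** (expansion at `0`): `f ∈ O2 ↔ W f ∈ O1`. -/
def O2 : Subring ↥(Fbar (M' * p)) := (O1 M' p A).comap (frickeN M' p : _ →+* _)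

theorem mem_O2_iff (f : ↥(Fbar (M' * p))) : f ∈ O2 M' p A ↔ frickeN M' p f ∈ O1 M' p A := Iff.rfl

/-- its reduction `f ↦ (W f)‾`. -/
def rho2 : ↥(O2 M' p A) →+* Ft M' A :=
  (rho1 M' p A).comp
    (((frickeN M' p : ↥(Fbar (M' * p)) →+* ↥(Fbar (M' * p))).restrict (O2 M' p A) (O1 M' p A)
      (fun _ h => h)))

theorem rho2_apply (f : ↥(O2 M' p A)) :
    rho2 M' p A f = rho1 M' p A ⟨frickeN M' p (f : ↥(Fbar (M' * p))), f.2⟩ := rfl

/-- **THE RING `G`** of functions integral for both Gauss valuations. -/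
def GN : Subring ↥(Fbar (M' * p)) := O1 M' p A ⊓ O2 M' p A

theorem GN_le_O1 : GN M' p A ≤ O1 M' p A := inf_le_left

theorem GN_le_O2 : GN M' p A ≤ O2 M' p A := inf_le_right

/-- **THE REDUCTION** `g ↦ (ḡ₁, ḡ₂)`. -/
def redN : ↥(GN M' p A) →+* Ft M' A × Ft M' A :=
  ((rho1 M' p A).comp (Subring.inclusion (GN_le_O1 M' p A))).prod
    ((rho2 M' p A).comp (Subring.inclusion (GN_le_O2 M' p A)))

theorem redN_fst (g : ↥(GN M' p A)) :
    (redN M' p A g).1 = rho1 M' p A ⟨(g : ↥(Fbar (M' * p))), GN_le_O1 M' p A g.2⟩ := rfl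

theorem redN_snd (g : ↥(GN M' p A)) :
    (redN M' p A g).2 = rho2 M' p A ⟨(g : ↥(Fbar (M' * p))), GN_le_O2 M' p A g.2⟩ := rfl

/-! ### places -/

/-- the restriction of a place of the bad level to the good level along `α`. -/
def resAlpha (P : Place Qbar ↥(Fbar (M' * p))) : Place Qbar ↥(Fbar M') :=
  P.restrictAlong (alphaN M' p) (alphaN_isIntegral M' p)

/-- the point of the FIRST component under `P` (meaningful for `P` in `W₁` or in a node disc). -/
def r1 (P : Place Qbar ↥(Fbar (M' * p))) : Place (kA A) (Ft M' A) :=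
  rV n e M' p hpM hb hnM A hA (resAlpha M' p P)

/-- `s` is one of the two chart coordinates `t`, `t⁻¹`. -/
def IsChartCoord (s : ↥(Fbar (M' * p))) : Prop :=
  s = tN n e M' p hb hnM ∨ s = (tN n e M' p hb hnM)⁻¹

open Classical in
/-- THE canonical chart coordinate at `P`: `t` if `t(P) ∈ A`, `t⁻¹` otherwise. -/
def coordAt (P : Place Qbar ↥(Fbar (M' * p))) : ↥(Fbar (M' * p)) :=
  if ∃ ht : tN n e M' p hb hnM ∈ P.toValuationSubring,
      valueHom (hxN n e M' p hb hnM) P ⟨tN n e M' p hb hnM, ht⟩ ∈ A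
  then tN n e M' p hb hnM else (tN n e M' p hb hnM)⁻¹

/-- **the local ring of the FIRST component at the centre of `P`**, computed in the chart
`chart ↥A s`: the fractions `rho1 a / rho1 d` with `a, d ∈ chart ↥A s ∩ O1` and `d(P) ∈ Aˣ`
(helper20's `CentreN20.cSubring (χ_P) ρ₁`, written without any proof obligation). -/
def cSet1 (s : ↥(Fbar (M' * p))) (P : Place Qbar ↥(Fbar (M' * p))) : Set (Ft M' A) :=
  {y | ∃ a ∈ chart ↥A s, ∃ d ∈ chart ↥A s, ∃ (ha : a ∈ O1 M' p A) (hd : d ∈ O1 M' p A)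
      (hdP : d ∈ P.toValuationSubring),
      valueHom (hxN n e M' p hb hnM) P ⟨d, hdP⟩ ∈ A ∧
        (valueHom (hxN n e M' p hb hnM) P ⟨d, hdP⟩)⁻¹ ∈ A ∧
          valueHom (hxN n e M' p hb hnM) P ⟨d, hdP⟩ ≠ 0 ∧
            y * rho1 M' p A ⟨d, hd⟩ = rho1 M' p A ⟨a, ha⟩}

/-- **the local ring of the SECOND component at the centre of `P`** (the same with `O2`, `rho2`). -/
def cSet2 (s : ↥(Fbar (M' * p))) (P : Place Qbar ↥(Fbar (M' * p))) : Set (Ft M' A) :=
  {y | ∃ a ∈ chart ↥A s, ∃ d ∈ chart ↥A s, ∃ (ha : a ∈ O2 M' p A) (hd : d ∈ O2 M' p A)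
      (hdP : d ∈ P.toValuationSubring),
      valueHom (hxN n e M' p hb hnM) P ⟨d, hdP⟩ ∈ A ∧
        (valueHom (hxN n e M' p hb hnM) P ⟨d, hdP⟩)⁻¹ ∈ A ∧
          valueHom (hxN n e M' p hb hnM) P ⟨d, hdP⟩ ≠ 0 ∧
            y * rho2 M' p A ⟨d, hd⟩ = rho2 M' p A ⟨a, ha⟩}

/-- **`X` is the point of the FIRST component under `P`, centre form**: the valuation ring of `X` is
the local ring `cSet1` of the first component at the centre of `P` (in the canonical chart).
`r1 P` has this property for `P` in `W₁` or in a node disc ((R1) + (R1u)). -/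
def IsR1 (P : Place Qbar ↥(Fbar (M' * p))) (X : Place (kA A) (Ft M' A)) : Prop :=
  ∀ y : Ft M' A, y ∈ X.toValuationSubring ↔
    y ∈ cSet1 n e M' p hb hnM A (coordAt n e M' p hb hnM A P) P

/-- **`X` is the point of the SECOND component under `P`, centre form** (NO `W` on places). -/
def IsR2 (P : Place Qbar ↥(Fbar (M' * p))) (X : Place (kA A) (Ft M' A)) : Prop :=
  ∀ y : Ft M' A, y ∈ X.toValuationSubring ↔
    y ∈ cSet2 n e M' p hb hnM A (coordAt n e M' p hb hnM A P) P

theorem IsR1.unique {P : Place Qbar ↥(Fbar (M' * p))} {X X' : Place (kA A) (Ft M' A)}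
    (h : IsR1 n e M' p hb hnM A P X) (h' : IsR1 n e M' p hb hnM A P X') : X = X' :=
  Place.ext (SetLike.ext fun y => (h y).trans (h' y).symm)

theorem IsR2.unique {P : Place Qbar ↥(Fbar (M' * p))} {X X' : Place (kA A) (Ft M' A)}
    (h : IsR2 n e M' p hb hnM A P X) (h' : IsR2 n e M' p hb hnM A P X') : X = X' :=
  Place.ext (SetLike.ext fun y => (h y).trans (h' y).symm)

open Classical in
/-- the point of the SECOND component under `P` (meaningful for `P` in `W₂` or in a node disc): THE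
place `X` of `F̃` whose valuation ring is the local ring of the second component at the centre of `P`
(junk value `r1 P` if there is none).  v2: no Fricke involution on places. -/
def r2 (P : Place Qbar ↥(Fbar (M' * p))) : Place (kA A) (Ft M' A) :=
  if h : ∃ X : Place (kA A) (Ft M' A), IsR2 n e M' p hb hnM A P X then h.choose
  else r1 n e M' p hpM hb hnM A hA P

theorem r2_eq {P : Place Qbar ↥(Fbar (M' * p))} {X : Place (kA A) (Ft M' A)}
    (hX : IsR2 n e M' p hb hnM A P X) : r2 n e M' p hpM hb hnM A hA P = X := by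
  have h : ∃ X : Place (kA A) (Ft M' A), IsR2 n e M' p hb hnM A P X := ⟨X, hX⟩
  unfold r2
  rw [dif_pos h]
  exact IsR2.unique n e M' p hb hnM A h.choose_spec hX

/-- **`P` reduces to a point of the first component off the second one** (`ℚ̄`-form of N34's
`OffBranch π B O2 𝔪`): a chart coordinate `s` with `s(P) ∈ A`, and `e` integral over `A[s]` with
`e ∈ O2`, `ē₂ = 0` and `e(P) ∈ Aˣ`. -/
def InW1 (P : Place Qbar ↥(Fbar (M' * p))) : Prop :=
  ∃ s : ↥(Fbar (M' * p)), IsChartCoord n e M' p hb hnM s ∧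
    (∃ hs : s ∈ P.toValuationSubring, valueHom (hxN n e M' p hb hnM) P ⟨s, hs⟩ ∈ A) ∧
    ∃ e₀ : ↥(Fbar (M' * p)), e₀ ∈ chart ↥A s ∧
      (∃ h2 : e₀ ∈ O2 M' p A, rho2 M' p A ⟨e₀, h2⟩ = 0) ∧
      ∃ he : e₀ ∈ P.toValuationSubring,
        valueHom (hxN n e M' p hb hnM) P ⟨e₀, he⟩ ∈ A ∧
          (valueHom (hxN n e M' p hb hnM) P ⟨e₀, he⟩)⁻¹ ∈ A ∧
            valueHom (hxN n e M' p hb hnM) P ⟨e₀, he⟩ ≠ 0

/-- **`P` reduces to a point of the second component off the first one** (v2: the `t`-model TWIN of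
`InW1`, SAME `P`, no `W`): a chart coordinate `s` with `s(P) ∈ A`, and `e` integral over `A[s]` with
`e ∈ O1`, `ē₁ = 0` and `e(P) ∈ Aˣ`. -/
def InW2 (P : Place Qbar ↥(Fbar (M' * p))) : Prop :=
  ∃ s : ↥(Fbar (M' * p)), IsChartCoord n e M' p hb hnM s ∧
    (∃ hs : s ∈ P.toValuationSubring, valueHom (hxN n e M' p hb hnM) P ⟨s, hs⟩ ∈ A) ∧
    ∃ e₀ : ↥(Fbar (M' * p)), e₀ ∈ chart ↥A s ∧
      (∃ h1 : e₀ ∈ O1 M' p A, rho1 M' p A ⟨e₀, h1⟩ = 0) ∧
      ∃ he : e₀ ∈ P.toValuationSubring,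
        valueHom (hxN n e M' p hb hnM) P ⟨e₀, he⟩ ∈ A ∧
          (valueHom (hxN n e M' p hb hnM) P ⟨e₀, he⟩)⁻¹ ∈ A ∧
            valueHom (hxN n e M' p hb hnM) P ⟨e₀, he⟩ ≠ 0

/-! ### nodes -/

/-- the pairs `(ν₁, ν₂)` of points of the two components under the places in the node discs. -/
def nodePairs : Set (Place (kA A) (Ft M' A) × Place (kA A) (Ft M' A)) :=
  {x | ∃ P : Place Qbar ↥(Fbar (M' * p)), ¬ InW1 n e M' p hb hnM A P ∧ ¬ InW2 n e M' p hb hnM A P ∧
    x = (r1 n e M' p hpM hb hnM A hA P, r2 n e M' p hpM hb hnM A hA P)}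

/-- the number of nodes. -/
def sN : ℕ := Nat.card ↥(nodePairs n e M' p hpM hb hnM A hA)

/-- the `j`-th node. -/
def nodeFin (j : Fin (sN n e M' p hpM hb hnM A hA)) : ↥(nodePairs n e M' p hpM hb hnM A hA) :=
  haveI : Finite ↥(nodePairs n e M' p hpM hb hnM A hA) :=
    (Nat.card_pos_iff.mp (lt_of_le_of_lt (Nat.zero_le _) j.2)).2
  (Finite.equivFin ↥(nodePairs n e M' p hpM hb hnM A hA)).symm j

/-- **THE NODES** of the special fibre. -/
def nodesN : Nodes (kA A) (Ft M' A) (Ft M' A) (sN n e M' p hpM hb hnM A hA) where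
  ν₁ j := (nodeFin n e M' p hpM hb hnM A hA j).1.1
  ν₂ j := (nodeFin n e M' p hpM hb hnM A hA j).1.2

open Classical in
/-- **THE TOTAL REDUCTION MAP** of places of the bad level: a smooth point of the first component, a
smooth point of the second component, or a node. -/
def rN (P : Place Qbar ↥(Fbar (M' * p))) :
    SPt (kA A) (Ft M' A) (Ft M' A) ⊕ Fin (sN n e M' p hpM hb hnM A hA) :=
  if h1 : InW1 n e M' p hb hnM A P then Sum.inl (Sum.inl (r1 n e M' p hpM hb hnM A hA P))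
  else if h2 : InW2 n e M' p hb hnM A P then Sum.inl (Sum.inr (r2 n e M' p hpM hb hnM A hA P))
  else if hf : Finite ↥(nodePairs n e M' p hpM hb hnM A hA) then
    haveI := hf
    Sum.inr (Finite.equivFin ↥(nodePairs n e M' p hpM hb hnM A hA)
      ⟨(r1 n e M' p hpM hb hnM A hA P, r2 n e M' p hpM hb hnM A hA P), P, h1, h2, rfl⟩)
  else Sum.inl (Sum.inl (r1 n e M' p hpM hb hnM A hA P))

theorem rN_of_inW1 {P : Place Qbar ↥(Fbar (M' * p))} (h1 : InW1 n e M' p hb hnM A P) :
    rN n e M' p hpM hb hnM A hA P = Sum.inl (Sum.inl (r1 n e M' p hpM hb hnM A hA P)) := by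
  unfold rN; rw [dif_pos h1]

theorem rN_of_inW2 {P : Place Qbar ↥(Fbar (M' * p))} (h1 : ¬ InW1 n e M' p hb hnM A P)
    (h2 : InW2 n e M' p hb hnM A P) :
    rN n e M' p hpM hb hnM A hA P = Sum.inl (Sum.inr (r2 n e M' p hpM hb hnM A hA P)) := by
  unfold rN; rw [dif_neg h1, dif_pos h2]

/-! ### the statements at the instance -/

/-- **`RedCtxN` at the instance** (the deliverable of (B3′) for (B5′), (Ga), (Le)). -/
def NodalRedCtx : Prop :=
  RedCtxN A (resA A) (nodesN n e M' p hpM hb hnM A hA) (GN M' p A) (redN M' p A)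
    (rN n e M' p hpM hb hnM A hA)

/-- **(I-a)**: inertia is invisible on the special fibre (smooth points AND nodes); `ρ τ` the
semilinear automorphism of `F` induced by `τ`. -/
def InertiaInvisible (ρ : (Qbar ≃ₐ[ℚ] Qbar) →* SemilinearAut Qbar ↥(Fbar (M' * p))) : Prop :=
  ∀ τ ∈ A.inertiaSubgroupIn ℚ, ∀ P : Place Qbar ↥(Fbar (M' * p)),
    rN n e M' p hpM hb hnM A hA (ρ τ • P) = rN n e M' p hpM hb hnM A hA P

end Fermat.Agent.ES.W33.NodalDefs3
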