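/-
Programme W (S33), chapter (B3′), leaf "(R2) numerics on the second component" (helper15), part 3:
**the second-component reduction of the Hauptmodul is `V_p` of a function of the good level.**

`k̄ = kA A` of characteristic `p`, `F̃ = Ft M' A = modularFunctionFieldFullC k̄ M'`.

* `qExpand_mem_fullC` : `V_p : q ↦ q^p` maps `F̃` into itself (`V_p y = (y^{φ⁻¹})^p`);
  `vpFt : F̃ →+* F̃`, `vpFt_eq_pow` : `vpFt g = ((cφ)⁻¹ • g) ^ p`, `vpFt_algebraMap`;
* `beta_mem_Gq1`, `redq1_beta` : `β_p = heckeBetaBar` maps the Gauss ring of the GOOD level into `Gq1`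
  (the Gauss ring of the BAD level with reductions in `F̃`), and `redq1 (β g) = vpFt (ḡ)`;
  `isRedOf_beta` : the same for the fractions of `GaussFrac15`;
* **`exists_rho2_tN`** : if `tN ∈ O2` with `rho2 tN ≠ 0` (both are fields of the two-chart instance:
  `B0 ≤ GN`, `tr₂`), then `W_{M'} tV` is Gauss-integral at the good level with a reduction `u ≠ 0`, and
  **`rho2 tN = vpFt u`**.
-/
import Mathlib
import Fermat.Agent.ES.W33.NodalDefs3
import Fermat.Agent.ES.W33.FrickeBeta15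
import Fermat.Agent.ES.KRON.FrobPlace13
import Fermat.Agent.ES.KRON.KronCong24
import Fermat.Agent.ES.V19.ScaleQbar8

set_option autoImplicit false
set_option synthInstance.maxHeartbeats 400000
set_option linter.unusedSectionVars false

open HahnSeries ModularCurve AlgebraicCurve

noncomputable section

namespace Fermat.Agent.ES.W33.BetaRed15

open Fermat.Agent.RED.Interface4 Fermat.Agent.RED.BASE.Interface12 Fermat.Agent.RED.BASE.Hauptmodul12
  Fermat.Agent.ES.RED.Contract8 Fermat.Agent.ES.RED.ModelInst4 Fermat.Agent.ES.RED.GaussRing15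
  Fermat.Agent.ES.V19.GaussFrac15 Fermat.Agent.ES.V19.InstNames3 Fermat.Agent.ES.W33.NodalDefs3
  Fermat.Agent.ES.KRON.FrobPlace13 Fermat.Agent.ES.N34.FrickeFK8 Fermat.Agent.ES.W33.FrickeBeta15

attribute [local instance 5000] HahnSeries.powerSeriesAlgebra SubalgebraClass.toAlgebra

variable (M' : ℕ) [NeZero M'] (p : ℕ) [Fact p.Prime] (A : ValuationSubring Qbar)
  (hA : A.LiesOverPrime p)

/-! ### `V_p` on the special fibre field -/

section Vp

include hA in
/-- **`V_p` preserves `F̃_{M'}`** (characteristic `p`): `V_p y = (y^{φ⁻¹})^p`. -/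
theorem qExpand_eq_pow (y : LaurentSeries (kA A)) :
    haveI := isAlgClosed_kA A
    haveI := charP_kA p A hA
    qExpand (kA A) p y =
      (coeffMap ((frobeniusEquiv (kA A) p).symm : kA A →+* kA A) y) ^ p := by
  have := isAlgClosed_kA A
  have := charP_kA p A hA
  rw [Fermat.Agent.ES.KRON.KronCong24.pow_char p, coeffMap_coeffMap]
  congr 1
  have : (frobenius (kA A) p).comp ((frobeniusEquiv (kA A) p).symm : kA A →+* kA A) =
      RingHom.id (kA A) := by
    ext a
    simp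
  rw [this, coeffMap_id]

include hA in
theorem qExpand_mem_fullC {y : LaurentSeries (kA A)}
    (hy : y ∈ modularFunctionFieldFullC (kA A) M') :
    qExpand (kA A) p y ∈ modularFunctionFieldFullC (kA A) M' := by
  rw [qExpand_eq_pow p A hA]
  exact pow_mem (coeffMap_mem_fullC _ hy) p

/-- `V_p` as a ring endomorphism of `F̃_{M'}`. -/
def vpFt : Ft M' A →+* Ft M' A :=
  (qExpand (kA A) p).restrict (modularFunctionFieldFullC (kA A) M')
    (modularFunctionFieldFullC (kA A) M') (fun _ hy => qExpand_mem_fullC M' p A hA hy)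

@[simp] theorem coe_vpFt (g : Ft M' A) :
    ((vpFt M' p A hA g : Ft M' A) : LaurentSeries (kA A)) =
      qExpand (kA A) p (g : LaurentSeries (kA A)) := rfl

theorem vpFt_injective : Function.Injective (vpFt M' p A hA) := (vpFt M' p A hA).injective

theorem vpFt_algebraMap (c : kA A) :
    vpFt M' p A hA (algebraMap (kA A) (Ft M' A) c) = algebraMap (kA A) (Ft M' A) c := by
  apply Subtype.ext
  show qExpand (kA A) p (algebraMap (kA A) (LaurentSeries (kA A)) c) =
    algebraMap (kA A) (LaurentSeries (kA A)) c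
  rw [algebraMap_laurentSeries_eq_single, qExpand_single, mul_zero]

/-- **`vpFt g = (cφ⁻¹ g)^p`.** -/
theorem vpFt_eq_pow [ExpChar (kA A) p] [PerfectField (kA A)] (g : Ft M' A) :
    vpFt M' p A hA g = ((frobSemi (kA A) p M')⁻¹ • g) ^ p := by
  have := charP_kA p A hA
  have h1 : frobSemi (kA A) p M' • ((frobSemi (kA A) p M')⁻¹ • g) = g := smul_inv_smul _ _
  have h2 := coe_frobSemi_smul (kA A) p M' ((frobSemi (kA A) p M')⁻¹ • g)
  rw [h1] at h2
  apply Subtype.ext
  rw [coe_vpFt, h2, ← Fermat.Agent.ES.KRON.KronCong24.pow_char p]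
  rfl

end Vp

/-! ### `β_p` on the Gauss rings -/

section Beta

/-- the Gauss ring of the good level. -/
local notation "G'" => gaussRingN A (resA A) M'
local notation "red'" => gaussRedN A (resA A) M'
local notation "β" => heckeBetaBar Qbar M' p

include hA in
theorem beta_mem_Gq1 (g : ↥(Fbar M')) (hg : g ∈ G') : β g ∈ Gq1 M' p A := by
  obtain ⟨Y, hY, hYt⟩ := hg
  refine ⟨qExpand ↥A p Y, ?_, ?_⟩
  · rw [ModularCurve.coeffMap_qExpand, hY]
    rfl
  · rw [ModularCurve.coeffMap_qExpand]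
    exact qExpand_mem_fullC M' p A hA hYt

theorem redq1_beta (g : ↥(Fbar M')) (hg : g ∈ G') :
    redq1 M' p A ⟨β g, beta_mem_Gq1 M' p A hA g hg⟩ = vpFt M' p A hA (red' ⟨g, hg⟩) := by
  apply Subtype.ext
  have hY := coeffMap_gaussLift A (resA A) (Fbar M') (modularFunctionFieldFullC (kA A) M') ⟨g, hg⟩
  have hY' : coeffMap A.subtype (qExpand ↥A p (gaussLift A (resA A) (Fbar M')
      (modularFunctionFieldFullC (kA A) M') ⟨g, hg⟩)) = ((β g : ↥(Fbar (M' * p))) :
        LaurentSeries Qbar) := by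
    rw [ModularCurve.coeffMap_qExpand, hY]
    rfl
  rw [gaussRed_eq A (resA A) (Fbar (M' * p)) (modularFunctionFieldFullC (kA A) M') _ hY',
    ModularCurve.coeffMap_qExpand, coe_vpFt]
  rfl

theorem isRedOf_beta {f : ↥(Fbar M')} {φ : Ft M' A} (h : IsRedOf G' red' f φ) :
    IsRedOf (Gq1 M' p A) (redq1 M' p A) (β f) (vpFt M' p A hA φ) := by
  obtain ⟨a, b, hb, hfb, hφ⟩ := h
  refine ⟨⟨β (a : ↥(Fbar M')), beta_mem_Gq1 M' p A hA _ a.2⟩,
    ⟨β (b : ↥(Fbar M')), beta_mem_Gq1 M' p A hA _ b.2⟩, ?_, ?_, ?_⟩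
  · rw [redq1_beta M' p A hA _ b.2]
    intro h0
    apply hb
    apply vpFt_injective M' p A hA
    rw [map_zero]
    exact h0
  · show β f * β (b : ↥(Fbar M')) = β (a : ↥(Fbar M'))
    rw [← map_mul, hfb]
  · rw [redq1_beta M' p A hA _ b.2, redq1_beta M' p A hA _ a.2, ← map_mul]
    exact congrArg _ hφ

end Beta

/-! ### an abstract comparison of two fraction reductions -/

section Abstract

variable {L : Type*} [Field L] {B : ValuationSubring L} {κ : Type*} [Field κ] (π : ↥B →+* κ)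
  (hπ : ∀ a : ↥B, ¬ IsUnit a → π a = 0)
  {F₁ F₂ : Type*} [Field F₁] [Field F₂] [Algebra L F₁] [Algebra L F₂]
  {E₁ E₂ : Type*} [Field E₁] [Field E₂] [Algebra κ E₁] [Algebra κ E₂]
  {G₁ : Subring F₁} {r₁ : ↥G₁ →+* E₁} {G₂ : Subring F₂} {r₂ : ↥G₂ →+* E₂}
  (hc₁ : ∀ a : ↥B, IsRedOf G₁ r₁ (algebraMap L F₁ (a : L)) (algebraMap κ E₁ (π a)))
  (hc₂ : ∀ a : ↥B, IsRedOf G₂ r₂ (algebraMap L F₂ (a : L)) (algebraMap κ E₂ (π a)))
  (b : F₁ →ₐ[L] F₂) (v : E₁ →+* E₂) (hv : ∀ c : κ, v (algebraMap κ E₁ c) = algebraMap κ E₂ c)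
  (hb : ∀ (f : F₁) (φ : E₁), IsRedOf G₁ r₁ f φ → IsRedOf G₂ r₂ (b f) (v φ))

include hπ hc₁ hc₂ hv hb in
/-- if `w = c · (unit)` upstairs and `b w` is a unit downstairs, then `c` is a unit of the base. -/
theorem exists_red_of_scale {w : F₁} {c : L} (hc0 : c ≠ 0) {ψ : E₁} (hψ0 : ψ ≠ 0)
    (hψ : IsRedOf G₁ r₁ ((algebraMap L F₁ c)⁻¹ * w) ψ) {φ₂ : E₂} (hφ₂0 : φ₂ ≠ 0)
    (hφ₂ : IsRedOf G₂ r₂ (b w) φ₂) :
    ∃ u : E₁, u ≠ 0 ∧ IsRedOf G₁ r₁ w u ∧ φ₂ = v u := by
  have hvψ0 : v ψ ≠ 0 := fun h0 => hψ0 (v.injective (by rw [h0, map_zero]))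
  have hβg := hb _ _ hψ
  rw [map_mul, map_inv₀, AlgHom.commutes] at hβg
  have hcF : algebraMap L F₂ c ≠ 0 := by rw [Ne, map_eq_zero]; exact hc0
  have hcF' : algebraMap L F₁ c ≠ 0 := by rw [Ne, map_eq_zero]; exact hc0
  have hcA : c ∈ B := by
    by_contra hc
    have hci : c⁻¹ ∈ B := (B.mem_or_inv_mem c).resolve_left hc
    have hnu : ¬ IsUnit (⟨c⁻¹, hci⟩ : ↥B) := by
      intro hu
      apply hc
      obtain ⟨x, hx⟩ := hu.exists_right_inv
      have hx' : c⁻¹ * (x : L) = 1 := congrArg Subtype.val hx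
      have : (x : L) = c := by
        rw [← mul_one c, ← hx', ← mul_assoc, mul_inv_cancel₀ hc0, one_mul]
      rw [← this]
      exact x.2
    have h1 := (hc₂ ⟨c⁻¹, hci⟩).mul hφ₂
    rw [hπ _ hnu, map_zero, zero_mul] at h1
    have h1' : IsRedOf G₂ r₂ ((algebraMap L F₂ c)⁻¹ * b w) 0 := by
      rw [← map_inv₀]
      exact h1
    exact hvψ0 (hβg.unique h1')
  have hg := (hc₁ ⟨c, hcA⟩).mul hψ
  rw [mul_inv_cancel_left₀ hcF'] at hg
  have hb2 := (hc₂ ⟨c, hcA⟩).mul hβg
  rw [mul_inv_cancel_left₀ hcF] at hb2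
  have hval : φ₂ = v (algebraMap κ E₁ (π ⟨c, hcA⟩) * ψ) := by
    rw [map_mul, hv]
    exact hφ₂.unique hb2
  refine ⟨_, ?_, hg, hval⟩
  intro h0
  rw [h0, map_zero] at hval
  exact hφ₂0 hval

end Abstract

/-! ### the second-component reduction of the Hauptmodul -/

section Main

local notation "G'" => gaussRingN A (resA A) M'
local notation "red'" => gaussRedN A (resA A) M'
local notation "β" => heckeBetaBar Qbar M' p

variable (n e : ℕ) [NeZero n] (hpM : ¬ p ∣ M') (hb : BaseHyp n e) (hnM : n ∣ M')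

/-- constants of `A`, good level. -/
theorem isRedOf_const_good (a : ↥A) :
    IsRedOf G' red' (algebraMap Qbar ↥(Fbar M') (a : Qbar))
      (algebraMap (kA A) (Ft M' A) (resA A a)) := by
  have := isRedOf_of_mem (G := G') (red := red')
    ⟨algebraMap Qbar ↥(Fbar M') (a : Qbar), algebraMap_mem_gaussRing A (resA A) (Fbar M')
      (modularFunctionFieldFullC (kA A) M') a⟩
  rwa [gaussRed_algebraMap] at this

/-- constants of `A`, bad level. -/
theorem isRedOf_const_bad (a : ↥A) :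
    IsRedOf (Gq1 M' p A) (redq1 M' p A) (algebraMap Qbar ↥(Fbar (M' * p)) (a : Qbar))
      (algebraMap (kA A) (Ft M' A) (resA A a)) := by
  have := isRedOf_of_mem (G := Gq1 M' p A) (red := redq1 M' p A)
    ⟨algebraMap Qbar ↥(Fbar (M' * p)) (a : Qbar), algebraMap_mem_gaussRing A (resA A)
      (Fbar (M' * p)) (modularFunctionFieldFullC (kA A) M') a⟩
  rwa [gaussRed_algebraMap] at this

/-- `β (W_{M'} x) = W_{M' p} (α x)`. -/
theorem beta_fricke (x : ↥(Fbar M')) :
    β (frickeBar M' x) = frickeN M' p (alphaN M' p x) := by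
  rw [frickeBarEquiv_apply]
  exact (frickeBar_levelIncl M' p x).symm

/-- `β (W_{M'} tV) = W_{M' p} tN`. -/
theorem beta_fricke_tV :
    β (frickeBar M' (tV n e M' hb hnM)) = frickeN M' p (tN n e M' p hb hnM) := by
  have h := beta_fricke M' p (tV n e M' hb hnM)
  rw [alphaN_tV n e M' p hb hnM] at h
  exact h

/-- the fraction reduction of `W f` is `rho2 f`. -/
theorem isRedOf_fricke (f : ↥(O2 M' p A)) :
    IsRedOf (Gq1 M' p A) (redq1 M' p A) (frickeN M' p (f : ↥(Fbar (M' * p))))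
      (rho2 M' p A f) := by
  rw [rho2_apply]
  exact isRedOf_rho (Gq1 M' p A) (redq1 M' p A) ⟨frickeN M' p (f : ↥(Fbar (M' * p))), f.2⟩

include hpM in
/-- **`rho2 tN = V_p (u)`, `u` the reduction of `W_{M'} tV` at the good level.** -/
theorem exists_rho2_tN (h2 : tN n e M' p hb hnM ∈ O2 M' p A)
    (hne : rho2 M' p A ⟨tN n e M' p hb hnM, h2⟩ ≠ 0) :
    ∃ u : Ft M' A, u ≠ 0 ∧ IsRedOf G' red' (frickeBar M' (tV n e M' hb hnM)) u ∧
      rho2 M' p A ⟨tN n e M' p hb hnM, h2⟩ = vpFt M' p A hA u := by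
  have hw0 : frickeBar M' (tV n e M' hb hnM) ≠ 0 := by
    rw [Ne, map_eq_zero]
    exact (hxV n e M' hb hnM).ne_zero
  obtain ⟨c, hc0, hgu⟩ := Fermat.Agent.ES.V19.ScaleQbar8.exists_scale A p hA M' hpM _ hw0
  obtain ⟨ψ, hψ0, hψ⟩ := hgu.exists_isRedOf
  have hφ₂ : IsRedOf (Gq1 M' p A) (redq1 M' p A) (frickeN M' p (tN n e M' p hb hnM))
      (rho2 M' p A ⟨tN n e M' p hb hnM, h2⟩) := isRedOf_fricke M' p A ⟨tN n e M' p hb hnM, h2⟩
  rw [← beta_fricke_tV M' p n e hb hnM] at hφ₂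
  exact exists_red_of_scale (resA A)
    (fun a ha => (IsLocalRing.residue_eq_zero_iff a).2 ha)
    (isRedOf_const_good M' A) (isRedOf_const_bad M' p A) β (vpFt M' p A hA)
    (vpFt_algebraMap M' p A hA) (fun f φ h => isRedOf_beta M' p A hA h) hc0 hψ0 hψ hne hφ₂

end Main

end Fermat.Agent.ES.W33.BetaRed15
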