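/-
Programme W (S33), chapter (B3′), per-point facts (c) and `red_s` — helper9:
**the first-component reductions of the chart coordinates: `rho1 tN = t̃`, `rho1 yN = V_p t̃`, and their
non-constancy** (the fields `red_s`, `h1` of `GoodCofiniteN9.ChartAt₁`; the twin of helper15's
`BetaRed15` for the degeneracy map `α`).

`G' := gaussRingN A (resA A) M'`, `red' := gaussRedN A (resA A) M'` (good level); `α := alphaN M' p`,
`β := heckeBetaBar ℚ̄ M' p`.
* `alpha_mem_Gq1`, `redq1_alpha` : `α` maps `G'` into `Gq1` and `redq1 (α g) = red' g`;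
* **`isRedOf_alpha`** : `IsRedOf G' red' f φ → IsRedOf Gq1 redq1 (α f) φ` (`rho1 (α x) = x̄`, the literal
  announced for `FrickeBar8`);
* `isRedOf_tV` : the good-level reduction of `tV` is `t̃ = tResV` (main's `red_sB_V`, `redqV_eq`);
* **`tN_mem_O1`, `rho1_tN : rho1 ⟨tN, _⟩ = tResV`**; **`yN_mem_O1`, `rho1_yN : rho1 ⟨yN, _⟩ = vpFt tResV`**
  (`yN := β tV`, helper15's `isRedOf_beta`);
* `ne_algebraMap_of_transcendental`, `tRes_ne_algebraMap`, `vpFt_tRes_ne_algebraMap`,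
  **`rho1_tN_ne_algebraMap`, `rho1_yN_ne_algebraMap`** : neither is a constant.
-/
import Mathlib
import Fermat.Agent.ES.W33.NodalDefs3
import Fermat.Agent.ES.W33.BetaRed15

set_option autoImplicit false
set_option synthInstance.maxHeartbeats 400000
set_option linter.unusedSectionVars false

open HahnSeries ModularCurve AlgebraicCurve

noncomputable section

namespace Fermat.Agent.ES.W33.AlphaRedN9

open Fermat.Agent.X0.FF
  Fermat.Agent.RED.Interface4 Fermat.Agent.RED.BASE.Interface12 Fermat.Agent.RED.BASE.Hauptmodul12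
  Fermat.Agent.ES.RED.Contract8 Fermat.Agent.ES.RED.ModelInst4 Fermat.Agent.ES.RED.GaussRing15
  Fermat.Agent.ES.V19.GaussFrac15 Fermat.Agent.ES.V19.InstNames3 Fermat.Agent.ES.W33.NodalDefs3
  Fermat.Agent.ES.W33.BetaRed15

attribute [local instance 5000] HahnSeries.powerSeriesAlgebra SubalgebraClass.toAlgebra

variable (M' : ℕ) [NeZero M'] (p : ℕ) [Fact p.Prime] (A : ValuationSubring Qbar)

/-! ### `α` on the Gauss rings -/

section Alpha

theorem coe_alphaN (g : ↥(Fbar M')) :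
    ((alphaN M' p g : ↥(Fbar (M' * p))) : LaurentSeries Qbar) = (g : LaurentSeries Qbar) :=
  Fermat.Agent.ES.HECKE.LevelPullback12.coe_levelIncl _ g

theorem alpha_mem_Gq1 (g : ↥(Fbar M')) (hg : g ∈ gaussRingN A (resA A) M') :
    alphaN M' p g ∈ Gq1 M' p A := by
  obtain ⟨Y, hY, hYt⟩ := hg
  exact ⟨Y, by rw [hY, coe_alphaN], hYt⟩

theorem redq1_alpha (g : ↥(Fbar M')) (hg : g ∈ gaussRingN A (resA A) M') :
    redq1 M' p A ⟨alphaN M' p g, alpha_mem_Gq1 M' p A g hg⟩ =
      gaussRedN A (resA A) M' ⟨g, hg⟩ := by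
  apply Subtype.ext
  have hY := coeffMap_gaussLift A (resA A) (Fbar M') (modularFunctionFieldFullC (kA A) M') ⟨g, hg⟩
  have hY' : coeffMap A.subtype (gaussLift A (resA A) (Fbar M')
      (modularFunctionFieldFullC (kA A) M') ⟨g, hg⟩) =
      ((alphaN M' p g : ↥(Fbar (M' * p))) : LaurentSeries Qbar) := by
    rw [hY, coe_alphaN]
  rw [gaussRed_eq A (resA A) (Fbar (M' * p)) (modularFunctionFieldFullC (kA A) M') _ hY']
  rfl

/-- **`rho1 (α x) = x̄`** in the fraction vocabulary of `GaussFrac15`. -/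
theorem isRedOf_alpha {f : ↥(Fbar M')} {φ : Ft M' A}
    (h : IsRedOf (gaussRingN A (resA A) M') (gaussRedN A (resA A) M') f φ) :
    IsRedOf (Gq1 M' p A) (redq1 M' p A) (alphaN M' p f) φ := by
  obtain ⟨a, b, hb, hfb, hφ⟩ := h
  refine ⟨⟨alphaN M' p (a : ↥(Fbar M')), alpha_mem_Gq1 M' p A _ a.2⟩,
    ⟨alphaN M' p (b : ↥(Fbar M')), alpha_mem_Gq1 M' p A _ b.2⟩, ?_, ?_, ?_⟩
  · rw [redq1_alpha M' p A _ b.2]
    exact hb
  · show alphaN M' p f * alphaN M' p (b : ↥(Fbar M')) = alphaN M' p (a : ↥(Fbar M'))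
    rw [← map_mul, hfb]
  · rw [redq1_alpha M' p A _ b.2, redq1_alpha M' p A _ a.2]
    exact hφ

end Alpha

/-! ### the coordinates -/

section Coord

variable (n e : ℕ) [NeZero n] (hpM : ¬ p ∣ M') (hb : BaseHyp n e) (hnM : n ∣ M')
  (hA : A.LiesOverPrime p)

/-- the good-level reduction of `tV` is `t̃`. -/
theorem isRedOf_tV :
    IsRedOf (gaussRingN A (resA A) M') (gaussRedN A (resA A) M') (tV n e M' hb hnM)
      (tResV n e M' p hpM hb hnM A hA) := by
  have hmem : tV n e M' hb hnM ∈ (TV n e M' p hpM hb hnM A hA).S0.B :=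
    (TV n e M' p hpM hb hnM A hA).S0.s_mem
  have h1 := redqV_eq n e M' p hpM hb hnM A hA ⟨tV n e M' hb hnM, hmem⟩
  have h2 := red_sB_V n e M' p hpM hb hnM A hA
  have h3 : redqV M' A ⟨tV n e M' hb hnM, B0_le_GqV n e M' p hpM hb hnM A hA hmem⟩ =
      tResV n e M' p hpM hb hnM A hA := h1.trans h2
  have := isRedOf_of_mem (G := gaussRingN A (resA A) M') (red := gaussRedN A (resA A) M')
    ⟨tV n e M' hb hnM, B0_le_GqV n e M' p hpM hb hnM A hA hmem⟩
  rwa [h3] at this

/-- `rho1 tN = t̃`, fraction form. -/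
theorem isRedOf_tN :
    IsRedOf (Gq1 M' p A) (redq1 M' p A) (tN n e M' p hb hnM) (tResV n e M' p hpM hb hnM A hA) := by
  have h := isRedOf_alpha M' p A (isRedOf_tV M' p A n e hpM hb hnM hA)
  rwa [alphaN_tV n e M' p hb hnM] at h

include hpM hA in
theorem tN_mem_O1 : tN n e M' p hb hnM ∈ O1 M' p A :=
  (isRedOf_tN M' p A n e hpM hb hnM hA).isGI

/-- **`rho1 tN = t̃`.** -/
theorem rho1_tN (h : tN n e M' p hb hnM ∈ O1 M' p A) :
    rho1 M' p A ⟨tN n e M' p hb hnM, h⟩ = tResV n e M' p hpM hb hnM A hA :=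
  rho_eq_of_isRedOf (isRedOf_tN M' p A n e hpM hb hnM hA)

/-- `rho1 yN = V_p t̃`, fraction form (`yN := β tV`). -/
theorem isRedOf_yN :
    IsRedOf (Gq1 M' p A) (redq1 M' p A) (heckeBetaBar Qbar M' p (tV n e M' hb hnM))
      (vpFt M' p A hA (tResV n e M' p hpM hb hnM A hA)) :=
  isRedOf_beta M' p A hA (isRedOf_tV M' p A n e hpM hb hnM hA)

include hpM hA in
theorem yN_mem_O1 : heckeBetaBar Qbar M' p (tV n e M' hb hnM) ∈ O1 M' p A :=
  (isRedOf_yN M' p A n e hpM hb hnM hA).isGI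

/-- **`rho1 yN = V_p t̃`.** -/
theorem rho1_yN (h : heckeBetaBar Qbar M' p (tV n e M' hb hnM) ∈ O1 M' p A) :
    rho1 M' p A ⟨heckeBetaBar Qbar M' p (tV n e M' hb hnM), h⟩ =
      vpFt M' p A hA (tResV n e M' p hpM hb hnM A hA) :=
  rho_eq_of_isRedOf (isRedOf_yN M' p A n e hpM hb hnM hA)

/-! ### non-constancy -/

omit [NeZero M'] [Fact p.Prime] in
/-- a transcendental element is not a constant. -/
theorem ne_algebraMap_of_transcendental {k E : Type*} [Field k] [Field E] [Algebra k E] {φ : E}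
    (h : Transcendental k φ) (z : k) : φ ≠ algebraMap k E z := by
  rintro rfl
  exact h (isAlgebraic_algebraMap z)

theorem tRes_ne_algebraMap (z : kA A) :
    tResV n e M' p hpM hb hnM A hA ≠ algebraMap (kA A) (Ft M' A) z :=
  ne_algebraMap_of_transcendental (hxtV n e M' p hpM hb hnM A hA).transcendental z

theorem vpFt_tRes_ne_algebraMap (z : kA A) :
    vpFt M' p A hA (tResV n e M' p hpM hb hnM A hA) ≠ algebraMap (kA A) (Ft M' A) z := by
  intro h
  rw [← vpFt_algebraMap M' p A hA z] at h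
  exact tRes_ne_algebraMap M' p A n e hpM hb hnM hA z (vpFt_injective M' p A hA h)

include hpM hA in
/-- **the field `h1` of `ChartAt₁` for `S.s = tN`** (`rho1` form). -/
theorem rho1_tN_ne_algebraMap (h : tN n e M' p hb hnM ∈ O1 M' p A) (z : kA A) :
    rho1 M' p A ⟨tN n e M' p hb hnM, h⟩ ≠ algebraMap (kA A) (Ft M' A) z := by
  rw [rho1_tN M' p A n e hpM hb hnM hA h]
  exact tRes_ne_algebraMap M' p A n e hpM hb hnM hA z

include hpM hA in
/-- **the field `h1` of `ChartAt₂` for `S.s = yN`** (`rho1` form). -/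
theorem rho1_yN_ne_algebraMap (h : heckeBetaBar Qbar M' p (tV n e M' hb hnM) ∈ O1 M' p A)
    (z : kA A) :
    rho1 M' p A ⟨heckeBetaBar Qbar M' p (tV n e M' hb hnM), h⟩ ≠
      algebraMap (kA A) (Ft M' A) z := by
  rw [rho1_yN M' p A n e hpM hb hnM hA h]
  exact vpFt_tRes_ne_algebraMap M' p A n e hpM hb hnM hA z

end Coord

end Fermat.Agent.ES.W33.AlphaRedN9
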