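/-
Programme W (S33, route `S33_ROUTE8.md` of helper8), brick (R), helper8:
**elementary Raynaud — a connected Hopf order with unramified points over an absolutely unramified
base (uniformizer `p`, `p` odd) on a group killed by `p` is trivial.**

Let `W` be a ring with `⋂ pⁿ W = 0` (e.g. a discrete valuation ring with uniformizer `p`), `W → Ω`
injective into a field in which `p ≠ 0`, `G` an additive commutative group killed by `p`, and
`B ⊆ (G → Ω)` a `W`-subalgebra of functions such that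

* (`hval`) every value `b g` lies in `W` (trivial inertia action + integrality);
* (`hconn`) `B` is *connected*: `b g - b 0 ∈ p W` (all residue maps coincide; `𝔪 ∩ W = p W`);
* (`hcomul`) `B` is stable under comultiplication: `b (x + y) = ∑ i, a i x * c i y`, `a i, c i ∈ B`.

Then every `b ∈ B` is constant: `b g = b 0`.  In particular `B` cannot separate the points of `ℤ/p`:
there is no connected finite flat group scheme of order `p` with constant generic fibre over an
absolutely unramified base when `p` is odd.  (No Oort–Tate classification, no Raynaud.)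

Proof.  For `b` with `b 0 = 0` the counit gives `b (x + y) - b x - b y = ∑ a' i x * c' i y` with
`a' i 0 = 0 = c' i 0`.  If all such functions take values in `pᵏ W` then summing over `x = n g`,
`y = g`, `n < p` gives `0 = b (p g) = p b g + ∑ₙ ∑ᵢ a' i (n g) * c' i g`, so `b g ∈ p^(2k-1) W`;
for `k = 1` one first gets `b (n g) ≡ n b g mod p²` and then the double sum is
`≡ (∑ₙ n) ∑ᵢ a' i g * c' i g ≡ 0 mod p³` because `∑_{n<p} n = p (p-1)/2` is divisible by `p`.
-/
import Mathlib

set_option autoImplicit false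

namespace Fermat.Agent.ES.W33.ConnOrder8

open Finset

variable {W Ω G : Type*} [CommRing W] [Field Ω] [Algebra W Ω] [AddCommGroup G]

/-- `z ∈ pᵏ W` (inside `Ω`). -/
def InPow (W : Type*) {Ω : Type*} [CommRing W] [Field Ω] [Algebra W Ω] (p k : ℕ) (z : Ω) : Prop :=
  ∃ w : W, z = algebraMap W Ω ((p : W) ^ k * w)

theorem inPow_zero (p k : ℕ) : InPow W p k (0 : Ω) := ⟨0, by simp⟩

theorem InPow.add {p k : ℕ} {x y : Ω} (hx : InPow W p k x) (hy : InPow W p k y) :
    InPow W p k (x + y) := by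
  obtain ⟨u, rfl⟩ := hx
  obtain ⟨v, rfl⟩ := hy
  exact ⟨u + v, by rw [← map_add]; congr 1; ring⟩

theorem InPow.neg {p k : ℕ} {x : Ω} (hx : InPow W p k x) : InPow W p k (-x) := by
  obtain ⟨u, rfl⟩ := hx
  exact ⟨-u, by rw [← map_neg]; congr 1; ring⟩

theorem InPow.sub {p k : ℕ} {x y : Ω} (hx : InPow W p k x) (hy : InPow W p k y) :
    InPow W p k (x - y) := by
  rw [sub_eq_add_neg]; exact hx.add hy.neg

theorem InPow.mul {p k l : ℕ} {x y : Ω} (hx : InPow W p k x) (hy : InPow W p l y) :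
    InPow W p (k + l) (x * y) := by
  obtain ⟨u, rfl⟩ := hx
  obtain ⟨v, rfl⟩ := hy
  exact ⟨u * v, by rw [← map_mul]; congr 1; ring⟩

theorem InPow.mono {p k l : ℕ} (hkl : l ≤ k) {x : Ω} (hx : InPow W p k x) : InPow W p l x := by
  obtain ⟨u, rfl⟩ := hx
  obtain ⟨d, rfl⟩ := Nat.exists_eq_add_of_le hkl
  exact ⟨(p : W) ^ d * u, by congr 1; ring⟩

theorem InPow.natMul {p k : ℕ} (n : ℕ) {x : Ω} (hx : InPow W p k x) :
    InPow W p k ((n : Ω) * x) := by
  obtain ⟨u, rfl⟩ := hx
  exact ⟨(n : W) * u, by rw [← map_natCast (algebraMap W Ω) n, ← map_mul]; congr 1; ring⟩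

theorem InPow.pMul {p k : ℕ} {x : Ω} (hx : InPow W p k x) :
    InPow W p (k + 1) ((p : Ω) * x) := by
  obtain ⟨u, rfl⟩ := hx
  exact ⟨u, by rw [← map_natCast (algebraMap W Ω) p, ← map_mul]; congr 1; ring⟩

theorem inPow_sum {ι : Type*} (s : Finset ι) {p k : ℕ} (f : ι → Ω)
    (h : ∀ i ∈ s, InPow W p k (f i)) : InPow W p k (∑ i ∈ s, f i) := by
  classical
  induction s using Finset.induction_on with
  | empty => simpa using inPow_zero (W := W) (Ω := Ω) p k
  | insert a s has ih =>
    rw [Finset.sum_insert has]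
    exact (h a (Finset.mem_insert_self a s)).add
      (ih fun i hi => h i (Finset.mem_insert_of_mem hi))

/-- cancel one `p`. -/
theorem InPow.of_pMul {p k : ℕ} (hp0 : (p : Ω) ≠ 0)
    {x : Ω} (hx : InPow W p (k + 1) ((p : Ω) * x)) :
    InPow W p k x := by
  obtain ⟨u, hu⟩ := hx
  refine ⟨u, ?_⟩
  apply mul_left_cancel₀ hp0
  rw [hu, ← map_natCast (algebraMap W Ω) p, ← map_mul]
  congr 1; ring

section Main

variable (p : ℕ) (hp : p.Prime) (hp2 : p ≠ 2)
  (hinj : Function.Injective (algebraMap W Ω)) (hp0 : (p : Ω) ≠ 0)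
  (B : Subalgebra W (G → Ω))
  (hval : ∀ b ∈ B, ∀ g, ∃ w : W, b g = algebraMap W Ω w)
  (hcomul : ∀ b ∈ B, ∃ (n : ℕ) (a c : Fin n → (G → Ω)), (∀ i, a i ∈ B) ∧ (∀ i, c i ∈ B) ∧
    ∀ x y, b (x + y) = ∑ i, a i x * c i y)

include hval hcomul in
/-- The counit trick: for `b ∈ B` the defect of additivity is a sum of products of functions of `B`
vanishing at `0`. -/
theorem exists_defect (b : G → Ω) (hb : b ∈ B) :
    ∃ (n : ℕ) (a c : Fin n → (G → Ω)), (∀ i, a i ∈ B) ∧ (∀ i, c i ∈ B) ∧
      (∀ i, a i 0 = 0) ∧ (∀ i, c i 0 = 0) ∧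
      ∀ x y, b (x + y) - b x - b y + b 0 = ∑ i, a i x * c i y := by
  obtain ⟨n, a, c, ha, hc, hac⟩ := hcomul b hb
  have hconst : ∀ f ∈ B, (fun x => f x - f 0) ∈ B := by
    intro f hf
    obtain ⟨w, hw⟩ := hval f hf 0
    have h1 : (fun x => f x - f 0) = f - algebraMap W (G → Ω) w := by
      funext x
      simp [hw, Pi.algebraMap_apply]
    rw [h1]
    exact B.sub_mem hf (B.algebraMap_mem w)
  refine ⟨n, fun i x => a i x - a i 0, fun i x => c i x - c i 0, fun i => hconst _ (ha i),
    fun i => hconst _ (hc i), fun i => sub_self _, fun i => sub_self _, fun x y => ?_⟩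
  have e1 := hac x y
  have e2 := hac 0 y
  have e3 := hac x 0
  have e4 := hac 0 0
  simp only [zero_add, add_zero] at e2 e3 e4
  have : ∑ i, (a i x - a i 0) * (c i y - c i 0)
      = ∑ i, a i x * c i y - ∑ i, a i 0 * c i y - ∑ i, a i x * c i 0 + ∑ i, a i 0 * c i 0 := by
    simp only [← Finset.sum_sub_distrib, ← Finset.sum_add_distrib]
    exact Finset.sum_congr rfl fun i _ => by ring
  rw [this, ← e1, ← e2, ← e3, ← e4]
  ring

/-- Level-`k` connectedness: every function of `B` vanishing at `0` has values in `pᵏ W`. -/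
def Conn (k : ℕ) : Prop := ∀ b ∈ B, b 0 = 0 → ∀ g, InPow W p k (b g)

include hval hcomul in
/-- Telescoping: `b (n g) = n b g + ∑_{j<n} ∑ᵢ a i (j g) * c i g`. -/
theorem nsmul_expand (b : G → Ω) (hb : b ∈ B) (hb0 : b 0 = 0) :
    ∃ (n : ℕ) (a c : Fin n → (G → Ω)), (∀ i, a i ∈ B) ∧ (∀ i, c i ∈ B) ∧
      (∀ i, a i 0 = 0) ∧ (∀ i, c i 0 = 0) ∧
      ∀ (g : G) (m : ℕ), b (m • g) = (m : Ω) * b g + ∑ j ∈ range m, ∑ i, a i (j • g) * c i g := by
  obtain ⟨n, a, c, ha, hc, ha0, hc0, hac⟩ := exists_defect B hval hcomul b hb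
  refine ⟨n, a, c, ha, hc, ha0, hc0, fun g m => ?_⟩
  induction m with
  | zero => simp [hb0]
  | succ m ih =>
    have h := hac (m • g) g
    rw [hb0, add_zero] at h
    rw [succ_nsmul, Finset.sum_range_succ, ← h, ih]
    push_cast
    ring

include hp hp2 hp0 hval hcomul in
/-- Bootstrap step `k ≥ 2`: `Conn k → Conn (2k-1)`; and `Conn 1 → Conn 2`.  Uniformly:
`Conn k → Conn (k+1)` for `k ≥ 1`. -/
theorem conn_succ (hG : ∀ g : G, p • g = 0) (k : ℕ) (hk : 1 ≤ k) (h : Conn (W := W) p B k) :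
    Conn (W := W) p B (k + 1) := by
  intro b hb hb0 g
  obtain ⟨n, a, c, ha, hc, ha0, hc0, hexp⟩ := nsmul_expand B hval hcomul b hb hb0
  have hpg := hexp g p
  rw [hG g, hb0] at hpg
  -- `p * b g = - ∑ⱼ ∑ᵢ a i (j g) * c i g`
  have hmain : (p : Ω) * b g = -∑ j ∈ range p, ∑ i, a i (j • g) * c i g := by
    linear_combination -hpg
  apply InPow.of_pMul hp0
  rw [hmain]
  apply InPow.neg
  rcases Nat.lt_or_ge 1 k with hk2 | hk1
  · -- `k ≥ 2`: every term lies in `p^(2k) ⊆ p^(k+2)`
    apply inPow_sum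
    intro j _
    apply inPow_sum
    intro i _
    exact ((h (a i) (ha i) (ha0 i) (j • g)).mul (h (c i) (hc i) (hc0 i) g)).mono (by omega)
  · -- `k = 1`
    have hk' : k = 1 := le_antisymm hk1 hk
    subst hk'
    -- `a i (j g) = j a i g + (element of p²)`
    have hlin : ∀ i, ∀ j : ℕ, InPow W p 2 (a i (j • g) - (j : Ω) * a i g) := by
      intro i j
      obtain ⟨n', a', c', ha', hc', ha0', hc0', hexp'⟩ :=
        nsmul_expand B hval hcomul (a i) (ha i) (ha0 i)
      rw [hexp' g j, add_sub_cancel_left]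
      apply inPow_sum
      intro j' _
      apply inPow_sum
      intro i' _
      exact (h (a' i') (ha' i') (ha0' i') (j' • g)).mul (h (c' i') (hc' i') (hc0' i') g)
    -- split the double sum
    have hsplit : ∑ j ∈ range p, ∑ i, a i (j • g) * c i g
        = ∑ j ∈ range p, ∑ i, (a i (j • g) - (j : Ω) * a i g) * c i g
          + (∑ j ∈ range p, (j : Ω)) * ∑ i, a i g * c i g := by
      rw [Finset.sum_mul, ← Finset.sum_add_distrib]
      refine Finset.sum_congr rfl fun j _ => ?_
      rw [Finset.mul_sum, ← Finset.sum_add_distrib]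
      exact Finset.sum_congr rfl fun i _ => by ring
    rw [hsplit]
    apply InPow.add
    · apply inPow_sum
      intro j _
      apply inPow_sum
      intro i _
      exact (hlin i j).mul (h (c i) (hc i) (hc0 i) g)
    · -- `∑_{j<p} j = p * ((p-1)/2)`
      have hodd : ∃ t : ℕ, ∑ j ∈ range p, j = p * t := by
        rw [Finset.sum_range_id_mul_two p |> fun e => (Nat.eq_div_of_mul_eq_left (by norm_num) e)]
        rcases hp.eq_two_or_odd' with h2 | ⟨t, ht⟩
        · exact absurd h2 hp2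
        · refine ⟨t, ?_⟩
          have : p - 1 = 2 * t := by omega
          rw [this, Nat.mul_comm 2 t, ← Nat.mul_assoc, Nat.mul_div_cancel _ (by norm_num)]
      obtain ⟨t, ht⟩ := hodd
      have hcast : (∑ j ∈ range p, (j : Ω)) = (p : Ω) * (t : Ω) := by
        rw [← Nat.cast_sum, ht]; push_cast; ring
      rw [hcast, mul_assoc]
      have h2 : InPow W p 2 (∑ i, a i g * c i g) := by
        apply inPow_sum
        intro i _
        exact (h (a i) (ha i) (ha0 i) g).mul (h (c i) (hc i) (hc0 i) g)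
      exact (h2.natMul t).pMul

include hp hp2 hinj hp0 hval hcomul in
/-- **Elementary Raynaud.**  A connected comultiplication-stable algebra of `W`-valued functions on a
group killed by `p` (`p` odd, `⋂ pⁿ W = 0`) consists of constant functions. -/
theorem const_of_conn (hG : ∀ g : G, p • g = 0)
    (hKrull : ∀ w : W, (∀ n : ℕ, ∃ v : W, w = (p : W) ^ n * v) → w = 0)
    (hconn : ∀ b ∈ B, ∀ g, ∃ w : W, b g - b 0 = algebraMap W Ω ((p : W) * w))
    (b : G → Ω) (hb : b ∈ B) (g : G) : b g = b 0 := by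
  have hall : ∀ k : ℕ, 1 ≤ k → Conn (W := W) p B k := by
    intro k hk
    induction k, hk using Nat.le_induction with
    | base =>
      intro f hf hf0 x
      obtain ⟨w, hw⟩ := hconn f hf x
      rw [hf0, sub_zero] at hw
      exact ⟨w, by rw [hw, pow_one]⟩
    | succ k hk ih => exact conn_succ p hp hp2 hp0 B hval hcomul hG k hk ih
  -- apply to `b - b 0`
  obtain ⟨w0, hw0⟩ := hval b hb 0
  have hmem : (fun x => b x - b 0) ∈ B := by
    have h1 : (fun x => b x - b 0) = b - algebraMap W (G → Ω) w0 := by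
      funext x
      simp [hw0, Pi.algebraMap_apply]
    rw [h1]
    exact B.sub_mem hb (B.algebraMap_mem w0)
  obtain ⟨w, hw⟩ := hval _ hmem g
  have hw' : w = 0 := by
    apply hKrull
    intro n
    rcases Nat.eq_zero_or_pos n with rfl | hn
    · exact ⟨w, by simp⟩
    · obtain ⟨v, hv⟩ := hall n hn _ hmem (sub_self _) g
      exact ⟨v, hinj (by rw [← hw, hv])⟩
  have h0 : b g - b 0 = 0 := by
    have h1 : b g - b 0 = algebraMap W Ω w := hw
    rw [h1, hw', map_zero]
  exact sub_eq_zero.mp h0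

end Main

end Fermat.Agent.ES.W33.ConnOrder8
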