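/-
Programme W (S33, route `S33_ROUTE8.md`), chapter ASM, bricks (A3)-local + (*) (helper8):
**connected equivariant orders have no subquotient `ℤ/p` with trivial action.**

`WIface8.IsConnOrderV A H` (`h x ∈ A`, `h x - h y ∈ A.nonunits`) passes to restrictions (`subOrder`),
to quotients (`quotOrder`) and to finite powers (`piOrder`), with no algebra: the connected functions
form a subalgebra `connSubalgebra` as soon as the image of `R` lies in `A`.

`false_of_conn_trivial` : let `R` be integrally closed with fraction field `K = Ω^G`, `⋂ pⁿ R = 0`,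
`p` odd, `A.nonunits ∩ R ⊆ p R` (absolutely unramified base).  A connected `G`-equivariant order
(`OrderHyp4.IsEquivOrder`) on a nonzero group `Z` killed by `p` on which `G` acts trivially does not
exist (`ConnOrder8.const_of_conn` contradicts separation).
-/
import Mathlib
import Fermat.Agent.ES.W33.ConnOrder8
import Fermat.Agent.ES.W33.WIface8
import Fermat.Agent.ES.V19.OrderQuot4
import Fermat.Agent.ES.V32.OrderPi18

set_option autoImplicit false

namespace Fermat.Agent.ES.W33.ConnSubquot8

open Fermat.Agent.ES.V19.OrderHyp4 Fermat.Agent.ES.V19.OrderSub4 Fermat.Agent.ES.V19.OrderQuot4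
  Fermat.Agent.ES.V32.OrderPi18 Fermat.Agent.ES.W33.WIface8

section Conn

variable {R Ω : Type*} [CommRing R] [Field Ω] [Algebra R Ω] {A : ValuationSubring Ω}
  {M M₁ M₂ : Type*}

theorem sub_mem_nonunits {a b : Ω} (ha : a ∈ A.nonunits) (hb : b ∈ A.nonunits) :
    a - b ∈ A.nonunits := by
  rw [ValuationSubring.mem_nonunits_iff] at ha hb ⊢
  exact lt_of_le_of_lt (A.valuation.map_sub _ _) (max_lt ha hb)

theorem add_mem_nonunits {a b : Ω} (ha : a ∈ A.nonunits) (hb : b ∈ A.nonunits) :
    a + b ∈ A.nonunits := by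
  rw [ValuationSubring.mem_nonunits_iff] at ha hb ⊢
  exact lt_of_le_of_lt (A.valuation.map_add _ _) (max_lt ha hb)

theorem mul_mem_nonunits_left {a b : Ω} (ha : a ∈ A) (hb : b ∈ A.nonunits) :
    a * b ∈ A.nonunits := by
  rw [ValuationSubring.mem_nonunits_iff] at hb ⊢
  rw [map_mul]
  have h1 : A.valuation a ≤ 1 := (A.valuation_le_one_iff a).mpr ha
  calc A.valuation a * A.valuation b ≤ 1 * A.valuation b := mul_le_mul_left h1 _
    _ = A.valuation b := one_mul _
    _ < 1 := hb

theorem zero_mem_nonunits : (0 : Ω) ∈ A.nonunits := by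
  rw [ValuationSubring.mem_nonunits_iff, map_zero]
  exact zero_lt_one

theorem isConnOrderV_subOrder {H : Subalgebra R (M → Ω)} (hH : IsConnOrderV A H) (ι : M₁ → M) :
    IsConnOrderV A (subOrder H ι) := by
  intro g hg x y
  obtain ⟨h, hh, rfl⟩ := mem_subOrder.mp hg
  exact hH h hh (ι x) (ι y)

theorem isConnOrderV_quotOrder {H : Subalgebra R (M → Ω)} (hH : IsConnOrderV A H) {π : M → M₂}
    (hπ : Function.Surjective π) : IsConnOrderV A (quotOrder H π) := by
  intro g hg x y
  obtain ⟨x', rfl⟩ := hπ x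
  obtain ⟨y', rfl⟩ := hπ y
  exact hH _ (mem_quotOrder.mp hg) x' y'

/-- The connected functions form a subalgebra as soon as the image of `R` lies in `A`. -/
def connSubalgebra (A : ValuationSubring Ω) (hRA : ∀ r : R, algebraMap R Ω r ∈ A) (M : Type*) :
    Subalgebra R (M → Ω) where
  carrier := {h | ∀ x y : M, h x ∈ A ∧ h x - h y ∈ A.nonunits}
  mul_mem' := by
    intro f g hf hg x y
    refine ⟨A.mul_mem _ _ (hf x y).1 (hg x y).1, ?_⟩
    have : (f * g) x - (f * g) y = f x * (g x - g y) + g y * (f x - f y) := by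
      simp only [Pi.mul_apply]; ring
    rw [this]
    exact add_mem_nonunits (mul_mem_nonunits_left (hf x y).1 (hg x y).2)
      (mul_mem_nonunits_left (hg y x).1 (hf x y).2)
  add_mem' := by
    intro f g hf hg x y
    refine ⟨A.add_mem _ _ (hf x y).1 (hg x y).1, ?_⟩
    have : (f + g) x - (f + g) y = (f x - f y) + (g x - g y) := by
      simp only [Pi.add_apply]; ring
    rw [this]
    exact add_mem_nonunits (hf x y).2 (hg x y).2
  algebraMap_mem' := by
    intro r x y
    refine ⟨hRA r, ?_⟩
    simp only [Pi.algebraMap_apply, sub_self]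
    exact zero_mem_nonunits

theorem isConnOrderV_iff_le (hRA : ∀ r : R, algebraMap R Ω r ∈ A) (H : Subalgebra R (M → Ω)) :
    IsConnOrderV A H ↔ H ≤ connSubalgebra A hRA M := Iff.rfl

/-- Connectedness may be checked on algebra generators. -/
theorem isConnOrderV_adjoin (hRA : ∀ r : R, algebraMap R Ω r ∈ A) (S : Set (M → Ω))
    (hS : ∀ s ∈ S, ∀ x y : M, s x ∈ A ∧ s x - s y ∈ A.nonunits) :
    IsConnOrderV A (Algebra.adjoin R S) := by
  rw [isConnOrderV_iff_le hRA]
  exact Algebra.adjoin_le hS

theorem isConnOrderV_piOrder (hRA : ∀ r : R, algebraMap R Ω r ∈ A) {H : Subalgebra R (M → Ω)}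
    (hH : IsConnOrderV A H) (ι : Type*) : IsConnOrderV A (piOrder H ι) := by
  rw [isConnOrderV_iff_le hRA]
  unfold Fermat.Agent.ES.V32.OrderPi18.piOrder
  refine iSup_le fun i => ?_
  rw [← isConnOrderV_iff_le hRA]
  exact isConnOrderV_subOrder hH _

end Conn

section Core

variable {R K Ω G Z : Type*} [CommRing R] [Field K] [Field Ω] [Algebra R K]
  [Algebra K Ω] [Algebra R Ω] [IsScalarTower R K Ω] [IsFractionRing R K] [IsIntegrallyClosed R]
  [Group G] [MulSemiringAction G Ω] [AddCommGroup Z] [MulAction G Z]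

/-- **(*)**: a connected equivariant order over an absolutely unramified base on a nonzero group killed
by `p` (odd) with trivial action does not exist. -/
theorem false_of_conn_trivial (p : ℕ) (hp : p.Prime) (hp2 : p ≠ 2) (hp0 : (p : Ω) ≠ 0)
    (hfix : ∀ a : Ω, (∀ σ : G, σ • a = a) → a ∈ (algebraMap K Ω).range)
    (hKrull : ∀ w : R, (∀ n : ℕ, ∃ v : R, w = (p : R) ^ n * v) → w = 0)
    (A : ValuationSubring Ω)
    (hmR : ∀ w : R, algebraMap R Ω w ∈ A.nonunits → ∃ w' : R, w = (p : R) * w')
    (htriv : ∀ (σ : G) (z : Z), σ • z = z) (hpZ : ∀ z : Z, p • z = 0) (hZ : ∃ z : Z, z ≠ 0)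
    {H : Subalgebra R (Z → Ω)} (hH : IsEquivOrder G H) (hconn : IsConnOrderV A H) : False := by
  have hinjK : Function.Injective (algebraMap K Ω) := (algebraMap K Ω).injective
  have hinjRK : Function.Injective (algebraMap R K) := IsFractionRing.injective R K
  have hinj : Function.Injective (algebraMap R Ω) := by
    rw [IsScalarTower.algebraMap_eq R K Ω]
    exact hinjK.comp hinjRK
  -- values lie in `R`
  have hval : ∀ h ∈ H, ∀ z : Z, ∃ w : R, h z = algebraMap R Ω w := by
    intro h hh z
    have hfixed : ∀ σ : G, σ • h z = h z := fun σ => by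
      rw [← hH.equiv h hh σ z, htriv]
    obtain ⟨a, ha⟩ := hfix (h z) hfixed
    have := hH.finite
    have hint : IsIntegral R (⟨h, hh⟩ : H) := IsIntegral.of_finite R _
    have hint' : IsIntegral R (h z) := by
      have h1 : IsIntegral R ((Pi.evalAlgHom R (fun _ : Z => Ω) z).comp H.val ⟨h, hh⟩) :=
        hint.map _
      simpa using h1
    have hinta : IsIntegral R a := by
      rw [← ha] at hint'
      exact (isIntegral_algHom_iff (IsScalarTower.toAlgHom R K Ω) hinjK).mp hint'
    obtain ⟨w, hw⟩ := IsIntegrallyClosed.isIntegral_iff.mp hinta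
    exact ⟨w, by rw [← ha, ← hw, ← IsScalarTower.algebraMap_apply]⟩
  have hconn' : ∀ b ∈ H, ∀ g : Z, ∃ w : R, b g - b 0 = algebraMap R Ω ((p : R) * w) := by
    intro b hb g
    obtain ⟨w1, hw1⟩ := hval b hb g
    obtain ⟨w0, hw0⟩ := hval b hb 0
    have hm := (hconn b hb g 0).2
    have hmem : algebraMap R Ω (w1 - w0) ∈ A.nonunits := by
      rw [map_sub, ← hw1, ← hw0]
      exact hm
    obtain ⟨w', hw'⟩ := hmR _ hmem
    exact ⟨w', by rw [← hw', map_sub, ← hw1, ← hw0]⟩
  obtain ⟨z, hz⟩ := hZ
  obtain ⟨h, hh, hne⟩ := hH.sep z 0 hz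
  exact hne (Fermat.Agent.ES.W33.ConnOrder8.const_of_conn p hp hp2 hinj hp0 H hval hH.comul hpZ
    hKrull hconn' h hh z)

end Core

end Fermat.Agent.ES.W33.ConnSubquot8
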