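/-
Programme W (S33, route `S33_ROUTE8.md`), assembly §3, brick `AsmCore4` (helper4):
**the abstract assembly core — pure order algebra, no `T`, no `JZero`, no tensor product.**

* `false_of_subquot` : let `M` carry a `G`-equivariant CONNECTED order `H` (`OrderHyp4.IsEquivOrder`,
  `WIface8.IsConnOrderV`) over an absolutely unramified base `R` (`Frac R = Ω^G`, `⋂ pⁿ R = 0`,
  `A.nonunits ∩ R ⊆ p R`, `p` odd).  Then no `G`-stable subgroup `X ↪ M^r` has a `G`-INVARIANT additive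
  surjection onto a nonzero group `Z` killed by `p`
  (power `OrderPi18`, sub-object `OrderSub4`, quotient `OrderQuot4` — the Galois separation hypothesis of
  the quotient step is vacuous because `G` acts trivially on `Z` — then `ConnSubquot8.false_of_conn_trivial`).

* `false_of_secondDiff` : the form consumed by the `T`-side.  `Jm` a `G`-module, `S ⊆ G` a set (the
  inertia elements), `M0 ≤ Jm` a finite `G`-stable subgroup carrying such an order, with **(Ga)**
  `τ' • (τ • x - x) - (τ • x - x) ∈ M0` for all `τ τ' ∈ S` and all `x` with `P x` (`P` = "killed by `p^m`");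
  `X ≤ Jm^r` a `G`-stable subgroup of `P`-points, `f : X ↠ W` equivariant for `act : G → W → W`;
  `Y₀ ≤ W` an `act`-stable subgroup contained in the subgroup generated by the mixed second differences
  `act τ' (act τ w - w) - (act τ w - w)`, `τ τ' ∈ S`, and `g : Y₀ ↠ Z` an `act`-INVARIANT surjection onto
  a nonzero group killed by `p`.  Then `False`.

* `false_of_secondDiff_emb` : the same with `M0` replaced by an abstract finite `G`-module `X₀` and an
  injective equivariant `ι₀ : X₀ →+ Jm` whose range contains the second differences (the shape of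
  `WIface8.HasConnOrder`).
-/
import Mathlib
import Fermat.Agent.ES.W33.ConnSubquot8

set_option autoImplicit false
set_option linter.unusedSectionVars false
set_option linter.style.haveILetI false

noncomputable section

namespace Fermat.Agent.ES.W33.AsmCore4

open Fermat.Agent.ES.V19.OrderHyp4 Fermat.Agent.ES.V19.OrderSub4 Fermat.Agent.ES.V19.OrderQuot4
  Fermat.Agent.ES.V32.OrderPi18 Fermat.Agent.ES.W33.ConnSubquot8
  Fermat.Agent.ES.W33.WIface8

variable {R K Ω G : Type*} [CommRing R] [IsDomain R] [IsPrincipalIdealRing R]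
  [Field K] [Algebra R K] [IsFractionRing R K] [Field Ω] [Algebra R Ω] [Algebra K Ω]
  [IsScalarTower R K Ω] [Group G] [MulSemiringAction G Ω]

/-- **No invariant quotient `Z ≠ 0` killed by `p` on a sub-object of a power of a module carrying a
connected equivariant order over an absolutely unramified base.** -/
theorem false_of_subquot (p : ℕ) (hp : p.Prime) (hp2 : p ≠ 2) (hp0 : (p : Ω) ≠ 0)
    (hfix : ∀ a : Ω, (∀ σ : G, σ • a = a) → a ∈ (algebraMap K Ω).range)
    (hKrull : ∀ w : R, (∀ n : ℕ, ∃ v : R, w = (p : R) ^ n * v) → w = 0)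
    (A : ValuationSubring Ω) (hRA : ∀ r : R, algebraMap R Ω r ∈ A)
    (hmR : ∀ w : R, algebraMap R Ω w ∈ A.nonunits → ∃ w' : R, w = (p : R) * w')
    {M : Type*} [AddCommGroup M] [DistribMulAction G M] [Finite M]
    {H : Subalgebra R (M → Ω)} (hH : IsEquivOrder G H) (hconn : IsConnOrderV A H)
    {r : ℕ} {X : Type*} [AddCommGroup X] [DistribMulAction G X] (ι : X →+ (Fin r → M))
    (hι : Function.Injective ι) (hιG : ∀ (σ : G) (x : X), ι (σ • x) = σ • ι x)
    {Z : Type*} [AddCommGroup Z] (f : X →+ Z) (hf : Function.Surjective f)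
    (hfG : ∀ (σ : G) (x : X), f (σ • x) = f x)
    (hpZ : ∀ z : Z, p • z = 0) (hZ : ∃ z : Z, z ≠ 0) : False := by
  classical
  -- the trivial action on `Z`
  letI instZ : MulAction G Z :=
    { smul := fun _ z => z
      one_smul := fun _ => rfl
      mul_smul := fun _ _ _ => rfl }
  have htriv : ∀ (σ : G) (z : Z), σ • z = z := fun _ _ => rfl
  have hfinX : Finite X := Finite.of_injective ι hι
  have := Fintype.ofFinite X
  have hPi : IsEquivOrder G (piOrder H (Fin r)) := isEquivOrder_piOrder hH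
  have hPic : IsConnOrderV A (piOrder H (Fin r)) := isConnOrderV_piOrder hRA hconn (Fin r)
  have hX : IsEquivOrder G (subOrder (piOrder H (Fin r)) ι) :=
    isEquivOrder_subOrder hPi ι hι hιG
  have hXc : IsConnOrderV A (subOrder (piOrder H (Fin r)) ι) := isConnOrderV_subOrder hPic ι
  have hGal : ∀ (z : Z) (σ : G), σ • z ≠ z →
      ∃ a : Ω, (∀ τ : G, τ • z = z → τ • a = a) ∧ σ • a ≠ a :=
    fun z σ h => absurd (htriv σ z) h
  have hZo : IsEquivOrder G (quotOrder (subOrder (piOrder H (Fin r)) ι) f) :=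
    isEquivOrder_quotOrder (K := K) hfix hGal hX f hf (fun σ x => by rw [hfG, htriv])
  have hZc : IsConnOrderV A (quotOrder (subOrder (piOrder H (Fin r)) ι) f) := isConnOrderV_quotOrder hXc hf
  exact false_of_conn_trivial (K := K) p hp hp2 hp0 hfix hKrull A hmR htriv hpZ hZ hZo hZc

/-- **Assembly core of S33.**  See the header. -/
theorem false_of_secondDiff (p : ℕ) (hp : p.Prime) (hp2 : p ≠ 2) (hp0 : (p : Ω) ≠ 0)
    (hfix : ∀ a : Ω, (∀ σ : G, σ • a = a) → a ∈ (algebraMap K Ω).range)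
    (hKrull : ∀ w : R, (∀ n : ℕ, ∃ v : R, w = (p : R) ^ n * v) → w = 0)
    (A : ValuationSubring Ω) (hRA : ∀ r : R, algebraMap R Ω r ∈ A)
    (hmR : ∀ w : R, algebraMap R Ω w ∈ A.nonunits → ∃ w' : R, w = (p : R) * w')
    {Jm : Type*} [AddCommGroup Jm] [DistribMulAction G Jm]
    (P : Jm → Prop) (S : Set G)
    (M0 : AddSubgroup Jm) [Finite M0] (hM0G : ∀ (σ : G), ∀ x ∈ M0, σ • x ∈ M0)
    (hGa : ∀ τ ∈ S, ∀ τ' ∈ S, ∀ x : Jm, P x → τ' • (τ • x - x) - (τ • x - x) ∈ M0)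
    (H : Subalgebra R (M0 → Ω))
    (hHfin : Module.Finite R H)
    (hHequiv : ∀ h ∈ H, ∀ (σ : G) (x : M0), h ⟨σ • (x : Jm), hM0G σ x x.2⟩ = σ • h x)
    (hHsep : ∀ x y : M0, x ≠ y → ∃ h ∈ H, h x ≠ h y)
    (hHcomul : ∀ h ∈ H, HasComul H h)
    (hHanti : ∀ h ∈ H, (fun x => h (-x)) ∈ H)
    (hconn : IsConnOrderV A H)
    {r : ℕ} (X : AddSubgroup (Fin r → Jm)) (hXP : ∀ x ∈ X, ∀ i, P (x i))
    (hXG : ∀ (σ : G), ∀ x ∈ X, σ • x ∈ X)
    {W : Type*} [AddCommGroup W] (act : G → W → W) (f : X →+ W) (hf : Function.Surjective f)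
    (hfG : ∀ (σ : G) (x : X), f ⟨σ • (x : Fin r → Jm), hXG σ x x.2⟩ = act σ (f x))
    (Y₀ : AddSubgroup W) (hY₀G : ∀ (σ : G), ∀ y ∈ Y₀, act σ y ∈ Y₀)
    (hY₀ : Y₀ ≤ AddSubgroup.closure
      {w | ∃ τ ∈ S, ∃ τ' ∈ S, ∃ w' : W, w = act τ' (act τ w' - w') - (act τ w' - w')})
    {Z : Type*} [AddCommGroup Z] (g : Y₀ →+ Z) (hg : Function.Surjective g)
    (hgG : ∀ (σ : G) (y : Y₀), g ⟨act σ y, hY₀G σ y y.2⟩ = g y)
    (hpZ : ∀ z : Z, p • z = 0) (hZ : ∃ z : Z, z ≠ 0) : False := by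
  classical
  -- the action on `M0`
  letI instM0 : DistribMulAction G M0 :=
    { smul := fun σ x => ⟨σ • (x : Jm), hM0G σ x x.2⟩
      one_smul := fun x => Subtype.ext (one_smul G (x : Jm))
      mul_smul := fun σ τ x => Subtype.ext (mul_smul σ τ (x : Jm))
      smul_zero := fun σ => Subtype.ext (smul_zero σ)
      smul_add := fun σ x y => Subtype.ext (smul_add σ (x : Jm) (y : Jm)) }
  have hM0smul : ∀ (σ : G) (x : M0), ((σ • x : M0) : Jm) = σ • (x : Jm) := fun _ _ => rfl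
  have hH : IsEquivOrder G H :=
    { finite := hHfin
      equiv := fun h hh σ x => hHequiv h hh σ x
      sep := hHsep
      comul := hHcomul
      antipode := hHanti }
  -- `X₀ ≤ X`: points of `X` with all coordinates in `M0` and image in `Y₀`
  let S1 : AddSubgroup X :=
    { carrier := {x | ∀ i, (x : Fin r → Jm) i ∈ M0}
      zero_mem' := fun i => M0.zero_mem
      add_mem' := fun {x y} hx hy i => M0.add_mem (hx i) (hy i)
      neg_mem' := fun {x} hx i => M0.neg_mem (hx i) }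
  let X₀ : AddSubgroup X := S1 ⊓ Y₀.comap f
  have hX₀mem : ∀ x : X, x ∈ X₀ ↔ (∀ i, (x : Fin r → Jm) i ∈ M0) ∧ f x ∈ Y₀ := fun _ => Iff.rfl
  have hX₀G : ∀ (σ : G) (x : X), x ∈ X₀ → (⟨σ • (x : Fin r → Jm), hXG σ x x.2⟩ : X) ∈ X₀ := by
    intro σ x hx
    obtain ⟨hx0, hxY⟩ := (hX₀mem x).mp hx
    refine (hX₀mem _).mpr ⟨fun i => hM0G σ _ (hx0 i), ?_⟩
    rw [hfG σ x]
    exact hY₀G σ _ hxY
  letI instX₀ : DistribMulAction G X₀ :=
    { smul := fun σ x => ⟨⟨σ • ((x : X) : Fin r → Jm), hXG σ _ (x : X).2⟩, hX₀G σ x x.2⟩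
      one_smul := fun x => Subtype.ext (Subtype.ext (one_smul G ((x : X) : Fin r → Jm)))
      mul_smul := fun σ τ x => Subtype.ext (Subtype.ext (mul_smul σ τ ((x : X) : Fin r → Jm)))
      smul_zero := fun σ => Subtype.ext (Subtype.ext (smul_zero σ))
      smul_add := fun σ x y =>
        Subtype.ext (Subtype.ext (smul_add σ ((x : X) : Fin r → Jm) ((y : X) : Fin r → Jm))) }
  have hX₀smul : ∀ (σ : G) (x : X₀),
      (((σ • x : X₀) : X) : Fin r → Jm) = σ • ((x : X) : Fin r → Jm) := fun _ _ => rfl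
  -- `ι : X₀ → M0^r`
  let ι : X₀ →+ (Fin r → M0) :=
    { toFun := fun x i => ⟨((x : X) : Fin r → Jm) i, ((hX₀mem x).mp x.2).1 i⟩
      map_zero' := by funext i; exact Subtype.ext rfl
      map_add' := fun x y => by funext i; exact Subtype.ext rfl }
  have hι : Function.Injective ι := by
    intro x y hxy
    apply Subtype.ext
    apply Subtype.ext
    funext i
    have := congrArg (fun z : Fin r → M0 => ((z i : M0) : Jm)) hxy
    exact this
  have hιG : ∀ (σ : G) (x : X₀), ι (σ • x) = σ • ι x := by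
    intro σ x
    funext i
    exact Subtype.ext rfl
  -- the map `X₀ → Z`
  let F₀ : X₀ →+ Y₀ :=
    (f.comp X₀.subtype).codRestrict Y₀ (fun x => ((hX₀mem x).mp x.2).2)
  have hF₀ : ∀ x : X₀, ((F₀ x : Y₀) : W) = f (x : X) := fun _ => rfl
  let F : X₀ →+ Z := g.comp F₀
  have hFdef : ∀ x : X₀, F x = g (F₀ x) := fun _ => rfl
  -- `f (X with coordinates in M0)` contains `Y₀`
  have hcover : ∀ y ∈ Y₀, ∃ x : X, (∀ i, (x : Fin r → Jm) i ∈ M0) ∧ f x = y := by
    intro y hy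
    have hy' := hY₀ hy
    refine AddSubgroup.closure_induction (p := fun y _ => ∃ x : X,
      (∀ i, (x : Fin r → Jm) i ∈ M0) ∧ f x = y) ?_ ?_ ?_ ?_ hy'
    · rintro w ⟨τ, hτ, τ', hτ', w', rfl⟩
      obtain ⟨x', rfl⟩ := hf w'
      have h1 : τ • (x' : Fin r → Jm) ∈ X := hXG τ x' x'.2
      have h2 : τ • (x' : Fin r → Jm) - (x' : Fin r → Jm) ∈ X := X.sub_mem h1 x'.2
      have h3 : τ' • (τ • (x' : Fin r → Jm) - (x' : Fin r → Jm)) ∈ X := hXG τ' _ h2
      refine ⟨⟨τ' • (τ • (x' : Fin r → Jm) - (x' : Fin r → Jm)), h3⟩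
        - ⟨τ • (x' : Fin r → Jm) - (x' : Fin r → Jm), h2⟩, ?_, ?_⟩
      · intro i
        exact hGa τ hτ τ' hτ' ((x' : Fin r → Jm) i) (hXP x' x'.2 i)
      · have e1 : f ⟨τ • (x' : Fin r → Jm), h1⟩ = act τ (f x') := hfG τ x'
        have e2 : f ⟨τ • (x' : Fin r → Jm) - (x' : Fin r → Jm), h2⟩ = act τ (f x') - f x' := by
          have : (⟨τ • (x' : Fin r → Jm) - (x' : Fin r → Jm), h2⟩ : X)
              = ⟨τ • (x' : Fin r → Jm), h1⟩ - x' := rfl
          rw [this, map_sub, e1]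
        have e3 : f ⟨τ' • (τ • (x' : Fin r → Jm) - (x' : Fin r → Jm)), h3⟩
            = act τ' (act τ (f x') - f x') := by
          rw [← e2]
          exact hfG τ' ⟨τ • (x' : Fin r → Jm) - (x' : Fin r → Jm), h2⟩
        rw [map_sub, e2, e3]
    · exact ⟨0, fun i => M0.zero_mem, map_zero f⟩
    · rintro a b _ _ ⟨xa, hxa, rfl⟩ ⟨xb, hxb, rfl⟩
      exact ⟨xa + xb, fun i => M0.add_mem (hxa i) (hxb i), map_add f xa xb⟩
    · rintro a _ ⟨xa, hxa, rfl⟩
      exact ⟨-xa, fun i => M0.neg_mem (hxa i), map_neg f xa⟩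
  have hF : Function.Surjective F := by
    intro z
    obtain ⟨y, rfl⟩ := hg z
    obtain ⟨x, hx0, hxy⟩ := hcover y y.2
    have hmem : x ∈ X₀ := (hX₀mem x).mpr ⟨hx0, by rw [hxy]; exact y.2⟩
    refine ⟨⟨x, hmem⟩, ?_⟩
    rw [hFdef]
    congr 1
    exact Subtype.ext hxy
  have hFG : ∀ (σ : G) (x : X₀), F (σ • x) = F x := by
    intro σ x
    rw [hFdef, hFdef, ← hgG σ (F₀ x)]
    congr 1
    apply Subtype.ext
    show f ((σ • x : X₀) : X) = act σ (f (x : X))
    exact hfG σ (x : X)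
  have hfinM0 : Finite M0 := inferInstance
  exact false_of_subquot (K := K) p hp hp2 hp0 hfix hKrull A hRA hmR hH hconn ι hι hιG F hF hFG
    hpZ hZ

/-- **Assembly core of S33, embedded form** (the shape of `WIface8.HasConnOrder`): the order lives on an
abstract finite `G`-module `X₀` with an injective equivariant `ι₀ : X₀ →+ Jm` whose range contains the
mixed second differences along `S` of the `P`-points. -/
theorem false_of_secondDiff_emb (p : ℕ) (hp : p.Prime) (hp2 : p ≠ 2) (hp0 : (p : Ω) ≠ 0)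
    (hfix : ∀ a : Ω, (∀ σ : G, σ • a = a) → a ∈ (algebraMap K Ω).range)
    (hKrull : ∀ w : R, (∀ n : ℕ, ∃ v : R, w = (p : R) ^ n * v) → w = 0)
    (A : ValuationSubring Ω) (hRA : ∀ r : R, algebraMap R Ω r ∈ A)
    (hmR : ∀ w : R, algebraMap R Ω w ∈ A.nonunits → ∃ w' : R, w = (p : R) * w')
    {Jm : Type*} [AddCommGroup Jm] [DistribMulAction G Jm]
    (P : Jm → Prop) (S : Set G)
    {X₀ : Type*} [AddCommGroup X₀] [Finite X₀] [DistribMulAction G X₀] (ι₀ : X₀ →+ Jm)
    (hι₀ : Function.Injective ι₀) (hι₀G : ∀ (σ : G) (x : X₀), ι₀ (σ • x) = σ • ι₀ x)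
    (hGa : ∀ τ ∈ S, ∀ τ' ∈ S, ∀ x : Jm, P x → ∃ y : X₀, ι₀ y = τ' • (τ • x - x) - (τ • x - x))
    {H : Subalgebra R (X₀ → Ω)} (hH : IsEquivOrder G H) (hconn : IsConnOrderV A H)
    {r : ℕ} (X : AddSubgroup (Fin r → Jm)) (hXP : ∀ x ∈ X, ∀ i, P (x i))
    (hXG : ∀ (σ : G), ∀ x ∈ X, σ • x ∈ X)
    {W : Type*} [AddCommGroup W] (act : G → W → W) (f : X →+ W) (hf : Function.Surjective f)
    (hfG : ∀ (σ : G) (x : X), f ⟨σ • (x : Fin r → Jm), hXG σ x x.2⟩ = act σ (f x))
    (Y₀ : AddSubgroup W) (hY₀G : ∀ (σ : G), ∀ y ∈ Y₀, act σ y ∈ Y₀)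
    (hY₀ : Y₀ ≤ AddSubgroup.closure
      {w | ∃ τ ∈ S, ∃ τ' ∈ S, ∃ w' : W, w = act τ' (act τ w' - w') - (act τ w' - w')})
    {Z : Type*} [AddCommGroup Z] (g : Y₀ →+ Z) (hg : Function.Surjective g)
    (hgG : ∀ (σ : G) (y : Y₀), g ⟨act σ y, hY₀G σ y y.2⟩ = g y)
    (hpZ : ∀ z : Z, p • z = 0) (hZ : ∃ z : Z, z ≠ 0) : False := by
  classical
  -- `M0 := range ι₀`, with the order transported along `X₀ ≃ range ι₀`
  have hM0G : ∀ (σ : G), ∀ x ∈ ι₀.range, σ • x ∈ ι₀.range := by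
    rintro σ _ ⟨y, rfl⟩
    exact ⟨σ • y, hι₀G σ y⟩
  letI instM0 : DistribMulAction G ι₀.range :=
    { smul := fun σ x => ⟨σ • (x : Jm), hM0G σ x x.2⟩
      one_smul := fun x => Subtype.ext (one_smul G (x : Jm))
      mul_smul := fun σ τ x => Subtype.ext (mul_smul σ τ (x : Jm))
      smul_zero := fun σ => Subtype.ext (smul_zero σ)
      smul_add := fun σ x y => Subtype.ext (smul_add σ (x : Jm) (y : Jm)) }
  let e : X₀ ≃+ ι₀.range := AddMonoidHom.ofInjective hι₀
  have he : ∀ x : X₀, ((e x : ι₀.range) : Jm) = ι₀ x := fun _ => rfl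
  have heG : ∀ (σ : G) (y : ι₀.range), e.symm (σ • y) = σ • e.symm y := by
    intro σ y
    apply e.injective
    rw [AddEquiv.apply_symm_apply]
    apply Subtype.ext
    show σ • (y : Jm) = ι₀ (σ • e.symm y)
    rw [hι₀G, ← he, AddEquiv.apply_symm_apply]
  have hfin : Finite ι₀.range := Finite.of_equiv X₀ e.toEquiv
  have hH' : IsEquivOrder G (subOrder H (e.symm : ι₀.range →+ X₀)) :=
    isEquivOrder_subOrder hH (e.symm : ι₀.range →+ X₀) e.symm.injective heG
  have hconn' : IsConnOrderV A (subOrder H (e.symm : ι₀.range →+ X₀)) := isConnOrderV_subOrder hconn _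
  refine false_of_secondDiff (K := K) p hp hp2 hp0 hfix hKrull A hRA hmR P S ι₀.range hM0G ?_
    (subOrder H (e.symm : ι₀.range →+ X₀)) hH'.finite (fun h hh σ x => hH'.equiv h hh σ x)
    hH'.sep hH'.comul hH'.antipode hconn' X hXP hXG act f hf hfG Y₀ hY₀G hY₀ g hg hgG hpZ hZ
  intro τ hτ τ' hτ' x hx
  obtain ⟨y, hy⟩ := hGa τ hτ τ' hτ' x hx
  exact ⟨y, hy⟩

end Fermat.Agent.ES.W33.AsmCore4

end
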