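/-
Programme W (S33, route `S33_ROUTE8.md`), chapter ASM, brick A6 (helper8):
**the base `(O_f, K_f, Γ_f)` satisfies the hypotheses of `ConnSubquot8.false_of_conn_trivial`.**

`O_f = fixRing A Γ_f` (a discrete valuation ring with uniformizer `p`, `FixRingDVR16`),
`K_f = FractionRing O_f` with its canonical embedding into `ℚ̄`; for every subgroup
`A.inertiaSubgroupIn ℚ ≤ Γ`:
* `hfix` : an element of `ℚ̄` fixed by `Γ` lies in the image of `K` (valuation ring: `a` or `a⁻¹` is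
  integral);
* `hKrull` : `⋂ pⁿ O = 0`;
* `hmR` : an element of `O` which is a non-unit of `A` is divisible by `p` in `O`
  (absolutely unramified; `FixRingDVR16.div_ell_mem_fixRing`).
-/
import Mathlib
import Fermat.Agent.ES.V19.FixRingDVR16

set_option autoImplicit false

noncomputable section

namespace Fermat.Agent.ES.W33.BaseInst8

open ValuationSubring Fermat.Agent.ES.V19.GammaF16 Fermat.Agent.ES.V19.TraceDescent26
  Fermat.Agent.ES.V19.FixRingDVR16

local notation "Qbar" => AlgebraicClosure ℚ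
local notation "GQ" => (AlgebraicClosure ℚ ≃ₐ[ℚ] AlgebraicClosure ℚ)

variable (A : ValuationSubring Qbar) (Γ : Subgroup GQ)

/-- The fraction field of `fixRing A Γ`. -/
abbrev Kfix : Type := FractionRing ↥(fixRing A Γ)

instance : FaithfulSMul ↥(fixRing A Γ) Qbar :=
  (faithfulSMul_iff_algebraMap_injective _ _).mpr Subtype.val_injective

instance algKfix : Algebra (Kfix A Γ) Qbar := FractionRing.liftAlgebra ↥(fixRing A Γ) Qbar

instance : IsScalarTower ↥(fixRing A Γ) (Kfix A Γ) Qbar :=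
  FractionRing.isScalarTower_liftAlgebra ↥(fixRing A Γ) Qbar

variable {A Γ}

/-- **`hfix`**: the `Γ`-fixed elements of `ℚ̄` come from the fraction field of `fixRing A Γ`. -/
theorem hfix (a : Qbar) (ha : ∀ σ : ↥Γ, σ • a = a) : a ∈ (algebraMap (Kfix A Γ) Qbar).range := by
  have hfixed : ∀ σ ∈ Γ, σ a = a := fun σ hσ => ha ⟨σ, hσ⟩
  rcases A.mem_or_inv_mem a with h | h
  · refine ⟨algebraMap ↥(fixRing A Γ) (Kfix A Γ) ⟨a, h, hfixed⟩, ?_⟩
    rw [← IsScalarTower.algebraMap_apply]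
    rfl
  · by_cases h0 : a = 0
    · exact ⟨0, by rw [map_zero, h0]⟩
    have hinv : a⁻¹ ∈ fixRing A Γ := ⟨h, fun σ hσ => by rw [map_inv₀, hfixed σ hσ]⟩
    refine ⟨(algebraMap ↥(fixRing A Γ) (Kfix A Γ) ⟨a⁻¹, hinv⟩)⁻¹, ?_⟩
    rw [map_inv₀, ← IsScalarTower.algebraMap_apply]
    show ((⟨a⁻¹, hinv⟩ : ↥(fixRing A Γ)) : Qbar)⁻¹ = a
    exact inv_inv a

variable {p : ℕ} (hp : p.Prime) (hA : A.LiesOverPrime p) (hIΓ : A.inertiaSubgroupIn ℚ ≤ Γ)

include hp hA hIΓ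

/-- **`hmR`**: absolutely unramified. -/
theorem hmR (w : ↥(fixRing A Γ)) (hw : algebraMap ↥(fixRing A Γ) Qbar w ∈ A.nonunits) :
    ∃ w' : ↥(fixRing A Γ), w = (p : ↥(fixRing A Γ)) * w' := by
  have hv : A.valuation (w : Qbar) < 1 := (ValuationSubring.mem_nonunits_iff (A := A)).mp hw
  have hdiv := div_ell_mem_fixRing hp hA hIΓ w.2 hv
  refine ⟨⟨_, hdiv⟩, Subtype.ext ?_⟩
  have hp0 : (p : Qbar) ≠ 0 := Nat.cast_ne_zero.mpr hp.ne_zero
  show (w : Qbar) = ((p : ↥(fixRing A Γ)) : Qbar) * ((w : Qbar) / (p : Qbar))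
  rw [show ((p : ↥(fixRing A Γ)) : Qbar) = (p : Qbar) from by norm_cast]
  field_simp

/-- **`hKrull`**: `⋂ pⁿ O = 0`. -/
theorem hKrull (w : ↥(fixRing A Γ))
    (hw : ∀ n : ℕ, ∃ v : ↥(fixRing A Γ), w = (p : ↥(fixRing A Γ)) ^ n * v) : w = 0 := by
  by_contra hne
  obtain ⟨m, u, hu, hwu⟩ := exists_eq_pow_mul_unit hp hA hIΓ hne
  obtain ⟨v, hv⟩ := hw (m + 1)
  -- `p^m u = p^(m+1) v` ⇒ `u = p v`, but `u` is a unit and `p` is not
  have hirr := irreducible_ell hp hA hIΓ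
  have hdom : IsDomain ↥(fixRing A Γ) := inferInstance
  have hpm : (p : ↥(fixRing A Γ)) ^ m ≠ 0 := pow_ne_zero _ hirr.ne_zero
  have heq : u = (p : ↥(fixRing A Γ)) * v := by
    apply mul_left_cancel₀ hpm
    rw [← hwu, hv]; ring
  have : IsUnit (p : ↥(fixRing A Γ)) := isUnit_of_mul_isUnit_left (heq ▸ hu)
  exact hirr.not_isUnit this

end Fermat.Agent.ES.W33.BaseInst8
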