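/-
Programme W (S33, route `S33_ROUTE8.md`, spine `WIface8` v1.1), chapter ASM, bricks A5 + A6, `AsmConn4`
(helper4): **`AsmCore4.false_of_secondDiff_emb` instantiated at the base `R = fixRing A Γ`, `G = Γ`,
`Ω = ℚ̄`** (`BaseInst8`) for a subgroup `I_A ≤ Γ ≤ Gal(ℚ̄/ℚ)` (`Γ = gammaF A p f` in the spine), against the
unpacked body of `WIface8.HasConnOrder` at one level.

`false_of_connOrderData` : **the data of `HasConnOrder p N m A` at one `Γ`, a `Γ`-stable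
`X ≤ (Fin r → JZero N)` killed by `p^m`, a `Γ`-equivariant surjection `f : X ↠ W`, a `Γ`-stable `Y₀ ≤ W`
inside the subgroup generated by the mixed second differences along `I_A`, and a `Γ`-INVARIANT surjection
`Y₀ ↠ Z ≠ 0`, `p Z = 0` — are contradictory** (`p` odd).

`false_of_hasConnOrder` : the same from `HasConnOrder p N m A` itself, with the data on the `T`-side given
for every level `f` divisible by a fixed `f₀ > 0`.
-/
import Mathlib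
import Fermat.Agent.ES.W33.AsmCore4
import Fermat.Agent.ES.W33.BaseInst8

set_option autoImplicit false
set_option linter.unusedSectionVars false
set_option linter.style.haveILetI false

noncomputable section

namespace Fermat.Agent.ES.W33.AsmConn4

open ModularCurve
open Fermat.Agent.ES.V19.OrderHyp4 Fermat.Agent.ES.V19.TopLevel19 Fermat.Agent.ES.V19.GammaF16
  Fermat.Agent.ES.V19.TraceDescent26 Fermat.Agent.ES.V19.FixRingDVR16
  Fermat.Agent.ES.W33.ConnSubquot8 Fermat.Agent.ES.W33.WIface8 Fermat.Agent.ES.W33.BaseInst8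

local notation "Qbar" => AlgebraicClosure ℚ
local notation "GQ" => (AlgebraicClosure ℚ ≃ₐ[ℚ] AlgebraicClosure ℚ)

variable {p : ℕ} {A : ValuationSubring Qbar} {N m : ℕ} [NeZero N]

/-- **Assembly core against the literal `WIface8.HasConnOrder`** (unpacked at one `Γ`). -/
theorem false_of_connOrderData {Γ : Subgroup GQ} (hp : p.Prime) (hp2 : p ≠ 2)
    (hA : A.LiesOverPrime p) (hIΓ : A.inertiaSubgroupIn ℚ ≤ Γ)
    -- the body of `HasConnOrder p N m A` at `Γ`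
    {X₀ : Type} [AddCommGroup X₀] [Finite X₀] [DistribMulAction ↥Γ X₀] (ι₀ : X₀ →+ Tors N p m)
    (hι₀ : Function.Injective ι₀)
    (hι₀G : ∀ (σ : ↥Γ) (x : X₀), ι₀ (σ • x) = (σ : GQ) • ι₀ x)
    (hsd : ∀ τ ∈ A.inertiaSubgroupIn ℚ, ∀ τ' ∈ A.inertiaSubgroupIn ℚ, ∀ x : Tors N p m,
      ∃ y : X₀, ι₀ y = τ' • (τ • x - x) - (τ • x - x))
    {H : Subalgebra ↥(fixRing A Γ) (X₀ → Qbar)} (hH : IsEquivOrder ↥Γ H) (hconn : IsConnOrderV A H)
    -- the `T`-side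
    {r : ℕ} (X : AddSubgroup (Fin r → JZero N)) (hXkill : ∀ x ∈ X, ∀ i, (p ^ m) • x i = 0)
    (hXG : ∀ σ ∈ Γ, ∀ x ∈ X, σ • x ∈ X)
    {W : Type*} [AddCommGroup W] (act : GQ → W → W) (f : X →+ W) (hf : Function.Surjective f)
    (hfG : ∀ σ ∈ Γ, ∀ (x : X) (hσx : σ • (x : Fin r → JZero N) ∈ X),
      f ⟨σ • (x : Fin r → JZero N), hσx⟩ = act σ (f x))
    (Y₀ : AddSubgroup W) (hY₀G : ∀ σ ∈ Γ, ∀ y ∈ Y₀, act σ y ∈ Y₀)
    (hY₀ : Y₀ ≤ AddSubgroup.closure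
      {w | ∃ τ ∈ A.inertiaSubgroupIn ℚ, ∃ τ' ∈ A.inertiaSubgroupIn ℚ, ∃ w' : W,
        w = act τ' (act τ w' - w') - (act τ w' - w')})
    {Z : Type*} [AddCommGroup Z] (g : Y₀ →+ Z) (hg : Function.Surjective g)
    (hgG : ∀ σ ∈ Γ, ∀ (y : Y₀) (hσy : act σ y ∈ Y₀), g ⟨act σ y, hσy⟩ = g y)
    (hpZ : ∀ z : Z, p • z = 0) (hZ : ∃ z : Z, z ≠ 0) : False := by
  classical
  haveI : IsDiscreteValuationRing ↥(fixRing A Γ) := isDiscreteValuationRing_fixRing hp hA hIΓ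
  have hp0 : (p : Qbar) ≠ 0 := Nat.cast_ne_zero.mpr hp.ne_zero
  -- the embedding into `JZero N`
  let ι₁ : X₀ →+ JZero N :=
    { toFun := fun x => ((ι₀ x : Tors N p m) : JZero N)
      map_zero' := by rw [map_zero]; rfl
      map_add' := fun x y => by rw [map_add]; rfl }
  have hι₁ : Function.Injective ι₁ := fun x y hxy => hι₀ (Subtype.ext hxy)
  have hι₁G : ∀ (σ : ↥Γ) (x : X₀), ι₁ (σ • x) = σ • ι₁ x := by
    intro σ x
    show ((ι₀ (σ • x) : Tors N p m) : JZero N) = (σ : GQ) • ((ι₀ x : Tors N p m) : JZero N)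
    rw [hι₀G]
    rfl
  let S : Set ↥Γ := {σ | (σ : GQ) ∈ A.inertiaSubgroupIn ℚ}
  have hGa : ∀ τ ∈ S, ∀ τ' ∈ S, ∀ x : JZero N, (p ^ m) • x = 0 →
      ∃ y : X₀, ι₁ y = τ' • (τ • x - x) - (τ • x - x) := by
    intro τ hτ τ' hτ' x hx
    have hxm : x ∈ Submodule.torsionBy ℤ (JZero N) ((p : ℤ) ^ m) := by
      rw [Submodule.mem_torsionBy_iff]
      have : ((p : ℤ) ^ m) = ((p ^ m : ℕ) : ℤ) := by push_cast; rfl
      rw [this, natCast_zsmul]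
      exact hx
    obtain ⟨y, hy⟩ := hsd (τ : GQ) hτ (τ' : GQ) hτ' ⟨x, hxm⟩
    refine ⟨y, ?_⟩
    show ((ι₀ y : Tors N p m) : JZero N) = _
    rw [hy]
    rfl
  refine Fermat.Agent.ES.W33.AsmCore4.false_of_secondDiff_emb
    (R := ↥(fixRing A Γ)) (K := Kfix A Γ) (Ω := Qbar) (G := ↥Γ)
    p hp hp2 hp0 (hfix (A := A) (Γ := Γ)) (hKrull hp hA hIΓ) A
    (fun r => r.2.1) (hmR hp hA hIΓ) (Jm := JZero N)
    (fun x => (p ^ m) • x = 0) S ι₁ hι₁ hι₁G hGa hH hconn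
    X hXkill (fun σ x hx => hXG (σ : GQ) σ.2 x hx) (fun σ w => act (σ : GQ) w) f hf
    (fun σ x => hfG (σ : GQ) σ.2 x _) Y₀ (fun σ y hy => hY₀G (σ : GQ) σ.2 y hy) ?_ g hg
    (fun σ y => hgG (σ : GQ) σ.2 y _) hpZ hZ
  refine hY₀.trans (AddSubgroup.closure_mono ?_)
  rintro w ⟨τ, hτ, τ', hτ', w', rfl⟩
  exact ⟨⟨τ, hIΓ hτ⟩, hτ, ⟨τ', hIΓ hτ'⟩, hτ', w', rfl⟩

/-- **From `HasConnOrder` itself**: if the `T`-side data (`Γ_f`-stability of `X`, `Y₀`, equivariance of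
`f`, `Γ_f`-invariance of `g`) hold for every level `f` divisible by some `f₀ > 0`, they contradict
`HasConnOrder p N m A`. -/
theorem false_of_hasConnOrder (hp : p.Prime) (hp2 : p ≠ 2) (hA : A.LiesOverPrime p)
    (hO : HasConnOrder p N m A) {f₀ : ℕ} (hf₀ : 0 < f₀)
    {r : ℕ} (X : AddSubgroup (Fin r → JZero N)) (hXkill : ∀ x ∈ X, ∀ i, (p ^ m) • x i = 0)
    (hXG : ∀ σ ∈ gammaF A p f₀, ∀ x ∈ X, σ • x ∈ X)
    {W : Type*} [AddCommGroup W] (act : GQ → W → W) (f : X →+ W) (hf : Function.Surjective f)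
    (hfG : ∀ σ ∈ gammaF A p f₀, ∀ (x : X) (hσx : σ • (x : Fin r → JZero N) ∈ X),
      f ⟨σ • (x : Fin r → JZero N), hσx⟩ = act σ (f x))
    (Y₀ : AddSubgroup W) (hY₀G : ∀ σ ∈ gammaF A p f₀, ∀ y ∈ Y₀, act σ y ∈ Y₀)
    (hY₀ : Y₀ ≤ AddSubgroup.closure
      {w | ∃ τ ∈ A.inertiaSubgroupIn ℚ, ∃ τ' ∈ A.inertiaSubgroupIn ℚ, ∃ w' : W,
        w = act τ' (act τ w' - w') - (act τ w' - w')})
    {Z : Type*} [AddCommGroup Z] (g : Y₀ →+ Z) (hg : Function.Surjective g)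
    (hgG : ∀ σ ∈ gammaF A p f₀, ∀ (y : Y₀) (hσy : act σ y ∈ Y₀), g ⟨act σ y, hσy⟩ = g y)
    (hpZ : ∀ z : Z, p • z = 0) (hZ : ∃ z : Z, z ≠ 0) : False := by
  obtain ⟨f₁, _, hdvd, X₀, instA, instF, instD, ι₀, hι₀, hι₀G, hsd, H, hH, hconn⟩ := hO f₀ hf₀
  have hle : gammaF A p f₁ ≤ gammaF A p f₀ := gammaF_anti hdvd
  exact false_of_connOrderData hp hp2 hA (inertia_le_gammaF f₁) ι₀ hι₀ hι₀G hsd hH hconn X hXkill
    (fun σ hσ => hXG σ (hle hσ)) act f hf (fun σ hσ => hfG σ (hle hσ)) Y₀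
    (fun σ hσ => hY₀G σ (hle hσ)) hY₀ g hg (fun σ hσ => hgG σ (hle hσ)) hpZ hZ

end Fermat.Agent.ES.W33.AsmConn4

end
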