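/-
Programme W (S33, route `S33_ROUTE8.md`), chapter ASM, brick A4 (helper8):
**the `Γ_f`-invariant quotient `λ : V ↠ Z` of the residual representation coming from `hres`.**

`ρ : GaloisRepAdic T`, `p ∈ 𝔪_T`, `A` a place over `p`, and the residual representation ordinary at `p`
(`(ofResidualGaloisRep ρ.residual).IsOrdinaryAt p`, the hypothesis `hres` of S33).  Then there are a
NONZERO abelian group `Z` killed by `p` and an additive surjection `lam : ρ.V →+ Z` which kills
`𝔪_T V` and is invariant under `ρ(σ)` for all `σ ∈ Γ_{f₀}`, for some `f₀ > 0`.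

`Z := V̄ ⧸ L̄` (`L̄` the line of `hres`), `lam v := [1 ⊗ v]`.  `S := {σ ∈ D_A | (ρ̄(σ) - 1) V̄ ⊆ L̄}` is a
subgroup containing the inertia group, of finite level (`ρ̄` factors through a finite level), hence
contains some `Γ_{f₀}` (`GammaLevel11.exists_gammaF_le`, `ChartDataInst21.fixesInertFixed`).
-/
import Mathlib
import Fermat.Prelude.Def_GaloisRep_LocalConditions
import Fermat.Agent.ES.V19.GammaLevel11
import Fermat.Agent.ES.V19.ChartDataInst21

set_option autoImplicit false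

noncomputable section

namespace Fermat.Agent.ES.W33.AsmLambda8

open scoped TensorProduct
open Fermat.Agent.ES.V19.GammaF16 Fermat.Agent.ES.V19.GammaLevel11

local notation "Qbar" => AlgebraicClosure ℚ
local notation "GQ" => (AlgebraicClosure ℚ ≃ₐ[ℚ] AlgebraicClosure ℚ)

variable {T : Type} [CommRing T] [IsLocalRing T]

/-- `v ↦ 1 ⊗ v`, `V → k ⊗ V`. -/
def toRes (ρ : GaloisRepAdic T) : ρ.V →ₗ[T] IsLocalRing.ResidueField T ⊗[T] ρ.V :=
  TensorProduct.mk T (IsLocalRing.ResidueField T) ρ.V 1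

theorem toRes_apply (ρ : GaloisRepAdic T) (v : ρ.V) :
    toRes ρ v = (1 : IsLocalRing.ResidueField T) ⊗ₜ[T] v := rfl

theorem toRes_surjective (ρ : GaloisRepAdic T) : Function.Surjective (toRes ρ) := by
  intro w
  induction w using TensorProduct.induction_on with
  | zero => exact ⟨0, map_zero _⟩
  | tmul c v =>
    obtain ⟨t, rfl⟩ := IsLocalRing.residue_surjective c
    refine ⟨t • v, ?_⟩
    rw [toRes_apply, TensorProduct.tmul_smul, TensorProduct.smul_tmul', Algebra.smul_def, mul_one]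
    rfl
  | add x y hx hy =>
    obtain ⟨a, rfl⟩ := hx
    obtain ⟨b, rfl⟩ := hy
    exact ⟨a + b, map_add _ _ _⟩

theorem toRes_smul_of_mem (ρ : GaloisRepAdic T) {t : T} (ht : t ∈ IsLocalRing.maximalIdeal T)
    (v : ρ.V) : toRes ρ (t • v) = 0 := by
  rw [toRes_apply, TensorProduct.tmul_smul, TensorProduct.smul_tmul', Algebra.smul_def, mul_one,
    IsLocalRing.ResidueField.algebraMap_eq, (IsLocalRing.residue_eq_zero_iff t).mpr ht,
    TensorProduct.zero_tmul]

theorem toRes_rho (ρ : GaloisRepAdic T) (σ : GQ) (v : ρ.V) :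
    toRes ρ (ρ.ρ σ v) = (ρ.ρ σ).baseChange (IsLocalRing.ResidueField T) (toRes ρ v) := by
  rw [toRes_apply, toRes_apply, LinearMap.baseChange_tmul]

/-- The residual representation as a `GaloisRepAdic k` (the object of `hres`). -/
abbrev resAdic (ρ : GaloisRepAdic T) : GaloisRepAdic (IsLocalRing.ResidueField T) :=
  GaloisRepAdic.ofResidualGaloisRep ρ.residual

/-- `toRes` with values in the module of `resAdic ρ` (definitionally the same module). -/
def toResB (ρ : GaloisRepAdic T) : ρ.V →+ (resAdic ρ).V := (toRes ρ).toAddMonoidHom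

theorem toResB_surjective (ρ : GaloisRepAdic T) : Function.Surjective (toResB ρ) :=
  toRes_surjective ρ

theorem toResB_smul_of_mem (ρ : GaloisRepAdic T) {t : T} (ht : t ∈ IsLocalRing.maximalIdeal T)
    (v : ρ.V) : toResB ρ (t • v) = 0 := toRes_smul_of_mem ρ ht v

theorem toResB_rho (ρ : GaloisRepAdic T) (σ : GQ) (v : ρ.V) :
    toResB ρ (ρ.ρ σ v) = (resAdic ρ).ρ σ (toResB ρ v) := toRes_rho ρ σ v

/-- **A4, general form**: for a representation `ρb` over a field `k` with `(p : k) = 0`, ordinary at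
`p`, the quotient by the line is nonzero, killed by `p`, and invariant under some `Γ_{f₀}`. -/
theorem exists_quot {k : Type} [Field k] (ρb : GaloisRepAdic k) {p : ℕ} (hp : p.Prime)
    (hpk : (p : k) = 0) (A : ValuationSubring Qbar) (hA : A.LiesOverPrime p)
    (hres : ρb.IsOrdinaryAt p) :
    ∃ (Z : Type) (_ : AddCommGroup Z) (q : ρb.V →+ Z), Function.Surjective q ∧
      (∃ z : Z, z ≠ 0) ∧ (∀ z : Z, p • z = 0) ∧
      ∃ f₀ : ℕ, 0 < f₀ ∧ ∀ σ ∈ gammaF A p f₀, ∀ v : ρb.V, q (ρb.ρ σ v) = q v := by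
  classical
  obtain ⟨L, ⟨b, hLb⟩, hDL, hIL⟩ := hres A hA
  refine ⟨ρb.V ⧸ L, inferInstance, L.mkQ.toAddMonoidHom, L.mkQ_surjective, ?_, ?_, ?_⟩
  · -- `b 1 ∉ L`
    refine ⟨L.mkQ (b 1), ?_⟩
    intro h0
    have hmem : b 1 ∈ L := (Submodule.Quotient.mk_eq_zero L).mp h0
    rw [hLb, Submodule.mem_span_singleton] at hmem
    obtain ⟨c, hc⟩ := hmem
    have hli := b.linearIndependent
    have hrel : c • b 0 + (-1 : k) • b 1 = 0 := by rw [hc]; simp
    have hcoef := (Fintype.linearIndependent_iff.mp hli) ![c, -1]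
      (by simpa [Fin.sum_univ_two] using hrel) 1
    simp at hcoef
  · intro z
    obtain ⟨w, rfl⟩ := L.mkQ_surjective z
    rw [← map_nsmul]
    have : p • w = (p : k) • w := by rw [Nat.cast_smul_eq_nsmul]
    rw [this, hpk, zero_smul, map_zero]
  · -- the subgroup `S`
    let S : Subgroup GQ :=
      { carrier := {σ | σ ∈ A.decompositionSubgroup ℚ ∧ ∀ v : ρb.V, ρb.ρ σ v - v ∈ L}
        mul_mem' := by
          rintro σ σ' ⟨hσ, hσL⟩ ⟨hσ', hσL'⟩
          refine ⟨(A.decompositionSubgroup ℚ).mul_mem hσ hσ', fun v => ?_⟩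
          have e : ρb.ρ (σ * σ') v - v = ρb.ρ σ (ρb.ρ σ' v - v) + (ρb.ρ σ v - v) := by
            rw [map_mul, Module.End.mul_apply, map_sub]; abel
          rw [e]
          exact L.add_mem (hDL σ hσ _ (hσL' v)) (hσL v)
        one_mem' := ⟨(A.decompositionSubgroup ℚ).one_mem, fun v => by
          rw [map_one, Module.End.one_apply, sub_self]; exact L.zero_mem⟩
        inv_mem' := by
          rintro σ ⟨hσ, hσL⟩
          refine ⟨(A.decompositionSubgroup ℚ).inv_mem hσ, fun v => ?_⟩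
          have e : ρb.ρ σ⁻¹ v - v = -(ρb.ρ σ (ρb.ρ σ⁻¹ v) - ρb.ρ σ⁻¹ v) := by
            have : ρb.ρ σ (ρb.ρ σ⁻¹ v) = v := by
              rw [← Module.End.mul_apply, ← map_mul, mul_inv_cancel, map_one, Module.End.one_apply]
            rw [this]; abel
          rw [e]
          exact L.neg_mem (hσL _) }
    have hIS : A.inertiaSubgroupIn ℚ ≤ S := fun σ hσ =>
      ⟨gammaF_le_decomposition (A := A) (ℓ := p) 1 (inertia_le_gammaF (A := A) (ℓ := p) 1 hσ),
        hIL σ hσ⟩
    have hlev : HasLevelIn A S := by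
      obtain ⟨Lf, hLf, h1⟩ := ρb.isAdicContinuous 1
      refine ⟨Lf, hLf, fun σ hσ hfixL => ⟨hσ, fun v => ?_⟩⟩
      have h2 := h1 σ hfixL v
      have hbot : IsLocalRing.maximalIdeal k = ⊥ := IsLocalRing.maximalIdeal_eq_bot
      rw [hbot, pow_one, Submodule.bot_smul, Submodule.mem_bot] at h2
      rw [h2]
      exact L.zero_mem
    obtain ⟨f₀, hf₀, hle⟩ := exists_gammaF_le
      (Fermat.Agent.ES.V19.ChartDataInst21.fixesInertFixed hp hA) S hIS hlev
    refine ⟨f₀, hf₀, fun σ hσ v => ?_⟩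
    show L.mkQ (ρb.ρ σ v) = L.mkQ v
    rw [← sub_eq_zero, ← map_sub]
    exact (Submodule.Quotient.mk_eq_zero L).mpr ((hle hσ).2 _)

/-- **A4.** -/
theorem exists_lambda (ρ : GaloisRepAdic T) {p : ℕ} (hp : p.Prime)
    (hpT : (p : T) ∈ IsLocalRing.maximalIdeal T)
    (A : ValuationSubring Qbar) (hA : A.LiesOverPrime p)
    (hres : (GaloisRepAdic.ofResidualGaloisRep ρ.residual).IsOrdinaryAt p) :
    ∃ (Z : Type) (_ : AddCommGroup Z) (lam : ρ.V →+ Z), Function.Surjective lam ∧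
      (∃ z : Z, z ≠ 0) ∧ (∀ z : Z, p • z = 0) ∧
      (∀ t ∈ IsLocalRing.maximalIdeal T, ∀ v : ρ.V, lam (t • v) = 0) ∧
      ∃ f₀ : ℕ, 0 < f₀ ∧ ∀ σ ∈ gammaF A p f₀, ∀ v : ρ.V, lam (ρ.ρ σ v) = lam v := by
  have hpk : (p : IsLocalRing.ResidueField T) = 0 := by
    have : (p : IsLocalRing.ResidueField T) = IsLocalRing.residue T (p : T) := by simp
    rw [this]
    exact (IsLocalRing.residue_eq_zero_iff _).mpr hpT
  obtain ⟨Z, iZ, q, hq, hZ, hpZ, f₀, hf₀, hinv⟩ := exists_quot (resAdic ρ) hp hpk A hA hres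
  refine ⟨Z, iZ, q.comp (toResB ρ), hq.comp (toResB_surjective ρ), hZ, hpZ, ?_, f₀, hf₀, ?_⟩
  · intro t ht v
    rw [AddMonoidHom.comp_apply, toResB_smul_of_mem ρ ht, map_zero]
  · intro σ hσ v
    rw [AddMonoidHom.comp_apply, AddMonoidHom.comp_apply, toResB_rho, hinv σ hσ]

end Fermat.Agent.ES.W33.AsmLambda8
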