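/-
Programme W (S33), chapter ASM, brick A1 (helper19): **bounded coinvariants of `V/𝔭V` give
`p^(2c) V ⊆ 𝔞² V + 𝔭 V`**, where `𝔞² V` (`secondSpan`) is the `T`-span of the mixed second differences
`ρ(τ')(ρ(τ) v - v) - (ρ(τ) v - v)`, `τ, τ'` in the inertia group.
-/
import Mathlib
import Fermat.Agent.ES.W33.WIface8

set_option autoImplicit false

noncomputable section

namespace Fermat.Agent.ES.W33.AsmSecond19

open Fermat.Agent.ES.W33.WIface8

local notation "Qbar" => AlgebraicClosure ℚ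

variable {T : Type} [CommRing T] [IsLocalRing T]

/-- `𝔞² V`: the `T`-span of all mixed second differences along the inertia group of `P`. -/
def secondSpan (ρ : GaloisRepAdic T) (P : ValuationSubring Qbar) : Submodule T ρ.V :=
  Submodule.span T {w | ∃ τ ∈ P.inertiaSubgroupIn ℚ, ∃ τ' ∈ P.inertiaSubgroupIn ℚ, ∃ v : ρ.V,
    w = ρ.ρ τ' (ρ.ρ τ v - v) - (ρ.ρ τ v - v)}

/-- `ρ(τ') - 1` maps `𝔞 V` into `𝔞² V`. -/
theorem sub_mem_secondSpan (ρ : GaloisRepAdic T) (P : ValuationSubring Qbar)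
    {τ' : AlgebraicClosure ℚ ≃ₐ[ℚ] AlgebraicClosure ℚ} (hτ' : τ' ∈ P.inertiaSubgroupIn ℚ)
    {w : ρ.V} (hw : w ∈ inertiaSpan ρ P) : ρ.ρ τ' w - w ∈ secondSpan ρ P := by
  unfold inertiaSpan at hw
  induction hw using Submodule.span_induction with
  | mem x hx =>
    obtain ⟨τ, hτ, v, rfl⟩ := hx
    exact Submodule.subset_span ⟨τ, hτ, τ', hτ', v, rfl⟩
  | zero => simp
  | add x y _ _ hx hy =>
    have : ρ.ρ τ' (x + y) - (x + y) = (ρ.ρ τ' x - x) + (ρ.ρ τ' y - y) := by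
      rw [map_add]; abel
    rw [this]
    exact Submodule.add_mem _ hx hy
  | smul t x _ hx =>
    have : ρ.ρ τ' (t • x) - t • x = t • (ρ.ρ τ' x - x) := by
      rw [map_smul, smul_sub]
    rw [this]
    exact Submodule.smul_mem _ _ hx

/-- `ρ(τ') - 1` preserves `𝔭 V`. -/
theorem sub_mem_smul_top (ρ : GaloisRepAdic T) (𝔭 : Ideal T)
    (τ' : AlgebraicClosure ℚ ≃ₐ[ℚ] AlgebraicClosure ℚ) {w : ρ.V}
    (hw : w ∈ 𝔭 • (⊤ : Submodule T ρ.V)) : ρ.ρ τ' w - w ∈ 𝔭 • (⊤ : Submodule T ρ.V) := by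
  refine Submodule.sub_mem _ ?_ hw
  refine Submodule.smul_induction_on hw ?_ ?_
  · intro t ht v _
    rw [map_smul]
    exact Submodule.smul_mem_smul ht Submodule.mem_top
  · intro x y hx hy
    rw [map_add]
    exact Submodule.add_mem _ hx hy

/-- `ρ(τ') - 1` maps `𝔞 V + 𝔭 V` into `𝔞² V + 𝔭 V`. -/
theorem sub_mem_sup (ρ : GaloisRepAdic T) (P : ValuationSubring Qbar) (𝔭 : Ideal T)
    {τ' : AlgebraicClosure ℚ ≃ₐ[ℚ] AlgebraicClosure ℚ} (hτ' : τ' ∈ P.inertiaSubgroupIn ℚ)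
    {w : ρ.V} (hw : w ∈ inertiaSpan ρ P ⊔ 𝔭 • (⊤ : Submodule T ρ.V)) :
    ρ.ρ τ' w - w ∈ secondSpan ρ P ⊔ 𝔭 • (⊤ : Submodule T ρ.V) := by
  obtain ⟨a, ha, b, hb, rfl⟩ := Submodule.mem_sup.mp hw
  have : ρ.ρ τ' (a + b) - (a + b) = (ρ.ρ τ' a - a) + (ρ.ρ τ' b - b) := by
    rw [map_add]; abel
  rw [this]
  exact Submodule.add_mem_sup (sub_mem_secondSpan ρ P hτ' ha) (sub_mem_smul_top ρ 𝔭 τ' hb)

/-- **A1.** `p^c V ⊆ 𝔞 V + 𝔭 V` implies `p^(2c) V ⊆ 𝔞² V + 𝔭 V`. -/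
theorem pow_two_mul_smul_mem (ρ : GaloisRepAdic T) (P : ValuationSubring Qbar) (𝔭 : Ideal T)
    (p c : ℕ) (hb : CoinvBounded ρ P 𝔭 p c) (v : ρ.V) :
    ((p : T) ^ (2 * c)) • v ∈ secondSpan ρ P ⊔ 𝔭 • (⊤ : Submodule T ρ.V) := by
  -- `p^c • (𝔞 V + 𝔭 V) ⊆ 𝔞² V + 𝔭 V`
  have key : ∀ w ∈ inertiaSpan ρ P ⊔ 𝔭 • (⊤ : Submodule T ρ.V),
      ((p : T) ^ c) • w ∈ secondSpan ρ P ⊔ 𝔭 • (⊤ : Submodule T ρ.V) := by
    intro w hw
    obtain ⟨a, ha, b, hb', rfl⟩ := Submodule.mem_sup.mp hw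
    clear hw
    rw [smul_add]
    refine Submodule.add_mem _ ?_ (Submodule.mem_sup_right (Submodule.smul_mem _ _ hb'))
    unfold inertiaSpan at ha
    induction ha using Submodule.span_induction with
    | mem x hx =>
      obtain ⟨τ, hτ, u, rfl⟩ := hx
      have : ((p : T) ^ c) • (ρ.ρ τ u - u) = ρ.ρ τ (((p : T) ^ c) • u) - ((p : T) ^ c) • u := by
        rw [map_smul, smul_sub]
      rw [this]
      exact sub_mem_sup ρ P 𝔭 hτ (hb u)
    | zero => simp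
    | add x y _ _ hx hy => rw [smul_add]; exact Submodule.add_mem _ hx hy
    | smul t x _ hx => rw [smul_comm]; exact Submodule.smul_mem _ _ hx
  have : ((p : T) ^ (2 * c)) • v = ((p : T) ^ c) • (((p : T) ^ c) • v) := by
    rw [smul_smul, ← pow_add, two_mul]
  rw [this]
  exact key _ (hb v)

/-- The generators of `𝔞² V`. -/
def secondGens (ρ : GaloisRepAdic T) (P : ValuationSubring Qbar) : Set ρ.V :=
  {w | ∃ τ ∈ P.inertiaSubgroupIn ℚ, ∃ τ' ∈ P.inertiaSubgroupIn ℚ, ∃ v : ρ.V,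
    w = ρ.ρ τ' (ρ.ρ τ v - v) - (ρ.ρ τ v - v)}

theorem smul_mem_secondGens (ρ : GaloisRepAdic T) (P : ValuationSubring Qbar) (t : T) {w : ρ.V}
    (hw : w ∈ secondGens ρ P) : t • w ∈ secondGens ρ P := by
  obtain ⟨τ, hτ, τ', hτ', v, rfl⟩ := hw
  refine ⟨τ, hτ, τ', hτ', t • v, ?_⟩
  simp only [map_smul, smul_sub, map_sub]

theorem smul_mem_closure_secondGens (ρ : GaloisRepAdic T) (P : ValuationSubring Qbar) (t : T) {x : ρ.V}
    (hx : x ∈ AddSubgroup.closure (secondGens ρ P)) : t • x ∈ AddSubgroup.closure (secondGens ρ P) := by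
  induction hx using AddSubgroup.closure_induction with
  | mem y hy => exact AddSubgroup.subset_closure (smul_mem_secondGens ρ P t hy)
  | zero => rw [smul_zero]; exact AddSubgroup.zero_mem _
  | add y z _ _ hy hz => rw [smul_add]; exact AddSubgroup.add_mem _ hy hz
  | neg y _ hy => rw [smul_neg]; exact AddSubgroup.neg_mem _ hy

/-- `𝔞² V` is already the additive subgroup generated by the mixed second differences. -/
theorem mem_closure_of_mem_secondSpan (ρ : GaloisRepAdic T) (P : ValuationSubring Qbar) {w : ρ.V}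
    (hw : w ∈ secondSpan ρ P) : w ∈ AddSubgroup.closure (secondGens ρ P) := by
  unfold secondSpan at hw
  induction hw using Submodule.span_induction with
  | mem x hx => exact AddSubgroup.subset_closure hx
  | zero => exact AddSubgroup.zero_mem _
  | add x y _ _ hx hy => exact AddSubgroup.add_mem _ hx hy
  | smul t x _ hx => exact smul_mem_closure_secondGens ρ P t hx

end Fermat.Agent.ES.W33.AsmSecond19
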