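/-
Programme W (S33), chapter ASM, brick A3 (helper19): **V32's sub-quotient theorem at the ideal
`I = 𝔭 + p^m T`**, with the consequence of A1 attached.

* `finite_quotient_of_natCast_pow_mem` : `T ⧸ I` is finite as soon as `p^m ∈ I` (`T` finite over a DVR `𝒪` with finite
  residue field, `p ≠ 0` in `𝒪`).
* `exists_subquot_second` : for a minimal prime `𝔭` with `CoinvBounded ρ P 𝔭 p c` and every `m`: `V ⧸ I V`
  (`I = 𝔭 ⊔ (p^m)`) is an equivariant quotient `f : X ↠ V ⧸ I V` of a Galois-stable subgroup `X` of `J₀(N)[p^m']^r`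
  (`SubQuot18.exists_subquot_jacobian`, which needs no `p ∤ N`), and every `p^(2c) • w̄` is the image under `f` of an
  element of `X` lying in the additive subgroup generated by the mixed second differences
  `τ' • (τ • x - x) - (τ • x - x)`, `x ∈ X`, `τ, τ'` in the inertia group of `P`.
-/
import Mathlib
import Fermat.Agent.ES.V32.SubQuot18
import Fermat.Agent.ES.W33.AsmSecond19

set_option autoImplicit false
set_option linter.unusedSectionVars false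

open CuspForm

noncomputable section

namespace Fermat.Agent.ES.W33.AsmSubquot19

open Fermat.Agent.ES.W33.WIface8 Fermat.Agent.ES.W33.AsmSecond19

local notation "Qbar" => AlgebraicClosure ℚ
local notation "GQ" => (AlgebraicClosure ℚ ≃ₐ[ℚ] AlgebraicClosure ℚ)

/-! ### Finiteness of `T ⧸ I` -/

/-- A nonzero principal ideal of a DVR with finite residue field has finite index. -/
theorem finite_quotient_span_singleton {𝒪 : Type*} [CommRing 𝒪] [IsDomain 𝒪]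
    [IsDiscreteValuationRing 𝒪] [Finite (IsLocalRing.ResidueField 𝒪)] {a : 𝒪} (ha : a ≠ 0) :
    Finite (𝒪 ⧸ Ideal.span {a}) := by
  obtain ⟨ϖ, hϖ⟩ := IsDiscreteValuationRing.exists_irreducible 𝒪
  have hs : Ideal.span {a} ≠ ⊥ := by
    rw [Ne, Ideal.span_singleton_eq_bot]; exact ha
  obtain ⟨n, hn⟩ := IsDiscreteValuationRing.ideal_eq_span_pow_irreducible hs hϖ
  have hm : IsLocalRing.maximalIdeal 𝒪 = Ideal.span {ϖ} :=
    (IsDiscreteValuationRing.irreducible_iff_uniformizer ϖ).mp hϖ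
  have : Finite (𝒪 ⧸ IsLocalRing.maximalIdeal 𝒪) := ‹Finite (IsLocalRing.ResidueField 𝒪)›
  have h2 : Finite (𝒪 ⧸ (IsLocalRing.maximalIdeal 𝒪) ^ n) :=
    Ideal.finite_quotient_pow (IsNoetherian.noetherian _) n
  rw [hn, ← Ideal.span_singleton_pow, ← hm]
  exact h2

/-- `T ⧸ I` is finite as soon as `I` contains the image of a nonzero element of `𝒪`. -/
theorem finite_quotient_of_algebraMap_mem {𝒪 : Type*} [CommRing 𝒪] [IsDomain 𝒪]
    [IsDiscreteValuationRing 𝒪] [Finite (IsLocalRing.ResidueField 𝒪)]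
    {T : Type*} [CommRing T] [Algebra 𝒪 T] [Module.Finite 𝒪 T]
    {a : 𝒪} (ha : a ≠ 0) (I : Ideal T) (haI : algebraMap 𝒪 T a ∈ I) : Finite (T ⧸ I) := by
  have h1 : Finite (𝒪 ⧸ Ideal.span {a}) := finite_quotient_span_singleton ha
  have h2 : Finite (T ⧸ (Ideal.span {a}) • (⊤ : Submodule 𝒪 T)) :=
    Module.finite_of_finite (𝒪 ⧸ Ideal.span {a})
  -- the `𝒪`-linear surjection `T ⧸ a T → T ⧸ I`
  let φ : T →ₗ[𝒪] (T ⧸ I) := (Ideal.Quotient.mkₐ 𝒪 I).toLinearMap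
  have hker : (Ideal.span {a}) • (⊤ : Submodule 𝒪 T) ≤ LinearMap.ker φ := by
    rw [Submodule.smul_le]
    intro r hr t _
    obtain ⟨s, rfl⟩ := Ideal.mem_span_singleton'.mp hr
    rw [LinearMap.mem_ker]
    show Ideal.Quotient.mk I ((s * a) • t) = 0
    rw [Ideal.Quotient.eq_zero_iff_mem, Algebra.smul_def, map_mul, mul_assoc, mul_comm (algebraMap 𝒪 T a),
      ← mul_assoc]
    exact I.mul_mem_left _ haI
  let ψ := Submodule.liftQ _ φ hker
  have hψ : Function.Surjective ψ := by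
    intro y
    obtain ⟨t, rfl⟩ := Ideal.Quotient.mk_surjective y
    exact ⟨Submodule.Quotient.mk t, rfl⟩
  exact Finite.of_surjective ψ hψ

theorem finite_quotient_of_natCast_pow_mem {𝒪 : Type*} [CommRing 𝒪] [IsDomain 𝒪]
    [IsDiscreteValuationRing 𝒪] [Finite (IsLocalRing.ResidueField 𝒪)] [CharZero 𝒪]
    {T : Type*} [CommRing T] [Algebra 𝒪 T] [Module.Finite 𝒪 T]
    {p : ℕ} (hp : p ≠ 0) (m : ℕ) (I : Ideal T) (hI : (p : T) ^ m ∈ I) : Finite (T ⧸ I) := by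
  have ha : ((p : 𝒪) ^ m) ≠ 0 := pow_ne_zero _ (Nat.cast_ne_zero.mpr hp)
  refine finite_quotient_of_algebraMap_mem ha I ?_
  rwa [map_pow, map_natCast]

/-! ### The sub-quotient at `I = 𝔭 + p^m T` -/

section Main

variable {p : ℕ} {N : ℕ} [NeZero N] {S : Finset ℕ}
  {𝒪 : Type} [CommRing 𝒪] [IsDomain 𝒪] [IsDiscreteValuationRing 𝒪]
  [IsAdicComplete (IsLocalRing.maximalIdeal 𝒪) 𝒪]
  {θ : CuspForm.heckeAlgebra N 2 (↑S : Set ℕ) →+* IsLocalRing.ResidueField 𝒪}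
  {T : Type} [CommRing T] [IsLocalRing T] [IsNoetherianRing T]
  [IsAdicComplete (IsLocalRing.maximalIdeal T) T] [Algebra 𝒪 T] [IsLocalHom (algebraMap 𝒪 T)]
  [Module.Finite 𝒪 T] [Module.Free 𝒪 T]

/-- The ideal `𝔭 + p^m T`. -/
def levelIdeal (𝔭 : Ideal T) (p m : ℕ) : Ideal T := 𝔭 ⊔ Ideal.span {(p : T) ^ m}

theorem le_levelIdeal (𝔭 : Ideal T) (p m : ℕ) : 𝔭 ≤ levelIdeal 𝔭 p m := le_sup_left

theorem pow_mem_levelIdeal (𝔭 : Ideal T) (p m : ℕ) : (p : T) ^ m ∈ levelIdeal 𝔭 p m :=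
  Ideal.mem_sup_right (Ideal.subset_span rfl)

/-- The mixed second differences of the elements of a subgroup `X` of `J₀(N)^r`. -/
def secondDiffs (P : ValuationSubring Qbar) {r : ℕ} (X : AddSubgroup (Fin r → ModularCurve.JZero N)) :
    Set (Fin r → ModularCurve.JZero N) :=
  {z | ∃ τ ∈ P.inertiaSubgroupIn ℚ, ∃ τ' ∈ P.inertiaSubgroupIn ℚ, ∃ x ∈ X,
    z = τ' • (τ • x - x) - (τ • x - x)}

/-- **A3 (+A1).** -/
theorem exists_subquot_second [Finite (IsLocalRing.ResidueField 𝒪)] [CharZero 𝒪]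
    (hp : p.Prime) (hp2 : p ≠ 2) (hp𝒪 : (p : 𝒪) ∈ IsLocalRing.maximalIdeal 𝒪) (hpS : p ∈ S)
    (hNS : ∀ q : ℕ, q.Prime → q ∣ N → q ∈ S)
    (H : CuspForm.HeckeGaloisRepDatum N (↑S : Set ℕ) 𝒪 θ T)
    (P : ValuationSubring Qbar) (𝔭 : Ideal T) (c : ℕ) (hb : CoinvBounded H.ρ P 𝔭 p c) (m : ℕ) :
    ∃ (_ : Finite (T ⧸ levelIdeal 𝔭 p m)) (r m' : ℕ) (X : AddSubgroup (Fin r → ModularCurve.JZero N)),
      (∀ x ∈ X, ∀ i, (p ^ m') • x i = 0) ∧
      (∀ σ : GQ, ∀ x ∈ X, σ • x ∈ X) ∧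
      ∃ f : X →+ (H.ρ.V ⧸ levelIdeal 𝔭 p m • (⊤ : Submodule T H.ρ.V)), Function.Surjective f ∧
        (∀ (σ : GQ) (x : X) (hσx : σ • (x : Fin r → ModularCurve.JZero N) ∈ X),
          f ⟨σ • (x : Fin r → ModularCurve.JZero N), hσx⟩ = H.ρ.levelAction (levelIdeal 𝔭 p m) σ (f x)) ∧
        ∀ w : H.ρ.V, ∃ z ∈ AddSubgroup.closure (secondDiffs P X), ∃ hz : z ∈ X,
          f ⟨z, hz⟩ = Submodule.Quotient.mk (((p : T) ^ (2 * c)) • w) := by
  have : Fact p.Prime := ⟨hp⟩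
  have hfin : Finite (T ⧸ levelIdeal 𝔭 p m) :=
    finite_quotient_of_natCast_pow_mem (𝒪 := 𝒪) hp.ne_zero m _ (pow_mem_levelIdeal 𝔭 p m)
  obtain ⟨r, m', X, hkill, hstab, f, hsurj, hequiv⟩ :=
    Fermat.Agent.ES.V32.SubQuot18.exists_subquot_jacobian hp2 hp𝒪 hpS hNS H (levelIdeal 𝔭 p m)
  refine ⟨hfin, r, m', X, hkill, hstab, f, hsurj, hequiv, ?_⟩
  -- every generator of `𝔞² V` is hit by a second difference in `X`
  have hgen : ∀ s ∈ secondGens H.ρ P, ∃ z ∈ AddSubgroup.closure (secondDiffs P X), ∃ hz : z ∈ X,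
      f ⟨z, hz⟩ = Submodule.Quotient.mk s := by
    rintro s ⟨τ, hτ, τ', hτ', v, rfl⟩
    obtain ⟨x, hx⟩ := hsurj (Submodule.Quotient.mk v)
    have h1 : τ • (x : Fin r → ModularCurve.JZero N) ∈ X := hstab τ x x.2
    have h2 : τ • (x : Fin r → ModularCurve.JZero N) - x ∈ X := X.sub_mem h1 x.2
    have h3 : τ' • (τ • (x : Fin r → ModularCurve.JZero N) - x) ∈ X := hstab τ' _ h2
    have h4 : τ' • (τ • (x : Fin r → ModularCurve.JZero N) - x) - (τ • (x : Fin r → ModularCurve.JZero N) - x) ∈ X :=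
      X.sub_mem h3 h2
    refine ⟨_, AddSubgroup.subset_closure ⟨τ, hτ, τ', hτ', x, x.2, rfl⟩, h4, ?_⟩
    have e1 : f ⟨τ • (x : Fin r → ModularCurve.JZero N), h1⟩ = H.ρ.levelAction (levelIdeal 𝔭 p m) τ (f x) := hequiv τ x h1
    have e2 : f ⟨τ • (x : Fin r → ModularCurve.JZero N) - x, h2⟩ = H.ρ.levelAction (levelIdeal 𝔭 p m) τ (f x) - f x := by
      have : (⟨τ • (x : Fin r → ModularCurve.JZero N) - x, h2⟩ : X) = ⟨_, h1⟩ - x := rfl
      rw [this, map_sub, e1]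
    have e3 : f ⟨τ' • (τ • (x : Fin r → ModularCurve.JZero N) - x), h3⟩ =
        H.ρ.levelAction (levelIdeal 𝔭 p m) τ' (H.ρ.levelAction (levelIdeal 𝔭 p m) τ (f x) - f x) := by
      rw [← e2]
      exact hequiv τ' ⟨_, h2⟩ h3
    have e4 : f ⟨τ' • (τ • (x : Fin r → ModularCurve.JZero N) - x) - (τ • (x : Fin r → ModularCurve.JZero N) - x), h4⟩ =
        H.ρ.levelAction (levelIdeal 𝔭 p m) τ' (H.ρ.levelAction (levelIdeal 𝔭 p m) τ (f x) - f x) - (H.ρ.levelAction (levelIdeal 𝔭 p m) τ (f x) - f x) := by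
      have : (⟨τ' • (τ • (x : Fin r → ModularCurve.JZero N) - x) - (τ • (x : Fin r → ModularCurve.JZero N) - x), h4⟩ : X)
          = ⟨_, h3⟩ - ⟨_, h2⟩ := rfl
      rw [this, map_sub, e3, e2]
    rw [e4, hx]
    rfl
  -- hence every element of the additive closure of the generators
  have hcl : ∀ s ∈ AddSubgroup.closure (secondGens H.ρ P),
      ∃ z ∈ AddSubgroup.closure (secondDiffs P X), ∃ hz : z ∈ X, f ⟨z, hz⟩ = Submodule.Quotient.mk s := by
    intro s hs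
    induction hs using AddSubgroup.closure_induction with
    | mem y hy => exact hgen y hy
    | zero => exact ⟨0, AddSubgroup.zero_mem _, X.zero_mem, by rw [Submodule.Quotient.mk_zero]; exact map_zero f⟩
    | add y y' _ _ hy hy' =>
      obtain ⟨z, hz, hzX, hfz⟩ := hy
      obtain ⟨z', hz', hzX', hfz'⟩ := hy'
      refine ⟨z + z', AddSubgroup.add_mem _ hz hz', X.add_mem hzX hzX', ?_⟩
      have : (⟨z + z', X.add_mem hzX hzX'⟩ : X) = ⟨z, hzX⟩ + ⟨z', hzX'⟩ := rfl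
      rw [this, map_add, hfz, hfz', Submodule.Quotient.mk_add]
    | neg y _ hy =>
      obtain ⟨z, hz, hzX, hfz⟩ := hy
      refine ⟨-z, AddSubgroup.neg_mem _ hz, X.neg_mem hzX, ?_⟩
      have : (⟨-z, X.neg_mem hzX⟩ : X) = -⟨z, hzX⟩ := rfl
      rw [this, map_neg, hfz, Submodule.Quotient.mk_neg]
  intro w
  obtain ⟨s, hs, e, he, hse⟩ := Submodule.mem_sup.mp (pow_two_mul_smul_mem H.ρ P 𝔭 p c hb w)
  obtain ⟨z, hz, hzX, hfz⟩ := hcl s (mem_closure_of_mem_secondSpan H.ρ P hs)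
  refine ⟨z, hz, hzX, ?_⟩
  rw [hfz, ← hse, Submodule.Quotient.mk_add]
  have he' : e ∈ levelIdeal 𝔭 p m • (⊤ : Submodule T H.ρ.V) :=
    Submodule.smul_mono_left (le_levelIdeal 𝔭 p m) he
  rw [(Submodule.Quotient.mk_eq_zero _).mpr he', add_zero]

end Main

end Fermat.Agent.ES.W33.AsmSubquot19
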