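/-
Programme W (S33, route `S33_ROUTE8.md`, spine `WIface8` cd7976a0), chapter ASM, THE EXIT (helper8):

  **`coinvUnbounded_of_hasConnOrder` : (O) for every place `A` over `p` and every `m`  ⟹  (E).**

Argument.  Suppose `p^c V ⊆ 𝔞 V + 𝔭 V` (`CoinvBounded`).  By A3(+A1) (`AsmSubquot19.exists_subquot_second`
at `I = 𝔭 + p^(2c+1) T`) `W = V ⧸ I V` is an equivariant quotient `f : X ↠ W` of a Galois-stable subgroup
`X ≤ (J₀(N)[p^m'])^r`, and `Y₀ = p^(2c) W` is generated by `f`-images of mixed second differences along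
the inertia group.  By A2 (`AsmTorsFree19`) `p^(2c) w ∈ I V ⟹ w ∈ p V + 𝔭 V`, so the residual character
quotient `lam : V ↠ Z` of A4 (`AsmLambda8.exists_lambda`; it kills `𝔪_T V ⊇ pV + 𝔭V`) descends to a
`Γ_f`-INVARIANT surjection `g : Y₀ ↠ Z`, `g (p^(2c) w̄) = lam w`.  This contradicts A5/A6
(`AsmConn4.false_of_connOrderData`) applied to the connected order of (O) at level `m'`.
-/
import Mathlib
import Fermat.Agent.ES.W33.AsmSubquot19
import Fermat.Agent.ES.W33.AsmTorsFree19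
import Fermat.Agent.ES.W33.AsmLambda8
import Fermat.Agent.ES.W33.AsmConn4

set_option autoImplicit false
set_option linter.unusedSectionVars false

open CuspForm

noncomputable section

namespace Fermat.Agent.ES.W33.AsmExit8

open Fermat.Agent.ES.W33.WIface8 Fermat.Agent.ES.W33.AsmSubquot19
  Fermat.Agent.ES.V19.GammaF16

local notation "Qbar" => AlgebraicClosure ℚ
local notation "GQ" => (AlgebraicClosure ℚ ≃ₐ[ℚ] AlgebraicClosure ℚ)

section Algebra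

variable {T : Type} [CommRing T] [IsLocalRing T]

/-- An additive map killing `t • v` for all `t ∈ 𝔪_T` kills `𝔭 V` for every proper ideal `𝔭`. -/
theorem lam_eq_zero_of_mem_smul_top {V Z : Type*} [AddCommGroup V] [Module T V] [AddCommGroup Z]
    (lam : V →+ Z) (hlam : ∀ t ∈ IsLocalRing.maximalIdeal T, ∀ v : V, lam (t • v) = 0)
    {𝔭 : Ideal T} (h𝔭 : 𝔭 ≤ IsLocalRing.maximalIdeal T) {v : V}
    (hv : v ∈ 𝔭 • (⊤ : Submodule T V)) : lam v = 0 := by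
  refine Submodule.smul_induction_on (p := fun v => lam v = 0) hv ?_ ?_
  · intro t ht w _
    exact hlam t (h𝔭 ht) w
  · intro x y hx hy
    rw [map_add, hx, hy, add_zero]

/-- Elements of `(𝔭 ⊔ (a)) V` are of the form `e + a • w`, `e ∈ 𝔭 V`. -/
theorem exists_of_mem_sup_span_smul_top {V : Type*} [AddCommGroup V] [Module T V]
    (𝔭 : Ideal T) (a : T) {v : V}
    (hv : v ∈ (𝔭 ⊔ Ideal.span {a}) • (⊤ : Submodule T V)) :
    ∃ e ∈ 𝔭 • (⊤ : Submodule T V), ∃ w : V, v = e + a • w := by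
  rw [Submodule.sup_smul] at hv
  obtain ⟨e, he, u, hu, rfl⟩ := Submodule.mem_sup.mp hv
  rw [Submodule.ideal_span_singleton_smul] at hu
  obtain ⟨w, -, rfl⟩ := (Submodule.mem_smul_pointwise_iff_exists _ _ _).mp hu
  exact ⟨e, he, w, rfl⟩

end Algebra

variable {p : ℕ} {N : ℕ} [NeZero N] {S : Finset ℕ}
  {𝒪 : Type} [CommRing 𝒪] [IsDomain 𝒪] [IsDiscreteValuationRing 𝒪]
  [IsAdicComplete (IsLocalRing.maximalIdeal 𝒪) 𝒪]
  {θ : CuspForm.heckeAlgebra N 2 (↑S : Set ℕ) →+* IsLocalRing.ResidueField 𝒪}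
  {T : Type} [CommRing T] [IsLocalRing T] [IsNoetherianRing T]
  [IsAdicComplete (IsLocalRing.maximalIdeal T) T] [Algebra 𝒪 T] [IsLocalHom (algebraMap 𝒪 T)]
  [Module.Finite 𝒪 T] [Module.Free 𝒪 T]

/-- **EXIT of chapter ASM: (O) ⟹ (E).** -/
theorem coinvUnbounded_of_hasConnOrder [Finite (IsLocalRing.ResidueField 𝒪)] [CharZero 𝒪]
    (hp : p.Prime) (hp2 : p ≠ 2) (hp𝒪 : (p : 𝒪) ∈ IsLocalRing.maximalIdeal 𝒪)
    (hN : p ∣ N ∧ ¬ p ^ 2 ∣ N)
    (hNS : ∀ q : ℕ, q.Prime → q ∣ N → q ∈ S)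
    (H : CuspForm.HeckeGaloisRepDatum N (↑S : Set ℕ) 𝒪 θ T)
    (hres : (GaloisRepAdic.ofResidualGaloisRep H.ρ.residual).IsOrdinaryAt p)
    (hO : ∀ A : ValuationSubring Qbar, A.LiesOverPrime p → ∀ m : ℕ, HasConnOrder p N m A) :
    CoinvUnbounded H.ρ p := by
  classical
  intro P hP 𝔭 h𝔭 c hb
  have hpS : p ∈ S := hNS p hp hN.1
  have hpT : (p : T) ∈ IsLocalRing.maximalIdeal T :=
    Fermat.Agent.ES.V32.SubQuot18.natCast_mem_maximalIdeal (𝒪 := 𝒪) hp𝒪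
  have h𝔭prime : 𝔭.IsPrime := h𝔭.1.1
  have h𝔭le : 𝔭 ≤ IsLocalRing.maximalIdeal T := IsLocalRing.le_maximalIdeal h𝔭prime.ne_top
  -- A3 (+A1)
  obtain ⟨_hfin, r, m', X, hkill, hstab, f, hsurj, hequiv, hsec⟩ :=
    exists_subquot_second hp hp2 hp𝒪 hpS hNS H P 𝔭 c hb (2 * c + 1)
  -- A4
  obtain ⟨Z, iZ, lam, hlamsurj, hZ, hpZ, hlam𝔪, f₀, hf₀, hinv⟩ :=
    Fermat.Agent.ES.W33.AsmLambda8.exists_lambda H.ρ hp hpT P hP hres
  -- (O) at level `m'`
  obtain ⟨fl, _hfl, hdvd, X₀, iX₀, iFin, iAct, ι₀, hι₀, hι₀G, hsd, Hord, hHeq, hHconn⟩ :=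
    hO P hP m' f₀ hf₀
  have hIΓ : P.inertiaSubgroupIn ℚ ≤ gammaF P p fl := inertia_le_gammaF fl
  have hΓΓ : gammaF P p fl ≤ gammaF P p f₀ := gammaF_anti hdvd
  -- the module `W = V ⧸ I V`, its action, and `Y₀ = p^(2c) W`
  let act : GQ → (H.ρ.V ⧸ levelIdeal 𝔭 p (2 * c + 1) • (⊤ : Submodule T H.ρ.V)) → (H.ρ.V ⧸ levelIdeal 𝔭 p (2 * c + 1) • (⊤ : Submodule T H.ρ.V)) :=
    fun σ w => H.ρ.levelAction (levelIdeal 𝔭 p (2 * c + 1)) σ w
  let φ : H.ρ.V →+ (H.ρ.V ⧸ levelIdeal 𝔭 p (2 * c + 1) • (⊤ : Submodule T H.ρ.V)) :=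
    (Submodule.mkQ (levelIdeal 𝔭 p (2 * c + 1) • (⊤ : Submodule T H.ρ.V))).toAddMonoidHom.comp
      (DistribSMul.toAddMonoidHom H.ρ.V ((p : T) ^ (2 * c)))
  have hφ : ∀ w : H.ρ.V, φ w = Submodule.Quotient.mk (((p : T) ^ (2 * c)) • w) := fun w => rfl
  have hactφ : ∀ (σ : GQ) (w : H.ρ.V), act σ (φ w) = φ (H.ρ.ρ σ w) := by
    intro σ w
    show H.ρ.levelAction (levelIdeal 𝔭 p (2 * c + 1)) σ (Submodule.Quotient.mk (((p : T) ^ (2 * c)) • w)) =
      Submodule.Quotient.mk (((p : T) ^ (2 * c)) • (H.ρ.ρ σ w))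
    rw [← map_smul]
    rfl
  -- the key well-definedness: `φ w = 0 → lam w = 0`
  have hker : ∀ w : H.ρ.V, φ w = 0 → lam w = 0 := by
    intro w hw
    rw [hφ, Submodule.Quotient.mk_eq_zero] at hw
    obtain ⟨e, he, w', hw'⟩ := exists_of_mem_sup_span_smul_top 𝔭 ((p : T) ^ (2 * c + 1)) hw
    have h1 : ((p : T) ^ (2 * c)) • (w - (p : T) • w') ∈ 𝔭 • (⊤ : Submodule T H.ρ.V) := by
      have : ((p : T) ^ (2 * c)) • (w - (p : T) • w') = e := by
        rw [smul_sub, hw', smul_smul, ← pow_succ]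
        abel
      rw [this]
      exact he
    have h2 : w - (p : T) • w' ∈ 𝔭 • (⊤ : Submodule T H.ρ.V) :=
      Fermat.Agent.ES.W33.AsmTorsFree19.mem_smul_top_of_pow_smul_mem 𝒪 hp.ne_zero h𝔭 (2 * c) h1
    have h3 : lam (w - (p : T) • w') = 0 := lam_eq_zero_of_mem_smul_top lam hlam𝔪 h𝔭le h2
    have h4 : lam ((p : T) • w') = 0 := hlam𝔪 _ hpT w'
    have : w = (w - (p : T) • w') + (p : T) • w' := by abel
    rw [this, map_add, h3, h4, add_zero]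
  have hwd : ∀ w w' : H.ρ.V, φ w = φ w' → lam w = lam w' := by
    intro w w' h
    have : lam (w - w') = 0 := hker _ (by rw [map_sub, h, sub_self])
    rw [map_sub, sub_eq_zero] at this
    exact this
  -- the invariant surjection `g : Y₀ ↠ Z`
  let g : φ.range →+ Z := AddMonoidHom.mk' (fun y => lam (Classical.choose y.2)) (by
    intro y y'
    rw [← map_add]
    refine hwd _ _ ?_
    rw [map_add, Classical.choose_spec (y + y').2, Classical.choose_spec y.2,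
      Classical.choose_spec y'.2]
    rfl)
  have hgφ : ∀ (w : H.ρ.V) (hw : φ w ∈ φ.range), g ⟨φ w, hw⟩ = lam w := by
    intro w hw
    exact hwd _ _ (Classical.choose_spec hw)
  have hg : Function.Surjective g := by
    intro z
    obtain ⟨w, rfl⟩ := hlamsurj z
    exact ⟨⟨φ w, w, rfl⟩, hgφ w _⟩
  refine Fermat.Agent.ES.W33.AsmConn4.false_of_connOrderData (p := p) (A := P)
    (Γ := gammaF P p fl) (N := N) (m := m') hp hp2 hP hIΓ ι₀ hι₀ hι₀G hsd hHeq hHconn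
    X hkill (fun σ _ x hx => hstab σ x hx) act f hsurj (fun σ _ x hσx => hequiv σ x hσx)
    φ.range ?_ ?_ g hg ?_ hpZ hZ
  · -- `Y₀` is stable
    rintro σ - y ⟨w, rfl⟩
    exact ⟨H.ρ.ρ σ w, (hactφ σ w).symm⟩
  · -- `Y₀` is generated by mixed second differences
    rintro y ⟨w, rfl⟩
    obtain ⟨z, hz, hzX, hfz⟩ := hsec w
    rw [hφ, ← hfz]
    -- transport the closure along `f`
    have key : ∀ z ∈ AddSubgroup.closure (secondDiffs P X), ∃ hz : z ∈ X,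
        f ⟨z, hz⟩ ∈ AddSubgroup.closure
          {w | ∃ τ ∈ P.inertiaSubgroupIn ℚ, ∃ τ' ∈ P.inertiaSubgroupIn ℚ,
            ∃ w' : (H.ρ.V ⧸ levelIdeal 𝔭 p (2 * c + 1) • (⊤ : Submodule T H.ρ.V)),
            w = act τ' (act τ w' - w') - (act τ w' - w')} := by
      intro z hz
      induction hz using AddSubgroup.closure_induction with
      | mem y hy =>
        obtain ⟨τ, hτ, τ', hτ', x, hx, rfl⟩ := hy
        have h1 : τ • x ∈ X := hstab τ x hx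
        have h2 : τ • x - x ∈ X := X.sub_mem h1 hx
        have h3 : τ' • (τ • x - x) ∈ X := hstab τ' _ h2
        have h4 : τ' • (τ • x - x) - (τ • x - x) ∈ X := X.sub_mem h3 h2
        refine ⟨h4, AddSubgroup.subset_closure ⟨τ, hτ, τ', hτ', f ⟨x, hx⟩, ?_⟩⟩
        have e1 : f ⟨τ • x, h1⟩ = act τ (f ⟨x, hx⟩) := hequiv τ ⟨x, hx⟩ h1
        have e2 : f ⟨τ • x - x, h2⟩ = act τ (f ⟨x, hx⟩) - f ⟨x, hx⟩ := by
          have : (⟨τ • x - x, h2⟩ : X) = ⟨_, h1⟩ - ⟨x, hx⟩ := rfl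
          rw [this, map_sub, e1]
        have e3 : f ⟨τ' • (τ • x - x), h3⟩ = act τ' (act τ (f ⟨x, hx⟩) - f ⟨x, hx⟩) := by
          rw [← e2]
          exact hequiv τ' ⟨_, h2⟩ h3
        have : (⟨τ' • (τ • x - x) - (τ • x - x), h4⟩ : X) = ⟨_, h3⟩ - ⟨_, h2⟩ := rfl
        rw [this, map_sub, e3, e2]
      | zero =>
        refine ⟨X.zero_mem, ?_⟩
        have : (⟨0, X.zero_mem⟩ : X) = 0 := rfl
        rw [this, map_zero]
        exact AddSubgroup.zero_mem _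
      | add y y' _ _ hy hy' =>
        obtain ⟨hyX, hfy⟩ := hy
        obtain ⟨hyX', hfy'⟩ := hy'
        refine ⟨X.add_mem hyX hyX', ?_⟩
        have : (⟨y + y', X.add_mem hyX hyX'⟩ : X) = ⟨y, hyX⟩ + ⟨y', hyX'⟩ := rfl
        rw [this, map_add]
        exact AddSubgroup.add_mem _ hfy hfy'
      | neg y _ hy =>
        obtain ⟨hyX, hfy⟩ := hy
        refine ⟨X.neg_mem hyX, ?_⟩
        have : (⟨-y, X.neg_mem hyX⟩ : X) = -⟨y, hyX⟩ := rfl
        rw [this, map_neg]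
        exact AddSubgroup.neg_mem _ hfy
    obtain ⟨hz', hmem⟩ := key z hz
    exact hmem
  · -- `g` is `Γ_f`-invariant
    rintro σ hσ ⟨y, w, rfl⟩ hσy
    have e : (⟨act σ (φ w), hσy⟩ : φ.range) = ⟨φ (H.ρ.ρ σ w), ⟨_, rfl⟩⟩ :=
      Subtype.ext (hactφ σ w)
    rw [e, hgφ, hgφ]
    exact hinv σ (hΓΓ hσ) w

end Fermat.Agent.ES.W33.AsmExit8
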