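/-
Programme W (S33), chapter ASM, brick A2 (helper19): **`V/𝔭V` is `p`-torsion-free** for a minimal prime `𝔭` of a
coefficient ring `T` that is free over a characteristic-zero domain `𝒪`: `(p : T) ∉ 𝔭`, and for a free `T`-module `V`,
`p^k • v ∈ 𝔭 V → v ∈ 𝔭 V`.
-/
import Mathlib

set_option autoImplicit false

namespace Fermat.Agent.ES.W33.AsmTorsFree19

variable {𝒪 : Type*} [CommRing 𝒪] [IsDomain 𝒪] [CharZero 𝒪]
  {T : Type*} [CommRing T] [Algebra 𝒪 T] [Module.Free 𝒪 T]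

/-- A nonzero natural number is a non-zero-divisor of a ring that is free over a characteristic-zero domain. -/
theorem natCast_mem_nonZeroDivisors (𝒪 : Type*) [CommRing 𝒪] [IsDomain 𝒪] [CharZero 𝒪]
    {T : Type*} [CommRing T] [Algebra 𝒪 T] [Module.Free 𝒪 T] {n : ℕ} (hn : n ≠ 0) :
    (n : T) ∈ nonZeroDivisors T := by
  rw [mem_nonZeroDivisors_iff_right]
  intro t ht
  have h0 : (n : 𝒪) ≠ 0 := Nat.cast_ne_zero.mpr hn
  have h1 : (n : 𝒪) • t = 0 := by
    rw [Algebra.smul_def, map_natCast, mul_comm]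
    exact ht
  exact (smul_eq_zero_iff_right h0).mp h1

/-- A nonzero natural number lies in no minimal prime. -/
theorem natCast_notMem_of_mem_minimalPrimes (𝒪 : Type*) [CommRing 𝒪] [IsDomain 𝒪] [CharZero 𝒪]
    {T : Type*} [CommRing T] [Algebra 𝒪 T] [Module.Free 𝒪 T] {n : ℕ} (hn : n ≠ 0)
    {𝔭 : Ideal T} (h𝔭 : 𝔭 ∈ minimalPrimes T) : (n : T) ∉ 𝔭 := fun h =>
  notMem_nonZeroDivisors_of_mem_mem_minimalPrimes h h𝔭 (natCast_mem_nonZeroDivisors 𝒪 hn)

/-- Membership in `I V` is coordinatewise for a basis. -/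
theorem mem_smul_top_iff_repr {V : Type*} [AddCommGroup V] [Module T V] {ι : Type*}
    (b : Module.Basis ι T V) (I : Ideal T) (v : V) :
    v ∈ I • (⊤ : Submodule T V) ↔ ∀ i, b.repr v i ∈ I := by
  constructor
  · intro hv
    refine Submodule.smul_induction_on hv ?_ ?_
    · intro t ht w _ i
      rw [map_smul, Finsupp.smul_apply, smul_eq_mul]
      exact I.mul_mem_right _ ht
    · intro x y hx hy i
      rw [map_add, Finsupp.add_apply]
      exact I.add_mem (hx i) (hy i)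
  · intro h
    rw [← b.linearCombination_repr v, Finsupp.linearCombination_apply]
    refine Submodule.sum_mem _ fun i _ => ?_
    exact Submodule.smul_mem_smul (h i) Submodule.mem_top

/-- For a prime ideal `𝔭`, an element `a ∉ 𝔭` and a free module `V`: `a • v ∈ 𝔭 V → v ∈ 𝔭 V`. -/
theorem mem_smul_top_of_smul_mem {V : Type*} [AddCommGroup V] [Module T V] [Module.Free T V]
    {𝔭 : Ideal T} [𝔭.IsPrime] {a : T} (ha : a ∉ 𝔭) {v : V}
    (hv : a • v ∈ 𝔭 • (⊤ : Submodule T V)) : v ∈ 𝔭 • (⊤ : Submodule T V) := by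
  let b := Module.Free.chooseBasis T V
  rw [mem_smul_top_iff_repr b] at hv ⊢
  intro i
  have := hv i
  rw [map_smul, Finsupp.smul_apply, smul_eq_mul] at this
  exact (Ideal.IsPrime.mem_or_mem ‹_› this).resolve_left ha

/-- **A2.** `V/𝔭V` has no `p`-torsion: `p^k • v ∈ 𝔭 V → v ∈ 𝔭 V` (`𝔭` a minimal prime, `p ≠ 0`). -/
theorem mem_smul_top_of_pow_smul_mem (𝒪 : Type*) [CommRing 𝒪] [IsDomain 𝒪] [CharZero 𝒪]
    {T : Type*} [CommRing T] [Algebra 𝒪 T] [Module.Free 𝒪 T]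
    {V : Type*} [AddCommGroup V] [Module T V] [Module.Free T V]
    {p : ℕ} (hp : p ≠ 0) {𝔭 : Ideal T} (h𝔭 : 𝔭 ∈ minimalPrimes T) (k : ℕ) {v : V}
    (hv : ((p : T) ^ k) • v ∈ 𝔭 • (⊤ : Submodule T V)) : v ∈ 𝔭 • (⊤ : Submodule T V) := by
  have : 𝔭.IsPrime := h𝔭.1.1
  refine mem_smul_top_of_smul_mem (a := (p : T) ^ k) ?_ hv
  intro h
  have := Ideal.IsPrime.mem_of_pow_mem ‹_› k h
  exact natCast_notMem_of_mem_minimalPrimes 𝒪 hp h𝔭 this

end Fermat.Agent.ES.W33.AsmTorsFree19
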