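/-
Programme W (S33 by hand, route `S33_ROUTE8.md`), chapter (B5′), helper29: **STATEMENT-ONLY interface**,
"the chart `Ξ` on the kernel of reduction of the NODAL model", i.e. `V19/XiIface29` with the smooth
special fibre `Ft / k` replaced by TWO function fields `Ft₁, Ft₂ / k` glued at `s` nodes.

Only definitions and `Prop`-valued literals; nothing is proved here.

VOCABULARY (replaces `Place k Ft`, `Divisor k Ft`, `Divisor.principal`, `riemannRochSpace`):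
* `SPt k Ft₁ Ft₂ := Place k Ft₁ ⊕ Place k Ft₂`, `SDiv := SPt →₀ ℤ`;
* `Nodes k Ft₁ Ft₂ s` : the `s` pairs of node places `(ν₁ j, ν₂ j)`;
* `r : Place K F → SPt k Ft₁ Ft₂ ⊕ Fin s` : TOTAL reduction of places (a smooth point of a component, or
  the node `j`); `redN r D : SDiv` the push-forward of the part of `D` through smooth points;
* `ValAt Q f c` : the value of `f` at `Q` is `c`;
* `GluedAt`, `PrinN` : principal divisors of the nodal curve (pairs of nonzero functions, equal NONZERO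
  values at the nodes); `LN N D` : the GLUED space `L(D)`;
* `RedCtxN` : the function-level context (nodal `SupTrick15.RedCtx`): `G ⊆ F` (`= O₁ ∩ O₂`),
  `red : G → Ft₁ × Ft₂`, `scale` with the MINIMUM of the two Gauss valuations (the reduction is nonzero,
  possibly on one component only), the two-sided `(r1)` at smooth points, and `glue` at the nodes.

INPUTS  `RedHypN`, `ChartN`, `ChartHypN` (with `const_E0bar` : every glued section of `O(Ē₀)` is a
constant — the form in which `l(Ē₀) = 1` is used), `EqvHypN`.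
EXITS   `XiAN`, `XiAUniqueN`, `XiBN`; the final exit is `V19/XiIface29.XiData` / `XiC` VERBATIM (they
do not mention the special fibre).
-/
import Mathlib
import Fermat.Prelude.Def_AlgebraicCurve_BaseChangeGalois
import Fermat.Agent.RR.LSpace
import Fermat.Agent.ES.V19.OnePlaceRep9

set_option autoImplicit false

noncomputable section

namespace Fermat.Agent.ES.W33.XiIfaceN29

open scoped BigOperators
open AlgebraicCurve Fermat.Agent.RR.LSpace Fermat.Agent.ES.V19.OnePlaceRep9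

variable {K F k Ft₁ Ft₂ : Type*} [Field K] [Field F] [Algebra K F] [Field k]
  [Field Ft₁] [Algebra k Ft₁] [Field Ft₂] [Algebra k Ft₂]

/-! ### Vocabulary of the nodal special fibre -/

/-- points of the two components -/
abbrev SPt (k Ft₁ Ft₂ : Type*) [Field k] [Field Ft₁] [Algebra k Ft₁] [Field Ft₂] [Algebra k Ft₂] :=
  Place k Ft₁ ⊕ Place k Ft₂

/-- divisors on the two components -/
abbrev SDiv (k Ft₁ Ft₂ : Type*) [Field k] [Field Ft₁] [Algebra k Ft₁] [Field Ft₂] [Algebra k Ft₂] :=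
  SPt k Ft₁ Ft₂ →₀ ℤ

/-- the `s` nodes: pairs of places `(ν₁ j, ν₂ j)` glued to one point. -/
structure Nodes (k Ft₁ Ft₂ : Type*) [Field k] [Field Ft₁] [Algebra k Ft₁] [Field Ft₂]
    [Algebra k Ft₂] (s : ℕ) where
  ν₁ : Fin s → Place k Ft₁
  ν₂ : Fin s → Place k Ft₂

/-- a point of a component which is not a node place -/
def Nodes.IsSmooth {s : ℕ} (N : Nodes k Ft₁ Ft₂ s) : SPt k Ft₁ Ft₂ → Prop
  | Sum.inl Q => ∀ j, Q ≠ N.ν₁ j
  | Sum.inr Q => ∀ j, Q ≠ N.ν₂ j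

/-- the value of `f` at the place `Q` is `c`. -/
def ValAt {Ft : Type*} [Field Ft] [Algebra k Ft] (Q : Place k Ft) (f : Ft) (c : k) : Prop :=
  f = algebraMap k Ft c ∨ 0 < Q.ord (f - algebraMap k Ft c)

/-- the pair `f` is regular at the node `j` with equal values on the two branches. -/
def Nodes.GluedAt {s : ℕ} (N : Nodes k Ft₁ Ft₂ s) (f : Ft₁ × Ft₂) (j : Fin s) : Prop :=
  ∃ c : k, ValAt (N.ν₁ j) f.1 c ∧ ValAt (N.ν₂ j) f.2 c

/-- `d` is the divisor of the pair `f` (componentwise). -/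
def IsDivOf (d : SDiv k Ft₁ Ft₂) (f : Ft₁ × Ft₂) : Prop :=
  (∀ Q : Place k Ft₁, d (Sum.inl Q) = Q.ord f.1) ∧ ∀ Q : Place k Ft₂, d (Sum.inr Q) = Q.ord f.2

/-- principal divisors of the nodal curve: divisors of pairs of nonzero functions with equal NONZERO
values at every node. -/
def Nodes.PrinN {s : ℕ} (N : Nodes k Ft₁ Ft₂ s) : Set (SDiv k Ft₁ Ft₂) :=
  {d | ∃ f : Ft₁ × Ft₂, f.1 ≠ 0 ∧ f.2 ≠ 0 ∧ IsDivOf d f ∧
    ∀ j, ∃ c : k, c ≠ 0 ∧ ValAt (N.ν₁ j) f.1 c ∧ ValAt (N.ν₂ j) f.2 c}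

/-- the component divisors of `D` -/
def SDiv.comp₁ (D : SDiv k Ft₁ Ft₂) : Divisor k Ft₁ := D.comapDomain Sum.inl Sum.inl_injective.injOn
def SDiv.comp₂ (D : SDiv k Ft₁ Ft₂) : Divisor k Ft₂ := D.comapDomain Sum.inr Sum.inr_injective.injOn

/-- the GLUED space `L(D)` of the nodal curve. -/
def Nodes.LN {s : ℕ} (N : Nodes k Ft₁ Ft₂ s) (D : SDiv k Ft₁ Ft₂) : Set (Ft₁ × Ft₂) :=
  {f | f.1 ∈ riemannRochSpace (SDiv.comp₁ D) ∧ f.2 ∈ riemannRochSpace (SDiv.comp₂ D) ∧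
    ∀ j, N.GluedAt f j}

/-- push-forward of the part of `D` through smooth points. -/
def redN {s : ℕ} (r : Place K F → SPt k Ft₁ Ft₂ ⊕ Fin s) (D : Divisor K F) : SDiv k Ft₁ Ft₂ :=
  (Finsupp.mapDomain r D).comapDomain Sum.inl Sum.inl_injective.injOn

/-- no point of the support of `D` reduces to a node. -/
def OffNodes {s : ℕ} (r : Place K F → SPt k Ft₁ Ft₂ ⊕ Fin s) (D : Divisor K F) : Prop :=
  ∀ P ∈ D.support, ∀ j : Fin s, r P ≠ Sum.inr j

/-! ### Inputs -/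

/-- the function-level context of the nodal model (compare `SupTrick15.RedCtx`). -/
structure RedCtxN {s : ℕ} (A : ValuationSubring K) (π : ↥A →+* k) (N : Nodes k Ft₁ Ft₂ s)
    (G : Subring F) (red : ↥G →+* Ft₁ × Ft₂) (r : Place K F → SPt k Ft₁ Ft₂ ⊕ Fin s) : Prop where
  const_mem : ∀ a : ↥A, algebraMap K F (a : K) ∈ G
  red_const : ∀ a : ↥A, red ⟨algebraMap K F (a : K), const_mem a⟩ =
    (algebraMap k Ft₁ (π a), algebraMap k Ft₂ (π a))
  pi_nonunit : ∀ a : ↥A, ¬ IsUnit a → π a = 0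
  /-- reductions land on smooth points -/
  smooth : ∀ (P : Place K F) (Q : SPt k Ft₁ Ft₂), r P = Sum.inl Q → N.IsSmooth Q
  /-- scaling by the MINIMUM of the two Gauss valuations -/
  scale : ∀ f : F, f ≠ 0 → ∃ c : K, c ≠ 0 ∧ ∃ h : (algebraMap K F c)⁻¹ * f ∈ G,
    red ⟨_, h⟩ ≠ 0
  /-- `(r1)` on the first component, at smooth points -/
  r1₁ : ∀ g : ↥G, (red g).1 ≠ 0 → ∀ D : Divisor K F, (∀ P, D P = P.ord (g : F)) →
    ∀ Q : Place k Ft₁, N.IsSmooth (Sum.inl Q) →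
      Finsupp.mapDomain r D (Sum.inl (Sum.inl Q)) = Q.ord (red g).1
  /-- `(r1)` on the second component, at smooth points -/
  r1₂ : ∀ g : ↥G, (red g).2 ≠ 0 → ∀ D : Divisor K F, (∀ P, D P = P.ord (g : F)) →
    ∀ Q : Place k Ft₂, N.IsSmooth (Sum.inr Q) →
      Finsupp.mapDomain r D (Sum.inl (Sum.inr Q)) = Q.ord (red g).2
  /-- at a node through which no pole of `g` passes, the two branch values agree -/
  glue : ∀ (g : ↥G) (j : Fin s), (∀ P : Place K F, r P = Sum.inr j → 0 ≤ P.ord (g : F)) →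
    N.GluedAt (red g) j
  /-- … and if moreover no zero passes and both components of the reduction are nonzero, the common
  value is nonzero -/
  glue_unit : ∀ (g : ↥G) (j : Fin s), (∀ P : Place K F, r P = Sum.inr j → P.ord (g : F) = 0) →
    (red g).1 ≠ 0 → (red g).2 ≠ 0 →
    ∃ c : k, c ≠ 0 ∧ ValAt (N.ν₁ j) (red g).1 c ∧ ValAt (N.ν₂ j) (red g).2 c

/-- INPUT: hypotheses on the generic fibre (as `XiIface29.RedHyp`, without `principal`, which is
replaced by the function-level context). -/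
structure RedHypN (g : ℕ) : Prop where
  lhyp : LHyp K F
  riemann : ∀ D : Divisor K F, (g : ℤ) ≤ Divisor.degree D →
    ∃ f : F, f ≠ 0 ∧ f ∈ riemannRochSpace D

/-- The data of a chart: smooth points `Q̄_i` of the nodal fibre, coordinates, centres. -/
structure ChartN (K F k Ft₁ Ft₂ : Type*) [Field K] [Field F] [Algebra K F] [Field k]
    [Field Ft₁] [Algebra k Ft₁] [Field Ft₂] [Algebra k Ft₂] (g : ℕ) where
  Qbar : Fin g → SPt k Ft₁ Ft₂
  t : Fin g → F
  Q : Fin g → Place K F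

/-- `E₀ = Q_1 + … + Q_g`. -/
def ChartN.E0 {g : ℕ} (χ : ChartN K F k Ft₁ Ft₂ g) : Divisor K F := redDiv χ.Q

/-- `Ē₀ = Q̄_1 + … + Q̄_g`. -/
def ChartN.E0bar {g : ℕ} (χ : ChartN K F k Ft₁ Ft₂ g) : SDiv k Ft₁ Ft₂ :=
  ∑ i, Finsupp.single (χ.Qbar i) 1

/-- INPUT: hypotheses on a chart of the nodal model. -/
structure ChartHypN {s : ℕ} (A : ValuationSubring K) (N : Nodes k Ft₁ Ft₂ s)
    (r : Place K F → SPt k Ft₁ Ft₂ ⊕ Fin s) {g : ℕ} (χ : ChartN K F k Ft₁ Ft₂ g) : Prop where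
  inj : Function.Injective χ.Qbar
  smooth : ∀ i, N.IsSmooth (χ.Qbar i)
  /-- `h⁰(nodal fibre, O(Ē₀)) = 1`: every GLUED section of `O(Ē₀)` is a constant -/
  const_E0bar : ∀ f ∈ N.LN χ.E0bar, ∃ c : k, f = (algebraMap k Ft₁ c, algebraMap k Ft₂ c)
  centre_red : ∀ i, r (χ.Q i) = Sum.inl (χ.Qbar i)
  centre_zero : ∀ i, 0 < (χ.Q i).ord (χ.t i)
  val_mem : ∀ (i : Fin g) (P : Place K F), r P = Sum.inl (χ.Qbar i) →
    ∃ a ∈ A.nonunits, 0 < P.ord (χ.t i - algebraMap K F a)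
  val_unique : ∀ (i : Fin g), ∀ a ∈ A.nonunits,
    ∃! P : Place K F, r P = Sum.inl (χ.Qbar i) ∧ 0 < P.ord (χ.t i - algebraMap K F a)
  /-- an auxiliary point reducing to a SMOOTH point of the fibre outside `Ē₀` (for the sup trick) -/
  aux : ∃ (P : Place K F) (Q : SPt k Ft₁ Ft₂), r P = Sum.inl Q ∧ ∀ i, Q ≠ χ.Qbar i

/-- INPUT: the group `G` acts through semilinear automorphisms fixing the coordinates and
preserving the discs. -/
structure EqvHypN {s : ℕ} (r : Place K F → SPt k Ft₁ Ft₂ ⊕ Fin s) {g : ℕ}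
    (χ : ChartN K F k Ft₁ Ft₂ g) (G : Type*) [Group G] [MulSemiringAction G K]
    [DistribMulAction G (Pic0 K F)] (ρ : G →* SemilinearAut K F) : Prop where
  smul_pic : ∀ (σ : G) (y : Pic0 K F), σ • y = ρ σ • y
  smul_base : ∀ (σ : G) (a : K), σ • a = SemilinearAut.baseAut (ρ σ) a
  smul_t : ∀ (σ : G) (i : Fin g), ρ σ • χ.t i = χ.t i
  smul_disc : ∀ (σ : G) (i : Fin g) (P : Place K F), r P = Sum.inl (χ.Qbar i) →
    r (ρ σ • P) = Sum.inl (χ.Qbar i)

/-! ### The kernel of reduction of the identity component and the chart -/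

/-- `D` is a divisor of degree zero representing the class `y`. -/
def IsRep (y : Pic0 K F) (D : Divisor K F) : Prop :=
  ∃ h : D ∈ Divisor.degZero (K := K) (F := F), Pic0.mk ⟨D, h⟩ = y

/-- `y` is the class of a divisor of degree zero through smooth points whose reduction is a
principal divisor of the nodal curve. -/
def InJ1N {s : ℕ} (N : Nodes k Ft₁ Ft₂ s) (r : Place K F → SPt k Ft₁ Ft₂ ⊕ Fin s)
    (y : Pic0 K F) : Prop :=
  ∃ D : Divisor K F, IsRep y D ∧ OffNodes r D ∧ redN r D ∈ N.PrinN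

/-- `J1` is the kernel of reduction. -/
def J1SpecN {s : ℕ} (N : Nodes k Ft₁ Ft₂ s) (r : Place K F → SPt k Ft₁ Ft₂ ⊕ Fin s)
    (J1 : AddSubgroup (Pic0 K F)) : Prop :=
  ∀ y : Pic0 K F, y ∈ J1 ↔ InJ1N N r y

/-- `y = [P_1 + … + P_g - E₀]` with `P_i` in the disc of `Q̄_i` and `t_i(P_i) = a_i`. -/
def IsXiN {s : ℕ} (r : Place K F → SPt k Ft₁ Ft₂ ⊕ Fin s) {g : ℕ}
    (χ : ChartN K F k Ft₁ Ft₂ g) (y : Pic0 K F) (a : Fin g → K) : Prop :=
  ∃ P : Fin g → Place K F, (∀ i, r (P i) = Sum.inl (χ.Qbar i)) ∧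
    (∀ i, 0 < (P i).ord (χ.t i - algebraMap K F (a i))) ∧ IsRep y (redDiv P - χ.E0)

open Classical in
/-- **The chart** `Ξ` of the nodal model (junk value `0` where `IsXiN` has no solution). -/
def xiN {s : ℕ} (r : Place K F → SPt k Ft₁ Ft₂ ⊕ Fin s) {g : ℕ} (χ : ChartN K F k Ft₁ Ft₂ g)
    (y : Pic0 K F) : Fin g → K :=
  if h : ∃ a, IsXiN r χ y a then h.choose else 0

/-! ### Exit literals -/

/-- **(Ξa), existence.** -/
def XiAN {s : ℕ} (A : ValuationSubring K) (N : Nodes k Ft₁ Ft₂ s)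
    (r : Place K F → SPt k Ft₁ Ft₂ ⊕ Fin s) {g : ℕ} (χ : ChartN K F k Ft₁ Ft₂ g) : Prop :=
  ∀ y : Pic0 K F, InJ1N N r y → ∃ a : Fin g → K, IsXiN r χ y a ∧ ∀ i, a i ∈ A.nonunits

/-- **(Ξa), uniqueness.** -/
def XiAUniqueN {s : ℕ} (r : Place K F → SPt k Ft₁ Ft₂ ⊕ Fin s) {g : ℕ}
    (χ : ChartN K F k Ft₁ Ft₂ g) : Prop :=
  ∀ (y : Pic0 K F) (a : Fin g → K) (P : Fin g → Place K F),
    (∀ i, r (P i) = Sum.inl (χ.Qbar i)) →
    (∀ i, 0 < (P i).ord (χ.t i - algebraMap K F (a i))) → IsRep y (redDiv P - χ.E0) →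
    (∀ D : Divisor K F, 0 ≤ D → IsRep y (D - χ.E0) → D = redDiv P) ∧
      ∀ a' : Fin g → K, IsXiN r χ y a' → a' = a

/-- **(Ξb)**: `Ξ 0 = 0`, injective, classes with coordinates lie in `J¹`, `G`-equivariant. -/
def XiBN {s : ℕ} (N : Nodes k Ft₁ Ft₂ s) (r : Place K F → SPt k Ft₁ Ft₂ ⊕ Fin s) {g : ℕ}
    (χ : ChartN K F k Ft₁ Ft₂ g) (G : Type*) [Group G] [MulSemiringAction G K]
    [DistribMulAction G (Pic0 K F)] : Prop :=
  IsXiN r χ 0 0 ∧
    (∀ (y y' : Pic0 K F) (a : Fin g → K), IsXiN r χ y a → IsXiN r χ y' a → y = y') ∧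
    (∀ (y : Pic0 K F) (a : Fin g → K), IsXiN r χ y a → InJ1N N r y) ∧
    ∀ (σ : G) (y : Pic0 K F) (a : Fin g → K), IsXiN r χ y a →
      IsXiN r χ (σ • y) (fun i => σ • a i)

end Fermat.Agent.ES.W33.XiIfaceN29
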