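/-
Programme W (S33), chapter (B5′), helper29: **arithmetic of values at places** (`XiIfaceN29.ValAt`) and of
the gluing condition at the nodes (`Nodes.GluedAt`).

`InMax Q h` : `h` lies in the maximal ideal of the place `Q` (`h = 0 ∨ 0 < ord_Q h`);
`ValAt Q f c ↔ InMax Q (f - c)`.

* `ValAt`: regular (`mem`), unique value, constants, sums, products, inverses (nonzero value), order
  zero for a nonzero value, existence for regular functions under `LHyp` (`exists_valAt`);
* `GluedAt`: constants, sums, products, and the value of a glued pair (`GluedAt.zero_left` …).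
-/
import Mathlib
import Fermat.Agent.X0.FFResidue
import Fermat.Agent.ES.W33.XiIfaceN29

set_option autoImplicit false

namespace Fermat.Agent.ES.W33.ValAt29

open AlgebraicCurve Fermat.Agent.X0.FF Fermat.Agent.RR.LSpace Fermat.Agent.ES.W33.XiIfaceN29

section OnePlace

variable {k Ft : Type*} [Field k] [Field Ft] [Algebra k Ft] (Q : Place k Ft)

/-- `h` lies in the maximal ideal of the place `Q`. -/
def InMax (h : Ft) : Prop := h = 0 ∨ 0 < Q.ord h

variable {Q}

theorem valAt_iff {f : Ft} {c : k} : ValAt Q f c ↔ InMax Q (f - algebraMap k Ft c) := by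
  unfold ValAt InMax
  rw [sub_eq_zero]

theorem inMax_zero : InMax Q (0 : Ft) := Or.inl rfl

theorem InMax.mem {h : Ft} (hh : InMax Q h) : h ∈ Q.toValuationSubring := by
  rcases hh with rfl | hh
  · exact Q.toValuationSubring.zero_mem
  · exact ffp_mem_of_ord_nonneg Q hh.le

theorem InMax.neg {h : Ft} (hh : InMax Q h) : InMax Q (-h) := by
  rcases hh with rfl | hh
  · exact Or.inl neg_zero
  · exact Or.inr (by rwa [ffp_ord_neg])

theorem InMax.add {h h' : Ft} (hh : InMax Q h) (hh' : InMax Q h') : InMax Q (h + h') := by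
  rcases hh with rfl | hh
  · rwa [zero_add]
  rcases hh' with rfl | hh'
  · rw [add_zero]; exact Or.inr hh
  by_cases h0 : h + h' = 0
  · exact Or.inl h0
  · exact Or.inr (ffp_le_ord_add Q (n := 1) hh hh' h0)

theorem InMax.sub {h h' : Ft} (hh : InMax Q h) (hh' : InMax Q h') : InMax Q (h - h') := by
  rw [sub_eq_add_neg]
  exact hh.add hh'.neg

theorem InMax.mul_mem {h a : Ft} (hh : InMax Q h) (ha : a ∈ Q.toValuationSubring) :
    InMax Q (a * h) := by
  rcases hh with rfl | hh
  · exact Or.inl (mul_zero a)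
  rcases eq_or_ne a 0 with rfl | ha0
  · exact Or.inl (zero_mul h)
  have hh0 : h ≠ 0 := by
    rintro rfl
    rw [Place.ord_zero] at hh
    exact lt_irrefl _ hh
  refine Or.inr ?_
  rw [Q.ord_mul ha0 hh0]
  have := ffp_ord_nonneg_of_mem Q ha
  omega

theorem inMax_algebraMap_iff {c : k} : InMax Q (algebraMap k Ft c) ↔ c = 0 := by
  constructor
  · rintro (h | h)
    · exact (map_eq_zero _).mp h
    · rw [ffp_ord_algebraMap] at h
      exact absurd h (lt_irrefl _)
  · rintro rfl
    exact Or.inl (map_zero _)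

/-! ### `ValAt` -/

theorem ValAt.mem {f : Ft} {c : k} (h : ValAt Q f c) : f ∈ Q.toValuationSubring := by
  have h1 := InMax.mem (valAt_iff.mp h)
  have h2 : f = (f - algebraMap k Ft c) + algebraMap k Ft c := by ring
  rw [h2]
  exact add_mem h1 (Q.algebraMap_mem' c)

theorem valAt_const (c : k) : ValAt Q (algebraMap k Ft c) c := Or.inl rfl

theorem valAt_zero : ValAt Q (0 : Ft) 0 := Or.inl (map_zero _).symm

theorem valAt_one : ValAt Q (1 : Ft) 1 := Or.inl (map_one _).symm

theorem valAt_zero_iff {f : Ft} : ValAt Q f 0 ↔ InMax Q f := by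
  rw [valAt_iff, map_zero, sub_zero]

theorem ValAt.unique {f : Ft} {c c' : k} (h : ValAt Q f c) (h' : ValAt Q f c') : c = c' := by
  have h1 := InMax.sub (valAt_iff.mp h') (valAt_iff.mp h)
  have h2 : (f - algebraMap k Ft c') - (f - algebraMap k Ft c) = algebraMap k Ft (c - c') := by
    rw [map_sub]; ring
  rw [h2, inMax_algebraMap_iff] at h1
  exact sub_eq_zero.mp h1

theorem ValAt.add {f f' : Ft} {c c' : k} (h : ValAt Q f c) (h' : ValAt Q f' c') :
    ValAt Q (f + f') (c + c') := by
  rw [valAt_iff] at *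
  have : f + f' - algebraMap k Ft (c + c') =
      (f - algebraMap k Ft c) + (f' - algebraMap k Ft c') := by rw [map_add]; ring
  rw [this]
  exact InMax.add h h'

theorem ValAt.neg {f : Ft} {c : k} (h : ValAt Q f c) : ValAt Q (-f) (-c) := by
  rw [valAt_iff] at *
  have : -f - algebraMap k Ft (-c) = -(f - algebraMap k Ft c) := by rw [map_neg]; ring
  rw [this]
  exact InMax.neg h

theorem ValAt.mul {f f' : Ft} {c c' : k} (h : ValAt Q f c) (h' : ValAt Q f' c') :
    ValAt Q (f * f') (c * c') := by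
  have hf := ValAt.mem h
  rw [valAt_iff] at *
  have : f * f' - algebraMap k Ft (c * c') =
      f * (f' - algebraMap k Ft c') + algebraMap k Ft c' * (f - algebraMap k Ft c) := by
    rw [map_mul]; ring
  rw [this]
  exact InMax.add (InMax.mul_mem h' hf) (InMax.mul_mem h (Q.algebraMap_mem' c'))

/-- a function with a nonzero value is a unit at `Q`. -/
theorem ValAt.ne_zero {f : Ft} {c : k} (h : ValAt Q f c) (hc : c ≠ 0) : f ≠ 0 := by
  rintro rfl
  exact hc (ValAt.unique h valAt_zero)

theorem ValAt.ord_eq_zero {f : Ft} {c : k} (h : ValAt Q f c) (hc : c ≠ 0) : Q.ord f = 0 := by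
  rcases h with rfl | h
  · exact ffp_ord_algebraMap Q c
  have hc' : algebraMap k Ft c ≠ 0 := (map_ne_zero _).mpr hc
  have h0 : Q.ord (algebraMap k Ft c) < Q.ord (f - algebraMap k Ft c) := by
    rwa [ffp_ord_algebraMap]
  have := ffp_ord_add_eq_of_lt Q hc' h0
  rw [add_sub_cancel, ffp_ord_algebraMap] at this
  exact this

theorem ValAt.inv {f : Ft} {c : k} (h : ValAt Q f c) (hc : c ≠ 0) : ValAt Q f⁻¹ c⁻¹ := by
  have hf := ValAt.ne_zero h hc
  have hord := ValAt.ord_eq_zero h hc
  have hfi : f⁻¹ ∈ Q.toValuationSubring := by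
    apply ffp_mem_of_ord_nonneg
    rw [Q.ord_inv, hord, neg_zero]
  have hci : algebraMap k Ft c⁻¹ ∈ Q.toValuationSubring := Q.algebraMap_mem' _
  rw [valAt_iff] at *
  have hc' : algebraMap k Ft c ≠ 0 := (map_ne_zero _).mpr hc
  have : f⁻¹ - algebraMap k Ft c⁻¹ =
      (f⁻¹ * algebraMap k Ft c⁻¹) * (-(f - algebraMap k Ft c)) := by
    rw [map_inv₀]
    field_simp
    ring
  rw [this]
  exact InMax.mul_mem (InMax.neg h) (mul_mem hfi hci)

/-- a regular function with value `0` has positive order (or is zero); with a nonzero value it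
has order zero: the order of a regular function is nonnegative. -/
theorem ValAt.ord_nonneg {f : Ft} {c : k} (h : ValAt Q f c) : 0 ≤ Q.ord f :=
  ffp_ord_nonneg_of_mem Q (ValAt.mem h)

/-- regular functions have values (`LHyp.residue`). -/
theorem exists_valAt (H : LHyp k Ft) {f : Ft} (hf : f ∈ Q.toValuationSubring) :
    ∃ c : k, ValAt Q f c := H.residue Q f hf

/-- the value is `0` iff the order is positive, for a nonzero regular function. -/
theorem ValAt.ord_pos_iff {f : Ft} {c : k} (h : ValAt Q f c) (hf : f ≠ 0) :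
    0 < Q.ord f ↔ c = 0 := by
  constructor
  · intro hpos
    by_contra hc
    rw [ValAt.ord_eq_zero h hc] at hpos
    exact lt_irrefl _ hpos
  · rintro rfl
    rcases valAt_zero_iff.mp h with h0 | h0
    · exact absurd h0 hf
    · exact h0

end OnePlace

section Glued

variable {k Ft₁ Ft₂ : Type*} [Field k] [Field Ft₁] [Algebra k Ft₁] [Field Ft₂] [Algebra k Ft₂]
  {s : ℕ} (N : Nodes k Ft₁ Ft₂ s)

variable {N}

theorem gluedAt_const (c : k) (j : Fin s) :
    N.GluedAt (algebraMap k Ft₁ c, algebraMap k Ft₂ c) j :=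
  ⟨c, valAt_const c, valAt_const c⟩

theorem gluedAt_add {f f' : Ft₁ × Ft₂} {j : Fin s} (h : N.GluedAt f j) (h' : N.GluedAt f' j) :
    N.GluedAt (f + f') j := by
  obtain ⟨c, h1, h2⟩ := h
  obtain ⟨c', h1', h2'⟩ := h'
  exact ⟨c + c', ValAt.add h1 h1', ValAt.add h2 h2'⟩

theorem gluedAt_mul {f f' : Ft₁ × Ft₂} {j : Fin s} (h : N.GluedAt f j) (h' : N.GluedAt f' j) :
    N.GluedAt (f * f') j := by
  obtain ⟨c, h1, h2⟩ := h
  obtain ⟨c', h1', h2'⟩ := h'
  exact ⟨c * c', ValAt.mul h1 h1', ValAt.mul h2 h2'⟩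

/-- if one component of a glued pair vanishes, the other one vanishes at the node. -/
theorem gluedAt_inMax_left_of_right_eq_zero {f : Ft₁ × Ft₂} {j : Fin s} (h : N.GluedAt f j)
    (h2 : f.2 = 0) : InMax (N.ν₁ j) f.1 := by
  obtain ⟨c, h1, h2'⟩ := h
  rw [h2] at h2'
  have hc : c = 0 := ValAt.unique h2' valAt_zero
  rw [hc] at h1
  exact valAt_zero_iff.mp h1

theorem gluedAt_inMax_right_of_left_eq_zero {f : Ft₁ × Ft₂} {j : Fin s} (h : N.GluedAt f j)
    (h1 : f.1 = 0) : InMax (N.ν₂ j) f.2 := by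
  obtain ⟨c, h1', h2⟩ := h
  rw [h1] at h1'
  have hc : c = 0 := ValAt.unique h1' valAt_zero
  rw [hc] at h2
  exact valAt_zero_iff.mp h2

end Glued

end Fermat.Agent.ES.W33.ValAt29
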