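/-
Programme W (S33), chapter (B1′) "genus of the nodal fibre" — helper17.
**The glued Čech complex of a two-component nodal curve** (pure curve theory over a field `k`).

Two function fields `F₁, F₂ / k` with `LHyp` + Riemann's inequality, `s` nodes `(ν₁ j, ν₂ j)`
(vocabulary of `XiIfaceN29`: `Nodes`, `ValAt`, `GluedAt`).

* `valAt_sum`, `valAt_smul` : values of sums and scalar multiples;
* `exists_lagrange`, `exists_interp` : in large degree `L(D)` interpolates arbitrary values at the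
  distinct places `ν j` (off the support of `D`);
* `gluedL N D₁ D₂` : the GLUED space `{(f₁, f₂) ∈ L(D₁) × L(D₂) | glued at every node}` as a
  `k`-subspace of `F₁ × F₂`; `le_finrank_gluedL` : `l(D₁) + l(D₂) ≤ dim gluedL + s`;
* `RegN`, `Reg1N`, `Reg01N` : the glued chart rings `B̃₀`, `B̃₁`, `B̃₀₁` of `(t₁, t₂)`;
  **`cech_glued`** : for `n` large, `B̃₀₁^{gl} ⊆ B̃₀^{gl} + (t₁, t₂)ⁿ · B̃₁^{gl}` (the glued Čech `H¹`
  vanishes), from the componentwise statement `CechIface12.CechInj` + interpolation on `F₁`;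
* **`genusFF_add_one_le`** : the count: `dim L(n D₁, n D₂) ≤ l(n D)` for large `n` and
  `deg D = deg D₁ + deg D₂` give `g(F) + 1 ≤ g(F₁) + g(F₂) + s`.
-/
import Mathlib
import Fermat.Agent.ES.V19.CechIface12
import Fermat.Agent.ES.V19.LHypFt13
import Fermat.Agent.ES.V19.CechLarge13
import Fermat.Agent.ES.W33.ValAt29

set_option autoImplicit false
set_option linter.unusedSectionVars false
set_option linter.style.haveILetI false

open AlgebraicCurve

noncomputable section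

namespace Fermat.Agent.ES.W33.NodalCech17

open Fermat.Agent.X0.FF Fermat.Agent.RR.LSpace Fermat.Agent.ES.V19.OnePlaceRep9
  Fermat.Agent.ES.V19.CechIface12 Fermat.Agent.ES.W33.XiIfaceN29 Fermat.Agent.ES.W33.ValAt29

/-! ### values -/

section Values

variable {k F : Type*} [Field k] [Field F] [Algebra k F] {Q : Place k F}

theorem valAt_smul {f : F} {c : k} (a : k) (h : ValAt Q f c) : ValAt Q (a • f) (a * c) := by
  rw [Algebra.smul_def]
  exact ValAt.mul (valAt_const a) h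

theorem valAt_sum {ι : Type*} (S : Finset ι) (f : ι → F) (c : ι → k)
    (h : ∀ i ∈ S, ValAt Q (f i) (c i)) : ValAt Q (∑ i ∈ S, f i) (∑ i ∈ S, c i) := by
  classical
  induction S using Finset.induction_on with
  | empty => simpa using (valAt_zero (Q := Q))
  | insert a S ha ih =>
    rw [Finset.sum_insert ha, Finset.sum_insert ha]
    exact ValAt.add (h a (Finset.mem_insert_self a S))
      (ih fun i hi => h i (Finset.mem_insert_of_mem hi))

theorem ValAt.sub' {f f' : F} {c c' : k} (h : ValAt Q f c) (h' : ValAt Q f' c') :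
    ValAt Q (f - f') (c - c') := by
  rw [sub_eq_add_neg, sub_eq_add_neg]
  exact ValAt.add h (ValAt.neg h')

theorem ValAt.pow {f : F} {c : k} (h : ValAt Q f c) (n : ℕ) : ValAt Q (f ^ n) (c ^ n) := by
  induction n with
  | zero => simpa using (valAt_one (Q := Q))
  | succ n ih =>
    rw [pow_succ, pow_succ]
    exact ValAt.mul ih h

/-- a function of order `≥ 1` has value `0`. -/
theorem valAt_zero_of_ord_pos {f : F} (h : 0 < Q.ord f) : ValAt Q f 0 :=
  valAt_zero_iff.mpr (Or.inr h)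

end Values

/-! ### interpolation in large degree -/

section Interp

variable {k F : Type*} [Field k] [Field F] [Algebra k F] (HL : LHyp k F)
  (hR : ∃ γ : ℤ, ∀ D : Divisor k F,
    Divisor.degree D + 1 - γ ≤ (Module.finrank k (riemannRochSpace D) : ℤ))

include HL hR

/-- **Lagrange elements**: in large degree, for distinct places `ν j` off the support of `D`
there is `e ∈ L(D)` with `e(ν j) = 1` and `e(ν i) = 0` for `i ≠ j`. -/
theorem exists_lagrange {s : ℕ} {ν : Fin s → Place k F} (hν : Function.Injective ν) :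
    ∃ c : ℤ, ∀ D : Divisor k F, c ≤ Divisor.degree D → (∀ j, D (ν j) = 0) →
      ∀ j, ∃ e ∈ riemannRochSpace D, ValAt (ν j) e 1 ∧ ∀ i, i ≠ j → ValAt (ν i) e 0 := by
  classical
  obtain ⟨c₀, hc₀⟩ := Fermat.Agent.ES.V19.LHypFt13.exists_forall_degree_ge_finrank_L_eq HL hR
  refine ⟨c₀ + s, fun D hD hDν j => ?_⟩
  set E : Divisor k F := D - redDiv ν with hE
  set Ej : Divisor k F := E + Finsupp.single (ν j) 1 with hEj
  have hdegE : Divisor.degree E = Divisor.degree D - s := by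
    rw [hE, map_sub, degree_redDiv HL]
  have hdegEj : Divisor.degree Ej = Divisor.degree D - s + 1 := by
    rw [hEj, map_add, hdegE, degree_single HL]
  have h1 := hc₀ E (by rw [hdegE]; linarith)
  have h2 := hc₀ Ej (by rw [hdegEj]; linarith)
  have hEle : E ≤ Ej := by
    intro v
    rw [hEj, Finsupp.add_apply]
    have : (0 : ℤ) ≤ (Finsupp.single (ν j) (1 : ℤ)) v := by
      rw [Finsupp.single_apply]; split_ifs <;> norm_num
    linarith
  have hlt : Module.finrank k (riemannRochSpace E) < Module.finrank k (riemannRochSpace Ej) := by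
    have : (Module.finrank k (riemannRochSpace E) : ℤ) <
        (Module.finrank k (riemannRochSpace Ej) : ℤ) := by
      rw [h1, h2, hdegE, hdegEj]; linarith
    exact_mod_cast this
  -- an element of `L(Ej) ∖ L(E)`
  have hne : ¬ riemannRochSpace Ej ≤ riemannRochSpace E := by
    intro hle
    have heq : riemannRochSpace Ej = riemannRochSpace E := le_antisymm hle (L_mono hEle)
    rw [heq] at hlt
    exact lt_irrefl _ hlt
  obtain ⟨f, hfEj, hfE⟩ := SetLike.not_le_iff_exists.mp hne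
  have hf0 : f ≠ 0 := by
    rintro rfl
    exact hfE (Submodule.zero_mem _)
  have hordEj := (mem_L_iff hf0).mp hfEj
  -- values of the divisors at the `ν i`
  have hEν : ∀ i, E (ν i) = -1 := by
    intro i
    rw [hE, Finsupp.sub_apply, hDν i, redDiv_apply_self hν i]; norm_num
  have hEjν : ∀ i, i ≠ j → Ej (ν i) = -1 := by
    intro i hij
    rw [hEj, Finsupp.add_apply, hEν i, Finsupp.single_apply,
      if_neg (fun h => hij (hν h).symm)]; norm_num
  have hEjj : Ej (ν j) = 0 := by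
    rw [hEj, Finsupp.add_apply, hEν j, Finsupp.single_apply, if_pos rfl]; norm_num
  have hEjv : ∀ v, v ≠ ν j → Ej v = E v := by
    intro v hv
    rw [hEj, Finsupp.add_apply, Finsupp.single_apply, if_neg (fun h => hv h.symm), add_zero]
  -- `f` is regular at `ν j`, with a nonzero value
  have hregj : f ∈ (ν j).toValuationSubring := by
    apply ffp_mem_of_ord_nonneg
    have := hordEj (ν j)
    rw [hEjj] at this
    linarith
  obtain ⟨a, ha⟩ := exists_valAt HL hregj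
  have ha0 : a ≠ 0 := by
    rintro rfl
    apply hfE
    rw [mem_L_iff hf0]
    intro v
    by_cases hv : v = ν j
    · subst hv
      rw [hEν j]
      have := (ValAt.ord_pos_iff ha hf0).mpr rfl
      linarith
    · rw [← hEjv v hv]
      exact hordEj v
  refine ⟨a⁻¹ • f, ?_, ?_, ?_⟩
  · apply Submodule.smul_mem
    refine L_mono ?_ hfEj
    intro v
    by_cases hv : v = ν j
    · subst hv
      rw [hEjj, hDν j]
    · rw [hEjv v hv, hE, Finsupp.sub_apply]
      have := redDiv_nonneg ν v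
      simp only [Finsupp.coe_zero, Pi.zero_apply] at this
      linarith
  · have := valAt_smul a⁻¹ ha
    rwa [inv_mul_cancel₀ ha0] at this
  · intro i hij
    have hpos : 0 < (ν i).ord f := by
      have := hordEj (ν i)
      rw [hEjν i hij] at this
      linarith
    have := valAt_smul a⁻¹ (valAt_zero_of_ord_pos hpos)
    rwa [mul_zero] at this

/-- **Interpolation**: in large degree `L(D)` takes arbitrary values at the `ν j`. -/
theorem exists_interp {s : ℕ} {ν : Fin s → Place k F} (hν : Function.Injective ν) :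
    ∃ c : ℤ, ∀ D : Divisor k F, c ≤ Divisor.degree D → (∀ j, D (ν j) = 0) →
      ∀ δ : Fin s → k, ∃ e ∈ riemannRochSpace D, ∀ j, ValAt (ν j) e (δ j) := by
  classical
  obtain ⟨c, hc⟩ := exists_lagrange HL hR hν
  refine ⟨c, fun D hD hDν δ => ?_⟩
  choose e he1 he2 he3 using hc D hD hDν
  refine ⟨∑ i, δ i • e i, Submodule.sum_mem _ fun i _ => Submodule.smul_mem _ _ (he1 i), ?_⟩
  intro j
  have h1 : ∀ i ∈ (Finset.univ : Finset (Fin s)),
      ValAt (ν j) (δ i • e i) (if i = j then δ j else 0) := by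
    intro i _
    by_cases hij : i = j
    · subst hij
      rw [if_pos rfl]
      have := valAt_smul (δ i) (he2 i)
      rwa [mul_one] at this
    · rw [if_neg hij]
      have := valAt_smul (δ i) (he3 i j (fun h => hij h.symm))
      rwa [mul_zero] at this
  have h2 := valAt_sum Finset.univ (fun i => δ i • e i) (fun i => if i = j then δ j else 0) h1
  rwa [Finset.sum_ite_eq' Finset.univ j, if_pos (Finset.mem_univ j)] at h2

end Interp

/-! ### the value of a regular function -/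

section ValOf

variable {k F : Type*} [Field k] [Field F] [Algebra k F] (HL : LHyp k F) (Q : Place k F)

open Classical in
/-- the value of `f` at `Q` (junk value `0` if `f` is not regular at `Q`). -/
def valOf (f : F) : k :=
  if h : f ∈ Q.toValuationSubring then (exists_valAt HL h).choose else 0

variable {HL Q}

theorem valAt_valOf {f : F} (h : f ∈ Q.toValuationSubring) : ValAt Q f (valOf HL Q f) := by
  unfold valOf
  rw [dif_pos h]
  exact (exists_valAt HL h).choose_spec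

theorem valOf_eq {f : F} {c : k} (h : ValAt Q f c) : valOf HL Q f = c :=
  ValAt.unique (valAt_valOf (HL := HL) (ValAt.mem h)) h

end ValOf

/-! ### the glued space `L(D₁, D₂)` -/

section Glued

variable {k F₁ F₂ : Type*} [Field k] [Field F₁] [Algebra k F₁] [Field F₂] [Algebra k F₂]
  {s : ℕ} (N : Nodes k F₁ F₂ s)

/-- the GLUED space: pairs `(f₁, f₂) ∈ L(D₁) × L(D₂)` with equal values at every node. -/
def gluedL (D₁ : Divisor k F₁) (D₂ : Divisor k F₂) : Submodule k (F₁ × F₂) where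
  carrier := {f | f.1 ∈ riemannRochSpace D₁ ∧ f.2 ∈ riemannRochSpace D₂ ∧ ∀ j, N.GluedAt f j}
  zero_mem' := ⟨Submodule.zero_mem _, Submodule.zero_mem _, fun _ => ⟨0, valAt_zero, valAt_zero⟩⟩
  add_mem' := fun {f g} hf hg =>
    ⟨Submodule.add_mem _ hf.1 hg.1, Submodule.add_mem _ hf.2.1 hg.2.1,
      fun j => gluedAt_add (hf.2.2 j) (hg.2.2 j)⟩
  smul_mem' := fun c f hf =>
    ⟨Submodule.smul_mem _ c hf.1, Submodule.smul_mem _ c hf.2.1, fun j => by
      obtain ⟨a, h1, h2⟩ := hf.2.2 j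
      exact ⟨c * a, valAt_smul c h1, valAt_smul c h2⟩⟩

theorem mem_gluedL {D₁ : Divisor k F₁} {D₂ : Divisor k F₂} {f : F₁ × F₂} :
    f ∈ gluedL N D₁ D₂ ↔
      f.1 ∈ riemannRochSpace D₁ ∧ f.2 ∈ riemannRochSpace D₂ ∧ ∀ j, N.GluedAt f j := Iff.rfl

variable (HL₁ : LHyp k F₁) (HL₂ : LHyp k F₂)

/-- an element of `L(D)` is regular at a place off the support of `D`. -/
theorem mem_of_mem_L {F : Type*} [Field F] [Algebra k F] {D : Divisor k F} {Q : Place k F}
    (hD : D Q = 0) {f : F} (hf : f ∈ riemannRochSpace D) : f ∈ Q.toValuationSubring := by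
  rcases (mem_riemannRochSpace_iff.mp hf) Q with h | h
  · rw [h]; exact Q.toValuationSubring.zero_mem
  · apply ffp_mem_of_ord_nonneg
    rw [hD] at h
    linarith

/-- the difference of the values at the nodes, as a linear map on `L(D₁) × L(D₂)`. -/
def evDiff (D₁ : Divisor k F₁) (D₂ : Divisor k F₂) (hD₁ : ∀ j, D₁ (N.ν₁ j) = 0)
    (hD₂ : ∀ j, D₂ (N.ν₂ j) = 0) :
    (↥(riemannRochSpace D₁) × ↥(riemannRochSpace D₂)) →ₗ[k] (Fin s → k) where
  toFun x j := valOf HL₁ (N.ν₁ j) (x.1 : F₁) - valOf HL₂ (N.ν₂ j) (x.2 : F₂)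
  map_add' x y := by
    funext j
    have h1 := ValAt.add (valAt_valOf (HL := HL₁) (mem_of_mem_L (hD₁ j) x.1.2))
      (valAt_valOf (HL := HL₁) (mem_of_mem_L (hD₁ j) y.1.2))
    have h2 := ValAt.add (valAt_valOf (HL := HL₂) (mem_of_mem_L (hD₂ j) x.2.2))
      (valAt_valOf (HL := HL₂) (mem_of_mem_L (hD₂ j) y.2.2))
    show valOf HL₁ (N.ν₁ j) ((x.1 : F₁) + (y.1 : F₁)) - valOf HL₂ (N.ν₂ j) ((x.2 : F₂) + (y.2 : F₂))
      = _
    rw [valOf_eq h1, valOf_eq h2]
    simp only [Pi.add_apply]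
    ring
  map_smul' c x := by
    funext j
    have h1 := valAt_smul c (valAt_valOf (HL := HL₁) (mem_of_mem_L (hD₁ j) x.1.2))
    have h2 := valAt_smul c (valAt_valOf (HL := HL₂) (mem_of_mem_L (hD₂ j) x.2.2))
    show valOf HL₁ (N.ν₁ j) (c • (x.1 : F₁)) - valOf HL₂ (N.ν₂ j) (c • (x.2 : F₂)) = _
    rw [valOf_eq h1, valOf_eq h2]
    simp only [RingHom.id_apply, Pi.smul_apply, smul_eq_mul]
    ring

include HL₁ HL₂ in
/-- **the count**: `l(D₁) + l(D₂) ≤ dim L(D₁, D₂) + s`. -/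
theorem le_finrank_gluedL (D₁ : Divisor k F₁) (D₂ : Divisor k F₂)
    (hD₁ : ∀ j, D₁ (N.ν₁ j) = 0) (hD₂ : ∀ j, D₂ (N.ν₂ j) = 0) :
    Module.finrank k (riemannRochSpace D₁) + Module.finrank k (riemannRochSpace D₂) ≤
      Module.finrank k (gluedL N D₁ D₂) + s := by
  haveI := finiteDimensional_L HL₁ D₁
  haveI := finiteDimensional_L HL₂ D₂
  set ev := evDiff N HL₁ HL₂ D₁ D₂ hD₁ hD₂ with hev
  -- the kernel embeds into the glued space
  have hmem : ∀ x : ↥(LinearMap.ker ev), ((x.1.1.1 : F₁), (x.1.2.1 : F₂)) ∈ gluedL N D₁ D₂ := by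
    intro x
    refine ⟨x.1.1.2, x.1.2.2, fun j => ?_⟩
    have hx : ev x.1 j = 0 := by
      have := x.2
      rw [LinearMap.mem_ker] at this
      rw [this]; rfl
    have hx' : valOf HL₁ (N.ν₁ j) (x.1.1.1 : F₁) = valOf HL₂ (N.ν₂ j) (x.1.2.1 : F₂) :=
      sub_eq_zero.mp hx
    refine ⟨valOf HL₁ (N.ν₁ j) (x.1.1.1 : F₁), valAt_valOf (mem_of_mem_L (hD₁ j) x.1.1.2), ?_⟩
    rw [hx']
    exact valAt_valOf (mem_of_mem_L (hD₂ j) x.1.2.2)
  let ι : ↥(LinearMap.ker ev) →ₗ[k] ↥(gluedL N D₁ D₂) :=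
    { toFun := fun x => ⟨((x.1.1.1 : F₁), (x.1.2.1 : F₂)), hmem x⟩
      map_add' := fun x y => rfl
      map_smul' := fun c x => rfl }
  have hι : Function.Injective ι := by
    intro x y hxy
    have h := congrArg (fun z : ↥(gluedL N D₁ D₂) => (z : F₁ × F₂)) hxy
    apply Subtype.ext
    apply Prod.ext
    · exact Subtype.ext (congrArg Prod.fst h)
    · exact Subtype.ext (congrArg Prod.snd h)
  -- the glued space is finite-dimensional
  let κ : ↥(gluedL N D₁ D₂) →ₗ[k] (↥(riemannRochSpace D₁) × ↥(riemannRochSpace D₂)) :=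
    { toFun := fun f => (⟨f.1.1, f.2.1⟩, ⟨f.1.2, f.2.2.1⟩)
      map_add' := fun x y => rfl
      map_smul' := fun c x => rfl }
  have hκ : Function.Injective κ := by
    intro x y hxy
    apply Subtype.ext
    apply Prod.ext
    · exact congrArg (fun z : ↥(riemannRochSpace D₁) × ↥(riemannRochSpace D₂) => (z.1 : F₁)) hxy
    · exact congrArg (fun z : ↥(riemannRochSpace D₁) × ↥(riemannRochSpace D₂) => (z.2 : F₂)) hxy
  haveI : Module.Finite k ↥(gluedL N D₁ D₂) := Module.Finite.of_injective κ hκ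
  have h1 := LinearMap.finrank_le_finrank_of_injective hι
  have h2 := LinearMap.finrank_range_add_finrank_ker ev
  have h3 : Module.finrank k ↥(LinearMap.range ev) ≤ s := by
    have := Submodule.finrank_le (LinearMap.range ev)
    rwa [Module.finrank_fin_fun] at this
  rw [Module.finrank_prod] at h2
  omega

end Glued

/-! ### the glued Čech complex of `(t₁, t₂)` -/

section Cech

variable {k F₁ F₂ : Type*} [Field k] [Field F₁] [Algebra k F₁] [Field F₂] [Algebra k F₂]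
  {s : ℕ} (N : Nodes k F₁ F₂ s) (t₁ : F₁) (t₂ : F₂)

/-- `B̃₀^{gl}` : pairs regular wherever `t_i` is, glued at the nodes. -/
def RegN (f : F₁ × F₂) : Prop := Reg k t₁ f.1 ∧ Reg k t₂ f.2 ∧ ∀ j, N.GluedAt f j

/-- `B̃₁^{gl}` : pairs regular wherever `t_i⁻¹` is, glued at the nodes. -/
def Reg1N (f : F₁ × F₂) : Prop := Reg k t₁⁻¹ f.1 ∧ Reg k t₂⁻¹ f.2 ∧ ∀ j, N.GluedAt f j

/-- `B̃₀₁^{gl}` : pairs regular wherever `t_i` and `t_i⁻¹` are, glued at the nodes. -/
def Reg01N (f : F₁ × F₂) : Prop := Reg01 k t₁ f.1 ∧ Reg01 k t₂ f.2 ∧ ∀ j, N.GluedAt f j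

theorem reg_add {F : Type*} [Field F] [Algebra k F] {t f g : F} (hf : Reg k t f) (hg : Reg k t g) :
    Reg k t (f + g) := fun P hP => add_mem (hf P hP) (hg P hP)

theorem reg_sub {F : Type*} [Field F] [Algebra k F] {t f g : F} (hf : Reg k t f) (hg : Reg k t g) :
    Reg k t (f - g) := fun P hP => sub_mem (hf P hP) (hg P hP)

variable {N t₁ t₂}

/-- **the glued Čech `H¹` vanishes in large degree**: for `n` large every glued pair regular on the
overlap is `a + b` with `a ∈ B̃₀^{gl}` and `b / (t₁, t₂)ⁿ ∈ B̃₁^{gl}`. -/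
theorem cech_glued (HL₁ : LHyp k F₁)
    (hR₁ : ∃ γ : ℤ, ∀ D : Divisor k F₁,
      Divisor.degree D + 1 - γ ≤ (Module.finrank k (riemannRochSpace D) : ℤ))
    (HL₂ : LHyp k F₂)
    (hR₂ : ∃ γ : ℤ, ∀ D : Divisor k F₂,
      Divisor.degree D + 1 - γ ≤ (Module.finrank k (riemannRochSpace D) : ℤ))
    {D₁ : Divisor k F₁} {D₂ : Divisor k F₂}
    (hP₁ : HasPoleDivisor t₁ D₁) (hC₁ : CechInj t₁ D₁) (hC₂ : CechInj t₂ D₂)
    (hd₁ : 0 < Divisor.degree D₁) (hd₂ : 0 < Divisor.degree D₂)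
    (hν₁ : Function.Injective N.ν₁) (hD₁ν : ∀ j, D₁ (N.ν₁ j) = 0)
    (ht : ∀ j, ∃ c : k, c ≠ 0 ∧ ValAt (N.ν₁ j) t₁ c ∧ ValAt (N.ν₂ j) t₂ c) :
    ∃ n₁ : ℕ, ∀ n : ℕ, n₁ ≤ n → ∀ f : F₁ × F₂, Reg01N N t₁ t₂ f →
      ∃ a b : F₁ × F₂, RegN N t₁ t₂ a ∧
        Reg1N N t₁ t₂ (b.1 * t₁⁻¹ ^ n, b.2 * t₂⁻¹ ^ n) ∧ f = a + b := by
  obtain ⟨m₁, hm₁⟩ :=
    Fermat.Agent.ES.V19.CechLarge13.exists_forall_ge_subsingleton_H1 HL₁ hR₁ hd₁
  obtain ⟨m₂, hm₂⟩ :=
    Fermat.Agent.ES.V19.CechLarge13.exists_forall_ge_subsingleton_H1 HL₂ hR₂ hd₂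
  obtain ⟨c, hc⟩ := exists_interp HL₁ hR₁ hν₁
  obtain ⟨m₃, hm₃⟩ :=
    Fermat.Agent.ES.V19.CechLarge13.exists_forall_ge_le_degree_nsmul HL₁ hR₁ hd₁ c
  refine ⟨max m₁ (max m₂ m₃), fun n hn f hf => ?_⟩
  have hn₁ : m₁ ≤ n := le_trans (le_max_left _ _) hn
  have hn₂ : m₂ ≤ n := le_trans (le_trans (le_max_left _ _) (le_max_right _ _)) hn
  have hn₃ : m₃ ≤ n := le_trans (le_trans (le_max_right _ _) (le_max_right _ _)) hn
  obtain ⟨a₁, b₁, ha₁, hb₁, hf₁⟩ := hC₁ n (hm₁ n hn₁) f.1 hf.1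
  obtain ⟨a₂, b₂, ha₂, hb₂, hf₂⟩ := hC₂ n (hm₂ n hn₂) f.2 hf.2.1
  -- the values of `a₁`, `a₂` at the nodes
  have hval₁ : ∀ j, ∃ α : k, ValAt (N.ν₁ j) a₁ α := fun j => by
    obtain ⟨c₀, -, h1, -⟩ := ht j
    exact exists_valAt HL₁ (ha₁ _ (ValAt.mem h1))
  have hval₂ : ∀ j, ∃ α : k, ValAt (N.ν₂ j) a₂ α := fun j => by
    obtain ⟨c₀, -, -, h2⟩ := ht j
    exact exists_valAt HL₂ (ha₂ _ (ValAt.mem h2))
  choose α₁ hα₁ using hval₁
  choose α₂ hα₂ using hval₂
  -- the correction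
  have hDn : ∀ j, (n • D₁) (N.ν₁ j) = 0 := fun j => by
    rw [Finsupp.smul_apply, hD₁ν j, smul_zero]
  obtain ⟨e, heL, hev⟩ := hc (n • D₁) (hm₃ n hn₃) hDn (fun j => α₂ j - α₁ j)
  obtain ⟨he0, he1⟩ := (hP₁.2 n e).mp heL
  refine ⟨(a₁ + e, a₂), (b₁ - e, b₂), ⟨reg_add ha₁ he0, ha₂, fun j => ?_⟩,
    ⟨?_, hb₂, fun j => ?_⟩, ?_⟩
  · refine ⟨α₂ j, ?_, hα₂ j⟩
    have := ValAt.add (hα₁ j) (hev j)
    rwa [add_sub_cancel] at this
  · show Reg k t₁⁻¹ ((b₁ - e) * t₁⁻¹ ^ n)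
    rw [sub_mul]
    exact reg_sub hb₁ he1
  · obtain ⟨φ, hφ₁, hφ₂⟩ := hf.2.2 j
    obtain ⟨c₀, hc₀, ht₁, ht₂⟩ := ht j
    have hA₁ : ValAt (N.ν₁ j) (a₁ + e) (α₂ j) := by
      have := ValAt.add (hα₁ j) (hev j)
      rwa [add_sub_cancel] at this
    have hB₁ : ValAt (N.ν₁ j) (b₁ - e) (φ - α₂ j) := by
      have h := ValAt.sub' hφ₁ hA₁
      have : f.1 - (a₁ + e) = b₁ - e := by rw [hf₁]; ring
      rwa [this] at h
    have hB₂ : ValAt (N.ν₂ j) b₂ (φ - α₂ j) := by
      have h := ValAt.sub' hφ₂ (hα₂ j)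
      have : f.2 - a₂ = b₂ := by rw [hf₂]; ring
      rwa [this] at h
    exact ⟨(φ - α₂ j) * (c₀⁻¹) ^ n, ValAt.mul hB₁ (ValAt.pow (ValAt.inv ht₁ hc₀) n),
      ValAt.mul hB₂ (ValAt.pow (ValAt.inv ht₂ hc₀) n)⟩
  · apply Prod.ext
    · show f.1 = (a₁ + e) + (b₁ - e)
      rw [hf₁]; ring
    · show f.2 = a₂ + b₂
      exact hf₂

end Cech

/-! ### the dimension count `g ≤ g₁ + g₂ + s - 1` -/

section Count

variable {K F k F₁ F₂ : Type*} [Field K] [Field F] [Algebra K F] [Field k]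
  [Field F₁] [Algebra k F₁] [Field F₂] [Algebra k F₂] {s : ℕ} (N : Nodes k F₁ F₂ s)

/-- **the count**: if for all large `n` the glued space `L(n D₁, n D₂)` of the nodal curve is at
most as large as `L(n D)` on `F / K`, with `deg D = deg D₁ + deg D₂`, then
`g(F) + 1 ≤ g(F₁) + g(F₂) + s`. -/
theorem genusFF_add_one_le (HL : LHyp K F)
    (hR : ∃ γ : ℤ, ∀ D : Divisor K F,
      Divisor.degree D + 1 - γ ≤ (Module.finrank K (riemannRochSpace D) : ℤ))
    (HL₁ : LHyp k F₁)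
    (hR₁ : ∃ γ : ℤ, ∀ D : Divisor k F₁,
      Divisor.degree D + 1 - γ ≤ (Module.finrank k (riemannRochSpace D) : ℤ))
    (HL₂ : LHyp k F₂)
    (hR₂ : ∃ γ : ℤ, ∀ D : Divisor k F₂,
      Divisor.degree D + 1 - γ ≤ (Module.finrank k (riemannRochSpace D) : ℤ))
    (D : Divisor K F) (D₁ : Divisor k F₁) (D₂ : Divisor k F₂) (d₁ d₂ : ℤ)
    (hd₁ : 0 < d₁) (hd₂ : 0 < d₂) (hD : Divisor.degree D = d₁ + d₂)
    (hD₁ : Divisor.degree D₁ = d₁) (hD₂ : Divisor.degree D₂ = d₂)
    (hD₁ν : ∀ j, D₁ (N.ν₁ j) = 0) (hD₂ν : ∀ j, D₂ (N.ν₂ j) = 0) (n₀ : ℕ)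
    (hle : ∀ n : ℕ, n₀ ≤ n →
      Module.finrank k (gluedL N (n • D₁) (n • D₂)) ≤
        Module.finrank K (riemannRochSpace (n • D))) :
    genusFF K F + 1 ≤ genusFF k F₁ + genusFF k F₂ + s := by
  obtain ⟨c, hc⟩ := Fermat.Agent.ES.V19.LHypFt13.exists_forall_degree_ge_finrank_L_eq HL hR
  obtain ⟨c₁, hc₁⟩ := Fermat.Agent.ES.V19.LHypFt13.exists_forall_degree_ge_finrank_L_eq HL₁ hR₁
  obtain ⟨c₂, hc₂⟩ := Fermat.Agent.ES.V19.LHypFt13.exists_forall_degree_ge_finrank_L_eq HL₂ hR₂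
  set m : ℤ := max c (max c₁ c₂) with hm
  set n : ℕ := n₀ + m.toNat with hn
  have hn₀ : n₀ ≤ n := Nat.le_add_right _ _
  have hmn : m ≤ (n : ℤ) := by
    have h1 : m ≤ (m.toNat : ℤ) := Int.self_le_toNat _
    have h2 : (m.toNat : ℤ) ≤ (n : ℤ) := by
      rw [hn]; push_cast; linarith [Int.natCast_nonneg n₀]
    linarith
  have hn0 : (0 : ℤ) ≤ (n : ℤ) := Int.natCast_nonneg n
  have hdegD : Divisor.degree (n • D) = (n : ℤ) * (d₁ + d₂) := by
    rw [map_nsmul, hD, nsmul_eq_mul]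
  have hdegD₁ : Divisor.degree (n • D₁) = (n : ℤ) * d₁ := by
    rw [map_nsmul, hD₁, nsmul_eq_mul]
  have hdegD₂ : Divisor.degree (n • D₂) = (n : ℤ) * d₂ := by
    rw [map_nsmul, hD₂, nsmul_eq_mul]
  have hb : m ≤ (n : ℤ) * (d₁ + d₂) := by nlinarith
  have hb₁ : m ≤ (n : ℤ) * d₁ := by nlinarith
  have hb₂ : m ≤ (n : ℤ) * d₂ := by nlinarith
  have e := hc (n • D) (by rw [hdegD]; exact (le_max_left _ _).trans hb)
  have e₁ := hc₁ (n • D₁) (by
    rw [hdegD₁]; exact ((le_max_left _ _).trans (le_max_right _ _)).trans hb₁)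
  have e₂ := hc₂ (n • D₂) (by
    rw [hdegD₂]; exact ((le_max_right _ _).trans (le_max_right _ _)).trans hb₂)
  have hν₁ : ∀ j, (n • D₁) (N.ν₁ j) = 0 := fun j => by
    rw [Finsupp.smul_apply, hD₁ν j, smul_zero]
  have hν₂ : ∀ j, (n • D₂) (N.ν₂ j) = 0 := fun j => by
    rw [Finsupp.smul_apply, hD₂ν j, smul_zero]
  have h1 := le_finrank_gluedL N HL₁ HL₂ (n • D₁) (n • D₂) hν₁ hν₂
  have h2 := hle n hn₀
  have h3 : (Module.finrank k (riemannRochSpace (n • D₁)) : ℤ) +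
      (Module.finrank k (riemannRochSpace (n • D₂)) : ℤ) ≤
      (Module.finrank K (riemannRochSpace (n • D)) : ℤ) + s := by
    have : Module.finrank k (riemannRochSpace (n • D₁)) +
        Module.finrank k (riemannRochSpace (n • D₂)) ≤
        Module.finrank K (riemannRochSpace (n • D)) + s := by omega
    exact_mod_cast this
  rw [e, e₁, e₂, hdegD, hdegD₁, hdegD₂] at h3
  have : (genusFF K F : ℤ) + 1 ≤ (genusFF k F₁ : ℤ) + (genusFF k F₂ : ℤ) + s := by linarith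
  exact_mod_cast this

end Count

end Fermat.Agent.ES.W33.NodalCech17
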