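/-
Programme W (S33), chapter B1′ (helper12, assembly): **sections of the NODAL special fibre lift** —
the nodal twin of `V19/CechLiftAsm12.finrank_L_le`, in ABSTRACT form (no modular curve).

`F / K` a function field, `A` a valuation subring of `K` with `res : A →+* k`; `G ⊆ F` a subring (the
functions integral for both Gauss valuations) with `red : G →+* F₁ × F₂` (`F₁, F₂ / k` the two
components, `N` the nodes), `red (const a) = (res a, res a)`; `t ∈ G` with `red t = (t₁, t₂)`, `t₁, t₂`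
units at the nodes with equal values; `A`-submodules `N₀, N₁(n) ≤ N₀₁ ⊆ G` of `F` (the spans of the
charts and of the overlap) with `tⁿ · N₁(0) ⊆ N₁(n)`, and

* (I1)  `N₀₁ / (N₀ + N₁(n))` generated by finitely many elements of `N₀₁`;
* (I2)  `x ∈ N₀₁`, `red x = 0 ⟹ x ∈ 𝔪_A • N₀₁`;
* (I3)  every GLUED pair regular wherever `(t₁, t₂)` is (`NodalCech17.RegN`) is `red x`, `x ∈ N₀`;
        every glued pair regular wherever `(t₁⁻¹, t₂⁻¹)` is (`Reg1N`) is `red x`, `x ∈ N₁(0)`;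
* (I3′) `red N₀₁ ⊆ Reg01N`;
* the glued Čech vanishing at `n` (conclusion of `NodalCech17.cech_glued`);
* `N₀ ⊓ N₁(n) ⊆ L(n • D)` on the generic fibre; `D₁, D₂` pole divisors of `t₁, t₂` (only the
  second half of `CechIface12.HasPoleDivisor` is used: no separability of `t₂` is needed).

Then `dim_k gluedL N (n • D₁) (n • D₂) ≤ dim_K L(n • D)` — literally the hypothesis `hle` of
`NodalCech17.genusFF_add_one_le`.
-/
import Mathlib
import Fermat.Agent.ES.W33.LiftAbs12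
import Fermat.Agent.ES.W33.NodalCech17

set_option autoImplicit false
set_option linter.unusedSectionVars false
set_option linter.style.haveILetI false

open AlgebraicCurve

noncomputable section

namespace Fermat.Agent.ES.W33.CechLiftAsmN12

open IsLocalRing Fermat.Agent.RR.LSpace Fermat.Agent.ES.V19.CechIface12
  Fermat.Agent.ES.W33.XiIfaceN29 Fermat.Agent.ES.W33.ValAt29 Fermat.Agent.ES.W33.NodalCech17

variable {K F k F₁ F₂ : Type*} [Field K] [Field F] [Algebra K F] [Field k]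
  [Field F₁] [Algebra k F₁] [Field F₂] [Algebra k F₂]

/-- `gluedL` is finite-dimensional. -/
theorem finiteDimensional_gluedL (HL₁ : LHyp k F₁) (HL₂ : LHyp k F₂) {s : ℕ}
    (N : Nodes k F₁ F₂ s) (D₁ : Divisor k F₁) (D₂ : Divisor k F₂) :
    FiniteDimensional k ↥(gluedL N D₁ D₂) := by
  have h1 : FiniteDimensional k ↥(riemannRochSpace D₁) := finiteDimensional_L HL₁ D₁
  have h2 : FiniteDimensional k ↥(riemannRochSpace D₂) := finiteDimensional_L HL₂ D₂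
  have hfg : ((riemannRochSpace D₁).prod (riemannRochSpace D₂)).FG :=
    Submodule.FG.prod (Module.Finite.iff_fg.mp h1) (Module.Finite.iff_fg.mp h2)
  have : FiniteDimensional k ↥((riemannRochSpace D₁).prod (riemannRochSpace D₂)) :=
    Module.Finite.iff_fg.mpr hfg
  have hle : gluedL N D₁ D₂ ≤ (riemannRochSpace D₁).prod (riemannRochSpace D₂) :=
    fun f hf => Submodule.mem_prod.mpr ⟨hf.1, hf.2.1⟩
  exact Submodule.finiteDimensional_of_le hle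

set_option maxHeartbeats 1600000 in
/-- **Sections of the nodal special fibre lift to the generic fibre.** -/
theorem finrank_gluedL_le (A : ValuationSubring K) (res : ↥A →+* k)
    (hres : ∀ c : ↥A, c ∈ maximalIdeal ↥A → res c = 0)
    (G : Subring F) (hconst : ∀ a : ↥A, algebraMap K F (a : K) ∈ G)
    (red : ↥G →+* F₁ × F₂)
    (hredc : ∀ a : ↥A, red ⟨algebraMap K F (a : K), hconst a⟩ =
      (algebraMap k F₁ (res a), algebraMap k F₂ (res a)))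
    {s : ℕ} (N : Nodes k F₁ F₂ s) (t : F) (t₁ : F₁) (t₂ : F₂)
    (htG : ∃ h : t ∈ G, red ⟨t, h⟩ = (t₁, t₂))
    (htν : ∀ j, ∃ c : k, c ≠ 0 ∧ ValAt (N.ν₁ j) t₁ c ∧ ValAt (N.ν₂ j) t₂ c)
    (ht₁0 : t₁ ≠ 0) (ht₂0 : t₂ ≠ 0)
    (N0 N01 : Submodule ↥A F) (N1 : ℕ → Submodule ↥A F)
    (h0 : N0 ≤ N01) (h1 : ∀ n, N1 n ≤ N01) (h01 : ∀ x ∈ N01, x ∈ G)
    (hpow : ∀ (n : ℕ) (x : F), x ∈ N1 0 → t ^ n * x ∈ N1 n)
    (hFG : ∀ n : ℕ, ∃ G' : Finset F, (∀ g ∈ G', g ∈ N01) ∧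
      N01 ≤ Submodule.span ↥A (G' : Set F) ⊔ (N0 ⊔ N1 n))
    (hKer : ∀ (x : F) (hx : x ∈ N01), red ⟨x, h01 x hx⟩ = 0 → x ∈ maximalIdeal ↥A • N01)
    (hSurj0 : ∀ f : F₁ × F₂, RegN N t₁ t₂ f →
      ∃ (x : F) (hx : x ∈ N0), red ⟨x, h01 x (h0 hx)⟩ = f)
    (hSurj1 : ∀ f : F₁ × F₂, Reg1N N t₁ t₂ f →
      ∃ (x : F) (hx : x ∈ N1 0), red ⟨x, h01 x (h1 0 hx)⟩ = f)
    (hReg01 : ∀ (x : F) (hx : x ∈ N01), Reg01N N t₁ t₂ (red ⟨x, h01 x hx⟩))
    (HL : LHyp K F) (D : Divisor K F)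
    (hW : ∀ (n : ℕ) (x : F), x ∈ N0 → x ∈ N1 n → x ∈ riemannRochSpace (n • D))
    (HL₁ : LHyp k F₁) (HL₂ : LHyp k F₂) (D₁ : Divisor k F₁) (D₂ : Divisor k F₂)
    (hD₁ : ∀ (m : ℕ) (f : F₁), f ∈ riemannRochSpace (m • D₁) ↔
      Reg k t₁ f ∧ Reg k t₁⁻¹ (f * t₁⁻¹ ^ m))
    (hD₂ : ∀ (m : ℕ) (f : F₂), f ∈ riemannRochSpace (m • D₂) ↔
      Reg k t₂ f ∧ Reg k t₂⁻¹ (f * t₂⁻¹ ^ m)) (n : ℕ)
    (hcech : ∀ f : F₁ × F₂, Reg01N N t₁ t₂ f →
      ∃ a b : F₁ × F₂, RegN N t₁ t₂ a ∧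
        Reg1N N t₁ t₂ (b.1 * t₁⁻¹ ^ n, b.2 * t₂⁻¹ ^ n) ∧ f = a + b) :
    Module.finrank k ↥(gluedL N (n • D₁) (n • D₂)) ≤
      Module.finrank K ↥(riemannRochSpace (n • D)) := by
  classical
  obtain ⟨htmem, htred⟩ := htG
  -- the integral elements as an additive subgroup, the reduction as an additive map
  let S : AddSubgroup F := G.toAddSubgroup
  have hS : ∀ (a : ↥A) (x : F), x ∈ S → (a : K) • x ∈ S := by
    intro a x hx
    rw [Algebra.smul_def]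
    exact G.mul_mem (hconst a) hx
  let ρ : ↥S →+ F₁ × F₂ :=
    { toFun := fun x => red ⟨x.1, x.2⟩
      map_zero' := map_zero red
      map_add' := fun x y => map_add red ⟨x.1, x.2⟩ ⟨y.1, y.2⟩ }
  have hρdef : ∀ (x : F) (hx : x ∈ S), ρ ⟨x, hx⟩ = red ⟨x, hx⟩ := fun _ _ => rfl
  have hρ : ∀ (a : ↥A) (x : ↥S), ρ ⟨(a : K) • (x : F), hS a x x.2⟩ = res a • ρ x := by
    intro a x
    have hmem : algebraMap K F (a : K) * (x : F) ∈ G := G.mul_mem (hconst a) x.2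
    have e1 : ρ ⟨(a : K) • (x : F), hS a x x.2⟩ = red ⟨algebraMap K F (a : K) * (x : F), hmem⟩ := by
      show red ⟨(a : K) • (x : F), _⟩ = red ⟨algebraMap K F (a : K) * (x : F), hmem⟩
      congr 1
      exact Subtype.ext (Algebra.smul_def _ _)
    have e2 : (⟨algebraMap K F (a : K) * (x : F), hmem⟩ : ↥G) =
        ⟨algebraMap K F (a : K), hconst a⟩ * ⟨x.1, x.2⟩ := rfl
    rw [e1, e2, map_mul, hredc]
    apply Prod.ext
    · show algebraMap k F₁ (res a) * (red ⟨x.1, x.2⟩).1 = res a • (red ⟨x.1, x.2⟩).1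
      rw [Algebra.smul_def]
    · show algebraMap k F₂ (res a) * (red ⟨x.1, x.2⟩).2 = res a • (red ⟨x.1, x.2⟩).2
      rw [Algebra.smul_def]
  have h01S : ∀ x ∈ N01, x ∈ S := h01
  -- the reduction of `tⁿ * b`
  have hredpow : ∀ (b : F) (hb : b ∈ G) (hb' : t ^ n * b ∈ G),
      red ⟨t ^ n * b, hb'⟩ = (t₁ ^ n * (red ⟨b, hb⟩).1, t₂ ^ n * (red ⟨b, hb⟩).2) := by
    intro b hb hb'
    have e : (⟨t ^ n * b, hb'⟩ : ↥G) = ⟨t, htmem⟩ ^ n * ⟨b, hb⟩ := rfl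
    rw [e, map_mul, map_pow, htred]
    rfl
  -- elements of `N1 n` from `hSurj1`
  have hsurj1 : ∀ f : F₁ × F₂, Reg1N N t₁ t₂ (f.1 * t₁⁻¹ ^ n, f.2 * t₂⁻¹ ^ n) →
      ∃ (b : F) (hb : b ∈ N1 n), red ⟨b, h01 b (h1 n hb)⟩ = f := by
    intro f hf
    obtain ⟨b', hb', hb'red⟩ := hSurj1 _ hf
    have hb : t ^ n * b' ∈ N1 n := hpow n b' hb'
    refine ⟨t ^ n * b', hb, ?_⟩
    rw [hredpow b' (h01 b' (h1 0 hb')) (h01 _ (h1 n hb)), hb'red]
    apply Prod.ext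
    · show t₁ ^ n * (f.1 * t₁⁻¹ ^ n) = f.1
      rw [mul_comm f.1, ← mul_assoc, ← mul_pow, mul_inv_cancel₀ ht₁0, one_pow, one_mul]
    · show t₂ ^ n * (f.2 * t₂⁻¹ ^ n) = f.2
      rw [mul_comm f.2, ← mul_assoc, ← mul_pow, mul_inv_cancel₀ ht₂0, one_pow, one_mul]
  -- the pair `(t₁⁻ⁿ, t₂⁻ⁿ)` is glued at every node
  have hgl : ∀ j, N.GluedAt (t₁⁻¹ ^ n, t₂⁻¹ ^ n) j := by
    intro j
    obtain ⟨c, hc, hc1, hc2⟩ := htν j
    exact ⟨c⁻¹ ^ n, ValAt.pow (ValAt.inv hc1 hc) n, ValAt.pow (ValAt.inv hc2 hc) n⟩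
  obtain ⟨G', hG'mem, hG'⟩ := hFG n
  haveI : FiniteDimensional k ↥(gluedL N (n • D₁) (n • D₂)) :=
    finiteDimensional_gluedL HL₁ HL₂ N _ _
  haveI : FiniteDimensional K ↥(riemannRochSpace (n • D)) := finiteDimensional_L HL _
  refine Fermat.Agent.ES.W33.LiftAbs12.finrank_le_of_lift A res hres S hS ρ hρ N0 (N1 n) N01 h0
    (h1 n) h01S G' hG'mem hG' (fun x hx h => hKer x hx h) ?_ (gluedL N (n • D₁) (n • D₂)) ?_
    (riemannRochSpace (n • D)) (hW n)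
  · -- `H¹ = 0` on the special fibre
    intro x hx
    obtain ⟨a, b, ha, hb, hab⟩ := hcech _ (hReg01 x hx)
    obtain ⟨a', ha', ha'red⟩ := hSurj0 a ha
    obtain ⟨b', hb', hb'red⟩ := hsurj1 b hb
    refine ⟨a', ha', b', hb', ?_⟩
    rw [hρdef, hρdef, hρdef, ha'red, hb'red]
    exact hab
  · -- the glued sections come from both charts
    intro v hv
    obtain ⟨hv1, hv2, hvg⟩ := hv
    obtain ⟨hr1, hr1'⟩ := (hD₁ n v.1).mp hv1
    obtain ⟨hr2, hr2'⟩ := (hD₂ n v.2).mp hv2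
    obtain ⟨a, ha, hared⟩ := hSurj0 v ⟨hr1, hr2, hvg⟩
    obtain ⟨b, hb, hbred⟩ := hsurj1 v ⟨hr1', hr2', fun j => gluedAt_mul (hvg j) (hgl j)⟩
    exact ⟨a, ha, b, hb, by rw [hρdef]; exact hared, by rw [hρdef]; exact hbred⟩

end Fermat.Agent.ES.W33.CechLiftAsmN12
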