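/-
Programme W (S33), chapter (B1′), step (S2) — helper17.  **The count with a degree INEQUALITY.**

`NodalCech17.genusFF_add_one_le` asks for `deg D = deg D₁ + deg D₂`.  For the assembly (A) only
`deg D ≤ deg D₁ + deg D₂` is cheap ((M5) `DegLeN12`: the special fibre has no further component and
is reduced), and it suffices:

  `n (d₁ + d₂) + 2 - g₁ - g₂ - s ≤ dim L(n D₁, n D₂) ≤ l(n D) = n d + 1 - g`   (`n ≫ 0`).

* **`genusFF_add_one_le_of_le`** : `0 < deg D ≤ d₁ + d₂`, `deg D_i = d_i > 0`, `D_i` off the nodes,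
  `dim gluedL N (n • D₁) (n • D₂) ≤ l(n • D)` for `n ≥ n₀`
  ⊢ `genusFF K F + 1 ≤ genusFF k F₁ + genusFF k F₂ + s`;
* `genusFF_le_of_le` : the same in helper23's binding shape
  `genusFF K F ≤ genusFF k F₁ + s - 1 + genusFF k F₂` (truncated subtraction in `ℕ`; `0 < s`).
-/
import Mathlib
import Fermat.Agent.ES.W33.NodalCech17

set_option autoImplicit false
set_option linter.unusedSectionVars false

open AlgebraicCurve

noncomputable section

namespace Fermat.Agent.ES.W33.GenusCountLe17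

open Fermat.Agent.X0.FF Fermat.Agent.RR.LSpace Fermat.Agent.ES.W33.XiIfaceN29
  Fermat.Agent.ES.W33.NodalCech17

variable {K F k F₁ F₂ : Type*} [Field K] [Field F] [Algebra K F] [Field k]
  [Field F₁] [Algebra k F₁] [Field F₂] [Algebra k F₂] {s : ℕ} (N : Nodes k F₁ F₂ s)

/-- **the count with `deg D ≤ deg D₁ + deg D₂`.** -/
theorem genusFF_add_one_le_of_le (HL : LHyp K F)
    (hR : ∃ γ : ℤ, ∀ D : Divisor K F,
      Divisor.degree D + 1 - γ ≤ (Module.finrank K (riemannRochSpace D) : ℤ))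
    (HL₁ : LHyp k F₁)
    (hR₁ : ∃ γ : ℤ, ∀ D : Divisor k F₁,
      Divisor.degree D + 1 - γ ≤ (Module.finrank k (riemannRochSpace D) : ℤ))
    (HL₂ : LHyp k F₂)
    (hR₂ : ∃ γ : ℤ, ∀ D : Divisor k F₂,
      Divisor.degree D + 1 - γ ≤ (Module.finrank k (riemannRochSpace D) : ℤ))
    (D : Divisor K F) (D₁ : Divisor k F₁) (D₂ : Divisor k F₂) (d₁ d₂ : ℤ)
    (hd : 0 < Divisor.degree D) (hd₁ : 0 < d₁) (hd₂ : 0 < d₂)
    (hD : Divisor.degree D ≤ d₁ + d₂)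
    (hD₁ : Divisor.degree D₁ = d₁) (hD₂ : Divisor.degree D₂ = d₂)
    (hD₁ν : ∀ j, D₁ (N.ν₁ j) = 0) (hD₂ν : ∀ j, D₂ (N.ν₂ j) = 0) (n₀ : ℕ)
    (hle : ∀ n : ℕ, n₀ ≤ n →
      Module.finrank k (gluedL N (n • D₁) (n • D₂)) ≤
        Module.finrank K (riemannRochSpace (n • D))) :
    genusFF K F + 1 ≤ genusFF k F₁ + genusFF k F₂ + s := by
  obtain ⟨c, hc⟩ := Fermat.Agent.ES.V19.LHypFt13.exists_forall_degree_ge_finrank_L_eq HL hR
  obtain ⟨c₁, hc₁⟩ := Fermat.Agent.ES.V19.LHypFt13.exists_forall_degree_ge_finrank_L_eq HL₁ hR₁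
  obtain ⟨c₂, hc₂⟩ := Fermat.Agent.ES.V19.LHypFt13.exists_forall_degree_ge_finrank_L_eq HL₂ hR₂
  set d : ℤ := Divisor.degree D with hd_def
  set m : ℤ := max c (max c₁ c₂) with hm
  set n : ℕ := n₀ + m.toNat with hn
  have hn₀ : n₀ ≤ n := Nat.le_add_right _ _
  have hmn : m ≤ (n : ℤ) := by
    have h1 : m ≤ (m.toNat : ℤ) := Int.self_le_toNat _
    have h2 : (m.toNat : ℤ) ≤ (n : ℤ) := by
      rw [hn]; push_cast; linarith [Int.natCast_nonneg n₀]
    linarith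
  have hn0 : (0 : ℤ) ≤ (n : ℤ) := Int.natCast_nonneg n
  have hdegD : Divisor.degree (n • D) = (n : ℤ) * d := by
    rw [map_nsmul, nsmul_eq_mul]
  have hdegD₁ : Divisor.degree (n • D₁) = (n : ℤ) * d₁ := by
    rw [map_nsmul, hD₁, nsmul_eq_mul]
  have hdegD₂ : Divisor.degree (n • D₂) = (n : ℤ) * d₂ := by
    rw [map_nsmul, hD₂, nsmul_eq_mul]
  have hb : m ≤ (n : ℤ) * d := by nlinarith
  have hb₁ : m ≤ (n : ℤ) * d₁ := by nlinarith
  have hb₂ : m ≤ (n : ℤ) * d₂ := by nlinarith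
  have e := hc (n • D) (by rw [hdegD]; exact (le_max_left _ _).trans hb)
  have e₁ := hc₁ (n • D₁) (by
    rw [hdegD₁]; exact ((le_max_left _ _).trans (le_max_right _ _)).trans hb₁)
  have e₂ := hc₂ (n • D₂) (by
    rw [hdegD₂]; exact ((le_max_right _ _).trans (le_max_right _ _)).trans hb₂)
  have hν₁ : ∀ j, (n • D₁) (N.ν₁ j) = 0 := fun j => by
    rw [Finsupp.smul_apply, hD₁ν j, smul_zero]
  have hν₂ : ∀ j, (n • D₂) (N.ν₂ j) = 0 := fun j => by
    rw [Finsupp.smul_apply, hD₂ν j, smul_zero]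
  have h1 := le_finrank_gluedL N HL₁ HL₂ (n • D₁) (n • D₂) hν₁ hν₂
  have h2 := hle n hn₀
  have h3 : (Module.finrank k (riemannRochSpace (n • D₁)) : ℤ) +
      (Module.finrank k (riemannRochSpace (n • D₂)) : ℤ) ≤
      (Module.finrank K (riemannRochSpace (n • D)) : ℤ) + s := by
    have : Module.finrank k (riemannRochSpace (n • D₁)) +
        Module.finrank k (riemannRochSpace (n • D₂)) ≤
        Module.finrank K (riemannRochSpace (n • D)) + s := by omega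
    exact_mod_cast this
  rw [e, e₁, e₂, hdegD, hdegD₁, hdegD₂] at h3
  have h4 : (0 : ℤ) ≤ (n : ℤ) * (d₁ + d₂ - d) := mul_nonneg hn0 (by linarith)
  have : (genusFF K F : ℤ) + 1 ≤ (genusFF k F₁ : ℤ) + (genusFF k F₂ : ℤ) + s := by nlinarith
  exact_mod_cast this

/-- **the count in the binding shape of the (B1′) exit** (`ℕ`, truncated subtraction). -/
theorem genusFF_le_of_le (HL : LHyp K F)
    (hR : ∃ γ : ℤ, ∀ D : Divisor K F,
      Divisor.degree D + 1 - γ ≤ (Module.finrank K (riemannRochSpace D) : ℤ))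
    (HL₁ : LHyp k F₁)
    (hR₁ : ∃ γ : ℤ, ∀ D : Divisor k F₁,
      Divisor.degree D + 1 - γ ≤ (Module.finrank k (riemannRochSpace D) : ℤ))
    (HL₂ : LHyp k F₂)
    (hR₂ : ∃ γ : ℤ, ∀ D : Divisor k F₂,
      Divisor.degree D + 1 - γ ≤ (Module.finrank k (riemannRochSpace D) : ℤ))
    (D : Divisor K F) (D₁ : Divisor k F₁) (D₂ : Divisor k F₂) (d₁ d₂ : ℤ)
    (hd : 0 < Divisor.degree D) (hd₁ : 0 < d₁) (hd₂ : 0 < d₂)
    (hD : Divisor.degree D ≤ d₁ + d₂)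
    (hD₁ : Divisor.degree D₁ = d₁) (hD₂ : Divisor.degree D₂ = d₂)
    (hD₁ν : ∀ j, D₁ (N.ν₁ j) = 0) (hD₂ν : ∀ j, D₂ (N.ν₂ j) = 0) (n₀ : ℕ)
    (hle : ∀ n : ℕ, n₀ ≤ n →
      Module.finrank k (gluedL N (n • D₁) (n • D₂)) ≤
        Module.finrank K (riemannRochSpace (n • D)))
    (hs : 0 < s) :
    genusFF K F ≤ genusFF k F₁ + s - 1 + genusFF k F₂ := by
  have h := genusFF_add_one_le_of_le N HL hR HL₁ hR₁ HL₂ hR₂ D D₁ D₂ d₁ d₂ hd hd₁ hd₂ hD hD₁ hD₂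
    hD₁ν hD₂ν n₀ hle
  omega

end Fermat.Agent.ES.W33.GenusCountLe17
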