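/-
Programme W (S33), chapter B1′, **THE ASSEMBLY (A)** (helper12): the genus inequality of the nodal
fibre from the named leaves, in the literal of `GeoW23.B1Exit` (`GeoInst23.b1Exit_iff`).

GENERIC in the nodes `{s} (N : Nodes k̄ Ft Ft s)` and the reduction map `r` (only a
`C : RedCtxN A (resA A) N GN redN r` is used: `const_mem`, `red_const`, `glue_unit`), so the file is
independent of the place-level names of `NodalDefs3`; the function-level names `tN`, `GN`, `redN`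
are those of `NodalDefs3`.

`genusFF_le` : from
  `C`      : `RedCtxN A (resA A) N (GN M' p A) (redN M' p A) r`                         (B3′),
  `hbc`    : `baseChangeHom (M' p) K tK = tN`,
  (M1)     : `FGProp`, `M0 ≤ M01`, `M1 m ≤ M01`                                        (`LevelInstN24`),
  (M2)     : `hK`, literal of `CechIfaceN24.KerPropN`                                  (`LevelInstN24`),
  (M3)     : `hReg01`, literal of `CechIfaceN24.Reg01PropN` at `(t₁, t₂)`             (`Reg01PropN13`),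
  (M4)     : `hSurj`, literal of `CechIfaceN24.SurjPropN` at `(t₁, t₂)`               (`SurjAsmN24`),
  (M5)     : `hfin`, `hfrac` (inputs of `DegLeN12.degree_le`)                          (`LevelInstN24`),
  `htt`    : `redN tN = (t₁, t₂)`, `ht₁ : t₁ = tResV …` (the reduction of `t` on the first
             component is the `t̃` of the good level), `ht₂ : Transcendental k̄ t₂`     (`TransN4`),
  `hνinj`  : `Function.Injective N.ν₁`, `hnode : r P = inr j → ord_P tN = 0`           (B3′),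
  `hs : 0 < s`                                                                         (`ConnNodal14`)
⊢ `0 < s ∧ genusFF ℚ̄ F_{M'p} ≤ genusFF k̄ F̃_{M'} + s - 1 + genusFF k̄ F̃_{M'}`.

Proof: `NodalCech17.cech_glued` (glued Čech `H¹ = 0` in large degree) + `CechLiftAsmN12.finrank_gluedL_le`
(glued sections lift) + `DegLeN12.degree_le` ((M5)) + `GenusCountLe17.genusFF_le_of_le` (the count).
-/
import Mathlib
import Fermat.Agent.ES.W33.CechLiftAsmN12
import Fermat.Agent.ES.W33.DegLeN12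
import Fermat.Agent.ES.W33.GenusCountLe17
import Fermat.Agent.ES.V19.GenericIncl12
import Fermat.Agent.ES.V19.LHypFt13

set_option autoImplicit false
set_option linter.unusedSectionVars false
set_option linter.style.haveILetI false
set_option synthInstance.maxHeartbeats 400000

open AlgebraicCurve ModularCurve IntermediateField HahnSeries

noncomputable section

namespace Fermat.Agent.ES.W33.GenusLeN12

open Fermat.Agent.RED.Interface4 Fermat.Agent.RED.DESC.PlaceExtend27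
  Fermat.Agent.RED.PUR.ChartGeneric22 Fermat.Agent.RED.BASE.Interface12
  Fermat.Agent.RED.BASE.Hauptmodul12
  Fermat.Agent.ES.RED.Contract8 Fermat.Agent.ES.RED.ModelInst4 Fermat.Agent.ES.RED.SpecialInv25
  Fermat.Agent.ES.RED.SpecialGen25
  Fermat.Agent.ES.V19.CechIface12 Fermat.Agent.ES.V19.InstNames3
  Fermat.Agent.ES.W33.XiIfaceN29 Fermat.Agent.ES.W33.ValAt29 Fermat.Agent.ES.W33.NodalDefs3
  Fermat.Agent.ES.W33.NodalCech17
  Fermat.Agent.X0.FF Fermat.Agent.RR.LSpace Fermat.Agent.RR.Riemann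

variable {n e M' : ℕ} [NeZero n] [NeZero M'] {p : ℕ} [Fact p.Prime] {hpM : ¬ p ∣ M'}
  {hb : BaseHyp n e} {hnM : n ∣ M'} {A : ValuationSubring Qbar} {hA : A.LiesOverPrime p}
  {K : IntermediateField ℚ Qbar} {tK : ↥(FK (M' * p) K)}
  {s : ℕ} {N : Nodes (kA A) (Ft M' A) (Ft M' A) s}
  {r : Place Qbar ↥(Fbar (M' * p)) → SPt (kA A) (Ft M' A) (Ft M' A) ⊕ Fin s}

set_option maxHeartbeats 3200000 in
/-- **(B1′): the genus inequality of the nodal fibre.** -/
theorem genusFF_le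
    (C : RedCtxN A (resA A) N (GN M' p A) (redN M' p A) r)
    (hbc : baseChangeHom (M' * p) K tK = tN n e M' p hb hnM)
    (hFG : FGProp A (M' * p) K tK)
    (h0 : M0 A (M' * p) K tK ≤ M01 A (M' * p) K tK)
    (h1 : ∀ m : ℕ, M1 A (M' * p) K tK m ≤ M01 A (M' * p) K tK)
    (hK : ∃ h01 : ∀ f ∈ M01 A (M' * p) K tK, f ∈ GN M' p A,
      ∀ (f : ↥(Fbar (M' * p))) (hf : f ∈ M01 A (M' * p) K tK),
        redN M' p A ⟨f, h01 f hf⟩ = 0 →
          f ∈ IsLocalRing.maximalIdeal ↥A • M01 A (M' * p) K tK)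
    (hfin : ∃ (r' : ℕ) (e' : Fin r' → ↥(Fbar (M' * p))), (∀ i, e' i ∈ M0 A (M' * p) K tK) ∧
      ∀ x ∈ M01 A (M' * p) K tK,
        ∃ ρ : Fin r' → ↥(Algebra.adjoin ↥A
            ({baseChangeHom (M' * p) K tK, baseChangeHom (M' * p) K tK⁻¹} : Set ↥(Fbar (M' * p)))),
          x = ∑ i, ((ρ i : ↥(Algebra.adjoin ↥A
            ({baseChangeHom (M' * p) K tK, baseChangeHom (M' * p) K tK⁻¹} :
              Set ↥(Fbar (M' * p))))) : ↥(Fbar (M' * p))) * e' i)
    (hfrac : ∀ x : ↥(FK (M' * p) K), ∃ a ∈ chart ↥(AK A K) tK, ∃ b ∈ chart ↥(AK A K) tK,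
      b ≠ 0 ∧ x * b = a)
    (t₁ t₂ : Ft M' A)
    (htt : ∃ h : tN n e M' p hb hnM ∈ GN M' p A, redN M' p A ⟨_, h⟩ = (t₁, t₂))
    (ht₁ : t₁ = tResV n e M' p hpM hb hnM A hA)
    (ht₂ : Transcendental (kA A) t₂)
    (hSurj : (∀ fb : Ft M' A × Ft M' A, RegN N t₁ t₂ fb →
        ∃ f ∈ M0 A (M' * p) K tK, ∃ hf : f ∈ GN M' p A, redN M' p A ⟨f, hf⟩ = fb) ∧
      ∀ fb : Ft M' A × Ft M' A, Reg1N N t₁ t₂ fb →
        ∃ f ∈ M1 A (M' * p) K tK 0, ∃ hf : f ∈ GN M' p A, redN M' p A ⟨f, hf⟩ = fb)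
    (hReg01 : ∀ (f : ↥(Fbar (M' * p))) (_ : f ∈ M01 A (M' * p) K tK) (hf : f ∈ GN M' p A),
      Reg01N N t₁ t₂ (redN M' p A ⟨f, hf⟩))
    (hνinj : Function.Injective N.ν₁)
    (hnode : ∀ (P : Place Qbar ↥(Fbar (M' * p))) (j : Fin s),
      r P = Sum.inr j → P.ord (tN n e M' p hb hnM) = 0)
    (hs : 0 < s) :
    0 < s ∧ genusFF Qbar ↥(Fbar (M' * p)) ≤
      genusFF (kA A) (Ft M' A) + s - 1 + genusFF (kA A) (Ft M' A) := by
  refine ⟨hs, ?_⟩
  subst ht₁
  obtain ⟨htG, htred⟩ := htt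
  obtain ⟨h01, hker⟩ := hK
  haveI : IsAlgClosed (kA A) := Fermat.Agent.ES.KRON.KronInst10.isAlgClosed_residueField A
  haveI := isSeparable_tRes n e M' p hpM (tMem_of_dvd hb hnM) (tGenBase' hb) A hA
  -- the generic fibre
  have hxt : IsGen Qbar (tN n e M' p hb hnM) := hxN n e M' p hb hnM
  haveI := hxt.finiteDimensional
  have HL : LHyp Qbar ↥(Fbar (M' * p)) :=
    Fermat.Agent.RR.LHypGen.lHyp_of_isGen (Fermat.Agent.RED.TOP.FbarFacts20.isGen_j (M' * p))
  have hR : ∃ γ : ℤ, ∀ D : Divisor Qbar ↥(Fbar (M' * p)),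
      Divisor.degree D + 1 - γ ≤ (Module.finrank Qbar (riemannRochSpace D) : ℤ) :=
    Fermat.Agent.RR.Riemann.riemann_inequality' HL hxt.transcendental (sum_ord_poles hxt)
  -- the special fibre (both components)
  have hxtt : IsGen (kA A) (tResV n e M' p hpM hb hnM A hA) := hxtV n e M' p hpM hb hnM A hA
  haveI := hxtt.finiteDimensional
  have hrV' := hrV n e M' p hpM hb hnM A hA
  have HLt : LHyp (kA A) (Ft M' A) :=
    Fermat.Agent.ES.V19.LHypFt13.lHyp_Ft n e M' p hpM (tMem_of_dvd hb hnM) (tGenBase' hb) A hA hrV'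
  have hRt := Fermat.Agent.ES.V19.LHypFt13.riemann_inequality_Ft n e M' p hpM
    (tMem_of_dvd hb hnM) (tGenBase' hb) A hA hrV'
  -- the three pole divisors
  have ht0 : tN n e M' p hb hnM ≠ 0 := hxt.ne_zero
  have ht₁0 : tResV n e M' p hpM hb hnM A hA ≠ 0 := hxtt.ne_zero
  have ht₂0 : t₂ ≠ 0 := by
    rintro rfl
    exact ht₂ isAlgebraic_zero
  have hPD : HasPoleDivisor (tN n e M' p hb hnM) (poleDiv HL ht0) :=
    Fermat.Agent.ES.V19.CechTw13.hasPoleDivisor_poleDiv HL ht0 (sum_ord_poles hxt)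
  have hPD₁ : HasPoleDivisor (tResV n e M' p hpM hb hnM A hA) (poleDiv HLt ht₁0) :=
    Fermat.Agent.ES.V19.CechTw13.hasPoleDivisor_poleDiv HLt ht₁0
      (Fermat.Agent.ES.RED.SumOrdSep15.sum_ord_poles_sep hxtt)
  -- the nodes
  have htν : ∀ j, ∃ c : kA A, c ≠ 0 ∧ ValAt (N.ν₁ j) (tResV n e M' p hpM hb hnM A hA) c ∧
      ValAt (N.ν₂ j) t₂ c := by
    intro j
    have h := C.glue_unit ⟨tN n e M' p hb hnM, htG⟩ j (fun P hP => hnode P j hP)
      (by rw [htred]; exact ht₁0) (by rw [htred]; exact ht₂0)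
    rw [htred] at h
    exact h
  have hD₁ν : ∀ j, (poleDiv HLt ht₁0) (N.ν₁ j) = 0 := by
    intro j
    obtain ⟨c, hc, h1, -⟩ := htν j
    rw [poleDiv_apply, ValAt.ord_eq_zero h1 hc]
    simp
  have hD₂ν : ∀ j, (poleDiv HLt ht₂0) (N.ν₂ j) = 0 := by
    intro j
    obtain ⟨c, hc, -, h2⟩ := htν j
    rw [poleDiv_apply, ValAt.ord_eq_zero h2 hc]
    simp
  -- degrees
  have hdeg : Divisor.degree (poleDiv HL ht0) ≤
      Divisor.degree (poleDiv HLt ht₁0) + Divisor.degree (poleDiv HLt ht₂0) :=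
    Fermat.Agent.ES.W33.DegLeN12.degree_le C.const_mem C.red_const hbc ⟨h01, hker⟩ hfin hfrac
      (tResV n e M' p hpM hb hnM A hA) t₂ ⟨htG, htred⟩ hxtt.transcendental ht₂ HL HLt ht0 ht₁0 ht₂0
  have hd : 0 < Divisor.degree (poleDiv HL ht0) := by
    rw [hPD.1]
    haveI := hxt.finiteDimensional
    exact_mod_cast (Module.finrank_pos (R := ↥Qbar⟮tN n e M' p hb hnM⟯) (M := ↥(Fbar (M' * p))))
  have hd₁ : 0 < Divisor.degree (poleDiv HLt ht₁0) := by
    rw [hPD₁.1]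
    haveI := hxtt.finiteDimensional
    exact_mod_cast (Module.finrank_pos (R := ↥(kA A)⟮tResV n e M' p hpM hb hnM A hA⟯)
      (M := Ft M' A))
  have hd₂ : 0 < Divisor.degree (poleDiv HLt ht₂0) := by
    haveI := Fermat.Agent.ES.W33.DegLowerN12.finiteDimensional_adjoin HLt ht₂ ht₂0
    have h2 := Fermat.Agent.ES.W33.DegLowerN12.finrank_le_degree_poleDiv HLt ht₂ ht₂0
    have h3 : (0 : ℤ) < (Module.finrank ↥(kA A)⟮t₂⟯ (Ft M' A) : ℤ) := by
      exact_mod_cast (Module.finrank_pos (R := ↥(kA A)⟮t₂⟯) (M := Ft M' A))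
    linarith
  -- the glued Čech vanishing
  obtain ⟨n₁, hn₁⟩ := cech_glued (N := N) HLt hRt HLt hRt hPD₁
    (Fermat.Agent.ES.V19.CechTw13.cechInj_poleDiv HLt ht₁0)
    (Fermat.Agent.ES.V19.CechTw13.cechInj_poleDiv HLt ht₂0) hd₁ hd₂ hνinj hD₁ν htν
  -- the count
  have htK0 : tK ≠ 0 := by
    rintro rfl
    rw [map_zero] at hbc
    exact ht0 hbc.symm
  have hPD' : HasPoleDivisor (baseChangeHom (M' * p) K tK) (poleDiv HL ht0) := by
    rw [hbc]; exact hPD
  refine Fermat.Agent.ES.W33.GenusCountLe17.genusFF_le_of_le N HL hR HLt hRt HLt hRt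
    (poleDiv HL ht0) (poleDiv HLt ht₁0) (poleDiv HLt ht₂0) _ _ hd hd₁ hd₂ hdeg rfl rfl
    hD₁ν hD₂ν n₁ (fun m hm => ?_) hs
  refine Fermat.Agent.ES.W33.CechLiftAsmN12.finrank_gluedL_le A (resA A)
    (fun c hc => (IsLocalRing.residue_eq_zero_iff c).mpr hc) (GN M' p A) C.const_mem
    (redN M' p A) C.red_const N (tN n e M' p hb hnM) (tResV n e M' p hpM hb hnM A hA) t₂
    ⟨htG, htred⟩ htν ht₁0 ht₂0 (M0 A (M' * p) K tK) (M01 A (M' * p) K tK)
    (M1 A (M' * p) K tK) h0 h1 h01 ?_ hFG hker ?_ ?_ ?_ HL (poleDiv HL ht0) ?_ HLt HLt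
    (poleDiv HLt ht₁0) (poleDiv HLt ht₂0)
    (Fermat.Agent.ES.V19.CechTw13.mem_L_nsmul_poleDiv_iff HLt ht₁0)
    (Fermat.Agent.ES.V19.CechTw13.mem_L_nsmul_poleDiv_iff HLt ht₂0) m (hn₁ m hm)
  · intro k x hx
    rw [← hbc]
    exact Fermat.Agent.ES.V19.GenericIncl12.pow_mul_mem_M1 A (M' * p) K tK htK0 k hx
  · intro f hf
    obtain ⟨x, hx0, hxG, hxred⟩ := hSurj.1 f hf
    exact ⟨x, hx0, hxred⟩
  · intro f hf
    obtain ⟨x, hx1, hxG, hxred⟩ := hSurj.2 f hf
    exact ⟨x, hx1, hxred⟩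
  · intro x hx
    exact hReg01 x hx (h01 x hx)
  · intro k x hx0 hx1
    exact Fermat.Agent.ES.V19.GenericIncl12.mem_L_of_mem_inf A (M' * p) K tK hPD' k hx0 hx1

end Fermat.Agent.ES.W33.GenusLeN12
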