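/-
Programme W (S33), chapter B1' (`h¹` of the Čech complex of the NODAL fibre), leaf (I1'), helper24:
**the twisted Čech `H¹` of the `A`-spans of the level-`K` charts of a NODAL two-chart model is
finitely generated.**

`V19/CechIface12.M0 / M1 / M01 / FGProp` are stated for an arbitrary level `M` and an arbitrary
`tK : FK M K` (the charts are the generic `ChartGeneric22.chart (A ∩ K) tK`, `chart (A ∩ K) tK⁻¹`),
and the abstract lemma `V19/CechFG24.fg_span` uses only the fields `t_ne t_mem tinv_mem fin0 ov1`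
of the model — which `ES/N34/NodalCore13.NodalTwoChartModel` has with the same literals.  Hence:

* `M1_le_M01_nodal` (overlap `ov0`),
* `fgProp_nodal : CechIface12.FGProp A M K tK`.

(For Programme N's charts `ModelDefs9.B0 A q ht = chart _ (tN q ht)`, `B1 A q ht = chart _ (tN q ht)⁻¹`
by `Iff.rfl`, cf. `ChartNInst26`.)
-/
import Mathlib
import Fermat.Agent.ES.V19.CechFG24
import Fermat.Agent.ES.N34.NodalCore13

set_option autoImplicit false
set_option linter.unusedSectionVars false
set_option synthInstance.maxHeartbeats 400000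
set_option maxHeartbeats 1000000

noncomputable section

namespace Fermat.Agent.ES.W33.CechFGN24

open ModularCurve Fermat.Agent.RED.Interface4 Fermat.Agent.RED.DESC.PlaceExtend27
  Fermat.Agent.RED.DESC Fermat.Agent.RED.PUR.ChartGeneric22 Fermat.Agent.RED.NumInst4
  Fermat.Agent.ES.RED.ChartUnion1 Fermat.Agent.ES.V19.CechIface12
  Fermat.Agent.ES.N34.NodalCore13

variable {A : ValuationSubring Qbar} {M : ℕ} [NeZero M] {K : IntermediateField ℚ Qbar}
  {tK : ↥(FK M K)} {ϖ : ↥(AK A K)} {O1 O2 : ValuationSubring ↥(FK M K)}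

/-- `M1 n ≤ M01` (overlap `ov0` of the nodal model). -/
theorem M1_le_M01_nodal
    (hm : NodalTwoChartModel ↥(AK A K) ↥(FK M K) ϖ tK (chart ↥(AK A K) tK)
      (chart ↥(AK A K) tK⁻¹) O1 O2)
    (n : ℕ) : M1 A M K tK n ≤ M01 A M K tK := by
  refine Submodule.span_mono (Set.image_mono fun f hf => ?_)
  obtain ⟨k, hk⟩ := hm.ov0 _ hf
  refine ⟨k, ?_⟩
  have h1 : tK ^ k * f = tK ^ n * (tK ^ k * (tK⁻¹ ^ n * f)) := by
    rw [inv_pow, mul_left_comm (tK ^ k), mul_inv_cancel_left₀ (pow_ne_zero n hm.t_ne)]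
  rw [h1]
  exact (chart ↥(AK A K) tK).mul_mem ((chart ↥(AK A K) tK).pow_mem hm.t_mem n) hk

/-- **(I1')** the twisted Čech `H¹` of the `A`-spans of the charts of a nodal two-chart model is
finitely generated, by elements of `M01`. -/
theorem fgProp_nodal
    (hm : NodalTwoChartModel ↥(AK A K) ↥(FK M K) ϖ tK (chart ↥(AK A K) tK)
      (chart ↥(AK A K) tK⁻¹) O1 O2) :
    FGProp A M K tK := fun n =>
  Fermat.Agent.ES.V19.CechFG24.fg_span (NumberFieldDVR27.incl A K) (baseChangeHom M K)
    (baseChangeHom_algebraMap_AK A M K)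
    tK hm.t_ne (chart ↥(AK A K) tK) (chart ↥(AK A K) tK⁻¹) hm.t_mem hm.tinv_mem hm.fin0 hm.ov1 n

end Fermat.Agent.ES.W33.CechFGN24
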