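/-
Programme W (S33), chapter B1', leaf (I2') — abstract core, helper24: `V19/KerCore24.ker_core` with the two Laurent-series
targets `κ((q))`, `k((q))` replaced by ABSTRACT coefficient rings `Sκ`, `Sk` carrying
`Φ : Sκ → Sk`, constants `cκ : κ → Sκ`, `ck : k → Sk` and, for every `κ`-linear functional
`ℓ : k → κ`, an additive "coordinate map" `C ℓ : Sk → Sκ` with `C ℓ (y * Φ a) = C ℓ y * a` and
`C ℓ (ck c) = cκ (ℓ c)`.  Instances: `κ((q))`, `k((q))` (`CoeffIndep22.coordMap`), and PRODUCTS of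
such (the pair of expansions at the two components of a nodal fibre).
-/
import Mathlib
import Fermat.Agent.ES.R48.CoeffIndep22

set_option autoImplicit false
set_option linter.unusedSectionVars false

noncomputable section

namespace Fermat.Agent.ES.W33.KerCoreGen24

open ModularCurve Fermat.Agent.ES.R48.CoeffIndep22

variable {R O G I κ k Sκ Sk : Type*} [CommRing R] [CommRing O] [IsLocalRing O] [CommRing G]
  [CommRing I] [Field κ] [Field k] [Algebra κ k] [CommRing Sκ] [CommRing Sk]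

/-- **The abstract kernel lemma.** -/
theorem ker_core (ι : R →+* O) (cR : R →+* G) (cO : O →+* I) (β : G →+* I)
    (resR : R →+* κ) (resO : O →+* k) (r : G →+* Sκ) (ρ : I →+* Sk)
    (Φ : Sκ →+* Sk) (cκ : κ →+* Sκ) (ck : k →+* Sk) (C : (k →ₗ[κ] κ) → Sk →+ Sκ)
    (hCmul : ∀ (ℓ : k →ₗ[κ] κ) (y : Sk) (a : Sκ), C ℓ (y * Φ a) = C ℓ y * a)
    (hCconst : ∀ (ℓ : k →ₗ[κ] κ) (c : k), C ℓ (ck c) = cκ (ℓ c))
    (B : Set G) (ϖ : R)
    (hβ : ∀ c : R, β (cR c) = cO (ι c))
    (hresR : Function.Surjective resR) (hunit : ∀ a : R, resR a ≠ 0 → IsUnit a)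
    (hresO : ∀ a : O, resO a = 0 ↔ a ∈ IsLocalRing.maximalIdeal O)
    (hϖ : ι ϖ ∈ IsLocalRing.maximalIdeal O)
    (hrC : ∀ c : R, r (cR c) = cκ (resR c))
    (hρC : ∀ a : O, ρ (cO a) = ck (resO a))
    (hρr : ∀ x : G, ρ (β x) = Φ (r x))
    (hB0 : (0 : G) ∈ B) (hBadd : ∀ x ∈ B, ∀ y ∈ B, x + y ∈ B)
    (hBsmul : ∀ (c : R), ∀ x ∈ B, cR c * x ∈ B)
    (hsat : ∀ x ∈ B, r x = 0 → ∃ y ∈ B, x = cR ϖ * y) :
    ∀ (n : ℕ) (a : Fin n → O) (x : Fin n → G), (∀ i, x i ∈ B) →
      ρ (∑ i, cO (a i) * β (x i)) = 0 →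
      ∃ (m : ℕ) (a' : Fin m → O) (y : Fin m → G),
        (∀ i, a' i ∈ IsLocalRing.maximalIdeal O) ∧ (∀ i, y i ∈ B) ∧
          ∑ i, cO (a i) * β (x i) = ∑ i, cO (a' i) * β (y i) := by
  classical
  intro n
  induction n with
  | zero =>
    intro a x _ _
    exact ⟨0, a, x, fun i => i.elim0, fun i => i.elim0, rfl⟩
  | succ n ih =>
    intro a x hx hρ0
    by_cases hall : ∀ i, a i ∈ IsLocalRing.maximalIdeal O
    · exact ⟨n + 1, a, x, hall, hx, rfl⟩
    push Not at hall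
    obtain ⟨j, hj⟩ := hall
    have hcj : resO (a j) ≠ 0 := fun h0 => hj ((hresO _).mp h0)
    -- a coordinate functional
    obtain ⟨ℓ, hℓ⟩ : ∃ ℓ : k →ₗ[κ] κ, ℓ (resO (a j)) ≠ 0 := by
      by_contra hcon
      push Not at hcon
      exact hcj ((Module.forall_dual_apply_eq_zero_iff κ (resO (a j))).mp hcon)
    -- the `k`-relation
    have hsum : ∑ i, ck (resO (a i)) * Φ (r (x i)) = 0 := by
      rw [← hρ0, map_sum]
      refine Finset.sum_congr rfl fun i _ => ?_
      rw [map_mul, hρC, hρr]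
    -- the `κ`-relation
    have hsumκ : ∑ i, cκ (ℓ (resO (a i))) * r (x i) = 0 := by
      have h1 := congrArg (C ℓ) hsum
      rw [map_sum, map_zero] at h1
      rw [← h1]
      refine Finset.sum_congr rfl fun i _ => ?_
      rw [hCmul, hCconst]
    -- lift the coefficients
    have hlift : ∀ i, ∃ e : R, resR e = ℓ (resO (a i)) := fun i => hresR _
    choose e he using hlift
    obtain ⟨u, hu⟩ : IsUnit (e j) := hunit (e j) (by rw [he]; exact hℓ)
    -- the combination `z`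
    have hz : ∑ i, cR (e i) * x i ∈ B :=
      Finset.sum_induction _ (· ∈ B) (fun p q hp hq => hBadd p hp q hq) hB0
        fun i _ => hBsmul _ _ (hx i)
    have hrz : r (∑ i, cR (e i) * x i) = 0 := by
      rw [map_sum, ← hsumκ]
      refine Finset.sum_congr rfl fun i _ => ?_
      rw [map_mul, hrC, he]
    obtain ⟨y, hy, hzy⟩ := hsat _ hz hrz
    -- solve for `x j`
    set S : G := ∑ i : Fin n, cR (e (j.succAbove i)) * x (j.succAbove i) with hS
    have hdec : cR (e j) * x j + S = cR ϖ * y := by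
      rw [← hzy, Fin.sum_univ_succAbove _ j]
    have hxj : x j = cR (↑u⁻¹ : R) * (cR ϖ * y - S) := by
      rw [← hdec, add_sub_cancel_right, ← mul_assoc, ← map_mul, ← hu, Units.inv_mul, map_one,
        one_mul]
    -- the new coefficients
    set v : O := a j * ι (↑u⁻¹ : R) with hv
    set S1 : I := ∑ i : Fin n, cO (a (j.succAbove i)) * β (x (j.succAbove i)) with hS1
    set S2 : I := ∑ i : Fin n, cO (ι (e (j.succAbove i))) * β (x (j.succAbove i)) with hS2
    have hβS : β S = S2 := by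
      rw [hS, map_sum]
      refine Finset.sum_congr rfl fun i _ => ?_
      rw [map_mul, hβ]
    have hf : ∑ i, cO (a i) * β (x i) =
        ∑ i : Fin n, cO (a (j.succAbove i) - v * ι (e (j.succAbove i))) * β (x (j.succAbove i)) +
          cO (v * ι ϖ) * β y := by
      have h1 : ∑ i : Fin n, cO (a (j.succAbove i) - v * ι (e (j.succAbove i))) *
          β (x (j.succAbove i)) = S1 - cO v * S2 := by
        rw [hS1, hS2, Finset.mul_sum, ← Finset.sum_sub_distrib]
        refine Finset.sum_congr rfl fun i _ => ?_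
        rw [map_sub, map_mul]
        ring
      rw [h1, Fin.sum_univ_succAbove _ j, ← hS1, hxj, map_mul, map_sub, map_mul, hβS, hβ, hβ,
        hv, map_mul, map_mul, map_mul]
      ring
    -- the extra term reduces to zero
    have hρg : ρ (cO (v * ι ϖ) * β y) = 0 := by
      rw [map_mul, hρC, map_mul, (hresO (ι ϖ)).mpr hϖ, mul_zero, map_zero, zero_mul]
    have hρf' : ρ (∑ i : Fin n, cO (a (j.succAbove i) - v * ι (e (j.succAbove i))) *
        β (x (j.succAbove i))) = 0 := by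
      have h2 := hρ0
      rw [hf, map_add, hρg, add_zero] at h2
      exact h2
    obtain ⟨m, a', y', ha', hy', hsum'⟩ := ih _ _ (fun i => hx _) hρf'
    refine ⟨m + 1, Fin.cons (v * ι ϖ) a', Fin.cons y y', ?_, ?_, ?_⟩
    · intro i
      refine Fin.cases ?_ (fun i => ?_) i
      · rw [Fin.cons_zero]
        exact Ideal.mul_mem_left _ _ hϖ
      · rw [Fin.cons_succ]
        exact ha' i
    · intro i
      refine Fin.cases ?_ (fun i => ?_) i
      · rw [Fin.cons_zero]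
        exact hy
      · rw [Fin.cons_succ]
        exact hy' i
    · rw [hf, hsum', Fin.sum_univ_succ, Fin.cons_zero, Fin.cons_zero, add_comm]
      congr 1

/-- **The pair version**: two expansions (the two components of a nodal special fibre). -/
theorem ker_core_pair {R O G I κ k : Type*} [CommRing R] [CommRing O] [IsLocalRing O] [CommRing G]
    [CommRing I] [Field κ] [Field k] [Algebra κ k]
    (ι : R →+* O) (cR : R →+* G) (cO : O →+* I) (β : G →+* I)
    (resR : R →+* κ) (resO : O →+* k)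
    (r₁ r₂ : G →+* LaurentSeries κ) (ρ₁ ρ₂ : I →+* LaurentSeries k)
    (B : Set G) (ϖ : R)
    (hβ : ∀ c : R, β (cR c) = cO (ι c))
    (hresR : Function.Surjective resR) (hunit : ∀ a : R, resR a ≠ 0 → IsUnit a)
    (hresO : ∀ a : O, resO a = 0 ↔ a ∈ IsLocalRing.maximalIdeal O)
    (hϖ : ι ϖ ∈ IsLocalRing.maximalIdeal O)
    (hrC₁ : ∀ c : R, r₁ (cR c) = algebraMap κ (LaurentSeries κ) (resR c))
    (hrC₂ : ∀ c : R, r₂ (cR c) = algebraMap κ (LaurentSeries κ) (resR c))
    (hρC₁ : ∀ a : O, ρ₁ (cO a) = algebraMap k (LaurentSeries k) (resO a))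
    (hρC₂ : ∀ a : O, ρ₂ (cO a) = algebraMap k (LaurentSeries k) (resO a))
    (hρr₁ : ∀ x : G, ρ₁ (β x) = coeffMap (algebraMap κ k) (r₁ x))
    (hρr₂ : ∀ x : G, ρ₂ (β x) = coeffMap (algebraMap κ k) (r₂ x))
    (hB0 : (0 : G) ∈ B) (hBadd : ∀ x ∈ B, ∀ y ∈ B, x + y ∈ B)
    (hBsmul : ∀ (c : R), ∀ x ∈ B, cR c * x ∈ B)
    (hsat : ∀ x ∈ B, r₁ x = 0 → r₂ x = 0 → ∃ y ∈ B, x = cR ϖ * y) :
    ∀ (n : ℕ) (a : Fin n → O) (x : Fin n → G), (∀ i, x i ∈ B) →
      ρ₁ (∑ i, cO (a i) * β (x i)) = 0 → ρ₂ (∑ i, cO (a i) * β (x i)) = 0 →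
      ∃ (m : ℕ) (a' : Fin m → O) (y : Fin m → G),
        (∀ i, a' i ∈ IsLocalRing.maximalIdeal O) ∧ (∀ i, y i ∈ B) ∧
          ∑ i, cO (a i) * β (x i) = ∑ i, cO (a' i) * β (y i) := by
  intro n a x hx h1 h2
  refine ker_core ι cR cO β resR resO (r₁.prod r₂) (ρ₁.prod ρ₂)
    ((coeffMap (algebraMap κ k)).prodMap (coeffMap (algebraMap κ k)))
    ((algebraMap κ (LaurentSeries κ)).prod (algebraMap κ (LaurentSeries κ)))
    ((algebraMap k (LaurentSeries k)).prod (algebraMap k (LaurentSeries k)))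
    (fun ℓ => (coordMap ℓ).prodMap (coordMap ℓ)) ?_ ?_ B ϖ hβ hresR hunit hresO hϖ ?_ ?_ ?_
    hB0 hBadd hBsmul ?_ n a x hx ?_
  · rintro ℓ ⟨y₁, y₂⟩ ⟨a₁, a₂⟩
    ext1
    · exact coordMap_mul_coeffMap ℓ y₁ a₁
    · exact coordMap_mul_coeffMap ℓ y₂ a₂
  · intro ℓ c
    ext1
    · exact coordMap_algebraMap ℓ c
    · exact coordMap_algebraMap ℓ c
  · intro c
    ext1
    · exact hrC₁ c
    · exact hrC₂ c
  · intro c
    ext1
    · exact hρC₁ c
    · exact hρC₂ c
  · intro y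
    ext1
    · exact hρr₁ y
    · exact hρr₂ y
  · intro y hy hr
    have h := Prod.ext_iff.mp hr
    exact hsat y hy h.1 h.2
  · ext1
    · exact h1
    · exact h2

end Fermat.Agent.ES.W33.KerCoreGen24
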