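/-
Programme W (S33), chapter B1' (`h¹` of the Čech complex of the NODAL fibre), leaf (I2'), helper24:
**the kernel of the PAIR reduction on `M₀₁ = A·B0_K[1/t]` is `𝔪_A • M₀₁`** — for the charts of a
nodal two-chart model (`ES/N34/NodalCore13.NodalTwoChartModel`) of `X₀(N)` whose two Gauss valuation
rings are those of the `q`-expansions at `∞` and at `0` (`ES/N34/ModelDefs9.O1`, `O2`).

Literals (all in terms of `q`-expansions; no function field of the special fibre occurs):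
* `e1 N f` : the expansion of `f ∈ Fbar N` at `∞`, `e2 N f := e1 N (W_N f)` its expansion at `0`
  (`W_N = FrickeFK8.frickeBar N`);
* `Gbar A N : Subring (Fbar N)` : both expansions lie in the Gauss ring `GaussGen8.gaussRing A` of
  `A` (fractions `a / s` of `A`-integral series, `s̃ ≠ 0`);
* `rho1 A N, rho2 A N : Gbar A N →+* k̄((q))` : the two reductions (`GaussGen8.gaussRed A`);
* `KerPropN A N K tK` : `M01 ≤ Gbar` and `rho1 f = 0 → rho2 f = 0 → f ∈ 𝔪_A • M01` on `M01`.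

`kerPropN` : from the nodal model at level `K` (fields `t_ne t_mem tinv_mem le_O*_0 tinv_mem_O* sat0`)
and the description of `O1`, `O2` by the two expansions.  Abstract core:
`KerCoreGen24.ker_core_pair`.
-/
import Mathlib
import Fermat.Agent.ES.RED.GaussUnit25
import Fermat.Agent.ES.RED.ChartIntegralA1
import Fermat.Agent.ES.V19.CechIface12
import Fermat.Agent.ES.N34.NodalCore13
import Fermat.Agent.ES.N34.FrickeFK8
import Fermat.Agent.ES.W33.KerCoreGen24

set_option autoImplicit false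
set_option linter.unusedSectionVars false
set_option linter.dupNamespace false
set_option linter.style.haveILetI false
set_option synthInstance.maxHeartbeats 400000

noncomputable section

namespace Fermat.Agent.ES.W33.KerPropN24

open ModularCurve Fermat.Agent.RED.Interface4 Fermat.Agent.RED.DESC.PlaceExtend27
  Fermat.Agent.RED.DESC Fermat.Agent.RED.DESC.NumberFieldDVR27
  Fermat.Agent.RED.PUR.ChartGeneric22 Fermat.Agent.RED.PUR.GaussGen8
  Fermat.Agent.ES.RED.ChartIntegralA1 Fermat.Agent.ES.RED.GaussUnit25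
  Fermat.Agent.ES.V19.CechIface12 Fermat.Agent.ES.N34.NodalCore13 Fermat.Agent.ES.N34.FrickeFK8

/-! ### The two expansions and the two reductions over `ℚ̄` -/

section Bar

variable (A : ValuationSubring Qbar) (N : ℕ) [NeZero N]

/-- the expansion at `∞`. -/
def e1 : ↥(Fbar N) →+* LaurentSeries Qbar := algebraMap ↥(Fbar N) (LaurentSeries Qbar)

/-- the expansion at `0`: the expansion at `∞` of the Fricke transform. -/
def e2 : ↥(Fbar N) →+* LaurentSeries Qbar := (e1 N).comp (frickeBar N).toRingHom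

theorem e2_apply (f : ↥(Fbar N)) : e2 N f = e1 N (frickeBar N f) := rfl

/-- functions whose two expansions lie in the Gauss ring of `A`. -/
def Gbar : Subring ↥(Fbar N) := (gaussRing A).comap (e1 N) ⊓ (gaussRing A).comap (e2 N)

theorem mem_Gbar_iff (f : ↥(Fbar N)) :
    f ∈ Gbar A N ↔ e1 N f ∈ gaussRing A ∧ e2 N f ∈ gaussRing A := Iff.rfl

/-- the reduction of the expansion at `∞`. -/
def rho1 : ↥(Gbar A N) →+* LaurentSeries (Res A) :=
  (gaussRed A).comp ((e1 N).restrict (Gbar A N) (gaussRing A) fun _ hf => hf.1)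

/-- the reduction of the expansion at `0`. -/
def rho2 : ↥(Gbar A N) →+* LaurentSeries (Res A) :=
  (gaussRed A).comp ((e2 N).restrict (Gbar A N) (gaussRing A) fun _ hf => hf.2)

theorem rho1_apply (f : ↥(Gbar A N)) : rho1 A N f = gaussRed A ⟨e1 N f, f.2.1⟩ := rfl

theorem rho2_apply (f : ↥(Gbar A N)) : rho2 A N f = gaussRed A ⟨e2 N f, f.2.2⟩ := rfl

/-- constants of `A` lie in `Gbar`. -/
theorem algebraMap_mem_Gbar (a : ↥A) : algebraMap Qbar ↥(Fbar N) (a : Qbar) ∈ Gbar A N := by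
  have h1 : e1 N (algebraMap Qbar ↥(Fbar N) (a : Qbar)) = HahnSeries.C (a : Qbar) := by
    show algebraMap Qbar (LaurentSeries Qbar) (a : Qbar) = _
    exact algebraMap_eq_C _
  refine ⟨?_, ?_⟩
  · show e1 N _ ∈ gaussRing A
    rw [h1]; exact C_mem A a
  · show e2 N _ ∈ gaussRing A
    rw [e2_apply, (frickeBar N).commutes, h1]; exact C_mem A a

/-- constants, as a ring homomorphism `A → Gbar`. -/
def constBar : ↥A →+* ↥(Gbar A N) :=
  ((algebraMap Qbar ↥(Fbar N)).comp A.subtype).codRestrict (Gbar A N)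
    fun a => algebraMap_mem_Gbar A N a

theorem coe_constBar (a : ↥A) :
    ((constBar A N a : ↥(Gbar A N)) : ↥(Fbar N)) = algebraMap Qbar ↥(Fbar N) (a : Qbar) := rfl

theorem rho1_constBar (a : ↥A) :
    rho1 A N (constBar A N a) = algebraMap (Res A) (LaurentSeries (Res A)) (res0 A a) := by
  rw [rho1_apply, algebraMap_eq_C, ← gaussRed_constG]
  congr 1
  apply Subtype.ext
  show algebraMap Qbar (LaurentSeries Qbar) (a : Qbar) = _
  exact algebraMap_eq_C _

theorem rho2_constBar (a : ↥A) :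
    rho2 A N (constBar A N a) = algebraMap (Res A) (LaurentSeries (Res A)) (res0 A a) := by
  rw [rho2_apply, algebraMap_eq_C, ← gaussRed_constG]
  congr 1
  apply Subtype.ext
  show e1 N (frickeBar N (algebraMap Qbar ↥(Fbar N) (a : Qbar))) = _
  rw [(frickeBar N).commutes]
  show algebraMap Qbar (LaurentSeries Qbar) (a : Qbar) = _
  exact algebraMap_eq_C _

end Bar

/-! ### Coefficient extension of the Gauss ring, `A ∩ K → A` -/

section GaussMap

variable (A : ValuationSubring Qbar) (K : IntermediateField ℚ Qbar)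

/-- a representation over `A ∩ K` gives one over `A`. -/
theorem isRep_coeffMap {y : LaurentSeries K} {a s : LaurentSeries ↥(AK A K)}
    (h : IsRep (AK A K) y a s) :
    IsRep A (coeffMap (algebraMap K Qbar) y) (coeffMap (incl A K) a) (coeffMap (incl A K) s) := by
  refine ⟨?_, ?_⟩
  · show coeffMap (res0 A) (coeffMap (incl A K) s) ≠ 0
    rw [coeffMap_residue_incl]
    intro h0
    apply h.1
    have hinj : Function.Injective (coeffMap (resMap A K)) := by
      intro x y hxy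
      ext n
      have h3 := congrArg (fun z : LaurentSeries (Res A) => z.coeff n) hxy
      exact resMap_injective A K (by simpa using h3)
    exact hinj (by rw [h0, map_zero])
  · show _ * coeffMap A.subtype (coeffMap (incl A K) s) = coeffMap A.subtype (coeffMap (incl A K) a)
    rw [coeffMap_subtype_incl, coeffMap_subtype_incl, ← map_mul, h.2]

theorem coeffMap_mem_gaussRing {y : LaurentSeries K} (hy : y ∈ gaussRing (AK A K)) :
    coeffMap (algebraMap K Qbar) y ∈ gaussRing A := by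
  obtain ⟨a, s, h⟩ := hy
  exact ⟨_, _, isRep_coeffMap A K h⟩

/-- the reduction commutes with the coefficient extension. -/
theorem gaussRed_coeffMap {y : LaurentSeries K} (hy : y ∈ gaussRing (AK A K)) :
    gaussRed A ⟨coeffMap (algebraMap K Qbar) y, coeffMap_mem_gaussRing A K hy⟩ =
      coeffMap (resMap A K) (gaussRed (AK A K) ⟨y, hy⟩) := by
  obtain ⟨a, s, h⟩ := hy
  rw [gaussRed_eq A (f := ⟨coeffMap (algebraMap K Qbar) y, _⟩) (isRep_coeffMap A K h),
    gaussRed_eq (AK A K) (f := ⟨y, _⟩) h, map_div₀]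
  show coeffMap (res0 A) (coeffMap (incl A K) a) / coeffMap (res0 A) (coeffMap (incl A K) s) = _
  rw [coeffMap_residue_incl, coeffMap_residue_incl]

end GaussMap

/-! ### Level `K` -/

section Level

variable (A : ValuationSubring Qbar) (N : ℕ) [NeZero N] (K : IntermediateField ℚ Qbar)

/-- level-`K` functions whose two expansions lie in the Gauss ring of `A ∩ K` (`= O1 ⊓ O2`). -/
def GK : Subring ↥(FK N K) :=
  (gaussRing (AK A K)).comap (FK N K).val.toRingHom ⊓ (gaussRing (AK A K)).comap (iotaTwo N K)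

/-- reduction of the expansion at `∞`, level `K`. -/
def r1 : ↥(GK A N K) →+* LaurentSeries (Res (AK A K)) :=
  (gaussRed (AK A K)).comp
    ((FK N K).val.toRingHom.restrict (GK A N K) (gaussRing (AK A K)) fun _ hf => hf.1)

/-- reduction of the expansion at `0`, level `K`. -/
def r2 : ↥(GK A N K) →+* LaurentSeries (Res (AK A K)) :=
  (gaussRed (AK A K)).comp
    ((iotaTwo N K).restrict (GK A N K) (gaussRing (AK A K)) fun _ hf => hf.2)

theorem r1_apply (x : ↥(GK A N K)) :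
    r1 A N K x = gaussRed (AK A K) ⟨((x : ↥(FK N K)) : LaurentSeries K), x.2.1⟩ := rfl

theorem r2_apply (x : ↥(GK A N K)) :
    r2 A N K x = gaussRed (AK A K) ⟨iotaTwo N K (x : ↥(FK N K)), x.2.2⟩ := rfl

theorem e1_baseChangeHom (x : ↥(FK N K)) :
    e1 N (baseChangeHom N K x) = coeffMap (algebraMap K Qbar) (x : LaurentSeries K) := rfl

theorem e2_baseChangeHom (x : ↥(FK N K)) :
    e2 N (baseChangeHom N K x) = coeffMap (algebraMap K Qbar) (iotaTwo N K x) := by
  rw [e2_apply, ← baseChangeHom_frickeFK, e1_baseChangeHom, iotaTwo_apply]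

theorem baseChangeHom_mem_Gbar {x : ↥(FK N K)} (hx : x ∈ GK A N K) :
    baseChangeHom N K x ∈ Gbar A N := by
  refine ⟨?_, ?_⟩
  · show e1 N _ ∈ gaussRing A
    rw [e1_baseChangeHom]; exact coeffMap_mem_gaussRing A K hx.1
  · show e2 N _ ∈ gaussRing A
    rw [e2_baseChangeHom]; exact coeffMap_mem_gaussRing A K hx.2

/-- base change `GK → Gbar`. -/
def beta : ↥(GK A N K) →+* ↥(Gbar A N) :=
  ((baseChangeHom N K).comp (GK A N K).subtype).codRestrict (Gbar A N)
    fun x => baseChangeHom_mem_Gbar A N K x.2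

theorem coe_beta (x : ↥(GK A N K)) :
    ((beta A N K x : ↥(Gbar A N)) : ↥(Fbar N)) = baseChangeHom N K (x : ↥(FK N K)) := rfl

theorem rho1_beta (x : ↥(GK A N K)) :
    rho1 A N (beta A N K x) = coeffMap (resMap A K) (r1 A N K x) := by
  exact gaussRed_coeffMap A K (y := ((x : ↥(FK N K)) : LaurentSeries K)) x.2.1

theorem rho2_beta (x : ↥(GK A N K)) :
    rho2 A N (beta A N K x) = coeffMap (resMap A K) (r2 A N K x) := by
  have h := gaussRed_coeffMap A K (y := iotaTwo N K (x : ↥(FK N K))) x.2.2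
  have key : (⟨e2 N ((beta A N K x : ↥(Gbar A N)) : ↥(Fbar N)), (beta A N K x).2.2⟩ :
      ↥(gaussRing A)) = ⟨coeffMap (algebraMap K Qbar) (iotaTwo N K (x : ↥(FK N K))),
        coeffMap_mem_gaussRing A K x.2.2⟩ := Subtype.ext (e2_baseChangeHom N K _)
  rw [rho2_apply, key]
  exact h

/-- constants of `A ∩ K` lie in `GK`. -/
theorem algebraMap_mem_GK (c : ↥(AK A K)) : algebraMap ↥(AK A K) ↥(FK N K) c ∈ GK A N K := by
  refine ⟨?_, ?_⟩
  · show ((algebraMap ↥(AK A K) ↥(FK N K) c : ↥(FK N K)) : LaurentSeries K) ∈ gaussRing (AK A K)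
    have : ((algebraMap ↥(AK A K) ↥(FK N K) c : ↥(FK N K)) : LaurentSeries K) =
        HahnSeries.C ((c : ↥(AK A K)) : K) := by
      show algebraMap K (LaurentSeries K) ((c : ↥(AK A K)) : K) = _
      exact algebraMap_eq_C _
    rw [this]; exact C_mem (AK A K) c
  · show iotaTwo N K (algebraMap ↥(AK A K) ↥(FK N K) c) ∈ gaussRing (AK A K)
    have : iotaTwo N K (algebraMap ↥(AK A K) ↥(FK N K) c) = HahnSeries.C ((c : ↥(AK A K)) : K) := by
      have h1 : algebraMap ↥(AK A K) ↥(FK N K) c = algebraMap K ↥(FK N K) ((c : ↥(AK A K)) : K) :=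
        rfl
      rw [h1, iotaTwo_algebraMap]
    rw [this]; exact C_mem (AK A K) c

/-- constants, as a ring homomorphism `A ∩ K → GK`. -/
def constK : ↥(AK A K) →+* ↥(GK A N K) :=
  (algebraMap ↥(AK A K) ↥(FK N K)).codRestrict (GK A N K) fun c => algebraMap_mem_GK A N K c

theorem coe_constK (c : ↥(AK A K)) :
    ((constK A N K c : ↥(GK A N K)) : ↥(FK N K)) = algebraMap ↥(AK A K) ↥(FK N K) c := rfl

theorem beta_constK (c : ↥(AK A K)) :
    beta A N K (constK A N K c) = constBar A N (incl A K c) := by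
  apply Subtype.ext
  rw [coe_beta, coe_constK, coe_constBar]
  exact baseChangeHom_algebraMap N K ((c : ↥(AK A K)) : K)

theorem r1_constK (c : ↥(AK A K)) :
    r1 A N K (constK A N K c) =
      algebraMap (Res (AK A K)) (LaurentSeries (Res (AK A K))) (res0 (AK A K) c) := by
  rw [r1_apply, algebraMap_eq_C, ← gaussRed_constG]
  congr 1
  apply Subtype.ext
  show algebraMap K (LaurentSeries K) ((c : ↥(AK A K)) : K) = _
  exact algebraMap_eq_C _

theorem r2_constK (c : ↥(AK A K)) :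
    r2 A N K (constK A N K c) =
      algebraMap (Res (AK A K)) (LaurentSeries (Res (AK A K))) (res0 (AK A K) c) := by
  rw [r2_apply, algebraMap_eq_C, ← gaussRed_constG]
  congr 1
  apply Subtype.ext
  show iotaTwo N K (algebraMap K ↥(FK N K) ((c : ↥(AK A K)) : K)) = _
  rw [iotaTwo_algebraMap]
  rfl

end Level

/-! ### The kernel property -/

section Main

variable (A : ValuationSubring Qbar) (N : ℕ) [NeZero N] (K : IntermediateField ℚ Qbar)
  (tK : ↥(FK N K))

/-- **(I2')** `M₀₁ ⊆ Gbar`, and an element of `M₀₁` whose two reductions vanish lies in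
`𝔪_A • M₀₁`. -/
def KerPropN : Prop :=
  ∃ h01 : ∀ f ∈ M01 A N K tK, f ∈ Gbar A N,
    ∀ (f : ↥(Fbar N)) (hf : f ∈ M01 A N K tK),
      rho1 A N ⟨f, h01 f hf⟩ = 0 → rho2 A N ⟨f, h01 f hf⟩ = 0 →
        f ∈ IsLocalRing.maximalIdeal ↥A • M01 A N K tK

/-- the elements of `B0_K[1/t]`, inside `GK`. -/
def setB : Set ↥(GK A N K) :=
  {x | ∃ k : ℕ, tK ^ k * (x : ↥(FK N K)) ∈ chart ↥(AK A K) tK}

variable {A N K tK}
variable {ϖ : ↥(AK A K)} {O1 O2 : ValuationSubring ↥(FK N K)}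

/-- `B0_K[1/t] ⊆ O1 ⊓ O2 = GK`. -/
theorem mem_GK_of_chart
    (hm : NodalTwoChartModel ↥(AK A K) ↥(FK N K) ϖ tK (chart ↥(AK A K) tK)
      (chart ↥(AK A K) tK⁻¹) O1 O2)
    (hO1 : ∀ x : ↥(FK N K), x ∈ O1 ↔ (x : LaurentSeries K) ∈ gaussRing (AK A K))
    (hO2 : ∀ x : ↥(FK N K), x ∈ O2 ↔ iotaTwo N K x ∈ gaussRing (AK A K))
    {x : ↥(FK N K)} (hx : ∃ k : ℕ, tK ^ k * x ∈ chart ↥(AK A K) tK) : x ∈ GK A N K := by
  obtain ⟨k, hk⟩ := hx
  have hxe : x = tK⁻¹ ^ k * (tK ^ k * x) := by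
    rw [inv_pow, inv_mul_cancel_left₀ (pow_ne_zero k hm.t_ne)]
  refine ⟨?_, ?_⟩
  · show ((x : ↥(FK N K)) : LaurentSeries K) ∈ gaussRing (AK A K)
    rw [← hO1, hxe]
    exact O1.mul_mem _ _ (pow_mem hm.tinv_mem_O1 k) (hm.le_O1_0 _ hk)
  · show iotaTwo N K x ∈ gaussRing (AK A K)
    rw [← hO2, hxe]
    exact O2.mul_mem _ _ (pow_mem hm.tinv_mem_O2 k) (hm.le_O2_0 _ hk)

theorem setB_zero : (0 : ↥(GK A N K)) ∈ setB A N K tK :=
  ⟨0, by rw [Subring.coe_zero, mul_zero]; exact zero_mem _⟩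

theorem setB_add (ht : tK ∈ chart ↥(AK A K) tK) {z w : ↥(GK A N K)}
    (hz : z ∈ setB A N K tK) (hw : w ∈ setB A N K tK) : z + w ∈ setB A N K tK := by
  obtain ⟨k, hk⟩ := hz
  obtain ⟨l, hl⟩ := hw
  refine ⟨k + l, ?_⟩
  have h1 : tK ^ (k + l) * ((z + w : ↥(GK A N K)) : ↥(FK N K)) =
      tK ^ l * (tK ^ k * (z : ↥(FK N K))) + tK ^ k * (tK ^ l * (w : ↥(FK N K))) := by
    rw [Subring.coe_add, pow_add]; ring
  rw [h1]
  exact add_mem (mul_mem (pow_mem ht l) hk) (mul_mem (pow_mem ht k) hl)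

theorem setB_smul (c : ↥(AK A K)) {z : ↥(GK A N K)} (hz : z ∈ setB A N K tK) :
    constK A N K c * z ∈ setB A N K tK := by
  obtain ⟨k, hk⟩ := hz
  refine ⟨k, ?_⟩
  rw [Subring.coe_mul, coe_constK, mul_left_comm]
  exact mul_mem (Subalgebra.algebraMap_mem _ c) hk

/-- **Saturation** of `B0_K[1/t]` in `O1 ⊓ O2`, in reduction form. -/
theorem setB_sat (hu : IsUnif (AK A K) ϖ)
    (hm : NodalTwoChartModel ↥(AK A K) ↥(FK N K) ϖ tK (chart ↥(AK A K) tK)
      (chart ↥(AK A K) tK⁻¹) O1 O2)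
    (hO1 : ∀ x : ↥(FK N K), x ∈ O1 ↔ (x : LaurentSeries K) ∈ gaussRing (AK A K))
    (hO2 : ∀ x : ↥(FK N K), x ∈ O2 ↔ iotaTwo N K x ∈ gaussRing (AK A K))
    {z : ↥(GK A N K)} (hz : z ∈ setB A N K tK) (h1 : r1 A N K z = 0) (h2 : r2 A N K z = 0) :
    ∃ y ∈ setB A N K tK, z = constK A N K ϖ * y := by
  obtain ⟨k, hk⟩ := hz
  have hϖ0 : algebraMap ↥(AK A K) ↥(FK N K) ϖ ≠ 0 := hm.pi_ne
  obtain ⟨w, hzw⟩ : ∃ w : ↥(FK N K), (z : ↥(FK N K)) = algebraMap ↥(AK A K) ↥(FK N K) ϖ * w :=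
    ⟨(algebraMap ↥(AK A K) ↥(FK N K) ϖ)⁻¹ * (z : ↥(FK N K)), by rw [mul_inv_cancel_left₀ hϖ0]⟩
  have hC0 : (HahnSeries.C ((ϖ : ↥(AK A K)) : K) : LaurentSeries K) ≠ 0 := by
    intro h0
    have h3 := congrArg (fun s : LaurentSeries K => s.coeff 0) h0
    simp only [HahnSeries.C_apply, HahnSeries.coeff_single_same, HahnSeries.coeff_zero] at h3
    exact hu.ne_zero (Subtype.ext h3)
  have hcoeϖ : ((algebraMap ↥(AK A K) ↥(FK N K) ϖ : ↥(FK N K)) : LaurentSeries K) =
      HahnSeries.C ((ϖ : ↥(AK A K)) : K) := by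
    show algebraMap K (LaurentSeries K) ((ϖ : ↥(AK A K)) : K) = _
    exact algebraMap_eq_C _
  have hiotaϖ : iotaTwo N K (algebraMap ↥(AK A K) ↥(FK N K) ϖ) =
      HahnSeries.C ((ϖ : ↥(AK A K)) : K) := by
    have h4 : algebraMap ↥(AK A K) ↥(FK N K) ϖ = algebraMap K ↥(FK N K) ((ϖ : ↥(AK A K)) : K) :=
      rfl
    rw [h4, iotaTwo_algebraMap]
  -- `w ∈ O1`
  have hw1 : w ∈ O1 := by
    rw [hO1]
    obtain ⟨g, hg⟩ := (gaussRed_eq_zero_iff hu ⟨((z : ↥(FK N K)) : LaurentSeries K), z.2.1⟩).mp h1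
    have hg' : ((z : ↥(FK N K)) : LaurentSeries K) =
        HahnSeries.C ((ϖ : ↥(AK A K)) : K) * (g : LaurentSeries K) :=
      congrArg Subtype.val hg
    have h5 : ((w : ↥(FK N K)) : LaurentSeries K) = (g : LaurentSeries K) := by
      apply mul_left_cancel₀ hC0
      rw [← hg', hzw]
      show _ = ((algebraMap ↥(AK A K) ↥(FK N K) ϖ : ↥(FK N K)) : LaurentSeries K) *
        ((w : ↥(FK N K)) : LaurentSeries K)
      rw [hcoeϖ]
    rw [h5]; exact g.2
  -- `w ∈ O2`
  have hw2 : w ∈ O2 := by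
    rw [hO2]
    obtain ⟨g, hg⟩ := (gaussRed_eq_zero_iff hu ⟨iotaTwo N K (z : ↥(FK N K)), z.2.2⟩).mp h2
    have hg' : iotaTwo N K (z : ↥(FK N K)) =
        HahnSeries.C ((ϖ : ↥(AK A K)) : K) * (g : LaurentSeries K) :=
      congrArg Subtype.val hg
    have h5 : iotaTwo N K w = (g : LaurentSeries K) := by
      apply mul_left_cancel₀ hC0
      rw [← hg', hzw, map_mul, hiotaϖ]
    rw [h5]; exact g.2
  have hwchart : tK ^ k * w ∈ chart ↥(AK A K) tK := by
    refine hm.sat0 (tK ^ k * (z : ↥(FK N K))) hk (tK ^ k * w) ?_ ?_ ?_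
    · exact O1.mul_mem _ _ (pow_mem (hm.le_O1_0 _ hm.t_mem) k) hw1
    · exact O2.mul_mem _ _ (pow_mem (hm.le_O2_0 _ hm.t_mem) k) hw2
    · rw [hzw, mul_left_comm]
  have hwG : w ∈ GK A N K := mem_GK_of_chart hm hO1 hO2 ⟨k, hwchart⟩
  refine ⟨⟨w, hwG⟩, ⟨k, hwchart⟩, Subtype.ext ?_⟩
  rw [Subring.coe_mul, coe_constK]
  exact hzw

/-- every element of `M01` is the value of a combination in `Gbar`. -/
theorem exists_comb
    (hm : NodalTwoChartModel ↥(AK A K) ↥(FK N K) ϖ tK (chart ↥(AK A K) tK)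
      (chart ↥(AK A K) tK⁻¹) O1 O2)
    (hO1 : ∀ x : ↥(FK N K), x ∈ O1 ↔ (x : LaurentSeries K) ∈ gaussRing (AK A K))
    (hO2 : ∀ x : ↥(FK N K), x ∈ O2 ↔ iotaTwo N K x ∈ gaussRing (AK A K))
    {f : ↥(Fbar N)} (hf : f ∈ M01 A N K tK) :
    ∃ (n : ℕ) (a : Fin n → ↥A) (x : Fin n → ↥(GK A N K)), (∀ i, x i ∈ setB A N K tK) ∧
      f = ((∑ i, constBar A N (a i) * beta A N K (x i) : ↥(Gbar A N)) : ↥(Fbar N)) := by
  obtain ⟨n, a, g, rfl⟩ := Submodule.mem_span_set'.mp hf
  have hg : ∀ i, ∃ x : ↥(FK N K), (∃ k : ℕ, tK ^ k * x ∈ chart ↥(AK A K) tK) ∧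
      baseChangeHom N K x = (g i : ↥(Fbar N)) := fun i => (g i).2
  choose x hx hxg using hg
  refine ⟨n, a, fun i => ⟨x i, mem_GK_of_chart hm hO1 hO2 (hx i)⟩, fun i => hx i, ?_⟩
  rw [AddSubmonoidClass.coe_finsetSum]
  refine Finset.sum_congr rfl fun i _ => ?_
  rw [Subring.coe_mul, coe_constBar, coe_beta, ← hxg i]
  rfl

/-- **(I2')** for the charts of a nodal two-chart model whose Gauss valuation rings are those of
the expansions at `∞` and at `0`. -/
theorem kerPropN (hu : IsUnif (AK A K) ϖ)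
    (hm : NodalTwoChartModel ↥(AK A K) ↥(FK N K) ϖ tK (chart ↥(AK A K) tK)
      (chart ↥(AK A K) tK⁻¹) O1 O2)
    (hO1 : ∀ x : ↥(FK N K), x ∈ O1 ↔ (x : LaurentSeries K) ∈ gaussRing (AK A K))
    (hO2 : ∀ x : ↥(FK N K), x ∈ O2 ↔ iotaTwo N K x ∈ gaussRing (AK A K)) :
    KerPropN A N K tK := by
  classical
  have h01 : ∀ f ∈ M01 A N K tK, f ∈ Gbar A N := by
    intro f hf
    obtain ⟨n, a, x, -, rfl⟩ := exists_comb hm hO1 hO2 hf
    exact Subtype.property _
  refine ⟨h01, fun f hf hρ1 hρ2 => ?_⟩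
  obtain ⟨n, a, x, hxB, hfx⟩ := exists_comb hm hO1 hO2 hf
  have hsub : (⟨f, h01 f hf⟩ : ↥(Gbar A N)) = ∑ i, constBar A N (a i) * beta A N K (x i) :=
    Subtype.ext hfx
  rw [hsub] at hρ1 hρ2
  letI : Algebra (Res (AK A K)) (Res A) := (resMap A K).toAlgebra
  have hϖA : incl A K ϖ ∈ IsLocalRing.maximalIdeal ↥A := by
    have h1 : IsLocalRing.residue ↥(AK A K) ϖ = 0 := res0_unif hu
    rw [← IsLocalRing.residue_eq_zero_iff, ← resMap_residue, h1, map_zero]
  obtain ⟨m, a', y, ha', hy, hsum⟩ :=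
    Fermat.Agent.ES.W33.KerCoreGen24.ker_core_pair (incl A K) (constK A N K) (constBar A N)
      (beta A N K) (IsLocalRing.residue ↥(AK A K)) (IsLocalRing.residue ↥A)
      (r1 A N K) (r2 A N K) (rho1 A N) (rho2 A N) (setB A N K tK) ϖ
      (fun c => beta_constK A N K c)
      IsLocalRing.residue_surjective
      (fun c hc => (IsLocalRing.residue_ne_zero_iff_isUnit c).mp hc)
      (fun c => IsLocalRing.residue_eq_zero_iff c) hϖA
      (fun c => r1_constK A N K c) (fun c => r2_constK A N K c)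
      (fun c => rho1_constBar A N c) (fun c => rho2_constBar A N c)
      (fun z => rho1_beta A N K z) (fun z => rho2_beta A N K z)
      setB_zero (fun z hz w hw => setB_add hm.t_mem hz hw)
      (fun c z hz => setB_smul c hz)
      (fun z hz h1 h2 => setB_sat hu hm hO1 hO2 hz h1 h2)
      n a x hxB hρ1 hρ2
  have hfin : f = ∑ i, a' i • baseChangeHom N K ((y i : ↥(GK A N K)) : ↥(FK N K)) := by
    rw [hfx, hsum, AddSubmonoidClass.coe_finsetSum]
    refine Finset.sum_congr rfl fun i _ => ?_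
    rw [Subring.coe_mul, coe_constBar, coe_beta]
    rfl
  rw [hfin]
  refine Submodule.sum_mem _ fun i _ => ?_
  exact Submodule.smul_mem_smul (ha' i) (Submodule.subset_span ⟨_, hy i, rfl⟩)

end Main

end Fermat.Agent.ES.W33.KerPropN24
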