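/-
Programme W (S33), chapter B1′ (helper17's plan, `h¹` of the twisted Čech complex of the NODAL
fibre), leaf **(M3) `Reg01PropN`**, helper13: the pair reduction of an element of
`M₀₁ = A·B0_K[1/t_K]` (level `M' p`) is regular on each component wherever `t̃_i` and `t̃_i⁻¹`
are, and GLUED at every node.

NOTE (vocabulary): with `NodalDefs3.rho2 = rho1 ∘ W_{M' p}` the second coordinate of `t` is
`t̃₂ = c̄ · (W̃_{M'} t̃)^p`, NOT `t̃^p`; all statements here are w.r.t. the two coordinates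
`t̃₁ := (redN t).1`, `t̃₂ := (redN t).2` of the reduction of `t` itself.

ABSTRACT PART (any `RedCtxN A π N G red r`, any `t f : G` with `t ^ m * f ∈ chart A t`):
* `reg01_comp`  : one component `ρ : G →+* Ft` which is `π` on the constants of `A`:
  `ρ t ≠ 0 → Reg01 k (ρ t) (ρ f)`   (`ChartFacts9.ord_red_nonneg_of_mem_chart`);
* `ord_nonneg_of_pow_mul_mem_chart` : `ord_P t = 0 → 0 ≤ ord_P f`  (`ChartFacts9.ord_nonneg_of_mem_chart`);
* `reg01_glued` : `Reg01 k (red t).1 (red f).1 ∧ Reg01 k (red t).2 (red f).2 ∧ ∀ j, N.GluedAt (red f) j`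
  if `t` is a unit of `G`-reduction on both components and `ord_P t = 0` at every place of a node
  disc (`RedCtxN.glue`).

INSTANCE (`NodalDefs3`): **`reg01PropN`** from the NAMED hypotheses
  `C    : NodalRedCtx n e M' p hpM hb hnM A hA`                              (B3′),
  `hbc  : baseChangeHom (M' * p) K tK = tN n e M' p hb hnM`                  (choice of `tK`),
  `h01  : ∀ f ∈ M01 A (M' * p) K tK, f ∈ GN M' p A`                          (B3′ / (M2)),
  `hnode: ∀ P j, rN … P = Sum.inr j → P.ord (tN …) = 0`                      (B3′: the zeros and poles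
                                                   of `t` are cusps, cusps reduce to smooth points).
-/
import Mathlib
import Fermat.Agent.ES.V19.Reg01Prop13
import Fermat.Agent.ES.RED.ChartFacts9
import Fermat.Agent.ES.W33.NodalDefs3

set_option autoImplicit false
set_option linter.unusedSectionVars false
set_option synthInstance.maxHeartbeats 400000

open AlgebraicCurve ModularCurve IntermediateField HahnSeries

noncomputable section

namespace Fermat.Agent.ES.W33.Reg01PropN13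

open Fermat.Agent.RED.Interface4 Fermat.Agent.RED.DESC.PlaceExtend27
  Fermat.Agent.RED.PUR.ChartGeneric22
  Fermat.Agent.ES.V19.CechIface12 Fermat.Agent.RED.BASE.Interface12
  Fermat.Agent.X0.FF Fermat.Agent.ES.W33.XiIfaceN29

/-! ### abstract part -/

section Abstract

variable {K F k : Type*} [Field K] [Field F] [Algebra K F] [Field k]

/-- `A[t] ⊆ G` as soon as `t ∈ G` and the constants of `A` are in `G`. -/
theorem adjoin_le_of_mem (A : ValuationSubring K) (G : Subring F)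
    (hcm : ∀ a : ↥A, algebraMap K F (a : K) ∈ G) (t : ↥G) :
    ∀ c ∈ Algebra.adjoin ↥A {(t : F)}, c ∈ G := by
  intro c hc
  induction hc using Algebra.adjoin_induction with
  | mem y hy =>
    rw [Set.mem_singleton_iff] at hy
    rw [hy]
    exact t.2
  | algebraMap a => exact hcm a
  | add y z _ _ hy hz => exact add_mem hy hz
  | mul y z _ _ hy hz => exact mul_mem hy hz

/-- **one component**: if `ρ : G →+* Ft` is `res` on the constants of `A` and `t ^ m * f` lies in
the chart ring `chart A t`, then `ρ f` is regular wherever `ρ t` and `(ρ t)⁻¹` are. -/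
theorem reg01_comp {Ft : Type*} [Field Ft] [Algebra k Ft]
    (A : ValuationSubring K) (res : ↥A →+* k) (G : Subring F) (ρ : ↥G →+* Ft)
    (hcm : ∀ a : ↥A, algebraMap K F (a : K) ∈ G)
    (hconst : ∀ (a : ↥A) (h : algebraMap K F (a : K) ∈ G),
      ρ ⟨algebraMap K F (a : K), h⟩ = algebraMap k Ft (res a))
    (t f : ↥G) (ht0 : ρ t ≠ 0) (m : ℕ)
    (hm : (t : F) ^ m * (f : F) ∈ chart ↥A (t : F)) :
    Reg01 k (ρ t) (ρ f) := by
  intro P hP hPi
  have h1 : 0 ≤ P.ord (ρ (t ^ m * f)) :=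
    Fermat.Agent.ES.RED.ChartFacts9.ord_red_nonneg_of_mem_chart A res G ρ t
      (adjoin_le_of_mem A G hcm t) hconst P ((ffp_mem_iff_ord_nonneg P).1 hP) (t ^ m * f) hm
  rw [← ffp_mem_iff_ord_nonneg, map_mul, map_pow] at h1
  have h2 : ρ f = (ρ t)⁻¹ ^ m * (ρ t ^ m * ρ f) := by
    rw [← mul_assoc, ← mul_pow, inv_mul_cancel₀ ht0, one_pow, one_mul]
  rw [h2]
  exact mul_mem (pow_mem hPi m) h1

/-- at a place where `t ≠ 0` has neither a zero nor a pole, `f` is regular as soon as `t ^ m * f`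
lies in the chart ring `chart A t`. -/
theorem ord_nonneg_of_pow_mul_mem_chart (A : ValuationSubring K) (P : Place K F) {t f : F}
    (ht0 : t ≠ 0) (ht : P.ord t = 0) (m : ℕ) (hm : t ^ m * f ∈ chart ↥A t) : 0 ≤ P.ord f := by
  have h1 : t ^ m * f ∈ P.toValuationSubring :=
    Fermat.Agent.ES.RED.ChartFacts9.mem_place_of_mem_chart A P ht.ge hm
  have hti : t⁻¹ ∈ P.toValuationSubring := by
    rw [ffp_mem_iff_ord_nonneg, P.ord_inv, ht, neg_zero]
  have h2 : f = t⁻¹ ^ m * (t ^ m * f) := by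
    rw [← mul_assoc, ← mul_pow, inv_mul_cancel₀ ht0, one_pow, one_mul]
  rw [← ffp_mem_iff_ord_nonneg, h2]
  exact mul_mem (pow_mem hti m) h1

/-- **(M3), abstract form.**  In a nodal reduction context, for `t f : G` with `t ^ m * f` in the
chart ring `chart A t`, `t` nonzero with nonzero reduction on both components and without zero or
pole in the node discs: the reduction of `f` is regular on each component wherever `t̃_i` and
`t̃_i⁻¹` are, and is glued at every node. -/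
theorem reg01_glued {Ft₁ Ft₂ : Type*} [Field Ft₁] [Algebra k Ft₁] [Field Ft₂] [Algebra k Ft₂]
    {s : ℕ} {A : ValuationSubring K} {π : ↥A →+* k} {N : Nodes k Ft₁ Ft₂ s} {G : Subring F}
    {red : ↥G →+* Ft₁ × Ft₂} {r : Place K F → SPt k Ft₁ Ft₂ ⊕ Fin s}
    (C : RedCtxN A π N G red r) (t f : ↥G) (ht0 : (t : F) ≠ 0)
    (h1 : (red t).1 ≠ 0) (h2 : (red t).2 ≠ 0)
    (hnode : ∀ (P : Place K F) (j : Fin s), r P = Sum.inr j → P.ord (t : F) = 0)
    (m : ℕ) (hm : (t : F) ^ m * (f : F) ∈ chart ↥A (t : F)) :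
    Reg01 k (red t).1 (red f).1 ∧ Reg01 k (red t).2 (red f).2 ∧ ∀ j, N.GluedAt (red f) j := by
  refine ⟨?_, ?_, fun j => C.glue f j fun P hP =>
    ord_nonneg_of_pow_mul_mem_chart A P ht0 (hnode P j hP) m hm⟩
  · refine reg01_comp A π G ((RingHom.fst Ft₁ Ft₂).comp red) C.const_mem (fun a h => ?_) t f h1 m hm
    show (red ⟨algebraMap K F (a : K), h⟩).1 = algebraMap k Ft₁ (π a)
    have := C.red_const a
    rw [show (⟨algebraMap K F (a : K), h⟩ : ↥G) = ⟨algebraMap K F (a : K), C.const_mem a⟩ from rfl,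
      this]
  · refine reg01_comp A π G ((RingHom.snd Ft₁ Ft₂).comp red) C.const_mem (fun a h => ?_) t f h2 m hm
    show (red ⟨algebraMap K F (a : K), h⟩).2 = algebraMap k Ft₂ (π a)
    have := C.red_const a
    rw [show (⟨algebraMap K F (a : K), h⟩ : ↥G) = ⟨algebraMap K F (a : K), C.const_mem a⟩ from rfl,
      this]

end Abstract

/-! ### the instance `NodalDefs3` -/

section Instance

open Fermat.Agent.ES.W33.NodalDefs3 Fermat.Agent.ES.RED.Contract8
  Fermat.Agent.RED.BASE.Hauptmodul12 Fermat.Agent.ES.RED.ModelInst4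

variable (n e M' : ℕ) [NeZero n] [NeZero M'] (p : ℕ) [Fact p.Prime] (hpM : ¬ p ∣ M')
  (hb : BaseHyp n e) (hnM : n ∣ M') (A : ValuationSubring Qbar) (hA : A.LiesOverPrime p)
  (K : IntermediateField ℚ Qbar) (tK : ↥(FK (M' * p) K))

/-- `t ≠ 0`. -/
theorem tN_ne_zero : tN n e M' p hb hnM ≠ 0 := (hxN n e M' p hb hnM).ne_zero

/-- `t ∈ M₀₁`. -/
theorem bc_mem_M01 : baseChangeHom (M' * p) K tK ∈ M01 A (M' * p) K tK := by
  refine Submodule.subset_span ⟨tK, ⟨0, ?_⟩, rfl⟩
  rw [pow_zero, one_mul]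
  exact self_mem_chart tK

/-- `t⁻¹ ∈ M₀₁`. -/
theorem bc_inv_mem_M01 (htK : tK ≠ 0) :
    (baseChangeHom (M' * p) K tK)⁻¹ ∈ M01 A (M' * p) K tK := by
  rw [← map_inv₀]
  refine Submodule.subset_span ⟨tK⁻¹, ⟨1, ?_⟩, rfl⟩
  rw [pow_one, mul_inv_cancel₀ htK]
  exact one_mem _

variable {n e M' p hb hnM A K tK}

/-- `t ∈ G`. -/
theorem tN_mem_GN (hbc : baseChangeHom (M' * p) K tK = tN n e M' p hb hnM)
    (h01 : ∀ f ∈ M01 A (M' * p) K tK, f ∈ GN M' p A) : tN n e M' p hb hnM ∈ GN M' p A :=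
  hbc ▸ h01 _ (bc_mem_M01 M' p A K tK)

/-- `t⁻¹ ∈ G`. -/
theorem tN_inv_mem_GN (hbc : baseChangeHom (M' * p) K tK = tN n e M' p hb hnM)
    (h01 : ∀ f ∈ M01 A (M' * p) K tK, f ∈ GN M' p A) : (tN n e M' p hb hnM)⁻¹ ∈ GN M' p A := by
  have htK : tK ≠ 0 := by
    rintro rfl
    rw [map_zero] at hbc
    exact tN_ne_zero n e M' p hb hnM hbc.symm
  exact hbc ▸ h01 _ (bc_inv_mem_M01 M' p A K tK htK)

/-- the reduction of `t` is a unit of `Ft × Ft`. -/
theorem redN_tN_mul (hbc : baseChangeHom (M' * p) K tK = tN n e M' p hb hnM)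
    (h01 : ∀ f ∈ M01 A (M' * p) K tK, f ∈ GN M' p A) :
    redN M' p A ⟨tN n e M' p hb hnM, tN_mem_GN hbc h01⟩ *
      redN M' p A ⟨(tN n e M' p hb hnM)⁻¹, tN_inv_mem_GN hbc h01⟩ = 1 := by
  rw [← map_mul, ← map_one (redN M' p A)]
  congr 1
  exact Subtype.ext (mul_inv_cancel₀ (tN_ne_zero n e M' p hb hnM))

/-- **(M3) `Reg01PropN`.**  For `f ∈ M₀₁` (level `M' p`), the pair reduction `redN f = (f̄₁, f̄₂)` is
regular on the first component wherever `t̃₁` and `t̃₁⁻¹` are, on the second component wherever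
`t̃₂` and `t̃₂⁻¹` are (`(t̃₁, t̃₂) := redN t`), and glued at every node. -/
theorem reg01PropN (C : NodalRedCtx n e M' p hpM hb hnM A hA)
    (hbc : baseChangeHom (M' * p) K tK = tN n e M' p hb hnM)
    (h01 : ∀ f ∈ M01 A (M' * p) K tK, f ∈ GN M' p A)
    (hnode : ∀ (P : Place Qbar ↥(Fbar (M' * p))) (j : Fin (sN n e M' p hpM hb hnM A hA)),
      rN n e M' p hpM hb hnM A hA P = Sum.inr j → P.ord (tN n e M' p hb hnM) = 0)
    (f : ↥(Fbar (M' * p))) (hf : f ∈ M01 A (M' * p) K tK) :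
    Reg01 (kA A) (redN M' p A ⟨tN n e M' p hb hnM, tN_mem_GN hbc h01⟩).1
        (redN M' p A ⟨f, h01 f hf⟩).1 ∧
      Reg01 (kA A) (redN M' p A ⟨tN n e M' p hb hnM, tN_mem_GN hbc h01⟩).2
        (redN M' p A ⟨f, h01 f hf⟩).2 ∧
      ∀ j, (nodesN n e M' p hpM hb hnM A hA).GluedAt (redN M' p A ⟨f, h01 f hf⟩) j := by
  have C' : RedCtxN A (resA A) (nodesN n e M' p hpM hb hnM A hA) (GN M' p A) (redN M' p A)
      (rN n e M' p hpM hb hnM A hA) := C
  obtain ⟨m, hm⟩ := Fermat.Agent.ES.V19.Reg01Prop13.exists_pow_mul_mem_chart A (M' * p) K tK hf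
  rw [hbc] at hm
  have hu := redN_tN_mul hbc h01
  have hu1 : (redN M' p A ⟨tN n e M' p hb hnM, tN_mem_GN hbc h01⟩).1 ≠ 0 := by
    intro h0
    have := congrArg Prod.fst hu
    rw [Prod.fst_mul, h0, zero_mul] at this
    exact zero_ne_one this
  have hu2 : (redN M' p A ⟨tN n e M' p hb hnM, tN_mem_GN hbc h01⟩).2 ≠ 0 := by
    intro h0
    have := congrArg Prod.snd hu
    rw [Prod.snd_mul, h0, zero_mul] at this
    exact zero_ne_one this
  exact reg01_glued C' ⟨tN n e M' p hb hnM, tN_mem_GN hbc h01⟩ ⟨f, h01 f hf⟩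
    (tN_ne_zero n e M' p hb hnM) hu1 hu2 hnode m hm

end Instance


end Fermat.Agent.ES.W33.Reg01PropN13
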