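/-
Programme W (S33), chapter B1' (`h¹` of the twisted Čech complex of the NODAL fibre), helper24:
**INTERNAL INTERFACE of B1' in the FUNCTION-level names of `NodalDefs3`** (level `N' = M' * p`, pair
reduction `redN : ↥GN →+* Ft × Ft`), twin of `V19/CechIface12` Part 2, GENERIC in the nodes
`{s : ℕ} (N : Nodes k̄ Ft Ft s)` and in the total reduction map `r` (so that it serves any choice of
`(s, N, r)` at the instance), and **the bridge from `KerPropN24.KerPropN`** (kernel of the two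
`q`-expansion reductions) to the `redN` form.

Statements (`K`, `tK` a level; `tt : Ft × Ft` the pair of coordinates of the special fibre, to be
taken `tt := redN t`):
* `M01LeGN`    : `M₀₁ ⊆ GN`;
* `KerPropN`   : (M2) `M₀₁ ⊆ GN` and `redN f = 0 → f ∈ 𝔪_A • M₀₁` on `M₀₁`;
* `SurjPropN N`  : (M4) every glued pair of `B̃₀^{gl}` (`NodalCech17.RegN N`) is `redN f`,
                 `f ∈ M₀ ∩ GN`; every glued pair of `B̃₁^{gl}` (`Reg1N N`) is `redN f`, `f ∈ M₁(0) ∩ GN`;
* `Reg01PropN N` : (M3) `redN (M₀₁) ⊆ B̃₀₁^{gl}` (`NodalCech17.Reg01N N`).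
Proved here:
* `e1_of_mem_O1`, `e2_of_mem_O2` : the Gauss valuation rings `O1`, `O2` of `NodalDefs3` (fractions
  `a / b` of integral `q`-expansions reducing into `F̃_{M'}`) lie in the Gauss rings of the two
  expansions, and the reductions agree (as Laurent series over `k̄`);
* `GN_le_Gbar`, `rho1_eq`, `rho2_eq`;
* **`kerPropN_of`** : `M01LeGN → KerPropN24.KerPropN A (M' * p) K tK → KerPropN`;
* `reg01PropN_of` : `Reg01PropN N` at `tt := redN t` from ANY `RedCtxN A (resA A) N GN redN r` and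
  `hnode : r P = inr j → ord_P t = 0` (helper13's abstract `Reg01PropN13.reg01_glued`).
-/
import Mathlib
import Fermat.Agent.ES.V19.CechIface12
import Fermat.Agent.ES.W33.NodalDefs3
import Fermat.Agent.ES.W33.NodalCech17
import Fermat.Agent.ES.W33.Reg01PropN13
import Fermat.Agent.ES.W33.KerPropN24

set_option autoImplicit false
set_option linter.unusedSectionVars false
set_option linter.dupNamespace false
set_option synthInstance.maxHeartbeats 400000

open AlgebraicCurve ModularCurve IntermediateField HahnSeries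

noncomputable section

namespace Fermat.Agent.ES.W33.CechIfaceN24

open Fermat.Agent.RED.Interface4 Fermat.Agent.RED.DESC.PlaceExtend27
  Fermat.Agent.RED.PUR.ChartGeneric22 Fermat.Agent.RED.BASE.Interface12
  Fermat.Agent.RED.BASE.Hauptmodul12
  Fermat.Agent.ES.RED.Contract8 Fermat.Agent.ES.RED.ModelInst4 Fermat.Agent.ES.RED.GaussRing15
  Fermat.Agent.ES.V19.CechIface12 Fermat.Agent.ES.V19.GaussFrac15
  Fermat.Agent.ES.N34.FrickeFK8
  Fermat.Agent.ES.W33.XiIfaceN29 Fermat.Agent.ES.W33.NodalDefs3 Fermat.Agent.ES.W33.NodalCech17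

variable (M' : ℕ) [NeZero M'] (p : ℕ) [Fact p.Prime] (A : ValuationSubring Qbar)
  (K : IntermediateField ℚ Qbar) (tK : ↥(FK (M' * p) K))

/-! ### The statements -/

/-- **(i)** `M₀₁ ⊆ GN`: the elements of `A·B0_K[1/t]` are integral for both Gauss valuations. -/
def M01LeGN : Prop := ∀ f ∈ M01 A (M' * p) K tK, f ∈ GN M' p A

/-- **(M2)** `M₀₁ ⊆ GN`, and an element of `M₀₁` whose pair reduction vanishes lies in
`𝔪_A • M₀₁`. -/
def KerPropN : Prop :=
  ∃ h01 : ∀ f ∈ M01 A (M' * p) K tK, f ∈ GN M' p A,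
    ∀ (f : ↥(Fbar (M' * p))) (hf : f ∈ M01 A (M' * p) K tK),
      redN M' p A ⟨f, h01 f hf⟩ = 0 →
        f ∈ IsLocalRing.maximalIdeal ↥A • M01 A (M' * p) K tK

section Nodes

variable {s : ℕ} (N : Nodes (kA A) (Ft M' A) (Ft M' A) s)

/-- **(M4)** special-fibre base change for GLUED pairs: every pair of `B̃₀^{gl}` is the pair
reduction of an element of `M₀`; every pair of `B̃₁^{gl}` is the pair reduction of an element of
`M₁(0)`. -/
def SurjPropN (tt : Ft M' A × Ft M' A) : Prop :=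
  (∀ fb : Ft M' A × Ft M' A, RegN N tt.1 tt.2 fb →
      ∃ f ∈ M0 A (M' * p) K tK, ∃ hf : f ∈ GN M' p A, redN M' p A ⟨f, hf⟩ = fb) ∧
    ∀ fb : Ft M' A × Ft M' A, Reg1N N tt.1 tt.2 fb →
      ∃ f ∈ M1 A (M' * p) K tK 0, ∃ hf : f ∈ GN M' p A, redN M' p A ⟨f, hf⟩ = fb

/-- **(M3)** the pair reduction of an element of `M₀₁` lies in `B̃₀₁^{gl}`. -/
def Reg01PropN (tt : Ft M' A × Ft M' A) : Prop :=
  ∀ (f : ↥(Fbar (M' * p))) (_ : f ∈ M01 A (M' * p) K tK) (hf : f ∈ GN M' p A),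
    Reg01N N tt.1 tt.2 (redN M' p A ⟨f, hf⟩)

end Nodes

/-! ### The two Gauss valuation rings in terms of the two expansions -/

section Bridge

open Fermat.Agent.RED.PUR.GaussGen8 in
/-- `O1 ⊆ {e1 f ∈ gaussRing A}`, and the reductions agree. -/
theorem e1_of_mem_O1 {f : ↥(Fbar (M' * p))} (hf : f ∈ O1 M' p A) :
    ∃ h : KerPropN24.e1 (M' * p) f ∈ Fermat.Agent.RED.PUR.GaussGen8.gaussRing A,
      Fermat.Agent.RED.PUR.GaussGen8.gaussRed A ⟨_, h⟩ =
        ((rho1 M' p A ⟨f, hf⟩ : Ft M' A) : LaurentSeries (kA A)) := by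
  obtain ⟨a, b, hb0, hab, hφ⟩ := isRedOf_rho (Gq1 M' p A) (redq1 M' p A) ⟨f, hf⟩
  have hYa := coeffMap_gaussLift A (resA A) (Fbar (M' * p))
    (modularFunctionFieldFullC (kA A) M') a
  have hYb := coeffMap_gaussLift A (resA A) (Fbar (M' * p))
    (modularFunctionFieldFullC (kA A) M') b
  have hrep : IsRep A (KerPropN24.e1 (M' * p) f)
      (gaussLift A (resA A) (Fbar (M' * p)) (modularFunctionFieldFullC (kA A) M') a)
      (gaussLift A (resA A) (Fbar (M' * p)) (modularFunctionFieldFullC (kA A) M') b) := by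
    refine ⟨?_, ?_⟩
    · intro h0
      apply hb0
      apply Subtype.ext
      rw [coe_gaussRed]
      exact h0
    · show KerPropN24.e1 (M' * p) f * coeffMap A.subtype _ = coeffMap A.subtype _
      rw [hYa, hYb]
      have := congrArg (fun x : ↥(Fbar (M' * p)) => (x : LaurentSeries Qbar)) hab
      exact this
  refine ⟨⟨_, _, hrep⟩, ?_⟩
  rw [Fermat.Agent.RED.PUR.GaussGen8.gaussRed_eq A
    (f := ⟨KerPropN24.e1 (M' * p) f, ⟨_, _, hrep⟩⟩) hrep, div_eq_iff hrep.1]
  have h1 := congrArg (fun x : Ft M' A => (x : LaurentSeries (kA A))) hφ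
  exact h1.symm

/-- `O2 ⊆ {e2 f ∈ gaussRing A}`, and the reductions agree. -/
theorem e2_of_mem_O2 {f : ↥(Fbar (M' * p))} (hf : f ∈ O2 M' p A) :
    ∃ h : KerPropN24.e2 (M' * p) f ∈ Fermat.Agent.RED.PUR.GaussGen8.gaussRing A,
      Fermat.Agent.RED.PUR.GaussGen8.gaussRed A ⟨_, h⟩ =
        ((rho2 M' p A ⟨f, hf⟩ : Ft M' A) : LaurentSeries (kA A)) :=
  e1_of_mem_O1 M' p A (f := frickeN M' p f) hf

theorem GN_le_Gbar {f : ↥(Fbar (M' * p))} (hf : f ∈ GN M' p A) :
    f ∈ KerPropN24.Gbar A (M' * p) :=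
  ⟨(e1_of_mem_O1 M' p A (GN_le_O1 M' p A hf)).1, (e2_of_mem_O2 M' p A (GN_le_O2 M' p A hf)).1⟩

theorem rho1_eq {f : ↥(Fbar (M' * p))} (hf : f ∈ GN M' p A) :
    KerPropN24.rho1 A (M' * p) ⟨f, GN_le_Gbar M' p A hf⟩ =
      (((redN M' p A ⟨f, hf⟩).1 : Ft M' A) : LaurentSeries (kA A)) :=
  (e1_of_mem_O1 M' p A (GN_le_O1 M' p A hf)).2

theorem rho2_eq {f : ↥(Fbar (M' * p))} (hf : f ∈ GN M' p A) :
    KerPropN24.rho2 A (M' * p) ⟨f, GN_le_Gbar M' p A hf⟩ =
      (((redN M' p A ⟨f, hf⟩).2 : Ft M' A) : LaurentSeries (kA A)) :=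
  (e2_of_mem_O2 M' p A (GN_le_O2 M' p A hf)).2

end Bridge

/-! ### (M2) in the `redN` form -/

variable {M' p A K tK}

/-- **(M2)** from the kernel property of the two `q`-expansion reductions. -/
theorem kerPropN_of (h01 : M01LeGN M' p A K tK)
    (hK : KerPropN24.KerPropN A (M' * p) K tK) : KerPropN M' p A K tK := by
  obtain ⟨_, hker⟩ := hK
  refine ⟨h01, fun f hf hred => hker f hf ?_ ?_⟩
  · have h := rho1_eq M' p A (h01 f hf)
    rw [hred] at h
    exact h
  · have h := rho2_eq M' p A (h01 f hf)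
    rw [hred] at h
    exact h

/-! ### (M3) at `tt := redN t` -/

section Reg01

variable {n e : ℕ} [NeZero n] {hb : BaseHyp n e} {hnM : n ∣ M'}
  {s : ℕ} {N : Nodes (kA A) (Ft M' A) (Ft M' A) s}
  {r : Place Qbar ↥(Fbar (M' * p)) → SPt (kA A) (Ft M' A) (Ft M' A) ⊕ Fin s}

/-- **(M3)** for ANY nodal reduction context on `(GN, redN)`: from helper13's abstract
`Reg01PropN13.reg01_glued`. -/
theorem reg01PropN_of (C : RedCtxN A (resA A) N (GN M' p A) (redN M' p A) r)
    (hbc : baseChangeHom (M' * p) K tK = tN n e M' p hb hnM)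
    (h01 : M01LeGN M' p A K tK)
    (hnode : ∀ (P : Place Qbar ↥(Fbar (M' * p))) (j : Fin s),
      r P = Sum.inr j → P.ord (tN n e M' p hb hnM) = 0) :
    Reg01PropN M' p A K tK N
      (redN M' p A ⟨tN n e M' p hb hnM, Reg01PropN13.tN_mem_GN hbc h01⟩) := by
  intro f hf hfG
  obtain ⟨m, hm⟩ := Fermat.Agent.ES.V19.Reg01Prop13.exists_pow_mul_mem_chart A (M' * p) K tK hf
  rw [hbc] at hm
  have hu := Reg01PropN13.redN_tN_mul hbc h01
  have hu1 : (redN M' p A ⟨tN n e M' p hb hnM, Reg01PropN13.tN_mem_GN hbc h01⟩).1 ≠ 0 := by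
    intro h0
    have := congrArg Prod.fst hu
    rw [Prod.fst_mul, h0, zero_mul] at this
    exact zero_ne_one this
  have hu2 : (redN M' p A ⟨tN n e M' p hb hnM, Reg01PropN13.tN_mem_GN hbc h01⟩).2 ≠ 0 := by
    intro h0
    have := congrArg Prod.snd hu
    rw [Prod.snd_mul, h0, zero_mul] at this
    exact zero_ne_one this
  exact Reg01PropN13.reg01_glued C ⟨tN n e M' p hb hnM, Reg01PropN13.tN_mem_GN hbc h01⟩ ⟨f, hfG⟩
    (Reg01PropN13.tN_ne_zero n e M' p hb hnM) hu1 hu2 hnode m hm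

end Reg01

end Fermat.Agent.ES.W33.CechIfaceN24
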