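/-
Programme W (S33), chapter B1' (helper12's leaf (M5) "degree inequality", step (b)), helper24:
**`M₀₁ = A·B0_K[1/t]` is a finite module over `A[t, t⁻¹]`**, generated by the base changes of the
generators `e_i` of the chart `B0_K` over `(A ∩ K)[t]` (`fin0` of the two-chart model).

* `fin_span01` (abstract: `ι : R →+* O`, `bc : F →+* E` over it, `B0 : Subalgebra R F` with `fin0`):
  there are `e : Fin r → E` in the `O`-span of `bc B0` such that every element of the `O`-span of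
  `bc (B0[1/t])` is `∑ ρ_i e_i` with `ρ_i ∈ O[bc t, bc t⁻¹]` (`Algebra.adjoin O {bc t, bc t⁻¹}`);
* `fin01_nodal` : the instance for `CechIface12.M0 / M01` and a nodal two-chart model.
-/
import Mathlib
import Fermat.Agent.ES.V19.CechFG24
import Fermat.Agent.ES.N34.NodalCore13

set_option autoImplicit false
set_option linter.unusedSectionVars false
set_option synthInstance.maxHeartbeats 400000
set_option maxHeartbeats 1000000

noncomputable section

namespace Fermat.Agent.ES.W33.FinSpanN24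

section Abstract

open Polynomial Fermat.Agent.ES.V19.CechFG24

variable {R F O E : Type*} [CommRing R] [Field F] [Algebra R F] [CommRing O] [CommRing E]
  [Algebra O E] (ι : R →+* O) (bc : F →+* E)

/-- the image of a polynomial in `t` over `R` lies in `O[bc t, bc t⁻¹]`. -/
theorem bc_aeval_mem (hbc : ∀ a : R, bc (algebraMap R F a) = algebraMap O E (ι a)) (t : F)
    (P : R[X]) : bc (aeval t P) ∈ Algebra.adjoin O ({bc t, bc t⁻¹} : Set E) := by
  rw [aeval_eq_sum_range, map_sum]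
  refine Subalgebra.sum_mem _ fun i _ => ?_
  rw [Algebra.smul_def, map_mul, map_pow, hbc]
  exact Subalgebra.mul_mem _ (Subalgebra.algebraMap_mem _ _)
    (Subalgebra.pow_mem _ (Algebra.subset_adjoin (Set.mem_insert _ _)) i)

/-- **`O·bc(B0[1/t])` is generated over `O[bc t, bc t⁻¹]` by the images of the generators of `B0`
over `R[t]`.** -/
theorem fin_span01 (hbc : ∀ a : R, bc (algebraMap R F a) = algebraMap O E (ι a))
    (t : F) (ht0 : t ≠ 0) (B0 : Subalgebra R F)
    (fin0 : ∃ (r : ℕ) (e : Fin r → F), (∀ i, e i ∈ B0) ∧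
      ∀ x ∈ B0, ∃ P : Fin r → R[X], x = ∑ i, aeval t (P i) * e i) :
    ∃ (r : ℕ) (e : Fin r → E), (∀ i, e i ∈ sp (O := O) bc (B0 : Set F)) ∧
      ∀ x ∈ sp (O := O) bc {f : F | ∃ k : ℕ, t ^ k * f ∈ B0},
        ∃ ρ : Fin r → ↥(Algebra.adjoin O ({bc t, bc t⁻¹} : Set E)),
          x = ∑ i, ((ρ i : ↥(Algebra.adjoin O ({bc t, bc t⁻¹} : Set E))) : E) * e i := by
  obtain ⟨r, e, he, hgen⟩ := fin0
  refine ⟨r, fun i => bc (e i), fun i => bc_mem_sp bc (he i), fun x hx => ?_⟩
  induction hx using Submodule.span_induction with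
  | mem x hx =>
    obtain ⟨f, ⟨k, hk⟩, rfl⟩ := hx
    obtain ⟨P, hP⟩ := hgen _ hk
    have hf : f = ∑ i, (t⁻¹ ^ k * aeval t (P i)) * e i := by
      have h1 : f = t⁻¹ ^ k * (t ^ k * f) := by
        rw [inv_pow, inv_mul_cancel_left₀ (pow_ne_zero k ht0)]
      rw [h1, hP, Finset.mul_sum]
      exact Finset.sum_congr rfl fun i _ => (mul_assoc _ _ _).symm
    refine ⟨fun i => ⟨bc (t⁻¹ ^ k * aeval t (P i)), ?_⟩, ?_⟩
    · rw [map_mul, map_pow]
      exact Subalgebra.mul_mem _
        (Subalgebra.pow_mem _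
          (Algebra.subset_adjoin (Set.mem_insert_of_mem _ (Set.mem_singleton _))) k)
        (bc_aeval_mem ι bc hbc t (P i))
    · conv_lhs => rw [hf]
      rw [map_sum]
      exact Finset.sum_congr rfl fun i _ => map_mul bc _ _
  | zero => exact ⟨fun _ => 0, by simp⟩
  | add x y _ _ hx hy =>
    obtain ⟨ρ, rfl⟩ := hx
    obtain ⟨ρ', rfl⟩ := hy
    refine ⟨fun i => ρ i + ρ' i, ?_⟩
    rw [← Finset.sum_add_distrib]
    exact Finset.sum_congr rfl fun i _ => by rw [Subalgebra.coe_add, add_mul]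
  | smul a x _ hx =>
    obtain ⟨ρ, rfl⟩ := hx
    refine ⟨fun i => a • ρ i, ?_⟩
    rw [Finset.smul_sum]
    exact Finset.sum_congr rfl fun i _ => by rw [Subalgebra.coe_smul, smul_mul_assoc]

end Abstract

section Instance

open ModularCurve Fermat.Agent.RED.Interface4 Fermat.Agent.RED.DESC.PlaceExtend27
  Fermat.Agent.RED.DESC Fermat.Agent.RED.PUR.ChartGeneric22 Fermat.Agent.RED.NumInst4
  Fermat.Agent.ES.RED.ChartUnion1 Fermat.Agent.ES.V19.CechIface12
  Fermat.Agent.ES.N34.NodalCore13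

variable {A : ValuationSubring Qbar} {M : ℕ} [NeZero M] {K : IntermediateField ℚ Qbar}
  {tK : ↥(FK M K)} {ϖ : ↥(AK A K)} {O1 O2 : ValuationSubring ↥(FK M K)}

/-- **`M₀₁` is a finite `A[t, t⁻¹]`-module**, generated by elements of `M₀`
(`t := baseChangeHom M K tK`). -/
theorem fin01_nodal
    (hm : NodalTwoChartModel ↥(AK A K) ↥(FK M K) ϖ tK (chart ↥(AK A K) tK)
      (chart ↥(AK A K) tK⁻¹) O1 O2) :
    ∃ (r : ℕ) (e : Fin r → ↥(Fbar M)), (∀ i, e i ∈ M0 A M K tK) ∧
      ∀ x ∈ M01 A M K tK,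
        ∃ ρ : Fin r → ↥(Algebra.adjoin ↥A
            ({baseChangeHom M K tK, baseChangeHom M K tK⁻¹} : Set ↥(Fbar M))),
          x = ∑ i, ((ρ i : ↥(Algebra.adjoin ↥A
            ({baseChangeHom M K tK, baseChangeHom M K tK⁻¹} : Set ↥(Fbar M)))) : ↥(Fbar M)) * e i :=
  fin_span01 (NumberFieldDVR27.incl A K) (baseChangeHom M K)
    (baseChangeHom_algebraMap_AK A M K) tK hm.t_ne (chart ↥(AK A K) tK) hm.fin0

end Instance

end Fermat.Agent.ES.W33.FinSpanN24
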