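/-
Programme W (S33), chapter (B3′), instance layer (helper16): **the coefficientwise reduction at the BAD
level lands in the special fibre of the GOOD level.**

`p` an odd prime, `p ∤ M'`, `4 ∣ M'`, `A ≤ ℚ̄` over `p`, `k = ResidueField A`, `N' = M' * p`.
For `Y ∈ A((q))` with `coeffMap A.subtype Y ∈ Fbar (M' * p)` (an `A`-integral `q`-expansion at `∞` of a
function of level `N'`):

* `coeffMap_residue_mem_fullC_bad` : `coeffMap (residue A) Y ∈ modularFunctionFieldFullC k M'`;
* `redA_mem_fullC_bad` : `Setup8.redA A (Fbar (M' * p))` takes values in `k·F̃_{M'}` on all of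
  `Setup8.gaussA A (Fbar (M' * p))`.

So the first component `red₁` of the reduction of the nodal model (expansion at `∞`) is a ring
homomorphism `gaussA A (Fbar N') →+* Ft M' A`; the second is `red₁ ∘ W_{N'}`.

Proof: descend `Y` to a large normal number field `K` (`RedMem16.exists_series_descent`, valid at every
level); there Programme N's `hcomb` at `(O1, alpha)` (`CombA26.hcomb_four`:
`O1 = alpha(Ov_{M'}) + π O1`) gives `x = alpha z + π c`, so the Gauss reductions of `x` and of the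
level-`M'` function `z` coincide; conclude with `GaussUnit25.resField_FK_eq` at the good level `M'`
and `ResidueUnion1.coeffMap_resMap_mem_fullC`.
-/
import Mathlib
import Fermat.Agent.ES.RED.RedMem16
import Fermat.Agent.ES.N34.CombA26
import Fermat.Agent.ES.N34.ModelEnd4
import Fermat.Agent.ES.RED.GaussRing15

set_option autoImplicit false
set_option linter.unusedSectionVars false
set_option linter.style.haveILetI false
set_option synthInstance.maxHeartbeats 400000

noncomputable section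

namespace Fermat.Agent.ES.W33.RedMemN16

open HahnSeries ModularCurve
open Fermat.Agent.RED.Interface4 Fermat.Agent.RED.DESC Fermat.Agent.RED.DESC.NumberFieldDVR27
open Fermat.Agent.RED.DESC.PlaceExtend27
open Fermat.Agent.RED.PUR.GaussGen8 Fermat.Agent.RED.PUR.GaussBridge10
open Fermat.Agent.ES.N34.ModelDefs9 Fermat.Agent.ES.N34.ModelN4

variable (A : ValuationSubring Qbar) {p M' : ℕ} [NeZero M'] [NeZero p] [Fact p.Prime]

/-- **The reduction of an `A`-integral element of `Fbar (M' * p)` lies in `k·F̃_{M'}`.** -/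
theorem coeffMap_residue_mem_fullC_bad (hp2 : p ≠ 2) (hpM : ¬ p ∣ M') (hM : 4 ∣ M')
    (hA : A.LiesOverPrime p) (Y : LaurentSeries ↥A) (hY : coeffMap A.subtype Y ∈ Fbar (M' * p)) :
    coeffMap (IsLocalRing.residue ↥A) Y ∈
      modularFunctionFieldFullC (IsLocalRing.ResidueField ↥A) M' := by
  have hp : p.Prime := Fact.out
  obtain ⟨K₀, hK₀, hcomb⟩ := Fermat.Agent.ES.N34.CombA26.hcomb_four (M' := M') hp hpM hM hA
  obtain ⟨K₁, hK₁, hmodel⟩ := Fermat.Agent.ES.N34.ModelEnd4.modelInput_four p M' A hp hpM hp2 hM hA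
  haveI := hK₀
  haveI := hK₁
  obtain ⟨K₂, hfin₂, hle₂, H⟩ :=
    Fermat.Agent.ES.RED.RedMem16.exists_series_descent A (M' * p) (K₀ ⊔ K₁) Y hY
  haveI := hfin₂
  -- a normal number field containing everything
  have hgal : IsGalois ℚ Qbar := Fermat.Agent.Lib.FrobeniusExists.isGalois_Qbar
  haveI hnorQ : Normal ℚ Qbar := hgal.to_normal
  haveI halgQ : Algebra.IsAlgebraic ℚ Qbar := isAlgebraic_Qbar
  let K : IntermediateField ℚ Qbar := IntermediateField.normalClosure ℚ K₂ Qbar
  have hK₂K : K₂ ≤ K := IntermediateField.le_normalClosure K₂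
  haveI hfinK : FiniteDimensional ℚ K := normalClosure.is_finiteDimensional ℚ K₂ Qbar
  haveI hnorK : Normal ℚ K := normalClosure.normal ℚ K₂ Qbar
  have hK₀K : K₀ ≤ K := le_trans (le_trans le_sup_left hle₂) hK₂K
  have hK₁K : K₁ ≤ K := le_trans (le_trans le_sup_right hle₂) hK₂K
  obtain ⟨Y₀, hmem, rfl⟩ := H K hK₂K
  obtain ⟨ht, hE, -⟩ := hmodel K hfinK hK₁K
  haveI hdvr : IsDiscreteValuationRing ↥(AK A K) := isDiscreteValuationRing_AK A K hp.ne_zero hA
  obtain ⟨ϖ, hϖ⟩ := IsDiscreteValuationRing.exists_irreducible ↥(AK A K)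
  have hπ : IsUnif (AK A K) ϖ := isUnif_of_irreducible (AK A K) hϖ
  -- the level-`N'` function `x` with expansion `embK Y₀`
  set x : FK (M' * p) K := ⟨embK (AK A K) Y₀, hmem⟩ with hx
  have hxO : x ∈ O1 M' p hπ hE := (mem_O1_iff M' p hπ hE x).mpr (embK_mem _ Y₀)
  obtain ⟨z, hz, c, hc, hxz⟩ := hcomb K hfinK hK₀K ht hE ϖ hπ x hxO
  have hcG : (c : LaurentSeries K) ∈ gaussRing (AK A K) := (mem_O1_iff M' p hπ hE c).mp hc
  -- series identity `embK Y₀ = z + π c`
  have hser : embK (AK A K) Y₀ = (z : LaurentSeries K) + piK ϖ * (c : LaurentSeries K) := by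
    have h1 : ((x - alpha K M' p z : FK (M' * p) K) : LaurentSeries K) =
        ((algebraMap ↥(AK A K) ↥(FK (M' * p) K) ϖ * c : FK (M' * p) K) : LaurentSeries K) :=
      congrArg (fun y : FK (M' * p) K => (y : LaurentSeries K)) hxz
    have h2 : ((x - alpha K M' p z : FK (M' * p) K) : LaurentSeries K) =
        embK (AK A K) Y₀ - (z : LaurentSeries K) := by
      show (x : LaurentSeries K) - ((alpha K M' p z : FK (M' * p) K) : LaurentSeries K) = _
      rw [coe_alpha]
    have h3 : ((algebraMap ↥(AK A K) ↥(FK (M' * p) K) ϖ * c : FK (M' * p) K) : LaurentSeries K) =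
        piK ϖ * (c : LaurentSeries K) := by
      show ((algebraMap ↥(AK A K) ↥(FK (M' * p) K) ϖ : FK (M' * p) K) : LaurentSeries K) *
        (c : LaurentSeries K) = _
      rw [Fermat.Agent.RED.NumInst4.coe_algebraMap_OE]
    rw [h2, h3] at h1
    rw [← h1]; ring
  -- Gauss reductions coincide
  have hred : gaussRed (AK A K) ⟨(z : LaurentSeries K), hz⟩ = redL (AK A K) Y₀ := by
    rw [← gaussRed_embK (AK A K) Y₀]
    have hsub : (⟨embK (AK A K) Y₀, embK_mem _ Y₀⟩ : gaussRing (AK A K)) =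
        ⟨(z : LaurentSeries K), hz⟩ + constG (AK A K) ϖ * ⟨(c : LaurentSeries K), hcG⟩ :=
      Subtype.ext hser
    rw [hsub, map_add, map_mul, gaussRed_unif hπ, zero_mul, add_zero]
  rw [Fermat.Agent.ES.RED.GaussUnit25.coeffMap_residue_incl]
  apply Fermat.Agent.ES.RED.ResidueUnion1.coeffMap_resMap_mem_fullC
  rw [← Fermat.Agent.ES.RED.GaussUnit25.resField_FK_eq A K p hA M' hpM]
  exact ⟨(z : LaurentSeries K), hz, z.2, hred⟩

/-- `Setup8.redA` at the bad level takes values in `k·F̃_{M'}`. -/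
theorem redA_mem_fullC_bad (hp2 : p ≠ 2) (hpM : ¬ p ∣ M') (hM : 4 ∣ M') (hA : A.LiesOverPrime p)
    (f : ↥(Fermat.Agent.ES.RED.Setup8.gaussA A (Fbar (M' * p)))) :
    Fermat.Agent.ES.RED.Setup8.redA A (Fbar (M' * p)) f ∈
      modularFunctionFieldFullC (IsLocalRing.ResidueField ↥A) M' := by
  rw [Fermat.Agent.ES.RED.Setup8.redA_eq A (Fbar (M' * p)) f
    (Fermat.Agent.ES.RED.Setup8.coeffMap_liftA A (Fbar (M' * p)) f)]
  refine coeffMap_residue_mem_fullC_bad A hp2 hpM hM hA _ ?_
  rw [Fermat.Agent.ES.RED.Setup8.coeffMap_liftA]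
  exact (f : ↥(Fbar (M' * p))).2

/-- **`Gq1`-membership** (vocabulary of `W33/NodalDefs3`): every element of `Fbar (M' * p)` with an
`A`-integral `q`-expansion at `∞` lies in
`Gq1 = GaussRing15.gaussRing A (resA A) (Fbar (M' * p)) (modularFunctionFieldFullC (kA A) M')`. -/
theorem mem_gaussRing_bad (hp2 : p ≠ 2) (hpM : ¬ p ∣ M') (hM : 4 ∣ M') (hA : A.LiesOverPrime p)
    (f : ↥(Fbar (M' * p))) (Y : LaurentSeries ↥A)
    (hY : coeffMap A.subtype Y = (f : LaurentSeries Qbar)) :
    f ∈ Fermat.Agent.ES.RED.GaussRing15.gaussRing A (IsLocalRing.residue ↥A)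
      (Fbar (M' * p)) (modularFunctionFieldFullC (IsLocalRing.ResidueField ↥A) M') :=
  ⟨Y, hY, coeffMap_residue_mem_fullC_bad A hp2 hpM hM hA Y (by rw [hY]; exact f.2)⟩

/-- the same for the elements of `Setup8.gaussA`. -/
theorem gaussA_le_gaussRing_bad (hp2 : p ≠ 2) (hpM : ¬ p ∣ M') (hM : 4 ∣ M')
    (hA : A.LiesOverPrime p) (f : ↥(Fbar (M' * p)))
    (hf : f ∈ Fermat.Agent.ES.RED.Setup8.gaussA A (Fbar (M' * p))) :
    f ∈ Fermat.Agent.ES.RED.GaussRing15.gaussRing A (IsLocalRing.residue ↥A)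
      (Fbar (M' * p)) (modularFunctionFieldFullC (IsLocalRing.ResidueField ↥A) M') := by
  obtain ⟨Y, hY⟩ := hf
  exact mem_gaussRing_bad A hp2 hpM hM hA f Y hY

end Fermat.Agent.ES.W33.RedMemN16
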