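/-
Programme W (S33), chapter (B3′), THE INSTANCE (helper3): **the two Gauss valuation rings of the bad
level `N' = M' * p` over `ℚ̄`** — constants, scaling, valuation dichotomy, series criterion.

Vocabulary of `W33/NodalDefs3` (`Gq1`, `redq1`, `O1`, `rho1`, `O2`, `rho2`, `GN`, `redN`); `p` odd,
`p ∤ M'`, `4 ∣ M'`, `A ≤ ℚ̄` over `p` (the (4,8) Hauptmodul block of Programme N, through helper16's
`RedMemN16`: the coefficientwise reduction of an `A`-integral `q`-expansion of level `N'` lies in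
`k̄·F̃_{M'}`).

* `const_mem_GN`, `redN_const`, `resA_nonunit` — the fields `const_mem`, `red_const`, `pi_nonunit` of
  `XiIfaceN29.RedCtxN` at the instance;
* `exists_scale1` — every nonzero `f ∈ F` is `c · u`, `u` a Gauss unit of `O1` (fraction sense);
  `exists_scale2` — the same for `O2` (transport by `W`);
* `mem_O1_or_inv_mem`, `mem_O2_or_inv_mem` — `O1`, `O2` are valuation rings of `F`;
  `const_mem_O1_iff` : `c ∈ O1 ↔ c ∈ A` for constants;
* `scaleN` — the field `scale` of `RedCtxN`: scaling by the MINIMUM of the two Gauss valuations;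
* `series_criterion` — if `X · S = A₀` in `ℚ̄((q))` with `S, A₀ ∈ A((q))`, `S̄ ≠ 0`, then `X ∈ O1` and
  `rho1 X · S̄ = Ā₀` (the comparison with the level-`K` Gauss rings of Programme N is a corollary:
  `W33/LevelCompare3`).
-/
import Mathlib
import Fermat.Agent.ES.W33.NodalDefs3
import Fermat.Agent.ES.W33.RedMemN16
import Fermat.Agent.ES.V19.ScaleQbar8

set_option autoImplicit false
set_option synthInstance.maxHeartbeats 400000
set_option linter.unusedSectionVars false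
set_option linter.style.haveILetI false

open HahnSeries ModularCurve AlgebraicCurve

noncomputable section

namespace Fermat.Agent.ES.W33.NodalGauss3

open Fermat.Agent.RED.Interface4 Fermat.Agent.RED.DESC Fermat.Agent.RED.DESC.NumberFieldDVR27
  Fermat.Agent.RED.PUR.GaussGen8
  Fermat.Agent.ES.RED.Contract8 Fermat.Agent.ES.RED.GaussRing15 Fermat.Agent.ES.RED.GaussUnit25
  Fermat.Agent.ES.RED.ModelInst4 Fermat.Agent.ES.N34.FrickeFK8
  Fermat.Agent.ES.V19.GaussFrac15 Fermat.Agent.ES.V19.InstNames3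
  Fermat.Agent.ES.W33.NodalDefs3

attribute [local instance 5000] HahnSeries.powerSeriesAlgebra SubalgebraClass.toAlgebra

variable (M' : ℕ) [NeZero M'] (p : ℕ) [Fact p.Prime] (A : ValuationSubring Qbar)

/-! ### constants -/

theorem const_mem_Gq1 (a : ↥A) : algebraMap Qbar ↥(Fbar (M' * p)) (a : Qbar) ∈ Gq1 M' p A :=
  algebraMap_mem_gaussRing A (resA A) (Fbar (M' * p)) (modularFunctionFieldFullC (kA A) M') a

theorem const_mem_O1 (a : ↥A) : algebraMap Qbar ↥(Fbar (M' * p)) (a : Qbar) ∈ O1 M' p A :=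
  le_gaussInt (Gq1 M' p A) (redq1 M' p A) (const_mem_Gq1 M' p A a)

theorem rho1_const (a : ↥A) :
    rho1 M' p A ⟨algebraMap Qbar ↥(Fbar (M' * p)) (a : Qbar), const_mem_O1 M' p A a⟩ =
      algebraMap (kA A) (Ft M' A) (resA A a) := by
  have h := rho_of_mem (G := Gq1 M' p A) (red := redq1 M' p A)
    ⟨algebraMap Qbar ↥(Fbar (M' * p)) (a : Qbar), const_mem_Gq1 M' p A a⟩
  rw [gaussRed_algebraMap] at h
  exact h

theorem frickeN_const (c : Qbar) :
    frickeN M' p (algebraMap Qbar ↥(Fbar (M' * p)) c) = algebraMap Qbar ↥(Fbar (M' * p)) c :=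
  (frickeN M' p).commutes c

theorem const_mem_O2 (a : ↥A) : algebraMap Qbar ↥(Fbar (M' * p)) (a : Qbar) ∈ O2 M' p A := by
  rw [mem_O2_iff, frickeN_const]
  exact const_mem_O1 M' p A a

theorem rho2_const (a : ↥A) :
    rho2 M' p A ⟨algebraMap Qbar ↥(Fbar (M' * p)) (a : Qbar), const_mem_O2 M' p A a⟩ =
      algebraMap (kA A) (Ft M' A) (resA A a) := by
  rw [rho2_apply, ← rho1_const M' p A a]
  congr 1
  exact Subtype.ext (frickeN_const M' p (a : Qbar))

/-- **`RedCtxN.const_mem` at the instance.** -/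
theorem const_mem_GN (a : ↥A) : algebraMap Qbar ↥(Fbar (M' * p)) (a : Qbar) ∈ GN M' p A :=
  ⟨const_mem_O1 M' p A a, const_mem_O2 M' p A a⟩

/-- **`RedCtxN.red_const` at the instance.** -/
theorem redN_const (a : ↥A) :
    redN M' p A ⟨algebraMap Qbar ↥(Fbar (M' * p)) (a : Qbar), const_mem_GN M' p A a⟩ =
      (algebraMap (kA A) (Ft M' A) (resA A a), algebraMap (kA A) (Ft M' A) (resA A a)) :=
  Prod.ext ((redN_fst M' p A _).trans (rho1_const M' p A a))
    ((redN_snd M' p A _).trans (rho2_const M' p A a))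

/-- **`RedCtxN.pi_nonunit` at the instance.** -/
theorem resA_nonunit (a : ↥A) (ha : ¬ IsUnit a) : resA A a = 0 :=
  (IsLocalRing.residue_eq_zero_iff a).mpr ((IsLocalRing.mem_maximalIdeal a).mpr ha)


/-! ### scaling for the first Gauss valuation -/

/-- **Scaling at `O1`**: every nonzero function of the bad level is a nonzero constant times a Gauss
unit (fraction of two functions with `A`-integral `q`-expansions of nonzero reduction). -/
theorem exists_scale1 (hp2 : p ≠ 2) (hpM : ¬ p ∣ M') (hM : 4 ∣ M') (hA : A.LiesOverPrime p)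
    (f : ↥(Fbar (M' * p))) (hf0 : f ≠ 0) :
    ∃ c : Qbar, c ≠ 0 ∧ IsGU (Gq1 M' p A) (redq1 M' p A)
      ((algebraMap Qbar ↥(Fbar (M' * p)) c)⁻¹ * f) := by
  haveI := isAlgebraic_Qbar
  haveI : NeZero p := ⟨(Fact.out : p.Prime).ne_zero⟩
  obtain ⟨K, -, hfin, x', hx', hx'f⟩ :=
    CoeffDescent1.exists_finite_descent (L := Qbar) (F₀ := modularFunctionFieldFull (M' * p)) ⊥ f.2
  haveI := hfin
  haveI : IsDiscreteValuationRing ↥(AK A K) :=
    isDiscreteValuationRing_AK A K (Fact.out : p.Prime).ne_zero hA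
  obtain ⟨π, hπ⟩ := IsDiscreteValuationRing.exists_irreducible ↥(AK A K)
  have hu := isUnif_of_irreducible (AK A K) hπ
  have hx'C : x' ∈ modularFunctionFieldFullC ↥K (M' * p) := by
    rw [← Fermat.Agent.RED.PUR.DegBaseChange25.laurentBaseChange_full_eq]; exact hx'
  have hx'0 : x' ≠ 0 := by
    rintro rfl
    rw [map_zero] at hx'f
    exact hf0 (Subtype.ext hx'f.symm)
  obtain ⟨c, a, b, hc0, haE, hbE, hared, hbred, hrel⟩ :=
    exists_integral_fraction hu (M' * p) hx'C hx'0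
  have hya := Fermat.Agent.ES.V19.ScaleQbar8.coeffMap_subtype_mem A K (M' * p) a haE
  have hyb := Fermat.Agent.ES.V19.ScaleQbar8.coeffMap_subtype_mem A K (M' * p) b hbE
  have hyat := Fermat.Agent.ES.W33.RedMemN16.coeffMap_residue_mem_fullC_bad A hp2 hpM hM hA
    (coeffMap (incl A K) a) hya
  have hybt := Fermat.Agent.ES.W33.RedMemN16.coeffMap_residue_mem_fullC_bad A hp2 hpM hM hA
    (coeffMap (incl A K) b) hyb
  -- the two elements of the Gauss ring
  set ga : ↥(Gq1 M' p A) :=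
    ⟨⟨coeffMap A.subtype (coeffMap (incl A K) a), hya⟩,
      mem_gaussRing_of_coeffMap A (resA A) _ _ _ hya hyat⟩ with hga
  set gb : ↥(Gq1 M' p A) :=
    ⟨⟨coeffMap A.subtype (coeffMap (incl A K) b), hyb⟩,
      mem_gaussRing_of_coeffMap A (resA A) _ _ _ hyb hybt⟩ with hgb
  have hreda : redq1 M' p A ga ≠ 0 := by
    intro h0
    have h1 := gaussRed_mk A (resA A) _ _ _ hya hyat
    rw [← hga] at h1
    rw [h1] at h0
    exact Fermat.Agent.ES.V19.ScaleQbar8.coeffMap_residue_ne_zero A K a hared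
      (congrArg Subtype.val h0)
  have hredb : redq1 M' p A gb ≠ 0 := by
    intro h0
    have h1 := gaussRed_mk A (resA A) _ _ _ hyb hybt
    rw [← hgb] at h1
    rw [h1] at h0
    exact Fermat.Agent.ES.V19.ScaleQbar8.coeffMap_residue_ne_zero A K b hbred
      (congrArg Subtype.val h0)
  have hcQ : algebraMap K Qbar c ≠ 0 := by
    rw [Ne, map_eq_zero]; exact hc0
  -- the relation `f * yb = c * ya`
  have hrelQ : f * ((gb : ↥(Gq1 M' p A)) : ↥(Fbar (M' * p))) =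
      algebraMap Qbar _ (algebraMap K Qbar c) * ((ga : ↥(Gq1 M' p A)) : ↥(Fbar (M' * p))) := by
    apply Subtype.ext
    show (f : LaurentSeries Qbar) * coeffMap A.subtype (coeffMap (incl A K) b) =
      algebraMap Qbar (LaurentSeries Qbar) (algebraMap K Qbar c) *
        coeffMap A.subtype (coeffMap (incl A K) a)
    rw [coeffMap_subtype_incl, coeffMap_subtype_incl, ← hx'f, ← map_mul, hrel, map_mul,
      Fermat.Agent.RED.PUR.GaussGen8.coeffMap_C, algebraMap_eq_C (K := Qbar)]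
  refine ⟨algebraMap K Qbar c, hcQ, ga, gb, hreda, hredb, ?_⟩
  have hcF : algebraMap Qbar ↥(Fbar (M' * p)) (algebraMap K Qbar c) ≠ 0 := by
    rw [Ne, map_eq_zero]; exact hcQ
  rw [mul_assoc, hrelQ, ← mul_assoc, inv_mul_cancel₀ hcF, one_mul]


/-! ### `O1` and `O2` are valuation rings of `F` -/

theorem mem_O1_of_isGU {u : ↥(Fbar (M' * p))} (hu : IsGU (Gq1 M' p A) (redq1 M' p A) u) :
    u ∈ O1 M' p A := hu.isGI

theorem rho1_ne_zero_of_isGU {u : ↥(Fbar (M' * p))} (hu : IsGU (Gq1 M' p A) (redq1 M' p A) u)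
    (h : u ∈ O1 M' p A) : rho1 M' p A ⟨u, h⟩ ≠ 0 :=
  (isGU_iff_rho_ne_zero (G := Gq1 M' p A) (red := redq1 M' p A) ⟨u, h⟩).mp hu

/-- **`O1` is a valuation ring of `F`.** -/
theorem mem_O1_or_inv_mem (hp2 : p ≠ 2) (hpM : ¬ p ∣ M') (hM : 4 ∣ M') (hA : A.LiesOverPrime p)
    (f : ↥(Fbar (M' * p))) : f ∈ O1 M' p A ∨ f⁻¹ ∈ O1 M' p A := by
  by_cases hf0 : f = 0
  · left; rw [hf0]; exact zero_mem _
  obtain ⟨c, hc0, hu⟩ := exists_scale1 M' p A hp2 hpM hM hA f hf0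
  have hcF : algebraMap Qbar ↥(Fbar (M' * p)) c ≠ 0 := by
    rw [Ne, map_eq_zero]; exact hc0
  rcases A.mem_or_inv_mem c with hc | hc
  · left
    have h1 : f = algebraMap Qbar ↥(Fbar (M' * p)) c *
        ((algebraMap Qbar ↥(Fbar (M' * p)) c)⁻¹ * f) := by
      rw [← mul_assoc, mul_inv_cancel₀ hcF, one_mul]
    rw [h1]
    exact mul_mem (const_mem_O1 M' p A ⟨c, hc⟩) (mem_O1_of_isGU M' p A hu)
  · right
    have h1 : f⁻¹ = algebraMap Qbar ↥(Fbar (M' * p)) c⁻¹ *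
        ((algebraMap Qbar ↥(Fbar (M' * p)) c)⁻¹ * f)⁻¹ := by
      rw [mul_inv, inv_inv, map_inv₀, ← mul_assoc, inv_mul_cancel₀ hcF, one_mul]
    rw [h1]
    exact mul_mem (const_mem_O1 M' p A ⟨c⁻¹, hc⟩) (inv_mem_gaussInt_of_isGU hu)

/-- **`O2` is a valuation ring of `F`.** -/
theorem mem_O2_or_inv_mem (hp2 : p ≠ 2) (hpM : ¬ p ∣ M') (hM : 4 ∣ M') (hA : A.LiesOverPrime p)
    (f : ↥(Fbar (M' * p))) : f ∈ O2 M' p A ∨ f⁻¹ ∈ O2 M' p A := by
  rw [mem_O2_iff, mem_O2_iff, map_inv₀]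
  exact mem_O1_or_inv_mem M' p A hp2 hpM hM hA _

theorem redN_ne_zero_of_isGU {x : ↥(Fbar (M' * p))} (h : x ∈ GN M' p A)
    (hu : IsGU (Gq1 M' p A) (redq1 M' p A) x) : redN M' p A ⟨x, h⟩ ≠ 0 := by
  intro h0
  have h4 : (redN M' p A ⟨x, h⟩).1 = 0 := by rw [h0]; rfl
  rw [redN_fst] at h4
  exact rho1_ne_zero_of_isGU M' p A hu _ h4

theorem redN_ne_zero_of_isGU_fricke {x : ↥(Fbar (M' * p))} (h : x ∈ GN M' p A)
    (hu : IsGU (Gq1 M' p A) (redq1 M' p A) (frickeN M' p x)) : redN M' p A ⟨x, h⟩ ≠ 0 := by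
  intro h0
  have h4 : (redN M' p A ⟨x, h⟩).2 = 0 := by rw [h0]; rfl
  rw [redN_snd, rho2_apply] at h4
  exact rho1_ne_zero_of_isGU M' p A hu _ h4

/-! ### scaling by the minimum of the two Gauss valuations -/

/-- **`RedCtxN.scale` at the instance.** -/
theorem scaleN (hp2 : p ≠ 2) (hpM : ¬ p ∣ M') (hM : 4 ∣ M') (hA : A.LiesOverPrime p)
    (f : ↥(Fbar (M' * p))) (hf0 : f ≠ 0) :
    ∃ c : Qbar, c ≠ 0 ∧ ∃ h : (algebraMap Qbar ↥(Fbar (M' * p)) c)⁻¹ * f ∈ GN M' p A,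
      redN M' p A ⟨_, h⟩ ≠ 0 := by
  obtain ⟨c₁, hc₁, hu₁⟩ := exists_scale1 M' p A hp2 hpM hM hA f hf0
  have hWf0 : frickeN M' p f ≠ 0 := by
    rw [Ne, map_eq_zero_iff _ (frickeN M' p).injective]; exact hf0
  obtain ⟨c₂, hc₂, hu₂⟩ := exists_scale1 M' p A hp2 hpM hM hA (frickeN M' p f) hWf0
  have hc₁F : algebraMap Qbar ↥(Fbar (M' * p)) c₁ ≠ 0 := by
    rw [Ne, map_eq_zero]; exact hc₁
  have hc₂F : algebraMap Qbar ↥(Fbar (M' * p)) c₂ ≠ 0 := by
    rw [Ne, map_eq_zero]; exact hc₂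
  have hW : ∀ c : Qbar, frickeN M' p ((algebraMap Qbar ↥(Fbar (M' * p)) c)⁻¹ * f) =
      (algebraMap Qbar ↥(Fbar (M' * p)) c)⁻¹ * frickeN M' p f := by
    intro c
    rw [map_mul, map_inv₀, frickeN_const]
  rcases A.mem_or_inv_mem (c₁⁻¹ * c₂) with hd | hd
  · -- `v(c₁) ≤ v(c₂)`: scale by `c₁`
    have h2 : (algebraMap Qbar ↥(Fbar (M' * p)) c₁)⁻¹ * f ∈ O2 M' p A := by
      rw [mem_O2_iff, hW]
      have h3 : (algebraMap Qbar ↥(Fbar (M' * p)) c₁)⁻¹ * frickeN M' p f =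
          algebraMap Qbar ↥(Fbar (M' * p)) (c₁⁻¹ * c₂) *
            ((algebraMap Qbar ↥(Fbar (M' * p)) c₂)⁻¹ * frickeN M' p f) := by
        rw [map_mul, map_inv₀, mul_assoc, ← mul_assoc (algebraMap Qbar ↥(Fbar (M' * p)) c₂),
          mul_inv_cancel₀ hc₂F, one_mul]
      rw [h3]
      exact mul_mem (const_mem_O1 M' p A ⟨_, hd⟩) (mem_O1_of_isGU M' p A hu₂)
    exact ⟨c₁, hc₁, ⟨mem_O1_of_isGU M' p A hu₁, h2⟩, redN_ne_zero_of_isGU M' p A _ hu₁⟩
  · -- `v(c₂) ≤ v(c₁)`: scale by `c₂`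
    have h1 : (algebraMap Qbar ↥(Fbar (M' * p)) c₂)⁻¹ * f ∈ O1 M' p A := by
      have h3 : (algebraMap Qbar ↥(Fbar (M' * p)) c₂)⁻¹ * f =
          algebraMap Qbar ↥(Fbar (M' * p)) (c₁⁻¹ * c₂)⁻¹ *
            ((algebraMap Qbar ↥(Fbar (M' * p)) c₁)⁻¹ * f) := by
        have h5 : algebraMap Qbar ↥(Fbar (M' * p)) (c₁⁻¹ * c₂)⁻¹ =
            (algebraMap Qbar ↥(Fbar (M' * p)) c₂)⁻¹ * algebraMap Qbar ↥(Fbar (M' * p)) c₁ := by
          rw [mul_inv, inv_inv, map_mul, map_inv₀,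
            mul_comm (algebraMap Qbar ↥(Fbar (M' * p)) c₁)]
        rw [h5, mul_assoc, ← mul_assoc (algebraMap Qbar ↥(Fbar (M' * p)) c₁),
          mul_inv_cancel₀ hc₁F, one_mul]
      rw [h3]
      exact mul_mem (const_mem_O1 M' p A ⟨_, hd⟩) (mem_O1_of_isGU M' p A hu₁)
    have h2 : (algebraMap Qbar ↥(Fbar (M' * p)) c₂)⁻¹ * f ∈ O2 M' p A := by
      rw [mem_O2_iff, hW]
      exact mem_O1_of_isGU M' p A hu₂
    have hu₂' : IsGU (Gq1 M' p A) (redq1 M' p A)
        (frickeN M' p ((algebraMap Qbar ↥(Fbar (M' * p)) c₂)⁻¹ * f)) := by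
      rw [hW]; exact hu₂
    exact ⟨c₂, hc₂, ⟨h1, h2⟩, redN_ne_zero_of_isGU_fricke M' p A _ hu₂'⟩

/-! ### the series criterion -/

/-- the reduction of a Gauss-integral function is computed by ANY fraction of `A`-integral series. -/
theorem isRedOf_series {X : ↥(Fbar (M' * p))} {φ : Ft M' A}
    (h : IsRedOf (Gq1 M' p A) (redq1 M' p A) X φ) (S₀ A₀ : LaurentSeries ↥A)
    (hrel : (X : LaurentSeries Qbar) * coeffMap A.subtype S₀ = coeffMap A.subtype A₀) :
    (φ : LaurentSeries (kA A)) * coeffMap (resA A) S₀ = coeffMap (resA A) A₀ := by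
  obtain ⟨a, b, hb, hXb, hφ⟩ := h
  have h1 : (X : LaurentSeries Qbar) *
      coeffMap A.subtype (gaussLift A (resA A) _ _ b) =
        coeffMap A.subtype (gaussLift A (resA A) _ _ a) := by
    rw [coeffMap_gaussLift, coeffMap_gaussLift]
    exact congrArg Subtype.val hXb
  have h2 : coeffMap A.subtype (A₀ * gaussLift A (resA A) _ _ b) =
      coeffMap A.subtype (S₀ * gaussLift A (resA A) _ _ a) := by
    rw [map_mul, map_mul, ← hrel, ← h1]; ring
  have h3 := coeffMap_subtype_injective A h2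
  have h4 := congrArg (coeffMap (resA A)) h3
  rw [map_mul, map_mul] at h4
  have h5 : (φ : LaurentSeries (kA A)) * coeffMap (resA A) (gaussLift A (resA A) _ _ b) =
      coeffMap (resA A) (gaussLift A (resA A) _ _ a) := congrArg Subtype.val hφ
  have hb0 : coeffMap (resA A) (gaussLift A (resA A) _ _ b) ≠ 0 := fun h0 =>
    hb (Subtype.ext h0)
  apply mul_right_cancel₀ hb0
  rw [h4, ← h5]; ring

/-- **Series criterion, membership**: a function which is a fraction of `A`-integral series with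
denominator of nonzero reduction lies in `O1`. -/
theorem mem_O1_of_series (hp2 : p ≠ 2) (hpM : ¬ p ∣ M') (hM : 4 ∣ M') (hA : A.LiesOverPrime p)
    (X : ↥(Fbar (M' * p))) (S₀ A₀ : LaurentSeries ↥A) (hS : coeffMap (resA A) S₀ ≠ 0)
    (hrel : (X : LaurentSeries Qbar) * coeffMap A.subtype S₀ = coeffMap A.subtype A₀) :
    X ∈ O1 M' p A := by
  by_cases hX0 : X = 0
  · rw [hX0]; exact zero_mem _
  obtain ⟨c, hc0, hu⟩ := exists_scale1 M' p A hp2 hpM hM hA X hX0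
  have hcF : algebraMap Qbar ↥(Fbar (M' * p)) c ≠ 0 := by
    rw [Ne, map_eq_zero]; exact hc0
  by_cases hc : c ∈ A
  · have h1 : X = algebraMap Qbar ↥(Fbar (M' * p)) c *
        ((algebraMap Qbar ↥(Fbar (M' * p)) c)⁻¹ * X) := by
      rw [← mul_assoc, mul_inv_cancel₀ hcF, one_mul]
    rw [h1]
    exact mul_mem (const_mem_O1 M' p A ⟨c, hc⟩) (mem_O1_of_isGU M' p A hu)
  · exfalso
    have hd : c⁻¹ ∈ A := (A.mem_or_inv_mem c).resolve_left hc
    have hdu : ¬ IsUnit (⟨c⁻¹, hd⟩ : ↥A) := by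
      intro hU
      obtain ⟨e, he⟩ := hU.exists_right_inv
      apply hc
      have h2 : c⁻¹ * (e : Qbar) = 1 := congrArg Subtype.val he
      have h3 : c = (e : Qbar) := by
        rw [← mul_one c, ← h2, ← mul_assoc, mul_inv_cancel₀ hc0, one_mul]
      rw [h3]; exact e.2
    obtain ⟨φ, hφ0, hφ⟩ := hu.exists_isRedOf
    have hrel' : (((algebraMap Qbar ↥(Fbar (M' * p)) c)⁻¹ * X : ↥(Fbar (M' * p))) :
        LaurentSeries Qbar) * coeffMap A.subtype S₀ =
          coeffMap A.subtype (HahnSeries.single 0 (⟨c⁻¹, hd⟩ : ↥A) * A₀) := by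
      rw [map_mul, coeffMap_subtype_C, ← hrel, ← map_inv₀]
      show (algebraMap Qbar (LaurentSeries Qbar) c⁻¹ * (X : LaurentSeries Qbar)) * _ = _
      ring
    have h4 := isRedOf_series M' p A hφ S₀ _ hrel'
    rw [map_mul, Fermat.Agent.ES.RED.GaussRing15.coeffMap_C, resA_nonunit A _ hdu, map_zero,
      zero_mul] at h4
    rcases mul_eq_zero.mp h4 with h5 | h5
    · exact hφ0 (Subtype.ext h5)
    · exact hS h5

/-- **THE SERIES CRITERION** for `O1`: if `X · S = A₀` in `ℚ̄((q))` with `S, A₀ ∈ A((q))` and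
`S̄ ≠ 0`, then `X ∈ O1` and `rho1 X · S̄ = Ā₀`. -/
theorem series_criterion (hp2 : p ≠ 2) (hpM : ¬ p ∣ M') (hM : 4 ∣ M') (hA : A.LiesOverPrime p)
    (X : ↥(Fbar (M' * p))) (S₀ A₀ : LaurentSeries ↥A) (hS : coeffMap (resA A) S₀ ≠ 0)
    (hrel : (X : LaurentSeries Qbar) * coeffMap A.subtype S₀ = coeffMap A.subtype A₀) :
    ∃ hX : X ∈ O1 M' p A,
      ((rho1 M' p A ⟨X, hX⟩ : Ft M' A) : LaurentSeries (kA A)) * coeffMap (resA A) S₀ =
        coeffMap (resA A) A₀ :=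
  ⟨mem_O1_of_series M' p A hp2 hpM hM hA X S₀ A₀ hS hrel,
    isRedOf_series M' p A (isRedOf_rho (Gq1 M' p A) (redq1 M' p A) ⟨X, _⟩) S₀ A₀ hrel⟩

end Fermat.Agent.ES.W33.NodalGauss3
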