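/-
Programme W (S33), chapter (B3′), THE INSTANCE (helper3): **comparison of the Gauss valuation rings of
Programme N at a number-field level `K` with the `ℚ̄`-level rings of `W33/NodalDefs3`.**

`K ⊂ ℚ̄` any intermediate field, `π` a uniformiser of `A ∩ K`, `FK (M' * p) K ⊂ K((q))` the function field
of level `N' = M' * p` over `K`, `baseChangeHom : FK (M' * p) K → Fbar (M' * p)` the coefficientwise
inclusion, `resMap A K : Res (A ∩ K) → k̄` the inclusion of residue fields.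

* `bc_mem_O1` : `x ∈ ModelDefs9.O1 M' p hπ hE` ⇒ `bc x ∈ NodalDefs3.O1 M' p A` and
  `rho1 (bc x) = coeffMap (resMap A K) (gaussRed (A ∩ K) x)`;
* `bc_mem_O2` : the same for `O2` (expansion at the cusp `0`, `iota2`), with `rho2`;
* `bc_mem_GN` : `x ∈ O1_K ⊓ O2_K` ⇒ `bc x ∈ GN` and `redN (bc x)` is the pair of the two coefficientwise
  inclusions.

Proof: `NodalGauss3.series_criterion` (a function which is a fraction of `A`-integral series with
denominator of nonzero reduction lies in `O1`, and its reduction is the fraction of the reductions)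
+ `FrickeFK8.baseChangeHom_frickeFK` (`W_{N'}` over `K` is the restriction of `W_{N'}` over `ℚ̄`).
-/
import Mathlib
import Fermat.Agent.ES.W33.NodalGauss3
import Fermat.Agent.ES.N34.ModelDefs9

set_option autoImplicit false
set_option synthInstance.maxHeartbeats 400000
set_option linter.unusedSectionVars false
set_option linter.style.haveILetI false

open HahnSeries ModularCurve AlgebraicCurve

noncomputable section

namespace Fermat.Agent.ES.W33.LevelCompare3

open Fermat.Agent.RED.Interface4 Fermat.Agent.RED.DESC Fermat.Agent.RED.DESC.NumberFieldDVR27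
  Fermat.Agent.RED.DESC.PlaceExtend27
  Fermat.Agent.RED.PUR.GaussGen8
  Fermat.Agent.ES.RED.Contract8 Fermat.Agent.ES.RED.GaussUnit25
  Fermat.Agent.ES.RED.ModelInst4 Fermat.Agent.ES.N34.FrickeFK8
  Fermat.Agent.ES.V19.GaussFrac15 Fermat.Agent.ES.V19.InstNames3
  Fermat.Agent.ES.W33.NodalDefs3 Fermat.Agent.ES.W33.NodalGauss3

attribute [local instance 5000] HahnSeries.powerSeriesAlgebra SubalgebraClass.toAlgebra

variable (M' : ℕ) [NeZero M'] (p : ℕ) [Fact p.Prime] [NeZero p] (A : ValuationSubring Qbar)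
  {K : IntermediateField ℚ Qbar}

/-- **Comparison at the cusp `∞`.** -/
theorem bc_mem_O1 (hp2 : p ≠ 2) (hpM : ¬ p ∣ M') (hM : 4 ∣ M') (hA : A.LiesOverPrime p)
    {π : ↥(AK A K)} (hπ : IsUnif (AK A K) π) (hE : FK (M' * p) K ≤ fracField (AK A K))
    (x : FK (M' * p) K) (hx : x ∈ Fermat.Agent.ES.N34.ModelDefs9.O1 M' p hπ hE) :
    ∃ hX : baseChangeHom (M' * p) K x ∈ O1 M' p A,
      ((rho1 M' p A ⟨baseChangeHom (M' * p) K x, hX⟩ : Ft M' A) : LaurentSeries (kA A)) =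
        coeffMap (resMap A K) (gaussRed (AK A K) ⟨(x : LaurentSeries K), hx⟩) := by
  obtain ⟨a, s, hrep⟩ := hx
  have hS : coeffMap (resA A) (coeffMap (incl A K) s) ≠ 0 :=
    Fermat.Agent.ES.V19.ScaleQbar8.coeffMap_residue_ne_zero A K s hrep.1
  have hrel : ((baseChangeHom (M' * p) K x : Fbar (M' * p)) : LaurentSeries Qbar) *
      coeffMap A.subtype (coeffMap (incl A K) s) = coeffMap A.subtype (coeffMap (incl A K) a) := by
    rw [coe_baseChangeHom, coeffMap_subtype_incl, coeffMap_subtype_incl, ← map_mul, hrep.2]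
  obtain ⟨hX, hρ⟩ := series_criterion M' p A hp2 hpM hM hA _ _ _ hS hrel
  refine ⟨hX, ?_⟩
  rw [gaussRed_eq (AK A K) (f := ⟨(x : LaurentSeries K), ⟨a, s, hrep⟩⟩) hrep, map_div₀,
    ← coeffMap_residue_incl, ← coeffMap_residue_incl]
  exact eq_div_of_mul_eq hS hρ

/-- `W_{N'}` over `K` is the restriction of `W_{N'}` over `ℚ̄`. -/
theorem bc_wN (x : FK (M' * p) K) :
    baseChangeHom (M' * p) K (Fermat.Agent.ES.N34.ModelDefs9.wN K M' p x) =
      frickeN M' p (baseChangeHom (M' * p) K x) :=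
  baseChangeHom_frickeFK (M' * p) K x

/-- **Comparison at the cusp `0`.** -/
theorem bc_mem_O2 (hp2 : p ≠ 2) (hpM : ¬ p ∣ M') (hM : 4 ∣ M') (hA : A.LiesOverPrime p)
    {π : ↥(AK A K)} (hπ : IsUnif (AK A K) π) (hE : FK (M' * p) K ≤ fracField (AK A K))
    (x : FK (M' * p) K) (hx : x ∈ Fermat.Agent.ES.N34.ModelDefs9.O2 M' p hπ hE) :
    ∃ hX : baseChangeHom (M' * p) K x ∈ O2 M' p A,
      ((rho2 M' p A ⟨baseChangeHom (M' * p) K x, hX⟩ : Ft M' A) : LaurentSeries (kA A)) =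
        coeffMap (resMap A K) (gaussRed (AK A K)
          ⟨Fermat.Agent.ES.N34.ModelDefs9.iota2 K M' p x, hx⟩) := by
  obtain ⟨hX, hρ⟩ := bc_mem_O1 M' p A hp2 hpM hM hA hπ hE
    (Fermat.Agent.ES.N34.ModelDefs9.wN K M' p x) hx
  have hX2 : frickeN M' p (baseChangeHom (M' * p) K x) ∈ O1 M' p A := by
    rw [← bc_wN]; exact hX
  refine ⟨(mem_O2_iff M' p A _).mpr hX2, ?_⟩
  rw [rho2_apply]
  have h1 : (⟨frickeN M' p (baseChangeHom (M' * p) K x), hX2⟩ : ↥(O1 M' p A)) =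
      ⟨baseChangeHom (M' * p) K (Fermat.Agent.ES.N34.ModelDefs9.wN K M' p x), hX⟩ :=
    Subtype.ext (bc_wN M' p x).symm
  show ((rho1 M' p A ⟨frickeN M' p (baseChangeHom (M' * p) K x), hX2⟩ : Ft M' A) :
    LaurentSeries (kA A)) = _
  rw [h1]
  exact hρ

/-- **Comparison for the ring `G = O1 ∩ O2`.** -/
theorem bc_mem_GN (hp2 : p ≠ 2) (hpM : ¬ p ∣ M') (hM : 4 ∣ M') (hA : A.LiesOverPrime p)
    {π : ↥(AK A K)} (hπ : IsUnif (AK A K) π) (hE : FK (M' * p) K ≤ fracField (AK A K))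
    (x : FK (M' * p) K) (hx1 : x ∈ Fermat.Agent.ES.N34.ModelDefs9.O1 M' p hπ hE)
    (hx2 : x ∈ Fermat.Agent.ES.N34.ModelDefs9.O2 M' p hπ hE) :
    ∃ hX : baseChangeHom (M' * p) K x ∈ GN M' p A,
      (((redN M' p A ⟨baseChangeHom (M' * p) K x, hX⟩).1 : Ft M' A) : LaurentSeries (kA A)) =
        coeffMap (resMap A K) (gaussRed (AK A K) ⟨(x : LaurentSeries K), hx1⟩) ∧
      (((redN M' p A ⟨baseChangeHom (M' * p) K x, hX⟩).2 : Ft M' A) : LaurentSeries (kA A)) =
        coeffMap (resMap A K) (gaussRed (AK A K)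
          ⟨Fermat.Agent.ES.N34.ModelDefs9.iota2 K M' p x, hx2⟩) := by
  obtain ⟨h1, hρ1⟩ := bc_mem_O1 M' p A hp2 hpM hM hA hπ hE x hx1
  obtain ⟨h2, hρ2⟩ := bc_mem_O2 M' p A hp2 hpM hM hA hπ hE x hx2
  exact ⟨⟨h1, h2⟩, by rw [redN_fst]; exact hρ1, by rw [redN_snd]; exact hρ2⟩

end Fermat.Agent.ES.W33.LevelCompare3
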