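/-
Programme W (S33), chapter B1' (`h¹` of the twisted Čech complex of the NODAL fibre), helper24:
**the level-`K` inputs (M1) + (M2) of B1' over all large GALOIS number fields**, unconditionally,
from main's nodal model `N34/ModelEnd4.modelInput_four` (`p` odd, base `(n, e) = (4, 8)`, `4 ∣ M'`,
`p ∤ M'`, bad level `M' * p`).

* `levelInputsN` : there is a number field `K₀` such that for every number field `K ⊇ K₀` normal over
  `ℚ` there are `ht : tq K 4 8 ∈ FK M' K` and `hE : FK (M' p) K ≤ fracField (A ∩ K)` such that, with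
  `tK := ModelDefs9.tN p ht` (the Hauptmodul at the bad level):
  - `baseChangeHom (M' p) K tK = NodalDefs3.tN 4 8 M' p baseHyp_four hnM`,
  - (M1) `CechIface12.FGProp A (M' p) K tK`, `M0 ≤ M01`, `M1 m ≤ M01`,
  - **`CechIfaceN24.M01LeGN`** : `M₀₁ ⊆ GN` (from helper3's `LevelCompare3.bc_mem_GN` +
    `NodalGauss3.const_mem_GN`),
  - (M2) `KerPropN24.KerPropN A (M' p) K tK` (kernel of the two `q`-expansion reductions) and
    **`CechIfaceN24.KerPropN`** (the `redN` form),
  - `M01` is a finite `A[t, t⁻¹]`-module (`FinSpanN24.fin01_nodal`, for (M5)),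
  - the nodal data `NodalDataAt … (B0 A p ht) (B1 A p ht) (O1 M' p hπ hE) (O2 M' p hπ hE)` for every
    uniformiser `π` of `A ∩ K` (for (M4-inst)).
* `exists_galois_ge` : every number field is contained in one normal over `ℚ`.
-/
import Mathlib
import Fermat.Agent.ES.N34.ModelEnd4
import Fermat.Agent.RED.CUSP.RankConcrete16
import Fermat.Agent.Lib.FrobeniusExists
import Fermat.Agent.ES.V19.CechFG24
import Fermat.Agent.ES.W33.NodalDefs3
import Fermat.Agent.ES.W33.CechFGN24
import Fermat.Agent.ES.W33.KerPropN24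
import Fermat.Agent.ES.W33.FinSpanN24
import Fermat.Agent.ES.W33.CechIfaceN24
import Fermat.Agent.ES.W33.LevelCompare3
import Fermat.Agent.ES.V19.SurjProp17

set_option autoImplicit false
set_option linter.unusedSectionVars false
set_option linter.dupNamespace false
set_option synthInstance.maxHeartbeats 400000
set_option maxHeartbeats 1000000

open HahnSeries ModularCurve IntermediateField

noncomputable section

namespace Fermat.Agent.ES.W33.LevelInstN24

open Fermat.Agent.RED.Interface4 Fermat.Agent.RED.DESC.PlaceExtend27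
  Fermat.Agent.RED.DESC.NumberFieldDVR27
  Fermat.Agent.RED.PUR.ChartGeneric22 Fermat.Agent.RED.PUR.GaussGen8
  Fermat.Agent.RED.BASE.EtaQuot12 Fermat.Agent.RED.BASE.Hauptmodul12
  Fermat.Agent.ES.V19.CechIface12 Fermat.Agent.ES.N34.ModelDefs9
  Fermat.Agent.ES.N34.ModelInput13

/-- every number field inside `ℚ̄` is contained in one which is normal over `ℚ`. -/
theorem exists_galois_ge (K₁ : IntermediateField ℚ Qbar) [FiniteDimensional ℚ K₁] :
    ∃ K : IntermediateField ℚ Qbar, Normal ℚ K ∧ FiniteDimensional ℚ K ∧ K₁ ≤ K := by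
  have hgal : IsGalois ℚ Qbar := Fermat.Agent.Lib.FrobeniusExists.isGalois_Qbar
  have hnorQ : Normal ℚ Qbar := hgal.to_normal
  have halgQ : Algebra.IsAlgebraic ℚ Qbar := isAlgebraic_Qbar
  exact ⟨IntermediateField.normalClosure ℚ K₁ Qbar, normalClosure.normal ℚ K₁ Qbar,
    normalClosure.is_finiteDimensional ℚ K₁ Qbar, IntermediateField.le_normalClosure K₁⟩

variable (M' : ℕ) [NeZero M'] (p : ℕ) [Fact p.Prime] (A : ValuationSubring Qbar)

/-- **`M₀₁ ⊆ GN`** from the nodal model at level `K` (chart elements and `t⁻¹` lie in both Gauss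
valuation rings of level `K`), helper3's level comparison and the constants of `A`. -/
theorem m01LeGN_of_model (hpM : ¬ p ∣ M') (hp2 : p ≠ 2) (hM : 4 ∣ M') (hA : A.LiesOverPrime p)
    {K : IntermediateField ℚ Qbar} {π : ↥(AK A K)} (hπ : IsUnif (AK A K) π)
    (hE : FK (M' * p) K ≤ fracField (AK A K)) {tK : ↥(FK (M' * p) K)}
    (hm : Fermat.Agent.ES.N34.NodalCore13.NodalTwoChartModel ↥(AK A K) ↥(FK (M' * p) K) π tK
      (chart ↥(AK A K) tK) (chart ↥(AK A K) tK⁻¹) (O1 M' p hπ hE) (O2 M' p hπ hE)) :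
    Fermat.Agent.ES.W33.CechIfaceN24.M01LeGN M' p A K tK := by
  intro f hf
  refine Submodule.span_induction
    (p := fun f _ => f ∈ Fermat.Agent.ES.W33.NodalDefs3.GN M' p A) ?_ ?_ ?_ ?_ hf
  · rintro _ ⟨x, hx, rfl⟩
    have hxG := Fermat.Agent.ES.W33.KerPropN24.mem_GK_of_chart hm
      (fun x => mem_O1_iff M' p hπ hE x) (fun x => mem_O2_iff M' p hπ hE x) hx
    exact (Fermat.Agent.ES.W33.LevelCompare3.bc_mem_GN M' p A hp2 hpM hM hA hπ hE x
      ((mem_O1_iff M' p hπ hE x).mpr hxG.1) ((mem_O2_iff M' p hπ hE x).mpr hxG.2)).1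
  · exact zero_mem _
  · intro x y _ _ hx hy
    exact add_mem hx hy
  · intro a x _ hx
    rw [Fermat.Agent.ES.V19.SurjProp17.smul_eq_mul a x]
    exact (Fermat.Agent.ES.W33.NodalDefs3.GN M' p A).mul_mem
      (Fermat.Agent.ES.W33.NodalGauss3.const_mem_GN M' p A a) hx

/-- **(M1) + (M2) (+ finiteness over `A[t, t⁻¹]`, + the nodal data) over all large Galois number
fields.** -/
theorem levelInputsN (hpM : ¬ p ∣ M') (hp2 : p ≠ 2) (hM : 4 ∣ M') (hA : A.LiesOverPrime p) :
    ∃ K₀ : IntermediateField ℚ Qbar, FiniteDimensional ℚ K₀ ∧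
      ∀ (K : IntermediateField ℚ Qbar) [Normal ℚ K], FiniteDimensional ℚ K → K₀ ≤ K →
        ∃ (ht : tq ↥K 4 8 ∈ FK M' K) (hE : FK (M' * p) K ≤ fracField (AK A K)),
          baseChangeHom (M' * p) K (tN p ht) =
              Fermat.Agent.ES.W33.NodalDefs3.tN 4 8 M' p baseHyp_four hM ∧
            FGProp A (M' * p) K (tN p ht) ∧
            M0 A (M' * p) K (tN p ht) ≤ M01 A (M' * p) K (tN p ht) ∧
            (∀ m : ℕ, M1 A (M' * p) K (tN p ht) m ≤ M01 A (M' * p) K (tN p ht)) ∧
            Fermat.Agent.ES.W33.CechIfaceN24.M01LeGN M' p A K (tN p ht) ∧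
            Fermat.Agent.ES.W33.KerPropN24.KerPropN A (M' * p) K (tN p ht) ∧
            Fermat.Agent.ES.W33.CechIfaceN24.KerPropN M' p A K (tN p ht) ∧
            (∃ (r : ℕ) (e : Fin r → ↥(Fbar (M' * p))),
              (∀ i, e i ∈ M0 A (M' * p) K (tN p ht)) ∧
              ∀ x ∈ M01 A (M' * p) K (tN p ht),
                ∃ ρ : Fin r → ↥(Algebra.adjoin ↥A
                    ({baseChangeHom (M' * p) K (tN p ht),
                      baseChangeHom (M' * p) K (tN p ht)⁻¹} : Set ↥(Fbar (M' * p)))),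
                  x = ∑ i, ((ρ i : ↥(Algebra.adjoin ↥A
                    ({baseChangeHom (M' * p) K (tN p ht),
                      baseChangeHom (M' * p) K (tN p ht)⁻¹} : Set ↥(Fbar (M' * p))))) :
                        ↥(Fbar (M' * p))) * e i) ∧
            (∃ π : ↥(AK A K), IsUnif (AK A K) π) ∧
            ∀ (π : ↥(AK A K)) (hπ : IsUnif (AK A K) π),
              NodalDataAt (AK A K) (FK (M' * p) K) π (tN p ht) (B0 A p ht) (B1 A p ht)
                (O1 M' p hπ hE) (O2 M' p hπ hE) := by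
  have hp : p.Prime := Fact.out
  obtain ⟨K₀, hK₀, H⟩ :=
    Fermat.Agent.ES.N34.ModelEnd4.modelInput_four p M' A hp hpM hp2 hM hA
  refine ⟨K₀, hK₀, fun K _ hK hle => ?_⟩
  obtain ⟨ht, hE, HK⟩ := H K hK hle
  have hdvr : IsDiscreteValuationRing ↥(AK A K) := isDiscreteValuationRing_AK A K hp.ne_zero hA
  obtain ⟨ϖ, hϖ⟩ := IsDiscreteValuationRing.exists_irreducible ↥(AK A K)
  have hu : IsUnif (AK A K) ϖ := isUnif_of_irreducible (AK A K) hϖ
  have hD := HK ϖ hu
  have hm : Fermat.Agent.ES.N34.NodalCore13.NodalTwoChartModel ↥(AK A K) ↥(FK (M' * p) K) ϖ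
      (tN p ht) (chart ↥(AK A K) (tN p ht)) (chart ↥(AK A K) (tN p ht)⁻¹)
      (O1 M' p hu hE) (O2 M' p hu hE) := hD.model
  have h01 := m01LeGN_of_model M' p A hpM hp2 hM hA hu hE hm
  have hker := Fermat.Agent.ES.W33.KerPropN24.kerPropN hu hm (fun x => mem_O1_iff M' p hu hE x)
      (fun x => mem_O2_iff M' p hu hE x)
  refine ⟨ht, hE, ?_, Fermat.Agent.ES.W33.CechFGN24.fgProp_nodal hm,
    Fermat.Agent.ES.V19.CechFG24.M0_le_M01 A (M' * p) K (tN p ht),
    fun m => Fermat.Agent.ES.W33.CechFGN24.M1_le_M01_nodal hm m, h01, hker,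
    Fermat.Agent.ES.W33.CechIfaceN24.kerPropN_of h01 hker,
    Fermat.Agent.ES.W33.FinSpanN24.fin01_nodal hm, ⟨ϖ, hu⟩, HK⟩
  exact Fermat.Agent.RED.CUSP.RankConcrete16.baseChangeHom_eq_tF (M' * p) K
    (tMem_of_dvd baseHyp_four (Dvd.dvd.mul_right hM p)) (tN p ht) (coe_tN p ht)

end Fermat.Agent.ES.W33.LevelInstN24
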