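/-
Programme W (S33), chapter B1′, **THE EXIT** (helper12): `GeoW23.B1Exit` (in the literal of
`GeoInst23.b1Exit_iff`) at the base `(4, 8)`, from what is still OPEN after `LevelInstN24`, `DegLeN12`,
`Reg01PropN13` and the assembly `GenusLeN12`:

  `C      : RedCtxN A (resA A) N (GN M' p A) (redN M' p A) r`                  (B3′),
  `hνinj  : Function.Injective N.ν₁`                                          (B3′),
  `hnode  : r P = Sum.inr j → ord_P tN = 0`                                   (B3′),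
  `hs     : 0 < s`                                                            (`ConnNodal14` / `NodalCtxRN20`),
  `htr₁   : (redN tN).1 = tResV …`, `htr₂ : Transcendental k̄ (redN tN).2`     (`TransN4`),
  `hM4    : SurjPropN` for all large Galois number fields `K`                  ((M4), `SurjAsmN24` + leaves).

GENERIC in the nodes `N` and the reduction map `r`.  Everything else of B1′ — (M1) finite generation
of the twisted Čech `H¹`, (M2) kernel of the pair reduction, (M3) regularity and glueing on the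
overlap, (M5) the degree inequality, the glued Čech vanishing, the lifting of glued sections and the
Riemann count — is PROVED (helper24, helper13, helper17, helper12).
-/
import Mathlib
import Fermat.Agent.ES.W33.GenusLeN12
import Fermat.Agent.ES.W33.LevelInstN24

set_option autoImplicit false
set_option linter.unusedSectionVars false
set_option linter.style.haveILetI false
set_option synthInstance.maxHeartbeats 400000

open AlgebraicCurve ModularCurve IntermediateField HahnSeries

noncomputable section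

namespace Fermat.Agent.ES.W33.B1ExitN12

open Fermat.Agent.RED.Interface4 Fermat.Agent.RED.DESC.PlaceExtend27
  Fermat.Agent.RED.PUR.ChartGeneric22 Fermat.Agent.RED.BASE.Interface12
  Fermat.Agent.RED.BASE.Hauptmodul12 Fermat.Agent.RED.BASE.EtaQuot12
  Fermat.Agent.ES.RED.Contract8 Fermat.Agent.ES.RED.ModelInst4
  Fermat.Agent.ES.V19.CechIface12 Fermat.Agent.ES.V19.InstNames3
  Fermat.Agent.ES.W33.XiIfaceN29 Fermat.Agent.ES.W33.NodalDefs3
  Fermat.Agent.X0.FF

variable (M' : ℕ) [NeZero M'] (p : ℕ) [Fact p.Prime] (A : ValuationSubring Qbar)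
  {s : ℕ} {N : Nodes (kA A) (Ft M' A) (Ft M' A) s}
  {r : Place Qbar ↥(Fbar (M' * p)) → SPt (kA A) (Ft M' A) (Ft M' A) ⊕ Fin s}

set_option maxHeartbeats 1600000 in
/-- **(B1′) exit.** -/
theorem b1Exit (hpM : ¬ p ∣ M') (hp2 : p ≠ 2) (hM : 4 ∣ M') (hA : A.LiesOverPrime p)
    (C : RedCtxN A (resA A) N (GN M' p A) (redN M' p A) r)
    (hνinj : Function.Injective N.ν₁)
    (hnode : ∀ (P : Place Qbar ↥(Fbar (M' * p))) (j : Fin s),
      r P = Sum.inr j → P.ord (tN 4 8 M' p baseHyp_four hM) = 0)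
    (hs : 0 < s)
    (htr₁ : ∀ htG : tN 4 8 M' p baseHyp_four hM ∈ GN M' p A,
      (redN M' p A ⟨_, htG⟩).1 = tResV 4 8 M' p hpM baseHyp_four hM A hA)
    (htr₂ : ∀ htG : tN 4 8 M' p baseHyp_four hM ∈ GN M' p A,
      Transcendental (kA A) (redN M' p A ⟨_, htG⟩).2)
    (hM4 : ∃ K₁ : IntermediateField ℚ Qbar, FiniteDimensional ℚ K₁ ∧
      ∀ (K : IntermediateField ℚ Qbar) [Normal ℚ K], FiniteDimensional ℚ K → K₁ ≤ K →
        ∀ (ht : tq ↥K 4 8 ∈ FK M' K) (htG : tN 4 8 M' p baseHyp_four hM ∈ GN M' p A),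
          Fermat.Agent.ES.W33.CechIfaceN24.SurjPropN M' p A K
            (Fermat.Agent.ES.N34.ModelDefs9.tN p ht) N (redN M' p A ⟨_, htG⟩)) :
    0 < s ∧ genusFF Qbar ↥(Fbar (M' * p)) ≤
      genusFF (kA A) (Ft M' A) + s - 1 + genusFF (kA A) (Ft M' A) := by
  obtain ⟨K₀, hK₀, H⟩ := Fermat.Agent.ES.W33.LevelInstN24.levelInputsN M' p A hpM hp2 hM hA
  obtain ⟨K₁, hK₁, H4⟩ := hM4
  haveI := hK₀
  haveI := hK₁
  obtain ⟨K, hKn, hKf, hle⟩ := Fermat.Agent.ES.W33.LevelInstN24.exists_galois_ge (K₀ ⊔ K₁)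
  haveI := hKn
  obtain ⟨ht, hE, hbc, hFG, h0, h1, h01, -, hker, hfin, ⟨π, hπ⟩, HK⟩ :=
    H K hKf (le_trans le_sup_left hle)
  have hD := HK π hπ
  have htG : tN 4 8 M' p baseHyp_four hM ∈ GN M' p A :=
    Fermat.Agent.ES.W33.Reg01PropN13.tN_mem_GN hbc h01
  have hS := H4 K hKf (le_trans le_sup_right hle) ht htG
  have hR := Fermat.Agent.ES.W33.CechIfaceN24.reg01PropN_of (N := N) (r := r) C hbc h01 hnode
  exact Fermat.Agent.ES.W33.GenusLeN12.genusFF_le (hpM := hpM) (hA := hA) C hbc hFG h0 h1 hker hfin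
    hD.frac0 _ _ ⟨htG, rfl⟩ (htr₁ htG) (htr₂ htG) hS hR hνinj hnode hs

end Fermat.Agent.ES.W33.B1ExitN12
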