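/-
Programme W (S33), chapter G4' (Lc)+(Ld) on the NODAL model, helper9: **integrality of the normalised
functions `bb_{i,n}`** — the nodal port of `V19/BasisInt9`.

Context = helper29's `XiIfaceN29.RedCtxN A π N G red r` (`G = O₁ ⊓ O₂`, `red : G →+* Ft₁ × Ft₂`, total
reduction `r : Place L F → SPt ⊕ Fin sn`), the setting of `V19/BasisQbar9` on the generic fibre (`Q`, `t`,
`Ps`, `B : BBData HL ht Ps`; UNCHANGED), points `Q̄_i = Qb i` (`r (Q i) = Sum.inl (Qb i)`), helper21's LOCAL
expansion data `X i : DensityInstN21.LocExpN G red r π (Qb i)` with `τ_i = t_i` and the agreement `hagree`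
of the Taylor expansion `tay` with the Laurent expansion `ex` at `Q i`, an auxiliary point `Ps` reducing to a
smooth point `Qs ≠ Q̄_i`, and `hbar` (= `ChartHypN.const_E0bar`: every GLUED section of `O(Ē₀)` is a
constant pair; B2' supplies it: `NodalChartPts9.exists_chart_points`).

* `mem_LN_of_ordS`  : membership in the glued space `N.LN E` from orders on the components;
* `red_mem_LN`      : the reduction of a function of `G` with poles only at the `Q i`, at most SIMPLE poles
                      of its reduction at the `Q̄_i`, lies in `N.LN Ē₀`;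
* `ordS_red_ge`     : (Lc) the pole order of the reduction at `Q̄_l` is bounded by the first Laurent
                      coefficient at `Q l` which does not vanish modulo `𝔪_A`;
* `bb_mem`          : **every `bb i n` lies in `G`** (Gauss-integral for BOTH Gauss valuations);
* `coeff_bb_mem`    : all the Laurent coefficients of the `bb i n` lie in `A`.
-/
import Mathlib
import Fermat.Agent.ES.V19.BasisQbar9
import Fermat.Agent.ES.V19.BasisInt9
import Fermat.Agent.ES.W33.XiIfaceN29
import Fermat.Agent.ES.W33.DensityInstN21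

set_option autoImplicit false

open AlgebraicCurve

noncomputable section

namespace Fermat.Agent.ES.W33.BasisIntN9

open Fermat.Agent.X0.FF Fermat.Agent.RR Fermat.Agent.RR.LSpace
  Fermat.Agent.ES.V19.OnePlaceRep9 Fermat.Agent.ES.V19.ExpandPlace9 Fermat.Agent.ES.V19.BasisQbar9
  Fermat.Agent.ES.W33.XiIfaceN29 Fermat.Agent.ES.W33.DensityInstN21
open Fermat.Agent.ES.V19.SupTrick15 (mapDomain_apply_nonneg mapDomain_apply_pos inv_nonunit_of_notMem)
open Fermat.Agent.ES.V19.BasisInt9 (coeff_expandF_pow_mul)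

variable {L F k Ft₁ Ft₂ : Type*} [Field L] [Field F] [Algebra L F] [Field k]
  [Field Ft₁] [Algebra k Ft₁] [Field Ft₂] [Algebra k Ft₂]
  {A : ValuationSubring L}

/-! ### Sums of points -/

section SumPts

variable {α : Type*} {n : ℕ}

/-- the value of `∑ p_i` at `p_l` (the `p_i` distinct). -/
theorem sumPts_apply_self {p : Fin n → α} (hp : Function.Injective p) (l : Fin n) :
    (∑ i, Finsupp.single (p i) (1 : ℤ)) (p l) = 1 := by
  classical
  rw [Finsupp.finsetSum_apply, Finset.sum_eq_single l]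
  · exact Finsupp.single_eq_same
  · intro j _ hjl
    exact Finsupp.single_eq_of_ne fun h => hjl (hp h.symm)
  · intro h
    exact absurd (Finset.mem_univ l) h

/-- the value of `∑ p_i` outside the `p_i`. -/
theorem sumPts_apply_of_ne {p : Fin n → α} {x : α} (hx : ∀ i, p i ≠ x) :
    (∑ i, Finsupp.single (p i) (1 : ℤ)) x = 0 := by
  classical
  rw [Finsupp.finsetSum_apply]
  apply Finset.sum_eq_zero
  intro j _
  exact Finsupp.single_eq_of_ne fun h => hx j h.symm

/-- `∑ p_i ≥ 0`. -/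
theorem sumPts_apply_nonneg (p : Fin n → α) (x : α) :
    0 ≤ (∑ i, Finsupp.single (p i) (1 : ℤ)) x := by
  classical
  rw [Finsupp.finsetSum_apply]
  apply Finset.sum_nonneg
  intro j _
  rw [Finsupp.single_apply]
  split_ifs <;> norm_num

end SumPts

/-! ### The glued space through orders on the components -/

/-- membership in the glued space `N.LN E` from the orders on the components. -/
theorem mem_LN_of_ordS {sn : ℕ} (N : Nodes k Ft₁ Ft₂ sn) (E : SDiv k Ft₁ Ft₂) (φ : Ft₁ × Ft₂)
    (hord : ∀ x : SPt k Ft₁ Ft₂, NeAt x φ → -E x ≤ ordS x φ) (hglue : ∀ j, N.GluedAt φ j) :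
    φ ∈ N.LN E := by
  refine ⟨?_, ?_, hglue⟩
  · rw [mem_riemannRochSpace_iff]
    intro v
    by_cases h : φ.1 = 0
    · exact Or.inl h
    · exact Or.inr (hord (Sum.inl v) h)
  · rw [mem_riemannRochSpace_iff]
    intro v
    by_cases h : φ.2 = 0
    · exact Or.inl h
    · exact Or.inr (hord (Sum.inr v) h)

/-- at a point which is not smooth (a node place), a glued pair is regular. -/
theorem ordS_nonneg_of_not_isSmooth {sn : ℕ} (N : Nodes k Ft₁ Ft₂ sn) {φ : Ft₁ × Ft₂}
    (hglue : ∀ j, N.GluedAt φ j) {x : SPt k Ft₁ Ft₂} (hx : ¬ N.IsSmooth x) : 0 ≤ ordS x φ := by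
  cases x with
  | inl Q =>
    have hx' : ¬ ∀ j, Q ≠ N.ν₁ j := hx
    push Not at hx'
    obtain ⟨j, rfl⟩ := hx'
    obtain ⟨c, h1, -⟩ := hglue j
    exact ord_nonneg_of_valAt h1
  | inr Q =>
    have hx' : ¬ ∀ j, Q ≠ N.ν₂ j := hx
    push Not at hx'
    obtain ⟨j, rfl⟩ := hx'
    obtain ⟨c, -, h2⟩ := hglue j
    exact ord_nonneg_of_valAt h2

section Ctx

variable {sn : ℕ} {N : Nodes k Ft₁ Ft₂ sn} {G : Subring F} {red : ↥G →+* Ft₁ × Ft₂}
  {r : Place L F → SPt k Ft₁ Ft₂ ⊕ Fin sn} {π : ↥A →+* k}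
  (C : RedCtxN A π N G red r) (HL : LHyp L F)

include C in
/-- `(r1)` at a smooth point, on its component. -/
theorem r1S (g : ↥G) {x : SPt k Ft₁ Ft₂} (hsm : N.IsSmooth x) (hne : NeAt x (red g))
    (D : Divisor L F) (hD : ∀ P, D P = P.ord (g : F)) :
    Finsupp.mapDomain r D (Sum.inl x) = ordS x (red g) := by
  cases x with
  | inl Q => exact C.r1₁ g hne D hD Q hsm
  | inr Q => exact C.r1₂ g hne D hD Q hsm

variable {Q : Fin (genusFF L F) → Place L F} {t : Fin (genusFF L F) → F}
  (ht : ∀ i, (Q i).ord (t i) = 1)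
  {Qb : Fin (genusFF L F) → SPt k Ft₁ Ft₂} (hQb : Function.Injective Qb)
  (hrQ : ∀ i, r (Q i) = Sum.inl (Qb i))

include C HL hQb hrQ in
/-- **the reduction of a function of `G` with poles only at the `Q i` is a glued section of `O(Ē₀)`** as
soon as it has at most simple poles at the `Q̄_i`. -/
theorem red_mem_LN {u : F} (huG : u ∈ G) (hu0 : u ≠ 0) (hu : u ∈ BaK Q)
    (hsimple : ∀ l, NeAt (Qb l) (red ⟨u, huG⟩) → -1 ≤ ordS (Qb l) (red ⟨u, huG⟩)) :
    red ⟨u, huG⟩ ∈ N.LN (∑ i, Finsupp.single (Qb i) (1 : ℤ)) := by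
  -- no pole of `u` reduces to a node
  have hreg : ∀ P : Place L F, (∀ i, Q i ≠ P) → 0 ≤ P.ord u := fun P hP =>
    ffp_ord_nonneg_of_mem P (mem_BaK.mp hu P hP)
  have hglue : ∀ j, N.GluedAt (red ⟨u, huG⟩) j := by
    intro j
    apply C.glue ⟨u, huG⟩ j
    intro P hP
    apply hreg P
    intro i hi
    rw [← hi, hrQ i] at hP
    exact Sum.inl_ne_inr hP
  apply mem_LN_of_ordS N _ _ _ hglue
  intro x hne
  by_cases hsm : N.IsSmooth x
  · by_cases hx : ∃ l, Qb l = x
    · obtain ⟨l, rfl⟩ := hx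
      rw [sumPts_apply_self hQb l]
      exact hsimple l hne
    · push Not at hx
      rw [sumPts_apply_of_ne hx, neg_zero,
        ← r1S C ⟨u, huG⟩ hsm hne (divOf HL hu0) (fun P => divOf_apply HL hu0 P)]
      apply mapDomain_apply_nonneg
      intro P hP
      rw [divOf_apply]
      apply hreg P
      intro i hi
      apply hx i
      have := hrQ i
      rw [hi, hP] at this
      exact (Sum.inl_injective this).symm
  · have h1 := ordS_nonneg_of_not_isSmooth N hglue hsm
    have h2 := sumPts_apply_nonneg Qb x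
    omega

variable (X : ∀ i, LocExpN (A := A) G red r π (Qb i))
  (hτ : ∀ i, (((X i).τ : ↥(X i).CQ) : F) = t i)
  (hagree : ∀ i (f : ↥(X i).CQ) (m : ℕ),
    ((PowerSeries.coeff m ((X i).tay f) : ↥A) : L) = (ex HL ht i (f : F)).coeff (m : ℤ))

include hτ in
/-- `t_l` lies in `G`. -/
theorem t_mem_G (l : Fin (genusFF L F)) : t l ∈ G := by
  rw [← hτ l]
  exact (X l).le_G (X l).τ.2

include hQb hrQ hτ in
/-- `t_l ^ M * f` is regular on the residue disc of `Q̄_l`, for `f` with poles only at the `Q i`, of order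
`≤ M` at `Q l`. -/
theorem regular_on_disc {f : F} (hf : f ∈ BaK Q) (l : Fin (genusFF L F))
    {M : ℕ} (hM : ∀ j : ℤ, j < -(M : ℤ) → (ex HL ht l f).coeff j = 0) (P : Place L F)
    (hP : r P = Sum.inl (Qb l)) : 0 ≤ P.ord (t l ^ M * f) := by
  by_cases hf0 : f = 0
  · rw [hf0, mul_zero, Place.ord_zero]
  have ht0 : t l ≠ 0 := unif_ne_zero (ht l)
  rw [P.ord_mul (pow_ne_zero _ ht0) hf0, ← zpow_natCast, P.ord_zpow]
  by_cases hPQ : P = Q l
  · subst hPQ
    rw [ht l, mul_one]
    have := le_ord_of_coeff_expandF (HL.residue (Q l)) (ht l) hM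
    rcases this with h | h
    · exact absurd h hf0
    · omega
  · have hne : ∀ i, Q i ≠ P := by
      intro i hi
      have h1 : Qb i = Qb l := by
        have := hrQ i
        rw [hi, hP] at this
        exact (Sum.inl_injective this).symm
      have h2 : i = l := hQb h1
      apply hPQ
      rw [← hi, h2]
    have h1 := ffp_ord_nonneg_of_mem P (mem_BaK.mp hf P hne)
    have h2 : 0 ≤ P.ord (t l) := by
      rw [← hτ l]
      exact (X l).reg _ (X l).τ.2 P hP
    have h3 : (0 : ℤ) ≤ (M : ℤ) * P.ord (t l) := mul_nonneg (Int.natCast_nonneg M) h2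
    omega

include hQb hrQ hτ in
/-- `t_l ^ M * f` lies in the local ring `CQ_l`, for `f ∈ G` with poles only at the `Q i`, of order
`≤ M` at `Q l`. -/
theorem pow_mul_mem_CQ {f : F} (hfG : f ∈ G) (hf : f ∈ BaK Q) (l : Fin (genusFF L F))
    {M : ℕ} (hM : ∀ j : ℤ, j < -(M : ℤ) → (ex HL ht l f).coeff j = 0) :
    t l ^ M * f ∈ (X l).CQ :=
  (X l).mem_of_reg _ (G.mul_mem (G.pow_mem (t_mem_G X hτ l) M) hfG)
    (regular_on_disc HL ht hQb hrQ X hτ hf l hM)

/-- a bound for the pole order of the Laurent expansion. -/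
theorem exists_pole_bound (f : F) (l : Fin (genusFF L F)) :
    ∃ M : ℕ, 1 ≤ M ∧ ∀ j : ℤ, j < -(M : ℤ) → (ex HL ht l f).coeff j = 0 := by
  refine ⟨(-(ex HL ht l f).order).toNat + 1, by omega, fun j hj => ?_⟩
  apply HahnSeries.coeff_eq_zero_of_lt_order
  have := Int.self_le_toNat (-(ex HL ht l f).order)
  push_cast at hj
  omega

include hQb hrQ hτ hagree in
/-- **(Lc)**: the Laurent coefficients at the `Q l` of a function of `G` with poles only at the `Q i` lie in
`A`. -/
theorem coeff_mem_of_mem_G {f : F} (hfG : f ∈ G) (hf : f ∈ BaK Q) (l : Fin (genusFF L F)) (m : ℤ) :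
    (ex HL ht l f).coeff m ∈ A := by
  obtain ⟨M, -, hM⟩ := exists_pole_bound HL ht f l
  by_cases hm : m < -(M : ℤ)
  · rw [hM m hm]
    exact A.zero_mem
  · push Not at hm
    obtain ⟨m', hm'⟩ : ∃ m' : ℕ, (m' : ℤ) = m + M := ⟨(m + M).toNat, by omega⟩
    have h := hagree l ⟨_, pow_mul_mem_CQ HL ht hQb hrQ X hτ hfG hf l hM⟩ m'
    rw [hm'] at h
    have h2 := coeff_expandF_pow_mul (HL.residue (Q l)) (ht l) M f m
    change (ex HL ht l (t l ^ M * f)).coeff (m + M) = (ex HL ht l f).coeff m at h2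
    rw [← h2, ← h]
    exact Subtype.coe_prop _

include hQb hrQ hτ hagree in
/-- **(Lc), pole orders**: if the Laurent coefficients of index `< -1` at `Q l` of `u ∈ G` (poles only at
the `Q i`) lie in the kernel of `π`, its reduction has at most a simple pole at `Q̄_l`. -/
theorem ordS_red_ge {u : F} (huG : u ∈ G) (hu : u ∈ BaK Q) (l : Fin (genusFF L F))
    (hcoef : ∀ j : ℤ, j < -1 → ∀ a : ↥A, (a : L) = (ex HL ht l u).coeff j → π a = 0)
    (hne : NeAt (Qb l) (red ⟨u, huG⟩)) : -1 ≤ ordS (Qb l) (red ⟨u, huG⟩) := by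
  obtain ⟨M, hM1, hM⟩ := exists_pole_bound HL ht u l
  have htG := t_mem_G X hτ l
  have hfCQ := pow_mul_mem_CQ HL ht hQb hrQ X hτ huG hu l hM
  have hfG : t l ^ M * u ∈ G := (X l).le_G hfCQ
  -- the reduction of `t_l`
  have htred : (⟨t l, htG⟩ : ↥G) = ⟨(((X l).τ : ↥(X l).CQ) : F), (X l).le_G (X l).τ.2⟩ :=
    Subtype.ext (hτ l).symm
  have hordt : ordS (Qb l) (red ⟨t l, htG⟩) = 1 := by
    rw [htred]
    exact (X l).ord_τ
  have hnet : NeAt (Qb l) (red ⟨t l, htG⟩) := by
    rw [htred]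
    exact (X l).neAt_tau
  have hprod : red ⟨t l ^ M * u, hfG⟩ = red ⟨t l, htG⟩ ^ M * red ⟨u, huG⟩ := by
    rw [← map_pow, ← map_mul]
    rfl
  have hnef : NeAt (Qb l) (red ⟨t l ^ M * u, hfG⟩) := by
    rw [hprod]
    exact (hnet.pow M).mul hne
  have hle := (X l).ord_le ⟨_, hfCQ⟩ (M - 1) (by
    intro m hm
    apply hcoef ((m : ℤ) - M) (by omega)
    rw [hagree l ⟨_, hfCQ⟩ m]
    have h2 := coeff_expandF_pow_mul (HL.residue (Q l)) (ht l) M u ((m : ℤ) - M)
    rw [sub_add_cancel] at h2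
    exact h2) hnef
  change ((M - 1 : ℕ) : ℤ) ≤ ordS (Qb l) (red ⟨t l ^ M * u, hfG⟩) at hle
  rw [hprod, ordS_mul (hnet.pow M) hne, ordS_pow, hordt] at hle
  omega

variable {Ps : Place L F} {Qs : SPt k Ft₁ Ft₂} (hPs : r Ps = Sum.inl Qs) (hQs : ∀ i, Qb i ≠ Qs)
  (hbar : ∀ h ∈ N.LN (∑ i, Finsupp.single (Qb i) (1 : ℤ)), ∃ x : k, h = (cpair x : Ft₁ × Ft₂))
  (B : BBData HL ht (Q := Q) Ps)

include C hQb hrQ hτ hagree hPs hQs hbar in
/-- **(Ld), integrality: every `bb i n` lies in `G`.** -/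
theorem bb_mem (i : Fin (genusFF L F)) (n : ℕ) : B.bb i n ∈ G := by
  set b := B.bb i n with hb
  have hb0 : b ≠ 0 := Fermat.Agent.ES.V19.BasisInt9.bb_ne_zero HL ht B i n
  obtain ⟨c, hc0, huG, hred0⟩ := C.scale b hb0
  set u : F := (algebraMap L F c)⁻¹ * b with hu
  have hcF : algebraMap L F c ≠ 0 := by
    rwa [Ne, map_eq_zero]
  have hbu : b = algebraMap L F c * u := by
    rw [hu, ← mul_assoc, mul_inv_cancel₀ hcF, one_mul]
  by_cases hcA : c ∈ A
  · rw [hbu]
    exact G.mul_mem (C.const_mem ⟨c, hcA⟩) huG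
  · exfalso
    obtain ⟨hinv, hnu⟩ := inv_nonunit_of_notMem hcA
    have hu' : u = algebraMap L F c⁻¹ * b := by
      rw [hu, map_inv₀]
    have hu0 : u ≠ 0 := by
      rw [hu]
      exact mul_ne_zero (inv_ne_zero hcF) hb0
    have humem : u ∈ BaK Q := by
      rw [hu']
      exact Subalgebra.mul_mem _ ((BaK Q).algebraMap_mem _) (B.mem i n)
    have huvan : Van Ps u := by
      rw [hu', mul_comm]
      exact van_mul (B.van i n) (Ps.algebraMap_mem' _)
    -- simple poles of the reduction at the `Q̄_l`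
    have hsimple : ∀ l, NeAt (Qb l) (red ⟨u, huG⟩) → -1 ≤ ordS (Qb l) (red ⟨u, huG⟩) := by
      intro l hne
      apply ordS_red_ge HL ht hQb hrQ X hτ hagree huG humem l _ hne
      intro j hj a ha
      have hval : (ex HL ht l u).coeff j
          = c⁻¹ * (if l = i ∧ j = -((n : ℤ) + 2) then 1 else 0) := by
        rw [hu', map_mul, ex_algebraMap, HahnSeries.C_mul_eq_smul, HahnSeries.coeff_smul, smul_eq_mul,
          B.polar i n l j (by omega), if_neg (by omega : ¬ j = -1), add_zero]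
      rw [hval] at ha
      by_cases hcase : l = i ∧ j = -((n : ℤ) + 2)
      · rw [if_pos hcase, mul_one] at ha
        have : a = ⟨c⁻¹, hinv⟩ := Subtype.ext ha
        rw [this]
        exact C.pi_nonunit _ hnu
      · rw [if_neg hcase, mul_zero] at ha
        have : a = 0 := Subtype.ext ha
        rw [this, map_zero]
    obtain ⟨x, hx⟩ := hbar _ (red_mem_LN C HL hQb hrQ huG hu0 humem hsimple)
    have hx0 : x ≠ 0 := by
      intro h0
      apply hred0
      rw [hx, h0]
      show ((algebraMap k Ft₁ 0, algebraMap k Ft₂ 0) : Ft₁ × Ft₂) = 0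
      rw [map_zero, map_zero]
      rfl
    -- the reduction vanishes at `Qs`
    have hsm : N.IsSmooth Qs := C.smooth Ps Qs hPs
    have hneS : NeAt Qs (red ⟨u, huG⟩) := by
      rw [hx]
      exact neAt_cpair Qs hx0
    have hr1 := r1S C ⟨u, huG⟩ hsm hneS (divOf HL hu0) (fun P => divOf_apply HL hu0 P)
    have hpos : 0 < Finsupp.mapDomain r (divOf HL hu0) (r Ps) := by
      apply mapDomain_apply_pos
      · intro P hP
        rw [divOf_apply]
        apply ffp_ord_nonneg_of_mem
        apply mem_BaK.mp humem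
        intro l hl
        apply hQs l
        have := hrQ l
        rw [hl, hP, hPs] at this
        exact (Sum.inl_injective this).symm
      · rw [divOf_apply]
        rcases huvan with h | h
        · exact absurd h hu0
        · exact h
    rw [hPs, hr1, hx, ordS_cpair] at hpos
    exact lt_irrefl _ hpos

include C hQb hrQ hτ hagree hPs hQs hbar in
/-- **(Ld), integrality of the coefficients**: all the Laurent coefficients of the `bb i n` lie in `A`. -/
theorem coeff_bb_mem (i : Fin (genusFF L F)) (n : ℕ) (l : Fin (genusFF L F)) (m : ℤ) :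
    (ex HL ht l (B.bb i n)).coeff m ∈ A :=
  coeff_mem_of_mem_G HL ht hQb hrQ X hτ hagree
    (bb_mem C HL ht hQb hrQ X hτ hagree hPs hQs hbar B i n) (B.mem i n) l m

end Ctx

end Fermat.Agent.ES.W33.BasisIntN9

end
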