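/-
Programme W (S33), chapter G4' (Ld) on the NODAL model, helper9: **assembly — helper14's `BasisData` over the
ring `O` of the `A`-integral constants fixed by a family of semilinear automorphisms** — the nodal port of
`V19/BasisFinal9`.

Combines `W33/BasisIntN9` (the normalised functions `bb i n` lie in `G = O₁ ⊓ O₂`, and their Laurent
coefficients lie in `A`), `V19/BasisGal9` (they are fixed by every semilinear automorphism fixing the chart
data; UNCHANGED, generic fibre only) and `V19/BasisData9` (`BasisData` over any subring containing them;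
UNCHANGED).  `S` is any set of pairs `(σK, σF)`; `O` any subring of `L` containing the elements of `A` fixed
by all `σK` (`O := fixRing A Γ_f` in the application).
-/
import Mathlib
import Fermat.Agent.ES.V19.BasisFinal9
import Fermat.Agent.ES.W33.BasisIntN9

set_option autoImplicit false

open AlgebraicCurve

noncomputable section

namespace Fermat.Agent.ES.W33.BasisFinalN9

open Fermat.Agent.X0.FF Fermat.Agent.RR Fermat.Agent.RR.LSpace
  Fermat.Agent.ES.V19.OnePlaceRep9 Fermat.Agent.ES.V19.ExpandPlace9 Fermat.Agent.ES.V19.BasisQbar9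
  Fermat.Agent.ES.V19.BasisGal9 Fermat.Agent.ES.V19.BasisData9 Fermat.Agent.ES.V19.NormalFormBasis14
  Fermat.Agent.ES.W33.XiIfaceN29 Fermat.Agent.ES.W33.DensityInstN21 Fermat.Agent.ES.W33.BasisIntN9
open Fermat.Agent.ES.V19.LaurentMap19 (Lam mapLam)
open Fermat.Agent.ES.V19.BasisFinal9 (FixesChart)

variable {L F k Ft₁ Ft₂ : Type*} [Field L] [Field F] [Algebra L F] [Field k]
  [Field Ft₁] [Algebra k Ft₁] [Field Ft₂] [Algebra k Ft₂]
  {A : ValuationSubring L}

variable {sn : ℕ} {N : Nodes k Ft₁ Ft₂ sn} {G : Subring F} {red : ↥G →+* Ft₁ × Ft₂}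
  {r : Place L F → SPt k Ft₁ Ft₂ ⊕ Fin sn} {π : ↥A →+* k}
  (C : RedCtxN A π N G red r) (HL : LHyp L F)
  {Q : Fin (genusFF L F) → Place L F} {t : Fin (genusFF L F) → F}
  (ht : ∀ i, (Q i).ord (t i) = 1)
  {Qb : Fin (genusFF L F) → SPt k Ft₁ Ft₂} (hQb : Function.Injective Qb)
  (hrQ : ∀ i, r (Q i) = Sum.inl (Qb i))
  (X : ∀ i, LocExpN (A := A) G red r π (Qb i))
  (hτ : ∀ i, (((X i).τ : ↥(X i).CQ) : F) = t i)
  (hagree : ∀ i (f : ↥(X i).CQ) (m : ℕ),
    ((PowerSeries.coeff m ((X i).tay f) : ↥A) : L) = (ex HL ht i (f : F)).coeff (m : ℤ))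
  {Ps : Place L F} {Qs : SPt k Ft₁ Ft₂} (hPs : r Ps = Sum.inl Qs) (hQs : ∀ i, Qb i ≠ Qs)
  (hbar : ∀ h ∈ N.LN (∑ i, Finsupp.single (Qb i) (1 : ℤ)), ∃ x : k, h = (cpair x : Ft₁ × Ft₂))
  (hR : ∃ γ : ℤ, ∀ D : Divisor L F,
    Divisor.degree D + 1 - γ ≤ (Module.finrank L (riemannRochSpace D) : ℤ))
  (h0 : Module.finrank L (H1 (redDiv Q)) = 0)
  (B : BBData HL ht (Q := Q) Ps)
  (S : Set ((L →+* L) × (F →+* F)))
  (hS : ∀ s ∈ S, FixesChart Q t Ps s.1 s.2)
  (O : Subring L) (hO : ∀ x : L, x ∈ A → (∀ s ∈ S, s.1 x = x) → x ∈ O)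

include hQb hrQ in
/-- the centres are distinct. -/
theorem injective_Q : Function.Injective Q := by
  intro i j hij
  apply hQb
  have h := hrQ i
  rw [hij, hrQ j] at h
  exact (Sum.inl_injective h).symm

include C hQb hrQ hτ hagree hPs hQs hbar hR h0 hS hO in
/-- **(Ld) on the nodal model: helper14's `BasisData` over `O`**, together with the integrality of the
normalised functions for BOTH Gauss valuations. -/
theorem exists_basisData_fixedN :
    ∃ D : BasisData ↥O (genusFF L F),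
      (∀ i n, mapLam O.subtype (D.bb i n) = ExpK HL ht (B.bb i n)) ∧
      (∀ i n l, ((D.cc i n l : ↥O) : L) = B.cc i n l) ∧
      (∀ i n, B.bb i n ∈ G) := by
  have hQ : Function.Injective Q := injective_Q hQb hrQ
  have hint := bb_mem C HL ht hQb hrQ X hτ hagree hPs hQs hbar B
  obtain ⟨D, h1, h2⟩ := exists_basisData HL ht hR h0 hQ B O (by
    intro i n l m
    apply hO
    · exact coeff_bb_mem C HL ht hQb hrQ X hτ hagree hPs hQs hbar B i n l m
    · intro s hs
      have hs' := hS s hs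
      exact coeff_bb_fixed HL ht hR h0 hQ B s.1 s.2 hs'.semi hs'.place hs'.unif hs'.ba hs'.van i n l m)
  exact ⟨D, h1, h2, hint⟩

end Fermat.Agent.ES.W33.BasisFinalN9

end
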