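/-
Programme W (S33), chapter G4' (Lb) on the NODAL model, helper9: **`h¹(Q_1 + … + Q_g) = 0` on the generic
fibre from `h⁰(nodal fibre, O(Ē₀)) = 1`** — the nodal port of `SupTrick15.const_of_mem_L` and of
`BasisDisc9.finrank_H1_centre`, and the existence of the normalised family `BBData`.

Context = helper29's `XiIfaceN29.RedCtxN A π N G red r`; centres `Q i` (`r (Q i) = Sum.inl (Qb i)`, the
`Qb i` distinct), an auxiliary place `Ps` reducing to a point `Qs` off the `Qb i`, and
`hbar` = `ChartHypN.const_E0bar` (every GLUED section of `O(Ē₀)` is a constant pair).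

* `not_pos_ord_of_red`  : a function of `G` with poles only at the `Q i`, whose reduction is nonzero with at
                          most simple poles at the `Q̄_l`, does not vanish at `Ps`;
* `const_of_mem_L_N`    : every element of `L(Q_1 + … + Q_g)` is a constant;
* `finrank_H1_centreN`  : `h¹(Q_1 + … + Q_g) = 0`;
* `exists_bbDataN`      : the normalised family exists.
-/
import Mathlib
import Fermat.Agent.ES.V19.GenericNonSpecial8
import Fermat.Agent.ES.V19.H1FiniteL8
import Fermat.Agent.ES.W33.BasisIntN9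

set_option autoImplicit false

open AlgebraicCurve

noncomputable section

namespace Fermat.Agent.ES.W33.BasisH0N9

open Fermat.Agent.X0.FF Fermat.Agent.RR Fermat.Agent.RR.LSpace
  Fermat.Agent.ES.V19.OnePlaceRep9 Fermat.Agent.ES.V19.ExpandPlace9 Fermat.Agent.ES.V19.BasisQbar9
  Fermat.Agent.ES.W33.XiIfaceN29 Fermat.Agent.ES.W33.DensityInstN21 Fermat.Agent.ES.W33.BasisIntN9
open Fermat.Agent.ES.V19.SupTrick15 (mapDomain_apply_nonneg mapDomain_apply_pos)

variable {L F k Ft₁ Ft₂ : Type*} [Field L] [Field F] [Algebra L F] [Field k]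
  [Field Ft₁] [Algebra k Ft₁] [Field Ft₂] [Algebra k Ft₂]
  {A : ValuationSubring L}

variable {sn : ℕ} {N : Nodes k Ft₁ Ft₂ sn} {G : Subring F} {red : ↥G →+* Ft₁ × Ft₂}
  {r : Place L F → SPt k Ft₁ Ft₂ ⊕ Fin sn} {π : ↥A →+* k}
  (C : RedCtxN A π N G red r) (HL : LHyp L F)
  {Q : Fin (genusFF L F) → Place L F}
  {Qb : Fin (genusFF L F) → SPt k Ft₁ Ft₂} (hQb : Function.Injective Qb)
  (hrQ : ∀ i, r (Q i) = Sum.inl (Qb i))
  {Ps : Place L F} {Qs : SPt k Ft₁ Ft₂} (hPs : r Ps = Sum.inl Qs) (hQs : ∀ i, Qb i ≠ Qs)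
  (hbar : ∀ h ∈ N.LN (∑ i, Finsupp.single (Qb i) (1 : ℤ)), ∃ x : k, h = (cpair x : Ft₁ × Ft₂))

include hQb hrQ in
/-- `r_* (Q_1 + … + Q_g)` has multiplicity one at `Q̄_l`. -/
theorem mapDomain_redDiv_apply (l : Fin (genusFF L F)) :
    Finsupp.mapDomain r (redDiv Q) (Sum.inl (Qb l)) = 1 := by
  have h1 : Finsupp.mapDomain r (redDiv Q) =
      ∑ i, Finsupp.single (Sum.inl (Qb i) : SPt k Ft₁ Ft₂ ⊕ Fin sn) (1 : ℤ) := by
    show Finsupp.mapDomain r (∑ i, Finsupp.single (Q i) (1 : ℤ)) = _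
    rw [← Finsupp.mapDomain.addMonoidHom_apply, map_sum]
    refine Finset.sum_congr rfl fun i _ => ?_
    rw [Finsupp.mapDomain.addMonoidHom_apply, Finsupp.mapDomain_single, hrQ i]
  rw [h1]
  exact sumPts_apply_self (p := fun i => (Sum.inl (Qb i) : SPt k Ft₁ Ft₂ ⊕ Fin sn))
    (fun i j hij => hQb (Sum.inl_injective hij)) l

include hrQ hPs hQs in
/-- the auxiliary place is not a centre. -/
theorem centre_ne_aux (i : Fin (genusFF L F)) : Q i ≠ Ps := by
  intro hi
  apply hQs i
  have h := hrQ i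
  rw [hi, hPs] at h
  exact (Sum.inl_injective h).symm

include C HL hQb hrQ hPs hQs hbar in
/-- a function of `G` with poles only at the `Q i`, whose reduction is nonzero with at most simple poles at
the `Q̄_l`, does not vanish at `Ps`. -/
theorem not_pos_ord_of_red {u : F} (huG : u ∈ G) (hu0 : u ≠ 0) (hu : u ∈ BaK Q)
    (hred0 : red ⟨u, huG⟩ ≠ 0)
    (hsimple : ∀ l, NeAt (Qb l) (red ⟨u, huG⟩) → -1 ≤ ordS (Qb l) (red ⟨u, huG⟩)) :
    ¬ 0 < Ps.ord u := by
  intro hvan
  obtain ⟨x, hx⟩ := hbar _ (red_mem_LN C HL hQb hrQ huG hu0 hu hsimple)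
  have hx0 : x ≠ 0 := by
    intro h0
    apply hred0
    rw [hx, h0]
    show ((algebraMap k Ft₁ 0, algebraMap k Ft₂ 0) : Ft₁ × Ft₂) = 0
    rw [map_zero, map_zero]
    rfl
  have hsm : N.IsSmooth Qs := C.smooth Ps Qs hPs
  have hneS : NeAt Qs (red ⟨u, huG⟩) := by
    rw [hx]
    exact neAt_cpair Qs hx0
  have hr1 := r1S C ⟨u, huG⟩ hsm hneS (divOf HL hu0) (fun P => divOf_apply HL hu0 P)
  have hpos : 0 < Finsupp.mapDomain r (divOf HL hu0) (r Ps) := by
    apply mapDomain_apply_pos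
    · intro P hP
      rw [divOf_apply]
      apply ffp_ord_nonneg_of_mem
      apply mem_BaK.mp hu
      intro l hl
      apply hQs l
      have := hrQ l
      rw [hl, hP, hPs] at this
      exact (Sum.inl_injective this).symm
    · rw [divOf_apply]
      exact hvan
  rw [hPs, hr1, hx, ordS_cpair] at hpos
  exact lt_irrefl _ hpos

include C HL hQb hrQ hPs hQs hbar in
/-- **(Lb1) on the nodal model: every element of `L(Q_1 + … + Q_g)` is a constant.** -/
theorem const_of_mem_L_N (f : F) (hf : f ∈ riemannRochSpace (redDiv Q)) :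
    ∃ c : L, f = algebraMap L F c := by
  have hPsQ := centre_ne_aux hrQ hPs hQs
  have hE0 : redDiv Q Ps = 0 := redDiv_apply_of_not_mem hPsQ
  -- `f` is regular at `Ps`
  have hfPs : f ∈ Ps.toValuationSubring := by
    rw [mem_iff_ord_nonneg]
    rcases mem_riemannRochSpace_iff.mp hf Ps with h | h
    · exact Or.inl h
    · right
      rw [hE0] at h
      simpa using h
  obtain ⟨c, hc | hc⟩ := HL.residue Ps f hfPs
  · exact ⟨c, hc⟩
  exfalso
  set h : F := f - algebraMap L F c with hh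
  have hconst : algebraMap L F c ∈ riemannRochSpace (redDiv Q) :=
    Fermat.Agent.ES.V19.GenericNonSpecial8.algebraMap_mem_L (redDiv_nonneg Q) c
  have hhE : h ∈ riemannRochSpace (redDiv Q) := Submodule.sub_mem _ hf hconst
  have hh0 : h ≠ 0 := by
    intro h0
    rw [h0, Place.ord_zero] at hc
    exact lt_irrefl _ hc
  obtain ⟨c', hc'0, huG, hred0⟩ := C.scale h hh0
  set u : F := (algebraMap L F c')⁻¹ * h with hu
  have hcF : algebraMap L F c' ≠ 0 := by
    rwa [Ne, map_eq_zero]
  have hu0 : u ≠ 0 := mul_ne_zero (inv_ne_zero hcF) hh0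
  have huE : u ∈ riemannRochSpace (redDiv Q) := by
    have : u = c'⁻¹ • h := by
      rw [Algebra.smul_def, map_inv₀]
    rw [this]
    exact Submodule.smul_mem _ _ hhE
  have hordu : ∀ P : Place L F, -(redDiv Q) P ≤ P.ord u := (mem_L_iff hu0).mp huE
  have humem : u ∈ BaK Q := by
    rw [mem_BaK]
    intro v hv
    rw [mem_iff_ord_nonneg]
    right
    have := hordu v
    rw [redDiv_apply_of_not_mem hv] at this
    simpa using this
  have hsimple : ∀ l, NeAt (Qb l) (red ⟨u, huG⟩) → -1 ≤ ordS (Qb l) (red ⟨u, huG⟩) := by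
    intro l hne
    have hsm : N.IsSmooth (Qb l) := C.smooth (Q l) (Qb l) (hrQ l)
    have hr1 := r1S C ⟨u, huG⟩ hsm hne (divOf HL hu0) (fun P => divOf_apply HL hu0 P)
    have h2 : 0 ≤ Finsupp.mapDomain r (divOf HL hu0 + redDiv Q) (Sum.inl (Qb l)) := by
      apply mapDomain_apply_nonneg
      intro P _
      rw [Finsupp.add_apply, divOf_apply]
      have := hordu P
      omega
    rw [Finsupp.mapDomain_add, Finsupp.add_apply, hr1, mapDomain_redDiv_apply hQb hrQ l] at h2
    omega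
  apply not_pos_ord_of_red C HL hQb hrQ hPs hQs hbar huG hu0 humem hred0 hsimple
  rw [hu, Ps.ord_mul (inv_ne_zero hcF) hh0, ← map_inv₀, ord_algebraMap, zero_add]
  exact hc

include C HL hQb hrQ hPs hQs hbar in
/-- **`h¹(Q_1 + … + Q_g) = 0`.** -/
theorem finrank_H1_centreN
    (hR : ∃ γ : ℤ, ∀ D : Divisor L F,
      Divisor.degree D + 1 - γ ≤ (Module.finrank L (riemannRochSpace D) : ℤ)) :
    Module.finrank L (H1 (redDiv Q)) = 0 := by
  have hl1 : Module.finrank L (riemannRochSpace (redDiv Q)) = 1 :=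
    Fermat.Agent.ES.V19.GenericNonSpecial8.finrank_L_eq_one_of_forall_const HL (redDiv_nonneg _)
      (fun f hf => const_of_mem_L_N C HL hQb hrQ hPs hQs hbar f hf)
  have h := Fermat.Agent.ES.V19.H1FiniteL8.finrank_L_sub_finrank_H1 HL hR (redDiv Q)
  rw [hl1, degree_redDiv HL] at h
  have : (Module.finrank L (H1 (redDiv Q)) : ℤ) = 0 := by
    push_cast at h
    linarith
  exact_mod_cast this

include C hQb hrQ hPs hQs hbar in
/-- **the normalised family exists.** -/
theorem exists_bbDataN {t : Fin (genusFF L F) → F} (ht : ∀ i, (Q i).ord (t i) = 1)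
    (hR : ∃ γ : ℤ, ∀ D : Divisor L F,
      Divisor.degree D + 1 - γ ≤ (Module.finrank L (riemannRochSpace D) : ℤ)) :
    Nonempty (BBData HL ht (Q := Q) Ps) :=
  exists_bbData HL ht hR (finrank_H1_centreN C HL hQb hrQ hPs hQs hbar hR)
    (fun i j hij => hQb (by have h := hrQ i; rw [hij, hrQ j] at h; exact (Sum.inl_injective h).symm)) (centre_ne_aux hrQ hPs hQs)

end Fermat.Agent.ES.W33.BasisH0N9

end
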