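/-
Programme W (S33), chapter (B3′), leaf "(R2) numerics on the second component" (helper15), part 1:
**the degree of the divisor of zeros** `Z K h := ∑ᶠ_{Q, 0 < ord_Q h} ord_Q h` of a function `h` of a
function field `F / K` satisfying `RR.LSpace.LHyp` (places of degree one, principal divisors of degree
zero) — WITHOUT any separability hypothesis.

* `finite_zeros`     : `{Q | 0 < ord_Q h}` is finite (`h ≠ 0`);
* `Z_eq_Z_inv`       : `Z h = Z h⁻¹` (zeros = poles);
* `Z_sub_const`      : `Z (u - c) = Z u` for non-constant `u` (the poles of `u - c` are those of `u`);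
* `Z_comp_equiv`     : transport along a bijection of the places scaling the orders (used with the
  coefficientwise Frobenius of `ES/KRON/FrobPlace13`, and with automorphisms of `F`);
* `Z_le_of_mapDomain`: if the divisor of `h̃` is the push-forward `r_* (div h)` then `Z h̃ ≤ Z h`.
-/
import Mathlib
import Fermat.Agent.RR.LSpace
import Fermat.Agent.X0.FFDict
import Fermat.Agent.ES.V19.SupTrick15

set_option autoImplicit false
set_option linter.unusedSectionVars false

open AlgebraicCurve

noncomputable section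

namespace Fermat.Agent.ES.W33.ZerosFt15

open Fermat.Agent.X0.FF Fermat.Agent.RR.LSpace

variable (K : Type*) {F : Type*} [Field K] [Field F] [Algebra K F]

/-- the degree of the divisor of zeros of `h`. -/
def Z (h : F) : ℤ := ∑ᶠ (Q : Place K F) (_ : 0 < Q.ord h), Q.ord h

variable {K}

theorem Z_def (h : F) : Z K h = ∑ᶠ (Q : Place K F) (_ : 0 < Q.ord h), Q.ord h := rfl

open Classical in
/-- `Z h` with an `if`. -/
theorem Z_eq_finsum_if (h : F) :
    Z K h = ∑ᶠ Q : Place K F, if 0 < Q.ord h then Q.ord h else 0 :=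
  finsum_congr fun _ => finsum_eq_if

/-- the zeros of `h ≠ 0` are finitely many. -/
theorem finite_zeros (H : LHyp K F) {h : F} (h0 : h ≠ 0) : {Q : Place K F | 0 < Q.ord h}.Finite := by
  obtain ⟨D, hD, -⟩ := H.principal h h0
  refine D.support.finite_toSet.subset fun Q hQ => ?_
  rw [Finset.mem_coe, Finsupp.mem_support_iff, hD]
  exact (ne_of_gt hQ)

open Classical in
/-- `Z h` as a finite sum over the support of the divisor of `h`. -/
theorem Z_eq_sum (h : F) (D : Divisor K F) (hD : ∀ Q : Place K F, D Q = Q.ord h) :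
    Z K h = ∑ Q ∈ D.support, if 0 < D Q then D Q else 0 := by
  rw [Z_eq_finsum_if, finsum_eq_sum_of_support_subset (s := D.support)]
  · refine Finset.sum_congr rfl fun Q _ => ?_
    rw [hD]
  · intro Q hQ
    rw [Function.mem_support] at hQ
    rw [Finset.mem_coe, Finsupp.mem_support_iff, hD]
    intro h0
    apply hQ
    rw [h0, if_neg (lt_irrefl _)]

open Classical in
/-- **zeros = poles.** -/
theorem Z_eq_Z_inv (H : LHyp K F) {h : F} (h0 : h ≠ 0) : Z K h = Z K h⁻¹ := by
  obtain ⟨D, hD, hdeg⟩ := H.principal h h0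
  have hDn : ∀ Q : Place K F, (-D) Q = Q.ord h⁻¹ := fun Q => by
    rw [Finsupp.neg_apply, hD, Place.ord_inv]
  rw [Z_eq_sum h D hD, Z_eq_sum h⁻¹ (-D) hDn, Finsupp.support_neg]
  rw [degree_eq_sum H D] at hdeg
  have key : ∀ Q ∈ D.support,
      (if 0 < D Q then D Q else 0) - (if 0 < (-D) Q then (-D) Q else 0) = D Q := by
    intro Q _
    rw [Finsupp.neg_apply]
    by_cases h1 : 0 < D Q
    · rw [if_pos h1, if_neg (by omega)]; ring
    · by_cases h2 : 0 < -D Q
      · rw [if_neg h1, if_pos h2]; ring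
      · rw [if_neg h1, if_neg h2]; omega
  have := Finset.sum_congr rfl key
  rw [Finset.sum_sub_distrib, hdeg] at this
  omega

/-- the poles of `u - c` are the poles of `u`, with the same orders. -/
theorem ord_inv_sub_const (Q : Place K F) (u : F) (c : K) (hu : u ≠ 0)
    (huc : u - algebraMap K F c ≠ 0) :
    (0 < Q.ord (u - algebraMap K F c)⁻¹ ↔ 0 < Q.ord u⁻¹) ∧
      (0 < Q.ord u⁻¹ → Q.ord (u - algebraMap K F c)⁻¹ = Q.ord u⁻¹) := by
  rw [Place.ord_inv, Place.ord_inv]
  have hc : Q.ord (algebraMap K F c) = 0 := ord_algebraMap Q c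
  have hnc : Q.ord (-algebraMap K F c) = 0 := by rw [ord_neg, hc]
  have h1 : Q.ord u < 0 → Q.ord (u - algebraMap K F c) = Q.ord u := by
    intro h
    rw [sub_eq_add_neg]
    exact ord_add_eq_of_lt Q hu (by rw [hnc]; exact h)
  have h2 : Q.ord (u - algebraMap K F c) < 0 → Q.ord u = Q.ord (u - algebraMap K F c) := by
    intro h
    have : u = (u - algebraMap K F c) + algebraMap K F c := by ring
    conv_lhs => rw [this]
    exact ord_add_eq_of_lt Q huc (by rw [hc]; exact h)
  refine ⟨⟨fun h => ?_, fun h => ?_⟩, fun h => ?_⟩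
  · have := h2 (by omega); omega
  · have := h1 (by omega); omega
  · have := h1 (by omega); omega

open Classical in
/-- **`Z (u - c) = Z u`** for a non-constant `u`. -/
theorem Z_sub_const (H : LHyp K F) {u : F} (hu : ∀ c : K, u - algebraMap K F c ≠ 0) (c : K) :
    Z K (u - algebraMap K F c) = Z K u := by
  have hu0 : u ≠ 0 := by simpa using hu 0
  rw [Z_eq_Z_inv H (hu c), Z_eq_Z_inv H hu0, Z_eq_finsum_if, Z_eq_finsum_if]
  refine finsum_congr fun Q => ?_
  obtain ⟨h1, h2⟩ := ord_inv_sub_const Q u c hu0 (hu c)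
  by_cases hQ : 0 < Q.ord u⁻¹
  · rw [if_pos (h1.2 hQ), if_pos hQ, h2 hQ]
  · rw [if_neg hQ, if_neg (fun h => hQ (h1.1 h))]

open Classical in
/-- transport along a bijection of the places multiplying the orders by `m`. -/
theorem Z_comp_equiv {K' F' : Type*} [Field K'] [Field F'] [Algebra K' F']
    (e : Place K F ≃ Place K' F') (m : ℕ) (hm : 0 < m) (h : F) (h' : F')
    (he : ∀ Q : Place K F, Q.ord h = m * (e Q).ord h') :
    Z K h = m * Z K' h' := by
  rw [Z_eq_finsum_if, Z_eq_finsum_if, mul_finsum, ← finsum_comp_equiv e]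
  refine finsum_congr fun Q => ?_
  have hiff : 0 < Q.ord h ↔ 0 < (e Q).ord h' := by
    rw [he]
    constructor
    · intro h1
      by_contra h2
      have : (m : ℤ) * (e Q).ord h' ≤ 0 :=
        mul_nonpos_of_nonneg_of_nonpos (by positivity) (not_lt.mp h2)
      omega
    · intro h1; positivity
  by_cases hQ : 0 < Q.ord h
  · rw [if_pos hQ, if_pos (hiff.1 hQ), he]
  · rw [if_neg hQ, if_neg (fun h1 => hQ (hiff.2 h1)), mul_zero]

/-- the same for the sets of zeros. -/
theorem finite_zeros_comp_equiv {K' F' : Type*} [Field K'] [Field F'] [Algebra K' F']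
    (e : Place K F ≃ Place K' F') (m : ℕ) (h : F) (h' : F')
    (he : ∀ Q : Place K F, Q.ord h = m * (e Q).ord h')
    (hfin : {Q' : Place K' F' | 0 < Q'.ord h'}.Finite) :
    {Q : Place K F | 0 < Q.ord h}.Finite := by
  refine (hfin.preimage (e.injective.injOn)).subset fun Q hQ => ?_
  rw [Set.mem_preimage, Set.mem_ofPred_eq]
  rw [Set.mem_ofPred_eq, he] at hQ
  by_contra h2
  have : (m : ℤ) * (e Q).ord h' ≤ 0 :=
    mul_nonpos_of_nonneg_of_nonpos (by positivity) (not_lt.mp h2)
  omega

open Classical in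
/-- **push-forward**: if `div h̃ = r_* (div h)` then `Z h̃ ≤ Z h`. -/
theorem Z_le_of_mapDomain {K' F' : Type*} [Field K'] [Field F'] [Algebra K' F']
    (r : Place K F → Place K' F') (h : F) (h' : F') (D : Divisor K F)
    (hD : ∀ P : Place K F, D P = P.ord h)
    (hr : ∀ Q : Place K' F', Finsupp.mapDomain r D Q = Q.ord h')
    (hfin : {Q' : Place K' F' | 0 < Q'.ord h'}.Finite) :
    Z K' h' ≤ Z K h := by
  rw [Z_eq_sum h D hD, Z_eq_finsum_if,
    finsum_eq_sum_of_support_subset (s := hfin.toFinset)]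
  · have h1 : ∀ Q ∈ hfin.toFinset, (if 0 < Q.ord h' then Q.ord h' else 0) =
        ∑ P ∈ D.support, if r P = Q then D P else 0 := by
      intro Q hQ
      rw [Set.Finite.mem_toFinset, Set.mem_ofPred_eq] at hQ
      rw [if_pos hQ, ← hr Q, Fermat.Agent.ES.V19.SupTrick15.mapDomain_apply_eq_sum]
    rw [Finset.sum_congr rfl h1, Finset.sum_comm]
    refine Finset.sum_le_sum fun P _ => ?_
    by_cases hP : r P ∈ hfin.toFinset
    · rw [Finset.sum_ite_eq hfin.toFinset (r P) (fun _ => D P), if_pos hP]
      split_ifs <;> omega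
    · have : ∀ Q ∈ hfin.toFinset, (if r P = Q then D P else 0) = 0 := by
        intro Q hQ
        rw [if_neg]
        rintro rfl
        exact hP hQ
      rw [Finset.sum_eq_zero this]
      split_ifs <;> omega
  · intro Q hQ
    rw [Function.mem_support] at hQ
    rw [Set.Finite.coe_toFinset, Set.mem_ofPred_eq]
    by_contra h0
    exact hQ (if_neg h0)

end Fermat.Agent.ES.W33.ZerosFt15
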