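/-
Programme W (S33), chapter (B3′), leaf "(R2) numerics" (helper15), part 4 = THE EXIT:
**the NUMERIC fields of helper22's `R2JoinN22.NodalR2Hyp` at the nodal instance `NodalDefs3`,
coordinate `x₁ = x₂ := tN`**, and helper22's (iv) for the relative count (`R2RelN22`).

`n := degT n e (M' p)`, `n₁ := degT n e M'`, `n₂ := p · n₁` (so `n₁ + n₂ = n`):

* `fiN`, `fiN_inv`     : `∑_{P, 0 < ord_P (tN^{±1} − a)} ord_P (tN^{±1} − a) = n`  (main, `SpecialInv25`);
* `degT_bad`, `degT_bad_eq_add` : `n = n₁ (p + 1) = n₁ + p n₁`;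
* `tN_mem_Gq1`, `redq1_tN`, `tN_mem_O1`, **`rho1_tN : rho1 tN = t̃`** (`tResV`); `fit1N`, `fint1N`;
* **(iv) `ord_vpFt_sub_const`** : `ord_Q (V_p u − c) = p · ord_{Fr Q} (u − c)`  (`FrobPlace13`),
  `Z_vpFt_sub_const`;
* **`fit2_of_wBar`** : `fit₂`, `fint₂` with `n₂ = p · n₁` for `y₂ = V_p (wBar t̃)`, `wBar` ANY `k̄`-algebra
  automorphism of `F̃` (w49's two named inputs; take `y₂ := rho2 tN`);
* `vpFt_eq_algebraMap_iff`, `transcendental_vpFt_iff`, `transcendental_vpFt_wBar` : (TRANS2) from the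
  same named input.
No separability on the second component is used (`F̃ / k̄(t̃₂)` is inseparable).
-/
import Mathlib
import Fermat.Agent.ES.W33.BetaRed15
import Fermat.Agent.ES.W33.ZerosFt15
import Fermat.Agent.ES.V19.RedCtxInst15
import Fermat.Agent.ES.V19.LHypFt13

set_option autoImplicit false
set_option synthInstance.maxHeartbeats 400000
set_option linter.unusedSectionVars false

open HahnSeries ModularCurve AlgebraicCurve

noncomputable section

namespace Fermat.Agent.ES.W33.R2DegN15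

open Fermat.Agent.RED.Interface4 Fermat.Agent.RED.BASE.Interface12 Fermat.Agent.RED.BASE.Hauptmodul12
  Fermat.Agent.RED.BASE.EtaQuot12
  Fermat.Agent.ES.RED.Contract8 Fermat.Agent.ES.RED.ModelInst4 Fermat.Agent.ES.RED.GaussRing15
  Fermat.Agent.ES.RED.SpecialInv25 Fermat.Agent.ES.RED.SpecialGen25
  Fermat.Agent.ES.V19.GaussFrac15 Fermat.Agent.ES.V19.InstNames3 Fermat.Agent.ES.W33.NodalDefs3
  Fermat.Agent.ES.KRON.FrobPlace13 Fermat.Agent.ES.N34.FrickeFK8 Fermat.Agent.ES.W33.FrickeBeta15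
  Fermat.Agent.ES.W33.BetaRed15 Fermat.Agent.ES.W33.ZerosFt15 Fermat.Agent.RR.LSpace

attribute [local instance 5000] HahnSeries.powerSeriesAlgebra SubalgebraClass.toAlgebra

variable (n e M' : ℕ) [NeZero n] [NeZero M'] (p : ℕ) [Fact p.Prime] (hpM : ¬ p ∣ M')
  (hb : BaseHyp n e) (hnM : n ∣ M') (A : ValuationSubring Qbar) (hA : A.LiesOverPrime p)

/-! ### the generic fibre -/

/-- `fi` at `tN`. -/
theorem fiN (a : Qbar) :
    ∑ᶠ (P : Place Qbar ↥(Fbar (M' * p)))
        (_ : 0 < P.ord (tN n e M' p hb hnM - algebraMap Qbar ↥(Fbar (M' * p)) a)),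
      P.ord (tN n e M' p hb hnM - algebraMap Qbar ↥(Fbar (M' * p)) a) =
        (degT n e (M' * p) (hmemN n e M' p hb hnM) : ℤ) :=
  sum_ord_fibre_tF n e (M' * p) (hmemN n e M' p hb hnM) a

/-- `fi` at `tN⁻¹`. -/
theorem fiN_inv (a : Qbar) :
    ∑ᶠ (P : Place Qbar ↥(Fbar (M' * p)))
        (_ : 0 < P.ord ((tN n e M' p hb hnM)⁻¹ - algebraMap Qbar ↥(Fbar (M' * p)) a)),
      P.ord ((tN n e M' p hb hnM)⁻¹ - algebraMap Qbar ↥(Fbar (M' * p)) a) =
        (degT n e (M' * p) (hmemN n e M' p hb hnM) : ℤ) :=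
  sum_ord_fibre_tF_inv n e (M' * p) (hmemN n e M' p hb hnM) a

include hpM in
/-- **`n = n₁ · (p + 1)`.** -/
theorem degT_bad :
    degT n e (M' * p) (hmemN n e M' p hb hnM) = degT n e M' (hmemV n e M' hb hnM) * (p + 1) :=
  degT_mul_prime n e M' p (hmemV n e M' hb hnM) (hmemN n e M' p hb hnM) (hgenbV n e hb)
    Fact.out hpM

/-! ### the first component -/

include hpM hA in
/-- `tN ∈ Gq1` (its `q`-expansion is the `A`-integral series `tq ↥A n e`). -/
theorem tN_mem_Gq1 : tN n e M' p hb hnM ∈ Gq1 M' p A :=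
  ⟨tq ↥A n e, (coe_tF n e (M' * p) (hmemN n e M' p hb hnM) A).symm, by
    rw [coeffMap_tq]
    exact (tResV n e M' p hpM hb hnM A hA).2⟩

/-- `redq1 tN = t̃`. -/
theorem redq1_tN :
    redq1 M' p A ⟨tN n e M' p hb hnM, tN_mem_Gq1 n e M' p hpM hb hnM A hA⟩ =
      tResV n e M' p hpM hb hnM A hA := by
  apply Subtype.ext
  rw [gaussRed_eq A (resA A) (Fbar (M' * p)) (modularFunctionFieldFullC (kA A) M') _
    (coe_tF n e (M' * p) (hmemN n e M' p hb hnM) A).symm, coeffMap_tq]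
  rfl

include hpM hA in
/-- `tN ∈ O1`. -/
theorem tN_mem_O1 : tN n e M' p hb hnM ∈ O1 M' p A :=
  le_gaussInt _ _ (tN_mem_Gq1 n e M' p hpM hb hnM A hA)

/-- **`rho1 tN = t̃`.** -/
theorem rho1_tN :
    rho1 M' p A ⟨tN n e M' p hb hnM, tN_mem_O1 n e M' p hpM hb hnM A hA⟩ =
      tResV n e M' p hpM hb hnM A hA := by
  rw [← redq1_tN n e M' p hpM hb hnM A hA]
  exact rho_of_mem (G := Gq1 M' p A) (red := redq1 M' p A)
    ⟨tN n e M' p hb hnM, tN_mem_Gq1 n e M' p hpM hb hnM A hA⟩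

/-- `fit₁` at `tN`. -/
theorem fit1N (c : kA A) :
    ∑ᶠ (Q : Place (kA A) (Ft M' A))
        (_ : 0 < Q.ord (rho1 M' p A ⟨tN n e M' p hb hnM, tN_mem_O1 n e M' p hpM hb hnM A hA⟩ -
          algebraMap (kA A) (Ft M' A) c)),
      Q.ord (rho1 M' p A ⟨tN n e M' p hb hnM, tN_mem_O1 n e M' p hpM hb hnM A hA⟩ -
          algebraMap (kA A) (Ft M' A) c) = (degT n e M' (hmemV n e M' hb hnM) : ℤ) := by
  rw [rho1_tN]
  exact sum_ord_fibre_tRes n e M' p hpM (hmemV n e M' hb hnM) (hgenbV n e hb) A hA c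

/-- `fint₁` at `tN`. -/
theorem fint1N (c : kA A) :
    {Q : Place (kA A) (Ft M' A) |
      0 < Q.ord (rho1 M' p A ⟨tN n e M' p hb hnM, tN_mem_O1 n e M' p hpM hb hnM A hA⟩ -
        algebraMap (kA A) (Ft M' A) c)}.Finite := by
  rw [rho1_tN]
  exact finite_fibre_tRes n e M' p hpM (hmemV n e M' hb hnM) (hgenbV n e hb) A hA c

/-! ### the second component -/

section Second

variable [ExpChar (kA A) p] [PerfectField (kA A)]

/-- **(iv)** `ord_Q (V_p u − c) = p · ord_{Fr Q} (u − c)`. -/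
theorem ord_vpFt_sub_const (u : Ft M' A) (c : kA A) (Q : Place (kA A) (Ft M' A)) :
    Q.ord (vpFt M' p A hA u - algebraMap (kA A) (Ft M' A) c) =
      p * (frobPlace (kA A) p M' Q).ord (u - algebraMap (kA A) (Ft M' A) c) := by
  have hch := charP_kA p A hA
  have : CharP (Ft M' A) p := charP_of_injective_algebraMap
    (algebraMap (kA A) (Ft M' A)).injective p
  set c' : kA A := (frobeniusEquiv (kA A) p).symm c with hc'
  have hcp : c' ^ p = c := by
    rw [hc', ← frobeniusEquiv_def, RingEquiv.apply_symm_apply]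
  set z : Ft M' A := (frobSemi (kA A) p M')⁻¹ • u with hz
  have hzu : frobSemi (kA A) p M' • z = u := smul_inv_smul _ _
  have h1 := ord_sub_const_frobPlace (kA A) p M' Q z c'
  rw [hzu, hcp] at h1
  rw [h1, vpFt_eq_pow M' p A hA u, ← hcp, map_pow, ← sub_pow_char,
    Fermat.Agent.X0.FF.ord_pow]

/-- transport of the zero count along the Frobenius: `Z (V_p u − c) = p · Z (u − c)`. -/
theorem Z_vpFt_sub_const (u : Ft M' A) (c : kA A) :
    Z (kA A) (vpFt M' p A hA u - algebraMap (kA A) (Ft M' A) c) =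
      p * Z (kA A) (u - algebraMap (kA A) (Ft M' A) c) :=
  Z_comp_equiv (frobPlace (kA A) p M') p (Fact.out : p.Prime).pos _ _
    (fun Q => ord_vpFt_sub_const M' p A hA u c Q)

variable {M' p A} in
/-- **`fit₂`, `fint₂`, and the degree**, from the two named inputs of w49 (`FrickeBar25`): an
automorphism `wBar` of `F̃` over `k̄` and `rho2 tN = V_p (wBar t̃)`. For any element `y₂` of `F̃` with
`y₂ = V_p (wBar t̃)`: `∑_{Q, 0 < ord_Q (y₂ − c)} ord_Q (y₂ − c) = p · n₁` and the set is finite. -/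
theorem fit2_of_wBar (wBar : Ft M' A ≃ₐ[kA A] Ft M' A) {y₂ : Ft M' A}
    (hy : y₂ = vpFt M' p A hA (wBar (tResV n e M' p hpM hb hnM A hA))) (c : kA A) :
    (∑ᶠ (Q : Place (kA A) (Ft M' A)) (_ : 0 < Q.ord (y₂ - algebraMap (kA A) (Ft M' A) c)),
        Q.ord (y₂ - algebraMap (kA A) (Ft M' A) c) =
          ((p * degT n e M' (hmemV n e M' hb hnM) : ℕ) : ℤ)) ∧
      {Q : Place (kA A) (Ft M' A) |
        0 < Q.ord (y₂ - algebraMap (kA A) (Ft M' A) c)}.Finite := by
  -- transport along `wBar`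
  have hw : ∀ Q : Place (kA A) (Ft M' A),
      Q.ord (wBar (tResV n e M' p hpM hb hnM A hA) - algebraMap (kA A) (Ft M' A) c) =
        ((1 : ℕ) : ℤ) * ((MulAction.toPerm wBar⁻¹ : Equiv.Perm (Place (kA A) (Ft M' A))) Q).ord
          (tResV n e M' p hpM hb hnM A hA - algebraMap (kA A) (Ft M' A) c) := by
    intro Q
    have h := Place.ord_smul wBar (wBar⁻¹ • Q)
      (tResV n e M' p hpM hb hnM A hA - algebraMap (kA A) (Ft M' A) c)
    rw [smul_inv_smul, map_sub, AlgEquiv.commutes] at h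
    rw [Nat.cast_one, one_mul, h]
    rfl
  have hfin1 := finite_fibre_tRes n e M' p hpM (hmemV n e M' hb hnM) (hgenbV n e hb) A hA c
  have hZ1 : Z (kA A) (tResV n e M' p hpM hb hnM A hA - algebraMap (kA A) (Ft M' A) c) =
      (degT n e M' (hmemV n e M' hb hnM) : ℤ) :=
    sum_ord_fibre_tRes n e M' p hpM (hmemV n e M' hb hnM) (hgenbV n e hb) A hA c
  have hfinW := finite_zeros_comp_equiv _ 1 _ _ hw hfin1
  have hZW := Z_comp_equiv _ 1 one_pos _ _ hw
  rw [hZ1, Nat.cast_one, one_mul] at hZW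
  constructor
  · rw [hy]
    have := Z_vpFt_sub_const M' p A hA (wBar (tResV n e M' p hpM hb hnM A hA)) c
    rw [hZW] at this
    rw [Nat.cast_mul]
    exact this
  · rw [hy]
    exact finite_zeros_comp_equiv (frobPlace (kA A) p M') p _ _
      (fun Q => ord_vpFt_sub_const M' p A hA _ c Q) hfinW

end Second

/-! ### transcendence along `V_p` -/

/-- `V_p u` is a constant iff `u` is. -/
theorem vpFt_eq_algebraMap_iff (u : Ft M' A) (c : kA A) :
    vpFt M' p A hA u = algebraMap (kA A) (Ft M' A) c ↔ u = algebraMap (kA A) (Ft M' A) c := by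
  constructor
  · intro h
    apply vpFt_injective M' p A hA
    rw [h, vpFt_algebraMap]
  · intro h
    rw [h, vpFt_algebraMap]

/-- **`V_p u` is transcendental over `k̄` iff `u` is** (`k̄` algebraically closed). -/
theorem transcendental_vpFt_iff (u : Ft M' A) :
    Transcendental (kA A) (vpFt M' p A hA u) ↔ Transcendental (kA A) u := by
  have := isAlgClosed_kA A
  constructor
  · intro h halg
    obtain ⟨c, hc⟩ := Fermat.Agent.X0.FF.ffp_eq_algebraMap_of_isAlgebraic halg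
    apply h
    rw [(vpFt_eq_algebraMap_iff M' p A hA u c).2 hc]
    exact isAlgebraic_algebraMap c
  · intro h halg
    obtain ⟨c, hc⟩ := Fermat.Agent.X0.FF.ffp_eq_algebraMap_of_isAlgebraic halg
    apply h
    rw [(vpFt_eq_algebraMap_iff M' p A hA u c).1 hc]
    exact isAlgebraic_algebraMap c

/-- (TRANS2) from w49's named input: `V_p (wBar t̃)` is transcendental over `k̄`. -/
theorem transcendental_vpFt_wBar (wBar : Ft M' A ≃ₐ[kA A] Ft M' A) :
    Transcendental (kA A) (vpFt M' p A hA (wBar (tResV n e M' p hpM hb hnM A hA))) := by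
  rw [transcendental_vpFt_iff]
  intro halg
  have h := (hxtV n e M' p hpM hb hnM A hA).transcendental
  apply h
  have h1 := halg.algHom (wBar.symm : Ft M' A →ₐ[kA A] Ft M' A)
  have h2 : (wBar.symm : Ft M' A →ₐ[kA A] Ft M' A) (wBar (tResV n e M' p hpM hb hnM A hA)) =
      tResV n e M' p hpM hb hnM A hA := wBar.symm_apply_apply _
  rw [h2] at h1
  exact h1

include hpM in
/-- **`n = n₁ + n₂`** with `n₂ = p · n₁` (so `add_le` holds with equality). -/
theorem degT_bad_eq_add :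
    degT n e M' (hmemV n e M' hb hnM) + p * degT n e M' (hmemV n e M' hb hnM) =
      degT n e (M' * p) (hmemN n e M' p hb hnM) := by
  rw [degT_bad n e M' p hpM hb hnM]
  ring

end Fermat.Agent.ES.W33.R2DegN15
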