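/-
Programme W (S33), chapter (B3′), (R2) = helper22's RELATIVE COUNT (`W33/R2RelN22`, `R2RelCtxN22`),
leaf "branch 2 through `Φ`" (helper15, ruling w62 (iii),(iv)).

`Φ := wBar⁻¹ ∘ Fr : Place k̄ F̃ ≃ Place k̄ F̃` ("the partner on the FIRST branch of a point of the SECOND
branch"), `Fr = frobPlace` the coefficientwise Frobenius on places (`KRON/FrobPlace13`) and `wBar` the
reduction of the Fricke involution `W_{M'}` of the GOOD level (w49, `FrickeBar25`; here ANY
`k̄`-algebra automorphism of `F̃`, a NAMED input), `V_p = vpFt` (`W33/BetaRed15`).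

* `expChar_kA`, `perfectField_kA` : the two instances needed by `frobPlace`, from `hA`;
* **`phi wBar`**, `phi_apply`, `phi_symm_apply`;
* **`ord_phi`** : `ord_Q (V_p (wBar g) − c) = p · ord_{Φ Q} (g − c)`  (= (iv) for helper22's `hord`);
  `ord_phi'` the same for an element `y₂ = V_p (wBar g)`;
* **`valAt_phi_iff`** : `ValAt Q (V_p (wBar g)) c ↔ ValAt (Φ Q) g c`;
* **(iii) CORE `rV_eq_phi₀`, `rV_eq_phi₁`** : if `P⁰` lies in chart `j` of the good two-chart model
  `TV` and `ValAt Q₂ (V_p (wBar b̄)) (χ_{P⁰} b)` for all `b` of the chart ring, then `rV P⁰ = Φ Q₂`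
  ((R1u) of the GOOD level, `TwoCharts8.eq_rAt`);
* `rV_eq_phi` : the same with the chart chosen by `inChart_or`.
-/
import Mathlib
import Fermat.Agent.ES.W33.R2DegN15
import Fermat.Agent.ES.W33.ValAt29
import Fermat.Agent.ES.N34.ModelN4

set_option autoImplicit false
set_option synthInstance.maxHeartbeats 400000
set_option linter.unusedSectionVars false
set_option linter.style.haveILetI false

open HahnSeries ModularCurve AlgebraicCurve

noncomputable section

namespace Fermat.Agent.ES.W33.BranchTwoPhi15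

open Fermat.Agent.RED.Interface4 Fermat.Agent.RED.BASE.Interface12 Fermat.Agent.RED.BASE.Hauptmodul12
  Fermat.Agent.RED.BASE.EtaQuot12 Fermat.Agent.RED.PUR.ChartGeneric22 Fermat.Agent.X0.FF
  Fermat.Agent.ES.N34.FrickeFK8 Fermat.Agent.ES.RED.RedMain15 Fermat.Agent.ES.RED.RedCharts15
  Fermat.Agent.ES.RED.Contract8 Fermat.Agent.ES.RED.TwoCharts8 Fermat.Agent.ES.RED.ModelInst4
  Fermat.Agent.ES.RED.GaussRing15 Fermat.Agent.ES.RED.PlaceValue13
  Fermat.Agent.ES.RED.SpecialInv25 Fermat.Agent.ES.RED.SpecialGen25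
  Fermat.Agent.ES.V19.GaussFrac15 Fermat.Agent.ES.V19.InstNames3 Fermat.Agent.ES.W33.NodalDefs3
  Fermat.Agent.ES.KRON.FrobPlace13 Fermat.Agent.ES.W33.BetaRed15 Fermat.Agent.ES.W33.R2DegN15
  Fermat.Agent.ES.W33.XiIfaceN29 Fermat.Agent.ES.W33.ValAt29

attribute [local instance 5000] HahnSeries.powerSeriesAlgebra SubalgebraClass.toAlgebra

variable (n e M' : ℕ) [NeZero n] [NeZero M'] (p : ℕ) [Fact p.Prime] (hpM : ¬ p ∣ M')
  (hb : BaseHyp n e) (hnM : n ∣ M') (A : ValuationSubring Qbar) (hA : A.LiesOverPrime p)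

/-! ### the two instances -/

include hA in
/-- `k̄` has exponential characteristic `p`. -/
theorem expChar_kA : ExpChar (kA A) p :=
  haveI := charP_kA p A hA
  ExpChar.prime (Fact.out : p.Prime)

/-- `k̄` is perfect. -/
theorem perfectField_kA : PerfectField (kA A) :=
  haveI := isAlgClosed_kA A
  inferInstance

/-! ### `Φ` -/

/-- **`Φ = wBar⁻¹ ∘ Fr`** : the partner on the first branch of a point of the second branch. -/
def phi (wBar : Ft M' A ≃ₐ[kA A] Ft M' A) :
    Place (kA A) (Ft M' A) ≃ Place (kA A) (Ft M' A) :=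
  haveI := expChar_kA p A hA
  haveI := perfectField_kA A
  (frobPlace (kA A) p M').trans (MulAction.toPerm wBar⁻¹)

theorem phi_apply [ExpChar (kA A) p] [PerfectField (kA A)] (wBar : Ft M' A ≃ₐ[kA A] Ft M' A)
    (Q : Place (kA A) (Ft M' A)) :
    phi M' p A hA wBar Q = wBar⁻¹ • frobPlace (kA A) p M' Q := rfl

theorem phi_symm_apply [ExpChar (kA A) p] [PerfectField (kA A)]
    (wBar : Ft M' A ≃ₐ[kA A] Ft M' A) (Q : Place (kA A) (Ft M' A)) :
    (phi M' p A hA wBar).symm Q = (frobPlace (kA A) p M').symm (wBar • Q) := by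
  rw [Equiv.symm_apply_eq, phi_apply, Equiv.apply_symm_apply, inv_smul_smul]

/-- **(iv)** `ord_Q (V_p (wBar g) − c) = p · ord_{Φ Q} (g − c)`. -/
theorem ord_phi (wBar : Ft M' A ≃ₐ[kA A] Ft M' A) (g : Ft M' A) (c : kA A)
    (Q : Place (kA A) (Ft M' A)) :
    Q.ord (vpFt M' p A hA (wBar g) - algebraMap (kA A) (Ft M' A) c) =
      p * (phi M' p A hA wBar Q).ord (g - algebraMap (kA A) (Ft M' A) c) := by
  haveI := expChar_kA p A hA
  haveI := perfectField_kA A
  rw [ord_vpFt_sub_const M' p A hA (wBar g) c Q, phi_apply]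
  have h := Place.ord_smul wBar (wBar⁻¹ • frobPlace (kA A) p M' Q)
    (g - algebraMap (kA A) (Ft M' A) c)
  rw [smul_inv_smul, map_sub, AlgEquiv.commutes] at h
  rw [h]

/-- (iv) for an element given as `y₂ = V_p (wBar g)` (w49's named input: `y₂ := rho2 ⟨tN, _⟩`,
`g := t̃`). -/
theorem ord_phi' (wBar : Ft M' A ≃ₐ[kA A] Ft M' A) {y₂ g : Ft M' A}
    (hy : y₂ = vpFt M' p A hA (wBar g)) (c : kA A) (Q : Place (kA A) (Ft M' A)) :
    Q.ord (y₂ - algebraMap (kA A) (Ft M' A) c) =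
      p * (phi M' p A hA wBar Q).ord (g - algebraMap (kA A) (Ft M' A) c) := by
  rw [hy]
  exact ord_phi M' p A hA wBar g c Q

/-- **values through `Φ`**: `V_p (wBar g)` has the value `c` at `Q` iff `g` has the value `c` at
`Φ Q`. -/
theorem valAt_phi_iff (wBar : Ft M' A ≃ₐ[kA A] Ft M' A) (g : Ft M' A) (c : kA A)
    (Q : Place (kA A) (Ft M' A)) :
    ValAt Q (vpFt M' p A hA (wBar g)) c ↔ ValAt (phi M' p A hA wBar Q) g c := by
  unfold ValAt
  have hp : (0 : ℤ) < (p : ℤ) := by exact_mod_cast (Fact.out : p.Prime).pos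
  have h1 : vpFt M' p A hA (wBar g) = algebraMap (kA A) (Ft M' A) c ↔
      g = algebraMap (kA A) (Ft M' A) c := by
    rw [vpFt_eq_algebraMap_iff]
    constructor
    · intro h
      apply wBar.injective
      rw [h, AlgEquiv.commutes]
    · intro h
      rw [h, AlgEquiv.commutes]
  rw [h1, ord_phi M' p A hA wBar g c Q]
  constructor
  · rintro (h | h)
    · exact Or.inl h
    · exact Or.inr ((mul_pos_iff_of_pos_left hp).mp h)
  · rintro (h | h)
    · exact Or.inl h
    · exact Or.inr (mul_pos hp h)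

/-! ### (iii) the core: (R1u) of the GOOD level through `Φ` -/

/-- **(iii), chart 0.**  `P⁰` a place of the GOOD level in chart 0 of `TV`, `Q₂` a place of `F̃` such
that `V_p (wBar b̄)` has the value `χ_{P⁰} b` at `Q₂` for every `b` of the chart ring: then
`rV P⁰ = Φ Q₂`. -/
theorem rV_eq_phi₀ (wBar : Ft M' A ≃ₐ[kA A] Ft M' A) (P0 : Place Qbar ↥(Fbar M'))
    (h0 : (TV n e M' p hpM hb hnM A hA).S0.InChart P0) (Q₂ : Place (kA A) (Ft M' A))
    (H : ∀ b : ↥(TV n e M' p hpM hb hnM A hA).S0.B,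
      ValAt Q₂ (vpFt M' p A hA (wBar ((TV n e M' p hpM hb hnM A hA).S0.red b)))
        ((TV n e M' p hpM hb hnM A hA).S0.chi P0 h0 b)) :
    rV n e M' p hpM hb hnM A hA P0 = phi M' p A hA wBar Q₂ := by
  haveI := isAlgClosed_kA A
  have hV : ∀ b : ↥(TV n e M' p hpM hb hnM A hA).S0.B,
      ValAt (phi M' p A hA wBar Q₂) ((TV n e M' p hpM hb hnM A hA).S0.red b)
        ((TV n e M' p hpM hb hnM A hA).S0.chi P0 h0 b) := fun b =>
    (valAt_phi_iff M' p A hA wBar _ _ Q₂).1 (H b)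
  have hQ : ∀ b : ↥(TV n e M' p hpM hb hnM A hA).S0.B,
      (TV n e M' p hpM hb hnM A hA).S0.red b ∈ (phi M' p A hA wBar Q₂).toValuationSubring :=
    fun b => ValAt.mem (hV b)
  have hQv : ∀ b : ↥(TV n e M' p hpM hb hnM A hA).S0.B,
      valueHom (hxtV n e M' p hpM hb hnM A hA) (phi M' p A hA wBar Q₂)
        ⟨(TV n e M' p hpM hb hnM A hA).S0.red b, hQ b⟩ =
          (TV n e M' p hpM hb hnM A hA).S0.chi P0 h0 b := fun b =>
    (valueHom_eq_iff (hxtV n e M' p hpM hb hnM A hA) (phi M' p A hA wBar Q₂)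
      ⟨(TV n e M' p hpM hb hnM A hA).S0.red b, hQ b⟩ _).2 (hV b)
  refine ((TV n e M' p hpM hb hnM A hA).r_eq0 P0 h0).trans ?_
  exact eq_rAt (hxtV n e M' p hpM hb hnM A hA) (TV n e M' p hpM hb hnM A hA).places0
    (TV n e M' p hpM hb hnM A hA).tr0 P0 h0 (phi M' p A hA wBar Q₂) hQ hQv |>.symm

/-- **(iii), chart 1.** -/
theorem rV_eq_phi₁ (wBar : Ft M' A ≃ₐ[kA A] Ft M' A) (P0 : Place Qbar ↥(Fbar M'))
    (h1 : (TV n e M' p hpM hb hnM A hA).S1.InChart P0) (Q₂ : Place (kA A) (Ft M' A))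
    (H : ∀ b : ↥(TV n e M' p hpM hb hnM A hA).S1.B,
      ValAt Q₂ (vpFt M' p A hA (wBar ((TV n e M' p hpM hb hnM A hA).S1.red b)))
        ((TV n e M' p hpM hb hnM A hA).S1.chi P0 h1 b)) :
    rV n e M' p hpM hb hnM A hA P0 = phi M' p A hA wBar Q₂ := by
  haveI := isAlgClosed_kA A
  have hV : ∀ b : ↥(TV n e M' p hpM hb hnM A hA).S1.B,
      ValAt (phi M' p A hA wBar Q₂) ((TV n e M' p hpM hb hnM A hA).S1.red b)
        ((TV n e M' p hpM hb hnM A hA).S1.chi P0 h1 b) := fun b =>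
    (valAt_phi_iff M' p A hA wBar _ _ Q₂).1 (H b)
  have hQ : ∀ b : ↥(TV n e M' p hpM hb hnM A hA).S1.B,
      (TV n e M' p hpM hb hnM A hA).S1.red b ∈ (phi M' p A hA wBar Q₂).toValuationSubring :=
    fun b => ValAt.mem (hV b)
  have hQv : ∀ b : ↥(TV n e M' p hpM hb hnM A hA).S1.B,
      valueHom (hxtV n e M' p hpM hb hnM A hA) (phi M' p A hA wBar Q₂)
        ⟨(TV n e M' p hpM hb hnM A hA).S1.red b, hQ b⟩ =
          (TV n e M' p hpM hb hnM A hA).S1.chi P0 h1 b := fun b =>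
    (valueHom_eq_iff (hxtV n e M' p hpM hb hnM A hA) (phi M' p A hA wBar Q₂)
      ⟨(TV n e M' p hpM hb hnM A hA).S1.red b, hQ b⟩ _).2 (hV b)
  refine ((TV n e M' p hpM hb hnM A hA).r_eq1 (hxtV n e M' p hpM hb hnM A hA) P0 h1).trans ?_
  exact eq_rAt (hxtV n e M' p hpM hb hnM A hA) (TV n e M' p hpM hb hnM A hA).places1
    (TV n e M' p hpM hb hnM A hA).tr1 P0 h1 (phi M' p A hA wBar Q₂) hQ hQv |>.symm

/-! ### value compatibility along a morphism of function fields (generic) -/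

section Compat

variable {K F F' : Type*} [Field K] [IsAlgClosed K] [Field F] [Field F'] [Algebra K F]
  [Algebra K F']

omit [IsAlgClosed K] in
/-- membership in the restriction of a place along `φ`. -/
theorem mem_restrictAlong_iff (φ : F →ₐ[K] F') (hφ : φ.toRingHom.IsIntegral) (P : Place K F')
    (f : F) : f ∈ (P.restrictAlong φ hφ).toValuationSubring ↔ φ f ∈ P.toValuationSubring :=
  Iff.rfl

/-- **value compatibility**: `f (P|_F) = (φ f)(P)`. -/
theorem valueHom_restrictAlong {x : F} (hx : IsGen K x) {x' : F'} (hx' : IsGen K x')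
    (φ : F →ₐ[K] F') (hφ : φ.toRingHom.IsIntegral) (P : Place K F') (f : F)
    (hf : f ∈ (P.restrictAlong φ hφ).toValuationSubring) (hf' : φ f ∈ P.toValuationSubring) :
    valueHom hx (P.restrictAlong φ hφ) ⟨f, hf⟩ = valueHom hx' P ⟨φ f, hf'⟩ := by
  rw [valueHom_eq_iff]
  rcases (valueHom_eq_iff hx' P ⟨φ f, hf'⟩ _).1 rfl with h | h
  · left
    apply (φ : F →+* F').injective
    show φ f = φ (algebraMap K F _)
    rw [AlgHom.commutes]
    exact h
  · right
    have he : φ f - algebraMap K F' (valueHom hx' P ⟨φ f, hf'⟩) =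
        φ (f - algebraMap K F (valueHom hx' P ⟨φ f, hf'⟩)) := by
      rw [map_sub, AlgHom.commutes]
    have h' : 0 < P.ord (φ (f - algebraMap K F (valueHom hx' P ⟨φ f, hf'⟩))) := by
      rw [← he]; exact h
    rw [Place.ord_restrictAlong φ hφ] at h'
    have hnn : (0 : ℤ) ≤ (Place.ramificationIndexAlong φ P : ℤ) := Int.natCast_nonneg _
    exact pos_of_mul_pos_right h' hnn

/-- the value depends only on the element. -/
theorem valueHom_congr_elt {x : F} (hx : IsGen K x) (P : Place K F) {f g : F} (h : f = g)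
    (hf : f ∈ P.toValuationSubring) (hg : g ∈ P.toValuationSubring) :
    valueHom hx P ⟨f, hf⟩ = valueHom hx P ⟨g, hg⟩ := by
  subst h
  rfl

end Compat

/-! ### the good level under `α`: chart rings, charts, values -/

/-- `α` maps the chart ring of `tV` into the chart ring of `tN`. -/
theorem alpha_mem_chart₀ {b : ↥(Fbar M')} (hb' : b ∈ chart ↥A (tV n e M' hb hnM)) :
    alphaN M' p b ∈ chart ↥A (tN n e M' p hb hnM) :=
  Fermat.Agent.ES.N34.ModelN4.map_mem_chart (R := ↥A)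
    (alphaN M' p : ↥(Fbar M') →+* ↥(Fbar (M' * p)))
    (fun r => by
      rw [IsScalarTower.algebraMap_apply ↥A Qbar ↥(Fbar M'),
        IsScalarTower.algebraMap_apply ↥A Qbar ↥(Fbar (M' * p))]
      exact (alphaN M' p).commutes _)
    (by
      show alphaN M' p (tV n e M' hb hnM) ∈ chart ↥A (tN n e M' p hb hnM)
      rw [alphaN_tV n e M' p hb hnM]
      exact self_mem_chart (R := ↥A) (tN n e M' p hb hnM)) hb'

/-- `α` maps the chart ring of `tV⁻¹` into the chart ring of `tN⁻¹`. -/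
theorem alpha_mem_chart₁ {b : ↥(Fbar M')} (hb' : b ∈ chart ↥A (tV n e M' hb hnM)⁻¹) :
    alphaN M' p b ∈ chart ↥A (tN n e M' p hb hnM)⁻¹ :=
  Fermat.Agent.ES.N34.ModelN4.map_mem_chart (R := ↥A)
    (alphaN M' p : ↥(Fbar M') →+* ↥(Fbar (M' * p)))
    (fun r => by
      rw [IsScalarTower.algebraMap_apply ↥A Qbar ↥(Fbar M'),
        IsScalarTower.algebraMap_apply ↥A Qbar ↥(Fbar (M' * p))]
      exact (alphaN M' p).commutes _)
    (by
      show alphaN M' p (tV n e M' hb hnM)⁻¹ ∈ chart ↥A (tN n e M' p hb hnM)⁻¹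
      rw [map_inv₀, alphaN_tV n e M' p hb hnM]
      exact self_mem_chart (R := ↥A) (tN n e M' p hb hnM)⁻¹) hb'

/-- a place of the bad level in chart 0 restricts to a place of the good level in chart 0. -/
theorem inChart_resAlpha₀ (P : Place Qbar ↥(Fbar (M' * p)))
    (h : ∃ hs : tN n e M' p hb hnM ∈ P.toValuationSubring,
      valueHom (hxN n e M' p hb hnM) P ⟨tN n e M' p hb hnM, hs⟩ ∈ A) :
    (TV n e M' p hpM hb hnM A hA).S0.InChart (resAlpha M' p P) := by
  obtain ⟨hs, hv⟩ := h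
  have he : alphaN M' p (tV n e M' hb hnM) = tN n e M' p hb hnM := alphaN_tV n e M' p hb hnM
  have hs2 : alphaN M' p (tV n e M' hb hnM) ∈ P.toValuationSubring := by rw [he]; exact hs
  have hs' : tV n e M' hb hnM ∈ (resAlpha M' p P).toValuationSubring :=
    (mem_restrictAlong_iff (alphaN M' p) (alphaN_isIntegral M' p) P _).2 hs2
  refine ⟨hs', ?_⟩
  have h1 := valueHom_restrictAlong (hxV n e M' hb hnM) (hxN n e M' p hb hnM) (alphaN M' p)
    (alphaN_isIntegral M' p) P (tV n e M' hb hnM) hs' hs2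
  have h2 := valueHom_congr_elt (hxN n e M' p hb hnM) P he hs2 hs
  exact (h1.trans h2) ▸ hv

/-- a place of the bad level in chart 1 restricts to a place of the good level in chart 1. -/
theorem inChart_resAlpha₁ (P : Place Qbar ↥(Fbar (M' * p)))
    (h : ∃ hs : (tN n e M' p hb hnM)⁻¹ ∈ P.toValuationSubring,
      valueHom (hxN n e M' p hb hnM) P ⟨(tN n e M' p hb hnM)⁻¹, hs⟩ ∈ A) :
    (TV n e M' p hpM hb hnM A hA).S1.InChart (resAlpha M' p P) := by
  obtain ⟨hs, hv⟩ := h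
  have he : alphaN M' p (tV n e M' hb hnM)⁻¹ = (tN n e M' p hb hnM)⁻¹ := by
    rw [map_inv₀, alphaN_tV n e M' p hb hnM]
  have hs2 : alphaN M' p (tV n e M' hb hnM)⁻¹ ∈ P.toValuationSubring := by rw [he]; exact hs
  have hs' : (tV n e M' hb hnM)⁻¹ ∈ (resAlpha M' p P).toValuationSubring :=
    (mem_restrictAlong_iff (alphaN M' p) (alphaN_isIntegral M' p) P _).2 hs2
  refine ⟨hs', ?_⟩
  have h1 := valueHom_restrictAlong (hxV n e M' hb hnM) (hxN n e M' p hb hnM) (alphaN M' p)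
    (alphaN_isIntegral M' p) P (tV n e M' hb hnM)⁻¹ hs' hs2
  have h2 := valueHom_congr_elt (hxN n e M' p hb hnM) P he hs2 hs
  exact (h1.trans h2) ▸ hv

/-- values of the good chart ring 0 at the restriction, computed at the bad level. -/
theorem coe_ev_resAlpha₀ (P : Place Qbar ↥(Fbar (M' * p)))
    (h0 : (TV n e M' p hpM hb hnM A hA).S0.InChart (resAlpha M' p P))
    (b : ↥(TV n e M' p hpM hb hnM A hA).S0.B)
    (hbP : alphaN M' p (b : ↥(Fbar M')) ∈ P.toValuationSubring) :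
    (((TV n e M' p hpM hb hnM A hA).S0.ev (resAlpha M' p P) h0 b : ↥A) : Qbar) =
      valueHom (hxN n e M' p hb hnM) P ⟨alphaN M' p (b : ↥(Fbar M')), hbP⟩ := by
  rw [ChartSpec.coe_ev]
  exact valueHom_restrictAlong _ (hxN n e M' p hb hnM) (alphaN M' p) (alphaN_isIntegral M' p) P
    (b : ↥(Fbar M')) _ hbP

/-- values of the good chart ring 1 at the restriction, computed at the bad level. -/
theorem coe_ev_resAlpha₁ (P : Place Qbar ↥(Fbar (M' * p)))
    (h1 : (TV n e M' p hpM hb hnM A hA).S1.InChart (resAlpha M' p P))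
    (b : ↥(TV n e M' p hpM hb hnM A hA).S1.B)
    (hbP : alphaN M' p (b : ↥(Fbar M')) ∈ P.toValuationSubring) :
    (((TV n e M' p hpM hb hnM A hA).S1.ev (resAlpha M' p P) h1 b : ↥A) : Qbar) =
      valueHom (hxN n e M' p hb hnM) P ⟨alphaN M' p (b : ↥(Fbar M')), hbP⟩ := by
  rw [ChartSpec.coe_ev]
  exact valueHom_restrictAlong _ (hxN n e M' p hb hnM) (alphaN M' p) (alphaN_isIntegral M' p) P
    (b : ↥(Fbar M')) _ hbP

/-! ### w49: the named input, and `rho2 (α x) = V_p (wBar x̄)` -/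

/-- **w49's named input** (a statement at the GOOD level only): the Fricke involution `W_{M'}`
preserves the Gauss valuation ring of the good level and induces `wBar` on its residue field `F̃`.
(`IsRedOf G red f φ` : `f = a / b` with `a, b ∈ G`, `b̄ ≠ 0`, `φ = ā / b̄`; `GaussFrac15`.) -/
def FrickeRed (wBar : Ft M' A ≃ₐ[kA A] Ft M' A) : Prop :=
  ∀ (x : ↥(Fbar M')) (u : Ft M' A), IsRedOf (GqV M' A) (redqV M' A) x u →
    IsRedOf (GqV M' A) (redqV M' A) (frickeBar M' x) (wBar u)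

variable {M' A} in
/-- **`rho2 (α x) = V_p (wBar x̄)`** for every Gauss-integral `x` of the good level (one of w49's
four function-level formulas, from the good-level input alone). -/
theorem rho2_alpha {wBar : Ft M' A ≃ₐ[kA A] Ft M' A} (hW : FrickeRed M' A wBar)
    {x : ↥(Fbar M')} {u : Ft M' A} (h : IsRedOf (GqV M' A) (redqV M' A) x u) :
    ∃ h2 : alphaN M' p x ∈ O2 M' p A,
      rho2 M' p A ⟨alphaN M' p x, h2⟩ = vpFt M' p A hA (wBar u) := by
  have h1 := isRedOf_beta M' p A hA (hW x u h)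
  rw [beta_fricke] at h1
  refine ⟨h1.isGI, ?_⟩
  rw [rho2_apply]
  exact rho_eq_of_isRedOf h1

variable {M' A} in
/-- the same at the elements of the good chart ring 0. -/
theorem rho2_alpha_chart₀ {wBar : Ft M' A ≃ₐ[kA A] Ft M' A} (hW : FrickeRed M' A wBar)
    (b : ↥(TV n e M' p hpM hb hnM A hA).S0.B) :
    ∃ h2 : alphaN M' p (b : ↥(Fbar M')) ∈ O2 M' p A,
      rho2 M' p A ⟨alphaN M' p (b : ↥(Fbar M')), h2⟩ =
        vpFt M' p A hA (wBar ((TV n e M' p hpM hb hnM A hA).S0.red b)) := by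
  have h := isRedOf_of_mem (G := GqV M' A) (red := redqV M' A)
    ⟨(b : ↥(Fbar M')), B0_le_GqV n e M' p hpM hb hnM A hA b.2⟩
  rw [redqV_eq] at h
  exact rho2_alpha p hA hW h

variable {M' A} in
/-- the same at the elements of the good chart ring 1. -/
theorem rho2_alpha_chart₁ {wBar : Ft M' A ≃ₐ[kA A] Ft M' A} (hW : FrickeRed M' A wBar)
    (b : ↥(TV n e M' p hpM hb hnM A hA).S1.B) :
    ∃ h2 : alphaN M' p (b : ↥(Fbar M')) ∈ O2 M' p A,
      rho2 M' p A ⟨alphaN M' p (b : ↥(Fbar M')), h2⟩ =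
        vpFt M' p A hA (wBar ((TV n e M' p hpM hb hnM A hA).S1.red b)) := by
  have hc := (inputs1V n e M' p hpM hb hnM A hA).compat
  have h := isRedOf_of_mem (G := GqV M' A) (red := redqV M' A)
    ⟨(b : ↥(Fbar M')), hc.le_gaussRingN b.2⟩
  rw [hc.gaussRedN_eq (b : ↥(Fbar M')) b.2] at h
  exact rho2_alpha p hA hW h

end Fermat.Agent.ES.W33.BranchTwoPhi15
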