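/-
Programme W (S33), chapter B3′ (helper20): THE LOCAL RING OF A COMPONENT AT A CENTRE, as pure
algebra.  This is `ES/RED/Contract8` (`rSubring`, (VAL), `rPlace`, (R1), (R1u)) with the chart
stripped away, so that it applies to EACH COMPONENT of a reducible special fibre.

Data: a ring `B` ("the chart ring"), a ring homomorphism `χ : B →+* k` ("the centre of a place
`P`", a closed point of the special fibre) and a ring homomorphism `ρ : B →+* Ft` into a field
("restriction of functions to ONE component of the special fibre, followed by the inclusion into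
its function field").  `IsCentre χ ρ` says that the centre lies ON the component (`ker ρ ⊆ ker χ`)
and that constants are available.

* `cSubring χ ρ := {y | ∃ a d, χ d ≠ 0 ∧ y * ρ d = ρ a}` : the local ring of the component at the
  centre;  `Val χ ρ` : it is a valuation ring (VAL);  `cVS`, `cPlace` : the place of `Ft / k`;
* `valueHom_rho_of_eq` : **(R1)** the value of `ρ f` at that place is `χ f`;
* `eq_cPlace` : **(R1u)** uniqueness;
* `cSubring_le_of_comp` : functoriality in `B` (used to compare two charts).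

Main's `ChartSpec` is the instance `χ := S.chi P hP`, `ρ := S.red`; on a nodal model one takes
`ρ := prᵢ ∘ red` for a centre lying on the `i`-th component.
-/
import Mathlib
import Fermat.Agent.ES.RED.PlaceValue13
import Fermat.Agent.ES.HECKE.FundIdentity19

set_option autoImplicit false

noncomputable section

open AlgebraicCurve

namespace Fermat.Agent.ES.W33.CentreN20

open Fermat.Agent.X0.FF Fermat.Agent.ES.RED.PlaceValue13

variable {k : Type*} [Field k] {B : Type*} [CommRing B] {Ft : Type*} [Field Ft] [Algebra k Ft]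

/-- The centre `χ` lies on the component `ρ`, and constants lift. -/
structure IsCentre (χ : B →+* k) (ρ : B →+* Ft) : Prop where
  /-- the centre lies on the component -/
  on : ∀ b : B, ρ b = 0 → χ b = 0
  /-- constants -/
  const : ∀ c : k, ∃ b : B, χ b = c ∧ ρ b = algebraMap k Ft c

variable (χ : B →+* k) (ρ : B →+* Ft)

/-- **the local ring of the component at the centre**: fractions `ρ a / ρ d` with `χ d ≠ 0`. -/
def cSubring : Subring Ft where
  carrier := {y | ∃ a d : B, χ d ≠ 0 ∧ y * ρ d = ρ a}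
  mul_mem' := by
    rintro y y' ⟨a, d, hd, h⟩ ⟨a', d', hd', h'⟩
    refine ⟨a * a', d * d', ?_, ?_⟩
    · rw [map_mul]; exact mul_ne_zero hd hd'
    · rw [map_mul, map_mul, ← h, ← h']; ring
  one_mem' := ⟨1, 1, by rw [map_one]; exact one_ne_zero, by rw [one_mul]⟩
  add_mem' := by
    rintro y y' ⟨a, d, hd, h⟩ ⟨a', d', hd', h'⟩
    refine ⟨a * d' + a' * d, d * d', ?_, ?_⟩
    · rw [map_mul]; exact mul_ne_zero hd hd'
    · rw [map_mul, map_add, map_mul, map_mul, ← h, ← h']; ring
  zero_mem' := ⟨0, 1, by rw [map_one]; exact one_ne_zero, by rw [map_zero, zero_mul]⟩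
  neg_mem' := by
    rintro y ⟨a, d, hd, h⟩
    exact ⟨-a, d, hd, by rw [map_neg, ← h]; ring⟩

theorem mem_cSubring_iff (y : Ft) :
    y ∈ cSubring χ ρ ↔ ∃ a d : B, χ d ≠ 0 ∧ y * ρ d = ρ a := Iff.rfl

theorem rho_mem_cSubring (b : B) : ρ b ∈ cSubring χ ρ :=
  ⟨b, 1, by rw [map_one]; exact one_ne_zero, by rw [map_one, mul_one]⟩

variable {χ ρ}

theorem IsCentre.chi_eq_of_rho_eq (h : IsCentre χ ρ) {a b : B} (hab : ρ a = ρ b) : χ a = χ b := by
  have := h.on (a - b) (by rw [map_sub, hab, sub_self])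
  rwa [map_sub, sub_eq_zero] at this

theorem IsCentre.rho_ne_zero (h : IsCentre χ ρ) {d : B} (hd : χ d ≠ 0) : ρ d ≠ 0 :=
  fun h0 => hd (h.on d h0)

theorem IsCentre.algebraMap_mem_cSubring (h : IsCentre χ ρ) (c : k) :
    algebraMap k Ft c ∈ cSubring χ ρ := by
  obtain ⟨b, -, hb⟩ := h.const c
  rw [← hb]
  exact rho_mem_cSubring χ ρ b

/-- `ρ d` is a unit of the local ring when `χ d ≠ 0`. -/
theorem IsCentre.inv_rho_mem_cSubring (h : IsCentre χ ρ) {d : B} (hd : χ d ≠ 0) :
    (ρ d)⁻¹ ∈ cSubring χ ρ := by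
  refine ⟨1, d, hd, ?_⟩
  rw [map_one, inv_mul_cancel₀ (h.rho_ne_zero hd)]

/-- an element `ρ b ≠ 0` with `χ b = 0` is a non-unit of the local ring. -/
theorem IsCentre.inv_rho_notMem_cSubring (h : IsCentre χ ρ) {b : B} (hb : χ b = 0) :
    (ρ b)⁻¹ ∉ cSubring χ ρ ∨ ρ b = 0 := by
  rcases eq_or_ne (ρ b) 0 with h0 | h0
  · exact Or.inr h0
  left
  rintro ⟨a, d, hd, he⟩
  apply hd
  have h1 : ρ d = ρ (a * b) := by
    rw [map_mul, ← he]
    field_simp
  rw [h.chi_eq_of_rho_eq h1, map_mul, hb, mul_zero]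

variable (χ ρ)

/-- **(VAL)**: the local ring of the component at the centre is a valuation ring. -/
def Val : Prop := ∀ y : Ft, y ∈ cSubring χ ρ ∨ y⁻¹ ∈ cSubring χ ρ

/-- the local ring as a valuation subring. -/
def cVS (hval : Val χ ρ) : ValuationSubring Ft :=
  { cSubring χ ρ with mem_or_inv_mem' := hval }

theorem mem_cVS_iff (hval : Val χ ρ) (y : Ft) :
    y ∈ cVS χ ρ hval ↔ ∃ a d : B, χ d ≠ 0 ∧ y * ρ d = ρ a := Iff.rfl

variable {χ ρ}

/-- the local ring is not all of `Ft` as soon as some `b` with `χ b = 0` has `ρ b ≠ 0`. -/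
theorem IsCentre.cVS_ne_top (h : IsCentre χ ρ) (hval : Val χ ρ) {b : B} (hb : χ b = 0)
    (hb0 : ρ b ≠ 0) : cVS χ ρ hval ≠ ⊤ := by
  intro htop
  rcases h.inv_rho_notMem_cSubring hb with h1 | h1
  · apply h1
    have : (ρ b)⁻¹ ∈ cVS χ ρ hval := by rw [htop]; exact ValuationSubring.mem_top _
    exact this
  · exact hb0 h1

/-- **the place of the component at the centre** (the principal-ideal property is an input). -/
def IsCentre.cPlace (h : IsCentre χ ρ) (hval : Val χ ρ) (hne : cVS χ ρ hval ≠ ⊤)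
    (hpir : IsPrincipalIdealRing ↥(cVS χ ρ hval)) : Place k Ft where
  toValuationSubring := cVS χ ρ hval
  algebraMap_mem' c := h.algebraMap_mem_cSubring c
  ne_top' := hne
  isPrincipalIdealRing' := hpir

@[simp] theorem IsCentre.cPlace_toValuationSubring (h : IsCentre χ ρ) (hval : Val χ ρ)
    (hne : cVS χ ρ hval ≠ ⊤) (hpir : IsPrincipalIdealRing ↥(cVS χ ρ hval)) :
    (h.cPlace hval hne hpir).toValuationSubring = cVS χ ρ hval := rfl

/-! ### (R1) and (R1u) -/

section R1

variable [IsAlgClosed k] {xt : Ft} (hxt : IsGen k xt)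

/-- **(R1)**: for a place `Q` of `Ft` whose valuation ring is the local ring at the centre, the
value of `ρ f` at `Q` is `χ f`. -/
theorem IsCentre.valueHom_rho_of_eq (h : IsCentre χ ρ) (Q : Place k Ft)
    (hQ : ∀ y : Ft, y ∈ Q.toValuationSubring ↔ y ∈ cSubring χ ρ) (f : B) :
    valueHom hxt Q ⟨ρ f, (hQ _).mpr (rho_mem_cSubring χ ρ f)⟩ = χ f := by
  rw [valueHom_eq_iff_sub_mem, IsLocalRing.mem_maximalIdeal, mem_nonunits_iff]
  intro hu
  obtain ⟨b₀, hb₀χ, hb₀ρ⟩ := h.const (χ f)
  set g : B := f - b₀ with hg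
  have hχ : χ g = 0 := by rw [hg, map_sub, hb₀χ, sub_self]
  have hred : ρ g = ρ f - algebraMap k Ft (χ f) := by rw [hg, map_sub, hb₀ρ]
  obtain ⟨w, hw⟩ := hu.exists_right_inv
  have hw' : (ρ f - algebraMap k Ft (χ f)) * (w : Ft) = 1 := by
    have := congrArg (Subtype.val) hw
    simpa using this
  have hne : ρ g ≠ 0 := by
    rw [hred]; intro h0; rw [h0, zero_mul] at hw'; exact zero_ne_one hw'
  have hinv : (ρ g)⁻¹ = (w : Ft) := by
    rw [hred]
    exact inv_eq_of_mul_eq_one_right hw'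
  rcases h.inv_rho_notMem_cSubring hχ with h1 | h1
  · apply h1
    rw [hinv]
    exact (hQ _).mp w.2
  · exact hne h1

/-- (R1) for `cPlace`. -/
theorem IsCentre.valueHom_rho (h : IsCentre χ ρ) (hval : Val χ ρ) (hne : cVS χ ρ hval ≠ ⊤)
    (hpir : IsPrincipalIdealRing ↥(cVS χ ρ hval)) (f : B) :
    valueHom hxt (h.cPlace hval hne hpir) ⟨ρ f, rho_mem_cSubring χ ρ f⟩ = χ f :=
  h.valueHom_rho_of_eq hxt (h.cPlace hval hne hpir) (fun _ => Iff.rfl) f

/-- **(R1u)**, subring form: a place `Q` of `Ft` containing `ρ B` with `ρ f (Q) = χ f` contains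
the local ring at the centre. -/
theorem IsCentre.cSubring_le (h : IsCentre χ ρ) (Q : Place k Ft)
    (hQ : ∀ b : B, ρ b ∈ Q.toValuationSubring)
    (hQv : ∀ b : B, valueHom hxt Q ⟨ρ b, hQ b⟩ = χ b) :
    ∀ y ∈ cSubring χ ρ, y ∈ Q.toValuationSubring := by
  rintro y ⟨a, d, hd, he⟩
  have hunit : IsUnit (⟨ρ d, hQ d⟩ : ↥Q.toValuationSubring) := by
    rw [← valueHom_ne_zero_iff hxt Q, hQv]
    exact hd
  obtain ⟨w, hw⟩ := hunit.exists_right_inv
  have hw' : ρ d * (w : Ft) = 1 := by
    have := congrArg (Subtype.val) hw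
    simpa using this
  have hy : y = ρ a * (w : Ft) := by
    rw [← he, mul_assoc, hw', mul_one]
  rw [hy]
  exact Q.toValuationSubring.mul_mem _ _ (hQ a) w.2

/-- **(R1u)**: a place `Q` of `Ft` containing `ρ B` with `ρ f (Q) = χ f` is the place of the
centre. -/
theorem IsCentre.eq_cPlace (h : IsCentre χ ρ) (hval : Val χ ρ) (hne : cVS χ ρ hval ≠ ⊤)
    (hpir : IsPrincipalIdealRing ↥(cVS χ ρ hval)) (Q : Place k Ft)
    (hQ : ∀ b : B, ρ b ∈ Q.toValuationSubring)
    (hQv : ∀ b : B, valueHom hxt Q ⟨ρ b, hQ b⟩ = χ b) :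
    Q = h.cPlace hval hne hpir := by
  apply Place.ext
  rw [IsCentre.cPlace_toValuationSubring]
  refine Fermat.Agent.ES.HECKE.FundIdentity19.valuationSubring_eq_of_le
    (h.cPlace hval hne hpir) Q.toValuationSubring ?_ Q.ne_top'
  exact h.cSubring_le hxt Q hQ hQv

omit [IsAlgClosed k] in
/-- two places with the same valuation ring description coincide. -/
theorem place_eq_of_mem_iff (Q Q' : Place k Ft)
    (hQ : ∀ y : Ft, y ∈ Q.toValuationSubring ↔ y ∈ Q'.toValuationSubring) : Q = Q' := by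
  apply Place.ext
  ext y
  exact hQ y

include hxt in
/-- the centre is determined by the place: if `Q` is the place of the centres `χ` and `χ'` on the
same component, then `χ = χ'`. -/
theorem IsCentre.chi_eq_of_place_eq {χ' : B →+* k} (h : IsCentre χ ρ) (h' : IsCentre χ' ρ)
    (Q : Place k Ft) (hQ : ∀ y : Ft, y ∈ Q.toValuationSubring ↔ y ∈ cSubring χ ρ)
    (hQ' : ∀ y : Ft, y ∈ Q.toValuationSubring ↔ y ∈ cSubring χ' ρ) : χ = χ' := by
  ext f
  rw [← h.valueHom_rho_of_eq hxt Q hQ f, ← h'.valueHom_rho_of_eq hxt Q hQ' f]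

end R1

/-! ### Functoriality in the ring -/

section Functorial

variable {B' : Type*} [CommRing B'] {χ' : B' →+* k} {ρ' : B' →+* Ft}

/-- If every element of `B'` is, up to a unit at the centre, an element of `B` (compatibly with
`χ` and `ρ`), then the local ring computed with `B'` is contained in the one computed with `B`. -/
theorem cSubring_le_of_cover
    (hcov : ∀ b' : B', ∃ (e b : B), χ e ≠ 0 ∧ ρ b = ρ e * ρ' b' ∧ χ b = χ e * χ' b') :
    cSubring χ' ρ' ≤ cSubring χ ρ := by
  rintro y ⟨a', d', hd', he⟩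
  obtain ⟨e₁, a, he₁, ha, -⟩ := hcov a'
  obtain ⟨e₂, d, he₂, hd, hdχ⟩ := hcov d'
  refine ⟨a * e₂, d * e₁, ?_, ?_⟩
  · rw [map_mul, hdχ]
    exact mul_ne_zero (mul_ne_zero he₂ hd') he₁
  · rw [map_mul, map_mul, ha, hd, ← he]
    ring

end Functorial

end Fermat.Agent.ES.W33.CentreN20
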