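/-
Programme W (S33), chapter B3′ (helper20): ONE CHART OF A TWO-COMPONENT (NODAL) MODEL, as an
elementary contract.  This is `ES/RED/Contract8.ChartSpec` with the reduction
`red : B →+* Ft₁ × Ft₂` into the PRODUCT of the function fields of the two components of the
special fibre (so `ker red = 𝔪_A • B` is the PAIR saturation `sat`).

Setting: `L` algebraically closed, `A : ValuationSubring L`, `k := A / 𝔪_A`; `F / L` a function
field with generator `x`; `Ft₁, Ft₂ / k` fields.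

For a place `P` in the chart (`s(P) ∈ A`):
* `S.ev P hP : B →+* A`, `S.chi P hP : B →+* k` (the centre of `P`), as in `Contract8`;
* `S.ρ₁, S.ρ₂` : the two component reductions;  `S.On₁ P hP`, `S.On₂ P hP` : the centre of `P`
  lies on the first / second component (`ker ρᵢ ⊆ ker χ_P`);  `on₁_or_on₂`;
* `S.isCentre₁`, `S.isCentre₂` : the input of `CentreN20` (local ring of the component at the
  centre, (VAL), place, (R1), (R1u));
* `S.HasPlaces₁`, `S.HasPlaces₂` : (VAL) + (PIR) at the centres lying on ONE component only (the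
  smooth points of the special fibre);  `S.rAt₁`, `S.rAt₂` : the reduction of `P` computed in the
  chart;  `valueHom_rAt₁` (R1);
* `S.PeelA P hP` : (PEEL-a), verbatim.
-/
import Mathlib
import Fermat.Agent.ES.RED.Contract8
import Fermat.Agent.ES.W33.CentreN20

set_option autoImplicit false

noncomputable section

open AlgebraicCurve

namespace Fermat.Agent.ES.W33.NodalChart20

open Fermat.Agent.X0.FF Fermat.Agent.ES.RED.PlaceValue13 Fermat.Agent.ES.RED.Contract8
open Fermat.Agent.ES.W33.CentreN20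

variable {L : Type*} [Field L] [IsAlgClosed L] (A : ValuationSubring L)
variable {F : Type*} [Field F] [Algebra L F] {x : F} (hx : IsGen L x)

/-- **One chart of a two-component model over `A`** (see the file header). -/
structure NodalChart (Ft₁ Ft₂ : Type*) [Field Ft₁] [Algebra (kA A) Ft₁] [Field Ft₂]
    [Algebra (kA A) Ft₂] where
  /-- the chart ring -/
  B : Subring F
  /-- reduction of the chart ring to the two components of the special fibre -/
  red : ↥B →+* Ft₁ × Ft₂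
  /-- the coordinate -/
  s : F
  s_mem : s ∈ B
  const_mem : ∀ a : ↥A, algebraMap L F (a : L) ∈ B
  red_const : ∀ a : ↥A, red ⟨algebraMap L F (a : L), const_mem a⟩ =
    (algebraMap (kA A) Ft₁ (resA A a), algebraMap (kA A) Ft₂ (resA A a))
  /-- a place with `s(P) ∈ A` contains `B` … -/
  mem_place : ∀ P : Place L F,
    (∃ hs : s ∈ P.toValuationSubring, valueHom hx P ⟨s, hs⟩ ∈ A) →
      ∀ b ∈ B, b ∈ P.toValuationSubring
  /-- … and the values of `B` at `P` lie in `A`. -/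
  val_mem : ∀ (P : Place L F)
    (h : ∃ hs : s ∈ P.toValuationSubring, valueHom hx P ⟨s, hs⟩ ∈ A) (b : F) (hb : b ∈ B),
      valueHom hx P ⟨b, mem_place P h b hb⟩ ∈ A
  /-- PAIR saturation: content exists, the primitive part has nonzero reduction on at least one
  component. -/
  sat : ∀ b : ↥B, b ≠ 0 →
    ∃ (c : ↥A) (b' : ↥B), (b : F) = algebraMap L F (c : L) * (b' : F) ∧ red b' ≠ 0
  /-- `F = Frac B`. -/
  frac : ∀ y : F, ∃ a b : ↥B, b ≠ 0 ∧ y * (b : F) = (a : F)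

namespace NodalChart

variable {A hx}
variable {Ft₁ Ft₂ : Type*} [Field Ft₁] [Algebra (kA A) Ft₁] [Field Ft₂] [Algebra (kA A) Ft₂]
variable (S : NodalChart A hx Ft₁ Ft₂)

/-- `P` lies in the chart: `s` is regular at `P` with value in `A`. -/
def InChart (P : Place L F) : Prop :=
  ∃ hs : S.s ∈ P.toValuationSubring, valueHom hx P ⟨S.s, hs⟩ ∈ A

/-- the constant `a ∈ A` as an element of the chart ring. -/
def const (a : ↥A) : ↥S.B := ⟨algebraMap L F (a : L), S.const_mem a⟩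

@[simp] theorem coe_const (a : ↥A) : ((S.const a : ↥S.B) : F) = algebraMap L F (a : L) := rfl

/-- constants as a ring homomorphism `A →+* B`. -/
def constHom : ↥A →+* ↥S.B where
  toFun := S.const
  map_one' := Subtype.ext (by simp)
  map_mul' a b := Subtype.ext (by simp)
  map_zero' := Subtype.ext (by simp)
  map_add' a b := Subtype.ext (by simp)

@[simp] theorem constHom_apply (a : ↥A) : S.constHom a = S.const a := rfl

theorem red_const' (a : ↥A) : S.red (S.const a) =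
    (algebraMap (kA A) Ft₁ (resA A a), algebraMap (kA A) Ft₂ (resA A a)) :=
  S.red_const a

/-- the coordinate as an element of the chart ring. -/
def sB : ↥S.B := ⟨S.s, S.s_mem⟩

/-- the reduction to the first component. -/
def ρ₁ : ↥S.B →+* Ft₁ := (RingHom.fst Ft₁ Ft₂).comp S.red

/-- the reduction to the second component. -/
def ρ₂ : ↥S.B →+* Ft₂ := (RingHom.snd Ft₁ Ft₂).comp S.red

theorem ρ₁_apply (b : ↥S.B) : S.ρ₁ b = (S.red b).1 := rfl

theorem ρ₂_apply (b : ↥S.B) : S.ρ₂ b = (S.red b).2 := rfl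

theorem ρ₁_const (a : ↥A) : S.ρ₁ (S.const a) = algebraMap (kA A) Ft₁ (resA A a) := by
  rw [ρ₁_apply, red_const']

theorem ρ₂_const (a : ↥A) : S.ρ₂ (S.const a) = algebraMap (kA A) Ft₂ (resA A a) := by
  rw [ρ₂_apply, red_const']

theorem red_eq_zero_iff (b : ↥S.B) : S.red b = 0 ↔ S.ρ₁ b = 0 ∧ S.ρ₂ b = 0 := by
  rw [ρ₁_apply, ρ₂_apply, Prod.ext_iff]
  rfl

section AtPlace

variable (P : Place L F) (hP : S.InChart P)

/-- the inclusion `B ⊆ O_P` for `P` in the chart. -/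
def toPlace : ↥S.B →+* ↥P.toValuationSubring :=
  Subring.inclusion (S := S.B) (T := P.toValuationSubring.toSubring)
    (fun b hb => S.mem_place P hP b hb)

@[simp] theorem coe_toPlace (b : ↥S.B) : ((S.toPlace P hP b : ↥P.toValuationSubring) : F) = b :=
  rfl

/-- **the value map** `b ↦ b(P) ∈ A` on the chart ring. -/
def ev : ↥S.B →+* ↥A :=
  ((valueHom hx P : ↥P.toValuationSubring →+* L).comp (S.toPlace P hP)).codRestrict A.toSubring
    (fun b => S.val_mem P hP b b.2)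

theorem coe_ev (b : ↥S.B) :
    ((S.ev P hP b : ↥A) : L) = valueHom hx P ⟨(b : F), S.mem_place P hP b b.2⟩ := rfl

/-- **the centre of `P`**: `χ_P := res ∘ ev_P`. -/
def chi : ↥S.B →+* kA A := (resA A).comp (S.ev P hP)

theorem chi_apply (b : ↥S.B) : S.chi P hP b = resA A (S.ev P hP b) := rfl

theorem ev_const (a : ↥A) : S.ev P hP (S.const a) = a := by
  apply Subtype.ext
  rw [coe_ev]
  exact (valueHom hx P).commutes (a : L)

theorem chi_const (a : ↥A) : S.chi P hP (S.const a) = resA A a := by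
  rw [chi_apply, S.ev_const P hP]

/-- `b(P) = 0 ↔ b = 0 ∨ ord_P b > 0`. -/
theorem ev_eq_zero_iff (b : ↥S.B) :
    S.ev P hP b = 0 ↔ ((b : F) = 0 ∨ 0 < P.ord (b : F)) := by
  rw [← valueHom_eq_zero_iff_ord hx P ⟨(b : F), S.mem_place P hP b b.2⟩, ← S.coe_ev P hP]
  exact ⟨fun h => by rw [h]; rfl, fun h => Subtype.ext h⟩

/-- `b - b(P)` vanishes at `P`. -/
theorem ev_sub_const (b : ↥S.B) : S.ev P hP (b - S.const (S.ev P hP b)) = 0 := by
  rw [map_sub, ev_const, sub_self]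

/-- **`χ_P` factors through `red`** (by pair saturation). -/
theorem chi_eq_zero_of_red_eq_zero {b : ↥S.B} (hb : S.red b = 0) : S.chi P hP b = 0 := by
  rcases eq_or_ne b 0 with rfl | hb0
  · exact map_zero _
  obtain ⟨c, b', hbc, hb'⟩ := S.sat b hb0
  have h1 : b = S.const c * b' := Subtype.ext (by rw [hbc]; rfl)
  have h3 : resA A c = 0 := by
    by_contra hc
    apply hb'
    rw [h1, map_mul, red_const'] at hb
    have hu₁ : algebraMap (kA A) Ft₁ (resA A c) ≠ 0 := by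
      rwa [Ne, map_eq_zero]
    have hu₂ : algebraMap (kA A) Ft₂ (resA A c) ≠ 0 := by
      rwa [Ne, map_eq_zero]
    have e1 := congrArg Prod.fst hb
    have e2 := congrArg Prod.snd hb
    simp only [Prod.fst_mul, Prod.snd_mul, Prod.fst_zero, Prod.snd_zero] at e1 e2
    apply Prod.ext
    · exact (mul_eq_zero.mp e1).resolve_left hu₁
    · exact (mul_eq_zero.mp e2).resolve_left hu₂
  rw [h1, map_mul, chi_const, h3, zero_mul]

/-- the centre of `P` lies on the first component. -/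
def On₁ : Prop := ∀ b : ↥S.B, S.ρ₁ b = 0 → S.chi P hP b = 0

/-- the centre of `P` lies on the second component. -/
def On₂ : Prop := ∀ b : ↥S.B, S.ρ₂ b = 0 → S.chi P hP b = 0

/-- **every centre lies on one of the two components.** -/
theorem on₁_or_on₂ : S.On₁ P hP ∨ S.On₂ P hP := by
  by_contra hcon
  rw [not_or] at hcon
  obtain ⟨h1, h2⟩ := hcon
  unfold On₁ at h1
  unfold On₂ at h2
  rw [not_forall] at h1 h2
  obtain ⟨b₁, hb₁'⟩ := h1
  obtain ⟨b₂, hb₂'⟩ := h2
  rw [Classical.not_imp] at hb₁' hb₂'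
  obtain ⟨hb₁, hχ₁⟩ := hb₁'
  obtain ⟨hb₂, hχ₂⟩ := hb₂'
  have hred : S.red (b₁ * b₂) = 0 := by
    rw [red_eq_zero_iff, map_mul, map_mul, hb₁, hb₂, zero_mul, mul_zero]
    exact ⟨rfl, rfl⟩
  have := S.chi_eq_zero_of_red_eq_zero P hP hred
  rw [map_mul] at this
  exact mul_ne_zero hχ₁ hχ₂ this

/-- residue classes lift to constants. -/
theorem exists_const (c : kA A) : ∃ a : ↥A, resA A a = c :=
  IsLocalRing.residue_surjective c

/-- a centre on the first component is a centre in the sense of `CentreN20`. -/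
theorem isCentre₁ (h : S.On₁ P hP) : IsCentre (S.chi P hP) S.ρ₁ where
  on := h
  const c := by
    obtain ⟨a, rfl⟩ := exists_const c
    exact ⟨S.const a, S.chi_const P hP a, S.ρ₁_const a⟩

/-- a centre on the second component is a centre in the sense of `CentreN20`. -/
theorem isCentre₂ (h : S.On₂ P hP) : IsCentre (S.chi P hP) S.ρ₂ where
  on := h
  const c := by
    obtain ⟨a, rfl⟩ := exists_const c
    exact ⟨S.const a, S.chi_const P hP a, S.ρ₂_const a⟩

/-- the element `s - s(P)` of the chart ring. -/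
def sSub : ↥S.B := S.sB - S.const (S.ev P hP S.sB)

theorem chi_sSub : S.chi P hP (S.sSub P hP) = 0 := by
  rw [chi_apply, sSub, S.ev_sub_const P hP, map_zero]

theorem ρ₁_sSub_ne_zero (htr : Transcendental (kA A) (S.ρ₁ S.sB)) : S.ρ₁ (S.sSub P hP) ≠ 0 := by
  intro h
  apply htr
  rw [sSub, map_sub, ρ₁_const, sub_eq_zero] at h
  rw [h]
  exact isAlgebraic_algebraMap _

theorem ρ₂_sSub_ne_zero (htr : Transcendental (kA A) (S.ρ₂ S.sB)) : S.ρ₂ (S.sSub P hP) ≠ 0 := by
  intro h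
  apply htr
  rw [sSub, map_sub, ρ₂_const, sub_eq_zero] at h
  rw [h]
  exact isAlgebraic_algebraMap _

/-- **(PEEL-a)**: a generator of the kernel of `ev_P` up to denominators that are units at the
centre of `P`. -/
def PeelA : Prop :=
  ∃ u : ↥S.B, S.ev P hP u = 0 ∧
    ∀ z : ↥S.B, S.ev P hP z = 0 → ∃ d z' : ↥S.B, S.chi P hP d ≠ 0 ∧ z * d = u * z'

end AtPlace

/-! ### the places of the smooth centres -/

/-- (VAL) and the principal ideal property at every centre lying on the first component only. -/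
def HasPlaces₁ : Prop :=
  ∀ (P : Place L F) (hP : S.InChart P), S.On₁ P hP → ¬ S.On₂ P hP →
    ∃ hval : Val (S.chi P hP) S.ρ₁, IsPrincipalIdealRing ↥(cVS (S.chi P hP) S.ρ₁ hval)

/-- (VAL) and the principal ideal property at every centre lying on the second component only. -/
def HasPlaces₂ : Prop :=
  ∀ (P : Place L F) (hP : S.InChart P), S.On₂ P hP → ¬ S.On₁ P hP →
    ∃ hval : Val (S.chi P hP) S.ρ₂, IsPrincipalIdealRing ↥(cVS (S.chi P hP) S.ρ₂ hval)

variable {S}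

section RAt

variable (P : Place L F) (hP : S.InChart P)

theorem HasPlaces₁.val (hS₁ : S.HasPlaces₁) (h1 : S.On₁ P hP) (h2 : ¬ S.On₂ P hP) :
    Val (S.chi P hP) S.ρ₁ :=
  (hS₁ P hP h1 h2).choose

theorem HasPlaces₁.pir (hS₁ : S.HasPlaces₁) (h1 : S.On₁ P hP) (h2 : ¬ S.On₂ P hP) :
    IsPrincipalIdealRing ↥(cVS (S.chi P hP) S.ρ₁ (hS₁.val P hP h1 h2)) :=
  (hS₁ P hP h1 h2).choose_spec

theorem HasPlaces₂.val (hS₂ : S.HasPlaces₂) (h2 : S.On₂ P hP) (h1 : ¬ S.On₁ P hP) :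
    Val (S.chi P hP) S.ρ₂ :=
  (hS₂ P hP h2 h1).choose

theorem HasPlaces₂.pir (hS₂ : S.HasPlaces₂) (h2 : S.On₂ P hP) (h1 : ¬ S.On₁ P hP) :
    IsPrincipalIdealRing ↥(cVS (S.chi P hP) S.ρ₂ (hS₂.val P hP h2 h1)) :=
  (hS₂ P hP h2 h1).choose_spec

/-- **the reduction of `P`, computed in the chart, for a centre on the first component only.** -/
def rAt₁ (hS₁ : S.HasPlaces₁) (htr₁ : Transcendental (kA A) (S.ρ₁ S.sB))
    (h1 : S.On₁ P hP) (h2 : ¬ S.On₂ P hP) : Place (kA A) Ft₁ :=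
  (S.isCentre₁ P hP h1).cPlace (hS₁.val P hP h1 h2)
    ((S.isCentre₁ P hP h1).cVS_ne_top _ (S.chi_sSub P hP) (S.ρ₁_sSub_ne_zero P hP htr₁))
    (hS₁.pir P hP h1 h2)

/-- **the reduction of `P`, computed in the chart, for a centre on the second component only.** -/
def rAt₂ (hS₂ : S.HasPlaces₂) (htr₂ : Transcendental (kA A) (S.ρ₂ S.sB))
    (h2 : S.On₂ P hP) (h1 : ¬ S.On₁ P hP) : Place (kA A) Ft₂ :=
  (S.isCentre₂ P hP h2).cPlace (hS₂.val P hP h2 h1)
    ((S.isCentre₂ P hP h2).cVS_ne_top _ (S.chi_sSub P hP) (S.ρ₂_sSub_ne_zero P hP htr₂))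
    (hS₂.pir P hP h2 h1)

theorem mem_rAt₁_iff (hS₁ : S.HasPlaces₁) (htr₁ : Transcendental (kA A) (S.ρ₁ S.sB))
    (h1 : S.On₁ P hP) (h2 : ¬ S.On₂ P hP) (y : Ft₁) :
    y ∈ (rAt₁ P hP hS₁ htr₁ h1 h2).toValuationSubring ↔ y ∈ cSubring (S.chi P hP) S.ρ₁ :=
  Iff.rfl

theorem mem_rAt₂_iff (hS₂ : S.HasPlaces₂) (htr₂ : Transcendental (kA A) (S.ρ₂ S.sB))
    (h2 : S.On₂ P hP) (h1 : ¬ S.On₁ P hP) (y : Ft₂) :
    y ∈ (rAt₂ P hP hS₂ htr₂ h2 h1).toValuationSubring ↔ y ∈ cSubring (S.chi P hP) S.ρ₂ :=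
  Iff.rfl

theorem ρ₁_mem_rAt₁ (hS₁ : S.HasPlaces₁) (htr₁ : Transcendental (kA A) (S.ρ₁ S.sB))
    (h1 : S.On₁ P hP) (h2 : ¬ S.On₂ P hP) (b : ↥S.B) :
    S.ρ₁ b ∈ (rAt₁ P hP hS₁ htr₁ h1 h2).toValuationSubring :=
  rho_mem_cSubring _ _ b

theorem ρ₂_mem_rAt₂ (hS₂ : S.HasPlaces₂) (htr₂ : Transcendental (kA A) (S.ρ₂ S.sB))
    (h2 : S.On₂ P hP) (h1 : ¬ S.On₁ P hP) (b : ↥S.B) :
    S.ρ₂ b ∈ (rAt₂ P hP hS₂ htr₂ h2 h1).toValuationSubring :=
  rho_mem_cSubring _ _ b

section Values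

variable [IsAlgClosed (kA A)] {xt₁ : Ft₁} (hxt₁ : IsGen (kA A) xt₁) {xt₂ : Ft₂}
  (hxt₂ : IsGen (kA A) xt₂)

/-- (R1) in the chart, first component. -/
theorem valueHom_rAt₁ (hS₁ : S.HasPlaces₁) (htr₁ : Transcendental (kA A) (S.ρ₁ S.sB))
    (h1 : S.On₁ P hP) (h2 : ¬ S.On₂ P hP) (b : ↥S.B) :
    valueHom hxt₁ (rAt₁ P hP hS₁ htr₁ h1 h2) ⟨S.ρ₁ b, ρ₁_mem_rAt₁ P hP hS₁ htr₁ h1 h2 b⟩
      = S.chi P hP b :=
  (S.isCentre₁ P hP h1).valueHom_rho hxt₁ _ _ _ b

/-- (R1) in the chart, second component. -/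
theorem valueHom_rAt₂ (hS₂ : S.HasPlaces₂) (htr₂ : Transcendental (kA A) (S.ρ₂ S.sB))
    (h2 : S.On₂ P hP) (h1 : ¬ S.On₁ P hP) (b : ↥S.B) :
    valueHom hxt₂ (rAt₂ P hP hS₂ htr₂ h2 h1) ⟨S.ρ₂ b, ρ₂_mem_rAt₂ P hP hS₂ htr₂ h2 h1 b⟩
      = S.chi P hP b :=
  (S.isCentre₂ P hP h2).valueHom_rho hxt₂ _ _ _ b

end Values

end RAt

end NodalChart

end Fermat.Agent.ES.W33.NodalChart20
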