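/-
Programme W (S33), chapter B3′ (helper20): THE TOTAL REDUCTION MAP OF A NODAL TWO-CHART MODEL

  `r : Place L F → (Place k Ft₁ ⊕ Place k Ft₂) ⊕ Fin nn`

(a smooth point of the first / second component, or the node `j`), from two charts `S0`
(coordinate `s`) and `S1` (coordinate `s⁻¹`) of `NodalChart20`.  This is `ES/RED/TwoCharts8` for a
special fibre with two components meeting in `nn` nodes.

`TwoChartsN A hx Ft₁ Ft₂ nn` : two charts with the overlap conditions `ov0`, `ov1`; (VAL) + (PIR) at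
the ONE-component centres of both charts; the nodes, given by their CENTRES
`nodeChi j : B0 →+* k` (all nodes lie in chart 0; ring homomorphisms killing `ker ρ₁` and
`ker ρ₂`), exhaustive (`node_ex`) and pairwise distinct.

* `inChart_or` : every place lies in chart 0 or in chart 1;
* `on₁_iff`, `on₂_iff`, `cSubring₁_eq`, `cSubring₂_eq` : on the overlap both charts see the same
  components through the centre and the same local rings;
* `r`; `r_eq_smooth₁_0/1`, `r_eq_smooth₂_0/1`, `r_eq_node` : it is computed by either chart;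
* `r_eq_inl_inl_iff`, `r_eq_inl_inr_iff`, `r_eq_inr_iff` : characterisation by centres.
-/
import Mathlib
import Fermat.Agent.ES.RED.TwoCharts8
import Fermat.Agent.ES.W33.NodalChart20

set_option autoImplicit false

noncomputable section

open AlgebraicCurve

namespace Fermat.Agent.ES.W33.TwoChartsN20

open Fermat.Agent.X0.FF Fermat.Agent.ES.RED.PlaceValue13 Fermat.Agent.ES.RED.Contract8
open Fermat.Agent.ES.W33.CentreN20 Fermat.Agent.ES.W33.NodalChart20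

variable {L : Type*} [Field L] [IsAlgClosed L] {A : ValuationSubring L}
variable {F : Type*} [Field F] [Algebra L F] {x : F} {hx : IsGen L x}
variable {Ft₁ Ft₂ : Type*} [Field Ft₁] [Algebra (kA A) Ft₁] [Field Ft₂] [Algebra (kA A) Ft₂]

/-- **Two charts of a nodal model** `S0` (coordinate `s`), `S1` (coordinate `s⁻¹`), with `nn`
nodes. -/
structure TwoChartsN (A : ValuationSubring L) (hx : IsGen L x) (Ft₁ Ft₂ : Type*) [Field Ft₁]
    [Algebra (kA A) Ft₁] [Field Ft₂] [Algebra (kA A) Ft₂] (nn : ℕ) where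
  S0 : NodalChart A hx Ft₁ Ft₂
  S1 : NodalChart A hx Ft₁ Ft₂
  s_ne : S0.s ≠ 0
  s_inv : S1.s = S0.s⁻¹
  red_s_mul : S0.red S0.sB * S1.red S1.sB = 1
  /-- `B1 ⊆ B0[1/s]`, compatibly with the reductions. -/
  ov0 : ∀ b : ↥S1.B, ∃ (n : ℕ) (b0 : ↥S0.B),
    (b0 : F) = S0.s ^ n * (b : F) ∧ S0.red b0 = S0.red S0.sB ^ n * S1.red b
  /-- `B0 ⊆ B1[s]`, compatibly with the reductions. -/
  ov1 : ∀ b : ↥S0.B, ∃ (n : ℕ) (b1 : ↥S1.B),
    (b1 : F) = S1.s ^ n * (b : F) ∧ S1.red b1 = S1.red S1.sB ^ n * S0.red b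
  places₁0 : S0.HasPlaces₁
  places₂0 : S0.HasPlaces₂
  places₁1 : S1.HasPlaces₁
  places₂1 : S1.HasPlaces₂
  tr₁ : Transcendental (kA A) (S0.ρ₁ S0.sB)
  tr₂ : Transcendental (kA A) (S0.ρ₂ S0.sB)
  /-- the centres of the nodes (closed points of chart 0 lying on both components) -/
  nodeChi : Fin nn → (↥S0.B →+* kA A)
  node_on₁ : ∀ (j : Fin nn) (b : ↥S0.B), S0.ρ₁ b = 0 → nodeChi j b = 0
  node_on₂ : ∀ (j : Fin nn) (b : ↥S0.B), S0.ρ₂ b = 0 → nodeChi j b = 0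
  /-- every centre of chart 0 lying on both components is a node -/
  node_ex : ∀ (P : Place L F) (h0 : S0.InChart P), S0.On₁ P h0 → S0.On₂ P h0 →
    ∃ j, S0.chi P h0 = nodeChi j
  node_inj : Function.Injective nodeChi
  /-- no node at `s = ∞` -/
  no_node1 : ∀ (P : Place L F) (h1 : S1.InChart P), ¬ S0.InChart P →
    ¬ (S1.On₁ P h1 ∧ S1.On₂ P h1)

namespace TwoChartsN

variable {nn : ℕ} (T : TwoChartsN A hx Ft₁ Ft₂ nn)

theorem ρ₁_s_mul : T.S0.ρ₁ T.S0.sB * T.S1.ρ₁ T.S1.sB = 1 := by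
  have := congrArg Prod.fst T.red_s_mul
  simpa [NodalChart.ρ₁_apply] using this

theorem ρ₂_s_mul : T.S0.ρ₂ T.S0.sB * T.S1.ρ₂ T.S1.sB = 1 := by
  have := congrArg Prod.snd T.red_s_mul
  simpa [NodalChart.ρ₂_apply] using this

theorem ρ₁_s0_ne_zero : T.S0.ρ₁ T.S0.sB ≠ 0 := left_ne_zero_of_mul_eq_one T.ρ₁_s_mul

theorem ρ₂_s0_ne_zero : T.S0.ρ₂ T.S0.sB ≠ 0 := left_ne_zero_of_mul_eq_one T.ρ₂_s_mul

theorem ρ₁_s1_ne_zero : T.S1.ρ₁ T.S1.sB ≠ 0 := right_ne_zero_of_mul_eq_one T.ρ₁_s_mul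

theorem ρ₂_s1_ne_zero : T.S1.ρ₂ T.S1.sB ≠ 0 := right_ne_zero_of_mul_eq_one T.ρ₂_s_mul

theorem ρ₁_s1_eq : T.S1.ρ₁ T.S1.sB = (T.S0.ρ₁ T.S0.sB)⁻¹ :=
  eq_inv_of_mul_eq_one_right T.ρ₁_s_mul

theorem ρ₂_s1_eq : T.S1.ρ₂ T.S1.sB = (T.S0.ρ₂ T.S0.sB)⁻¹ :=
  eq_inv_of_mul_eq_one_right T.ρ₂_s_mul

theorem tr₁1 : Transcendental (kA A) (T.S1.ρ₁ T.S1.sB) := by
  rw [T.ρ₁_s1_eq]
  intro h
  exact T.tr₁ (by simpa using h.inv)

theorem tr₂1 : Transcendental (kA A) (T.S1.ρ₂ T.S1.sB) := by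
  rw [T.ρ₂_s1_eq]
  intro h
  exact T.tr₂ (by simpa using h.inv)

theorem ρ₁_ov0 {b : ↥T.S1.B} {n : ℕ} {b0 : ↥T.S0.B}
    (h : T.S0.red b0 = T.S0.red T.S0.sB ^ n * T.S1.red b) :
    T.S0.ρ₁ b0 = T.S0.ρ₁ T.S0.sB ^ n * T.S1.ρ₁ b := by
  have := congrArg Prod.fst h
  simpa [NodalChart.ρ₁_apply] using this

theorem ρ₂_ov0 {b : ↥T.S1.B} {n : ℕ} {b0 : ↥T.S0.B}
    (h : T.S0.red b0 = T.S0.red T.S0.sB ^ n * T.S1.red b) :
    T.S0.ρ₂ b0 = T.S0.ρ₂ T.S0.sB ^ n * T.S1.ρ₂ b := by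
  have := congrArg Prod.snd h
  simpa [NodalChart.ρ₂_apply] using this

theorem ρ₁_ov1 {b : ↥T.S0.B} {n : ℕ} {b1 : ↥T.S1.B}
    (h : T.S1.red b1 = T.S1.red T.S1.sB ^ n * T.S0.red b) :
    T.S1.ρ₁ b1 = T.S1.ρ₁ T.S1.sB ^ n * T.S0.ρ₁ b := by
  have := congrArg Prod.fst h
  simpa [NodalChart.ρ₁_apply] using this

theorem ρ₂_ov1 {b : ↥T.S0.B} {n : ℕ} {b1 : ↥T.S1.B}
    (h : T.S1.red b1 = T.S1.red T.S1.sB ^ n * T.S0.red b) :
    T.S1.ρ₂ b1 = T.S1.ρ₂ T.S1.sB ^ n * T.S0.ρ₂ b := by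
  have := congrArg Prod.snd h
  simpa [NodalChart.ρ₂_apply] using this

/-- **every place lies in one of the two charts.** -/
theorem inChart_or (P : Place L F) : T.S0.InChart P ∨ T.S1.InChart P := by
  by_cases hs : T.S0.s ∈ P.toValuationSubring
  · by_cases hc : valueHom hx P ⟨T.S0.s, hs⟩ ∈ A
    · exact Or.inl ⟨hs, hc⟩
    · right
      have h0 : valueHom hx P ⟨T.S0.s, hs⟩ ≠ 0 := by
        intro h; apply hc; rw [h]; exact A.zero_mem
      obtain ⟨hinv, hval⟩ :=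
        Fermat.Agent.ES.RED.TwoCharts8.TwoCharts.inv_mem_and_value (hx := hx) hs h0
      have hmem : T.S1.s ∈ P.toValuationSubring := by rw [T.s_inv]; exact hinv
      refine ⟨hmem, ?_⟩
      have h1 : (⟨T.S1.s, hmem⟩ : ↥P.toValuationSubring) = ⟨T.S0.s⁻¹, hinv⟩ :=
        Subtype.ext T.s_inv
      rw [h1, hval]
      exact (A.mem_or_inv_mem _).resolve_left hc
  · right
    have hinv : T.S0.s⁻¹ ∈ P.toValuationSubring :=
      (P.toValuationSubring.mem_or_inv_mem T.S0.s).resolve_left hs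
    have hmem : T.S1.s ∈ P.toValuationSubring := by rw [T.s_inv]; exact hinv
    refine ⟨hmem, ?_⟩
    have h0 : valueHom hx P ⟨T.S1.s, hmem⟩ = 0 := by
      by_contra h0
      obtain ⟨hinv', -⟩ :=
        Fermat.Agent.ES.RED.TwoCharts8.TwoCharts.inv_mem_and_value (hx := hx) hmem h0
      apply hs
      have : T.S1.s⁻¹ = T.S0.s := by rw [T.s_inv, inv_inv]
      rwa [this] at hinv'
    rw [h0]
    exact A.zero_mem

/-! ### the overlap -/

section Overlap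

variable (P : Place L F) (h0 : T.S0.InChart P) (h1 : T.S1.InChart P)

theorem ev0_s_mul_ev1_s : T.S0.ev P h0 T.S0.sB * T.S1.ev P h1 T.S1.sB = 1 := by
  apply Subtype.ext
  show ((T.S0.ev P h0 T.S0.sB : ↥A) : L) * ((T.S1.ev P h1 T.S1.sB : ↥A) : L) = 1
  rw [NodalChart.coe_ev, NodalChart.coe_ev, ← map_mul]
  have : (⟨(T.S0.sB : F), T.S0.mem_place P h0 _ T.S0.sB.2⟩ *
      ⟨(T.S1.sB : F), T.S1.mem_place P h1 _ T.S1.sB.2⟩ : ↥P.toValuationSubring) = 1 :=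
    Subtype.ext (by
      show T.S0.s * T.S1.s = 1
      rw [T.s_inv, mul_inv_cancel₀ T.s_ne])
  rw [this, map_one]

theorem chi0_s_mul_chi1_s : T.S0.chi P h0 T.S0.sB * T.S1.chi P h1 T.S1.sB = 1 := by
  have := congrArg (resA A) (T.ev0_s_mul_ev1_s P h0 h1)
  rwa [map_mul, map_one] at this

include h1 in
theorem chi0_s_ne_zero : T.S0.chi P h0 T.S0.sB ≠ 0 :=
  left_ne_zero_of_mul_eq_one (T.chi0_s_mul_chi1_s P h0 h1)

include h0 in
theorem chi1_s_ne_zero : T.S1.chi P h1 T.S1.sB ≠ 0 :=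
  right_ne_zero_of_mul_eq_one (T.chi0_s_mul_chi1_s P h0 h1)

/-- values are compatible on the overlap (chart 1 into chart 0). -/
theorem ev0_eq_of_ov {b : ↥T.S1.B} {n : ℕ} {b0 : ↥T.S0.B}
    (hb : (b0 : F) = T.S0.s ^ n * (b : F)) :
    T.S0.ev P h0 b0 = T.S0.ev P h0 T.S0.sB ^ n * T.S1.ev P h1 b := by
  apply Subtype.ext
  show ((T.S0.ev P h0 b0 : ↥A) : L) =
    ((T.S0.ev P h0 T.S0.sB : ↥A) : L) ^ n * ((T.S1.ev P h1 b : ↥A) : L)
  rw [NodalChart.coe_ev, NodalChart.coe_ev, NodalChart.coe_ev, ← map_pow, ← map_mul]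
  congr 1
  exact Subtype.ext hb

/-- values are compatible on the overlap (chart 0 into chart 1). -/
theorem ev1_eq_of_ov {b : ↥T.S0.B} {n : ℕ} {b1 : ↥T.S1.B}
    (hb : (b1 : F) = T.S1.s ^ n * (b : F)) :
    T.S1.ev P h1 b1 = T.S1.ev P h1 T.S1.sB ^ n * T.S0.ev P h0 b := by
  apply Subtype.ext
  show ((T.S1.ev P h1 b1 : ↥A) : L) =
    ((T.S1.ev P h1 T.S1.sB : ↥A) : L) ^ n * ((T.S0.ev P h0 b : ↥A) : L)
  rw [NodalChart.coe_ev, NodalChart.coe_ev, NodalChart.coe_ev, ← map_pow, ← map_mul]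
  congr 1
  exact Subtype.ext hb

theorem chi0_eq_of_ov {b : ↥T.S1.B} {n : ℕ} {b0 : ↥T.S0.B}
    (hb : (b0 : F) = T.S0.s ^ n * (b : F)) :
    T.S0.chi P h0 b0 = T.S0.chi P h0 T.S0.sB ^ n * T.S1.chi P h1 b := by
  rw [NodalChart.chi_apply, T.ev0_eq_of_ov P h0 h1 hb, map_mul, map_pow]
  rfl

theorem chi1_eq_of_ov {b : ↥T.S0.B} {n : ℕ} {b1 : ↥T.S1.B}
    (hb : (b1 : F) = T.S1.s ^ n * (b : F)) :
    T.S1.chi P h1 b1 = T.S1.chi P h1 T.S1.sB ^ n * T.S0.chi P h0 b := by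
  rw [NodalChart.chi_apply, T.ev1_eq_of_ov P h0 h1 hb, map_mul, map_pow]
  rfl

/-- on the overlap both charts see the first component through the centre simultaneously. -/
theorem on₁_iff : T.S0.On₁ P h0 ↔ T.S1.On₁ P h1 := by
  constructor
  · intro h b hb
    obtain ⟨n, b0, hb0, hred⟩ := T.ov0 b
    have h2 : T.S0.ρ₁ b0 = 0 := by rw [T.ρ₁_ov0 hred, hb, mul_zero]
    have h3 := h b0 h2
    rw [T.chi0_eq_of_ov P h0 h1 hb0] at h3
    exact (mul_eq_zero.mp h3).resolve_left (pow_ne_zero _ (T.chi0_s_ne_zero P h0 h1))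
  · intro h b hb
    obtain ⟨n, b1, hb1, hred⟩ := T.ov1 b
    have h2 : T.S1.ρ₁ b1 = 0 := by rw [T.ρ₁_ov1 hred, hb, mul_zero]
    have h3 := h b1 h2
    rw [T.chi1_eq_of_ov P h0 h1 hb1] at h3
    exact (mul_eq_zero.mp h3).resolve_left (pow_ne_zero _ (T.chi1_s_ne_zero P h0 h1))

/-- on the overlap both charts see the second component through the centre simultaneously. -/
theorem on₂_iff : T.S0.On₂ P h0 ↔ T.S1.On₂ P h1 := by
  constructor
  · intro h b hb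
    obtain ⟨n, b0, hb0, hred⟩ := T.ov0 b
    have h2 : T.S0.ρ₂ b0 = 0 := by rw [T.ρ₂_ov0 hred, hb, mul_zero]
    have h3 := h b0 h2
    rw [T.chi0_eq_of_ov P h0 h1 hb0] at h3
    exact (mul_eq_zero.mp h3).resolve_left (pow_ne_zero _ (T.chi0_s_ne_zero P h0 h1))
  · intro h b hb
    obtain ⟨n, b1, hb1, hred⟩ := T.ov1 b
    have h2 : T.S1.ρ₂ b1 = 0 := by rw [T.ρ₂_ov1 hred, hb, mul_zero]
    have h3 := h b1 h2
    rw [T.chi1_eq_of_ov P h0 h1 hb1] at h3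
    exact (mul_eq_zero.mp h3).resolve_left (pow_ne_zero _ (T.chi1_s_ne_zero P h0 h1))

/-- on the overlap both charts compute the same local ring of the first component. -/
theorem cSubring₁_eq :
    cSubring (T.S0.chi P h0) T.S0.ρ₁ = cSubring (T.S1.chi P h1) T.S1.ρ₁ := by
  apply le_antisymm
  · apply cSubring_le_of_cover
    intro b
    obtain ⟨n, b1, hb1, hred⟩ := T.ov1 b
    exact ⟨T.S1.sB ^ n, b1, by rw [map_pow]; exact pow_ne_zero _ (T.chi1_s_ne_zero P h0 h1),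
      by rw [T.ρ₁_ov1 hred, map_pow], by rw [T.chi1_eq_of_ov P h0 h1 hb1, map_pow]⟩
  · apply cSubring_le_of_cover
    intro b
    obtain ⟨n, b0, hb0, hred⟩ := T.ov0 b
    exact ⟨T.S0.sB ^ n, b0, by rw [map_pow]; exact pow_ne_zero _ (T.chi0_s_ne_zero P h0 h1),
      by rw [T.ρ₁_ov0 hred, map_pow], by rw [T.chi0_eq_of_ov P h0 h1 hb0, map_pow]⟩

/-- on the overlap both charts compute the same local ring of the second component. -/
theorem cSubring₂_eq :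
    cSubring (T.S0.chi P h0) T.S0.ρ₂ = cSubring (T.S1.chi P h1) T.S1.ρ₂ := by
  apply le_antisymm
  · apply cSubring_le_of_cover
    intro b
    obtain ⟨n, b1, hb1, hred⟩ := T.ov1 b
    exact ⟨T.S1.sB ^ n, b1, by rw [map_pow]; exact pow_ne_zero _ (T.chi1_s_ne_zero P h0 h1),
      by rw [T.ρ₂_ov1 hred, map_pow], by rw [T.chi1_eq_of_ov P h0 h1 hb1, map_pow]⟩
  · apply cSubring_le_of_cover
    intro b
    obtain ⟨n, b0, hb0, hred⟩ := T.ov0 b
    exact ⟨T.S0.sB ^ n, b0, by rw [map_pow]; exact pow_ne_zero _ (T.chi0_s_ne_zero P h0 h1),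
      by rw [T.ρ₂_ov0 hred, map_pow], by rw [T.chi0_eq_of_ov P h0 h1 hb0, map_pow]⟩

end Overlap

/-! ### the global map -/

/-- the index of the node at which `P` is centred. -/
def nodeIdx (P : Place L F) (h0 : T.S0.InChart P) (h1 : T.S0.On₁ P h0) (h2 : T.S0.On₂ P h0) :
    Fin nn :=
  (T.node_ex P h0 h1 h2).choose

theorem chi_eq_nodeChi (P : Place L F) (h0 : T.S0.InChart P) (h1 : T.S0.On₁ P h0)
    (h2 : T.S0.On₂ P h0) : T.S0.chi P h0 = T.nodeChi (T.nodeIdx P h0 h1 h2) :=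
  (T.node_ex P h0 h1 h2).choose_spec

open Classical in
/-- **the total reduction map on places.** -/
def r (P : Place L F) : (Place (kA A) Ft₁ ⊕ Place (kA A) Ft₂) ⊕ Fin nn :=
  if h0 : T.S0.InChart P then
    if h1 : T.S0.On₁ P h0 then
      if h2 : T.S0.On₂ P h0 then Sum.inr (T.nodeIdx P h0 h1 h2)
      else Sum.inl (Sum.inl (NodalChart.rAt₁ P h0 T.places₁0 T.tr₁ h1 h2))
    else Sum.inl (Sum.inr (NodalChart.rAt₂ P h0 T.places₂0 T.tr₂
      ((T.S0.on₁_or_on₂ P h0).resolve_left h1) h1))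
  else
    if h1 : T.S1.On₁ P ((T.inChart_or P).resolve_left h0) then
      if h2 : T.S1.On₂ P ((T.inChart_or P).resolve_left h0) then
        (T.no_node1 P ((T.inChart_or P).resolve_left h0) h0 ⟨h1, h2⟩).elim
      else Sum.inl (Sum.inl (NodalChart.rAt₁ P ((T.inChart_or P).resolve_left h0)
        T.places₁1 T.tr₁1 h1 h2))
    else Sum.inl (Sum.inr (NodalChart.rAt₂ P ((T.inChart_or P).resolve_left h0)
      T.places₂1 T.tr₂1
      ((T.S1.on₁_or_on₂ P ((T.inChart_or P).resolve_left h0)).resolve_left h1) h1))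

theorem r_eq_smooth₁_0 (P : Place L F) (h0 : T.S0.InChart P) (h1 : T.S0.On₁ P h0)
    (h2 : ¬ T.S0.On₂ P h0) :
    T.r P = Sum.inl (Sum.inl (NodalChart.rAt₁ P h0 T.places₁0 T.tr₁ h1 h2)) := by
  rw [r, dif_pos h0, dif_pos h1, dif_neg h2]

theorem r_eq_smooth₂_0 (P : Place L F) (h0 : T.S0.InChart P) (h2 : T.S0.On₂ P h0)
    (h1 : ¬ T.S0.On₁ P h0) :
    T.r P = Sum.inl (Sum.inr (NodalChart.rAt₂ P h0 T.places₂0 T.tr₂ h2 h1)) := by
  rw [r, dif_pos h0, dif_neg h1]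

theorem r_eq_node (P : Place L F) (h0 : T.S0.InChart P) (h1 : T.S0.On₁ P h0)
    (h2 : T.S0.On₂ P h0) : T.r P = Sum.inr (T.nodeIdx P h0 h1 h2) := by
  rw [r, dif_pos h0, dif_pos h1, dif_pos h2]

theorem r_eq_smooth₁_1 (P : Place L F) (h1c : T.S1.InChart P) (h1 : T.S1.On₁ P h1c)
    (h2 : ¬ T.S1.On₂ P h1c) :
    T.r P = Sum.inl (Sum.inl (NodalChart.rAt₁ P h1c T.places₁1 T.tr₁1 h1 h2)) := by
  by_cases h0 : T.S0.InChart P
  · have h1' : T.S0.On₁ P h0 := (T.on₁_iff P h0 h1c).2 h1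
    have h2' : ¬ T.S0.On₂ P h0 := fun h => h2 ((T.on₂_iff P h0 h1c).1 h)
    rw [T.r_eq_smooth₁_0 P h0 h1' h2']
    congr 2
    apply place_eq_of_mem_iff
    intro y
    rw [NodalChart.mem_rAt₁_iff, NodalChart.mem_rAt₁_iff, T.cSubring₁_eq P h0 h1c]
  · rw [r, dif_neg h0, dif_pos h1, dif_neg h2]

theorem r_eq_smooth₂_1 (P : Place L F) (h1c : T.S1.InChart P) (h2 : T.S1.On₂ P h1c)
    (h1 : ¬ T.S1.On₁ P h1c) :
    T.r P = Sum.inl (Sum.inr (NodalChart.rAt₂ P h1c T.places₂1 T.tr₂1 h2 h1)) := by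
  by_cases h0 : T.S0.InChart P
  · have h2' : T.S0.On₂ P h0 := (T.on₂_iff P h0 h1c).2 h2
    have h1' : ¬ T.S0.On₁ P h0 := fun h => h1 ((T.on₁_iff P h0 h1c).1 h)
    rw [T.r_eq_smooth₂_0 P h0 h2' h1']
    congr 2
    apply place_eq_of_mem_iff
    intro y
    rw [NodalChart.mem_rAt₂_iff, NodalChart.mem_rAt₂_iff, T.cSubring₂_eq P h0 h1c]
  · rw [r, dif_neg h0, dif_neg h1]

/-! ### characterisation of the values of `r` by centres -/

/-- `P` is centred at a point of the first component only, with local ring `O_Q`. -/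
def RedTo₁ (P : Place L F) (Q : Place (kA A) Ft₁) : Prop :=
  (∃ h0 : T.S0.InChart P, T.S0.On₁ P h0 ∧ ¬ T.S0.On₂ P h0 ∧
      ∀ y, y ∈ Q.toValuationSubring ↔ y ∈ cSubring (T.S0.chi P h0) T.S0.ρ₁) ∨
    ∃ h1 : T.S1.InChart P, T.S1.On₁ P h1 ∧ ¬ T.S1.On₂ P h1 ∧
      ∀ y, y ∈ Q.toValuationSubring ↔ y ∈ cSubring (T.S1.chi P h1) T.S1.ρ₁

/-- `P` is centred at a point of the second component only, with local ring `O_Q`. -/
def RedTo₂ (P : Place L F) (Q : Place (kA A) Ft₂) : Prop :=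
  (∃ h0 : T.S0.InChart P, T.S0.On₂ P h0 ∧ ¬ T.S0.On₁ P h0 ∧
      ∀ y, y ∈ Q.toValuationSubring ↔ y ∈ cSubring (T.S0.chi P h0) T.S0.ρ₂) ∨
    ∃ h1 : T.S1.InChart P, T.S1.On₂ P h1 ∧ ¬ T.S1.On₁ P h1 ∧
      ∀ y, y ∈ Q.toValuationSubring ↔ y ∈ cSubring (T.S1.chi P h1) T.S1.ρ₂

/-- `P` is centred at the node `j`. -/
def RedToNode (P : Place L F) (j : Fin nn) : Prop :=
  ∃ h0 : T.S0.InChart P, T.S0.chi P h0 = T.nodeChi j

theorem on₁_of_chi_eq_nodeChi {P : Place L F} {h0 : T.S0.InChart P} {j : Fin nn}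
    (h : T.S0.chi P h0 = T.nodeChi j) : T.S0.On₁ P h0 := fun b hb => by
  rw [h]; exact T.node_on₁ j b hb

theorem on₂_of_chi_eq_nodeChi {P : Place L F} {h0 : T.S0.InChart P} {j : Fin nn}
    (h : T.S0.chi P h0 = T.nodeChi j) : T.S0.On₂ P h0 := fun b hb => by
  rw [h]; exact T.node_on₂ j b hb

/-- the three cases: every place is centred at a one-component point of chart 0 or chart 1, or at
a node. -/
theorem cases (P : Place L F) :
    (∃ Q, T.r P = Sum.inl (Sum.inl Q) ∧ T.RedTo₁ P Q) ∨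
      (∃ Q, T.r P = Sum.inl (Sum.inr Q) ∧ T.RedTo₂ P Q) ∨
        ∃ j, T.r P = Sum.inr j ∧ T.RedToNode P j := by
  by_cases h0 : T.S0.InChart P
  · by_cases h1 : T.S0.On₁ P h0
    · by_cases h2 : T.S0.On₂ P h0
      · right; right
        exact ⟨_, T.r_eq_node P h0 h1 h2, h0, T.chi_eq_nodeChi P h0 h1 h2⟩
      · left
        exact ⟨_, T.r_eq_smooth₁_0 P h0 h1 h2, Or.inl ⟨h0, h1, h2, fun y => Iff.rfl⟩⟩
    · right; left
      have h2 := (T.S0.on₁_or_on₂ P h0).resolve_left h1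
      exact ⟨_, T.r_eq_smooth₂_0 P h0 h2 h1, Or.inl ⟨h0, h2, h1, fun y => Iff.rfl⟩⟩
  · have h1c := (T.inChart_or P).resolve_left h0
    by_cases h1 : T.S1.On₁ P h1c
    · by_cases h2 : T.S1.On₂ P h1c
      · exact (T.no_node1 P h1c h0 ⟨h1, h2⟩).elim
      · left
        exact ⟨_, T.r_eq_smooth₁_1 P h1c h1 h2, Or.inr ⟨h1c, h1, h2, fun y => Iff.rfl⟩⟩
    · right; left
      have h2 := (T.S1.on₁_or_on₂ P h1c).resolve_left h1
      exact ⟨_, T.r_eq_smooth₂_1 P h1c h2 h1, Or.inr ⟨h1c, h2, h1, fun y => Iff.rfl⟩⟩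

theorem r_eq_of_redTo₁ {P : Place L F} {Q : Place (kA A) Ft₁} (h : T.RedTo₁ P Q) :
    T.r P = Sum.inl (Sum.inl Q) := by
  rcases h with ⟨h0, h1, h2, hQ⟩ | ⟨h1c, h1, h2, hQ⟩
  · rw [T.r_eq_smooth₁_0 P h0 h1 h2]
    congr 2
    exact (place_eq_of_mem_iff _ _ hQ).symm
  · rw [T.r_eq_smooth₁_1 P h1c h1 h2]
    congr 2
    exact (place_eq_of_mem_iff _ _ hQ).symm

theorem r_eq_of_redTo₂ {P : Place L F} {Q : Place (kA A) Ft₂} (h : T.RedTo₂ P Q) :
    T.r P = Sum.inl (Sum.inr Q) := by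
  rcases h with ⟨h0, h2, h1, hQ⟩ | ⟨h1c, h2, h1, hQ⟩
  · rw [T.r_eq_smooth₂_0 P h0 h2 h1]
    congr 2
    exact (place_eq_of_mem_iff _ _ hQ).symm
  · rw [T.r_eq_smooth₂_1 P h1c h2 h1]
    congr 2
    exact (place_eq_of_mem_iff _ _ hQ).symm

theorem r_eq_of_redToNode {P : Place L F} {j : Fin nn} (h : T.RedToNode P j) :
    T.r P = Sum.inr j := by
  obtain ⟨h0, hχ⟩ := h
  have h1 := T.on₁_of_chi_eq_nodeChi hχ
  have h2 := T.on₂_of_chi_eq_nodeChi hχ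
  rw [T.r_eq_node P h0 h1 h2]
  congr 1
  apply T.node_inj
  rw [← T.chi_eq_nodeChi P h0 h1 h2, hχ]

/-- **`r P` is the smooth point `Q` of the first component iff `P` is centred there.** -/
theorem r_eq_inl_inl_iff (P : Place L F) (Q : Place (kA A) Ft₁) :
    T.r P = Sum.inl (Sum.inl Q) ↔ T.RedTo₁ P Q := by
  refine ⟨fun h => ?_, T.r_eq_of_redTo₁⟩
  rcases T.cases P with ⟨Q', hr, hQ'⟩ | ⟨Q', hr, -⟩ | ⟨j, hr, -⟩
  · rw [hr] at h
    have : Q' = Q := Sum.inl_injective (Sum.inl_injective h)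
    rwa [this] at hQ'
  · rw [hr] at h
    exact absurd (Sum.inl_injective h) (by simp)
  · rw [hr] at h
    exact absurd h (by simp)

/-- **`r P` is the smooth point `Q` of the second component iff `P` is centred there.** -/
theorem r_eq_inl_inr_iff (P : Place L F) (Q : Place (kA A) Ft₂) :
    T.r P = Sum.inl (Sum.inr Q) ↔ T.RedTo₂ P Q := by
  refine ⟨fun h => ?_, T.r_eq_of_redTo₂⟩
  rcases T.cases P with ⟨Q', hr, -⟩ | ⟨Q', hr, hQ'⟩ | ⟨j, hr, -⟩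
  · rw [hr] at h
    exact absurd (Sum.inl_injective h) (by simp)
  · rw [hr] at h
    have : Q' = Q := Sum.inr_injective (Sum.inl_injective h)
    rwa [this] at hQ'
  · rw [hr] at h
    exact absurd h (by simp)

/-- **`r P` is the node `j` iff `P` is centred there.** -/
theorem r_eq_inr_iff (P : Place L F) (j : Fin nn) :
    T.r P = Sum.inr j ↔ T.RedToNode P j := by
  refine ⟨fun h => ?_, T.r_eq_of_redToNode⟩
  rcases T.cases P with ⟨Q', hr, -⟩ | ⟨Q', hr, -⟩ | ⟨j', hr, hj'⟩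
  · rw [hr] at h
    exact absurd h (by simp)
  · rw [hr] at h
    exact absurd h (by simp)
  · rw [hr] at h
    have : j' = j := Sum.inr_injective h
    rwa [this] at hj'

end TwoChartsN

end Fermat.Agent.ES.W33.TwoChartsN20
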