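/-
Programme W (S33), chapter B3′ (helper20): BUILDING A `TwoChartsN20.TwoChartsN` FROM THE TWO CHART
RINGS `chart ↥A s`, `chart ↥A s⁻¹` AND ONE PAIR REDUCTION `ρ : G →+* Ft₁ × Ft₂` on a subring `G ⊆ F`
containing both charts (at the instance `G := GN`, `ρ := redN`, `s := tN` of `NodalDefs3`).

* §0 `cSubring_eq_of_section` : pure algebra — the local ring of a component at a centre can be computed
  in a smaller ring `B⁰ → B` as soon as `ρ B ⊆ ρ⁰ B⁰` (at the instance: `B⁰` = the chart ring of the GOOD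
  level, through `α` resp. `β`; this identifies the local ring with the one of main's `rV`).
* §1 `nodalChartOfChart` : `NodalChart20.NodalChart` on `B := chart ↥A s` from `red_const` and the pair
  saturation (all other fields are generic facts of main);  `redOf G ρ h` the restriction of `ρ`.
* §2 overlap of two `NodalChart`s BEFORE a `TwoChartsN` exists (`on₁_transfer`, `on₂_transfer`), and the
  fields `red_s_mul`, `ov` from a common `(G, ρ)`.
* §3 `hasPlaces₁_of_ident`, `hasPlaces₂_of_ident` : if the local ring at every one-component centre is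
  the valuation ring of a GIVEN place `r₁ P` resp. `r₂ P`, the fields `places…` hold and
  `rAt₁ = r₁`, `rAt₂ = r₂`.
* §4 `r_eq_of_char` : a map `r'` whose values are centred as it says is `T.r`.
-/
import Mathlib
import Fermat.Agent.ES.RED.ChartSpecOfChart18
import Fermat.Agent.ES.W33.TwoChartsN20

set_option autoImplicit false

noncomputable section

open AlgebraicCurve

namespace Fermat.Agent.ES.W33.TwoChartsNOf20

open Fermat.Agent.RED.PUR.ChartGeneric22 Fermat.Agent.X0.FF Fermat.Agent.ES.RED.PlaceValue13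
  Fermat.Agent.ES.RED.Contract8 Fermat.Agent.ES.RED.ChartFacts9
open Fermat.Agent.ES.W33.CentreN20 Fermat.Agent.ES.W33.NodalChart20 Fermat.Agent.ES.W33.TwoChartsN20

/-! ### §0 the local ring at a centre, computed in a smaller ring -/

section Section

variable {k : Type*} [Field k] {B : Type*} [CommRing B] {Ft : Type*} [Field Ft] [Algebra k Ft]
variable {B' : Type*} [CommRing B']

/-- **the local ring of a component at a centre can be computed in a subring `B'` whose reduction is
everything**: `a : B' → B` compatible with `χ`, `ρ`, the centre lies on the component, and every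
`ρ b` is a `ρ' b'`. -/
theorem cSubring_eq_of_section {χ : B →+* k} {ρ : B →+* Ft} {χ' : B' →+* k} {ρ' : B' →+* Ft}
    (hon : ∀ b : B, ρ b = 0 → χ b = 0) (a : B' →+* B) (hρ : ∀ b', ρ (a b') = ρ' b')
    (hχ : ∀ b', χ (a b') = χ' b') (hsurj : ∀ b : B, ∃ b' : B', ρ b = ρ' b') :
    cSubring χ ρ = cSubring χ' ρ' := by
  have key : ∀ b : B, ∃ b' : B', ρ b = ρ' b' ∧ χ b = χ' b' := by
    intro b
    obtain ⟨b', hb'⟩ := hsurj b
    refine ⟨b', hb', ?_⟩
    have h0 := hon (b - a b') (by rw [map_sub, hρ, hb', sub_self])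
    rw [map_sub, sub_eq_zero] at h0
    rw [h0, hχ]
  apply le_antisymm
  · rintro y ⟨n, d, hd, he⟩
    obtain ⟨n', hn', -⟩ := key n
    obtain ⟨d', hd', hdχ⟩ := key d
    exact ⟨n', d', by rw [← hdχ]; exact hd, by rw [← hd', ← hn']; exact he⟩
  · rintro y ⟨n', d', hd', he⟩
    exact ⟨a n', a d', by rw [hχ]; exact hd', by rw [hρ, hρ]; exact he⟩

end Section

variable {L : Type*} [Field L] [IsAlgClosed L] (A : ValuationSubring L)
variable {F : Type*} [Field F] [Algebra L F] {x : F} (hx : IsGen L x)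
variable {Ft₁ Ft₂ : Type*} [Field Ft₁] [Algebra (kA A) Ft₁] [Field Ft₂] [Algebra (kA A) Ft₂]

/-! ### §1 the chart ring as a `NodalChart` -/

/-- **A `NodalChart` from the chart ring** `B := chart ↥A s`, a pair reduction `red` on it which is
the residue map on constants, and pair saturation. -/
def nodalChartOfChart (s : F) (hs : IsGen L s) (red : ↥(chart ↥A s).toSubring →+* Ft₁ × Ft₂)
    (red_const : ∀ a : ↥A, red ⟨algebraMap L F (a : L), const_mem_chart A s a⟩ =
      (algebraMap (kA A) Ft₁ (resA A a), algebraMap (kA A) Ft₂ (resA A a)))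
    (sat : ∀ b : ↥(chart ↥A s).toSubring, b ≠ 0 →
      ∃ (c : ↥A) (b' : ↥(chart ↥A s).toSubring),
        (b : F) = algebraMap L F (c : L) * (b' : F) ∧ red b' ≠ 0) :
    NodalChart A hx Ft₁ Ft₂ where
  B := (chart ↥A s).toSubring
  red := red
  s := s
  s_mem := self_mem_chart s
  const_mem := const_mem_chart A s
  red_const := red_const
  mem_place := fun P h _ hb =>
    Fermat.Agent.ES.RED.ChartSpecOfChart18.mem_place_of_mem_chart' A s P h.1 hb
  val_mem := fun P h _ hb =>
    Fermat.Agent.ES.RED.ChartSpecOfChart18.valueHom_mem_of_mem_chart A hx s P h.1 h.2 hb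
      (Fermat.Agent.ES.RED.ChartSpecOfChart18.mem_place_of_mem_chart' A s P h.1 hb)
  sat := sat
  frac := Fermat.Agent.ES.RED.NormFrac18.frac_subring A (chart ↥A s).toSubring hs (fun _ => Iff.rfl)

section Common

variable {Ω : Type*} [CommRing Ω] (G : Subring F) (ρ : ↥G →+* Ω)

/-- the restriction of `ρ : G → Ω` to a chart ring contained in `G`. -/
def redOf (s : F) (h : ∀ b ∈ chart ↥A s, b ∈ G) : ↥(chart ↥A s).toSubring →+* Ω :=
  ρ.comp (Subring.inclusion (S := (chart ↥A s).toSubring) (T := G) (fun b hb => h b hb))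

theorem redOf_apply (s : F) (h : ∀ b ∈ chart ↥A s, b ∈ G) (b : ↥(chart ↥A s).toSubring) :
    redOf A G ρ s h b = ρ ⟨(b : F), h b b.2⟩ := rfl

/-- **`red_s_mul`** for two restrictions of one `ρ`. -/
theorem red_s_mul_of_common {s s' : F} (hss : s * s' = 1) (h : ∀ b ∈ chart ↥A s, b ∈ G)
    (h' : ∀ b ∈ chart ↥A s', b ∈ G) :
    redOf A G ρ s h ⟨s, self_mem_chart s⟩ * redOf A G ρ s' h' ⟨s', self_mem_chart s'⟩ = 1 := by
  rw [redOf_apply, redOf_apply, ← map_mul]
  have : (⟨s, h s (self_mem_chart s)⟩ * ⟨s', h' s' (self_mem_chart s')⟩ : ↥G) = 1 :=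
    Subtype.ext hss
  rw [this, map_one]

/-- **`ov`** for two restrictions of one `ρ`: `chart s' ⊆ (chart s)[1/s]`, compatibly with the
reductions (`s s' = 1`). -/
theorem ov_of_common {s s' : F} (hss : s * s' = 1) (h : ∀ b ∈ chart ↥A s, b ∈ G)
    (h' : ∀ b ∈ chart ↥A s', b ∈ G) (b : ↥(chart ↥A s').toSubring) :
    ∃ (n : ℕ) (b0 : ↥(chart ↥A s).toSubring),
      (b0 : F) = s ^ n * (b : F) ∧
        redOf A G ρ s h b0 = redOf A G ρ s h ⟨s, self_mem_chart s⟩ ^ n * redOf A G ρ s' h' b := by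
  have hs0 : s ≠ 0 := left_ne_zero_of_mul_eq_one hss
  have hs' : s' = s⁻¹ := eq_inv_of_mul_eq_one_right hss
  subst hs'
  obtain ⟨n, hn⟩ := exists_pow_mul_mem_chart (R := ↥A) hs0 b.2
  refine ⟨n, ⟨s ^ n * (b : F), hn⟩, rfl, ?_⟩
  rw [redOf_apply, redOf_apply, redOf_apply, ← map_pow, ← map_mul]
  rfl

end Common

/-! ### §2 the overlap of two nodal charts -/

section Overlap

variable {A hx}
variable (S S' : NodalChart A hx Ft₁ Ft₂) (hss : S.s * S'.s = 1)
variable (P : Place L F) (hP : S.InChart P) (hP' : S'.InChart P)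

include hss in
theorem ev_s_mul_ev_s : S.ev P hP S.sB * S'.ev P hP' S'.sB = 1 := by
  apply Subtype.ext
  show ((S.ev P hP S.sB : ↥A) : L) * ((S'.ev P hP' S'.sB : ↥A) : L) = 1
  rw [NodalChart.coe_ev, NodalChart.coe_ev, ← map_mul]
  have : (⟨(S.sB : F), S.mem_place P hP _ S.sB.2⟩ *
      ⟨(S'.sB : F), S'.mem_place P hP' _ S'.sB.2⟩ : ↥P.toValuationSubring) = 1 :=
    Subtype.ext hss
  rw [this, map_one]

include hss hP' in
theorem chi_s_ne_zero : S.chi P hP S.sB ≠ 0 := by
  have := congrArg (resA A) (ev_s_mul_ev_s S S' hss P hP hP')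
  rw [map_mul, map_one] at this
  exact left_ne_zero_of_mul_eq_one this

/-- values are compatible on the overlap. -/
theorem chi_eq_of_ov {b' : ↥S'.B} {n : ℕ} {b : ↥S.B} (hb : (b : F) = S.s ^ n * (b' : F)) :
    S.chi P hP b = S.chi P hP S.sB ^ n * S'.chi P hP' b' := by
  have hev : S.ev P hP b = S.ev P hP S.sB ^ n * S'.ev P hP' b' := by
    apply Subtype.ext
    show ((S.ev P hP b : ↥A) : L) =
      ((S.ev P hP S.sB : ↥A) : L) ^ n * ((S'.ev P hP' b' : ↥A) : L)
    rw [NodalChart.coe_ev, NodalChart.coe_ev, NodalChart.coe_ev, ← map_pow, ← map_mul]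
    congr 1
    exact Subtype.ext hb
  rw [NodalChart.chi_apply, hev, map_mul, map_pow]
  rfl

variable (ov : ∀ b' : ↥S'.B, ∃ (n : ℕ) (b : ↥S.B),
  (b : F) = S.s ^ n * (b' : F) ∧ S.red b = S.red S.sB ^ n * S'.red b')

include hss ov in
/-- a centre seen on the first component in the chart `S` is seen there in the chart `S'`. -/
theorem on₁_transfer (h : S.On₁ P hP) : S'.On₁ P hP' := by
  intro b' hb'
  obtain ⟨n, b, hb, hred⟩ := ov b'
  have h2 : S.ρ₁ b = 0 := by
    have e1 := congrArg Prod.fst hred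
    rw [Prod.fst_mul] at e1
    rw [NodalChart.ρ₁_apply, e1]
    have : (S'.red b').1 = 0 := hb'
    rw [this, mul_zero]
  have h3 := h b h2
  rw [chi_eq_of_ov S S' P hP hP' hb] at h3
  exact (mul_eq_zero.mp h3).resolve_left (pow_ne_zero _ (chi_s_ne_zero S S' hss P hP hP'))

include hss ov in
/-- a centre seen on the second component in the chart `S` is seen there in the chart `S'`. -/
theorem on₂_transfer (h : S.On₂ P hP) : S'.On₂ P hP' := by
  intro b' hb'
  obtain ⟨n, b, hb, hred⟩ := ov b'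
  have h2 : S.ρ₂ b = 0 := by
    have e1 := congrArg Prod.snd hred
    rw [Prod.snd_mul] at e1
    rw [NodalChart.ρ₂_apply, e1]
    have : (S'.red b').2 = 0 := hb'
    rw [this, mul_zero]
  have h3 := h b h2
  rw [chi_eq_of_ov S S' P hP hP' hb] at h3
  exact (mul_eq_zero.mp h3).resolve_left (pow_ne_zero _ (chi_s_ne_zero S S' hss P hP hP'))

end Overlap

/-! ### §3 the places of the one-component centres, when they are known in advance -/

section Ident

variable {A hx}
variable (S : NodalChart A hx Ft₁ Ft₂)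

/-- if the local ring of the first component at every centre lying on it alone is the valuation ring
of the place `r₁ P`, then (VAL) and (PIR) hold there. -/
theorem hasPlaces₁_of_ident (r₁ : Place L F → Place (kA A) Ft₁)
    (hD : ∀ (P : Place L F) (hP : S.InChart P), S.On₁ P hP → ¬ S.On₂ P hP →
      ∀ y, y ∈ (r₁ P).toValuationSubring ↔ y ∈ cSubring (S.chi P hP) S.ρ₁) : S.HasPlaces₁ := by
  intro P hP h1 h2
  have hval : Val (S.chi P hP) S.ρ₁ := fun y => by
    rcases (r₁ P).toValuationSubring.mem_or_inv_mem y with h | h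
    · exact Or.inl ((hD P hP h1 h2 y).1 h)
    · exact Or.inr ((hD P hP h1 h2 y⁻¹).1 h)
  refine ⟨hval, ?_⟩
  have he : cVS (S.chi P hP) S.ρ₁ hval = (r₁ P).toValuationSubring := by
    ext y
    exact (hD P hP h1 h2 y).symm
  rw [he]
  exact (r₁ P).isPrincipalIdealRing'

/-- the same on the second component. -/
theorem hasPlaces₂_of_ident (r₂ : Place L F → Place (kA A) Ft₂)
    (hD : ∀ (P : Place L F) (hP : S.InChart P), S.On₂ P hP → ¬ S.On₁ P hP →
      ∀ y, y ∈ (r₂ P).toValuationSubring ↔ y ∈ cSubring (S.chi P hP) S.ρ₂) : S.HasPlaces₂ := by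
  intro P hP h2 h1
  have hval : Val (S.chi P hP) S.ρ₂ := fun y => by
    rcases (r₂ P).toValuationSubring.mem_or_inv_mem y with h | h
    · exact Or.inl ((hD P hP h2 h1 y).1 h)
    · exact Or.inr ((hD P hP h2 h1 y⁻¹).1 h)
  refine ⟨hval, ?_⟩
  have he : cVS (S.chi P hP) S.ρ₂ hval = (r₂ P).toValuationSubring := by
    ext y
    exact (hD P hP h2 h1 y).symm
  rw [he]
  exact (r₂ P).isPrincipalIdealRing'

end Ident

/-! ### §4 characterisation of `T.r` -/

section Char

variable {A hx}
variable {nn : ℕ} (T : TwoChartsN A hx Ft₁ Ft₂ nn)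

/-- **a map whose values are centred as it says is `T.r`.** -/
theorem r_eq_of_char (r' : Place L F → (Place (kA A) Ft₁ ⊕ Place (kA A) Ft₂) ⊕ Fin nn)
    (h₁ : ∀ P Q, r' P = Sum.inl (Sum.inl Q) → T.RedTo₁ P Q)
    (h₂ : ∀ P Q, r' P = Sum.inl (Sum.inr Q) → T.RedTo₂ P Q)
    (h₃ : ∀ P j, r' P = Sum.inr j → T.RedToNode P j) (P : Place L F) : T.r P = r' P := by
  rcases hr : r' P with (Q | Q) | j
  · exact T.r_eq_of_redTo₁ (h₁ P Q hr)
  · exact T.r_eq_of_redTo₂ (h₂ P Q hr)
  · exact T.r_eq_of_redToNode (h₃ P j hr)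

end Char

end Fermat.Agent.ES.W33.TwoChartsNOf20
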