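/-
Programme W (S33), chapter B3′ (helper20): THE NODAL TWO-CHART MODEL AT THE INSTANCE — the
`TwoChartsN20.TwoChartsN` on the two `t`-charts `chart ↥A tN`, `chart ↥A tN⁻¹` of the bad level
`N' = M' * p` with the pair reduction `redN` of `NodalDefs3`, from NAMED LEAVES.

Only the FUNCTION-level names of `NodalDefs3` are used: `GN`, `redN`, `tN`, `hxN` (no `W` on places,
no `r1/r2/InW1/InW2`): the reduction map of the instance is `(TN …).r`, characterised by centres.

* §0 (generic) `hasPlaces₁_of_section`, `hasPlaces₂_of_section` : (VAL) + (PIR) at the one-component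
  centres of a nodal chart from a ring `B'` mapping to the chart ring whose reduction is everything
  and places `r₁ P` whose valuation rings are the local rings computed in `B'` (at the instance:
  `B'` = main's chart ring of the GOOD level through `α` resp. `β`).
* `ChartLeaves` : `h0`, `h1` (both chart rings lie in `GN`), `red_const`, `sat0`, `sat1` (pair
  saturation);  `S0N`, `S1N` : the two nodal charts.
* `PlaceLeaves L` : (VAL)+(PIR) ×4, transcendence ×2, `no_node1`, finiteness of the two-branch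
  centres;  `coreN`, **`TN`**, `sNN` (the number of nodes).
* `NodeLeaves` : (VAL)+(PIR) at the node centres;  **`nodesNN`**, `nodePlacesNN`, `nodes_inj`.
* `GaussLeaves` : `inv_mem` and (HARTOGS_j);  `gaussExtNN`;  **`smoothNN`, `glueNN`, `glue_unitNN`** :
  the three node fields of `RedCtxN … (nodesNN …) (GN …) (redN …) (TN …).r`, in their literal shapes.
-/
import Mathlib
import Fermat.Agent.ES.W33.NodalDefs3
import Fermat.Agent.ES.W33.TwoChartsNOf20
import Fermat.Agent.ES.W33.TwoChartsNCore20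

set_option autoImplicit false
set_option synthInstance.maxHeartbeats 400000
set_option linter.unusedSectionVars false

open HahnSeries ModularCurve AlgebraicCurve
open scoped MatrixGroups

noncomputable section

namespace Fermat.Agent.ES.W33.TwoChartsNInst20

open Fermat.Agent.RED.Interface4 Fermat.Agent.RED.BASE.Interface12 Fermat.Agent.RED.BASE.Hauptmodul12
  Fermat.Agent.RED.PUR.ChartGeneric22
  Fermat.Agent.ES.RED.Contract8 Fermat.Agent.ES.RED.ModelInst4 Fermat.Agent.ES.RED.GaussRing15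
  Fermat.Agent.ES.RED.PlaceValue13 Fermat.Agent.ES.RED.SpecialInv25
  Fermat.Agent.X0 Fermat.Agent.X0.FF
  Fermat.Agent.ES.V19.GaussFrac15 Fermat.Agent.ES.V19.InstNames3 Fermat.Agent.ES.W33.XiIfaceN29
  Fermat.Agent.ES.W33.NodalDefs3
open Fermat.Agent.ES.W33.CentreN20 Fermat.Agent.ES.W33.NodalChart20 Fermat.Agent.ES.W33.TwoChartsN20
  Fermat.Agent.ES.W33.TwoChartsNOf20 Fermat.Agent.ES.W33.TwoChartsNCore20
  Fermat.Agent.ES.W33.NodalGlue20

attribute [local instance 5000] HahnSeries.powerSeriesAlgebra SubalgebraClass.toAlgebra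

/-! ### §0 places of the one-component centres through a section (generic) -/

section Generic

variable {L : Type*} [Field L] [IsAlgClosed L] {A : ValuationSubring L}
variable {F : Type*} [Field F] [Algebra L F] {x : F} {hx : IsGen L x}
variable {Ft₁ Ft₂ : Type*} [Field Ft₁] [Algebra (kA A) Ft₁] [Field Ft₂] [Algebra (kA A) Ft₂]
variable (S : NodalChart A hx Ft₁ Ft₂) {B' : Type*} [CommRing B'] (a : B' →+* ↥S.B)

/-- the local ring of the first component at a centre on it, computed in `B'`. -/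
theorem cSubring₁_eq_of_section (ρ' : B' →+* Ft₁) (hρ : ∀ b', S.ρ₁ (a b') = ρ' b')
    (hsurj : ∀ b : ↥S.B, ∃ b' : B', S.ρ₁ b = ρ' b') (P : Place L F) (hP : S.InChart P)
    (h1 : S.On₁ P hP) :
    cSubring (S.chi P hP) S.ρ₁ = cSubring ((S.chi P hP).comp a) ρ' :=
  cSubring_eq_of_section h1 a hρ (fun _ => rfl) hsurj

/-- the local ring of the second component at a centre on it, computed in `B'`. -/
theorem cSubring₂_eq_of_section (ρ' : B' →+* Ft₂) (hρ : ∀ b', S.ρ₂ (a b') = ρ' b')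
    (hsurj : ∀ b : ↥S.B, ∃ b' : B', S.ρ₂ b = ρ' b') (P : Place L F) (hP : S.InChart P)
    (h2 : S.On₂ P hP) :
    cSubring (S.chi P hP) S.ρ₂ = cSubring ((S.chi P hP).comp a) ρ' :=
  cSubring_eq_of_section h2 a hρ (fun _ => rfl) hsurj

/-- **(VAL) + (PIR) on the first component from a section**: `ρ₁ B = ρ' B'` and the local rings
computed in `B'` are the valuation rings of the places `r₁ P`. -/
theorem hasPlaces₁_of_section (ρ' : B' →+* Ft₁) (hρ : ∀ b', S.ρ₁ (a b') = ρ' b')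
    (hsurj : ∀ b : ↥S.B, ∃ b' : B', S.ρ₁ b = ρ' b') (r₁ : Place L F → Place (kA A) Ft₁)
    (hQ : ∀ (P : Place L F) (hP : S.InChart P), S.On₁ P hP → ¬ S.On₂ P hP →
      ∀ y, y ∈ (r₁ P).toValuationSubring ↔ y ∈ cSubring ((S.chi P hP).comp a) ρ') :
    S.HasPlaces₁ :=
  hasPlaces₁_of_ident S r₁ fun P hP h1 h2 y => by
    rw [cSubring₁_eq_of_section S a ρ' hρ hsurj P hP h1]
    exact hQ P hP h1 h2 y

/-- **(VAL) + (PIR) on the second component from a section.** -/
theorem hasPlaces₂_of_section (ρ' : B' →+* Ft₂) (hρ : ∀ b', S.ρ₂ (a b') = ρ' b')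
    (hsurj : ∀ b : ↥S.B, ∃ b' : B', S.ρ₂ b = ρ' b') (r₂ : Place L F → Place (kA A) Ft₂)
    (hQ : ∀ (P : Place L F) (hP : S.InChart P), S.On₂ P hP → ¬ S.On₁ P hP →
      ∀ y, y ∈ (r₂ P).toValuationSubring ↔ y ∈ cSubring ((S.chi P hP).comp a) ρ') :
    S.HasPlaces₂ :=
  hasPlaces₂_of_ident S r₂ fun P hP h2 h1 y => by
    rw [cSubring₂_eq_of_section S a ρ' hρ hsurj P hP h2]
    exact hQ P hP h2 h1 y

end Generic

/-! ### the instance -/

variable (n e M' : ℕ) [NeZero n] [NeZero M'] (p : ℕ) [Fact p.Prime]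
  (hb : BaseHyp n e) (hnM : n ∣ M') (A : ValuationSubring Qbar)

/-- **the chart leaves**: both `t`-chart rings lie in `GN`, constants reduce to constants, and the
pair saturation of both chart rings. -/
structure ChartLeaves : Prop where
  h0 : ∀ b ∈ chart ↥A (tN n e M' p hb hnM), b ∈ GN M' p A
  h1 : ∀ b ∈ chart ↥A (tN n e M' p hb hnM)⁻¹, b ∈ GN M' p A
  red_const : ∀ (a : ↥A) (h : algebraMap Qbar ↥(Fbar (M' * p)) (a : Qbar) ∈ GN M' p A),
    redN M' p A ⟨_, h⟩ =
      (algebraMap (kA A) (Ft M' A) (resA A a), algebraMap (kA A) (Ft M' A) (resA A a))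
  sat0 : ∀ b : ↥(chart ↥A (tN n e M' p hb hnM)).toSubring, b ≠ 0 →
    ∃ (c : ↥A) (b' : ↥(chart ↥A (tN n e M' p hb hnM)).toSubring),
      (b : ↥(Fbar (M' * p))) = algebraMap Qbar ↥(Fbar (M' * p)) (c : Qbar) * (b' : ↥(Fbar (M' * p))) ∧
        redOf A (GN M' p A) (redN M' p A) (tN n e M' p hb hnM) h0 b' ≠ 0
  sat1 : ∀ b : ↥(chart ↥A (tN n e M' p hb hnM)⁻¹).toSubring, b ≠ 0 →
    ∃ (c : ↥A) (b' : ↥(chart ↥A (tN n e M' p hb hnM)⁻¹).toSubring),
      (b : ↥(Fbar (M' * p))) = algebraMap Qbar ↥(Fbar (M' * p)) (c : Qbar) * (b' : ↥(Fbar (M' * p))) ∧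
        redOf A (GN M' p A) (redN M' p A) (tN n e M' p hb hnM)⁻¹ h1 b' ≠ 0

variable {n e M' p hb hnM A}

/-- **chart 0**: `chart ↥A tN` with `redN`. -/
def S0N (L : ChartLeaves n e M' p hb hnM A) :
    NodalChart A (hxN n e M' p hb hnM) (Ft M' A) (Ft M' A) :=
  nodalChartOfChart A (hxN n e M' p hb hnM) (tN n e M' p hb hnM) (hxN n e M' p hb hnM)
    (redOf A (GN M' p A) (redN M' p A) (tN n e M' p hb hnM) L.h0)
    (fun a => L.red_const a _) L.sat0

/-- **chart 1**: `chart ↥A tN⁻¹` with `redN`. -/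
def S1N (L : ChartLeaves n e M' p hb hnM A) :
    NodalChart A (hxN n e M' p hb hnM) (Ft M' A) (Ft M' A) :=
  nodalChartOfChart A (hxN n e M' p hb hnM) (tN n e M' p hb hnM)⁻¹
    (IsGen.inv (hxN n e M' p hb hnM))
    (redOf A (GN M' p A) (redN M' p A) (tN n e M' p hb hnM)⁻¹ L.h1)
    (fun a => L.red_const a _) L.sat1

section Charts

variable (L : ChartLeaves n e M' p hb hnM A)

@[simp] theorem S0N_s : (S0N L).s = tN n e M' p hb hnM := rfl

@[simp] theorem S1N_s : (S1N L).s = (tN n e M' p hb hnM)⁻¹ := rfl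

theorem S0N_B : (S0N L).B = (chart ↥A (tN n e M' p hb hnM)).toSubring := rfl

theorem S1N_B : (S1N L).B = (chart ↥A (tN n e M' p hb hnM)⁻¹).toSubring := rfl

/-- the reduction of chart 0 is `redN`. -/
theorem S0N_red (b : ↥(S0N L).B) :
    (S0N L).red b = redN M' p A ⟨(b : ↥(Fbar (M' * p))), L.h0 _ b.2⟩ := rfl

/-- the reduction of chart 1 is `redN`. -/
theorem S1N_red (b : ↥(S1N L).B) :
    (S1N L).red b = redN M' p A ⟨(b : ↥(Fbar (M' * p))), L.h1 _ b.2⟩ := rfl

/-- the first component reduction of chart 0 is `rho1`. -/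
theorem S0N_ρ₁ (b : ↥(S0N L).B) :
    (S0N L).ρ₁ b = rho1 M' p A ⟨(b : ↥(Fbar (M' * p))), GN_le_O1 M' p A (L.h0 _ b.2)⟩ := rfl

/-- the second component reduction of chart 0 is `rho2`. -/
theorem S0N_ρ₂ (b : ↥(S0N L).B) :
    (S0N L).ρ₂ b = rho2 M' p A ⟨(b : ↥(Fbar (M' * p))), GN_le_O2 M' p A (L.h0 _ b.2)⟩ := rfl

theorem S1N_ρ₁ (b : ↥(S1N L).B) :
    (S1N L).ρ₁ b = rho1 M' p A ⟨(b : ↥(Fbar (M' * p))), GN_le_O1 M' p A (L.h1 _ b.2)⟩ := rfl

theorem S1N_ρ₂ (b : ↥(S1N L).B) :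
    (S1N L).ρ₂ b = rho2 M' p A ⟨(b : ↥(Fbar (M' * p))), GN_le_O2 M' p A (L.h1 _ b.2)⟩ := rfl

theorem s_mul_s : (S0N L).s * (S1N L).s = 1 :=
  mul_inv_cancel₀ (hxN n e M' p hb hnM).ne_zero

theorem s_mul_s' : (S1N L).s * (S0N L).s = 1 :=
  inv_mul_cancel₀ (hxN n e M' p hb hnM).ne_zero

end Charts

/-- **the place leaves**: (VAL) + (PIR) at the one-component centres of both charts, transcendence
of the coordinate on both components, no two-component centre over `t = ∞`, finitely many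
two-component centres. -/
structure PlaceLeaves (L : ChartLeaves n e M' p hb hnM A) : Prop where
  places₁0 : (S0N L).HasPlaces₁
  places₂0 : (S0N L).HasPlaces₂
  places₁1 : (S1N L).HasPlaces₁
  places₂1 : (S1N L).HasPlaces₂
  tr₁ : Transcendental (kA A) ((S0N L).ρ₁ (S0N L).sB)
  tr₂ : Transcendental (kA A) ((S0N L).ρ₂ (S0N L).sB)
  no_node1 : ∀ (P : Place Qbar ↥(Fbar (M' * p))) (h1 : (S1N L).InChart P), ¬ (S0N L).InChart P →
    ¬ ((S1N L).On₁ P h1 ∧ (S1N L).On₂ P h1)
  fin : Finite ↥(nodeCentres (S0N L))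

section Core

variable {L : ChartLeaves n e M' p hb hnM A} (L' : PlaceLeaves L)

/-- the core of the instance. -/
def coreN : CoreN A (hxN n e M' p hb hnM) (Ft M' A) (Ft M' A) where
  S0 := S0N L
  S1 := S1N L
  s_ne := (hxN n e M' p hb hnM).ne_zero
  s_inv := rfl
  red_s_mul := red_s_mul_of_common A (GN M' p A) (redN M' p A) (s_mul_s L) L.h0 L.h1
  ov0 := ov_of_common A (GN M' p A) (redN M' p A) (s_mul_s L) L.h0 L.h1
  ov1 := ov_of_common A (GN M' p A) (redN M' p A) (s_mul_s' L) L.h1 L.h0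
  places₁0 := L'.places₁0
  places₂0 := L'.places₂0
  places₁1 := L'.places₁1
  places₂1 := L'.places₂1
  tr₁ := L'.tr₁
  tr₂ := L'.tr₂
  no_node1 := L'.no_node1
  fin := L'.fin

/-- the number of nodes of the instance. -/
def sNN : ℕ := (coreN L').nn

/-- **THE NODAL TWO-CHART MODEL OF THE INSTANCE.** -/
def TN : TwoChartsN A (hxN n e M' p hb hnM) (Ft M' A) (Ft M' A) (sNN L') := (coreN L').toT

@[simp] theorem TN_S0 : (TN L').S0 = S0N L := rfl

@[simp] theorem TN_S1 : (TN L').S1 = S1N L := rfl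

/-- every node is the centre of a place. -/
theorem nodesReal_TN : NodesReal (TN L') := (coreN L').nodesReal

/-- the nodes are the two-component centres of chart 0. -/
theorem nodeChi_spec (j : Fin (sNN L')) :
    ∃ (P : Place Qbar ↥(Fbar (M' * p))) (h0 : (S0N L).InChart P),
      (S0N L).On₁ P h0 ∧ (S0N L).On₂ P h0 ∧ (TN L').nodeChi j = (S0N L).chi P h0 :=
  (coreN L').nodeChi_spec j

/-- **`0 < sNN`** as soon as some centre of chart 0 lies on both components. -/
theorem sNN_pos {P : Place Qbar ↥(Fbar (M' * p))} (h0 : (S0N L).InChart P)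
    (h1 : (S0N L).On₁ P h0) (h2 : (S0N L).On₂ P h0) : 0 < sNN L' :=
  (coreN L').nn_pos h0 h1 h2

/-- the reduction map of the instance takes the value `inr j`. -/
theorem exists_r_eq_node (j : Fin (sNN L')) :
    ∃ P : Place Qbar ↥(Fbar (M' * p)), (TN L').r P = Sum.inr j :=
  (coreN L').exists_r_eq_node j

/-- **the nodes of the instance** (the two branch places at every node), from (VAL) + (PIR) at the
node centres. -/
def nodesNN (hV : NodeVal (TN L')) : Nodes (kA A) (Ft M' A) (Ft M' A) (sNN L') :=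
  nodesOf (nodesReal_TN L') hV

theorem nodePlacesNN (hV : NodeVal (TN L')) : NodePlaces (TN L') (nodesNN L' hV) :=
  nodePlaces_nodesOf (nodesReal_TN L') hV

/-- the field `nodes_inj` of `GeoNames23.NodalInstHyp`. -/
theorem nodes_inj (hV : NodeVal (TN L')) : Function.Injective (nodesNN L' hV).ν₁ :=
  nodesOf_ν₁_injective (nodesReal_TN L') hV

/-- **the Gauss leaves**: inverses in `GN` and (HARTOGS_j). -/
structure GaussLeaves : Prop where
  inv_mem : ∀ g : ↥(GN M' p A), (redN M' p A g).1 ≠ 0 → (redN M' p A g).2 ≠ 0 →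
    (g : ↥(Fbar (M' * p)))⁻¹ ∈ GN M' p A
  hartogs : ∀ (j : Fin (sNN L')) (g : ↥(GN M' p A)),
    (∀ P : Place Qbar ↥(Fbar (M' * p)), (TN L').r P = Sum.inr j →
      0 ≤ P.ord (g : ↥(Fbar (M' * p)))) →
    ∃ a d : ↥(S0N L).B, (TN L').nodeChi j d ≠ 0 ∧
      (g : ↥(Fbar (M' * p))) * (d : ↥(Fbar (M' * p))) = (a : ↥(Fbar (M' * p)))

theorem gaussExtNN (hG : GaussLeaves L') : GaussExt (TN L') (GN M' p A) (redN M' p A) where
  B0_le := fun b hb => L.h0 b hb
  red_ext := fun _ => rfl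
  inv_mem := hG.inv_mem
  hartogs := hG.hartogs

/-- **`RedCtxN.smooth`** at the instance. -/
theorem smoothNN (hV : NodeVal (TN L')) (P : Place Qbar ↥(Fbar (M' * p)))
    (Q : SPt (kA A) (Ft M' A) (Ft M' A)) (h : (TN L').r P = Sum.inl Q) :
    (nodesNN L' hV).IsSmooth Q :=
  smooth (nodePlacesNN L' hV) P Q h

/-- **`RedCtxN.glue`** at the instance. -/
theorem glueNN (hV : NodeVal (TN L')) (hG : GaussLeaves L') (g : ↥(GN M' p A)) (j : Fin (sNN L'))
    (h : ∀ P : Place Qbar ↥(Fbar (M' * p)), (TN L').r P = Sum.inr j →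
      0 ≤ P.ord (g : ↥(Fbar (M' * p)))) :
    (nodesNN L' hV).GluedAt (redN M' p A g) j :=
  glue (nodePlacesNN L' hV) (gaussExtNN L' hG) g j h

/-- **`RedCtxN.glue_unit`** at the instance. -/
theorem glue_unitNN (hV : NodeVal (TN L')) (hG : GaussLeaves L') (g : ↥(GN M' p A))
    (j : Fin (sNN L'))
    (h : ∀ P : Place Qbar ↥(Fbar (M' * p)), (TN L').r P = Sum.inr j →
      P.ord (g : ↥(Fbar (M' * p))) = 0)
    (h1 : (redN M' p A g).1 ≠ 0) (h2 : (redN M' p A g).2 ≠ 0) :
    ∃ c : kA A, c ≠ 0 ∧ ValAt ((nodesNN L' hV).ν₁ j) (redN M' p A g).1 c ∧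
      ValAt ((nodesNN L' hV).ν₂ j) (redN M' p A g).2 c :=
  glue_unit (nodePlacesNN L' hV) (gaussExtNN L' hG) g j h h1 h2

end Core

end Fermat.Agent.ES.W33.TwoChartsNInst20
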