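/-
Programme W (S33), chapter B3′ (helper20): **`T.r = rN`** — the nodal two-chart model of the instance
with its nodes ENUMERATED BY `NodalDefs3.nodeFin`, and the identification of its reduction map with
`NodalDefs3.rN` (ruling w53).

Inputs: `L : ChartLeaves …`, `L' : PlaceLeaves L` (`TwoChartsNInst20`) and `R : R1Leaves L` : the
branch-1 identification `O_{r1 P} = cSubring χ_P ρ₁` at every centre ON the first component (nodes
included), in chart 0 and outside chart 0  (`r1 P = rV (resAlpha P)`; this is (R1) + (R1u) through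
`SurjVia alpha`, see `TwoChartsNOf20.cSubring_eq_of_section`).

* §0 generic: `chi_ne_zero_iff` (`χ_P b ≠ 0 ↔ b(P) ∈ A ∧ b(P)⁻¹ ∈ A ∧ b(P) ≠ 0`), `chi_eq_of_cSubring_eq`.
* §1 dictionary with the place-level definitions of `NodalDefs3`: `inW1_iff`, `inW2_iff`
  (`InW1 P ↔ ¬ On₂` in one of the charts containing `P`), `coordAt_of_inChart/of_not_inChart`,
  `cSet1_eq₀/₁`, `cSet2_eq₀/₁` (`cSet_i (coordAt P) P = cSubring χ_P ρ_i`).
* §2 nodes: `node_of_not_inW`, `not_inW_of_node`, `chi_eq_of_r1_eq`, `r2_congr`, `finite_nodePairs`.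
* §3 `TR : TwoChartsN A hxN Ft Ft (sN …)` and **`TR_r : (TR …).r P = rN … P`**.
-/
import Mathlib
import Fermat.Agent.ES.W33.TwoChartsNInst20

set_option autoImplicit false
set_option synthInstance.maxHeartbeats 400000
set_option linter.unusedSectionVars false

open HahnSeries ModularCurve AlgebraicCurve
open scoped MatrixGroups

noncomputable section

namespace Fermat.Agent.ES.W33.TwoChartsNRN20

open Fermat.Agent.RED.Interface4 Fermat.Agent.RED.BASE.Interface12 Fermat.Agent.RED.BASE.Hauptmodul12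
  Fermat.Agent.RED.PUR.ChartGeneric22
  Fermat.Agent.ES.RED.Contract8 Fermat.Agent.ES.RED.ModelInst4 Fermat.Agent.ES.RED.GaussRing15
  Fermat.Agent.ES.RED.PlaceValue13 Fermat.Agent.ES.RED.SpecialInv25
  Fermat.Agent.X0 Fermat.Agent.X0.FF
  Fermat.Agent.ES.V19.GaussFrac15 Fermat.Agent.ES.V19.InstNames3 Fermat.Agent.ES.W33.XiIfaceN29
  Fermat.Agent.ES.W33.NodalDefs3
open Fermat.Agent.ES.W33.CentreN20 Fermat.Agent.ES.W33.NodalChart20 Fermat.Agent.ES.W33.TwoChartsN20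
  Fermat.Agent.ES.W33.TwoChartsNOf20 Fermat.Agent.ES.W33.TwoChartsNCore20
  Fermat.Agent.ES.W33.NodalGlue20 Fermat.Agent.ES.W33.ValAt29 Fermat.Agent.ES.W33.TwoChartsNInst20

attribute [local instance 5000] HahnSeries.powerSeriesAlgebra SubalgebraClass.toAlgebra

/-! ### §0 generic -/

section Generic

variable {L : Type*} [Field L] [IsAlgClosed L] {A : ValuationSubring L}
variable {F : Type*} [Field F] [Algebra L F] {x : F} {hx : IsGen L x}
variable {Ft₁ Ft₂ : Type*} [Field Ft₁] [Algebra (kA A) Ft₁] [Field Ft₂] [Algebra (kA A) Ft₂]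

omit [IsAlgClosed L] in
/-- an element of `A` is a unit iff it is nonzero with inverse in `A`. -/
theorem isUnit_iff_inv_mem (a : ↥A) : IsUnit a ↔ ((a : L)⁻¹ ∈ A ∧ (a : L) ≠ 0) := by
  constructor
  · intro hu
    obtain ⟨w, hw⟩ := hu.exists_right_inv
    have hw' : (a : L) * (w : L) = 1 := congrArg Subtype.val hw
    have h0 : (a : L) ≠ 0 := left_ne_zero_of_mul_eq_one hw'
    refine ⟨?_, h0⟩
    rw [inv_eq_of_mul_eq_one_right hw']
    exact w.2
  · rintro ⟨hinv, h0⟩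
    exact IsUnit.of_mul_eq_one (⟨(a : L)⁻¹, hinv⟩ : ↥A) (Subtype.ext (mul_inv_cancel₀ h0))

/-- **`χ_P b ≠ 0` iff `b(P)` is a unit of `A`**, in the form used by `NodalDefs3`. -/
theorem chi_ne_zero_iff (S : NodalChart A hx Ft₁ Ft₂) (P : Place L F) (hP : S.InChart P)
    (b : ↥S.B) :
    S.chi P hP b ≠ 0 ↔
      ((valueHom hx P ⟨(b : F), S.mem_place P hP b b.2⟩)⁻¹ ∈ A ∧
        valueHom hx P ⟨(b : F), S.mem_place P hP b b.2⟩ ≠ 0) := by
  rw [NodalChart.chi_apply]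
  have h1 : resA A (S.ev P hP b) ≠ 0 ↔ IsUnit (S.ev P hP b) :=
    IsLocalRing.residue_ne_zero_iff_isUnit _
  rw [h1, isUnit_iff_inv_mem, NodalChart.coe_ev]

/-- two centres on the same component with the same local ring, which is the valuation ring of a
place, coincide. -/
theorem chi_eq_of_cSubring_eq {k : Type*} [Field k] {B : Type*} [CommRing B] {Ft : Type*}
    [Field Ft] [Algebra k Ft] {χ χ' : B →+* k} {ρ : B →+* Ft} (h : IsCentre χ ρ)
    (h' : IsCentre χ' ρ) (Q : Place k Ft)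
    (hQ : ∀ y : Ft, y ∈ Q.toValuationSubring ↔ y ∈ cSubring χ ρ)
    (hQ' : ∀ y : Ft, y ∈ Q.toValuationSubring ↔ y ∈ cSubring χ' ρ) : χ = χ' := by
  ext b
  exact ValAt.unique (valAt_of_isCentre h Q hQ b) (valAt_of_isCentre h' Q hQ' b)

/-- (VAL) + (PIR) for a local ring which is the valuation ring of SOME place. -/
theorem val_pir_of_exists {k : Type*} [Field k] {B : Type*} [CommRing B] {Ft : Type*}
    [Field Ft] [Algebra k Ft] {χ : B →+* k} {ρ : B →+* Ft}
    (h : ∃ X : Place k Ft, ∀ y, y ∈ X.toValuationSubring ↔ y ∈ cSubring χ ρ) :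
    ∃ hval : Val χ ρ, IsPrincipalIdealRing ↥(cVS χ ρ hval) := by
  obtain ⟨X, hX⟩ := h
  have hval : Val χ ρ := fun y => by
    rcases X.toValuationSubring.mem_or_inv_mem y with h | h
    · exact Or.inl ((hX y).1 h)
    · exact Or.inr ((hX y⁻¹).1 h)
  refine ⟨hval, ?_⟩
  have he : cVS χ ρ hval = X.toValuationSubring := by
    ext y
    exact (hX y).symm
  rw [he]
  exact X.isPrincipalIdealRing'

/-- (VAL) + (PIR) on the first component from the EXISTENCE of the places. -/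
theorem hasPlaces₁_of_exists (S : NodalChart A hx Ft₁ Ft₂)
    (h : ∀ (P : Place L F) (hP : S.InChart P), S.On₁ P hP →
      ∃ X : Place (kA A) Ft₁, ∀ y, y ∈ X.toValuationSubring ↔ y ∈ cSubring (S.chi P hP) S.ρ₁) :
    S.HasPlaces₁ := fun P hP h1 _ => val_pir_of_exists (h P hP h1)

/-- (VAL) + (PIR) on the second component from the EXISTENCE of the places. -/
theorem hasPlaces₂_of_exists (S : NodalChart A hx Ft₁ Ft₂)
    (h : ∀ (P : Place L F) (hP : S.InChart P), S.On₂ P hP →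
      ∃ X : Place (kA A) Ft₂, ∀ y, y ∈ X.toValuationSubring ↔ y ∈ cSubring (S.chi P hP) S.ρ₂) :
    S.HasPlaces₂ := fun P hP h2 _ => val_pir_of_exists (h P hP h2)

end Generic

/-! ### §1 the dictionary with `NodalDefs3` -/

variable {n e M' : ℕ} [NeZero n] [NeZero M'] {p : ℕ} [Fact p.Prime] {hpM : ¬ p ∣ M'}
  {hb : BaseHyp n e} {hnM : n ∣ M'} {A : ValuationSubring Qbar} {hA : A.LiesOverPrime p}

section Dict

variable (L : ChartLeaves n e M' p hb hnM A)

/-- `¬ On₂` in chart 0 gives `InW1`. -/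
theorem inW1_of_not_on₂_0 {P : Place Qbar ↥(Fbar (M' * p))} (h0 : (S0N L).InChart P)
    (h : ¬ (S0N L).On₂ P h0) : InW1 n e M' p hb hnM A P := by
  unfold NodalChart.On₂ at h
  rw [not_forall] at h
  obtain ⟨b, hb'⟩ := h
  rw [Classical.not_imp] at hb'
  obtain ⟨hρ, hχ⟩ := hb'
  obtain ⟨hinv, hne⟩ := (chi_ne_zero_iff (S0N L) P h0 b).1 hχ
  exact ⟨tN n e M' p hb hnM, Or.inl rfl, h0, (b : ↥(Fbar (M' * p))), b.2,
    ⟨GN_le_O2 M' p A (L.h0 _ b.2), hρ⟩, (S0N L).mem_place P h0 b b.2,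
    (S0N L).val_mem P h0 b b.2, hinv, hne⟩

/-- `¬ On₂` in chart 1 gives `InW1`. -/
theorem inW1_of_not_on₂_1 {P : Place Qbar ↥(Fbar (M' * p))} (h1 : (S1N L).InChart P)
    (h : ¬ (S1N L).On₂ P h1) : InW1 n e M' p hb hnM A P := by
  unfold NodalChart.On₂ at h
  rw [not_forall] at h
  obtain ⟨b, hb'⟩ := h
  rw [Classical.not_imp] at hb'
  obtain ⟨hρ, hχ⟩ := hb'
  obtain ⟨hinv, hne⟩ := (chi_ne_zero_iff (S1N L) P h1 b).1 hχ
  exact ⟨(tN n e M' p hb hnM)⁻¹, Or.inr rfl, h1, (b : ↥(Fbar (M' * p))), b.2,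
    ⟨GN_le_O2 M' p A (L.h1 _ b.2), hρ⟩, (S1N L).mem_place P h1 b b.2,
    (S1N L).val_mem P h1 b b.2, hinv, hne⟩

/-- **`InW1 P` iff the centre of `P` is off the second component in one of the charts.** -/
theorem inW1_iff (P : Place Qbar ↥(Fbar (M' * p))) :
    InW1 n e M' p hb hnM A P ↔
      (∃ h0 : (S0N L).InChart P, ¬ (S0N L).On₂ P h0) ∨
        ∃ h1 : (S1N L).InChart P, ¬ (S1N L).On₂ P h1 := by
  constructor
  · rintro ⟨s, hs, hP, e₀, he₀, ⟨h2, hρ⟩, he, -, hinv, hne⟩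
    rcases hs with rfl | rfl
    · refine Or.inl ⟨hP, fun hOn => ?_⟩
      have := hOn ⟨e₀, he₀⟩ hρ
      exact (chi_ne_zero_iff (S0N L) P hP ⟨e₀, he₀⟩).2 ⟨hinv, hne⟩ this
    · refine Or.inr ⟨hP, fun hOn => ?_⟩
      have := hOn ⟨e₀, he₀⟩ hρ
      exact (chi_ne_zero_iff (S1N L) P hP ⟨e₀, he₀⟩).2 ⟨hinv, hne⟩ this
  · rintro (⟨h0, h⟩ | ⟨h1, h⟩)
    · exact inW1_of_not_on₂_0 L h0 h
    · exact inW1_of_not_on₂_1 L h1 h

/-- `¬ On₁` in chart 0 gives `InW2`. -/
theorem inW2_of_not_on₁_0 {P : Place Qbar ↥(Fbar (M' * p))} (h0 : (S0N L).InChart P)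
    (h : ¬ (S0N L).On₁ P h0) : InW2 n e M' p hb hnM A P := by
  unfold NodalChart.On₁ at h
  rw [not_forall] at h
  obtain ⟨b, hb'⟩ := h
  rw [Classical.not_imp] at hb'
  obtain ⟨hρ, hχ⟩ := hb'
  obtain ⟨hinv, hne⟩ := (chi_ne_zero_iff (S0N L) P h0 b).1 hχ
  exact ⟨tN n e M' p hb hnM, Or.inl rfl, h0, (b : ↥(Fbar (M' * p))), b.2,
    ⟨GN_le_O1 M' p A (L.h0 _ b.2), hρ⟩, (S0N L).mem_place P h0 b b.2,
    (S0N L).val_mem P h0 b b.2, hinv, hne⟩

/-- `¬ On₁` in chart 1 gives `InW2`. -/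
theorem inW2_of_not_on₁_1 {P : Place Qbar ↥(Fbar (M' * p))} (h1 : (S1N L).InChart P)
    (h : ¬ (S1N L).On₁ P h1) : InW2 n e M' p hb hnM A P := by
  unfold NodalChart.On₁ at h
  rw [not_forall] at h
  obtain ⟨b, hb'⟩ := h
  rw [Classical.not_imp] at hb'
  obtain ⟨hρ, hχ⟩ := hb'
  obtain ⟨hinv, hne⟩ := (chi_ne_zero_iff (S1N L) P h1 b).1 hχ
  exact ⟨(tN n e M' p hb hnM)⁻¹, Or.inr rfl, h1, (b : ↥(Fbar (M' * p))), b.2,
    ⟨GN_le_O1 M' p A (L.h1 _ b.2), hρ⟩, (S1N L).mem_place P h1 b b.2,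
    (S1N L).val_mem P h1 b b.2, hinv, hne⟩

/-- **`InW2 P` iff the centre of `P` is off the first component in one of the charts.** -/
theorem inW2_iff (P : Place Qbar ↥(Fbar (M' * p))) :
    InW2 n e M' p hb hnM A P ↔
      (∃ h0 : (S0N L).InChart P, ¬ (S0N L).On₁ P h0) ∨
        ∃ h1 : (S1N L).InChart P, ¬ (S1N L).On₁ P h1 := by
  constructor
  · rintro ⟨s, hs, hP, e₀, he₀, ⟨h2, hρ⟩, he, -, hinv, hne⟩
    rcases hs with rfl | rfl
    · refine Or.inl ⟨hP, fun hOn => ?_⟩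
      have := hOn ⟨e₀, he₀⟩ hρ
      exact (chi_ne_zero_iff (S0N L) P hP ⟨e₀, he₀⟩).2 ⟨hinv, hne⟩ this
    · refine Or.inr ⟨hP, fun hOn => ?_⟩
      have := hOn ⟨e₀, he₀⟩ hρ
      exact (chi_ne_zero_iff (S1N L) P hP ⟨e₀, he₀⟩).2 ⟨hinv, hne⟩ this
  · rintro (⟨h0, h⟩ | ⟨h1, h⟩)
    · exact inW2_of_not_on₁_0 L h0 h
    · exact inW2_of_not_on₁_1 L h1 h

/-- the canonical chart coordinate of a place of chart 0. -/
theorem coordAt_of_inChart {P : Place Qbar ↥(Fbar (M' * p))} (h0 : (S0N L).InChart P) :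
    coordAt n e M' p hb hnM A P = tN n e M' p hb hnM := by
  unfold coordAt
  exact if_pos h0

/-- the canonical chart coordinate of a place outside chart 0. -/
theorem coordAt_of_not_inChart {P : Place Qbar ↥(Fbar (M' * p))} (h0 : ¬ (S0N L).InChart P) :
    coordAt n e M' p hb hnM A P = (tN n e M' p hb hnM)⁻¹ := by
  unfold coordAt
  exact if_neg h0

/-- `cSet1` in chart 0 is the local ring of the first component at the centre. -/
theorem cSet1_eq₀ {P : Place Qbar ↥(Fbar (M' * p))} (h0 : (S0N L).InChart P) (y : Ft M' A) :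
    y ∈ cSet1 n e M' p hb hnM A (tN n e M' p hb hnM) P ↔
      y ∈ cSubring ((S0N L).chi P h0) (S0N L).ρ₁ := by
  constructor
  · rintro ⟨a, ha, d, hd, haO, hdO, hdP, -, hinv, hne, he⟩
    exact ⟨⟨a, ha⟩, ⟨d, hd⟩, (chi_ne_zero_iff (S0N L) P h0 ⟨d, hd⟩).2 ⟨hinv, hne⟩, he⟩
  · rintro ⟨a, d, hχ, he⟩
    obtain ⟨hinv, hne⟩ := (chi_ne_zero_iff (S0N L) P h0 d).1 hχ
    exact ⟨a, a.2, d, d.2, GN_le_O1 M' p A (L.h0 _ a.2), GN_le_O1 M' p A (L.h0 _ d.2),
      (S0N L).mem_place P h0 d d.2, (S0N L).val_mem P h0 d d.2, hinv, hne, he⟩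

/-- `cSet2` in chart 0 is the local ring of the second component at the centre. -/
theorem cSet2_eq₀ {P : Place Qbar ↥(Fbar (M' * p))} (h0 : (S0N L).InChart P) (y : Ft M' A) :
    y ∈ cSet2 n e M' p hb hnM A (tN n e M' p hb hnM) P ↔
      y ∈ cSubring ((S0N L).chi P h0) (S0N L).ρ₂ := by
  constructor
  · rintro ⟨a, ha, d, hd, haO, hdO, hdP, -, hinv, hne, he⟩
    exact ⟨⟨a, ha⟩, ⟨d, hd⟩, (chi_ne_zero_iff (S0N L) P h0 ⟨d, hd⟩).2 ⟨hinv, hne⟩, he⟩
  · rintro ⟨a, d, hχ, he⟩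
    obtain ⟨hinv, hne⟩ := (chi_ne_zero_iff (S0N L) P h0 d).1 hχ
    exact ⟨a, a.2, d, d.2, GN_le_O2 M' p A (L.h0 _ a.2), GN_le_O2 M' p A (L.h0 _ d.2),
      (S0N L).mem_place P h0 d d.2, (S0N L).val_mem P h0 d d.2, hinv, hne, he⟩

/-- `cSet1` in chart 1. -/
theorem cSet1_eq₁ {P : Place Qbar ↥(Fbar (M' * p))} (h1 : (S1N L).InChart P) (y : Ft M' A) :
    y ∈ cSet1 n e M' p hb hnM A (tN n e M' p hb hnM)⁻¹ P ↔
      y ∈ cSubring ((S1N L).chi P h1) (S1N L).ρ₁ := by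
  constructor
  · rintro ⟨a, ha, d, hd, haO, hdO, hdP, -, hinv, hne, he⟩
    exact ⟨⟨a, ha⟩, ⟨d, hd⟩, (chi_ne_zero_iff (S1N L) P h1 ⟨d, hd⟩).2 ⟨hinv, hne⟩, he⟩
  · rintro ⟨a, d, hχ, he⟩
    obtain ⟨hinv, hne⟩ := (chi_ne_zero_iff (S1N L) P h1 d).1 hχ
    exact ⟨a, a.2, d, d.2, GN_le_O1 M' p A (L.h1 _ a.2), GN_le_O1 M' p A (L.h1 _ d.2),
      (S1N L).mem_place P h1 d d.2, (S1N L).val_mem P h1 d d.2, hinv, hne, he⟩

/-- `cSet2` in chart 1. -/
theorem cSet2_eq₁ {P : Place Qbar ↥(Fbar (M' * p))} (h1 : (S1N L).InChart P) (y : Ft M' A) :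
    y ∈ cSet2 n e M' p hb hnM A (tN n e M' p hb hnM)⁻¹ P ↔
      y ∈ cSubring ((S1N L).chi P h1) (S1N L).ρ₂ := by
  constructor
  · rintro ⟨a, ha, d, hd, haO, hdO, hdP, -, hinv, hne, he⟩
    exact ⟨⟨a, ha⟩, ⟨d, hd⟩, (chi_ne_zero_iff (S1N L) P h1 ⟨d, hd⟩).2 ⟨hinv, hne⟩, he⟩
  · rintro ⟨a, d, hχ, he⟩
    obtain ⟨hinv, hne⟩ := (chi_ne_zero_iff (S1N L) P h1 d).1 hχ
    exact ⟨a, a.2, d, d.2, GN_le_O2 M' p A (L.h1 _ a.2), GN_le_O2 M' p A (L.h1 _ d.2),
      (S1N L).mem_place P h1 d d.2, (S1N L).val_mem P h1 d d.2, hinv, hne, he⟩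

/-- `IsR2` in chart 0. -/
theorem isR2_iff₀ {P : Place Qbar ↥(Fbar (M' * p))} (h0 : (S0N L).InChart P)
    (X : Place (kA A) (Ft M' A)) :
    IsR2 n e M' p hb hnM A P X ↔
      ∀ y, y ∈ X.toValuationSubring ↔ y ∈ cSubring ((S0N L).chi P h0) (S0N L).ρ₂ := by
  unfold IsR2
  rw [coordAt_of_inChart L h0]
  exact forall_congr' fun y => by rw [cSet2_eq₀ L h0 y]

/-- `IsR2` outside chart 0. -/
theorem isR2_iff₁ {P : Place Qbar ↥(Fbar (M' * p))} (h0 : ¬ (S0N L).InChart P)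
    (h1 : (S1N L).InChart P) (X : Place (kA A) (Ft M' A)) :
    IsR2 n e M' p hb hnM A P X ↔
      ∀ y, y ∈ X.toValuationSubring ↔ y ∈ cSubring ((S1N L).chi P h1) (S1N L).ρ₂ := by
  unfold IsR2
  rw [coordAt_of_not_inChart L h0]
  exact forall_congr' fun y => by rw [cSet2_eq₁ L h1 y]

/-- `IsR1` in chart 0. -/
theorem isR1_iff₀ {P : Place Qbar ↥(Fbar (M' * p))} (h0 : (S0N L).InChart P)
    (X : Place (kA A) (Ft M' A)) :
    IsR1 n e M' p hb hnM A P X ↔
      ∀ y, y ∈ X.toValuationSubring ↔ y ∈ cSubring ((S0N L).chi P h0) (S0N L).ρ₁ := by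
  unfold IsR1
  rw [coordAt_of_inChart L h0]
  exact forall_congr' fun y => by rw [cSet1_eq₀ L h0 y]

/-- `IsR1` outside chart 0. -/
theorem isR1_iff₁ {P : Place Qbar ↥(Fbar (M' * p))} (h0 : ¬ (S0N L).InChart P)
    (h1 : (S1N L).InChart P) (X : Place (kA A) (Ft M' A)) :
    IsR1 n e M' p hb hnM A P X ↔
      ∀ y, y ∈ X.toValuationSubring ↔ y ∈ cSubring ((S1N L).chi P h1) (S1N L).ρ₁ := by
  unfold IsR1
  rw [coordAt_of_not_inChart L h0]
  exact forall_congr' fun y => by rw [cSet1_eq₁ L h1 y]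

end Dict

/-! ### §2 the nodes -/

variable (n e M' p hpM hb hnM A hA) in
/-- **the branch-1 leaves**: `r1 P = rV (resAlpha P)` is the point of the first component at the
centre of `P`, for every centre ON the first component. -/
structure R1Leaves (L : ChartLeaves n e M' p hb hnM A) : Prop where
  r1₀ : ∀ (P : Place Qbar ↥(Fbar (M' * p))) (h0 : (S0N L).InChart P), (S0N L).On₁ P h0 →
    ∀ y, y ∈ (r1 n e M' p hpM hb hnM A hA P).toValuationSubring ↔
      y ∈ cSubring ((S0N L).chi P h0) (S0N L).ρ₁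
  r1₁ : ∀ (P : Place Qbar ↥(Fbar (M' * p))) (h1 : (S1N L).InChart P), (S1N L).On₁ P h1 →
    ∀ y, y ∈ (r1 n e M' p hpM hb hnM A hA P).toValuationSubring ↔
      y ∈ cSubring ((S1N L).chi P h1) (S1N L).ρ₁

section R1

variable {L : ChartLeaves n e M' p hb hnM A} (R : R1Leaves n e M' p hpM hb hnM A hA L)

include R in
/-- (VAL) + (PIR) at the centres of chart 0 lying on the first component only. -/
theorem places₁0_of : (S0N L).HasPlaces₁ :=
  hasPlaces₁_of_ident (S0N L) (r1 n e M' p hpM hb hnM A hA) fun P hP h1 _ => R.r1₀ P hP h1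

include R in
/-- (VAL) + (PIR) at the centres of chart 1 lying on the first component only. -/
theorem places₁1_of : (S1N L).HasPlaces₁ :=
  hasPlaces₁_of_ident (S1N L) (r1 n e M' p hpM hb hnM A hA) fun P hP h1 _ => R.r1₁ P hP h1

include R in
/-- **`PlaceLeaves` from the branch-1 leaves** and the remaining named leaves. -/
theorem placeLeaves_of (h₂0 : (S0N L).HasPlaces₂) (h₂1 : (S1N L).HasPlaces₂)
    (htr₁ : Transcendental (kA A) ((S0N L).ρ₁ (S0N L).sB))
    (htr₂ : Transcendental (kA A) ((S0N L).ρ₂ (S0N L).sB))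
    (hnn : ∀ (P : Place Qbar ↥(Fbar (M' * p))) (h1 : (S1N L).InChart P), ¬ (S0N L).InChart P →
      ¬ ((S1N L).On₁ P h1 ∧ (S1N L).On₂ P h1))
    (hfin : Finite ↥(nodeCentres (S0N L))) : PlaceLeaves L where
  places₁0 := places₁0_of R
  places₂0 := h₂0
  places₁1 := places₁1_of R
  places₂1 := h₂1
  tr₁ := htr₁
  tr₂ := htr₂
  no_node1 := hnn
  fin := hfin

end R1

section Nodes

variable {L : ChartLeaves n e M' p hb hnM A} (L' : PlaceLeaves L)
  (R : R1Leaves n e M' p hpM hb hnM A hA L)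

include L' in
/-- a place in neither `W₁` nor `W₂` is centred at a two-component point of chart 0. -/
theorem node_of_not_inW {P : Place Qbar ↥(Fbar (M' * p))} (h1 : ¬ InW1 n e M' p hb hnM A P)
    (h2 : ¬ InW2 n e M' p hb hnM A P) :
    ∃ h0 : (S0N L).InChart P, (S0N L).On₁ P h0 ∧ (S0N L).On₂ P h0 := by
  by_cases h0 : (S0N L).InChart P
  · refine ⟨h0, ?_, ?_⟩
    · by_contra hc
      exact h2 (inW2_of_not_on₁_0 L h0 hc)
    · by_contra hc
      exact h1 (inW1_of_not_on₂_0 L h0 hc)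
  · exfalso
    have h1c : (S1N L).InChart P := ((TN L').inChart_or P).resolve_left h0
    refine L'.no_node1 P h1c h0 ⟨?_, ?_⟩
    · by_contra hc
      exact h2 (inW2_of_not_on₁_1 L h1c hc)
    · by_contra hc
      exact h1 (inW1_of_not_on₂_1 L h1c hc)

include L' in
/-- a place centred at a two-component point of chart 0 is in neither `W₁` nor `W₂`. -/
theorem not_inW_of_node {P : Place Qbar ↥(Fbar (M' * p))} (h0 : (S0N L).InChart P)
    (h1 : (S0N L).On₁ P h0) (h2 : (S0N L).On₂ P h0) :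
    ¬ InW1 n e M' p hb hnM A P ∧ ¬ InW2 n e M' p hb hnM A P := by
  constructor
  · intro h
    rcases (inW1_iff L P).1 h with ⟨h0', hn⟩ | ⟨h1c, hn⟩
    · exact hn h2
    · exact hn (((TN L').on₂_iff P h0 h1c).1 h2)
  · intro h
    rcases (inW2_iff L P).1 h with ⟨h0', hn⟩ | ⟨h1c, hn⟩
    · exact hn h1
    · exact hn (((TN L').on₁_iff P h0 h1c).1 h1)

include R in
/-- two centres of chart 0 on the first component with the same point `r1` coincide. -/
theorem chi_eq_of_r1_eq {P P' : Place Qbar ↥(Fbar (M' * p))} (h0 : (S0N L).InChart P)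
    (h0' : (S0N L).InChart P') (h1 : (S0N L).On₁ P h0) (h1' : (S0N L).On₁ P' h0')
    (he : r1 n e M' p hpM hb hnM A hA P = r1 n e M' p hpM hb hnM A hA P') :
    (S0N L).chi P h0 = (S0N L).chi P' h0' :=
  chi_eq_of_cSubring_eq ((S0N L).isCentre₁ P h0 h1) ((S0N L).isCentre₁ P' h0' h1')
    (r1 n e M' p hpM hb hnM A hA P) (R.r1₀ P h0 h1) (by rw [he]; exact R.r1₀ P' h0' h1')

include R in
/-- the point `r1` depends only on the centre. -/
theorem r1_eq_of_chi_eq {P P' : Place Qbar ↥(Fbar (M' * p))} (h0 : (S0N L).InChart P)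
    (h0' : (S0N L).InChart P') (h1 : (S0N L).On₁ P h0)
    (he : (S0N L).chi P h0 = (S0N L).chi P' h0') :
    r1 n e M' p hpM hb hnM A hA P = r1 n e M' p hpM hb hnM A hA P' := by
  have h1' : (S0N L).On₁ P' h0' := fun b hb' => by rw [← he]; exact h1 b hb'
  apply place_eq_of_mem_iff
  intro y
  rw [R.r1₀ P h0 h1 y, R.r1₀ P' h0' h1' y, he]

include R in
/-- the point `r2` depends only on the centre. -/
theorem r2_eq_of_chi_eq {P P' : Place Qbar ↥(Fbar (M' * p))} (h0 : (S0N L).InChart P)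
    (h0' : (S0N L).InChart P') (h1 : (S0N L).On₁ P h0)
    (he : (S0N L).chi P h0 = (S0N L).chi P' h0') :
    r2 n e M' p hpM hb hnM A hA P = r2 n e M' p hpM hb hnM A hA P' := by
  have hiff : ∀ X, IsR2 n e M' p hb hnM A P X ↔ IsR2 n e M' p hb hnM A P' X := fun X => by
    rw [isR2_iff₀ L h0, isR2_iff₀ L h0', he]
  by_cases hX : ∃ X, IsR2 n e M' p hb hnM A P X
  · obtain ⟨X, hX⟩ := hX
    rw [r2_eq n e M' p hpM hb hnM A hA hX, r2_eq n e M' p hpM hb hnM A hA ((hiff X).1 hX)]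
  · have hX' : ¬ ∃ X, IsR2 n e M' p hb hnM A P' X := fun ⟨X, h⟩ => hX ⟨X, (hiff X).2 h⟩
    unfold r2
    rw [dif_neg hX, dif_neg hX']
    exact r1_eq_of_chi_eq R h0 h0' h1 he

/-- the map from two-component centres to node pairs. -/
def pairOf (χ : ↥(nodeCentres (S0N L))) :
    Place (kA A) (Ft M' A) × Place (kA A) (Ft M' A) :=
  (r1 n e M' p hpM hb hnM A hA χ.2.choose, r2 n e M' p hpM hb hnM A hA χ.2.choose)

include L' R in
/-- every node pair is the pair of a two-component centre. -/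
theorem nodePairs_subset :
    nodePairs n e M' p hpM hb hnM A hA ⊆
      Set.range (pairOf (hpM := hpM) (hA := hA) (L := L)) := by
  rintro x ⟨P, h1, h2, rfl⟩
  obtain ⟨h0, hon₁, hon₂⟩ := node_of_not_inW L' h1 h2
  refine ⟨⟨(S0N L).chi P h0, P, h0, hon₁, hon₂, rfl⟩, ?_⟩
  set χ : ↥(nodeCentres (S0N L)) := ⟨(S0N L).chi P h0, P, h0, hon₁, hon₂, rfl⟩ with hχ
  obtain ⟨h0', hon₁', -, he⟩ := χ.2.choose_spec
  have he' : (S0N L).chi χ.2.choose h0' = (S0N L).chi P h0 := he.symm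
  show (r1 n e M' p hpM hb hnM A hA χ.2.choose, r2 n e M' p hpM hb hnM A hA χ.2.choose) = _
  rw [r1_eq_of_chi_eq R h0' h0 hon₁' he', r2_eq_of_chi_eq R h0' h0 hon₁' he']

include L' R in
/-- **there are finitely many node pairs.** -/
theorem finite_nodePairs : Finite ↥(nodePairs n e M' p hpM hb hnM A hA) := by
  haveI := L'.fin
  exact Set.Finite.subset (Set.finite_range _) (nodePairs_subset L' R)

end Nodes

/-! ### §3 the model with the nodes enumerated by `nodeFin`, and `T.r = rN` -/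

section Model

variable {L : ChartLeaves n e M' p hb hnM A} (L' : PlaceLeaves L)
  (R : R1Leaves n e M' p hpM hb hnM A hA L)

/-- a place through the `j`-th node. -/
def nodePt (j : Fin (sN n e M' p hpM hb hnM A hA)) : Place Qbar ↥(Fbar (M' * p)) :=
  (nodeFin n e M' p hpM hb hnM A hA j).2.choose

theorem nodePt_spec (j : Fin (sN n e M' p hpM hb hnM A hA)) :
    ¬ InW1 n e M' p hb hnM A (nodePt (hpM := hpM) (hA := hA) j) ∧
      ¬ InW2 n e M' p hb hnM A (nodePt (hpM := hpM) (hA := hA) j) ∧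
        (nodeFin n e M' p hpM hb hnM A hA j).1 =
          (r1 n e M' p hpM hb hnM A hA (nodePt (hpM := hpM) (hA := hA) j),
            r2 n e M' p hpM hb hnM A hA (nodePt (hpM := hpM) (hA := hA) j)) :=
  (nodeFin n e M' p hpM hb hnM A hA j).2.choose_spec

include L' in
theorem nodePt_node (j : Fin (sN n e M' p hpM hb hnM A hA)) :
    ∃ h0 : (S0N L).InChart (nodePt (hpM := hpM) (hA := hA) j),
      (S0N L).On₁ (nodePt (hpM := hpM) (hA := hA) j) h0 ∧
        (S0N L).On₂ (nodePt (hpM := hpM) (hA := hA) j) h0 :=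
  node_of_not_inW L' (nodePt_spec j).1 (nodePt_spec j).2.1

/-- the centre of the `j`-th node. -/
def nodeChiR (j : Fin (sN n e M' p hpM hb hnM A hA)) : ↥(S0N L).B →+* kA A :=
  (S0N L).chi (nodePt (hpM := hpM) (hA := hA) j) (nodePt_node L' j).choose

include L' R in
/-- the index of the node pair of a two-component centre. -/
theorem exists_nodeFin_eq {P : Place Qbar ↥(Fbar (M' * p))} (h0 : (S0N L).InChart P)
    (h1 : (S0N L).On₁ P h0) (h2 : (S0N L).On₂ P h0) :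
    ∃ j : Fin (sN n e M' p hpM hb hnM A hA),
      (nodeFin n e M' p hpM hb hnM A hA j).1 =
        (r1 n e M' p hpM hb hnM A hA P, r2 n e M' p hpM hb hnM A hA P) := by
  haveI : Finite ↥(nodePairs n e M' p hpM hb hnM A hA) := finite_nodePairs L' R
  obtain ⟨hn1, hn2⟩ := not_inW_of_node L' h0 h1 h2
  refine ⟨Finite.equivFin ↥(nodePairs n e M' p hpM hb hnM A hA)
    ⟨(r1 n e M' p hpM hb hnM A hA P, r2 n e M' p hpM hb hnM A hA P), P, hn1, hn2, rfl⟩, ?_⟩
  unfold nodeFin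
  rw [Equiv.symm_apply_apply]

include R in
/-- a place through a two-component centre with the node pair `nodeFin j` has the centre
`nodeChiR j`. -/
theorem chi_eq_nodeChiR {P : Place Qbar ↥(Fbar (M' * p))} (h0 : (S0N L).InChart P)
    (h1 : (S0N L).On₁ P h0) (j : Fin (sN n e M' p hpM hb hnM A hA))
    (he : (nodeFin n e M' p hpM hb hnM A hA j).1 =
      (r1 n e M' p hpM hb hnM A hA P, r2 n e M' p hpM hb hnM A hA P)) :
    (S0N L).chi P h0 = nodeChiR L' j := by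
  obtain ⟨hon₁, -⟩ := (nodePt_node L' j).choose_spec
  have h3 := (nodePt_spec (hpM := hpM) (hA := hA) j).2.2
  rw [he] at h3
  exact chi_eq_of_r1_eq R h0 _ h1 hon₁ (congrArg Prod.fst h3)

/-- **THE NODAL TWO-CHART MODEL OF THE INSTANCE, nodes enumerated by `nodeFin`.** -/
def TR : TwoChartsN A (hxN n e M' p hb hnM) (Ft M' A) (Ft M' A)
    (sN n e M' p hpM hb hnM A hA) where
  S0 := S0N L
  S1 := S1N L
  s_ne := (TN L').s_ne
  s_inv := rfl
  red_s_mul := (TN L').red_s_mul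
  ov0 := (TN L').ov0
  ov1 := (TN L').ov1
  places₁0 := L'.places₁0
  places₂0 := L'.places₂0
  places₁1 := L'.places₁1
  places₂1 := L'.places₂1
  tr₁ := L'.tr₁
  tr₂ := L'.tr₂
  nodeChi := nodeChiR L'
  node_on₁ := fun j b hb' => (nodePt_node L' j).choose_spec.1 b hb'
  node_on₂ := fun j b hb' => (nodePt_node L' j).choose_spec.2 b hb'
  node_ex := fun P h0 h1 h2 => by
    obtain ⟨j, hj⟩ := exists_nodeFin_eq L' R h0 h1 h2
    exact ⟨j, chi_eq_nodeChiR L' R h0 h1 j hj⟩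
  node_inj := fun j j' h => by
    obtain ⟨hon₁, -⟩ := (nodePt_node L' j).choose_spec
    have e1 := r1_eq_of_chi_eq R (nodePt_node L' j).choose (nodePt_node L' j').choose hon₁ h
    have e2 := r2_eq_of_chi_eq R (nodePt_node L' j).choose (nodePt_node L' j').choose hon₁ h
    have h3 : (nodeFin n e M' p hpM hb hnM A hA j).1 = (nodeFin n e M' p hpM hb hnM A hA j').1 := by
      rw [(nodePt_spec (hpM := hpM) (hA := hA) j).2.2,
        (nodePt_spec (hpM := hpM) (hA := hA) j').2.2, e1, e2]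
    have h4 : nodeFin n e M' p hpM hb hnM A hA j = nodeFin n e M' p hpM hb hnM A hA j' :=
      Subtype.ext h3
    haveI : Finite ↥(nodePairs n e M' p hpM hb hnM A hA) := finite_nodePairs L' R
    unfold nodeFin at h4
    exact (Finite.equivFin ↥(nodePairs n e M' p hpM hb hnM A hA)).symm.injective h4
  no_node1 := L'.no_node1

@[simp] theorem TR_S0 : (TR L' R).S0 = S0N L := rfl

@[simp] theorem TR_S1 : (TR L' R).S1 = S1N L := rfl

theorem TR_nodeChi : (TR L' R).nodeChi = nodeChiR L' := rfl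

/-- **`T.r = rN`.** -/
theorem TR_r (P : Place Qbar ↥(Fbar (M' * p))) :
    (TR L' R).r P = rN n e M' p hpM hb hnM A hA P := by
  by_cases hW1 : InW1 n e M' p hb hnM A P
  · -- first component
    rw [rN_of_inW1 n e M' p hpM hb hnM A hA hW1]
    apply (TR L' R).r_eq_of_redTo₁
    rcases (inW1_iff L P).1 hW1 with ⟨h0, hn⟩ | ⟨h1c, hn⟩
    · have hon₁ : (S0N L).On₁ P h0 := ((S0N L).on₁_or_on₂ P h0).resolve_right hn
      exact Or.inl ⟨h0, hon₁, hn, R.r1₀ P h0 hon₁⟩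
    · have hon₁ : (S1N L).On₁ P h1c := ((S1N L).on₁_or_on₂ P h1c).resolve_right hn
      by_cases h0 : (S0N L).InChart P
      · have hon₁' : (S0N L).On₁ P h0 := ((TR L' R).on₁_iff P h0 h1c).2 hon₁
        have hn' : ¬ (S0N L).On₂ P h0 := fun h => hn (((TR L' R).on₂_iff P h0 h1c).1 h)
        exact Or.inl ⟨h0, hon₁', hn', R.r1₀ P h0 hon₁'⟩
      · exact Or.inr ⟨h1c, hon₁, hn, R.r1₁ P h1c hon₁⟩
  · by_cases hW2 : InW2 n e M' p hb hnM A P
    · -- second component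
      rw [rN_of_inW2 n e M' p hpM hb hnM A hA hW1 hW2]
      apply (TR L' R).r_eq_of_redTo₂
      by_cases h0 : (S0N L).InChart P
      · have hon₂ : (S0N L).On₂ P h0 := by
          by_contra hc
          exact hW1 (inW1_of_not_on₂_0 L h0 hc)
        have hn : ¬ (S0N L).On₁ P h0 := by
          rcases (inW2_iff L P).1 hW2 with ⟨h0', hn⟩ | ⟨h1c, hn⟩
          · exact hn
          · exact fun h => hn (((TR L' R).on₁_iff P h0 h1c).1 h)
        have hX : IsR2 n e M' p hb hnM A P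
            (NodalChart.rAt₂ P h0 L'.places₂0 L'.tr₂ hon₂ hn) :=
          (isR2_iff₀ L h0 _).2 fun y => NodalChart.mem_rAt₂_iff P h0 L'.places₂0 L'.tr₂ hon₂ hn y
        rw [r2_eq n e M' p hpM hb hnM A hA hX]
        exact Or.inl ⟨h0, hon₂, hn, fun y => Iff.rfl⟩
      · have h1c : (S1N L).InChart P := ((TR L' R).inChart_or P).resolve_left h0
        have hon₂ : (S1N L).On₂ P h1c := by
          by_contra hc
          exact hW1 (inW1_of_not_on₂_1 L h1c hc)
        have hn : ¬ (S1N L).On₁ P h1c := fun h => L'.no_node1 P h1c h0 ⟨h, hon₂⟩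
        have hX : IsR2 n e M' p hb hnM A P
            (NodalChart.rAt₂ P h1c L'.places₂1 (TR L' R).tr₂1 hon₂ hn) :=
          (isR2_iff₁ L h0 h1c _).2 fun y =>
            NodalChart.mem_rAt₂_iff P h1c L'.places₂1 (TR L' R).tr₂1 hon₂ hn y
        rw [r2_eq n e M' p hpM hb hnM A hA hX]
        exact Or.inr ⟨h1c, hon₂, hn, fun y => Iff.rfl⟩
    · -- node
      obtain ⟨h0, hon₁, hon₂⟩ := node_of_not_inW L' hW1 hW2
      have hfin : Finite ↥(nodePairs n e M' p hpM hb hnM A hA) := finite_nodePairs L' R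
      have hrN : rN n e M' p hpM hb hnM A hA P =
          Sum.inr (haveI := hfin; Finite.equivFin ↥(nodePairs n e M' p hpM hb hnM A hA)
            ⟨(r1 n e M' p hpM hb hnM A hA P, r2 n e M' p hpM hb hnM A hA P), P, hW1, hW2,
              rfl⟩) := by
        unfold rN
        rw [dif_neg hW1, dif_neg hW2, dif_pos hfin]
        rfl
      rw [hrN]
      apply (TR L' R).r_eq_of_redToNode
      refine ⟨h0, ?_⟩
      apply chi_eq_nodeChiR L' R h0 hon₁
      haveI := hfin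
      unfold nodeFin
      rw [Equiv.symm_apply_apply]

/-- (VAL) + (PIR) on the first branch at the node centres, from the branch-1 leaves. -/
theorem nodeVal₁_of (j : Fin (sN n e M' p hpM hb hnM A hA)) :
    ∃ hval : Val ((TR L' R).nodeChi j) (TR L' R).S0.ρ₁,
      IsPrincipalIdealRing ↥(cVS ((TR L' R).nodeChi j) (TR L' R).S0.ρ₁ hval) := by
  obtain ⟨hon₁, -⟩ := (nodePt_node L' j).choose_spec
  have hD := R.r1₀ (nodePt (hpM := hpM) (hA := hA) j) (nodePt_node L' j).choose hon₁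
  have hval : Val ((TR L' R).nodeChi j) (TR L' R).S0.ρ₁ := fun y => by
    rcases (r1 n e M' p hpM hb hnM A hA
      (nodePt (hpM := hpM) (hA := hA) j)).toValuationSubring.mem_or_inv_mem y with h | h
    · exact Or.inl ((hD y).1 h)
    · exact Or.inr ((hD y⁻¹).1 h)
  refine ⟨hval, ?_⟩
  have he : cVS ((TR L' R).nodeChi j) (TR L' R).S0.ρ₁ hval =
      (r1 n e M' p hpM hb hnM A hA (nodePt (hpM := hpM) (hA := hA) j)).toValuationSubring := by
    ext y
    exact (hD y).symm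
  rw [he]
  exact (r1 n e M' p hpM hb hnM A hA (nodePt (hpM := hpM) (hA := hA) j)).isPrincipalIdealRing'

/-- **`NodeVal (TR L' R)`** from (VAL) + (PIR) on the second branch at the node centres. -/
theorem nodeVal_of
    (h₂ : ∀ j : Fin (sN n e M' p hpM hb hnM A hA),
      ∃ hval : Val ((TR L' R).nodeChi j) (TR L' R).S0.ρ₂,
        IsPrincipalIdealRing ↥(cVS ((TR L' R).nodeChi j) (TR L' R).S0.ρ₂ hval)) :
    NodeVal (TR L' R) where
  val₁ := nodeVal₁_of L' R
  val₂ := h₂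

/-- `NodeVal (TR L' R)` from the EXISTENCE of the branch-2 places at the centres of chart 0 lying
on the second component. -/
theorem nodeVal_of_exists
    (h₂ : ∀ (P : Place Qbar ↥(Fbar (M' * p))) (hP : (S0N L).InChart P), (S0N L).On₁ P hP →
      (S0N L).On₂ P hP →
      ∃ X : Place (kA A) (Ft M' A), ∀ y, y ∈ X.toValuationSubring ↔
        y ∈ cSubring ((S0N L).chi P hP) (S0N L).ρ₂) :
    NodeVal (TR L' R) :=
  nodeVal_of L' R fun j =>
    val_pir_of_exists (h₂ (nodePt (hpM := hpM) (hA := hA) j) (nodePt_node L' j).choose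
      (nodePt_node L' j).choose_spec.1 (nodePt_node L' j).choose_spec.2)

/-- every node of `TR` is the centre of a place. -/
theorem nodesReal_TR : NodesReal (TR L' R) := fun j =>
  ⟨nodePt (hpM := hpM) (hA := hA) j, (nodePt_node L' j).choose, rfl⟩

/-! ### §4 the node fields of `NodalRedCtx`, at `rN` and `nodesN` -/

theorem ν₁_eq (j : Fin (sN n e M' p hpM hb hnM A hA)) :
    (nodesN n e M' p hpM hb hnM A hA).ν₁ j =
      r1 n e M' p hpM hb hnM A hA (nodePt (hpM := hpM) (hA := hA) j) :=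
  congrArg Prod.fst (nodePt_spec (hpM := hpM) (hA := hA) j).2.2

theorem ν₂_eq (j : Fin (sN n e M' p hpM hb hnM A hA)) :
    (nodesN n e M' p hpM hb hnM A hA).ν₂ j =
      r2 n e M' p hpM hb hnM A hA (nodePt (hpM := hpM) (hA := hA) j) :=
  congrArg Prod.snd (nodePt_spec (hpM := hpM) (hA := hA) j).2.2

section Ctx

variable (h₂ : ∀ (P : Place Qbar ↥(Fbar (M' * p))) (hP : (S0N L).InChart P), (S0N L).On₁ P hP →
  (S0N L).On₂ P hP →
  ∃ X : Place (kA A) (Ft M' A), ∀ y, y ∈ X.toValuationSubring ↔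
    y ∈ cSubring ((S0N L).chi P hP) (S0N L).ρ₂)

include h₂ in
/-- **the node places `nodesN` of `NodalDefs3` are the two branches of the nodes of `TR`.** -/
theorem nodePlaces_nodesN : NodePlaces (TR L' R) (nodesN n e M' p hpM hb hnM A hA) where
  val₁ j b := by
    obtain ⟨hon₁, -⟩ := (nodePt_node L' j).choose_spec
    rw [ν₁_eq]
    exact valAt_of_isCentre ((S0N L).isCentre₁ _ _ hon₁) _ (R.r1₀ _ _ hon₁) b
  val₂ j b := by
    obtain ⟨hon₁, hon₂⟩ := (nodePt_node L' j).choose_spec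
    obtain ⟨X, hX⟩ := h₂ _ (nodePt_node L' j).choose hon₁ hon₂
    have hR2 : IsR2 n e M' p hb hnM A (nodePt (hpM := hpM) (hA := hA) j) X :=
      (isR2_iff₀ L (nodePt_node L' j).choose X).2 hX
    rw [ν₂_eq, r2_eq n e M' p hpM hb hnM A hA hR2]
    exact valAt_of_isCentre ((S0N L).isCentre₂ _ _ hon₂) X hX b

include L' R h₂ in
/-- the field `nodes_inj` of `GeoNames23.NodalInstHyp` at `nodesN`. -/
theorem nodesN_inj : Function.Injective (nodesN n e M' p hpM hb hnM A hA).ν₁ :=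
  ν₁_injective_of_nodePlaces (nodePlaces_nodesN L' R h₂)

include L' R h₂ in
/-- **`RedCtxN.smooth`** at `rN`, `nodesN`. -/
theorem smooth_rN (P : Place Qbar ↥(Fbar (M' * p))) (Q : SPt (kA A) (Ft M' A) (Ft M' A))
    (h : rN n e M' p hpM hb hnM A hA P = Sum.inl Q) :
    (nodesN n e M' p hpM hb hnM A hA).IsSmooth Q :=
  smooth (nodePlaces_nodesN L' R h₂) P Q (by rw [TR_r]; exact h)

include L' R h₂ in
/-- **`RedCtxN.glue`** at `rN`, `nodesN`. -/
theorem glue_rN (hG : GaussExt (TR L' R) (GN M' p A) (redN M' p A)) (g : ↥(GN M' p A))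
    (j : Fin (sN n e M' p hpM hb hnM A hA))
    (h : ∀ P : Place Qbar ↥(Fbar (M' * p)), rN n e M' p hpM hb hnM A hA P = Sum.inr j →
      0 ≤ P.ord (g : ↥(Fbar (M' * p)))) :
    (nodesN n e M' p hpM hb hnM A hA).GluedAt (redN M' p A g) j :=
  glue (nodePlaces_nodesN L' R h₂) hG g j fun P hP => h P (by rw [← TR_r L' R]; exact hP)

include L' R h₂ in
/-- **`RedCtxN.glue_unit`** at `rN`, `nodesN`. -/
theorem glue_unit_rN (hG : GaussExt (TR L' R) (GN M' p A) (redN M' p A)) (g : ↥(GN M' p A))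
    (j : Fin (sN n e M' p hpM hb hnM A hA))
    (h : ∀ P : Place Qbar ↥(Fbar (M' * p)), rN n e M' p hpM hb hnM A hA P = Sum.inr j →
      P.ord (g : ↥(Fbar (M' * p))) = 0)
    (h1 : (redN M' p A g).1 ≠ 0) (h2 : (redN M' p A g).2 ≠ 0) :
    ∃ c : kA A, c ≠ 0 ∧ ValAt ((nodesN n e M' p hpM hb hnM A hA).ν₁ j) (redN M' p A g).1 c ∧
      ValAt ((nodesN n e M' p hpM hb hnM A hA).ν₂ j) (redN M' p A g).2 c :=
  glue_unit (nodePlaces_nodesN L' R h₂) hG g j
    (fun P hP => h P (by rw [← TR_r L' R]; exact hP)) h1 h2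

end Ctx

/-- `GaussExt` for `TR` from `inv_mem` and (HARTOGS_j) in the `rN`-literal. -/
theorem gaussExt_TR
    (inv_mem : ∀ g : ↥(GN M' p A), (redN M' p A g).1 ≠ 0 → (redN M' p A g).2 ≠ 0 →
      (g : ↥(Fbar (M' * p)))⁻¹ ∈ GN M' p A)
    (hartogs : ∀ (j : Fin (sN n e M' p hpM hb hnM A hA)) (g : ↥(GN M' p A)),
      (∀ P : Place Qbar ↥(Fbar (M' * p)), rN n e M' p hpM hb hnM A hA P = Sum.inr j →
        0 ≤ P.ord (g : ↥(Fbar (M' * p)))) →
      ∃ a d : ↥(S0N L).B, nodeChiR L' j d ≠ 0 ∧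
        (g : ↥(Fbar (M' * p))) * (d : ↥(Fbar (M' * p))) = (a : ↥(Fbar (M' * p)))) :
    GaussExt (TR L' R) (GN M' p A) (redN M' p A) where
  B0_le := fun b hb' => L.h0 b hb'
  red_ext := fun _ => rfl
  inv_mem := inv_mem
  hartogs := fun j g hg => hartogs j g fun P hP => hg P (by rw [TR_r]; exact hP)

end Model

end Fermat.Agent.ES.W33.TwoChartsNRN20
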