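/-
Programme W (S33), chapter (B3′), (R2) = helper22's RELATIVE COUNT, leaf "(Φ, c2, cN)" at the
instance `(nodesN, rN)` of `W33/NodalDefs3` (helper15, ruling w62 (iii)):
**the two named inputs `c2`, `cN` of helper22's `W33/R2RelInstN22`, LITERALLY, with
`Φ := BranchTwoPhi15.phi M' p A hA wBar`**, from
* helper20's nodal two-chart model `TR L' R` with `TR_r : (TR L' R).r P = rN P` (`TwoChartsNRN20`),
* the ONE named input of w49 `hW : BranchTwoPhi15.FrickeRed M' A wBar`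
  (= `FrickeBar8.isRedOf_frickeBar`: `W_{M'}` induces `wBar` on the residue field of the good level),
* for `cN`: `NodePlaces (TR L' R) (nodesN …)` (helper20's `nodePlaces_nodesN L' R h₂`).

* `alphaB₀ L b`, `alphaB₁ L b` : `α b` as an element of the bad chart rings, `b` in the good ones;
* `chi_alphaB₀/₁` : `χ_P (α b) = χ⁰_{P|α} b`;  `rho2_alphaB₀/₁` : `ρ₂ (α b) = V_p (wBar b̄)`;
* **`rV_resAlpha_eq_phi₀/₁`** : (R1) on branch 2 at `Q₂` in the `ValAt` form ⇒ `rV (resAlpha P) = Φ Q₂`;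
* **`c2_rN`**, **`cN_rN`**, `cN_rN_of_exists`.
-/
import Mathlib
import Fermat.Agent.ES.W33.BranchTwoPhi15
import Fermat.Agent.ES.W33.TwoChartsNRN20

set_option autoImplicit false
set_option synthInstance.maxHeartbeats 400000
set_option linter.unusedSectionVars false

open HahnSeries ModularCurve AlgebraicCurve
open scoped MatrixGroups

noncomputable section

namespace Fermat.Agent.ES.W33.BranchTwoRN15

open Fermat.Agent.RED.Interface4 Fermat.Agent.RED.BASE.Interface12 Fermat.Agent.RED.BASE.Hauptmodul12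
  Fermat.Agent.RED.PUR.ChartGeneric22
  Fermat.Agent.ES.RED.Contract8 Fermat.Agent.ES.RED.ModelInst4 Fermat.Agent.ES.RED.GaussRing15
  Fermat.Agent.ES.RED.PlaceValue13 Fermat.Agent.ES.RED.SpecialInv25
  Fermat.Agent.X0 Fermat.Agent.X0.FF
  Fermat.Agent.ES.V19.GaussFrac15 Fermat.Agent.ES.V19.InstNames3 Fermat.Agent.ES.W33.XiIfaceN29
  Fermat.Agent.ES.W33.NodalDefs3
open Fermat.Agent.ES.W33.CentreN20 Fermat.Agent.ES.W33.NodalChart20 Fermat.Agent.ES.W33.TwoChartsN20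
  Fermat.Agent.ES.W33.NodalGlue20 Fermat.Agent.ES.W33.ValAt29 Fermat.Agent.ES.W33.TwoChartsNInst20
  Fermat.Agent.ES.W33.TwoChartsNRN20 Fermat.Agent.ES.W33.BetaRed15
  Fermat.Agent.ES.W33.BranchTwoPhi15

attribute [local instance 5000] HahnSeries.powerSeriesAlgebra SubalgebraClass.toAlgebra

variable {n e M' : ℕ} [NeZero n] [NeZero M'] {p : ℕ} [Fact p.Prime] {hpM : ¬ p ∣ M'}
  {hb : BaseHyp n e} {hnM : n ∣ M'} {A : ValuationSubring Qbar} {hA : A.LiesOverPrime p}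

section Charts

variable (L : ChartLeaves n e M' p hb hnM A)

/-- `α b` in the bad chart ring 0, for `b` in the good chart ring 0. -/
def alphaB₀ (b : ↥(TV n e M' p hpM hb hnM A hA).S0.B) : ↥(S0N L).B :=
  ⟨alphaN M' p (b : ↥(Fbar M')), alpha_mem_chart₀ n e M' p hb hnM A b.2⟩

/-- `α b` in the bad chart ring 1, for `b` in the good chart ring 1. -/
def alphaB₁ (b : ↥(TV n e M' p hpM hb hnM A hA).S1.B) : ↥(S1N L).B :=
  ⟨alphaN M' p (b : ↥(Fbar M')), alpha_mem_chart₁ n e M' p hb hnM A b.2⟩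

theorem coe_alphaB₀ (b : ↥(TV n e M' p hpM hb hnM A hA).S0.B) :
    ((alphaB₀ L b : ↥(S0N L).B) : ↥(Fbar (M' * p))) = alphaN M' p (b : ↥(Fbar M')) := rfl

theorem coe_alphaB₁ (b : ↥(TV n e M' p hpM hb hnM A hA).S1.B) :
    ((alphaB₁ L b : ↥(S1N L).B) : ↥(Fbar (M' * p))) = alphaN M' p (b : ↥(Fbar M')) := rfl

/-- **value compatibility, chart 0**: `χ_P (α b) = χ⁰_{P|α} b`. -/
theorem chi_alphaB₀ (P : Place Qbar ↥(Fbar (M' * p))) (h0 : (S0N L).InChart P)
    (b : ↥(TV n e M' p hpM hb hnM A hA).S0.B) :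
    (S0N L).chi P h0 (alphaB₀ L b) =
      (TV n e M' p hpM hb hnM A hA).S0.chi (resAlpha M' p P)
        (inChart_resAlpha₀ n e M' p hpM hb hnM A hA P h0) b := by
  rw [NodalChart.chi_apply, ChartSpec.chi_apply]
  congr 1
  apply Subtype.ext
  rw [NodalChart.coe_ev, coe_ev_resAlpha₀ n e M' p hpM hb hnM A hA P _ b
    ((S0N L).mem_place P h0 _ (alphaB₀ L b).2)]
  rfl

/-- **value compatibility, chart 1**. -/
theorem chi_alphaB₁ (P : Place Qbar ↥(Fbar (M' * p))) (h1 : (S1N L).InChart P)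
    (b : ↥(TV n e M' p hpM hb hnM A hA).S1.B) :
    (S1N L).chi P h1 (alphaB₁ L b) =
      (TV n e M' p hpM hb hnM A hA).S1.chi (resAlpha M' p P)
        (inChart_resAlpha₁ n e M' p hpM hb hnM A hA P h1) b := by
  rw [NodalChart.chi_apply, ChartSpec.chi_apply]
  congr 1
  apply Subtype.ext
  rw [NodalChart.coe_ev, coe_ev_resAlpha₁ n e M' p hpM hb hnM A hA P _ b
    ((S1N L).mem_place P h1 _ (alphaB₁ L b).2)]
  rfl

variable {wBar : Ft M' A ≃ₐ[kA A] Ft M' A} (hW : FrickeRed M' A wBar)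

include hW in
/-- **`ρ₂ (α b) = V_p (wBar b̄)`, chart 0.** -/
theorem rho2_alphaB₀ (b : ↥(TV n e M' p hpM hb hnM A hA).S0.B) :
    (S0N L).ρ₂ (alphaB₀ L b) =
      vpFt M' p A hA (wBar ((TV n e M' p hpM hb hnM A hA).S0.red b)) := by
  obtain ⟨h2, h⟩ := rho2_alpha_chart₀ n e p hpM hb hnM hA hW b
  rw [S0N_ρ₂, ← h]
  rfl

include hW in
/-- **`ρ₂ (α b) = V_p (wBar b̄)`, chart 1.** -/
theorem rho2_alphaB₁ (b : ↥(TV n e M' p hpM hb hnM A hA).S1.B) :
    (S1N L).ρ₂ (alphaB₁ L b) =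
      vpFt M' p A hA (wBar ((TV n e M' p hpM hb hnM A hA).S1.red b)) := by
  obtain ⟨h2, h⟩ := rho2_alpha_chart₁ n e p hpM hb hnM hA hW b
  rw [S1N_ρ₂, ← h]
  rfl

include hW in
/-- **branch 2 through `Φ`, chart 0**: if `Q₂` carries the values `χ_P` of the second component
reductions of the bad chart ring, then the restriction of `P` to the good level reduces to `Φ Q₂`. -/
theorem rV_resAlpha_eq_phi₀ (P : Place Qbar ↥(Fbar (M' * p))) (h0 : (S0N L).InChart P)
    (Q₂ : Place (kA A) (Ft M' A))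
    (H : ∀ b : ↥(S0N L).B, ValAt Q₂ ((S0N L).ρ₂ b) ((S0N L).chi P h0 b)) :
    rV n e M' p hpM hb hnM A hA (resAlpha M' p P) = phi M' p A hA wBar Q₂ := by
  refine rV_eq_phi₀ n e M' p hpM hb hnM A hA wBar (resAlpha M' p P)
    (inChart_resAlpha₀ n e M' p hpM hb hnM A hA P h0) Q₂ fun b => ?_
  have h := H (alphaB₀ L b)
  rw [rho2_alphaB₀ L hW b, chi_alphaB₀ L P h0 b] at h
  exact h

include hW in
/-- **branch 2 through `Φ`, chart 1.** -/
theorem rV_resAlpha_eq_phi₁ (P : Place Qbar ↥(Fbar (M' * p))) (h1 : (S1N L).InChart P)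
    (Q₂ : Place (kA A) (Ft M' A))
    (H : ∀ b : ↥(S1N L).B, ValAt Q₂ ((S1N L).ρ₂ b) ((S1N L).chi P h1 b)) :
    rV n e M' p hpM hb hnM A hA (resAlpha M' p P) = phi M' p A hA wBar Q₂ := by
  refine rV_eq_phi₁ n e M' p hpM hb hnM A hA wBar (resAlpha M' p P)
    (inChart_resAlpha₁ n e M' p hpM hb hnM A hA P h1) Q₂ fun b => ?_
  have h := H (alphaB₁ L b)
  rw [rho2_alphaB₁ L hW b, chi_alphaB₁ L P h1 b] at h
  exact h

end Charts

/-! ### the literals `c2`, `cN` of `R2RelInstN22` -/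

section Literals

variable {L : ChartLeaves n e M' p hb hnM A} (L' : PlaceLeaves L)
  (R : R1Leaves n e M' p hpM hb hnM A hA L)
  {wBar : Ft M' A ≃ₐ[kA A] Ft M' A} (hW : FrickeRed M' A wBar)

include L' R hW in
/-- **(c2) at `rN`**: a place reducing to the smooth point `Q₂` of the SECOND branch restricts, along
`α`, to a place of the good level reducing to `Φ Q₂`. -/
theorem c2_rN (P : Place Qbar ↥(Fbar (M' * p))) (Q₂ : Place (kA A) (Ft M' A))
    (h : rN n e M' p hpM hb hnM A hA P = Sum.inl (Sum.inr Q₂)) :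
    rV n e M' p hpM hb hnM A hA (P.restrictAlong (alphaN M' p) (alphaN_isIntegral M' p)) =
      phi M' p A hA wBar Q₂ := by
  rw [← TR_r L' R] at h
  rcases ((TR L' R).r_eq_inl_inr_iff P Q₂).1 h with ⟨h0, h2, -, hQ⟩ | ⟨h1, h2, -, hQ⟩
  · exact rV_resAlpha_eq_phi₀ L hW P h0 Q₂ fun b =>
      valAt_of_redTo₂_0 (T := TR L' R) h0 h2 hQ b
  · exact rV_resAlpha_eq_phi₁ L hW P h1 Q₂ fun b =>
      valAt_of_redTo₂_1 (T := TR L' R) h1 h2 hQ b

include hW in
/-- **(cN) at `nodesN`**: the first branch place of a node is `Φ` of its second branch place. -/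
theorem cN_rN (hN : NodePlaces (TR L' R) (nodesN n e M' p hpM hb hnM A hA))
    (j : Fin (sN n e M' p hpM hb hnM A hA)) :
    (nodesN n e M' p hpM hb hnM A hA).ν₁ j =
      phi M' p A hA wBar ((nodesN n e M' p hpM hb hnM A hA).ν₂ j) := by
  rw [ν₁_eq]
  exact rV_resAlpha_eq_phi₀ L hW (nodePt (hpM := hpM) (hA := hA) j) (nodePt_node L' j).choose _
    fun b => hN.val₂ j b

include L' R hW in
/-- (cN) from the existence of the branch-2 places at the node centres (helper20's `h₂`). -/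
theorem cN_rN_of_exists
    (h₂ : ∀ (P : Place Qbar ↥(Fbar (M' * p))) (hP : (S0N L).InChart P), (S0N L).On₁ P hP →
      (S0N L).On₂ P hP →
      ∃ X : Place (kA A) (Ft M' A), ∀ y, y ∈ X.toValuationSubring ↔
        y ∈ cSubring ((S0N L).chi P hP) (S0N L).ρ₂)
    (j : Fin (sN n e M' p hpM hb hnM A hA)) :
    (nodesN n e M' p hpM hb hnM A hA).ν₁ j =
      phi M' p A hA wBar ((nodesN n e M' p hpM hb hnM A hA).ν₂ j) :=
  cN_rN L' R hW (nodePlaces_nodesN L' R h₂) j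

end Literals

end Fermat.Agent.ES.W33.BranchTwoRN15
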