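/-
Programme W (S33), chapter (B3′), common leaf "FrickeBar" (w49; helper8):
**the Fricke involution `W_{M'}` of the GOOD level `M'` (`p ∤ M'`) preserves the Gauss valuation ring of
`Fbar M'` and induces an automorphism `wBar` of the special-fibre function field `F̃ = Ft M' A`;
the four reduction formulas of the bad level `M' p`.**

`G' = gaussRingN A (resA A) M'`, `red' = gaussRedN A (resA A) M'` (GaussRing15), fractions in the sense
of `V19/GaussFrac15` (`IsRedOf G' red' f φ` : `f = a / b`, `a b ∈ G'`, `b̄ ≠ 0`, `φ = ā / b̄`).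

* `isRedOf_series`, `series_criterion` : the reduction of a function of the good level is computed by ANY
  fraction of `A`-integral series (port of `NodalGauss3.series_criterion`, with `ScaleQbar8.exists_scale`);
* `bc_isRedOf` : comparison with a number-field level `K` (`ρ'(bc x) = coeffMap (resMap A K) (gaussRed x)`);
* `exists_isRedOf_frickeBar` : `W_{M'}` preserves the Gauss valuation ring AND its maximal ideal
  (`RedMem16.exists_series_descent` + `IsoM25.isoM` + `IsoM25.gaussRed_frickeFK_eq_zero_iff`);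
* `exists_isRedOf` : every `φ ∈ F̃` is a reduction (induction over the generators `j̃(q^d)`);
* **`wBar : Ft M' A ≃ₐ[kA A] Ft M' A`**, **`isRedOf_frickeBar`**, `wBar_wBar`;
* bad level: `isRedOf_alpha` (`rho1 (α x) = x̄`), `rho2_beta` (`rho2 (β x) = wBar x̄`),
  `rho2_alpha` (`rho2 (α x) = V_p (wBar x̄)`), `rho2_tN`.
-/
import Mathlib
import Fermat.Agent.ES.W33.NodalDefs3
import Fermat.Agent.ES.W33.BetaRed15
import Fermat.Agent.ES.N34.IsoM25
import Fermat.Agent.ES.RED.RedMem16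
import Fermat.Agent.ES.V19.ScaleQbar8

set_option autoImplicit false
set_option synthInstance.maxHeartbeats 400000
set_option linter.unusedSectionVars false
set_option linter.style.haveILetI false

open HahnSeries ModularCurve AlgebraicCurve

noncomputable section

namespace Fermat.Agent.ES.W33.FrickeBar8

open Fermat.Agent.RED.Interface4 Fermat.Agent.RED.DESC Fermat.Agent.RED.DESC.NumberFieldDVR27
  Fermat.Agent.RED.DESC.PlaceExtend27
  Fermat.Agent.RED.PUR.GaussGen8
  Fermat.Agent.RED.BASE.Interface12 Fermat.Agent.RED.BASE.Hauptmodul12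
  Fermat.Agent.ES.RED.Contract8 Fermat.Agent.ES.RED.GaussUnit25
  Fermat.Agent.ES.RED.ModelInst4 Fermat.Agent.ES.N34.FrickeFK8
  Fermat.Agent.ES.V19.GaussFrac15 Fermat.Agent.ES.V19.InstNames3
  Fermat.Agent.ES.W33.NodalDefs3 Fermat.Agent.ES.W33.BetaRed15 Fermat.Agent.ES.W33.FrickeBeta15

attribute [local instance 5000] HahnSeries.powerSeriesAlgebra SubalgebraClass.toAlgebra

variable (M' : ℕ) [NeZero M'] (p : ℕ) [Fact p.Prime] (A : ValuationSubring Qbar)

local notation "G'" => Fermat.Agent.ES.RED.GaussRing15.gaussRingN A (resA A) M'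
local notation "red'" => Fermat.Agent.ES.RED.GaussRing15.gaussRedN A (resA A) M'

/-! ### the series criterion at the good level -/

theorem resA_nonunit (a : ↥A) (ha : ¬ IsUnit a) : resA A a = 0 :=
  (IsLocalRing.residue_eq_zero_iff a).2 ha

/-- the reduction of a Gauss-integral function is computed by ANY fraction of `A`-integral series. -/
theorem isRedOf_series {X : ↥(Fbar M')} {φ : Ft M' A}
    (h : IsRedOf G' red' X φ) (S₀ A₀ : LaurentSeries ↥A)
    (hrel : (X : LaurentSeries Qbar) * coeffMap A.subtype S₀ = coeffMap A.subtype A₀) :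
    (φ : LaurentSeries (kA A)) * coeffMap (resA A) S₀ = coeffMap (resA A) A₀ := by
  obtain ⟨a, b, hb, hXb, hφ⟩ := h
  have h1 : (X : LaurentSeries Qbar) *
      coeffMap A.subtype (Fermat.Agent.ES.RED.GaussRing15.gaussLift A (resA A) _ _ b) =
        coeffMap A.subtype (Fermat.Agent.ES.RED.GaussRing15.gaussLift A (resA A) _ _ a) := by
    rw [Fermat.Agent.ES.RED.GaussRing15.coeffMap_gaussLift,
      Fermat.Agent.ES.RED.GaussRing15.coeffMap_gaussLift]
    exact congrArg Subtype.val hXb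
  have h2 : coeffMap A.subtype (A₀ * Fermat.Agent.ES.RED.GaussRing15.gaussLift A (resA A) _ _ b) =
      coeffMap A.subtype (S₀ * Fermat.Agent.ES.RED.GaussRing15.gaussLift A (resA A) _ _ a) := by
    rw [map_mul, map_mul, ← hrel, ← h1]; ring
  have h3 := Fermat.Agent.ES.RED.GaussRing15.coeffMap_subtype_injective A h2
  have h4 := congrArg (coeffMap (resA A)) h3
  rw [map_mul, map_mul] at h4
  have h5 : (φ : LaurentSeries (kA A)) *
      coeffMap (resA A) (Fermat.Agent.ES.RED.GaussRing15.gaussLift A (resA A) _ _ b) =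
      coeffMap (resA A) (Fermat.Agent.ES.RED.GaussRing15.gaussLift A (resA A) _ _ a) :=
    congrArg Subtype.val hφ
  have hb0 : coeffMap (resA A) (Fermat.Agent.ES.RED.GaussRing15.gaussLift A (resA A) _ _ b) ≠ 0 :=
    fun h0 => hb (Subtype.ext h0)
  apply mul_right_cancel₀ hb0
  rw [h4, ← h5]; ring

/-- constants of `A` are Gauss-integral at the good level. -/
theorem const_isGI (a : ↥A) : IsGI G' red' (algebraMap Qbar ↥(Fbar M') (a : Qbar)) :=
  (isRedOf_const_good M' A a).isGI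

/-- **Series criterion, membership**, good level. -/
theorem isGI_of_series (hA : A.LiesOverPrime p) (hpM : ¬ p ∣ M')
    (X : ↥(Fbar M')) (S₀ A₀ : LaurentSeries ↥A) (hS : coeffMap (resA A) S₀ ≠ 0)
    (hrel : (X : LaurentSeries Qbar) * coeffMap A.subtype S₀ = coeffMap A.subtype A₀) :
    IsGI G' red' X := by
  by_cases hX0 : X = 0
  · rw [hX0]; exact (isRedOf_zero (G := G') (red := red')).isGI
  obtain ⟨c, hc0, hu⟩ := Fermat.Agent.ES.V19.ScaleQbar8.exists_scale A p hA M' hpM X hX0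
  have hcF : algebraMap Qbar ↥(Fbar M') c ≠ 0 := by
    rw [Ne, map_eq_zero]; exact hc0
  by_cases hc : c ∈ A
  · have h1 : X = algebraMap Qbar ↥(Fbar M') c * ((algebraMap Qbar ↥(Fbar M') c)⁻¹ * X) := by
      rw [← mul_assoc, mul_inv_cancel₀ hcF, one_mul]
    rw [h1]
    exact (mem_gaussInt_iff (G := G') (red := red') _).mp
      (mul_mem ((mem_gaussInt_iff (G := G') (red := red') _).mpr (const_isGI M' A ⟨c, hc⟩))
        ((mem_gaussInt_iff (G := G') (red := red') _).mpr hu.isGI))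
  · exfalso
    have hd : c⁻¹ ∈ A := (A.mem_or_inv_mem c).resolve_left hc
    have hdu : ¬ IsUnit (⟨c⁻¹, hd⟩ : ↥A) := by
      intro hU
      obtain ⟨e, he⟩ := hU.exists_right_inv
      apply hc
      have h2 : c⁻¹ * (e : Qbar) = 1 := congrArg Subtype.val he
      have h3 : c = (e : Qbar) := by
        rw [← mul_one c, ← h2, ← mul_assoc, mul_inv_cancel₀ hc0, one_mul]
      rw [h3]; exact e.2
    obtain ⟨φ, hφ0, hφ⟩ := hu.exists_isRedOf
    have hrel' : (((algebraMap Qbar ↥(Fbar M') c)⁻¹ * X : ↥(Fbar M')) :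
        LaurentSeries Qbar) * coeffMap A.subtype S₀ =
          coeffMap A.subtype (HahnSeries.single 0 (⟨c⁻¹, hd⟩ : ↥A) * A₀) := by
      rw [map_mul, Fermat.Agent.ES.RED.GaussRing15.coeffMap_subtype_C, ← hrel, ← map_inv₀]
      show (algebraMap Qbar (LaurentSeries Qbar) c⁻¹ * (X : LaurentSeries Qbar)) * _ = _
      ring
    have h4 := isRedOf_series M' A hφ S₀ _ hrel'
    rw [map_mul, Fermat.Agent.ES.RED.GaussRing15.coeffMap_C, resA_nonunit A _ hdu, map_zero,
      zero_mul] at h4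
    rcases mul_eq_zero.mp h4 with h5 | h5
    · exact hφ0 (Subtype.ext h5)
    · exact hS h5

/-- **THE SERIES CRITERION** at the good level. -/
theorem series_criterion (hA : A.LiesOverPrime p) (hpM : ¬ p ∣ M')
    (X : ↥(Fbar M')) (S₀ A₀ : LaurentSeries ↥A) (hS : coeffMap (resA A) S₀ ≠ 0)
    (hrel : (X : LaurentSeries Qbar) * coeffMap A.subtype S₀ = coeffMap A.subtype A₀) :
    ∃ φ : Ft M' A, IsRedOf G' red' X φ ∧
      (φ : LaurentSeries (kA A)) * coeffMap (resA A) S₀ = coeffMap (resA A) A₀ := by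
  obtain ⟨φ, hφ⟩ := (isGI_of_series M' p A hA hpM X S₀ A₀ hS hrel).exists_isRedOf
  exact ⟨φ, hφ, isRedOf_series M' A hφ S₀ A₀ hrel⟩

/-! ### comparison with a number-field level -/

/-- **Comparison at the good level.** -/
theorem bc_isRedOf (hA : A.LiesOverPrime p) (hpM : ¬ p ∣ M') {K : IntermediateField ℚ Qbar}
    (x : FK M' K) (hx : (x : LaurentSeries K) ∈ gaussRing (AK A K)) :
    ∃ φ : Ft M' A, IsRedOf G' red' (baseChangeHom M' K x) φ ∧
      (φ : LaurentSeries (kA A)) =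
        coeffMap (resMap A K) (gaussRed (AK A K) ⟨(x : LaurentSeries K), hx⟩) := by
  obtain ⟨a, s, hrep⟩ := hx
  have hS : coeffMap (resA A) (coeffMap (incl A K) s) ≠ 0 :=
    Fermat.Agent.ES.V19.ScaleQbar8.coeffMap_residue_ne_zero A K s hrep.1
  have hrel : ((baseChangeHom M' K x : Fbar M') : LaurentSeries Qbar) *
      coeffMap A.subtype (coeffMap (incl A K) s) = coeffMap A.subtype (coeffMap (incl A K) a) := by
    rw [coe_baseChangeHom, coeffMap_subtype_incl, coeffMap_subtype_incl, ← map_mul, hrep.2]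
  obtain ⟨φ, hφ, hρ⟩ := series_criterion M' p A hA hpM _ _ _ hS hrel
  refine ⟨φ, hφ, ?_⟩
  rw [gaussRed_eq (AK A K) (f := ⟨(x : LaurentSeries K), ⟨a, s, hrep⟩⟩) hrep, map_div₀,
    ← coeffMap_residue_incl, ← coeffMap_residue_incl]
  exact eq_div_of_mul_eq hS hρ

/-! ### `W_{M'}` preserves the Gauss valuation ring and its maximal ideal -/

/-- **`W_{M'}` on the Gauss ring**: `W g` is Gauss-integral, and its reduction vanishes iff `ḡ` does. -/
theorem exists_isRedOf_frickeBar_of_mem (hA : A.LiesOverPrime p) (hpM : ¬ p ∣ M') (g : ↥G') :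
    ∃ ψ : Ft M' A, IsRedOf G' red' (frickeBar M' (g : ↥(Fbar M'))) ψ ∧ (ψ = 0 ↔ red' g = 0) := by
  have hY : coeffMap A.subtype (Fermat.Agent.ES.RED.GaussRing15.gaussLift A (resA A) _ _ g) =
      ((g : ↥(Fbar M')) : LaurentSeries Qbar) :=
    Fermat.Agent.ES.RED.GaussRing15.coeffMap_gaussLift A (resA A) _ _ g
  have hYmem : coeffMap A.subtype (Fermat.Agent.ES.RED.GaussRing15.gaussLift A (resA A) _ _ g) ∈
      Fbar M' := by
    rw [hY]; exact (g : ↥(Fbar M')).2
  obtain ⟨K, hfin, -, H⟩ := Fermat.Agent.ES.RED.RedMem16.exists_series_descent A M' ⊥ _ hYmem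
  haveI := hfin
  obtain ⟨Y₀, hmem, hY₀⟩ := H K le_rfl
  haveI : IsDiscreteValuationRing ↥(AK A K) :=
    isDiscreteValuationRing_AK A K (Fact.out : p.Prime).ne_zero hA
  haveI : CharP (Res (AK A K)) p := charP_residueField_AK A K Fact.out hA
  obtain ⟨π, hπ⟩ := IsDiscreteValuationRing.exists_irreducible ↥(AK A K)
  have hx : (((⟨embK (AK A K) Y₀, hmem⟩ : FK M' K)) : LaurentSeries K) ∈ gaussRing (AK A K) :=
    embK_mem _ Y₀
  have hWx := (Fermat.Agent.ES.N34.IsoM25.isoM A K M' p hπ hpM ⟨embK (AK A K) Y₀, hmem⟩).mp hx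
  have hbc : baseChangeHom M' K ⟨embK (AK A K) Y₀, hmem⟩ = (g : ↥(Fbar M')) := by
    apply Subtype.ext
    rw [coe_baseChangeHom]
    show coeffMap (algebraMap K Qbar) (embK (AK A K) Y₀) = _
    rw [← coeffMap_subtype_incl, hY₀, hY]
  obtain ⟨ψ, hψ, hψeq⟩ := bc_isRedOf M' p A hA hpM (frickeFK M' K ⟨embK (AK A K) Y₀, hmem⟩) hWx
  rw [baseChangeHom_frickeFK, hbc] at hψ
  refine ⟨ψ, hψ, ?_⟩
  have hinj := Fermat.Agent.RED.DESC.CoeffDescent1.coeffMap_injective_of_injective (resMap A K)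
    (resMap_injective A K)
  have e1 : ψ = 0 ↔ gaussRed (AK A K)
      ⟨((frickeFK M' K ⟨embK (AK A K) Y₀, hmem⟩ : FK M' K) : LaurentSeries K), hWx⟩ = 0 := by
    constructor
    · intro h0
      apply hinj
      rw [← hψeq, h0, map_zero]; rfl
    · intro h0
      apply Subtype.ext
      rw [hψeq, h0, map_zero]; rfl
  have e2 := Fermat.Agent.ES.N34.IsoM25.gaussRed_frickeFK_eq_zero_iff A K M' p hπ hpM
    ⟨embK (AK A K) Y₀, hmem⟩ hx hWx
  have e3 : gaussRed (AK A K) ⟨((⟨embK (AK A K) Y₀, hmem⟩ : FK M' K) : LaurentSeries K), hx⟩ =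
      redL (AK A K) Y₀ := gaussRed_embK _ Y₀
  have e4 : red' g = 0 ↔
      coeffMap (resA A) (Fermat.Agent.ES.RED.GaussRing15.gaussLift A (resA A) _ _ g) = 0 :=
    Fermat.Agent.ES.RED.GaussRing15.gaussRed_eq_zero_iff A (resA A) _ _ g hY
  have e5 : coeffMap (resA A) (Fermat.Agent.ES.RED.GaussRing15.gaussLift A (resA A) _ _ g) =
      coeffMap (resMap A K) (redL (AK A K) Y₀) := by
    rw [← hY₀]; exact coeffMap_residue_incl A K Y₀
  rw [e1, ← e2, e3, e4, e5]
  constructor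
  · intro h; rw [h, map_zero]
  · intro h; apply hinj; rw [h, map_zero]

/-- **`W_{M'}` preserves the Gauss valuation ring and its maximal ideal** (fraction form). -/
theorem exists_isRedOf_frickeBar (hA : A.LiesOverPrime p) (hpM : ¬ p ∣ M') {f : ↥(Fbar M')}
    {φ : Ft M' A} (h : IsRedOf G' red' f φ) :
    ∃ ψ : Ft M' A, IsRedOf G' red' (frickeBar M' f) ψ ∧ (ψ = 0 ↔ φ = 0) := by
  obtain ⟨a, b, hb, hfb, hφ⟩ := h
  obtain ⟨ψa, hψa, hψa0⟩ := exists_isRedOf_frickeBar_of_mem M' p A hA hpM a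
  obtain ⟨ψb, hψb, hψb0⟩ := exists_isRedOf_frickeBar_of_mem M' p A hA hpM b
  have hψbne : ψb ≠ 0 := fun h0 => hb (hψb0.mp h0)
  have hWb : frickeBar M' (b : ↥(Fbar M')) ≠ 0 := by
    rw [Ne, map_eq_zero]
    exact coe_ne_zero_of_red_ne_zero (G := G') (red := red') hb
  have hW : frickeBar M' f = frickeBar M' (a : ↥(Fbar M')) * (frickeBar M' (b : ↥(Fbar M')))⁻¹ := by
    rw [← hfb, map_mul, mul_assoc, mul_inv_cancel₀ hWb, mul_one]
  refine ⟨ψa * ψb⁻¹, ?_, ?_⟩
  · rw [hW]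
    exact hψa.mul (hψb.inv hψbne)
  · rw [mul_eq_zero, inv_eq_zero]
    constructor
    · rintro (h0 | h0)
      · have ha0 := hψa0.mp h0
        rw [ha0] at hφ
        rcases mul_eq_zero.mp hφ with h1 | h1
        · exact h1
        · exact absurd h1 hb
      · exact absurd h0 hψbne
    · intro h0
      left
      apply hψa0.mpr
      rw [← hφ, h0, zero_mul]

/-! ### every element of `F̃` is a reduction -/

/-- the generators `j̃(q^d)` are reductions. -/
theorem exists_isRedOf_gen (d : ℕ) [NeZero d] (hd : d ∣ M')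
    (hy : qExpand (kA A) d (jqModC (kA A)) ∈ modularFunctionFieldFullC (kA A) M') :
    ∃ f : ↥(Fbar M'), IsRedOf G' red' f ⟨qExpand (kA A) d (jqModC (kA A)), hy⟩ := by
  have h1 : coeffMap A.subtype (Fermat.Agent.RED.PUR.GaussBridge10.jdO A d) =
      qExpand Qbar d (jqModC Qbar) := Fermat.Agent.RED.PUR.GaussBridge10.embK_jdO A d
  have h2 : coeffMap (resA A) (Fermat.Agent.RED.PUR.GaussBridge10.jdO A d) =
      qExpand (kA A) d (jqModC (kA A)) := Fermat.Agent.RED.PUR.GaussBridge10.redL_jdO A d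
  have hY : coeffMap A.subtype (Fermat.Agent.RED.PUR.GaussBridge10.jdO A d) ∈ Fbar M' := by
    rw [h1]
    exact Fermat.Agent.RED.PUR.GaussBridge10.fullC_le_laurentBaseChange M'
      (IntermediateField.subset_adjoin Qbar _ (mem_divisorExpansionsC Qbar M' hd))
  have hYt : coeffMap (resA A) (Fermat.Agent.RED.PUR.GaussBridge10.jdO A d) ∈
      modularFunctionFieldFullC (kA A) M' := by
    rw [h2]; exact hy
  have hmem := Fermat.Agent.ES.RED.GaussRing15.mem_gaussRing_of_coeffMap A (resA A) (Fbar M')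
    (modularFunctionFieldFullC (kA A) M') _ hY hYt
  have hred := Fermat.Agent.ES.RED.GaussRing15.gaussRed_mk A (resA A) (Fbar M')
    (modularFunctionFieldFullC (kA A) M') _ hY hYt
  refine ⟨⟨coeffMap A.subtype (Fermat.Agent.RED.PUR.GaussBridge10.jdO A d), hY⟩, ?_⟩
  have h3 := isRedOf_of_mem (G := G') (red := red')
    ⟨⟨coeffMap A.subtype (Fermat.Agent.RED.PUR.GaussBridge10.jdO A d), hY⟩, hmem⟩
  rw [hred] at h3
  have h4 : (⟨coeffMap (resA A) (Fermat.Agent.RED.PUR.GaussBridge10.jdO A d), hYt⟩ : Ft M' A) =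
      ⟨qExpand (kA A) d (jqModC (kA A)), hy⟩ := Subtype.ext h2
  rw [h4] at h3
  exact h3

theorem exists_isRedOf_const (c : kA A)
    (hy : algebraMap (kA A) (LaurentSeries (kA A)) c ∈ modularFunctionFieldFullC (kA A) M') :
    ∃ f : ↥(Fbar M'), IsRedOf G' red' f ⟨algebraMap (kA A) (LaurentSeries (kA A)) c, hy⟩ := by
  obtain ⟨a, rfl⟩ := IsLocalRing.residue_surjective c
  refine ⟨algebraMap Qbar ↥(Fbar M') (a : Qbar), ?_⟩
  have h := isRedOf_const_good M' A a
  have h1 : algebraMap (kA A) (Ft M' A) (resA A a) =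
      ⟨algebraMap (kA A) (LaurentSeries (kA A)) (IsLocalRing.residue ↥A a), hy⟩ := Subtype.ext rfl
  rw [h1] at h
  exact h


/-- the predicate "is a reduction" on series. -/
def IsRedSeries (y : LaurentSeries (kA A)) : Prop :=
  ∃ (φ : Ft M' A) (f : ↥(Fbar M')), (φ : LaurentSeries (kA A)) = y ∧ IsRedOf G' red' f φ

theorem isRedSeries_gen {x : LaurentSeries (kA A)} (hx : x ∈ divisorExpansionsC (kA A) M') :
    IsRedSeries M' A x := by
  obtain ⟨d, hne, hd, rfl⟩ := hx
  have hy := jqModCd_mem_full (kA A) M' hd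
  obtain ⟨f, hf⟩ := exists_isRedOf_gen M' A d hd hy
  exact ⟨_, f, rfl, hf⟩

theorem isRedSeries_const (c : kA A) :
    IsRedSeries M' A (algebraMap (kA A) (LaurentSeries (kA A)) c) := by
  obtain ⟨f, hf⟩ := exists_isRedOf_const M' A c
    ((modularFunctionFieldFullC (kA A) M').algebraMap_mem c)
  exact ⟨_, f, rfl, hf⟩

theorem IsRedSeries.add {x y : LaurentSeries (kA A)} (hx : IsRedSeries M' A x)
    (hy : IsRedSeries M' A y) : IsRedSeries M' A (x + y) := by
  obtain ⟨φ, f, rfl, hf⟩ := hx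
  obtain ⟨ψ, g, rfl, hg⟩ := hy
  exact ⟨φ + ψ, f + g, IntermediateField.coe_add _ φ ψ, hf.add hg⟩

theorem IsRedSeries.mul {x y : LaurentSeries (kA A)} (hx : IsRedSeries M' A x)
    (hy : IsRedSeries M' A y) : IsRedSeries M' A (x * y) := by
  obtain ⟨φ, f, rfl, hf⟩ := hx
  obtain ⟨ψ, g, rfl, hg⟩ := hy
  exact ⟨φ * ψ, f * g, IntermediateField.coe_mul _ φ ψ, hf.mul hg⟩

theorem IsRedSeries.inv {x : LaurentSeries (kA A)} (hx : IsRedSeries M' A x) :
    IsRedSeries M' A x⁻¹ := by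
  obtain ⟨φ, f, rfl, hf⟩ := hx
  by_cases h0 : φ = 0
  · refine ⟨0, 0, ?_, isRedOf_zero⟩
    rw [h0]
    show ((0 : Ft M' A) : LaurentSeries (kA A)) = ((0 : Ft M' A) : LaurentSeries (kA A))⁻¹
    rw [IntermediateField.coe_zero, inv_zero]
  · exact ⟨φ⁻¹, f⁻¹, IntermediateField.coe_inv _ φ, hf.inv h0⟩

theorem isRedSeries_of_mem {y : LaurentSeries (kA A)}
    (hy : y ∈ modularFunctionFieldFullC (kA A) M') : IsRedSeries M' A y := by
  unfold modularFunctionFieldFullC at hy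
  induction hy using IntermediateField.adjoin_induction with
  | mem x hx => exact isRedSeries_gen M' A hx
  | algebraMap c => exact isRedSeries_const M' A c
  | add x y _ _ ihx ihy => exact ihx.add M' A ihy
  | inv x _ ihx => exact ihx.inv M' A
  | mul x y _ _ ihx ihy => exact ihx.mul M' A ihy

/-- **`rho'` is onto**: every element of `F̃_{M'}` is the reduction of a function of the good level. -/
theorem exists_isRedOf (φ : Ft M' A) : ∃ f : ↥(Fbar M'), IsRedOf G' red' f φ := by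
  obtain ⟨ψ, f, hψ, hf⟩ := isRedSeries_of_mem M' A φ.2
  have : ψ = φ := Subtype.ext hψ
  rw [this] at hf
  exact ⟨f, hf⟩

/-! ### the induced automorphism `wBar` of `F̃` -/

variable (hA : A.LiesOverPrime p) (hpM : ¬ p ∣ M')

include hA hpM in
theorem frickeBar_mem_gaussInt {f : ↥(Fbar M')} (hf : f ∈ gaussInt G' red') :
    frickeBar M' f ∈ gaussInt G' red' := by
  obtain ⟨φ, hφ⟩ := ((mem_gaussInt_iff (G := G') (red := red') f).mp hf).exists_isRedOf
  obtain ⟨ψ, hψ, -⟩ := exists_isRedOf_frickeBar M' p A hA hpM hφ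
  exact (mem_gaussInt_iff (G := G') (red := red') _).mpr hψ.isGI

/-- `W_{M'}` restricted to the Gauss valuation ring of the good level. -/
def wInt : ↥(gaussInt G' red') →+* ↥(gaussInt G' red') :=
  ((frickeBar M' : ↥(Fbar M') →ₐ[Qbar] ↥(Fbar M')) : ↥(Fbar M') →+* ↥(Fbar M')).restrict
    (gaussInt G' red') (gaussInt G' red')
    (fun _ hf => frickeBar_mem_gaussInt M' p A hA hpM hf)

theorem coe_wInt (f : ↥(gaussInt G' red')) :
    ((wInt M' p A hA hpM f : ↥(gaussInt G' red')) : ↥(Fbar M')) = frickeBar M' (f : ↥(Fbar M')) := rfl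

theorem rho_surjective : Function.Surjective (rho G' red') := fun φ => by
  obtain ⟨f, hf⟩ := exists_isRedOf M' A φ
  exact ⟨⟨f, (mem_gaussInt_iff (G := G') (red := red') f).mpr hf.isGI⟩, rho_eq_of_isRedOf hf⟩

theorem ker_rho_le :
    RingHom.ker (rho G' red') ≤ RingHom.ker ((rho G' red').comp (wInt M' p A hA hpM)) := by
  intro f hf
  rw [RingHom.mem_ker] at hf ⊢
  have h1 := isRedOf_rho G' red' f
  rw [hf] at h1
  obtain ⟨ψ, hψ, hψ0⟩ := exists_isRedOf_frickeBar M' p A hA hpM h1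
  have hψz : ψ = 0 := hψ0.mpr rfl
  rw [hψz] at hψ
  rw [RingHom.comp_apply]
  have h2 := isRedOf_rho G' red' (wInt M' p A hA hpM f)
  rw [coe_wInt] at h2
  exact h2.unique hψ

/-- **the reduction `W̃_{M'}` of the Fricke involution of the good level**, as a ring endomorphism. -/
def wBarHom : Ft M' A →+* Ft M' A :=
  (rho G' red').liftOfRightInverse (Function.surjInv (rho_surjective M' A))
    (Function.rightInverse_surjInv (rho_surjective M' A))
    ⟨(rho G' red').comp (wInt M' p A hA hpM), ker_rho_le M' p A hA hpM⟩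

theorem wBarHom_rho (f : ↥(gaussInt G' red')) :
    wBarHom M' p A hA hpM (rho G' red' f) = rho G' red' (wInt M' p A hA hpM f) :=
  RingHom.liftOfRightInverse_comp_apply (rho G' red') _ _ _ f

/-- **`(W_{M'} f)‾ = W̃_{M'} f̄`.** -/
theorem isRedOf_wBarHom {f : ↥(Fbar M')} {φ : Ft M' A} (h : IsRedOf G' red' f φ) :
    IsRedOf G' red' (frickeBar M' f) (wBarHom M' p A hA hpM φ) := by
  have hf : f ∈ gaussInt G' red' := (mem_gaussInt_iff (G := G') (red := red') f).mpr h.isGI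
  have h1 : rho G' red' ⟨f, hf⟩ = φ := rho_eq_of_isRedOf h
  rw [← h1, wBarHom_rho]
  exact isRedOf_rho G' red' (wInt M' p A hA hpM ⟨f, hf⟩)

theorem wBarHom_wBarHom (φ : Ft M' A) :
    wBarHom M' p A hA hpM (wBarHom M' p A hA hpM φ) = φ := by
  obtain ⟨f, hf⟩ := exists_isRedOf M' A φ
  have h1 := isRedOf_wBarHom M' p A hA hpM (isRedOf_wBarHom M' p A hA hpM hf)
  rw [frickeBar_frickeBar] at h1
  exact h1.unique hf

theorem wBarHom_algebraMap (c : kA A) :
    wBarHom M' p A hA hpM (algebraMap (kA A) (Ft M' A) c) = algebraMap (kA A) (Ft M' A) c := by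
  obtain ⟨a, rfl⟩ := IsLocalRing.residue_surjective c
  have h1 := isRedOf_wBarHom M' p A hA hpM (isRedOf_const_good M' A a)
  rw [(frickeBar M').commutes] at h1
  exact h1.unique (isRedOf_const_good M' A a)

/-- **`wBar : F̃_{M'} ≃ₐ[k̄] F̃_{M'}`**, the automorphism induced by `W_{M'}`. -/
def wBar : Ft M' A ≃ₐ[kA A] Ft M' A where
  toFun := wBarHom M' p A hA hpM
  invFun := wBarHom M' p A hA hpM
  left_inv := wBarHom_wBarHom M' p A hA hpM
  right_inv := wBarHom_wBarHom M' p A hA hpM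
  map_mul' := map_mul _
  map_add' := map_add _
  commutes' := wBarHom_algebraMap M' p A hA hpM

theorem wBar_apply (φ : Ft M' A) : wBar M' p A hA hpM φ = wBarHom M' p A hA hpM φ := rfl

theorem wBar_wBar (φ : Ft M' A) : wBar M' p A hA hpM (wBar M' p A hA hpM φ) = φ :=
  wBarHom_wBarHom M' p A hA hpM φ

/-- **`(W_{M'} f)‾ = wBar f̄`.** -/
theorem isRedOf_frickeBar {f : ↥(Fbar M')} {φ : Ft M' A} (h : IsRedOf G' red' f φ) :
    IsRedOf G' red' (frickeBar M' f) (wBar M' p A hA hpM φ) :=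
  isRedOf_wBarHom M' p A hA hpM h

/-! ### the bad level `M' p` -/

local notation "β" => heckeBetaBar Qbar M' p

theorem alpha_mem_Gq1 (g : ↥(Fbar M')) (hg : g ∈ G') : alphaN M' p g ∈ Gq1 M' p A := by
  obtain ⟨Y, hY, hYt⟩ := hg
  exact ⟨Y, hY.trans (Fermat.Agent.ES.HECKE.LevelPullback12.coe_levelIncl _ g).symm, hYt⟩

theorem redq1_alpha (g : ↥(Fbar M')) (hg : g ∈ G') :
    redq1 M' p A ⟨alphaN M' p g, alpha_mem_Gq1 M' p A g hg⟩ = red' ⟨g, hg⟩ := by
  apply Subtype.ext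
  have hY := Fermat.Agent.ES.RED.GaussRing15.coeffMap_gaussLift A (resA A) (Fbar M')
    (modularFunctionFieldFullC (kA A) M') ⟨g, hg⟩
  have hY' : coeffMap A.subtype (Fermat.Agent.ES.RED.GaussRing15.gaussLift A (resA A) (Fbar M')
      (modularFunctionFieldFullC (kA A) M') ⟨g, hg⟩) =
        ((alphaN M' p g : ↥(Fbar (M' * p))) : LaurentSeries Qbar) :=
    hY.trans (Fermat.Agent.ES.HECKE.LevelPullback12.coe_levelIncl _ g).symm
  rw [Fermat.Agent.ES.RED.GaussRing15.gaussRed_eq A (resA A) (Fbar (M' * p))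
    (modularFunctionFieldFullC (kA A) M') _ hY']
  exact (Fermat.Agent.ES.RED.GaussRing15.gaussRed_eq A (resA A) (Fbar M')
    (modularFunctionFieldFullC (kA A) M') ⟨g, hg⟩ hY).symm

/-- **`rho1 (α x) = x̄`** (fraction form). -/
theorem isRedOf_alpha {x : ↥(Fbar M')} {φ : Ft M' A} (h : IsRedOf G' red' x φ) :
    IsRedOf (Gq1 M' p A) (redq1 M' p A) (alphaN M' p x) φ := by
  obtain ⟨a, b, hb, hfb, hφ⟩ := h
  refine ⟨⟨alphaN M' p (a : ↥(Fbar M')), alpha_mem_Gq1 M' p A _ a.2⟩,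
    ⟨alphaN M' p (b : ↥(Fbar M')), alpha_mem_Gq1 M' p A _ b.2⟩, ?_, ?_, ?_⟩
  · rw [redq1_alpha M' p A _ b.2]
    exact hb
  · show alphaN M' p x * alphaN M' p (b : ↥(Fbar M')) = alphaN M' p (a : ↥(Fbar M'))
    rw [← map_mul, hfb]
  · rw [redq1_alpha M' p A _ b.2, redq1_alpha M' p A _ a.2]
    exact hφ

/-- `W_{M' p} (β x) = α (W_{M'} x)`. -/
theorem fricke_beta (x : ↥(Fbar M')) :
    frickeN M' p (β x) = alphaN M' p (frickeBar M' x) := by
  have h := beta_fricke M' p (frickeBar M' x)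
  rw [frickeBar_frickeBar] at h
  rw [h, frickeBarEquiv_apply, frickeBarEquiv_apply, frickeBar_frickeBar]

/-- `W_{M' p} (α x) = β (W_{M'} x)`. -/
theorem fricke_alpha (x : ↥(Fbar M')) :
    frickeN M' p (alphaN M' p x) = β (frickeBar M' x) :=
  (beta_fricke M' p x).symm

/-- **`rho2 (β x) = wBar x̄`.** -/
theorem rho2_beta {x : ↥(Fbar M')} {φ : Ft M' A} (h : IsRedOf G' red' x φ) :
    ∃ h2 : β x ∈ O2 M' p A, rho2 M' p A ⟨β x, h2⟩ = wBar M' p A hA hpM φ := by
  have h1 : IsRedOf (Gq1 M' p A) (redq1 M' p A) (frickeN M' p (β x)) (wBar M' p A hA hpM φ) := by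
    rw [fricke_beta]
    exact isRedOf_alpha M' p A (isRedOf_frickeBar M' p A hA hpM h)
  have h2 : β x ∈ O2 M' p A :=
    (mem_O2_iff M' p A _).mpr ((mem_gaussInt_iff (G := Gq1 M' p A) (red := redq1 M' p A) _).mpr h1.isGI)
  refine ⟨h2, ?_⟩
  rw [rho2_apply]
  exact rho_eq_of_isRedOf h1

/-- **`rho2 (α x) = V_p (wBar x̄)`.** -/
theorem rho2_alpha {x : ↥(Fbar M')} {φ : Ft M' A} (h : IsRedOf G' red' x φ) :
    ∃ h2 : alphaN M' p x ∈ O2 M' p A,
      rho2 M' p A ⟨alphaN M' p x, h2⟩ = vpFt M' p A hA (wBar M' p A hA hpM φ) := by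
  have h1 : IsRedOf (Gq1 M' p A) (redq1 M' p A) (frickeN M' p (alphaN M' p x))
      (vpFt M' p A hA (wBar M' p A hA hpM φ)) := by
    rw [fricke_alpha]
    exact isRedOf_beta M' p A hA (isRedOf_frickeBar M' p A hA hpM h)
  have h2 : alphaN M' p x ∈ O2 M' p A :=
    (mem_O2_iff M' p A _).mpr ((mem_gaussInt_iff (G := Gq1 M' p A) (red := redq1 M' p A) _).mpr h1.isGI)
  refine ⟨h2, ?_⟩
  rw [rho2_apply]
  exact rho_eq_of_isRedOf h1

/-- **`rho1 (α x) = x̄`**, `rho1` form. -/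
theorem rho1_alpha {x : ↥(Fbar M')} {φ : Ft M' A} (h : IsRedOf G' red' x φ) :
    ∃ h1 : alphaN M' p x ∈ O1 M' p A, rho1 M' p A ⟨alphaN M' p x, h1⟩ = φ :=
  ⟨(mem_gaussInt_iff (G := Gq1 M' p A) (red := redq1 M' p A) _).mpr (isRedOf_alpha M' p A h).isGI,
    rho_eq_of_isRedOf (isRedOf_alpha M' p A h)⟩

/-- **`rho1 (β x) = V_p x̄`**, `rho1` form (helper15's `isRedOf_beta`). -/
theorem rho1_beta {x : ↥(Fbar M')} {φ : Ft M' A} (h : IsRedOf G' red' x φ) :
    ∃ h1 : β x ∈ O1 M' p A, rho1 M' p A ⟨β x, h1⟩ = vpFt M' p A hA φ :=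
  ⟨(mem_gaussInt_iff (G := Gq1 M' p A) (red := redq1 M' p A) _).mpr (isRedOf_beta M' p A hA h).isGI,
    rho_eq_of_isRedOf (isRedOf_beta M' p A hA h)⟩

/-! ### the Hauptmodul -/

section Haupt

variable (n e : ℕ) [NeZero n] (hb : BaseHyp n e) (hnM : n ∣ M')

/-- `t̃` is the reduction of `t` at the good level. -/
theorem isRedOf_tV :
    IsRedOf G' red' (tV n e M' hb hnM) (tResV n e M' p hpM hb hnM A hA) := by
  have h := isRedOf_of_mem (G := G') (red := red')
    ⟨((TV n e M' p hpM hb hnM A hA).S0.sB : ↥(Fbar M')),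
      B0_le_GqV n e M' p hpM hb hnM A hA (TV n e M' p hpM hb hnM A hA).S0.sB.2⟩
  have h1 := redqV_eq n e M' p hpM hb hnM A hA (TV n e M' p hpM hb hnM A hA).S0.sB
  rw [red_sB_V] at h1
  rw [h1] at h
  exact h

/-- **`rho2 tN = V_p (wBar t̃)`.** -/
theorem rho2_tN :
    ∃ h2 : tN n e M' p hb hnM ∈ O2 M' p A,
      rho2 M' p A ⟨tN n e M' p hb hnM, h2⟩ =
        vpFt M' p A hA (wBar M' p A hA hpM (tResV n e M' p hpM hb hnM A hA)) := by
  have h := rho2_alpha M' p A hA hpM (isRedOf_tV M' p A hA hpM n e hb hnM)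
  rw [alphaN_tV n e M' p hb hnM] at h
  exact h

/-- **`rho1 tN = t̃`.** -/
theorem rho1_tN :
    ∃ h1 : tN n e M' p hb hnM ∈ O1 M' p A,
      rho1 M' p A ⟨tN n e M' p hb hnM, h1⟩ = tResV n e M' p hpM hb hnM A hA := by
  have h := rho1_alpha M' p A (isRedOf_tV M' p A hA hpM n e hb hnM)
  rw [alphaN_tV n e M' p hb hnM] at h
  exact h

end Haupt

end Fermat.Agent.ES.W33.FrickeBar8
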