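/-
Programme W (S33), chapter (B3′), (R2) = helper22's RELATIVE COUNT: **the leaf "(Φ, c2, cN)" and the
numeric inputs `d`, `hsum`, `hord` AT THE INSTANCE, with `wBar := FrickeBar8.wBar`** (helper15).
No named input about `wBar` is left: `BranchTwoPhi15.FrickeRed` is `FrickeBar8.isRedOf_frickeBar`.

* `frickeRed8` : `FrickeRed M' A (FrickeBar8.wBar M' p A hA hpM)`;
* **`PhiN`** : `Φ := wBar⁻¹ ∘ Fr`, the bijection of helper22's `R2RelInstN22`;
* **`c2N`, `cNN`** : the named inputs `c2`, `cN` of `R2RelInstN22` (from helper20's `L' R`, resp. and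
  `NodePlaces (TR L' R) nodesN`);
* **`hordN`** : the last field of `R2RelCtxN22.RelPoint` (`d := p + 1`, `m0 a := ord_Q (u − ā)`), for any
  Gauss-integral `x` of the good level with reduction `u`; `hordN_tV`, `hordN_tV_inv`;
* `ord_rho2_tN` : (iv) `ord_{Q₂} (rho2 tN − c̄) = p · ord_{Φ Q₂} (t̃ − c̄)`;
* `hsum`, `d` : `RelCountInputs15.hsum_alphaN`, `finrankAlong_alphaN` (unchanged).
-/
import Mathlib
import Fermat.Agent.ES.W33.BranchTwoRN15
import Fermat.Agent.ES.W33.RelCountInputs15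
import Fermat.Agent.ES.W33.FrickeBar8

set_option autoImplicit false
set_option synthInstance.maxHeartbeats 400000
set_option linter.unusedSectionVars false

open HahnSeries ModularCurve AlgebraicCurve
open scoped MatrixGroups

noncomputable section

namespace Fermat.Agent.ES.W33.BranchTwoInst15

open Fermat.Agent.RED.Interface4 Fermat.Agent.RED.BASE.Interface12 Fermat.Agent.RED.BASE.Hauptmodul12
  Fermat.Agent.X0 Fermat.Agent.X0.FF
  Fermat.Agent.ES.RED.Contract8 Fermat.Agent.ES.RED.ModelInst4 Fermat.Agent.ES.RED.GaussRing15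
  Fermat.Agent.ES.V19.GaussFrac15 Fermat.Agent.ES.V19.InstNames3 Fermat.Agent.ES.W33.XiIfaceN29
  Fermat.Agent.ES.W33.NodalDefs3
  Fermat.Agent.ES.W33.TwoChartsNInst20 Fermat.Agent.ES.W33.TwoChartsNRN20
  Fermat.Agent.ES.W33.NodalGlue20 Fermat.Agent.ES.W33.BetaRed15
  Fermat.Agent.ES.W33.BranchTwoPhi15 Fermat.Agent.ES.W33.BranchTwoRN15
  Fermat.Agent.ES.W33.RelCountInputs15

attribute [local instance 5000] HahnSeries.powerSeriesAlgebra SubalgebraClass.toAlgebra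

variable (n e M' : ℕ) [NeZero n] [NeZero M'] (p : ℕ) [Fact p.Prime] (hpM : ¬ p ∣ M')
  (hb : BaseHyp n e) (hnM : n ∣ M') (A : ValuationSubring Qbar) (hA : A.LiesOverPrime p)

/-- w49's input, proved: `W_{M'}` induces `FrickeBar8.wBar` on the residue field of the good level. -/
theorem frickeRed8 : FrickeRed M' A (FrickeBar8.wBar M' p A hA hpM) :=
  fun _ _ h => FrickeBar8.isRedOf_frickeBar M' p A hA hpM h

/-- **`Φ`** : the partner on the first branch of a point of the second branch. -/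
def PhiN : Place (kA A) (Ft M' A) ≃ Place (kA A) (Ft M' A) :=
  phi M' p A hA (FrickeBar8.wBar M' p A hA hpM)

variable {n e M' p hpM hb hnM A hA}

/-- **(c2)** of `R2RelInstN22`, at `Φ := PhiN`. -/
theorem c2N {L : ChartLeaves n e M' p hb hnM A} (L' : PlaceLeaves L)
    (R : R1Leaves n e M' p hpM hb hnM A hA L)
    (P : Place Qbar ↥(Fbar (M' * p))) (Q₂ : Place (kA A) (Ft M' A))
    (h : rN n e M' p hpM hb hnM A hA P = Sum.inl (Sum.inr Q₂)) :
    rV n e M' p hpM hb hnM A hA (P.restrictAlong (alphaN M' p) (alphaN_isIntegral M' p)) =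
      PhiN M' p hpM A hA Q₂ :=
  c2_rN L' R (frickeRed8 M' p hpM A hA) P Q₂ h

/-- **(cN)** of `R2RelInstN22`, at `Φ := PhiN`. -/
theorem cNN {L : ChartLeaves n e M' p hb hnM A} (L' : PlaceLeaves L)
    (R : R1Leaves n e M' p hpM hb hnM A hA L)
    (hN : NodePlaces (TR L' R) (nodesN n e M' p hpM hb hnM A hA))
    (j : Fin (sN n e M' p hpM hb hnM A hA)) :
    (nodesN n e M' p hpM hb hnM A hA).ν₁ j =
      PhiN M' p hpM A hA ((nodesN n e M' p hpM hb hnM A hA).ν₂ j) :=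
  cN_rN L' R (frickeRed8 M' p hpM A hA) hN j

/-- **`hord`** of `R2RelCtxN22.RelPoint` with `d := p + 1`, `m0 a := ord_Q (u − ā)`. -/
theorem hordN {x : ↥(Fbar M')} {u : Ft M' A} (h : IsRedOf (GqV M' A) (redqV M' A) x u)
    (h1 : alphaN M' p x ∈ O1 M' p A) (h2 : alphaN M' p x ∈ O2 M' p A)
    (Q : Place (kA A) (Ft M' A)) (a : ↥A) :
    Q.ord (rho1 M' p A ⟨alphaN M' p x, h1⟩ - algebraMap (kA A) (Ft M' A) (resA A a)) +
        ((PhiN M' p hpM A hA).symm Q).ord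
          (rho2 M' p A ⟨alphaN M' p x, h2⟩ - algebraMap (kA A) (Ft M' A) (resA A a)) ≤
      (((p + 1 : ℕ) : ℤ)) * Q.ord (u - algebraMap (kA A) (Ft M' A) (resA A a)) :=
  hord_alpha_le p hA (frickeRed8 M' p hpM A hA) h h1 h2 Q a

/-- `hord` at `x0 := tV`. -/
theorem hordN_tV (h1 : alphaN M' p (tV n e M' hb hnM) ∈ O1 M' p A)
    (h2 : alphaN M' p (tV n e M' hb hnM) ∈ O2 M' p A) (Q : Place (kA A) (Ft M' A)) (a : ↥A) :
    Q.ord (rho1 M' p A ⟨alphaN M' p (tV n e M' hb hnM), h1⟩ -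
          algebraMap (kA A) (Ft M' A) (resA A a)) +
        ((PhiN M' p hpM A hA).symm Q).ord
          (rho2 M' p A ⟨alphaN M' p (tV n e M' hb hnM), h2⟩ -
            algebraMap (kA A) (Ft M' A) (resA A a)) ≤
      (((p + 1 : ℕ) : ℤ)) * Q.ord (tResV n e M' p hpM hb hnM A hA -
        algebraMap (kA A) (Ft M' A) (resA A a)) :=
  hordN (isRedOf_tV' n e M' p hpM hb hnM A hA) h1 h2 Q a

/-- `hord` at `x0 := tV⁻¹`. -/
theorem hordN_tV_inv (h1 : alphaN M' p (tV n e M' hb hnM)⁻¹ ∈ O1 M' p A)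
    (h2 : alphaN M' p (tV n e M' hb hnM)⁻¹ ∈ O2 M' p A) (Q : Place (kA A) (Ft M' A)) (a : ↥A) :
    Q.ord (rho1 M' p A ⟨alphaN M' p (tV n e M' hb hnM)⁻¹, h1⟩ -
          algebraMap (kA A) (Ft M' A) (resA A a)) +
        ((PhiN M' p hpM A hA).symm Q).ord
          (rho2 M' p A ⟨alphaN M' p (tV n e M' hb hnM)⁻¹, h2⟩ -
            algebraMap (kA A) (Ft M' A) (resA A a)) ≤
      (((p + 1 : ℕ) : ℤ)) * Q.ord ((tResV n e M' p hpM hb hnM A hA)⁻¹ -
        algebraMap (kA A) (Ft M' A) (resA A a)) :=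
  hordN (isRedOf_tV_inv n e M' p hpM hb hnM A hA) h1 h2 Q a

/-- **(iv)** `ord_{Q₂} (rho2 tN − c̄) = p · ord_{Φ Q₂} (t̃ − c̄)`. -/
theorem ord_rho2_tN (h2 : tN n e M' p hb hnM ∈ O2 M' p A) (c : kA A)
    (Q₂ : Place (kA A) (Ft M' A)) :
    Q₂.ord (rho2 M' p A ⟨tN n e M' p hb hnM, h2⟩ - algebraMap (kA A) (Ft M' A) c) =
      p * (PhiN M' p hpM A hA Q₂).ord
        (tResV n e M' p hpM hb hnM A hA - algebraMap (kA A) (Ft M' A) c) := by
  obtain ⟨h2', e2⟩ := FrickeBar8.rho2_tN M' p A hA hpM n e hb hnM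
  exact ord_phi' M' p A hA (FrickeBar8.wBar M' p A hA hpM) e2 c Q₂

end Fermat.Agent.ES.W33.BranchTwoInst15
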