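/-
Programme W (S33), chapter B3′, input (HARTOGS_j) / node dictionary, THE PLACE-LIFTING STEP
(helper6, ruling w41).

`K ⊂ ℚ̄` an intermediate field, `A` a valuation subring of `ℚ̄` over `q`, `w` a place of
`K·F_M / K`, `B ⊂ K·F_M` a ring of functions regular at `w` containing `A ∩ K`, `𝔪` a maximal ideal
of `B` containing the non-units of `A ∩ K` such that `w` passes through `𝔪` (every `b ∈ B` vanishing
at `w` lies in `𝔪`: the two clauses of `NodeAsm6.Thr B 𝔪 w`).  Then

  **some place `P` of `ℚ̄·F_M / ℚ̄` above `w` has centre `𝔪` on `B`:** every `b ∈ B` has its value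
  `b(P)` in `A`, and `b(P) ∈ 𝔪_A ↔ b ∈ 𝔪`.

For a non-rational `w` this is NOT automatic: the ring `B / 𝔭_w ⊂ κ(w)` may have several maximal
ideals over `𝔪_A ∩ K`, and the centre of a lift `P` of `w` depends on the lift.

Proof.  `P₁` any lift of `w` (`PlaceExtend27.exists_place_above_mem`), `ev : B → ℚ̄`, `b ↦ b(P₁)`;
`ker ev ⊆ 𝔪`, so `ev 𝔪` is a proper ideal of `ev B` and Mathlib's
`Ideal.image_subset_nonunits_valuationSubring` gives a valuation subring `V ⊇ ev B` of `ℚ̄` with
`ev 𝔪 ⊆ 𝔪_V`, hence `ev⁻¹ 𝔪_V = 𝔪` (maximality).  `V` and `A` have the same non-units among the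
integers of `K`, so `A = σ V` for some `σ ∈ Gal(ℚ̄ / K)` (`exists_smul_eq_over`: Mathlib's
`Algebra.IsInvariant.exists_smul_of_under_eq_of_profinite` for `Gal(ℚ̄ / K)` acting on the ring of all
algebraic integers, instances of main's `S13.UnramLift`, and `PlacesConj16.le_of_primeQ_eq`).
`P := σ • P₁` is again above `w` (`GalRational1.smul_baseChangeHom_of_fixed`) and `b(P) = σ (b(P₁))`
(`PlaceValue13.valueHom_smul'`).

* `exists_smul_eq_over`          : conjugacy over `K` of valuation subrings of `ℚ̄`;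
* `mem_smul_place_iff`           : `y ∈ O_{g • v} ↔ g⁻¹ • y ∈ O_v`;
* `exists_place_above_centre`    : the lifting step, for a ring `B` with an injective `φ : B → K·F_M`;
* `exists_place_above_of_thr`    : the same for a subalgebra `B` over `A ∩ K`;
* `exists_place_above_of_thr_unif` : the same with `π ∈ 𝔪` and `dvrR` (the fields of
  `NumData13.NodalNumData`) instead of "non-units of `A ∩ K` lie in `𝔪`".
-/
import Mathlib
import Fermat.Agent.ES.T56.PlacesConj16
import Fermat.Agent.ES.N34.GalRational1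
import Fermat.Agent.RED.DESC.PlaceExtend27
import Fermat.Agent.RED.DESC.NumberFieldDVR27

set_option autoImplicit false
set_option linter.unusedSectionVars false

open scoped Pointwise

noncomputable section

namespace Fermat.Agent.ES.W33.CentreLift6

open AlgebraicCurve IsLocalRing ModularCurve HahnSeries
open Fermat.Agent.X0 Fermat.Agent.X0.FF Fermat.Agent.ES.RED.PlaceValue13
open Fermat.Agent.RED.Interface4 Fermat.Agent.RED.DESC Fermat.Agent.ES.RED
open Fermat.Agent.S54 Fermat.Agent.S13.UnramVal Fermat.Agent.S13.UnramLift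
  Fermat.Agent.PT.BR.UnramBridge13 Fermat.Agent.ES.T56.PlacesConj16

attribute [local instance] topOQ

/-! ### conjugacy of valuation subrings of `ℚ̄` over an intermediate field -/

section Conj

variable (K : IntermediateField ℚ Qbar)

/-- **`Gal(ℚ̄ / K)` acts transitively on the valuation subrings of `ℚ̄` over a prime of `K`**: two
valuation subrings over `q` with the same non-units among the algebraic integers of `K` are conjugate
under an automorphism fixing `K`. -/
theorem exists_smul_eq_over {q : ℕ} (hq : q.Prime) {A V : ValuationSubring Qbar}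
    (hA : A.LiesOverPrime q) (hV : V.LiesOverPrime q)
    (h : ∀ a : Qbar, a ∈ K → IsIntegral ℤ a → (a ∈ V.nonunits ↔ a ∈ A.nonunits)) :
    ∃ σ : Qbar ≃ₐ[ℚ] Qbar, (∀ a ∈ K, σ a = a) ∧ A = σ • V := by
  have hunder : (primeQ V).under (OK K) = (primeQ A).under (OK K) := by
    ext a
    rw [Ideal.under_def, Ideal.under_def, Ideal.mem_comap, Ideal.mem_comap, mem_primeQ, mem_primeQ]
    exact h _ a.2 (mem_OQ.1 (a : OQ).2)
  obtain ⟨g, hg⟩ := Algebra.IsInvariant.exists_smul_of_under_eq_of_profinite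
    (A := OK K) (B := OQ) (G := Qbar ≃ₐ[K] Qbar) (primeQ V) (primeQ A) hunder
  refine ⟨g.restrictScalars ℚ, fun a ha => g.commutes ⟨a, ha⟩, ?_⟩
  have hprime : primeQ A = primeQ ((g.restrictScalars ℚ) • V) := by
    rw [primeQ_smul, hg]
    ext b
    rw [Ideal.mem_pointwise_smul_iff_inv_smul_mem, Ideal.mem_pointwise_smul_iff_inv_smul_mem]
    rfl
  exact le_antisymm (le_of_primeQ_eq hq hA hprime)
    (le_of_primeQ_eq hq (liesOverPrime_smul _ hV) hprime.symm)

end Conj

/-! ### lifting a place through a closed point with prescribed centre -/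

section Lift

variable (M : ℕ) [NeZero M] (K : IntermediateField ℚ Qbar)

/-- membership in the valuation ring of a translated place. -/
theorem mem_smul_place_iff {F : Type*} [Field F] {L : Type*} [Field L] [IsAlgClosed L] [Algebra L F]
    (g : SemilinearAut L F) (v : Place L F) (y : F) :
    y ∈ (g • v).toValuationSubring ↔ g⁻¹ • y ∈ v.toValuationSubring := by
  constructor
  · intro h
    have h1 := smul_mem_smul g⁻¹ (g • v) h
    rwa [inv_smul_smul] at h1
  · intro h
    have h1 := smul_mem_smul g v h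
    rwa [smul_inv_smul] at h1

/-- **THE PLACE-LIFTING STEP.**  `B → K·F_M` a ring of functions regular at the place `w` of
`K·F_M / K`, containing the constants of `A ∩ K`; `𝔪` a maximal ideal of `B` containing the
non-units of `A ∩ K` and the functions of `B` vanishing at `w` (`w` passes through `𝔪`).  Then some
place `P` of `ℚ̄·F_M / ℚ̄` above `w` has centre `𝔪` on `B`: every `b ∈ B` has its value at `P` in `A`,
and this value is a non-unit of `A` exactly when `b ∈ 𝔪`. -/
theorem exists_place_above_centre {q : ℕ} (hq : q.Prime) {A : ValuationSubring Qbar}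
    (hA : A.LiesOverPrime q) {x : Fbar M} (hx : IsGen Qbar x)
    {B : Type*} [CommRing B] (φ : B →+* FK M K) (hφ : Function.Injective φ)
    (𝔪 : Ideal B) (h𝔪 : 𝔪.IsMaximal)
    (hconst : ∀ a : K, (a : Qbar) ∈ A →
      ∃ b : B, φ b = algebraMap K (FK M K) a ∧ ((a : Qbar) ∈ A.nonunits → b ∈ 𝔪))
    (w : Place K (FK M K)) (hw1 : ∀ b : B, φ b ∈ w.toValuationSubring)
    (hw2 : ∀ b : B, (φ b)⁻¹ ∉ w.toValuationSubring → b ∈ 𝔪) :
    ∃ P : Place Qbar (Fbar M),
      (∀ f : FK M K, PlaceExtend27.baseChangeHom M K f ∈ P.toValuationSubring ↔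
        f ∈ w.toValuationSubring) ∧
      ∀ b : B, ∃ hb : PlaceExtend27.baseChangeHom M K (φ b) ∈ P.toValuationSubring,
        valueHom hx P ⟨_, hb⟩ ∈ A ∧ (valueHom hx P ⟨_, hb⟩ ∈ A.nonunits ↔ b ∈ 𝔪) := by
  classical
  obtain ⟨P₁, e, he, hord, hmem⟩ := PlaceExtend27.exists_place_above_mem M K w
  have hB1 : ∀ b : B, PlaceExtend27.baseChangeHom M K (φ b) ∈ P₁.toValuationSubring :=
    fun b => (hmem _).2 (hw1 b)
  -- evaluation at `P₁`
  let toO : B →+* ↥P₁.toValuationSubring :=
    RingHom.codRestrict ((PlaceExtend27.baseChangeHom M K).comp φ) P₁.toValuationSubring hB1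
  let ev : B →+* Qbar := ((valueHom hx P₁ : ↥P₁.toValuationSubring →ₐ[Qbar] Qbar) :
    ↥P₁.toValuationSubring →+* Qbar).comp toO
  have hev : ∀ b, ev b = valueHom hx P₁ ⟨PlaceExtend27.baseChangeHom M K (φ b), hB1 b⟩ :=
    fun b => rfl
  -- constants
  have hevc : ∀ (a : K) (b : B), φ b = algebraMap K (FK M K) a → ev b = (a : Qbar) := by
    intro a b hb
    rw [hev]
    have h1 : (⟨PlaceExtend27.baseChangeHom M K (φ b), hB1 b⟩ : ↥P₁.toValuationSubring) =
        algebraMap Qbar ↥P₁.toValuationSubring (a : Qbar) :=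
      Subtype.ext (by
        show PlaceExtend27.baseChangeHom M K (φ b) = _
        rw [hb, PlaceExtend27.baseChangeHom_algebraMap]
        rfl)
    rw [h1, AlgHom.commutes]
    rfl
  -- the kernel of the evaluation lies in `𝔪`
  have hker : ∀ b, ev b = 0 → b ∈ 𝔪 := by
    intro b hb
    rw [hev, valueHom_eq_zero_iff_ord] at hb
    rcases hb with h0 | hpos
    · have h1 : φ b = 0 := by
        apply PlaceExtend27.baseChangeHom_injective M K
        rw [map_zero]
        exact h0
      have h2 : b = 0 := hφ (by rw [h1, map_zero])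
      rw [h2]
      exact 𝔪.zero_mem
    · apply hw2
      intro hinv
      have h1 : P₁.ord (PlaceExtend27.baseChangeHom M K (φ b)) = (e : ℤ) * w.ord (φ b) := hord _
      have h2 : 0 ≤ w.ord (φ b)⁻¹ := (ffp_mem_iff_ord_nonneg w).1 hinv
      rw [Place.ord_inv] at h2
      have h3 : (0 : ℤ) < (e : ℤ) * w.ord (φ b) := by rw [← h1]; exact hpos
      have he' : (0 : ℤ) < (e : ℤ) := by exact_mod_cast he
      have h4 : 0 < w.ord (φ b) := by
        by_contra hcon
        have := mul_nonpos_of_nonneg_of_nonpos he'.le (not_lt.mp hcon)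
        omega
      omega
  -- the image of `B` and the image of `𝔪`
  let ev' : B →+* ↥ev.range := ev.rangeRestrict
  have hsurj : Function.Surjective ev' := ev.rangeRestrict_surjective
  have hI : 𝔪.map ev' ≠ ⊤ := by
    intro htop
    have h1 : (𝔪.map ev').comap ev' = 𝔪 := by
      rw [Ideal.comap_map_of_surjective ev' hsurj]
      refine sup_eq_left.mpr fun b hb => hker b ?_
      have h2 : ev' b = 0 := hb
      exact congrArg Subtype.val h2
    rw [htop, Ideal.comap_top] at h1
    exact h𝔪.ne_top h1.symm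
  obtain ⟨V, hCV, hIV⟩ := Ideal.image_subset_nonunits_valuationSubring (𝔪.map ev') hI
  have hV1 : ∀ b, ev b ∈ V := fun b => hCV ⟨b, rfl⟩
  have hV2 : ∀ b ∈ 𝔪, ev b ∈ V.nonunits := fun b hb =>
    hIV ⟨ev' b, Ideal.mem_map_of_mem _ hb, rfl⟩
  have hV3 : ∀ b, ev b ∈ V.nonunits → b ∈ 𝔪 := by
    intro b hb
    by_contra hbm
    obtain ⟨y, i, hi, hyi⟩ := h𝔪.exists_inv hbm
    have h1 : ev y * ev b + ev i = 1 := by rw [← map_mul, ← map_add, hyi, map_one]
    have hvb : V.valuation (ev b) < 1 := (V.mem_nonunits_iff).1 hb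
    have hvi : V.valuation (ev i) < 1 := (V.mem_nonunits_iff).1 (hV2 i hi)
    have hvy : V.valuation (ev y) ≤ 1 := (V.valuation_le_one_iff _).2 (hV1 y)
    have hprod : V.valuation (ev y * ev b) < 1 := by
      rw [map_mul]
      exact lt_of_le_of_lt (mul_le_of_le_one_left' hvy) hvb
    have h2 : V.valuation (1 : Qbar) < 1 := by
      rw [← h1]
      exact lt_of_le_of_lt (Valuation.map_add _ _ _) (max_lt hprod hvi)
    rw [map_one] at h2
    exact lt_irrefl _ h2
  -- `V` lies over `q`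
  have hVq : V.LiesOverPrime q := by
    have hqA : (((q : ℕ) : K) : Qbar) ∈ A.nonunits := by
      have : (((q : ℕ) : K) : Qbar) = ((q : ℕ) : Qbar) := by simp
      rw [this]
      exact hA
    obtain ⟨b, hb, hbm⟩ := hconst ((q : ℕ) : K) (A.nonunits_subset hqA)
    have h1 := hV2 b (hbm hqA)
    rw [hevc _ b hb] at h1
    have : (((q : ℕ) : K) : Qbar) = ((q : ℕ) : Qbar) := by simp
    rw [this] at h1
    exact h1
  -- `V` and `A` have the same non-units among the integers of `K`
  have hVK : ∀ a : Qbar, a ∈ K → IsIntegral ℤ a → (a ∈ V.nonunits ↔ a ∈ A.nonunits) := by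
    intro a haK hint
    have haA : a ∈ A := mem_of_isIntegral_int A hint
    constructor
    · intro haV
      by_contra hnon
      have hva : A.valuation a = 1 := by
        refine le_antisymm ((A.valuation_le_one_iff a).2 haA) ?_
        rw [ValuationSubring.mem_nonunits_iff, not_lt] at hnon
        exact hnon
      have ha0 : a ≠ 0 := by
        rintro rfl
        rw [map_zero] at hva
        exact zero_ne_one hva
      have hinvA : a⁻¹ ∈ A := by
        rw [← ValuationSubring.valuation_le_one_iff, map_inv₀, hva, inv_one]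
      obtain ⟨b', hb', -⟩ := hconst ⟨a⁻¹, K.inv_mem haK⟩ hinvA
      have hinvV : a⁻¹ ∈ V := by
        have := hV1 b'
        rw [hevc _ b' hb'] at this
        exact this
      have h1 : V.valuation a < 1 := (V.mem_nonunits_iff).1 haV
      have h2 : V.valuation a⁻¹ ≤ 1 := (V.valuation_le_one_iff _).2 hinvV
      have h3 : V.valuation (a⁻¹ * a) < 1 := by
        rw [map_mul]
        exact lt_of_le_of_lt (mul_le_of_le_one_left' h2) h1
      rw [inv_mul_cancel₀ ha0, map_one] at h3
      exact lt_irrefl _ h3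
    · intro haAn
      obtain ⟨b, hb, hbm⟩ := hconst ⟨a, haK⟩ haA
      have := hV2 b (hbm haAn)
      rw [hevc _ b hb] at this
      exact this
  -- conjugate `V` to `A` over `K`
  obtain ⟨σ, hσK, hσ⟩ := exists_smul_eq_over K hq hA hVq hVK
  set g : SemilinearAut Qbar (Fbar M) := arithmeticGalois (modularFunctionFieldFull M) σ with hg
  have hfix : ∀ f : FK M K, g • PlaceExtend27.baseChangeHom M K f =
      PlaceExtend27.baseChangeHom M K f :=
    fun f => Fermat.Agent.ES.N34.GalRational1.smul_baseChangeHom_of_fixed M K σ hσK f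
  have hfix' : ∀ f : FK M K, g⁻¹ • PlaceExtend27.baseChangeHom M K f =
      PlaceExtend27.baseChangeHom M K f := by
    intro f
    conv_lhs => rw [← hfix f]
    exact inv_smul_smul _ _
  refine ⟨g • P₁, fun f => ?_, fun b => ?_⟩
  · rw [mem_smul_place_iff, hfix', hmem]
  · have hb : PlaceExtend27.baseChangeHom M K (φ b) ∈ (g • P₁).toValuationSubring := by
      rw [mem_smul_place_iff, hfix']
      exact hB1 b
    have hval : valueHom hx (g • P₁) ⟨_, hb⟩ = σ (ev b) := by
      have h1 := valueHom_smul' hx g P₁ (hB1 b)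
      rw [hg, baseAut_arithmeticGalois] at h1
      rw [hev]
      show _ = σ.toRingEquiv _
      rw [← h1]
      congr 1
      exact Subtype.ext (hfix (φ b)).symm
    refine ⟨hb, ?_, ?_⟩
    · rw [hval, hσ]
      exact ValuationSubring.smul_mem_pointwise_smul σ (ev b) V (hV1 b)
    · rw [hval, hσ, mem_smul_nonunits_iff]
      have h1 : σ⁻¹ (σ (ev b)) = ev b := σ.symm_apply_apply (ev b)
      rw [h1]
      exact ⟨hV3 b, hV2 b⟩

/-- **The place-lifting step at a chart**: `B` an `(A ∩ K)`-subalgebra of `K·F_M`, `𝔪` a maximal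
ideal of `B` containing the non-units of `A ∩ K`, `w` a place of `K·F_M / K` through `𝔪` (the two
clauses of `NodeAsm6.Thr B 𝔪 w`).  Then some place `P` of `ℚ̄·F_M / ℚ̄` above `w` has centre `𝔪`. -/
theorem exists_place_above_of_thr {q : ℕ} (hq : q.Prime) {A : ValuationSubring Qbar}
    (hA : A.LiesOverPrime q) {x : Fbar M} (hx : IsGen Qbar x)
    (B : Subalgebra ↥(AK A K) ↥(FK M K)) (𝔪 : Ideal B) (h𝔪 : 𝔪.IsMaximal)
    (hnon : ∀ a : ↥(AK A K), ((a : K) : Qbar) ∈ A.nonunits → algebraMap ↥(AK A K) B a ∈ 𝔪)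
    (w : Place K (FK M K)) (hw1 : ∀ b ∈ B, b ∈ w.toValuationSubring)
    (hw2 : ∀ b : B, ((b : FK M K))⁻¹ ∉ w.toValuationSubring → b ∈ 𝔪) :
    ∃ P : Place Qbar (Fbar M),
      (∀ f : FK M K, PlaceExtend27.baseChangeHom M K f ∈ P.toValuationSubring ↔
        f ∈ w.toValuationSubring) ∧
      ∀ b : B, ∃ hb : PlaceExtend27.baseChangeHom M K (b : FK M K) ∈ P.toValuationSubring,
        valueHom hx P ⟨_, hb⟩ ∈ A ∧ (valueHom hx P ⟨_, hb⟩ ∈ A.nonunits ↔ b ∈ 𝔪) := by
  refine exists_place_above_centre M K hq hA hx (B.val : ↥B →+* ↥(FK M K))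
    Subtype.val_injective 𝔪 h𝔪 (fun a ha => ?_) w (fun b => hw1 b b.2) hw2
  have haK : a ∈ AK A K := (NumberFieldDVR27.mem_AK_iff A K a).2 ha
  exact ⟨algebraMap ↥(AK A K) B ⟨a, haK⟩, rfl, fun hn => hnon ⟨a, haK⟩ hn⟩

/-- the same with a uniformiser: `π ∈ 𝔪` and every nonzero element of `A ∩ K` is a power of `π` times
a unit (the field `dvrR` of `NumData13.NodalNumData`). -/
theorem exists_place_above_of_thr_unif {q : ℕ} (hq : q.Prime) {A : ValuationSubring Qbar}
    (hA : A.LiesOverPrime q) {x : Fbar M} (hx : IsGen Qbar x)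
    (B : Subalgebra ↥(AK A K) ↥(FK M K)) (𝔪 : Ideal B) (h𝔪 : 𝔪.IsMaximal)
    (π : ↥(AK A K)) (hπ𝔪 : algebraMap ↥(AK A K) B π ∈ 𝔪)
    (dvrR : ∀ r : ↥(AK A K), r ≠ 0 → ∃ (k : ℕ) (v : (↥(AK A K))ˣ), r = π ^ k * v)
    (w : Place K (FK M K)) (hw1 : ∀ b ∈ B, b ∈ w.toValuationSubring)
    (hw2 : ∀ b : B, ((b : FK M K))⁻¹ ∉ w.toValuationSubring → b ∈ 𝔪) :
    ∃ P : Place Qbar (Fbar M),
      (∀ f : FK M K, PlaceExtend27.baseChangeHom M K f ∈ P.toValuationSubring ↔
        f ∈ w.toValuationSubring) ∧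
      ∀ b : B, ∃ hb : PlaceExtend27.baseChangeHom M K (b : FK M K) ∈ P.toValuationSubring,
        valueHom hx P ⟨_, hb⟩ ∈ A ∧ (valueHom hx P ⟨_, hb⟩ ∈ A.nonunits ↔ b ∈ 𝔪) := by
  refine exists_place_above_of_thr M K hq hA hx B 𝔪 h𝔪 (fun a ha => ?_) w hw1 hw2
  by_cases ha0 : a = 0
  · rw [ha0, map_zero]
    exact 𝔪.zero_mem
  obtain ⟨k, v, hkv⟩ := dvrR a ha0
  rcases Nat.eq_zero_or_pos k with hk | hk
  · exfalso
    rw [hk, pow_zero, one_mul] at hkv
    -- `a` is a unit of `A ∩ K`, hence of `A`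
    have h1 : ((a : K) : Qbar) * (((↑v⁻¹ : ↥(AK A K)) : K) : Qbar) = 1 := by
      have h2 : a * (↑v⁻¹ : ↥(AK A K)) = 1 := by rw [hkv]; exact v.mul_inv
      have h3 := congrArg (fun z : ↥(AK A K) => ((z : K) : Qbar)) h2
      simpa using h3
    have h4 : (((↑v⁻¹ : ↥(AK A K)) : K) : Qbar) ∈ A :=
      (NumberFieldDVR27.mem_AK_iff A K _).1 (↑v⁻¹ : ↥(AK A K)).2
    have h5 : A.valuation ((a : K) : Qbar) < 1 := (A.mem_nonunits_iff).1 ha
    have h6 : A.valuation (((↑v⁻¹ : ↥(AK A K)) : K) : Qbar) ≤ 1 := (A.valuation_le_one_iff _).2 h4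
    have h7 : A.valuation (((a : K) : Qbar) * (((↑v⁻¹ : ↥(AK A K)) : K) : Qbar)) < 1 := by
      rw [map_mul, mul_comm]
      exact lt_of_le_of_lt (mul_le_of_le_one_left' h6) h5
    rw [h1, map_one] at h7
    exact lt_irrefl _ h7
  · rw [hkv, map_mul, map_pow]
    apply 𝔪.mul_mem_right
    obtain ⟨k', rfl⟩ : ∃ k', k = k' + 1 := ⟨k - 1, by omega⟩
    rw [pow_succ]
    exact 𝔪.mul_mem_left _ hπ𝔪

end Lift

end Fermat.Agent.ES.W33.CentreLift6
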