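/-
Programme W (S33), node dictionary, EXISTENCE OF A PLACE THROUGH A CLOSED POINT (helper6).

`B ⊂ F` a chart of the nodal two-chart model over `R` (noetherian, integrally closed, integral over
`R[t]`, `π`-saturated in `O1 ⊓ O2`), `𝔪` a prime of `B` which is contained in neither of the two
vertical primes `𝔭_i = B ∩ π O_i` ("`𝔪` is a closed point, not a whole component").  Then

  **some place `w` of `F / K` passes through `𝔪`** (`NodeAsm6.Thr B 𝔪 w`).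

Proof.  By prime avoidance there is `f ∈ 𝔪`, `f ∉ 𝔭_1 ∪ 𝔭_2`.  Let `𝔭 ≤ 𝔪` be a minimal prime over `f B`;
`ht 𝔭 ≤ 1` by Krull's Hauptidealsatz.  If `π ∈ 𝔭` then `𝔭_1 ∩ 𝔭_2 = π B ⊆ 𝔭` (saturation), so `𝔭_i ⊆ 𝔭`
for some `i`, and `⊥ < 𝔭_i < 𝔭` (`f ∈ 𝔭 ∖ 𝔭_i`) is a chain of primes of length two: contradiction.
So `𝔭` is a horizontal prime `≠ ⊥` inside `𝔪`, and main's `HorizPlace13.exists_place_of_horizontal`
gives the place `w` with `O_w = B_𝔭`.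

* `vert_isPrime`              : the vertical ideal `B ∩ π O` is prime;
* `exists_horizontal_le`      : the horizontal prime;
* `exists_thr`                : the place through `𝔪`;
* `exists_thr_of_node`        : the same at a two-branch point, from one element of `𝔭_2 ∖ 𝔭_1` and one
  of `𝔭_1 ∖ 𝔭_2` (at Programme N's model: `t - y ^ p` and `y - t ^ p`, Kronecker);
* `exists_thr_B0`, `exists_thr_B1` : the two charts of a `NumData13.NodalNumData`.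
-/
import Mathlib
import Fermat.Agent.ES.N34.NodeAsm6
import Fermat.Agent.ES.N34.NumData13
import Fermat.Agent.ES.N34.NodeCoords29

set_option autoImplicit false

namespace Fermat.Agent.ES.W33.HorizExists6

open AlgebraicCurve Fermat.Agent.X0.FF
open Fermat.Agent.ES.N34.NodalCore13 Fermat.Agent.ES.N34.HorizPlace13
  Fermat.Agent.ES.N34.NodeAsm6 Fermat.Agent.ES.N34.NumData13 Fermat.Agent.ES.N34.NodeCoords29
  Fermat.Agent.ES.N34.NodalSmooth13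

section Vert

variable {R F : Type*} [CommRing R] [Field F] [Algebra R F]

/-- **The vertical ideal `B ∩ π O` is prime** (`π` a uniformiser of `O`). -/
theorem vert_isPrime (π : R) (B : Subalgebra R F) (O : ValuationSubring F)
    (leO : ∀ x ∈ B, x ∈ O) (pi_ne : algebraMap R F π ≠ 0)
    (pi_nonunit : (algebraMap R F π)⁻¹ ∉ O)
    (unif : ∀ x ∈ O, x⁻¹ ∉ O → ∃ c ∈ O, x = algebraMap R F π * c) :
    (vert π B O leO).IsPrime := by
  set p : F := algebraMap R F π with hp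
  refine ⟨fun htop => ?_, fun {a b} hab => ?_⟩
  · have h1 : (1 : B) ∈ vert π B O leO := by rw [htop]; trivial
    obtain ⟨c, hc, h⟩ := h1
    apply pi_nonunit
    have h2 : p⁻¹ = c := by
      have h3 : p * c = 1 := by rw [← h]; simp
      exact (eq_inv_of_mul_eq_one_right h3).symm ▸ rfl
    rw [h2]
    exact hc
  · by_contra hcon
    obtain ⟨ha, hb⟩ := not_or.mp hcon
    have hinv : ∀ z : B, z ∉ vert π B O leO → ((z : F))⁻¹ ∈ O := by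
      intro z hz
      by_contra hzinv
      exact hz (unif _ (leO _ z.2) hzinv)
    obtain ⟨c, hc, h⟩ := hab
    apply pi_nonunit
    have h1 : ((a * b : B) : F) = (a : F) * (b : F) := by push_cast; rfl
    rw [h1] at h
    have ha0 : (a : F) ≠ 0 := by
      intro h0
      apply ha
      exact ⟨0, O.zero_mem, by rw [h0, mul_zero]⟩
    have hb0 : (b : F) ≠ 0 := by
      intro h0
      apply hb
      exact ⟨0, O.zero_mem, by rw [h0, mul_zero]⟩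
    have h2 : p⁻¹ = c * ((a : F))⁻¹ * ((b : F))⁻¹ := by
      apply inv_eq_of_mul_eq_one_right
      have h3 : p * (c * ((a : F))⁻¹ * ((b : F))⁻¹) = (p * c) * ((a : F))⁻¹ * ((b : F))⁻¹ := by ring
      rw [h3, ← h]
      field_simp
    rw [h2]
    exact O.mul_mem _ _ (O.mul_mem _ _ hc (hinv a ha)) (hinv b hb)

end Vert

variable {R K F : Type*} [CommRing R] [Field K] [Field F] [Algebra R K] [Algebra K F]
  [Algebra R F] [IsScalarTower R K F]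

/-- **A horizontal prime through a closed point**: `𝔪` a prime of the chart `B` contained in
neither vertical prime; then some prime `𝔭 ≠ ⊥`, `𝔭 ≤ 𝔪`, does not contain `π`. -/
theorem exists_horizontal_le (π : R) (B : Subalgebra R F) (O1 O2 : ValuationSubring F)
    (noethB : IsNoetherianRing B) (pi_ne : algebraMap R F π ≠ 0)
    (leO1 : ∀ x ∈ B, x ∈ O1) (leO2 : ∀ x ∈ B, x ∈ O2)
    (pi_nonunit1 : (algebraMap R F π)⁻¹ ∉ O1) (pi_nonunit2 : (algebraMap R F π)⁻¹ ∉ O2)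
    (unif1 : ∀ x ∈ O1, x⁻¹ ∉ O1 → ∃ c ∈ O1, x = algebraMap R F π * c)
    (unif2 : ∀ x ∈ O2, x⁻¹ ∉ O2 → ∃ c ∈ O2, x = algebraMap R F π * c)
    (sat : ∀ b ∈ B, ∀ c : F, c ∈ O1 → c ∈ O2 → b = algebraMap R F π * c → c ∈ B)
    (𝔪 : Ideal B) [h𝔪 : 𝔪.IsPrime]
    (h1 : ∃ b ∈ 𝔪, ¬ ∃ c ∈ O1, (b : F) = algebraMap R F π * c)
    (h2 : ∃ b ∈ 𝔪, ¬ ∃ c ∈ O2, (b : F) = algebraMap R F π * c) :
    ∃ 𝔭 : Ideal B, 𝔭.IsPrime ∧ 𝔭 ≠ ⊥ ∧ 𝔭 ≤ 𝔪 ∧ algebraMap R B π ∉ 𝔭 := by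
  classical
  obtain ⟨P1, hP1⟩ : ∃ P1 : Ideal B, P1 = vert π B O1 leO1 := ⟨_, rfl⟩
  obtain ⟨P2, hP2⟩ : ∃ P2 : Ideal B, P2 = vert π B O2 leO2 := ⟨_, rfl⟩
  have hP1p : P1.IsPrime := hP1 ▸ vert_isPrime π B O1 leO1 pi_ne pi_nonunit1 unif1
  have hP2p : P2.IsPrime := hP2 ▸ vert_isPrime π B O2 leO2 pi_ne pi_nonunit2 unif2
  have hmem1 : ∀ b : B, b ∈ P1 ↔ ∃ c ∈ O1, (b : F) = algebraMap R F π * c := fun b => by
    rw [hP1]; exact Iff.rfl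
  have hmem2 : ∀ b : B, b ∈ P2 ↔ ∃ c ∈ O2, (b : F) = algebraMap R F π * c := fun b => by
    rw [hP2]; exact Iff.rfl
  have hπB : algebraMap R B π ≠ 0 := by
    intro h0
    apply pi_ne
    have := congrArg (fun z : B => (z : F)) h0
    simpa using this
  have hπ1 : algebraMap R B π ∈ P1 := (hmem1 _).2 ⟨1, O1.one_mem, by simp⟩
  have hπ2 : algebraMap R B π ∈ P2 := (hmem2 _).2 ⟨1, O2.one_mem, by simp⟩
  -- prime avoidance
  have hnot : ¬ ((𝔪 : Set B) ⊆ (P1 : Set B) ∪ (P2 : Set B)) := by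
    rw [Ideal.subset_union]
    rintro (h | h)
    · obtain ⟨b, hb, hb1⟩ := h1
      exact hb1 ((hmem1 b).1 (h hb))
    · obtain ⟨b, hb, hb2⟩ := h2
      exact hb2 ((hmem2 b).1 (h hb))
  obtain ⟨f, hf𝔪, hfP⟩ := Set.not_subset.mp hnot
  have hf1 : f ∉ P1 := fun h => hfP (Or.inl h)
  have hf2 : f ∉ P2 := fun h => hfP (Or.inr h)
  -- a minimal prime over `f` inside `𝔪`
  have hle : Ideal.span {f} ≤ 𝔪 := (Ideal.span_singleton_le_iff_mem 𝔪).mpr hf𝔪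
  obtain ⟨𝔭, h𝔭min, h𝔭le⟩ := Ideal.exists_minimalPrimes_le hle
  have h𝔭 : 𝔭.IsPrime := h𝔭min.1.1
  have hf𝔭 : f ∈ 𝔭 := h𝔭min.1.2 (Ideal.mem_span_singleton_self f)
  have hht : 𝔭.height ≤ 1 :=
    Ideal.height_le_one_of_isPrincipal_of_mem_minimalPrimes (Ideal.span {f}) 𝔭 h𝔭min
  refine ⟨𝔭, h𝔭, ?_, h𝔭le, ?_⟩
  · intro hbot
    rw [hbot, Ideal.mem_bot] at hf𝔭
    exact hf1 (hf𝔭 ▸ P1.zero_mem)
  · intro hπ𝔭
    have hinf : P1 ⊓ P2 ≤ 𝔭 := by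
      rintro b ⟨hb1, hb2⟩
      obtain ⟨e, he⟩ := vert_inf π B O1 O2 leO1 leO2 sat pi_ne b ((hmem1 b).1 hb1)
        ((hmem2 b).1 hb2)
      rw [he]
      exact 𝔭.mul_mem_right _ hπ𝔭
    have key : ∀ Q : Ideal B, Q.IsPrime → algebraMap R B π ∈ Q → f ∉ Q → Q ≤ 𝔭 → False := by
      intro Q hQ hπQ hfQ hQ𝔭
      have hlt : Q < 𝔭 := lt_of_le_of_ne hQ𝔭 (fun h => hfQ (h ▸ hf𝔭))
      have hQ0 : Q.height ≠ 0 := by
        rw [Ne, Ideal.height_eq_zero_iff_eq_bot]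
        intro hQbot
        rw [hQbot, Ideal.mem_bot] at hπQ
        exact hπB hπQ
      have h3 : Q.height + 1 ≤ 𝔭.height := Ideal.height_add_one_le_of_lt_of_isPrime hlt
      have h4 : (1 : ℕ∞) ≤ Q.height := Order.one_le_iff_pos.mpr (pos_iff_ne_zero.mpr hQ0)
      have h5 : (1 : ℕ∞) + 1 ≤ 1 :=
        calc (1 : ℕ∞) + 1 ≤ Q.height + 1 := by gcongr
          _ ≤ 1 := h3.trans hht
      exact absurd h5 (by decide)
    rcases (Ideal.IsPrime.inf_le h𝔭).mp hinf with h | h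
    · exact key P1 hP1p hπ1 hf1 h
    · exact key P2 hP2p hπ2 hf2 h

/-- **A place through a closed point of a chart.** -/
theorem exists_thr (π : R) (t : F) (B : Subalgebra R F) (O1 O2 : ValuationSubring F)
    (ht : t ∈ B) (noethB : IsNoetherianRing B) (fracR : IsFractionRing R K)
    (dvrR : ∀ r : R, r ≠ 0 → ∃ (k : ℕ) (v : Rˣ), r = π ^ k * v)
    (pi_ne : algebraMap R F π ≠ 0)
    (intcl : ∀ x : F, IsIntegral B x → x ∈ B)
    (int0 : ∀ x ∈ B, IsIntegral (Algebra.adjoin R {t}) x)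
    (frac : ∀ x : F, ∃ a ∈ B, ∃ b ∈ B, b ≠ 0 ∧ x * b = a)
    (leO1 : ∀ x ∈ B, x ∈ O1) (leO2 : ∀ x ∈ B, x ∈ O2)
    (pi_nonunit1 : (algebraMap R F π)⁻¹ ∉ O1) (pi_nonunit2 : (algebraMap R F π)⁻¹ ∉ O2)
    (unif1 : ∀ x ∈ O1, x⁻¹ ∉ O1 → ∃ c ∈ O1, x = algebraMap R F π * c)
    (unif2 : ∀ x ∈ O2, x⁻¹ ∉ O2 → ∃ c ∈ O2, x = algebraMap R F π * c)
    (sat : ∀ b ∈ B, ∀ c : F, c ∈ O1 → c ∈ O2 → b = algebraMap R F π * c → c ∈ B)
    (𝔪 : Ideal B) [h𝔪 : 𝔪.IsPrime]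
    (h1 : ∃ b ∈ 𝔪, ¬ ∃ c ∈ O1, (b : F) = algebraMap R F π * c)
    (h2 : ∃ b ∈ 𝔪, ¬ ∃ c ∈ O2, (b : F) = algebraMap R F π * c) :
    ∃ w : Place K F, Thr B 𝔪 w := by
  obtain ⟨𝔭, h𝔭, hne, hle, hπ𝔭⟩ := exists_horizontal_le π B O1 O2 noethB pi_ne leO1 leO2
    pi_nonunit1 pi_nonunit2 unif1 unif2 sat 𝔪 h1 h2
  obtain ⟨v, hv⟩ := exists_place_of_horizontal (K := K) π t B ht noethB fracR dvrR pi_ne intcl int0
    frac 𝔭 hne hπ𝔭
  refine ⟨v, fun b hb => ?_, fun b hb => ?_⟩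
  · exact (hv b).mpr ⟨⟨b, hb⟩, 1, fun h1 => h𝔭.ne_top ((Ideal.eq_top_iff_one 𝔭).mpr h1), by simp⟩
  · apply hle
    by_contra hb𝔭
    apply hb
    have hb0 : (b : F) ≠ 0 := coe_ne_zero_of_notMem B 𝔭 hb𝔭
    exact (hv _).mpr ⟨1, b, hb𝔭, by simp [inv_mul_cancel₀ hb0]⟩

/-- **A place through a two-branch point**, from one element of `𝔭_2 ∖ 𝔭_1` and one of `𝔭_1 ∖ 𝔭_2`. -/
theorem exists_thr_of_node (π : R) (t : F) (B : Subalgebra R F) (O1 O2 : ValuationSubring F)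
    (ht : t ∈ B) (noethB : IsNoetherianRing B) (fracR : IsFractionRing R K)
    (dvrR : ∀ r : R, r ≠ 0 → ∃ (k : ℕ) (v : Rˣ), r = π ^ k * v)
    (pi_ne : algebraMap R F π ≠ 0)
    (intcl : ∀ x : F, IsIntegral B x → x ∈ B)
    (int0 : ∀ x ∈ B, IsIntegral (Algebra.adjoin R {t}) x)
    (frac : ∀ x : F, ∃ a ∈ B, ∃ b ∈ B, b ≠ 0 ∧ x * b = a)
    (leO1 : ∀ x ∈ B, x ∈ O1) (leO2 : ∀ x ∈ B, x ∈ O2)
    (pi_nonunit1 : (algebraMap R F π)⁻¹ ∉ O1) (pi_nonunit2 : (algebraMap R F π)⁻¹ ∉ O2)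
    (unif1 : ∀ x ∈ O1, x⁻¹ ∉ O1 → ∃ c ∈ O1, x = algebraMap R F π * c)
    (unif2 : ∀ x ∈ O2, x⁻¹ ∉ O2 → ∃ c ∈ O2, x = algebraMap R F π * c)
    (sat : ∀ b ∈ B, ∀ c : F, c ∈ O1 → c ∈ O2 → b = algebraMap R F π * c → c ∈ B)
    (𝔪 : Ideal B) [h𝔪 : 𝔪.IsPrime]
    (hon1 : ¬ OffBranch π B O1 𝔪) (hon2 : ¬ OffBranch π B O2 𝔪)
    (c21 : B) (hc21 : ∃ o ∈ O2, (c21 : F) = algebraMap R F π * o)
    (hc21' : ¬ ∃ o ∈ O1, (c21 : F) = algebraMap R F π * o)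
    (c12 : B) (hc12 : ∃ o ∈ O1, (c12 : F) = algebraMap R F π * o)
    (hc12' : ¬ ∃ o ∈ O2, (c12 : F) = algebraMap R F π * o) :
    ∃ w : Place K F, Thr B 𝔪 w := by
  have hm21 : c21 ∈ 𝔪 := by
    by_contra h
    obtain ⟨o, ho, he⟩ := hc21
    exact hon2 ⟨c21, h, o, ho, he⟩
  have hm12 : c12 ∈ 𝔪 := by
    by_contra h
    obtain ⟨o, ho, he⟩ := hc12
    exact hon1 ⟨c12, h, o, ho, he⟩
  exact exists_thr (K := K) π t B O1 O2 ht noethB fracR dvrR pi_ne intcl int0 frac leO1 leO2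
    pi_nonunit1 pi_nonunit2 unif1 unif2 sat 𝔪 ⟨c21, hm21, hc21'⟩ ⟨c12, hm12, hc12'⟩

variable {π : R} {t : F} {B0 B1 : Subalgebra R F} {O1 O2 : ValuationSubring F}

/-- a place through a closed point of chart 0 of the nodal two-chart model. -/
theorem exists_thr_B0 (D : NodalNumData R K F π t B0 B1 O1 O2) (𝔪 : Ideal B0) [𝔪.IsPrime]
    (h1 : ∃ b ∈ 𝔪, ¬ ∃ c ∈ O1, (b : F) = algebraMap R F π * c)
    (h2 : ∃ b ∈ 𝔪, ¬ ∃ c ∈ O2, (b : F) = algebraMap R F π * c) :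
    ∃ w : Place K F, Thr B0 𝔪 w :=
  exists_thr (K := K) π t B0 O1 O2 D.model.t_mem D.noeth0 D.fracR D.dvrR D.model.pi_ne
    D.model.intcl0 D.model.int0 D.frac0 D.model.le_O1_0 D.model.le_O2_0 D.model.pi_nonunit1
    D.model.pi_nonunit2 D.model.unif1 D.model.unif2 D.model.sat0 𝔪 h1 h2

/-- a place through a closed point of chart 1 of the nodal two-chart model. -/
theorem exists_thr_B1 (D : NodalNumData R K F π t B0 B1 O1 O2) (𝔪 : Ideal B1) [𝔪.IsPrime]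
    (h1 : ∃ b ∈ 𝔪, ¬ ∃ c ∈ O1, (b : F) = algebraMap R F π * c)
    (h2 : ∃ b ∈ 𝔪, ¬ ∃ c ∈ O2, (b : F) = algebraMap R F π * c) :
    ∃ w : Place K F, Thr B1 𝔪 w :=
  exists_thr (K := K) π t⁻¹ B1 O1 O2 D.model.tinv_mem D.noeth1 D.fracR D.dvrR D.model.pi_ne
    D.model.intcl1 D.model.int1 D.frac1 D.model.le_O1_1 D.model.le_O2_1 D.model.pi_nonunit1
    D.model.pi_nonunit2 D.model.unif1 D.model.unif2 D.model.sat1 𝔪 h1 h2

end Fermat.Agent.ES.W33.HorizExists6
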