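/-
Programme W (S33), node dictionary: EVERY CLOSED POINT OF THE LEVEL-`K` MODEL IS THE CENTRE OF A PLACE
OF `ℚ̄·F_M` (helper6) — `HorizExists6` (a place of `K·F_M / K` through the closed point; Krull) followed by
`CentreLift6` (lift it to `ℚ̄` with the prescribed centre; domination + conjugacy over `K`).

`K ⊂ ℚ̄`, `A` over `q`, `D : NodalDataAt (A ∩ K) (K·F_M) π t B0 B1 O1 O2` the level-`K` model bundle of
Programme N, `𝔪` a maximal ideal of a chart containing `π`, not contained in either vertical prime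
`B ∩ π O_i`.  Then there is a place `P` of `ℚ̄·F_M / ℚ̄` with `b(P) ∈ A` for all `b` in the chart and
`b(P) ∈ 𝔪_A ↔ b ∈ 𝔪` (i.e. `centre K P = 𝔪` in the vocabulary of `NodeDict11`).

* `exists_place_centre_B0`, `exists_place_centre_B1` : at a closed point contained in neither
  vertical prime;
* `exists_place_node_B0`, `exists_place_node_B1` : at a two-branch point (`¬ OffBranch` twice), given
  one element of `𝔭_2 ∖ 𝔭_1` and one of `𝔭_1 ∖ 𝔭_2`.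
-/
import Mathlib
import Fermat.Agent.ES.W33.CentreLift6
import Fermat.Agent.ES.W33.HorizExists6
import Fermat.Agent.ES.N34.ModelInput13

set_option autoImplicit false
set_option synthInstance.maxHeartbeats 400000
set_option linter.unusedSectionVars false

noncomputable section

namespace Fermat.Agent.ES.W33.CentreExists6

open AlgebraicCurve ModularCurve HahnSeries
open Fermat.Agent.X0 Fermat.Agent.X0.FF Fermat.Agent.ES.RED.PlaceValue13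
open Fermat.Agent.RED.Interface4 Fermat.Agent.RED.DESC
open Fermat.Agent.ES.N34.NodalCore13 Fermat.Agent.ES.N34.NodeAsm6 Fermat.Agent.ES.N34.NumData13
  Fermat.Agent.ES.N34.ModelInput13
open Fermat.Agent.ES.W33.CentreLift6 Fermat.Agent.ES.W33.HorizExists6

variable (M : ℕ) [NeZero M] (K : IntermediateField ℚ Qbar)

/-- **every closed point of chart 0 (not a whole component) is the centre of a place of `ℚ̄·F_M`.** -/
theorem exists_place_centre_B0 {q : ℕ} (hq : q.Prime) {A : ValuationSubring Qbar}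
    (hA : A.LiesOverPrime q) {x : Fbar M} (hx : IsGen Qbar x)
    {π : ↥(AK A K)} {t : ↥(FK M K)} {B0 B1 : Subalgebra ↥(AK A K) ↥(FK M K)}
    {O1 O2 : ValuationSubring ↥(FK M K)}
    (D : NodalDataAt (AK A K) (FK M K) π t B0 B1 O1 O2)
    (𝔪 : Ideal B0) (h𝔪 : 𝔪.IsMaximal) (hπ𝔪 : algebraMap ↥(AK A K) B0 π ∈ 𝔪)
    (h1 : ∃ b ∈ 𝔪, ¬ ∃ c ∈ O1, ((b : B0) : FK M K) = algebraMap ↥(AK A K) ↥(FK M K) π * c)
    (h2 : ∃ b ∈ 𝔪, ¬ ∃ c ∈ O2, ((b : B0) : FK M K) = algebraMap ↥(AK A K) ↥(FK M K) π * c) :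
    ∃ P : Place Qbar (Fbar M),
      ∀ b : B0, ∃ hb : PlaceExtend27.baseChangeHom M K (b : FK M K) ∈ P.toValuationSubring,
        valueHom hx P ⟨_, hb⟩ ∈ A ∧ (valueHom hx P ⟨_, hb⟩ ∈ A.nonunits ↔ b ∈ 𝔪) := by
  haveI := Fermat.Agent.RED.NumInst4.isScalarTower_OE (AK A K) (FK M K)
  haveI : 𝔪.IsPrime := h𝔪.isPrime
  have D' : NodalNumData ↥(AK A K) ↥K ↥(FK M K) π t B0 B1 O1 O2 := D
  obtain ⟨w, hw⟩ := exists_thr_B0 D' 𝔪 h1 h2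
  obtain ⟨P, -, hP⟩ := exists_place_above_of_thr_unif M K hq hA hx B0 𝔪 h𝔪 π hπ𝔪 D'.dvrR w
    hw.1 hw.2
  exact ⟨P, hP⟩

/-- **every closed point of chart 1 (not a whole component) is the centre of a place of `ℚ̄·F_M`.** -/
theorem exists_place_centre_B1 {q : ℕ} (hq : q.Prime) {A : ValuationSubring Qbar}
    (hA : A.LiesOverPrime q) {x : Fbar M} (hx : IsGen Qbar x)
    {π : ↥(AK A K)} {t : ↥(FK M K)} {B0 B1 : Subalgebra ↥(AK A K) ↥(FK M K)}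
    {O1 O2 : ValuationSubring ↥(FK M K)}
    (D : NodalDataAt (AK A K) (FK M K) π t B0 B1 O1 O2)
    (𝔪 : Ideal B1) (h𝔪 : 𝔪.IsMaximal) (hπ𝔪 : algebraMap ↥(AK A K) B1 π ∈ 𝔪)
    (h1 : ∃ b ∈ 𝔪, ¬ ∃ c ∈ O1, ((b : B1) : FK M K) = algebraMap ↥(AK A K) ↥(FK M K) π * c)
    (h2 : ∃ b ∈ 𝔪, ¬ ∃ c ∈ O2, ((b : B1) : FK M K) = algebraMap ↥(AK A K) ↥(FK M K) π * c) :
    ∃ P : Place Qbar (Fbar M),
      ∀ b : B1, ∃ hb : PlaceExtend27.baseChangeHom M K (b : FK M K) ∈ P.toValuationSubring,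
        valueHom hx P ⟨_, hb⟩ ∈ A ∧ (valueHom hx P ⟨_, hb⟩ ∈ A.nonunits ↔ b ∈ 𝔪) := by
  haveI := Fermat.Agent.RED.NumInst4.isScalarTower_OE (AK A K) (FK M K)
  haveI : 𝔪.IsPrime := h𝔪.isPrime
  have D' : NodalNumData ↥(AK A K) ↥K ↥(FK M K) π t B0 B1 O1 O2 := D
  obtain ⟨w, hw⟩ := exists_thr_B1 D' 𝔪 h1 h2
  obtain ⟨P, -, hP⟩ := exists_place_above_of_thr_unif M K hq hA hx B1 𝔪 h𝔪 π hπ𝔪 D'.dvrR w
    hw.1 hw.2
  exact ⟨P, hP⟩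

/-- **every two-branch point of chart 0 is the centre of a place of `ℚ̄·F_M`**, given one element of
`𝔭_2 ∖ 𝔭_1` and one of `𝔭_1 ∖ 𝔭_2`. -/
theorem exists_place_node_B0 {q : ℕ} (hq : q.Prime) {A : ValuationSubring Qbar}
    (hA : A.LiesOverPrime q) {x : Fbar M} (hx : IsGen Qbar x)
    {π : ↥(AK A K)} {t : ↥(FK M K)} {B0 B1 : Subalgebra ↥(AK A K) ↥(FK M K)}
    {O1 O2 : ValuationSubring ↥(FK M K)}
    (D : NodalDataAt (AK A K) (FK M K) π t B0 B1 O1 O2)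
    (𝔪 : Ideal B0) (h𝔪 : 𝔪.IsMaximal) (hπ𝔪 : algebraMap ↥(AK A K) B0 π ∈ 𝔪)
    (hon1 : ¬ OffBranch π B0 O1 𝔪) (hon2 : ¬ OffBranch π B0 O2 𝔪)
    (c21 : B0) (hc21 : ∃ o ∈ O2, (c21 : FK M K) = algebraMap ↥(AK A K) ↥(FK M K) π * o)
    (hc21' : ¬ ∃ o ∈ O1, (c21 : FK M K) = algebraMap ↥(AK A K) ↥(FK M K) π * o)
    (c12 : B0) (hc12 : ∃ o ∈ O1, (c12 : FK M K) = algebraMap ↥(AK A K) ↥(FK M K) π * o)
    (hc12' : ¬ ∃ o ∈ O2, (c12 : FK M K) = algebraMap ↥(AK A K) ↥(FK M K) π * o) :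
    ∃ P : Place Qbar (Fbar M),
      ∀ b : B0, ∃ hb : PlaceExtend27.baseChangeHom M K (b : FK M K) ∈ P.toValuationSubring,
        valueHom hx P ⟨_, hb⟩ ∈ A ∧ (valueHom hx P ⟨_, hb⟩ ∈ A.nonunits ↔ b ∈ 𝔪) := by
  have hm21 : c21 ∈ 𝔪 := by
    by_contra h
    obtain ⟨o, ho, he⟩ := hc21
    exact hon2 ⟨c21, h, o, ho, he⟩
  have hm12 : c12 ∈ 𝔪 := by
    by_contra h
    obtain ⟨o, ho, he⟩ := hc12
    exact hon1 ⟨c12, h, o, ho, he⟩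
  exact exists_place_centre_B0 M K hq hA hx D 𝔪 h𝔪 hπ𝔪 ⟨c21, hm21, hc21'⟩ ⟨c12, hm12, hc12'⟩

/-- **every two-branch point of chart 1 is the centre of a place of `ℚ̄·F_M`**, given one element of
`𝔭_2 ∖ 𝔭_1` and one of `𝔭_1 ∖ 𝔭_2`. -/
theorem exists_place_node_B1 {q : ℕ} (hq : q.Prime) {A : ValuationSubring Qbar}
    (hA : A.LiesOverPrime q) {x : Fbar M} (hx : IsGen Qbar x)
    {π : ↥(AK A K)} {t : ↥(FK M K)} {B0 B1 : Subalgebra ↥(AK A K) ↥(FK M K)}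
    {O1 O2 : ValuationSubring ↥(FK M K)}
    (D : NodalDataAt (AK A K) (FK M K) π t B0 B1 O1 O2)
    (𝔪 : Ideal B1) (h𝔪 : 𝔪.IsMaximal) (hπ𝔪 : algebraMap ↥(AK A K) B1 π ∈ 𝔪)
    (hon1 : ¬ OffBranch π B1 O1 𝔪) (hon2 : ¬ OffBranch π B1 O2 𝔪)
    (c21 : B1) (hc21 : ∃ o ∈ O2, (c21 : FK M K) = algebraMap ↥(AK A K) ↥(FK M K) π * o)
    (hc21' : ¬ ∃ o ∈ O1, (c21 : FK M K) = algebraMap ↥(AK A K) ↥(FK M K) π * o)
    (c12 : B1) (hc12 : ∃ o ∈ O1, (c12 : FK M K) = algebraMap ↥(AK A K) ↥(FK M K) π * o)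
    (hc12' : ¬ ∃ o ∈ O2, (c12 : FK M K) = algebraMap ↥(AK A K) ↥(FK M K) π * o) :
    ∃ P : Place Qbar (Fbar M),
      ∀ b : B1, ∃ hb : PlaceExtend27.baseChangeHom M K (b : FK M K) ∈ P.toValuationSubring,
        valueHom hx P ⟨_, hb⟩ ∈ A ∧ (valueHom hx P ⟨_, hb⟩ ∈ A.nonunits ↔ b ∈ 𝔪) := by
  have hm21 : c21 ∈ 𝔪 := by
    by_contra h
    obtain ⟨o, ho, he⟩ := hc21
    exact hon2 ⟨c21, h, o, ho, he⟩
  have hm12 : c12 ∈ 𝔪 := by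
    by_contra h
    obtain ⟨o, ho, he⟩ := hc12
    exact hon1 ⟨c12, h, o, ho, he⟩
  exact exists_place_centre_B1 M K hq hA hx D 𝔪 h𝔪 hπ𝔪 ⟨c21, hm21, hc21'⟩ ⟨c12, hm12, hc12'⟩

end Fermat.Agent.ES.W33.CentreExists6
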