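/-
Programme W (S33 by hand), chapter (B3′) support, helper14 (ruling w31/w35: "`0 < sN`"):
**EVERY CLOSED POINT OF THE SPECIAL FIBRE OF A CHART OVER `A ≤ L` (`L` algebraically closed) IS THE
CENTRE OF A PLACE**, in the vocabulary of helper20's `NodalChart20`; hence a place through a NODE as
soon as `ker ρ₁ + ker ρ₂ ≠ ⊤` in the chart ring.

No number-field level, no noetherian hypothesis (the `L`-level chart ring `B` is not noetherian):
`𝔫` a maximal ideal of `B` above `𝔪_A`.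
1. `B / 𝔫` is integral over the image of `k[X]` (`k = A / 𝔪_A` algebraically closed), so the
   coordinate `s` is congruent to a constant `a ∈ A` modulo `𝔫` (`exists_const_sub_mem`).
2. GOING DOWN for `A[X] → B` (`A[X]` is integrally closed, `B` a domain integral over it; Mathlib's
   `Algebra.HasGoingDown` instance): a prime `𝔭 ≤ 𝔫` above `(X - a)`, so `𝔭 ∩ A = 0`
   (`exists_horizontal_prime`).
3. CHEVALLEY: a valuation ring `V` of `F` with centre `𝔭` on `B` (`exists_valuationSubring_centre`,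
   Mathlib's `LocalSubring.exists_le_valuationSubring`); `L ⊆ V`, `V ≠ F`, so `V` is a place `P`
   (main's `PlacePIR13.placeOfValuationSubring`), with `s(P) = a ∈ A`.
4. `ker (ev_P) = 𝔭 ≤ 𝔫`, hence `χ_P` kills `𝔫` (`exists_place_of_maximal`).

* **`exists_node_place`** : if no `a ∈ ker ρ₁`, `c ∈ ker ρ₂` have `a + c = 1`, there is a place `P`
  in the chart with `On₁ P ∧ On₂ P` (input of `NodeCentresFinite14.card_nodeCentres_pos`).
-/
import Mathlib
import Fermat.Agent.ES.RED.PlacePIR13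
import Fermat.Agent.ES.W33.NodalChart20

set_option autoImplicit false
set_option linter.style.haveILetI false

open AlgebraicCurve Polynomial IsLocalRing IntermediateField

namespace Fermat.Agent.ES.W33.CentreLiftQ14

open Fermat.Agent.X0.FF Fermat.Agent.ES.RED.PlaceValue13 Fermat.Agent.ES.RED.Contract8
  Fermat.Agent.ES.RED.PlacePIR13 Fermat.Agent.ES.W33.CentreN20 Fermat.Agent.ES.W33.NodalChart20

/-! ### Chevalley: a prime of a subring of a field is the centre of a valuation ring -/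

section Chevalley

variable {F : Type*} [Field F]

/-- a valuation ring `V ⊇ B` of `F` whose centre on `B` is the prime `𝔭`: the elements of `𝔭` are
non-units of `V`, the elements outside `𝔭` are units of `V`. -/
theorem exists_valuationSubring_centre (B : Subring F) (𝔭 : Ideal ↥B) [𝔭.IsPrime] :
    ∃ V : ValuationSubring F, (∀ b : ↥B, (b : F) ∈ V) ∧
      (∀ b : ↥B, b ∈ 𝔭 → ∀ hb : (b : F) ∈ V, ¬ IsUnit (⟨(b : F), hb⟩ : ↥V)) ∧
      (∀ b : ↥B, b ∉ 𝔭 → ((b : F))⁻¹ ∈ V) := by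
  obtain ⟨V, hle, hloc⟩ := (LocalSubring.ofPrime B 𝔭).exists_le_valuationSubring
  refine ⟨V, fun b => hle (LocalSubring.le_ofPrime B 𝔭 b.2), ?_, ?_⟩
  · intro b hb hbV hu
    have hmem : (b : F) ∈ (LocalSubring.ofPrime B 𝔭).toSubring := LocalSubring.le_ofPrime B 𝔭 b.2
    have h1 : IsUnit (⟨(b : F), hmem⟩ : ↥(LocalSubring.ofPrime B 𝔭).toSubring) := by
      apply hloc.map_nonunit
      exact hu
    have h2 : IsUnit (algebraMap ↥B ↥(LocalSubring.ofPrime B 𝔭).toSubring b) := h1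
    exact (IsLocalization.AtPrime.isUnit_to_map_iff _ 𝔭 b).mp h2 hb
  · intro b hb
    have h1 : IsUnit (algebraMap ↥B ↥(LocalSubring.ofPrime B 𝔭).toSubring b) :=
      (IsLocalization.AtPrime.isUnit_to_map_iff _ 𝔭 b).mpr hb
    obtain ⟨u, hu⟩ := h1.exists_right_inv
    have h2 : (b : F) * (u : F) = 1 := congrArg Subtype.val hu
    have h3 : ((b : F))⁻¹ = (u : F) := (eq_inv_of_mul_eq_one_right h2).symm
    rw [h3]
    exact hle u.2

end Chevalley

/-! ### Prime ideals of `k[X]`, `k` algebraically closed -/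

section Roots

variable {k : Type*} [Field k] [IsAlgClosed k]

/-- a prime ideal of `k[X]` containing a non-zero polynomial contains some `X - c`. -/
theorem exists_X_sub_C_mem (M : Ideal k[X]) [hM : M.IsPrime] :
    ∀ (n : ℕ) {g : k[X]}, g.natDegree = n → g ≠ 0 → g ∈ M → ∃ c : k, X - C c ∈ M := by
  intro n
  induction n using Nat.strong_induction_on with
  | _ n ih =>
    intro g hn hg0 hg
    by_cases hdeg : g.degree = 0
    · exfalso
      rw [eq_C_of_degree_eq_zero hdeg] at hg hg0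
      have hc : g.coeff 0 ≠ 0 := fun h => hg0 (by rw [h, map_zero])
      apply hM.ne_top
      rw [Ideal.eq_top_iff_one]
      have := M.mul_mem_left (C (g.coeff 0)⁻¹) hg
      rwa [← C_mul, inv_mul_cancel₀ hc, C_1] at this
    · obtain ⟨c, hc⟩ := IsAlgClosed.exists_root g hdeg
      have hfac : (X - C c) * (g /ₘ (X - C c)) = g := mul_divByMonic_eq_iff_isRoot.mpr hc
      rw [← hfac] at hg
      rcases hM.mem_or_mem hg with h | h
      · exact ⟨c, h⟩
      · have hq0 : g /ₘ (X - C c) ≠ 0 := by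
          intro h0
          rw [h0, mul_zero] at hfac
          exact hg0 hfac.symm
        have hlt : (g /ₘ (X - C c)).natDegree < n := by
          rw [natDegree_divByMonic g (monic_X_sub_C c), natDegree_X_sub_C, hn]
          have : 0 < n := by
            rw [← hn]
            exact natDegree_pos_iff_degree_pos.mpr
              (lt_of_le_of_ne (zero_le_degree_iff.mpr hg0) (Ne.symm hdeg))
          omega
        exact ih _ hlt rfl hq0 h

end Roots

/-! ### The lifting -/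

section Lift

variable {L : Type*} [Field L] [IsAlgClosed L] {A : ValuationSubring L}
variable {F : Type*} [Field F] [Algebra L F] {x : F} {hx : IsGen L x}
variable {Ft₁ Ft₂ : Type*} [Field Ft₁] [Algebra (kA A) Ft₁] [Field Ft₂] [Algebra (kA A) Ft₂]
variable (S : NodalChart A hx Ft₁ Ft₂)

/-- the evaluation `A[X] → B`, `X ↦ s`. -/
noncomputable def polyHom : (↥A)[X] →+* ↥S.B := eval₂RingHom S.constHom S.sB

theorem polyHom_C (a : ↥A) : polyHom S (C a) = S.const a := by
  simp [polyHom]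

theorem polyHom_X : polyHom S X = S.sB := by
  simp [polyHom]

theorem coe_polyHom (p : (↥A)[X]) :
    ((polyHom S p : ↥S.B) : F) = aeval S.s (p.map A.subtype) := by
  induction p using Polynomial.induction_on' with
  | add p q hp hq => rw [map_add, Subring.coe_add, hp, hq, Polynomial.map_add, map_add]
  | monomial n a =>
    rw [← C_mul_X_pow_eq_monomial, map_mul, map_pow, polyHom_C, polyHom_X, Polynomial.map_mul,
      Polynomial.map_pow, map_C, map_X, map_mul, map_pow, aeval_C, aeval_X]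
    rfl

theorem polyHom_injective (hs : Transcendental L S.s) : Function.Injective (polyHom S) := by
  rw [injective_iff_map_eq_zero]
  intro p hp
  have h1 : aeval S.s (p.map A.subtype) = 0 := by
    rw [← coe_polyHom, hp]; rfl
  have h2 : p.map A.subtype = 0 := by
    by_contra h
    exact hs ⟨_, h, h1⟩
  exact (Polynomial.map_eq_zero_iff (Subtype.val_injective)).mp h2

/-- **Step 1**: modulo a maximal ideal above `𝔪_A` the coordinate is a constant. -/
theorem exists_const_sub_mem [IsAlgClosed (kA A)] (hint : (polyHom S).IsIntegral)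
    (𝔫 : Ideal ↥S.B) [h𝔫 : 𝔫.IsMaximal]
    (hA𝔫 : ∀ a : ↥A, a ∈ maximalIdeal ↥A → S.const a ∈ 𝔫) :
    ∃ a : ↥A, S.sB - S.const a ∈ 𝔫 := by
  classical
  letI : Field (↥S.B ⧸ 𝔫) := Ideal.Quotient.field 𝔫
  let mk : ↥S.B →+* (↥S.B ⧸ 𝔫) := Ideal.Quotient.mk 𝔫
  let φ : ↥A →+* (↥S.B ⧸ 𝔫) := mk.comp S.constHom
  have hφ : ∀ a ∈ maximalIdeal ↥A, φ a = 0 := fun a ha =>
    Ideal.Quotient.eq_zero_iff_mem.mpr (hA𝔫 a ha)
  let ψ : kA A →+* (↥S.B ⧸ 𝔫) := Ideal.Quotient.lift (maximalIdeal ↥A) φ hφ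
  have hψ : ∀ a : ↥A, ψ (resA A a) = φ a := fun a => Ideal.Quotient.lift_mk _ _ _
  let θ : (kA A)[X] →+* (↥S.B ⧸ 𝔫) := eval₂RingHom ψ (mk S.sB)
  have hcomm : mk.comp (polyHom S) = θ.comp (mapRingHom (resA A)) := by
    apply Polynomial.ringHom_ext
    · intro a
      show mk (polyHom S (C a)) = θ (Polynomial.map (resA A) (C a))
      rw [polyHom_C, Polynomial.map_C]
      show _ = eval₂ ψ (mk S.sB) (C (resA A a))
      rw [eval₂_C, hψ]
      rfl
    · show mk (polyHom S X) = θ (Polynomial.map (resA A) X)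
      rw [polyHom_X, Polynomial.map_X]
      show _ = eval₂ ψ (mk S.sB) X
      rw [eval₂_X]
  have hint2 : (mk.comp (polyHom S)).IsIntegral :=
    RingHom.IsIntegral.trans _ _ hint
      (RingHom.isIntegral_of_surjective _ Ideal.Quotient.mk_surjective)
  have hθ : θ.IsIntegral := by
    rw [hcomm] at hint2
    exact RingHom.IsIntegral.tower_top _ _ hint2
  have hbot : (⊥ : Ideal (↥S.B ⧸ 𝔫)).IsMaximal := Ideal.bot_isMaximal
  have hM : (RingHom.ker θ).IsMaximal :=
    Ideal.isMaximal_comap_of_isIntegral_of_isMaximal' θ hθ ⊥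
  have hne : RingHom.ker θ ≠ ⊥ :=
    Ring.ne_bot_of_isMaximal_of_not_isField hM (Polynomial.not_isField _)
  obtain ⟨g, hgM, hg0⟩ := Submodule.exists_mem_ne_zero_of_ne_bot hne
  haveI : (RingHom.ker θ).IsPrime := hM.isPrime
  obtain ⟨c, hc⟩ := exists_X_sub_C_mem (RingHom.ker θ) g.natDegree rfl hg0 hgM
  obtain ⟨a, rfl⟩ := residue_surjective c
  refine ⟨a, ?_⟩
  rw [← Ideal.Quotient.eq_zero_iff_mem]
  have h1 : θ (X - C (resA A a)) = 0 := hc
  have h2 : θ (X - C (resA A a)) = mk (S.sB - S.const a) := by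
    show eval₂ ψ (mk S.sB) (X - C (resA A a)) = _
    rw [eval₂_sub, eval₂_X, eval₂_C, hψ, map_sub]
    rfl
  rw [← h2]
  exact h1

/-- **Step 2** (going down): a prime `𝔭 ≤ 𝔫` above `(X - a)`; in particular `𝔭 ∩ A = 0`. -/
theorem exists_horizontal_prime (hs : Transcendental L S.s) (hint : (polyHom S).IsIntegral)
    (𝔫 : Ideal ↥S.B) [h𝔫 : 𝔫.IsMaximal] (a : ↥A) (ha : S.sB - S.const a ∈ 𝔫) :
    ∃ 𝔭 : Ideal ↥S.B, 𝔭.IsPrime ∧ 𝔭 ≤ 𝔫 ∧ S.sB - S.const a ∈ 𝔭 ∧
      ∀ α : ↥A, S.const α ∈ 𝔭 → α = 0 := by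
  classical
  letI : Algebra (↥A)[X] ↥S.B := (polyHom S).toAlgebra
  have halg : ∀ p : (↥A)[X], algebraMap (↥A)[X] ↥S.B p = polyHom S p := fun _ => rfl
  haveI : Algebra.IsIntegral (↥A)[X] ↥S.B := ⟨hint⟩
  haveI : FaithfulSMul (↥A)[X] ↥S.B :=
    (faithfulSMul_iff_algebraMap_injective _ _).mpr (polyHom_injective S hs)
  haveI : Algebra.HasGoingDown (↥A)[X] ↥S.B := inferInstance
  have hprime : (Ideal.span {(X - C a : (↥A)[X])}).IsPrime :=
    (Ideal.span_singleton_prime (X_sub_C_ne_zero a)).mpr (prime_X_sub_C a)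
  have hle : Ideal.span {(X - C a : (↥A)[X])} ≤ 𝔫.under (↥A)[X] := by
    rw [Ideal.span_le, Set.singleton_subset_iff]
    show algebraMap (↥A)[X] ↥S.B (X - C a) ∈ 𝔫
    rw [halg, map_sub, polyHom_X, polyHom_C]
    exact ha
  obtain ⟨𝔭, h𝔭le, h𝔭prime, h𝔭over⟩ :=
    Ideal.exists_ideal_le_liesOver_of_le (p := Ideal.span {(X - C a : (↥A)[X])})
      (q := 𝔫.under (↥A)[X]) 𝔫 hle
  have hover : ∀ p : (↥A)[X], polyHom S p ∈ 𝔭 ↔ p ∈ Ideal.span {(X - C a : (↥A)[X])} := by
    intro p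
    rw [h𝔭over.over]
    rfl
  refine ⟨𝔭, h𝔭prime, h𝔭le, ?_, ?_⟩
  · have := (hover (X - C a)).mpr (Ideal.subset_span rfl)
    rwa [map_sub, polyHom_X, polyHom_C] at this
  · intro α hα
    rw [← polyHom_C, hover, Ideal.mem_span_singleton] at hα
    by_contra h0
    have hC : (C α : (↥A)[X]) ≠ 0 := fun h => h0 (C_eq_zero.mp h)
    have h1 := degree_le_of_dvd hα hC
    rw [degree_X_sub_C, degree_C h0] at h1
    exact absurd h1 (by decide)

/-- **Every maximal ideal of the chart ring above `𝔪_A` is the centre of a place of the chart.** -/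
theorem exists_place_of_maximal [IsAlgClosed (kA A)] (hsx : IsGen L S.s)
    [Algebra.IsSeparable L⟮S.s⟯ F] (hint : (polyHom S).IsIntegral)
    (𝔫 : Ideal ↥S.B) [h𝔫 : 𝔫.IsMaximal]
    (hA𝔫 : ∀ a : ↥A, a ∈ maximalIdeal ↥A → S.const a ∈ 𝔫) :
    ∃ (P : Place L F) (h0 : S.InChart P), ∀ b ∈ 𝔫, S.chi P h0 b = 0 := by
  classical
  obtain ⟨a, ha⟩ := exists_const_sub_mem S hint 𝔫 hA𝔫
  obtain ⟨𝔭, h𝔭, h𝔭le, ha𝔭, hα⟩ := exists_horizontal_prime S hsx.transcendental hint 𝔫 a ha
  obtain ⟨V, hBV, hnon, hunit⟩ := exists_valuationSubring_centre S.B 𝔭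
  -- the constants lie in `V`
  have hK : ∀ c : L, algebraMap L F c ∈ V := by
    intro c
    rcases A.mem_or_inv_mem c with hc | hc
    · exact hBV (S.const ⟨c, hc⟩)
    · by_cases hc0 : c = 0
      · rw [hc0, map_zero]; exact V.zero_mem
      · have h1 : S.const ⟨c⁻¹, hc⟩ ∉ 𝔭 := fun h =>
          inv_ne_zero hc0 (congrArg Subtype.val (hα _ h))
        have h2 := hunit _ h1
        rw [S.coe_const] at h2
        simpa [map_inv₀] using h2
  have hsV : S.s ∈ V := hBV S.sB
  -- `s - a` is a non-zero non-unit of `V`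
  have hsa : ((S.sB - S.const a : ↥S.B) : F) = S.s - algebraMap L F (a : L) := rfl
  have hsa0 : S.s - algebraMap L F (a : L) ≠ 0 := by
    intro h
    apply hsx.transcendental
    rw [sub_eq_zero] at h
    rw [h]
    exact isAlgebraic_algebraMap _
  have hne : V ≠ ⊤ := by
    intro htop
    have hmem := hBV (S.sB - S.const a)
    apply hnon _ ha𝔭 hmem
    refine isUnit_iff_exists_inv.mpr ⟨⟨(S.s - algebraMap L F (a : L))⁻¹, by rw [htop]; trivial⟩, ?_⟩
    apply Subtype.ext
    show ((S.sB - S.const a : ↥S.B) : F) * (S.s - algebraMap L F (a : L))⁻¹ = 1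
    rw [hsa, mul_inv_cancel₀ hsa0]
  let P : Place L F := placeOfValuationSubring hsx V hK hsV hne
  have hPV : ∀ y : F, y ∈ P.toValuationSubring ↔ y ∈ V := fun y => Iff.rfl
  -- the value of `s` at `P` is `a`
  have hval_s : valueHom hx P ⟨S.s, hsV⟩ = (a : L) := by
    rw [valueHom_eq_iff_sub_mem, mem_maximalIdeal, mem_nonunits_iff]
    exact hnon _ ha𝔭 (hBV (S.sB - S.const a))
  have h0 : S.InChart P := ⟨hsV, by rw [hval_s]; exact a.2⟩
  refine ⟨P, h0, fun b hb => ?_⟩
  set v : ↥A := S.ev P h0 b with hv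
  -- `b - b(P)` lies in `𝔭`
  have h1 : b - S.const v ∈ 𝔭 := by
    by_contra hnot
    have hinv := hunit _ hnot
    have hz := S.ev_sub_const P h0 b
    have hz' : valueHom hx P ⟨((b - S.const v : ↥S.B) : F),
        S.mem_place P h0 _ (b - S.const v).2⟩ = 0 := by
      rw [← S.coe_ev P h0, hz]; rfl
    have hz0 : ((b - S.const v : ↥S.B) : F) ≠ 0 := by
      intro h
      apply hnot
      have : (b - S.const v : ↥S.B) = 0 := Subtype.ext h
      rw [this]
      exact 𝔭.zero_mem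
    have hu : IsUnit (⟨((b - S.const v : ↥S.B) : F),
        S.mem_place P h0 _ (b - S.const v).2⟩ : ↥P.toValuationSubring) := by
      refine isUnit_iff_exists_inv.mpr ⟨⟨(((b - S.const v : ↥S.B) : F))⁻¹, hinv⟩, ?_⟩
      apply Subtype.ext
      show ((b - S.const v : ↥S.B) : F) * (((b - S.const v : ↥S.B) : F))⁻¹ = 1
      exact mul_inv_cancel₀ hz0
    exact (valueHom_ne_zero_iff hx P _).mpr hu hz'
  have h2 : S.const v ∈ 𝔫 := by
    have := 𝔫.sub_mem hb (h𝔭le h1)
    rwa [sub_sub_cancel] at this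
  rw [S.chi_apply, residue_eq_zero_iff]
  by_contra hvm
  have hu : IsUnit v := by
    rw [mem_maximalIdeal, mem_nonunits_iff, not_not] at hvm
    exact hvm
  obtain ⟨w, hw⟩ := hu.exists_right_inv
  have h3 : (1 : ↥S.B) ∈ 𝔫 := by
    have := 𝔫.mul_mem_right (S.const w) h2
    rwa [← S.constHom_apply, ← S.constHom_apply, ← map_mul, hw, map_one] at this
  exact h𝔫.ne_top ((Ideal.eq_top_iff_one _).mpr h3)

/-- **A place through a node.**  If the two components meet in the chart (`ker ρ₁ + ker ρ₂ ≠ ⊤`),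
some place of the chart is centred on both. -/
theorem exists_node_place [IsAlgClosed (kA A)] (hsx : IsGen L S.s)
    [Algebra.IsSeparable L⟮S.s⟯ F] (hint : (polyHom S).IsIntegral)
    (hI : ∀ a c : ↥S.B, S.ρ₁ a = 0 → S.ρ₂ c = 0 → a + c ≠ 1) :
    ∃ (P : Place L F) (h0 : S.InChart P), S.On₁ P h0 ∧ S.On₂ P h0 := by
  have hne : RingHom.ker S.ρ₁ ⊔ RingHom.ker S.ρ₂ ≠ ⊤ := by
    intro htop
    have h1 : (1 : ↥S.B) ∈ RingHom.ker S.ρ₁ ⊔ RingHom.ker S.ρ₂ := by rw [htop]; trivial
    obtain ⟨a, ha, c, hc, hac⟩ := Submodule.mem_sup.mp h1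
    exact hI a c (RingHom.mem_ker.mp ha) (RingHom.mem_ker.mp hc) hac
  obtain ⟨𝔫, h𝔫, hle⟩ := Ideal.exists_le_maximal _ hne
  have hA𝔫 : ∀ a : ↥A, a ∈ maximalIdeal ↥A → S.const a ∈ 𝔫 := by
    intro a ha
    apply hle
    apply Ideal.mem_sup_left
    rw [RingHom.mem_ker, S.ρ₁_const, (residue_eq_zero_iff a).mpr ha, map_zero]
  obtain ⟨P, h0, hP⟩ := exists_place_of_maximal S hsx hint 𝔫 hA𝔫
  exact ⟨P, h0, fun b hb => hP b (hle (Ideal.mem_sup_left (RingHom.mem_ker.mpr hb))),
    fun b hb => hP b (hle (Ideal.mem_sup_right (RingHom.mem_ker.mpr hb)))⟩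

end Lift

end Fermat.Agent.ES.W33.CentreLiftQ14
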