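/-
Programme W (S33), chapter (B3′), per-point fact (d) "`fix`" (ruling w65 (2)(i)) — helper9:
**the chart coordinates `tN^{±1}`, `yN^{±1}` of the bad level have rational `q`-coefficients, hence
are fixed by the whole Galois group** — the field `fix_s` of `GoodCofiniteN9.ChartAt₁ / ChartAt₂`
(and, with `GoodCofiniteN9.fix_of`, the field `fix` of `GoodPts23.PtPkg`: the coordinate half of
`NodalInstHyp.level`).

`yN := heckeBetaBar ℚ̄ M' p (tV …)` (`q`-expansion `t(q^p)`; JOIN FLAG F1: the disc coordinate of the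
second branch).
* `smul_tN`, `smul_tN_inv` : `arithmeticGalois σ • tN^{±1} = tN^{±1}`;
* `smul_beta` : `arithmeticGalois σ • β x = β (arithmeticGalois σ • x)` (`β := heckeBetaBar`);
* `smul_tV`, `smul_yN`, `smul_yN_inv`;
* `fix_s_of_smul` : a function fixed by all of `arithmeticGalois` satisfies the literal `fix_s`;
* **`fix_s_tN`, `fix_s_tN_inv`, `fix_s_yN`, `fix_s_yN_inv`**.
-/
import Mathlib
import Fermat.Agent.ES.W33.NodalDefs3
import Fermat.Agent.ES.V19.XiEqvInst29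

set_option autoImplicit false
set_option linter.unusedSectionVars false
set_option synthInstance.maxHeartbeats 400000

noncomputable section

open HahnSeries ModularCurve AlgebraicCurve

namespace Fermat.Agent.ES.W33.CoordFixN9

open Fermat.Agent.RED.Interface4 Fermat.Agent.RED.BASE.Interface12
  Fermat.Agent.RED.BASE.Hauptmodul12 Fermat.Agent.RED.BASE.EtaQuot12
  Fermat.Agent.ES.V19.InstNames3 Fermat.Agent.ES.V19.GammaF16 Fermat.Agent.ES.V19.XiEqvInst29
  Fermat.Agent.ES.W33.NodalDefs3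

attribute [local instance 5000] HahnSeries.powerSeriesAlgebra SubalgebraClass.toAlgebra

variable (n e M' : ℕ) [NeZero n] [NeZero M'] (p : ℕ) [Fact p.Prime]
  (hb : BaseHyp n e) (hnM : n ∣ M')

/-- `tN` has rational coefficients. -/
theorem smul_tN (σ : Qbar ≃ₐ[ℚ] Qbar) :
    arithmeticGalois (modularFunctionFieldFull (M' * p)) σ • tN n e M' p hb hnM =
      tN n e M' p hb hnM :=
  Subtype.ext (coeffMap_tq Qbar ((σ : Qbar ≃+* Qbar) : Qbar →+* Qbar) n e)

/-- `tN⁻¹` has rational coefficients. -/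
theorem smul_tN_inv (σ : Qbar ≃ₐ[ℚ] Qbar) :
    arithmeticGalois (modularFunctionFieldFull (M' * p)) σ • (tN n e M' p hb hnM)⁻¹ =
      (tN n e M' p hb hnM)⁻¹ := by
  rw [smul_inv'', smul_tN]

/-- `tV` (good level) has rational coefficients. -/
theorem smul_tV (σ : Qbar ≃ₐ[ℚ] Qbar) :
    arithmeticGalois (modularFunctionFieldFull M') σ • tV n e M' hb hnM = tV n e M' hb hnM :=
  Subtype.ext (coeffMap_tq Qbar ((σ : Qbar ≃+* Qbar) : Qbar →+* Qbar) n e)

omit [NeZero n] in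
/-- the degeneracy map `β` commutes with the arithmetic Galois action. -/
theorem smul_beta (σ : Qbar ≃ₐ[ℚ] Qbar) (x : ↥(Fbar M')) :
    arithmeticGalois (modularFunctionFieldFull (M' * p)) σ • heckeBetaBar Qbar M' p x =
      heckeBetaBar Qbar M' p (arithmeticGalois (modularFunctionFieldFull M') σ • x) := by
  have : NeZero p := ⟨(Fact.out : p.Prime).ne_zero⟩
  apply Subtype.ext
  show coeffMap ((σ : Qbar ≃+* Qbar) : Qbar →+* Qbar) (qExpand Qbar p (x : LaurentSeries Qbar)) =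
    qExpand Qbar p (coeffMap ((σ : Qbar ≃+* Qbar) : Qbar →+* Qbar) (x : LaurentSeries Qbar))
  exact ModularCurve.coeffMap_qExpand _ p _

/-- `yN = β (tV)` has rational coefficients. -/
theorem smul_yN (σ : Qbar ≃ₐ[ℚ] Qbar) :
    arithmeticGalois (modularFunctionFieldFull (M' * p)) σ •
        heckeBetaBar Qbar M' p (tV n e M' hb hnM) =
      heckeBetaBar Qbar M' p (tV n e M' hb hnM) := by
  rw [smul_beta, smul_tV]

/-- `yN⁻¹` has rational coefficients. -/
theorem smul_yN_inv (σ : Qbar ≃ₐ[ℚ] Qbar) :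
    arithmeticGalois (modularFunctionFieldFull (M' * p)) σ •
        (heckeBetaBar Qbar M' p (tV n e M' hb hnM))⁻¹ =
      (heckeBetaBar Qbar M' p (tV n e M' hb hnM))⁻¹ := by
  rw [smul_inv'', smul_yN]

variable (A : ValuationSubring Qbar)

omit [NeZero n] in
/-- a function fixed by the whole arithmetic Galois group satisfies the literal `fix_s`. -/
theorem fix_s_of_smul (s : ↥(Fbar (M' * p)))
    (hs : ∀ σ : Qbar ≃ₐ[ℚ] Qbar,
      arithmeticGalois (modularFunctionFieldFull (M' * p)) σ • s = s) :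
    ∃ f₁ : ℕ, 0 < f₁ ∧ ∀ σ : ↥(gammaF A p f₁), rho (A := A) (M := M' * p) p f₁ σ • s = s :=
  ⟨1, one_pos, fun σ => hs (σ : Qbar ≃ₐ[ℚ] Qbar)⟩

theorem fix_s_tN : ∃ f₁ : ℕ, 0 < f₁ ∧ ∀ σ : ↥(gammaF A p f₁),
    rho (A := A) (M := M' * p) p f₁ σ • tN n e M' p hb hnM = tN n e M' p hb hnM :=
  fix_s_of_smul M' p A _ (smul_tN n e M' p hb hnM)

theorem fix_s_tN_inv : ∃ f₁ : ℕ, 0 < f₁ ∧ ∀ σ : ↥(gammaF A p f₁),
    rho (A := A) (M := M' * p) p f₁ σ • (tN n e M' p hb hnM)⁻¹ = (tN n e M' p hb hnM)⁻¹ :=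
  fix_s_of_smul M' p A _ (smul_tN_inv n e M' p hb hnM)

theorem fix_s_yN : ∃ f₁ : ℕ, 0 < f₁ ∧ ∀ σ : ↥(gammaF A p f₁),
    rho (A := A) (M := M' * p) p f₁ σ • heckeBetaBar Qbar M' p (tV n e M' hb hnM) =
      heckeBetaBar Qbar M' p (tV n e M' hb hnM) :=
  fix_s_of_smul M' p A _ (smul_yN n e M' p hb hnM)

theorem fix_s_yN_inv : ∃ f₁ : ℕ, 0 < f₁ ∧ ∀ σ : ↥(gammaF A p f₁),
    rho (A := A) (M := M' * p) p f₁ σ • (heckeBetaBar Qbar M' p (tV n e M' hb hnM))⁻¹ =
      (heckeBetaBar Qbar M' p (tV n e M' hb hnM))⁻¹ :=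
  fix_s_of_smul M' p A _ (smul_yN_inv n e M' p hb hnM)

end Fermat.Agent.ES.W33.CoordFixN9
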