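/-
Programme W (S33), chapter (B3′), per-point fact (c) on the SECOND component — helper9:
**the second-component reductions of the chart coordinates `tN`, `yN := β tV`, and their
non-constancy, WITHOUT the reduced Fricke involution `wBar`.**

Inputs: `h2 : tN ∈ O2` (helper16's `ChartGN16.tN_mem_GN`) and `rho2 tN ≠ 0` resp. transcendental
(helper4's `tr₂`).  Then with `u :=` the good-level reduction of `W_{M'} tV` (helper15's
`BetaRed15.exists_rho2_tN`):
* `frickeN_beta` : `W_{M'p} (β x) = α (W_{M'} x)`;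
* **`exists_rho2`** : `∃ u ≠ 0, rho2 tN = V_p u ∧ ∃ hy : yN ∈ O2, rho2 yN = u`;
* `yN_mem_GN`;
* **`rho2_ne_algebraMap`** : if `rho2 tN` is transcendental, neither `rho2 tN` nor `rho2 yN` is a constant
  (the fields `h2` of `GoodCofiniteN9.ChartAt₁` for `S.s = tN` and of `ChartAt₂` for `S.s = yN`);
* `redN` forms: `redN_tN_fst/snd_ne`, `redN_yN_fst/snd_ne`.
(`wBar` is only needed to know that `u = wBar t̃` is a SEPARATING GENERATOR.)
-/
import Mathlib
import Fermat.Agent.ES.W33.AlphaRedN9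

set_option autoImplicit false
set_option synthInstance.maxHeartbeats 400000
set_option linter.unusedSectionVars false

open HahnSeries ModularCurve AlgebraicCurve

noncomputable section

namespace Fermat.Agent.ES.W33.CoordRedTwoN9

open Fermat.Agent.X0.FF
  Fermat.Agent.RED.Interface4 Fermat.Agent.RED.BASE.Interface12 Fermat.Agent.RED.BASE.Hauptmodul12
  Fermat.Agent.ES.RED.Contract8 Fermat.Agent.ES.RED.ModelInst4 Fermat.Agent.ES.RED.GaussRing15
  Fermat.Agent.ES.V19.GaussFrac15 Fermat.Agent.ES.V19.InstNames3 Fermat.Agent.ES.W33.NodalDefs3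
  Fermat.Agent.ES.N34.FrickeFK8
  Fermat.Agent.ES.W33.BetaRed15 Fermat.Agent.ES.W33.AlphaRedN9

attribute [local instance 5000] HahnSeries.powerSeriesAlgebra SubalgebraClass.toAlgebra

variable (M' : ℕ) [NeZero M'] (p : ℕ) [Fact p.Prime] (A : ValuationSubring Qbar)

/-- **`W_{M' p} ∘ β = α ∘ W_{M'}`.** -/
theorem frickeN_beta (x : ↥(Fbar M')) :
    frickeN M' p (heckeBetaBar Qbar M' p x) = alphaN M' p (frickeBar M' x) := by
  have h := beta_fricke M' p (frickeBar M' x)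
  rw [frickeBar_frickeBar] at h
  rw [h]
  exact frickeBar_frickeBar (M' * p) _

variable (n e : ℕ) [NeZero n] (hpM : ¬ p ∣ M') (hb : BaseHyp n e) (hnM : n ∣ M')
  (hA : A.LiesOverPrime p)

include hpM in
/-- **the second-component reductions of `tN` and `yN`.** -/
theorem exists_rho2 (h2 : tN n e M' p hb hnM ∈ O2 M' p A)
    (hne : rho2 M' p A ⟨tN n e M' p hb hnM, h2⟩ ≠ 0) :
    ∃ u : Ft M' A, u ≠ 0 ∧
      IsRedOf (gaussRingN A (resA A) M') (gaussRedN A (resA A) M')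
        (frickeBar M' (tV n e M' hb hnM)) u ∧
      rho2 M' p A ⟨tN n e M' p hb hnM, h2⟩ = vpFt M' p A hA u ∧
      ∃ hy : heckeBetaBar Qbar M' p (tV n e M' hb hnM) ∈ O2 M' p A,
        rho2 M' p A ⟨heckeBetaBar Qbar M' p (tV n e M' hb hnM), hy⟩ = u := by
  obtain ⟨u, hu0, hu, he⟩ := exists_rho2_tN M' p A hA n e hpM hb hnM h2 hne
  have h1 := isRedOf_alpha M' p A hu
  rw [← frickeN_beta M' p (tV n e M' hb hnM)] at h1
  have hy : heckeBetaBar Qbar M' p (tV n e M' hb hnM) ∈ O2 M' p A :=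
    (mem_O2_iff M' p A _).2 h1.isGI
  refine ⟨u, hu0, hu, he, hy, ?_⟩
  rw [rho2_apply]
  exact rho_eq_of_isRedOf h1

include hpM hA in
/-- `yN ∈ GN`. -/
theorem yN_mem_GN (h2 : tN n e M' p hb hnM ∈ O2 M' p A)
    (hne : rho2 M' p A ⟨tN n e M' p hb hnM, h2⟩ ≠ 0) :
    heckeBetaBar Qbar M' p (tV n e M' hb hnM) ∈ GN M' p A := by
  obtain ⟨u, -, -, -, hy, -⟩ := exists_rho2 M' p A n e hpM hb hnM hA h2 hne
  exact ⟨yN_mem_O1 M' p A n e hpM hb hnM hA, hy⟩

include hpM hA in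
/-- **non-constancy on the second component**, from the transcendence of `rho2 tN`. -/
theorem rho2_ne_algebraMap (h2 : tN n e M' p hb hnM ∈ O2 M' p A)
    (htr : Transcendental (kA A) (rho2 M' p A ⟨tN n e M' p hb hnM, h2⟩)) :
    (∀ z : kA A, rho2 M' p A ⟨tN n e M' p hb hnM, h2⟩ ≠ algebraMap (kA A) (Ft M' A) z) ∧
      ∃ hy : heckeBetaBar Qbar M' p (tV n e M' hb hnM) ∈ O2 M' p A, ∀ z : kA A,
        rho2 M' p A ⟨heckeBetaBar Qbar M' p (tV n e M' hb hnM), hy⟩ ≠
          algebraMap (kA A) (Ft M' A) z := by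
  have hne : rho2 M' p A ⟨tN n e M' p hb hnM, h2⟩ ≠ 0 := by
    intro h0
    apply htr
    rw [h0]
    exact isAlgebraic_zero
  obtain ⟨u, -, -, he, hy, hyu⟩ := exists_rho2 M' p A n e hpM hb hnM hA h2 hne
  refine ⟨ne_algebraMap_of_transcendental htr, hy, fun z hz => ?_⟩
  apply ne_algebraMap_of_transcendental htr z
  rw [he, ← hyu, hz, vpFt_algebraMap]

/-! ### `redN` forms (the literal fields `h1`, `h2` of `ChartAt₁ / ChartAt₂`) -/

include hpM hA in
theorem redN_tN_fst_ne (ht : tN n e M' p hb hnM ∈ GN M' p A) (z : kA A) :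
    (redN M' p A ⟨tN n e M' p hb hnM, ht⟩).1 ≠ algebraMap (kA A) (Ft M' A) z := by
  rw [redN_fst]
  exact rho1_tN_ne_algebraMap M' p A n e hpM hb hnM hA _ z

include hpM hA in
theorem redN_tN_snd_ne (ht : tN n e M' p hb hnM ∈ GN M' p A)
    (htr : Transcendental (kA A) (redN M' p A ⟨tN n e M' p hb hnM, ht⟩).2) (z : kA A) :
    (redN M' p A ⟨tN n e M' p hb hnM, ht⟩).2 ≠ algebraMap (kA A) (Ft M' A) z :=
  ne_algebraMap_of_transcendental htr z

include hpM hA in
theorem redN_yN_fst_ne (hy : heckeBetaBar Qbar M' p (tV n e M' hb hnM) ∈ GN M' p A) (z : kA A) :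
    (redN M' p A ⟨heckeBetaBar Qbar M' p (tV n e M' hb hnM), hy⟩).1 ≠
      algebraMap (kA A) (Ft M' A) z := by
  rw [redN_fst]
  exact rho1_yN_ne_algebraMap M' p A n e hpM hb hnM hA _ z

include hpM hA in
theorem redN_yN_snd_ne (ht : tN n e M' p hb hnM ∈ GN M' p A)
    (htr : Transcendental (kA A) (redN M' p A ⟨tN n e M' p hb hnM, ht⟩).2)
    (hy : heckeBetaBar Qbar M' p (tV n e M' hb hnM) ∈ GN M' p A) (z : kA A) :
    (redN M' p A ⟨heckeBetaBar Qbar M' p (tV n e M' hb hnM), hy⟩).2 ≠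
      algebraMap (kA A) (Ft M' A) z := by
  rw [redN_snd] at htr ⊢
  obtain ⟨-, hy', h⟩ := rho2_ne_algebraMap M' p A n e hpM hb hnM hA (GN_le_O2 M' p A ht) htr
  exact h z

end Fermat.Agent.ES.W33.CoordRedTwoN9
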