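/-
Programme W (S33), chapter G4' EXIT on the NODAL model, helper9: **helper21's fixed density data
`DensityInstN21.DensBaseN` from the chart data** — the nodal (and model-free) port of `V19/DensBaseInst9` +
`BasisExpLevel25.bbExp_of_basisData` (clause (5)) + `BasisDisc9.exists_basisData_disc`.

Inputs (all are literals of `XiIfaceN29.ChartHypN` / fields of B3''s local data):
`C : RedCtxN A π N G red r`, `HL`, centres `Q i` with uniformisers `t i`, distinct smooth points `Qb i` with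
`r (Q i) = Sum.inl (Qb i)`, local expansion data `X i : LocExpN G red r π (Qb i)` with `τ_i = t_i` and
`hagree` (the Taylor expansion of `CQ_i` is the Laurent expansion at `Q i`), an auxiliary place `Ps`
reducing to a point `Qs` off the `Qb i` with its own local datum `Xs`, `hbar` (`const_E0bar`), the Riemann
inequality `hR`, a group `Γ` acting through `ρ : Γ →* SemilinearAut L F` fixing the `Q i`, the `t i` and
`Ps`, and a subring `O ⊆ A` containing the `Γ`-fixed elements of `A`.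

* `bb_exp_of_agree` : clause (5) = the field `bb_exp` of `DensBaseN`;
* `densBaseN`       : the record;
* **`exists_basisData_groupN`** : `∃ B D`, `mapLam O.subtype (D.bb i n) = ExpK (B.bb i n)`, `D.cc = B.cc`,
  `B.bb i n ∈ G` (then `densBaseN … B D h1 h3` is the record);
* **`exists_densBaseN`** : the same with `Bs := densBaseN … B D …` under the existential
  (`Bs.Qb = Qb`, `Bs.P0 = Q`, `Bs.X = X`, `Bs.bbF = B.bb` by `rfl`).
-/
import Mathlib
import Fermat.Agent.ES.V19.BasisEqv9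
import Fermat.Agent.ES.W33.BasisFinalN9
import Fermat.Agent.ES.W33.BasisH0N9

set_option autoImplicit false

open AlgebraicCurve

noncomputable section

namespace Fermat.Agent.ES.W33.DensBaseOfN9

open HahnSeries
open Fermat.Agent.X0.FF Fermat.Agent.RR Fermat.Agent.RR.LSpace
  Fermat.Agent.ES.V19.OnePlaceRep9 Fermat.Agent.ES.V19.ExpandPlace9 Fermat.Agent.ES.V19.BasisQbar9
  Fermat.Agent.ES.V19.BasisData9 Fermat.Agent.ES.V19.NormalFormBasis14
  Fermat.Agent.ES.W33.XiIfaceN29 Fermat.Agent.ES.W33.DensityInstN21 Fermat.Agent.ES.W33.BasisIntN9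
  Fermat.Agent.ES.W33.BasisFinalN9 Fermat.Agent.ES.W33.BasisH0N9
open Fermat.Agent.ES.V19.LaurentMap19 (Lam mapLam)
open Fermat.Agent.ES.V19.DensityInst28 (ofPS_coeff_neg)
open Fermat.Agent.ES.V19.BasisInt9 (coeff_expandF_pow_mul)
open Fermat.Agent.ES.V19.BasisEqv9 (fixesChart_of_smul)

variable {L F k Ft₁ Ft₂ : Type*} [Field L] [Field F] [Algebra L F] [Field k]
  [Field Ft₁] [Algebra k Ft₁] [Field Ft₂] [Algebra k Ft₂]
  {A : ValuationSubring L}

variable {sn : ℕ} {N : Nodes k Ft₁ Ft₂ sn} {G : Subring F} {red : ↥G →+* Ft₁ × Ft₂}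
  {r : Place L F → SPt k Ft₁ Ft₂ ⊕ Fin sn} {π : ↥A →+* k}
  (C : RedCtxN A π N G red r) (HL : LHyp L F)
  {Q : Fin (genusFF L F) → Place L F} {t : Fin (genusFF L F) → F}
  (ht : ∀ i, (Q i).ord (t i) = 1)
  {Qb : Fin (genusFF L F) → SPt k Ft₁ Ft₂} (hQb : Function.Injective Qb)
  (hrQ : ∀ i, r (Q i) = Sum.inl (Qb i))
  (X : ∀ i, LocExpN (A := A) G red r π (Qb i))
  (hτ : ∀ i, (((X i).τ : ↥(X i).CQ) : F) = t i)
  (hagree : ∀ i (f : ↥(X i).CQ) (m : ℕ),
    ((PowerSeries.coeff m ((X i).tay f) : ↥A) : L) = (ex HL ht i (f : F)).coeff (m : ℤ))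
  {Ps : Place L F} {Qs : SPt k Ft₁ Ft₂} (hPs : r Ps = Sum.inl Qs) (hQs : ∀ i, Qb i ≠ Qs)
  (Xs : LocExpN (A := A) G red r π Qs)
  (hbar : ∀ h ∈ N.LN (∑ i, Finsupp.single (Qb i) (1 : ℤ)), ∃ x : k, h = (cpair x : Ft₁ × Ft₂))
  (B : BBData HL ht (Q := Q) Ps)
  {O : Subring L} [Algebra ↥O ↥A]
  (halg : ∀ x : ↥O, ((algebraMap ↥O ↥A x : ↥A) : L) = (x : L))
  (D : BasisData ↥O (genusFF L F))
  (h1 : ∀ i n, mapLam O.subtype (D.bb i n) = ExpK HL ht (B.bb i n))
  (h3 : ∀ i n, B.bb i n ∈ G)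

include hQb hrQ hτ hagree halg h1 h3 in
/-- **clause (5)**: the Taylor expansion of `bb i n * τ_l ^ m` in the local ring of `Q̄_l` is `D.bb i n`
(at the index `l`) times `X ^ m`. -/
theorem bb_exp_of_agree (i : Fin (genusFF L F)) (n : ℕ) (l : Fin (genusFF L F)) :
    ∃ (m : ℕ) (h : B.bb i n * (((X l).τ : ↥(X l).CQ) : F) ^ m ∈ (X l).CQ),
      ofPowerSeries ℤ ↥A ((X l).tay ⟨_, h⟩) =
        (mapLam (algebraMap ↥O ↥A) (D.bb i n)) l * (single (1 : ℤ) (1 : ↥A)) ^ m := by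
  obtain ⟨M, -, hM⟩ := exists_pole_bound HL ht (B.bb i n) l
  have hmem : B.bb i n * (((X l).τ : ↥(X l).CQ) : F) ^ M ∈ (X l).CQ := by
    rw [hτ l, mul_comm]
    exact pow_mul_mem_CQ HL ht hQb hrQ X hτ (h3 i n) (B.mem i n) l hM
  refine ⟨M, hmem, ?_⟩
  -- the coefficients of `D.bb i n` in `L`
  have hD : ∀ j : ℤ, ((((mapLam (algebraMap ↥O ↥A) (D.bb i n)) l).coeff j : ↥A) : L) =
      (ex HL ht l (B.bb i n)).coeff j := by
    intro j
    have e1 : ((mapLam (algebraMap ↥O ↥A) (D.bb i n)) l).coeff j =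
        algebraMap ↥O ↥A ((D.bb i n l).coeff j) := rfl
    have e2 : (mapLam O.subtype (D.bb i n) l).coeff j = O.subtype ((D.bb i n l).coeff j) := rfl
    rw [e1, halg, ← Subring.subtype_apply, ← e2, h1 i n]
    rfl
  have hfe : (B.bb i n * (((X l).τ : ↥(X l).CQ) : F) ^ M) = t l ^ M * B.bb i n := by
    rw [hτ l, mul_comm]
  ext j
  rw [single_pow, one_pow, nsmul_eq_mul, mul_one]
  have hR : (((mapLam (algebraMap ↥O ↥A) (D.bb i n)) l * single ((M : ℕ) : ℤ) (1 : ↥A)).coeff j) =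
      ((mapLam (algebraMap ↥O ↥A) (D.bb i n)) l).coeff (j - M) := by
    have := HahnSeries.coeff_mul_single_add (x := (mapLam (algebraMap ↥O ↥A) (D.bb i n)) l)
      (a := j - M) (b := (M : ℤ)) (r := (1 : ↥A))
    rw [sub_add_cancel, mul_one] at this
    exact this
  rw [hR, hD]
  rcases lt_or_ge j 0 with hj | hj
  · rw [ofPS_coeff_neg _ hj, hM (j - M) (by omega)]
    rfl
  · obtain ⟨m, rfl⟩ := Int.eq_ofNat_of_zero_le hj
    rw [ofPowerSeries_apply_coeff, hagree l ⟨_, hmem⟩ m]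
    have h2 := coeff_expandF_pow_mul (HL.residue (Q l)) (ht l) M (B.bb i n) ((m : ℤ) - M)
    rw [sub_add_cancel] at h2
    change (ex HL ht l (t l ^ M * B.bb i n)).coeff (m : ℤ) =
      (ex HL ht l (B.bb i n)).coeff ((m : ℤ) - M) at h2
    rw [← h2]
    show (ex HL ht l (B.bb i n * (((X l).τ : ↥(X l).CQ) : F) ^ M)).coeff (m : ℤ) = _
    rw [hfe]

/-- **helper21's fixed density data `DensBaseN` from the chart data.** -/
def densBaseN : DensBaseN (A := A) N G red r π D where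
  C := C
  HL := HL
  Qb := Qb
  Qb_inj := hQb
  X := X
  P0 := Q
  hP0 := hrQ
  zero0 := fun i => by
    rw [hτ i, ht i]
    exact one_pos
  Qs := Qs
  hQs := hQs
  Xs := Xs
  Ebar := ∑ i, Finsupp.single (Qb i) (1 : ℤ)
  Ebar_nonneg := fun x => sumPts_apply_nonneg Qb x
  Ebar_Qb := fun i => (sumPts_apply_self hQb i).ge
  hbar := hbar
  bbF := B.bb
  bb_gauss := h3
  bb_pole := fun i n P hP => mem_BaK.mp (B.mem i n) P (fun l hl' => hP l hl'.symm)
  bb_exp := bb_exp_of_agree HL ht hQb hrQ X hτ hagree B halg D h1 h3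

omit [Algebra ↥O ↥A] in
include C hQb hrQ hτ hagree hPs hQs hbar in
/-- **EXIT of G4' (abstract form), first half**: the normalised family `B` and helper14's `BasisData` `D`
over `O`, for a group `Γ` acting through `ρ` and fixing the chart data. -/
theorem exists_basisData_groupN
    (hR : ∃ γ : ℤ, ∀ D : Divisor L F,
      Divisor.degree D + 1 - γ ≤ (Module.finrank L (riemannRochSpace D) : ℤ))
    {Γ : Type*} [Group Γ] (ρ : Γ →* SemilinearAut L F)
    (hρQ : ∀ (σ : Γ) (i : Fin (genusFF L F)), ρ σ • Q i = Q i)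
    (hρt : ∀ (σ : Γ) (i : Fin (genusFF L F)), ρ σ • t i = t i)
    (hρPs : ∀ σ : Γ, ρ σ • Ps = Ps)
    (hO : ∀ a : L, a ∈ A → (∀ σ : Γ, SemilinearAut.baseAut (ρ σ) a = a) → a ∈ O) :
    ∃ (B : BBData HL ht (Q := Q) Ps) (D : BasisData ↥O (genusFF L F)),
      (∀ i n, mapLam O.subtype (D.bb i n) = ExpK HL ht (B.bb i n)) ∧
      (∀ i n l, ((D.cc i n l : ↥O) : L) = B.cc i n l) ∧
      (∀ i n, B.bb i n ∈ G) := by
  have h0 := finrank_H1_centreN C HL hQb hrQ hPs hQs hbar hR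
  obtain ⟨B⟩ := exists_bbDataN C HL hQb hrQ hPs hQs hbar ht hR
  refine ⟨B, ?_⟩
  exact exists_basisData_fixedN C HL ht hQb hrQ X hτ hagree hPs hQs hbar hR h0 B
    {s | ∃ σ : Γ, s = (((SemilinearAut.baseAut (ρ σ) : L ≃+* L) : L →+* L),
      ((SemilinearAut.toRingAut (ρ σ) : F ≃+* F) : F →+* F))}
    (by
      rintro s ⟨σ, rfl⟩
      exact fixesChart_of_smul (ρ σ) (hρQ σ) (hρt σ) (hρPs σ))
    O
    (by
      intro a ha hfix
      apply hO a ha
      intro σ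
      exact hfix _ ⟨σ, rfl⟩)

include C hQb hrQ hτ hagree hPs hQs hbar halg in
/-- **EXIT of G4' (abstract form)**: the normalised family `B`, helper14's `BasisData` `D` over `O`, and
helper21's `DensBaseN` built on them (`Bs = densBaseN … B D h1 h3`; all its data fields are the inputs, by
`rfl`). -/
theorem exists_densBaseN
    (hR : ∃ γ : ℤ, ∀ D : Divisor L F,
      Divisor.degree D + 1 - γ ≤ (Module.finrank L (riemannRochSpace D) : ℤ))
    {Γ : Type*} [Group Γ] (ρ : Γ →* SemilinearAut L F)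
    (hρQ : ∀ (σ : Γ) (i : Fin (genusFF L F)), ρ σ • Q i = Q i)
    (hρt : ∀ (σ : Γ) (i : Fin (genusFF L F)), ρ σ • t i = t i)
    (hρPs : ∀ σ : Γ, ρ σ • Ps = Ps)
    (hO : ∀ a : L, a ∈ A → (∀ σ : Γ, SemilinearAut.baseAut (ρ σ) a = a) → a ∈ O) :
    ∃ (B : BBData HL ht (Q := Q) Ps) (D : BasisData ↥O (genusFF L F)),
      (∀ i n, mapLam O.subtype (D.bb i n) = ExpK HL ht (B.bb i n)) ∧
      (∀ i n l, ((D.cc i n l : ↥O) : L) = B.cc i n l) ∧
      ∃ Bs : DensBaseN (A := A) N G red r π D,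
        Bs.Qb = Qb ∧ Bs.P0 = Q ∧ Bs.Qs = Qs ∧ Bs.bbF = B.bb ∧
        (∀ i, HEq (Bs.X i) (X i)) ∧ HEq Bs.Xs Xs ∧
        Bs.Ebar = ∑ i, Finsupp.single (Qb i) (1 : ℤ) := by
  obtain ⟨B, D, h1, h2, h3⟩ := exists_basisData_groupN C HL ht hQb hrQ X hτ hagree hPs hQs hbar hR ρ
    hρQ hρt hρPs hO
  exact ⟨B, D, h1, h2,
    densBaseN C HL ht hQb hrQ X hτ hagree hQs Xs hbar B halg D h1 h3,
    rfl, rfl, rfl, rfl, fun _ => HEq.rfl, HEq.rfl, rfl⟩

end Fermat.Agent.ES.W33.DensBaseOfN9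

end
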