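/-
Programme W (S33), chapter G4' EXIT at a CHART of the nodal model, helper9: **helper21's `DensBaseN` at a
chart `χ : ChartN` with `ChartHypN`** — `DensBaseOfN9.exists_densBaseN` restated with the literals of the
frozen interface `W33/XiIfaceN29` (`ChartN`, `ChartHypN`, the fields `smul_t`, `smul_disc` of `EqvHypN`),
with its two remaining analytic inputs reduced to their sources:

* `hagree_of_taylor`  : the agreement `hagree` (Taylor expansion of the local ring `CQ` = Laurent expansion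
                        at the centre) from **Taylor's formula with remainder** in `CQ` (via the model-free
                        `V19/TaylorAgree9`; B3''s Taylor port exports the formula, as `TaylorSec3.sub_trunc`
                        did in V19);
* `smul_centre_eq`    : a semilinear automorphism fixing `t_i` and preserving the disc of `Q̄_i` fixes the
                        centre `Q_i` (from the uniqueness clause `val_unique` of (Da) at `a = 0`);
* **`exists_densBase_chart`** : the exit.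
-/
import Mathlib
import Fermat.Agent.ES.V19.TaylorAgree9
import Fermat.Agent.ES.W33.DensBaseOfN9

set_option autoImplicit false

open AlgebraicCurve

noncomputable section

namespace Fermat.Agent.ES.W33.DensBaseChartN9

open Fermat.Agent.X0.FF Fermat.Agent.RR Fermat.Agent.RR.LSpace
  Fermat.Agent.ES.V19.OnePlaceRep9 Fermat.Agent.ES.V19.ExpandPlace9 Fermat.Agent.ES.V19.BasisQbar9
  Fermat.Agent.ES.V19.BasisData9 Fermat.Agent.ES.V19.NormalFormBasis14
  Fermat.Agent.ES.W33.XiIfaceN29 Fermat.Agent.ES.W33.DensityInstN21 Fermat.Agent.ES.W33.DensBaseOfN9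
open Fermat.Agent.ES.V19.LaurentMap19 (Lam mapLam)

variable {L F k Ft₁ Ft₂ : Type*} [Field L] [Field F] [Algebra L F] [Field k]
  [Field Ft₁] [Algebra k Ft₁] [Field Ft₂] [Algebra k Ft₂]
  {A : ValuationSubring L}

variable {sn : ℕ} {N : Nodes k Ft₁ Ft₂ sn} {G : Subring F} {red : ↥G →+* Ft₁ × Ft₂}
  {r : Place L F → SPt k Ft₁ Ft₂ ⊕ Fin sn} {π : ↥A →+* k}

/-! ### `hagree` from Taylor's formula with remainder -/

/-- **the Taylor expansion of the local ring is the Laurent expansion at the centre**, as soon as Taylor's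
formula with remainder holds in the local ring. -/
theorem hagree_of_taylor {Qb : SPt k Ft₁ Ft₂} (X : LocExpN (A := A) G red r π Qb)
    {P : Place L F} (hP : r P = Sum.inl Qb) (hres : ResK P) {t : F} (ht : P.ord t = 1)
    (hτ : ((X.τ : ↥X.CQ) : F) = t)
    (hT : ∀ (n : ℕ) (c : ↥X.CQ), ∃ b : ↥X.CQ,
      c = ∑ i ∈ Finset.range n, X.constC (PowerSeries.coeff i (X.tay c)) * X.τ ^ i + X.τ ^ n * b)
    (f : ↥X.CQ) (m : ℕ) :
    ((PowerSeries.coeff m (X.tay f) : ↥A) : L) = (expandF hres ht (f : F)).coeff (m : ℤ) := by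
  have h := Fermat.Agent.ES.V19.TaylorAgree9.coeff_expandF_eq_of_taylor_formula hres ht
    (A.subtype) (X.CQ.subtype)
    (fun c => mem_of_ord_nonneg P (X.reg _ c.2 P hP))
    (fun a => X.constC a) (fun a => rfl) (τ := X.τ) hτ (fun c => X.tay c) hT f (m : ℤ)
  rw [if_neg (by omega), Int.natAbs_natCast] at h
  exact h.symm

/-! ### the centre is fixed -/

/-- a semilinear automorphism fixing `t_i` and preserving the disc of `Q̄_i` fixes the centre `Q_i`. -/
theorem smul_centre_eq {g : ℕ} {χ : ChartN L F k Ft₁ Ft₂ g} (hχ : ChartHypN A N r χ)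
    (σ : SemilinearAut L F) (i : Fin g) (hσt : σ • χ.t i = χ.t i)
    (hσd : ∀ P : Place L F, r P = Sum.inl (χ.Qbar i) → r (σ • P) = Sum.inl (χ.Qbar i)) :
    σ • χ.Q i = χ.Q i := by
  have h0 : (0 : L) ∈ A.nonunits := by
    rw [ValuationSubring.mem_nonunits_iff, map_zero]
    exact zero_lt_one
  obtain ⟨P₀, -, huniq⟩ := hχ.val_unique i 0 h0
  have h1 : χ.Q i = P₀ := by
    apply huniq
    refine ⟨hχ.centre_red i, ?_⟩
    rw [map_zero, sub_zero]
    exact hχ.centre_zero i
  have h2 : σ • χ.Q i = P₀ := by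
    apply huniq
    refine ⟨hσd _ (hχ.centre_red i), ?_⟩
    rw [map_zero, sub_zero]
    have := SemilinearAut.ord_smul σ (χ.Q i) (χ.t i)
    rw [hσt] at this
    rw [this]
    exact hχ.centre_zero i
  rw [h2, h1]

/-! ### the exit -/

variable (C : RedCtxN A π N G red r) (HL : LHyp L F)
  {χ : ChartN L F k Ft₁ Ft₂ (genusFF L F)} (hχ : ChartHypN A N r χ)
  (ht : ∀ i, (χ.Q i).ord (χ.t i) = 1)
  (X : ∀ i, LocExpN (A := A) G red r π (χ.Qbar i))
  (hτ : ∀ i, (((X i).τ : ↥(X i).CQ) : F) = χ.t i)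
  (hT : ∀ (i : Fin (genusFF L F)) (n : ℕ) (c : ↥(X i).CQ), ∃ b : ↥(X i).CQ,
    c = ∑ j ∈ Finset.range n, (X i).constC (PowerSeries.coeff j ((X i).tay c)) * (X i).τ ^ j +
      (X i).τ ^ n * b)
  {Ps : Place L F} {Qs : SPt k Ft₁ Ft₂} (hPs : r Ps = Sum.inl Qs) (hQs : ∀ i, χ.Qbar i ≠ Qs)
  (Xs : LocExpN (A := A) G red r π Qs)
  {O : Subring L} [Algebra ↥O ↥A]
  (halg : ∀ x : ↥O, ((algebraMap ↥O ↥A x : ↥A) : L) = (x : L))

include C hχ hτ hT hPs hQs halg in
/-- **EXIT of G4' at a chart**: the normalised family `B`, helper14's `BasisData` `D` over `O`, and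
helper21's `DensBaseN` built on them, for a group `Γ` acting through `ρ`, fixing the coordinates, preserving
the discs and fixing the auxiliary place; `O` any subring containing the `Γ`-fixed elements of `A`. -/
theorem exists_densBase_chart
    (hR : ∃ γ : ℤ, ∀ D : Divisor L F,
      Divisor.degree D + 1 - γ ≤ (Module.finrank L (riemannRochSpace D) : ℤ))
    {Γ : Type*} [Group Γ] (ρ : Γ →* SemilinearAut L F)
    (smul_t : ∀ (σ : Γ) (i : Fin (genusFF L F)), ρ σ • χ.t i = χ.t i)
    (smul_disc : ∀ (σ : Γ) (i : Fin (genusFF L F)) (P : Place L F), r P = Sum.inl (χ.Qbar i) →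
      r (ρ σ • P) = Sum.inl (χ.Qbar i))
    (hρPs : ∀ σ : Γ, ρ σ • Ps = Ps)
    (hO : ∀ a : L, a ∈ A → (∀ σ : Γ, SemilinearAut.baseAut (ρ σ) a = a) → a ∈ O) :
    ∃ (B : BBData HL ht (Q := χ.Q) Ps) (D : BasisData ↥O (genusFF L F)),
      (∀ i n, mapLam O.subtype (D.bb i n) = ExpK HL ht (B.bb i n)) ∧
      (∀ i n l, ((D.cc i n l : ↥O) : L) = B.cc i n l) ∧
      ∃ Bs : DensBaseN (A := A) N G red r π D,
        Bs.Qb = χ.Qbar ∧ Bs.P0 = χ.Q ∧ Bs.Qs = Qs ∧ Bs.bbF = B.bb ∧
        (∀ i, HEq (Bs.X i) (X i)) ∧ HEq Bs.Xs Xs ∧ Bs.Ebar = χ.E0bar :=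
  exists_densBaseN C HL ht hχ.inj hχ.centre_red X hτ
    (fun i f m => hagree_of_taylor (X i) (hχ.centre_red i) (HL.residue (χ.Q i)) (ht i) (hτ i)
      (hT i) f m)
    hPs hQs Xs hχ.const_E0bar halg hR ρ
    (fun σ i => smul_centre_eq hχ (ρ σ) i (smul_t σ i) (smul_disc σ i)) smul_t hρPs hO

end Fermat.Agent.ES.W33.DensBaseChartN9

end
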