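/-
Programme W (S33, SPINE v1.1), THE GEO JOIN, part 2a (helper23, ruling w11): **THE INSTANCE — one name
for every object of the nodal model at which the abstract layers are instantiated, specified by
properties.**

PARAMETERS: `p M' : ℕ` (`p` prime, `p ∤ M'`; bad level `N' = M' * p`), `A : ValuationSubring ℚ̄` over `p`.
CARRIERS (ruling j2, binding):
  `FW p M'  := ↥(modularFunctionFieldBar (M' * p))`   (so `Pic0 ℚ̄ (FW p M') = JZero (M' * p)` literally),
  `kW A     := IsLocalRing.ResidueField ↥A`,           `π := IsLocalRing.residue ↥A`,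
  `FtW M' A := ↥(modularFunctionFieldFullC (kW A) M')`  (BOTH components of the nodal fibre),
  `Γ_f := gammaF A p f` acting through main's `XiEqvInst29.rho (A := A) (M := M' * p) p f`.

* `NodalInst p M' A` (DATA, built by B3′): `s`, `nodes`, `G`, `red`, `r`, and for the chart:
  `Good` (the smooth points at which the disc lemmas hold), `coord Q̄` (the coordinate `t_{Q̄}`),
  `centre Q̄` (the zero of `coord Q̄` in the disc of `Q̄`).
* `NodalInstHyp I : Prop` (PROVED by B3′): `ctx : RedCtxN …` (helper29's 9 fields), `nodes_inj`,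
  `bad_finite`, the four (Da) literals at every GOOD point, `level` (every good point and its coordinate
  are fixed by some `Γ_f`), `r_smul_inertia`.
* `chartOfN I Q̄ : ChartN …` — THE chart at good points `Q̄ : Fin g → SPt` (`t i := coord (Q̄ i)`,
  `Q i := centre (Q̄ i)`); `chartHypN_of` (all fields of `ChartHypN` from `NodalInstHyp` + B2′'s
  `const_E0bar` + an auxiliary good point); `exists_eqvHypN` (`EqvHypN` at the product of the levels,
  and at every multiple of it).
-/
import Mathlib
import Fermat.Agent.ES.W33.XiIfaceN29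
import Fermat.Agent.ES.V19.XiEqvInst29

set_option autoImplicit false
set_option linter.unusedSectionVars false
set_option synthInstance.maxHeartbeats 400000

noncomputable section

open AlgebraicCurve ModularCurve

namespace Fermat.Agent.ES.W33.GeoNames23

open Fermat.Agent.ES.V19.GammaF16 Fermat.Agent.ES.V19.XiEqvInst29 Fermat.Agent.ES.W33.XiIfaceN29

attribute [local instance 5000] HahnSeries.powerSeriesAlgebra SubalgebraClass.toAlgebra

local notation "Qb" => AlgebraicClosure ℚ
local notation "GQ" => (AlgebraicClosure ℚ ≃ₐ[ℚ] AlgebraicClosure ℚ)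

/-- the function field of `X₀(M' p)` over `ℚ̄`; `Pic0 ℚ̄ (FW p M') = JZero (M' * p)`. -/
abbrev FW (p M' : ℕ) : Type := ↥(modularFunctionFieldBar (M' * p))

/-- the residue field of `A`. -/
abbrev kW (A : ValuationSubring Qb) : Type := IsLocalRing.ResidueField ↥A

/-- the function field of `X₀(M')` over the residue field: BOTH components of the nodal fibre. -/
abbrev FtW (M' : ℕ) (A : ValuationSubring Qb) : Type := ↥(modularFunctionFieldFullC (kW A) M')

/-- the smooth points of the nodal fibre. -/
abbrev SPtW (M' : ℕ) (A : ValuationSubring Qb) : Type := SPt (kW A) (FtW M' A) (FtW M' A)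

/-- **THE NODAL INSTANCE, data** (built by B3′ from Programme N's model at `q := p`). -/
structure NodalInst (p M' : ℕ) (A : ValuationSubring Qb) where
  /-- the number of nodes -/
  s : ℕ
  /-- the node places on the two components -/
  nodes : Nodes (kW A) (FtW M' A) (FtW M' A) s
  /-- `O₁ ⊓ O₂`: the functions integral for both Gauss valuations -/
  G : Subring (FW p M')
  /-- the pair reduction -/
  red : ↥G →+* FtW M' A × FtW M' A
  /-- the total reduction of places: a smooth point of a component, or a node -/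
  r : Place Qb (FW p M') → SPtW M' A ⊕ Fin s
  /-- the GOOD smooth points (the disc lemmas hold there) -/
  Good : SPtW M' A → Prop
  /-- the coordinate at a good point -/
  coord : SPtW M' A → FW p M'
  /-- the centre of the disc of a good point (the zero of its coordinate) -/
  centre : SPtW M' A → Place Qb (FW p M')

variable {p M' : ℕ} {A : ValuationSubring Qb}

/-- **THE NODAL INSTANCE, properties** (proved by B3′). -/
structure NodalInstHyp (I : NodalInst p M' A) : Prop where
  /-- helper29's function-level context (9 fields) -/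
  ctx : RedCtxN A (IsLocalRing.residue ↥A) I.nodes I.G I.red I.r
  /-- the node places of the first component are distinct (B2′ needs it) -/
  nodes_inj : Function.Injective I.nodes.ν₁
  /-- all but finitely many points are good -/
  bad_finite : {Q : SPtW M' A | ¬ I.Good Q}.Finite
  centre_red : ∀ Q, I.Good Q → I.r (I.centre Q) = Sum.inl Q
  centre_zero : ∀ Q, I.Good Q → 0 < (I.centre Q).ord (I.coord Q)
  /-- (Da) -/
  val_mem : ∀ Q, I.Good Q → ∀ P : Place Qb (FW p M'), I.r P = Sum.inl Q →
    ∃ a ∈ A.nonunits, 0 < P.ord (I.coord Q - algebraMap Qb (FW p M') a)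
  /-- (Da) -/
  val_unique : ∀ Q, I.Good Q → ∀ a ∈ A.nonunits,
    ∃! P : Place Qb (FW p M'), I.r P = Sum.inl Q ∧
      0 < P.ord (I.coord Q - algebraMap Qb (FW p M') a)
  /-- every good point, with its coordinate, is fixed by some `Γ_f` -/
  level : ∀ Q, I.Good Q → ∃ f₀ : ℕ, 0 < f₀ ∧ ∀ σ : ↥(gammaF A p f₀),
    rho (A := A) (M := M' * p) p f₀ σ • I.coord Q = I.coord Q ∧
    ∀ P : Place Qb (FW p M'), I.r P = Sum.inl Q →
      I.r (rho (A := A) (M := M' * p) p f₀ σ • P) = Sum.inl Q
  /-- the inertia group acts trivially on the special fibre -/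
  r_smul_inertia : ∀ τ ∈ A.inertiaSubgroupIn ℚ, ∀ P : Place Qb (FW p M'),
    I.r (arithmeticGalois (modularFunctionFieldFull (M' * p)) τ • P) = I.r P

/-- **THE chart** at the points `Q̄ : Fin g → SPt` of the instance. -/
def chartOfN (I : NodalInst p M' A) {g : ℕ} (Qbar : Fin g → SPtW M' A) :
    ChartN Qb (FW p M') (kW A) (FtW M' A) (FtW M' A) g where
  Qbar := Qbar
  t := fun i => I.coord (Qbar i)
  Q := fun i => I.centre (Qbar i)

@[simp] theorem chartOfN_Qbar (I : NodalInst p M' A) {g : ℕ} (Qbar : Fin g → SPtW M' A) :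
    (chartOfN I Qbar).Qbar = Qbar := rfl

@[simp] theorem chartOfN_t (I : NodalInst p M' A) {g : ℕ} (Qbar : Fin g → SPtW M' A) (i : Fin g) :
    (chartOfN I Qbar).t i = I.coord (Qbar i) := rfl

@[simp] theorem chartOfN_Q (I : NodalInst p M' A) {g : ℕ} (Qbar : Fin g → SPtW M' A) (i : Fin g) :
    (chartOfN I Qbar).Q i = I.centre (Qbar i) := rfl

variable {I : NodalInst p M' A}

/-- a good point is a smooth point of the nodal fibre. -/
theorem NodalInstHyp.good_smooth (hI : NodalInstHyp I) {Q : SPtW M' A} (hQ : I.Good Q) :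
    I.nodes.IsSmooth Q :=
  hI.ctx.smooth _ _ (hI.centre_red Q hQ)

/-- **`ChartHypN` at the instance**: good distinct points with `h⁰(O(Ē₀)) = 1` (B2′) and one more
good point. -/
theorem chartHypN_of (hI : NodalInstHyp I) {g : ℕ} {Qbar : Fin g → SPtW M' A}
    (hinj : Function.Injective Qbar) (hgood : ∀ i, I.Good (Qbar i))
    (hconst : ∀ f ∈ I.nodes.LN (∑ i, Finsupp.single (Qbar i) (1 : ℤ)),
      ∃ c : kW A, f = (algebraMap (kW A) (FtW M' A) c, algebraMap (kW A) (FtW M' A) c))
    {Qs : SPtW M' A} (hQs : I.Good Qs) (hne : ∀ i, Qs ≠ Qbar i) :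
    ChartHypN A I.nodes I.r (chartOfN I Qbar) where
  inj := hinj
  smooth := fun i => hI.good_smooth (hgood i)
  const_E0bar := hconst
  centre_red := fun i => hI.centre_red _ (hgood i)
  centre_zero := fun i => hI.centre_zero _ (hgood i)
  val_mem := fun i P hP => hI.val_mem _ (hgood i) P hP
  val_unique := fun i a ha => hI.val_unique _ (hgood i) a ha
  aux := ⟨I.centre Qs, Qs, hI.centre_red Qs hQs, hne⟩

/-- `rho` does not depend on the level. -/
theorem rho_incl {f f' : ℕ} (h : gammaF A p f' ≤ gammaF A p f) (σ : ↥(gammaF A p f')) :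
    rho (A := A) (M := M' * p) p f' σ =
      rho (A := A) (M := M' * p) p f (⟨(σ : GQ), h σ.2⟩ : ↥(gammaF A p f)) := rfl

/-- **`EqvHypN` at the instance**, at every multiple of ONE level. -/
theorem exists_eqvHypN (hI : NodalInstHyp I) {g : ℕ} {Qbar : Fin g → SPtW M' A}
    (hgood : ∀ i, I.Good (Qbar i)) :
    ∃ f₀ : ℕ, 0 < f₀ ∧ ∀ f : ℕ, f₀ ∣ f →
      EqvHypN I.r (chartOfN I Qbar) ↥(gammaF A p f) (rho (A := A) (M := M' * p) p f) := by
  choose lev hlev0 hlev using fun i => hI.level _ (hgood i)
  refine ⟨∏ i, lev i, Finset.prod_pos fun i _ => hlev0 i, fun f hf => ?_⟩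
  have hle : ∀ i, gammaF A p f ≤ gammaF A p (lev i) := fun i =>
    gammaF_anti ((Finset.dvd_prod_of_mem lev (Finset.mem_univ i)).trans hf)
  exact
    { smul_pic := fun _ _ => rfl
      smul_base := fun _ _ => rfl
      smul_t := fun σ i => by
        rw [rho_incl (hle i) σ]
        exact (hlev i _).1
      smul_disc := fun σ i P hP => by
        rw [rho_incl (hle i) σ]
        exact (hlev i _).2 P hP }

end Fermat.Agent.ES.W33.GeoNames23
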