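/-
Programme W (S33), chapter G4' EXIT AT THE NODAL INSTANCE, helper9: **helper21's `DensBaseN` (hence the
whole input of (Le)/(Ξc)) at helper23's instance `GeoNames23.NodalInst`**, over `O_f = fixRing A Γ_f`, at
every multiple `f` of ONE level — the nodal port of `V19/BasisLevel9` + `BasisInst9` + `DensBaseInst9`.

The ONLY inputs beyond `hI : NodalInstHyp I` (B3') are the local expansion exports at the GOOD points, bundled
in ONE structure

  `GoodExp I` : (E1) `X Q̄ : LocExpN I.G I.red I.r (residue) Q̄` for every good `Q̄`;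
                (E2) `((X Q̄).τ : F) = I.coord Q̄`;
                (Da) for `s ∈ 𝔪_A`, `coord Q̄ - s` has exactly one zero in the disc of `Q̄`, a simple one
                     (so (E3) `(I.centre Q̄).ord (I.coord Q̄) = 1` is `GoodExp.unif`);
                (U)  for `s ∈ 𝔪_A`, `(coord Q̄ - s)⁻¹ ∈ I.G` (a unit for both Gauss valuations);
                (E4) Taylor's formula with remainder for `(X Q̄).tay` in the local ring `(X Q̄).CQ`;

and the generic-fibre facts `HL`, `hR` (main: `LHypGen.lHyp_of_isGen`, `riemann_inequality_of_isGen`).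

* `smul_centre_of_level` : `Γ_f` fixes the centre of a good point, `f` a multiple of its level;
* **`exists_densBase_inst`** : for a good nonspecial family `Q̄ : Fin g → SPt` (`g = genusFF ℚ̄ F`) with an
  auxiliary good point `Qs`: `∃ f₁ > 0, ∀ f, f₁ ∣ f →` `EqvHypN` for `Γ_f` ∧ `∃ B D`, (1) ∧ (2) ∧
  `∃ Bs : DensBaseN … D`, `chartOfN I Q̄ = ⟨Bs.Qb, (Bs.X ·).τ, Bs.P0⟩`, `Bs.Qs = Qs`, `Bs.bbF = B.bb`,
  and (Da), (U) in the vocabulary of `Bs` (= the field `da` of helper21's `DiscHypN Bs` and his `hunit`).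
-/
import Mathlib
import Fermat.Agent.ES.V19.XiCInst9
import Fermat.Agent.ES.W33.GeoNames23
import Fermat.Agent.ES.W33.DensBaseChartN9

set_option autoImplicit false
set_option linter.unusedSectionVars false
set_option synthInstance.maxHeartbeats 400000
set_option maxHeartbeats 1000000

noncomputable section

open AlgebraicCurve ModularCurve

namespace Fermat.Agent.ES.W33.DensBaseInstN9

open Fermat.Agent.X0.FF Fermat.Agent.RR Fermat.Agent.RR.LSpace
  Fermat.Agent.ES.V19.OnePlaceRep9 Fermat.Agent.ES.V19.BasisQbar9 Fermat.Agent.ES.V19.BasisData9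
  Fermat.Agent.ES.V19.NormalFormBasis14
  Fermat.Agent.ES.V19.GammaF16 Fermat.Agent.ES.V19.TraceDescent26 Fermat.Agent.ES.V19.XiEqvInst29
  Fermat.Agent.ES.W33.XiIfaceN29 Fermat.Agent.ES.W33.DensityInstN21 Fermat.Agent.ES.W33.GeoNames23
  Fermat.Agent.ES.W33.DensBaseChartN9 Fermat.Agent.ES.W33.DensBaseOfN9
open Fermat.Agent.ES.V19.LaurentMap19 (Lam mapLam)
open Fermat.Agent.ES.V19.XiCInst9 (algFix)

attribute [local instance 5000] HahnSeries.powerSeriesAlgebra SubalgebraClass.toAlgebra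
attribute [local instance] algFix

variable {p M' : ℕ} {A : ValuationSubring (AlgebraicClosure ℚ)}

/-- **The local expansion exports of B3' at the good points** (the only instance inputs of G4' and of
(Le)/(Ξc)). -/
structure GoodExp (I : NodalInst p M' A) where
  /-- (E1) the local expansion datum at a good point -/
  X : ∀ Q : SPtW M' A, I.Good Q →
    LocExpN (A := A) I.G I.red I.r (IsLocalRing.residue ↥A) Q
  /-- (E2) its parameter is the coordinate -/
  tau_eq : ∀ (Q : SPtW M' A) (h : I.Good Q), (((X Q h).τ : ↥(X Q h).CQ) : FW p M') = I.coord Q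
  /-- (Da) for `s ∈ 𝔪_A` the function `coord Q̄ - s` has exactly one zero in the disc of `Q̄`, a simple
  one (helper21's `ExpPkgOfDensN21.DiscHypN.da`, helper7's `XiBridgeA7.DiscFamHyp.da`) -/
  da : ∀ (Q : SPtW M' A), I.Good Q → ∀ s : ↥A, s ∈ IsLocalRing.maximalIdeal ↥A →
    ∃ P : Place (AlgebraicClosure ℚ) (FW p M'), I.r P = Sum.inl Q ∧
      P.ord (I.coord Q - algebraMap (AlgebraicClosure ℚ) (FW p M') (s : AlgebraicClosure ℚ)) = 1 ∧
      ∀ P' : Place (AlgebraicClosure ℚ) (FW p M'), I.r P' = Sum.inl Q →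
        0 < P'.ord (I.coord Q -
          algebraMap (AlgebraicClosure ℚ) (FW p M') (s : AlgebraicClosure ℚ)) → P' = P
  /-- (U) for `s ∈ 𝔪_A` the function `coord Q̄ - s` is a unit for BOTH Gauss valuations (its reduction
  is nonzero on both components): helper7's `XiBridgeA7.DiscFamHyp.tau_unit`, helper21's `hunit` -/
  tau_unit : ∀ (Q : SPtW M' A), I.Good Q → ∀ s : ↥A, s ∈ IsLocalRing.maximalIdeal ↥A →
    (I.coord Q - algebraMap (AlgebraicClosure ℚ) (FW p M') (s : AlgebraicClosure ℚ))⁻¹ ∈ I.G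
  /-- (E4) Taylor's formula with remainder in the local ring -/
  taylor : ∀ (Q : SPtW M' A) (h : I.Good Q) (n : ℕ) (c : ↥(X Q h).CQ), ∃ b : ↥(X Q h).CQ,
    c = ∑ j ∈ Finset.range n,
        (X Q h).constC (PowerSeries.coeff j ((X Q h).tay c)) * (X Q h).τ ^ j + (X Q h).τ ^ n * b

variable {I : NodalInst p M' A}

/-- (E3) the coordinate is a uniformiser at the centre (from (Da) at `s = 0`). -/
theorem GoodExp.unif (E : GoodExp I) (hI : NodalInstHyp I) (Q : SPtW M' A) (hQ : I.Good Q) :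
    (I.centre Q).ord (I.coord Q) = 1 := by
  obtain ⟨P, -, h1, huniq⟩ := E.da Q hQ 0 (Ideal.zero_mem _)
  rw [ZeroMemClass.coe_zero, map_zero, sub_zero] at h1 huniq
  rw [huniq (I.centre Q) (hI.centre_red Q hQ) (hI.centre_zero Q hQ)]
  exact h1

/-- `Γ_f` fixes the centre of a good point as soon as `f` is a multiple of a level of the point. -/
theorem smul_centre_of_level (hI : NodalInstHyp I) {Q : SPtW M' A} (hQ : I.Good Q) {f₀ f : ℕ}
    (hlev : ∀ σ : ↥(gammaF A p f₀),
      rho (A := A) (M := M' * p) p f₀ σ • I.coord Q = I.coord Q ∧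
      ∀ P : Place (AlgebraicClosure ℚ) (FW p M'), I.r P = Sum.inl Q →
        I.r (rho (A := A) (M := M' * p) p f₀ σ • P) = Sum.inl Q)
    (hf : f₀ ∣ f) (σ : ↥(gammaF A p f)) :
    rho (A := A) (M := M' * p) p f σ • I.centre Q = I.centre Q := by
  have hle : gammaF A p f ≤ gammaF A p f₀ := gammaF_anti hf
  obtain ⟨hσt, hσd⟩ := hlev ⟨(σ : AlgebraicClosure ℚ ≃ₐ[ℚ] AlgebraicClosure ℚ), hle σ.2⟩
  rw [← rho_incl (M' := M') hle σ] at hσt hσd
  have h0 : (0 : AlgebraicClosure ℚ) ∈ A.nonunits := by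
    rw [ValuationSubring.mem_nonunits_iff, map_zero]
    exact zero_lt_one
  obtain ⟨P₀, -, huniq⟩ := hI.val_unique Q hQ 0 h0
  have h1 : I.centre Q = P₀ := by
    apply huniq
    refine ⟨hI.centre_red Q hQ, ?_⟩
    rw [map_zero, sub_zero]
    exact hI.centre_zero Q hQ
  have h2 : rho (A := A) (M := M' * p) p f σ • I.centre Q = P₀ := by
    apply huniq
    refine ⟨hσd _ (hI.centre_red Q hQ), ?_⟩
    rw [map_zero, sub_zero]
    have := SemilinearAut.ord_smul (rho (A := A) (M := M' * p) p f σ) (I.centre Q) (I.coord Q)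
    rw [hσt] at this
    rw [this]
    exact hI.centre_zero Q hQ
  rw [h2, h1]

/-- **EXIT of G4' at the nodal instance.** -/
theorem exists_densBase_inst (hI : NodalInstHyp I) (E : GoodExp I)
    (HL : LHyp (AlgebraicClosure ℚ) (FW p M'))
    (hR : ∃ γ : ℤ, ∀ D : Divisor (AlgebraicClosure ℚ) (FW p M'),
      Divisor.degree D + 1 - γ ≤ (Module.finrank (AlgebraicClosure ℚ) (riemannRochSpace D) : ℤ))
    {Qbar : Fin (genusFF (AlgebraicClosure ℚ) (FW p M')) → SPtW M' A}
    (hinj : Function.Injective Qbar) (hgood : ∀ i, I.Good (Qbar i))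
    (hconst : ∀ f ∈ I.nodes.LN (∑ i, Finsupp.single (Qbar i) (1 : ℤ)),
      ∃ c : kW A, f = (algebraMap (kW A) (FtW M' A) c, algebraMap (kW A) (FtW M' A) c))
    {Qs : SPtW M' A} (hQs : I.Good Qs) (hne : ∀ i, Qs ≠ Qbar i) :
    ∃ f₁ : ℕ, 0 < f₁ ∧ ∀ f : ℕ, f₁ ∣ f →
      EqvHypN I.r (chartOfN I Qbar) ↥(gammaF A p f) (rho (A := A) (M := M' * p) p f) ∧
      (∀ σ : ↥(gammaF A p f), rho (A := A) (M := M' * p) p f σ • I.centre Qs = I.centre Qs) ∧
      ∃ (B : BBData HL (Q := (chartOfN I Qbar).Q) (t := (chartOfN I Qbar).t)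
            (fun i => E.unif hI _ (hgood i)) (I.centre Qs))
        (D : BasisData ↥(fixRing A (gammaF A p f)) (genusFF (AlgebraicClosure ℚ) (FW p M'))),
        (∀ i n, mapLam (fixRing A (gammaF A p f)).subtype (D.bb i n) =
          ExpK HL (Q := (chartOfN I Qbar).Q) (t := (chartOfN I Qbar).t)
            (fun i => E.unif hI _ (hgood i)) (B.bb i n)) ∧
        (∀ i n l, ((D.cc i n l : ↥(fixRing A (gammaF A p f))) : AlgebraicClosure ℚ) = B.cc i n l) ∧
        ∃ Bs : DensBaseN (A := A) I.nodes I.G I.red I.r (IsLocalRing.residue ↥A) D,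
          chartOfN I Qbar =
            { Qbar := Bs.Qb
              t := fun i => (((Bs.X i).τ : ↥(Bs.X i).CQ) : FW p M')
              Q := Bs.P0 } ∧
          Bs.Qs = Qs ∧ Bs.bbF = B.bb ∧ Bs.Ebar = ∑ i, Finsupp.single (Qbar i) (1 : ℤ) ∧
          -- (Da) in the vocabulary of `Bs` (= the field `da` of helper21's `DiscHypN Bs`)
          (∀ (i : Fin (genusFF (AlgebraicClosure ℚ) (FW p M'))) (s : ↥A),
            s ∈ IsLocalRing.maximalIdeal ↥A →
            ∃ P : Place (AlgebraicClosure ℚ) (FW p M'), I.r P = Sum.inl (Bs.Qb i) ∧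
              P.ord ((((Bs.X i).τ : ↥(Bs.X i).CQ) : FW p M') -
                algebraMap (AlgebraicClosure ℚ) (FW p M') (s : AlgebraicClosure ℚ)) = 1 ∧
              ∀ P' : Place (AlgebraicClosure ℚ) (FW p M'), I.r P' = Sum.inl (Bs.Qb i) →
                0 < P'.ord ((((Bs.X i).τ : ↥(Bs.X i).CQ) : FW p M') -
                  algebraMap (AlgebraicClosure ℚ) (FW p M') (s : AlgebraicClosure ℚ)) → P' = P) ∧
          -- (U) in the vocabulary of `Bs` (= helper21's `hunit`)
          ∀ (i : Fin (genusFF (AlgebraicClosure ℚ) (FW p M'))) (s : ↥A),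
            s ∈ IsLocalRing.maximalIdeal ↥A →
            ((((Bs.X i).τ : ↥(Bs.X i).CQ) : FW p M') -
              algebraMap (AlgebraicClosure ℚ) (FW p M') (s : AlgebraicClosure ℚ))⁻¹ ∈ I.G := by
  obtain ⟨f₀, hf₀, Heq⟩ := exists_eqvHypN (Qbar := Qbar) hI hgood
  obtain ⟨fs, hfs, hlev⟩ := hI.level Qs hQs
  refine ⟨f₀ * fs, Nat.mul_pos hf₀ hfs, fun f hf => ?_⟩
  have hE := Heq f ((Dvd.intro _ rfl).trans hf)
  have hρPs := smul_centre_of_level hI hQs hlev ((Dvd.intro_left _ rfl).trans hf)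
  refine ⟨hE, hρPs, ?_⟩
  have Hχ := chartHypN_of hI hinj hgood hconst hQs hne
  have ht : ∀ i, ((chartOfN I Qbar).Q i).ord ((chartOfN I Qbar).t i) = 1 :=
    fun i => E.unif hI _ (hgood i)
  have hτ : ∀ i, (((E.X _ (hgood i)).τ : ↥(E.X _ (hgood i)).CQ) : FW p M') =
      (chartOfN I Qbar).t i := fun i => E.tau_eq _ (hgood i)
  have hagree : ∀ i (f : ↥(E.X _ (hgood i)).CQ) (m : ℕ),
      ((PowerSeries.coeff m ((E.X _ (hgood i)).tay f) : ↥A) : AlgebraicClosure ℚ) =
        (ex HL ht i (f : FW p M')).coeff (m : ℤ) := fun i f m =>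
    hagree_of_taylor (E.X _ (hgood i)) (Hχ.centre_red i) (HL.residue _) (ht i) (hτ i)
      (E.taylor _ (hgood i)) f m
  obtain ⟨B, D, h1, h2, h3⟩ := exists_basisData_groupN hI.ctx HL ht hinj Hχ.centre_red
    (fun i => E.X _ (hgood i)) hτ hagree (hI.centre_red Qs hQs) (fun i => (hne i).symm) hconst hR
    (rho (A := A) (M := M' * p) p f)
    (fun σ i => smul_centre_eq Hχ _ i (hE.smul_t σ i) (hE.smul_disc σ i)) hE.smul_t hρPs
    (O := fixRing A (gammaF A p f))
    (by
      intro a ha hfix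
      refine mem_fixRing_iff.mpr ⟨ha, fun σ hσ => ?_⟩
      have h1 := hfix ⟨σ, hσ⟩
      have h2 := hE.smul_base ⟨σ, hσ⟩ a
      rw [← h2] at h1
      exact h1)
  refine ⟨B, D, h1, h2,
    densBaseN hI.ctx HL ht hinj Hχ.centre_red (fun i => E.X _ (hgood i)) hτ hagree
      (fun i => (hne i).symm) (E.X Qs hQs) hconst B (fun _ => rfl) D h1 h3, ?_, rfl, rfl, rfl, ?_, ?_⟩
  · show chartOfN I Qbar =
      { Qbar := Qbar
        t := fun i => (((E.X _ (hgood i)).τ : ↥(E.X _ (hgood i)).CQ) : FW p M')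
        Q := fun i => I.centre (Qbar i) }
    have e : (fun i => (((E.X _ (hgood i)).τ : ↥(E.X _ (hgood i)).CQ) : FW p M')) =
        fun i => I.coord (Qbar i) := funext fun i => E.tau_eq _ (hgood i)
    rw [e]
    rfl
  · intro i s hs
    show ∃ P : Place (AlgebraicClosure ℚ) (FW p M'), I.r P = Sum.inl (Qbar i) ∧
      P.ord ((((E.X _ (hgood i)).τ : ↥(E.X _ (hgood i)).CQ) : FW p M') -
        algebraMap (AlgebraicClosure ℚ) (FW p M') (s : AlgebraicClosure ℚ)) = 1 ∧
      ∀ P' : Place (AlgebraicClosure ℚ) (FW p M'), I.r P' = Sum.inl (Qbar i) →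
        0 < P'.ord ((((E.X _ (hgood i)).τ : ↥(E.X _ (hgood i)).CQ) : FW p M') -
          algebraMap (AlgebraicClosure ℚ) (FW p M') (s : AlgebraicClosure ℚ)) → P' = P
    rw [E.tau_eq _ (hgood i)]
    exact E.da _ (hgood i) s hs
  · intro i s hs
    show ((((E.X _ (hgood i)).τ : ↥(E.X _ (hgood i)).CQ) : FW p M') -
      algebraMap (AlgebraicClosure ℚ) (FW p M') (s : AlgebraicClosure ℚ))⁻¹ ∈ I.G
    rw [E.tau_eq _ (hgood i)]
    exact E.tau_unit _ (hgood i) s hs

end Fermat.Agent.ES.W33.DensBaseInstN9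

end
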