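/-
Programme W (S33), chapter B2′ (curve theory on the NODAL special fibre, characteristic-free), helper14:
**non-special reduced divisors relative to a BASE divisor `D₀`** — `NonSpecial9` of Programme V with
`H¹(0)` replaced by `H¹(D₀)`.

`K F` arbitrary fields, `HL : LSpace.LHyp K F`, Riemann's inequality `hR` (the lite chapter
`ES/V19/{AdelesL8, H1FiniteL8, H1LargeL8}`), no duality, no differentials.

* `exists_sub_mem_repartitionsOf_base`, `span_sgl_base_eq_top` : modulo `A(D₀)`, an element of
  `A(D₀ + P_1 + … + P_n)` (`D₀ (P i) = 0`) is a combination of the simple principal parts `t_i⁻¹ @ P_i`; if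
  `A(D₀ + ∑ P_i) + F` is everything their classes span `H¹(D₀)`;
* `exists_nonspecial_base_mem` / `_not_mem` : inside any infinite set `T` of places off the support of `D₀`
  (outside any finite set) there are `h¹(D₀)` DISTINCT places `Q_i` with `H¹(D₀ + Q_1 + … + Q_h) = 0`;
* `finrank_L_add_redDiv` : then `l(D₀ + ∑ Q_i) = l(D₀)`;
* the case of the nodes, `D₀ = -(ν_1 + … + ν_s)`, `s ≥ 1`: `finrank_L_neg_redDiv = 0`,
  `finrank_H1_neg_redDiv = g + s - 1`, and
  **`exists_offnode_nonspecial`** : `g + s - 1` distinct places `Q_i` off the nodes and outside a finite set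
  with `L(Q_1 + … + Q_{g+s-1} - ν_1 - … - ν_s) = 0` (condition (n1) of the non-special divisor
  `Ē₀ = E_1 + E_2` of multidegree `(g_1 + s - 1, g_2)` on a two-component nodal curve).
-/
import Mathlib
import Fermat.Prelude.Def_AlgebraicCurve_Repartitions
import Fermat.Agent.RR.H1Large
import Fermat.Agent.ES.V19.H1LargeL8
import Fermat.Agent.ES.V19.OnePlaceRep9
import Fermat.Agent.ES.V19.NonSpecial9

set_option autoImplicit false

open AlgebraicCurve

noncomputable section

namespace Fermat.Agent.ES.W33.NonSpecialBase14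

open Fermat.Agent.X0.FF Fermat.Agent.RR Fermat.Agent.RR.LSpace Fermat.Agent.RR.Repart
  Fermat.Agent.ES.V19.H1FiniteL8 Fermat.Agent.ES.V19.H1LargeL8 Fermat.Agent.ES.V19.OnePlaceRep9
  Fermat.Agent.ES.V19.NonSpecial9

variable {K F : Type*} [Field K] [Field F] [Algebra K F]

/-! ### Simple principal parts relative to a base divisor -/

/-- **Simple principal parts**: modulo `A(D₀)`, an element of `A(D₀ + P_1 + … + P_n)` is a `K`-combination
of the `t_i⁻¹ @ P_i` (the `P_i` distinct, off the support of `D₀`). -/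
theorem exists_sub_mem_repartitionsOf_base (HL : LHyp K F) (D₀ : Divisor K F) {n : ℕ}
    {P : Fin n → Place K F} (hP : Function.Injective P) (hPD : ∀ i, D₀ (P i) = 0)
    {t : Fin n → F} (ht : ∀ i, (P i).ord (t i) = 1)
    {α : ↥(repartitions K F)} (hα : α ∈ repartitionsOf (D₀ + redDiv P)) :
    ∃ c : Fin n → K, α - ∑ i, c i • sgl (P i) (t i)⁻¹ ∈ repartitionsOf D₀ := by
  classical
  have hα' := mem_repartitionsOf_iff.mp hα
  have ht0 : ∀ i, t i ≠ 0 := fun i h => by
    have := ht i
    rw [h, Place.ord_zero] at this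
    omega
  -- the constants
  have hc : ∀ i, ∃ c : K, t i * (α : Place K F → F) (P i) = algebraMap K F c ∨
      0 < (P i).ord (t i * (α : Place K F → F) (P i) - algebraMap K F c) := by
    intro i
    apply HL.residue (P i)
    rcases hα' (P i) with h0 | h
    · rw [h0, mul_zero]
      exact zero_mem _
    · by_cases h0 : (α : Place K F → F) (P i) = 0
      · rw [h0, mul_zero]
        exact zero_mem _
      · apply ffp_mem_of_ord_nonneg
        rw [(P i).ord_mul (ht0 i) h0, ht i]
        rw [Finsupp.add_apply, hPD i, redDiv_apply_self hP i] at h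
        omega
  choose c hc using hc
  refine ⟨c, ?_⟩
  rw [mem_repartitionsOf_iff]
  intro v
  -- the components of the correction
  have hcomp : ((α - ∑ i, c i • sgl (P i) (t i)⁻¹ : ↥(repartitions K F)) : Place K F → F) v
      = (α : Place K F → F) v
        - ∑ i, algebraMap K F (c i) * ((sgl (P i) (t i)⁻¹ : ↥(repartitions K F)) : Place K F → F) v := by
    have h1 : ((α - ∑ i, c i • sgl (P i) (t i)⁻¹ : ↥(repartitions K F)) : Place K F → F)
        = (α : Place K F → F) - ∑ i, c i • ((sgl (P i) (t i)⁻¹ : ↥(repartitions K F)) : Place K F → F) := by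
      push_cast
      rfl
    rw [h1, Pi.sub_apply, Finset.sum_apply]
    congr 1
    apply Finset.sum_congr rfl
    intro i _
    rw [Pi.smul_apply, Algebra.smul_def]
  rw [hcomp]
  by_cases hv : ∃ i, P i = v
  · obtain ⟨i, rfl⟩ := hv
    rw [Finset.sum_eq_single i]
    · rw [sgl_apply_self]
      have e : (α : Place K F → F) (P i) - algebraMap K F (c i) * (t i)⁻¹
          = (t i)⁻¹ * (t i * (α : Place K F → F) (P i) - algebraMap K F (c i)) := by
        field_simp [ht0 i]
      rw [e]
      rcases hc i with h | h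
      · left
        rw [h, sub_self, mul_zero]
      · right
        have hne : t i * (α : Place K F → F) (P i) - algebraMap K F (c i) ≠ 0 := by
          intro h0
          rw [h0, Place.ord_zero] at h
          exact lt_irrefl _ h
        rw [(P i).ord_mul (inv_ne_zero (ht0 i)) hne, Place.ord_inv, ht i, hPD i]
        omega
    · intro j _ hji
      rw [sgl_apply_of_ne (fun h => hji (hP h).symm), mul_zero]
    · intro h
      exact absurd (Finset.mem_univ i) h
  · push Not at hv
    rw [Finset.sum_eq_zero, sub_zero]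
    · rcases hα' v with h0 | h
      · exact Or.inl h0
      · right
        rw [Finsupp.add_apply, redDiv_apply_of_not_mem hv, add_zero] at h
        exact h
    · intro j _
      rw [sgl_apply_of_ne (fun h => hv j h.symm), mul_zero]

/-- **Spanning**: if `A(D₀ + P_1 + … + P_n) + F` is everything, the classes of the simple principal parts
`t_i⁻¹ @ P_i` span `H¹(D₀)`. -/
theorem span_sgl_base_eq_top (HL : LHyp K F) (D₀ : Divisor K F) {n : ℕ} {P : Fin n → Place K F}
    (hP : Function.Injective P) (hPD : ∀ i, D₀ (P i) = 0)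
    {t : Fin n → F} (ht : ∀ i, (P i).ord (t i) = 1)
    (htop : repartitionsOf (D₀ + redDiv P) ⊔ principalRepartitions K F = ⊤) :
    Submodule.span K (Set.range fun i : Fin n =>
      (Submodule.Quotient.mk (sgl (P i) (t i)⁻¹) : H1 D₀)) = ⊤ := by
  rw [eq_top_iff]
  intro z _
  obtain ⟨α, rfl⟩ := Submodule.Quotient.mk_surjective _ z
  have hmem : α ∈ repartitionsOf (D₀ + redDiv P) ⊔ principalRepartitions K F := by
    rw [htop]; trivial
  obtain ⟨a, ha, f, hf, rfl⟩ := Submodule.mem_sup.mp hmem
  obtain ⟨c, hc⟩ := exists_sub_mem_repartitionsOf_base HL D₀ hP hPD ht ha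
  have e : (Submodule.Quotient.mk (a + f) : H1 D₀)
      = ∑ i, c i • (Submodule.Quotient.mk (sgl (P i) (t i)⁻¹) : H1 D₀) := by
    have h1 : a + f = (∑ i, c i • sgl (P i) (t i)⁻¹) + ((a - ∑ i, c i • sgl (P i) (t i)⁻¹) + f) := by
      abel
    rw [h1, Submodule.Quotient.mk_add]
    have h2 : (Submodule.Quotient.mk ((a - ∑ i, c i • sgl (P i) (t i)⁻¹) + f) : H1 D₀) = 0 := by
      rw [Submodule.Quotient.mk_eq_zero]
      exact Submodule.add_mem_sup hc hf
    rw [h2, add_zero]
    show (repartitionsOf D₀ ⊔ principalRepartitions K F).mkQ (∑ i, c i • sgl (P i) (t i)⁻¹) = _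
    rw [map_sum]
    apply Finset.sum_congr rfl
    intro i _
    rw [map_smul]
    rfl
  rw [e]
  apply Submodule.sum_mem
  intro i _
  apply Submodule.smul_mem
  exact Submodule.subset_span ⟨i, rfl⟩

/-- if the classes of elements of `A(D)` span `H¹(D₀)` then `H¹(D) = 0` (`D₀ ≤ D`). -/
theorem finrank_H1_eq_zero_of_span_base {D₀ D : Divisor K F} (hD : D₀ ≤ D) {ι : Type*}
    (a : ι → ↥(repartitions K F)) (ha : ∀ i, a i ∈ repartitionsOf D)
    (hspan : Submodule.span K (Set.range fun i =>
      (Submodule.Quotient.mk (a i) : H1 D₀)) = ⊤) :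
    Module.finrank K (H1 D) = 0 := by
  have hker : LinearMap.ker (h1Map hD) = ⊤ := by
    rw [eq_top_iff, ← hspan, Submodule.span_le]
    rintro _ ⟨i, rfl⟩
    rw [SetLike.mem_coe, LinearMap.mem_ker, h1Map_mk, Submodule.Quotient.mk_eq_zero]
    exact Submodule.mem_sup_left (ha i)
  have hsub : Subsingleton (H1 D) := by
    refine ⟨fun x y => ?_⟩
    obtain ⟨x', rfl⟩ := h1Map_surjective hD x
    obtain ⟨y', rfl⟩ := h1Map_surjective hD y
    have hx : x' ∈ LinearMap.ker (h1Map hD) := by rw [hker]; trivial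
    have hy : y' ∈ LinearMap.ker (h1Map hD) := by rw [hker]; trivial
    rw [LinearMap.mem_ker.mp hx, LinearMap.mem_ker.mp hy]
  exact Module.finrank_zero_of_subsingleton

theorem le_add_redDiv (D₀ : Divisor K F) {n : ℕ} (P : Fin n → Place K F) : D₀ ≤ D₀ + redDiv P :=
  le_add_of_nonneg_right (redDiv_nonneg P)

/-! ### Non-special points relative to a base divisor -/

section Main

variable (HL : LHyp K F)
  (hR : ∃ γ : ℤ, ∀ D : Divisor K F,
    Divisor.degree D + 1 - γ ≤ (Module.finrank K (riemannRochSpace D) : ℤ))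

include HL hR

/-- **`h¹(D₀)` distinct places, chosen inside any infinite set `T` of places off the support of `D₀`,
which kill `H¹(D₀)`.** -/
theorem exists_nonspecial_base_mem (D₀ : Divisor K F) {T : Set (Place K F)} (hT : T.Infinite)
    (hTD : ∀ v ∈ T, D₀ v = 0) :
    ∃ Q : Fin (Module.finrank K (H1 D₀)) → Place K F, Function.Injective Q ∧ (∀ i, Q i ∈ T) ∧
      Module.finrank K (H1 (D₀ + redDiv Q)) = 0 := by
  classical
  obtain ⟨c, hc⟩ := exists_forall_degree_ge_finrank_H1_eq_zero HL hR
  -- `N` distinct places of `T`, `deg D₀ + N ≥ c`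
  set N : ℕ := (c - Divisor.degree D₀).toNat with hN
  let P : Fin N → Place K F := fun i => ((hT.natEmbedding T (i : ℕ) : ↥T) : Place K F)
  have hPT : ∀ i, P i ∈ T := fun i => (hT.natEmbedding T (i : ℕ)).2
  have hP : Function.Injective P := fun i j h =>
    Fin.val_injective ((hT.natEmbedding T).injective (Subtype.ext h))
  have hdeg : c ≤ Divisor.degree (D₀ + redDiv P) := by
    rw [map_add, degree_redDiv HL]
    have := Int.self_le_toNat (c - Divisor.degree D₀)
    omega
  have htop := sup_eq_top_of_finrank_H1_eq_zero HL hR (hc _ hdeg)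
  choose t ht using fun i => exists_unif (P i)
  -- the simple principal parts span `H¹(D₀)`
  set e : Fin N → H1 D₀ := fun i => Submodule.Quotient.mk (sgl (P i) (t i)⁻¹) with he
  have hspan : Submodule.span K (Set.range e) = ⊤ :=
    span_sgl_base_eq_top HL D₀ hP (fun i => hTD _ (hPT i)) ht htop
  -- a basis among them
  obtain ⟨b, hb, hbspan, hbli⟩ := exists_linearIndependent K (Set.range e)
  have hbtop : Submodule.span K b = ⊤ := by rw [hbspan, hspan]
  have hfinH : Module.Finite K (H1 D₀) := finite_H1 HL hR D₀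
  have hbfin : b.Finite := (Set.finite_range e).subset hb
  have : Fintype ↥b := hbfin.fintype
  have hspan' : ⊤ ≤ Submodule.span K (Set.range ((↑) : ↥b → H1 D₀)) := by
    rw [Subtype.range_coe_subtype, Set.ofPred_mem_eq, hbtop]
  let B : Module.Basis ↥b K (H1 D₀) := Module.Basis.mk hbli hspan'
  have hcard : Fintype.card ↥b = Module.finrank K (H1 D₀) := (Module.finrank_eq_card_basis B).symm
  -- indices
  have hidx : ∀ x : ↥b, ∃ i : Fin N, e i = x := fun x => hb x.2
  choose f hf using hidx
  have hfinj : Function.Injective f := fun x y h => by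
    apply Subtype.ext
    rw [← hf x, ← hf y, h]
  let eqv : Fin (Module.finrank K (H1 D₀)) ≃ ↥b := (Fintype.equivFinOfCardEq hcard).symm
  have hQinj : Function.Injective fun i => P (f (eqv i)) := hP.comp (hfinj.comp eqv.injective)
  refine ⟨fun i => P (f (eqv i)), hQinj, fun i => hPT _, ?_⟩
  apply finrank_H1_eq_zero_of_span_base (le_add_redDiv D₀ _)
    (fun i => sgl (P (f (eqv i))) (t (f (eqv i)))⁻¹)
  · intro i
    refine sgl_inv_mem (le_of_eq ?_) (ht _)
    rw [Finsupp.add_apply, hTD _ (hPT _), zero_add]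
    exact (redDiv_apply_self hQinj i).symm
  · rw [eq_top_iff, ← hbtop, Submodule.span_le]
    intro x hx
    apply Submodule.subset_span
    refine ⟨eqv.symm ⟨x, hx⟩, ?_⟩
    show e (f (eqv (eqv.symm ⟨x, hx⟩))) = x
    rw [Equiv.apply_symm_apply, hf]

/-- the same, avoiding a given finite set of places (which must contain the support of `D₀`). -/
theorem exists_nonspecial_base_not_mem [Infinite (Place K F)] (D₀ : Divisor K F)
    {S : Set (Place K F)} (hS : S.Finite) (hSD : ∀ v, v ∉ S → D₀ v = 0) :
    ∃ Q : Fin (Module.finrank K (H1 D₀)) → Place K F, Function.Injective Q ∧ (∀ i, Q i ∉ S) ∧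
      Module.finrank K (H1 (D₀ + redDiv Q)) = 0 :=
  exists_nonspecial_base_mem HL hR D₀ hS.infinite_compl hSD

/-- `l(D₀ + ∑ Q_i) = l(D₀)` for `h¹(D₀)` points with `H¹(D₀ + ∑ Q_i) = 0`. -/
theorem finrank_L_add_redDiv (D₀ : Divisor K F)
    {Q : Fin (Module.finrank K (H1 D₀)) → Place K F}
    (h0 : Module.finrank K (H1 (D₀ + redDiv Q)) = 0) :
    Module.finrank K (riemannRochSpace (D₀ + redDiv Q)) = Module.finrank K (riemannRochSpace D₀) := by
  have h1 := finrank_L_sub_finrank_H1 HL hR (D₀ + redDiv Q)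
  have h2 := finrank_L_sub_finrank_H1 HL hR D₀
  rw [h0, map_add, degree_redDiv HL] at h1
  have : (Module.finrank K (riemannRochSpace (D₀ + redDiv Q)) : ℤ)
      = (Module.finrank K (riemannRochSpace D₀) : ℤ) := by
    push_cast at h1
    linarith
  exact_mod_cast this

end Main

/-! ### The nodes: `D₀ = -(ν_1 + … + ν_s)` -/

section Nodes

variable (HL : LHyp K F)

include HL

/-- a function without poles which vanishes at some place is zero. -/
theorem eq_zero_of_mem_L_neg_redDiv {s : ℕ} (hs : 0 < s) {ν : Fin s → Place K F}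
    (hν : Function.Injective ν) {f : F} (hf : f ∈ riemannRochSpace (-redDiv ν)) : f = 0 := by
  by_contra hf0
  have hf' := mem_riemannRochSpace_iff.mp hf
  have hord : ∀ v : Place K F, (redDiv ν) v ≤ v.ord f := by
    intro v
    rcases hf' v with h | h
    · exact absurd h hf0
    · rw [Finsupp.neg_apply, neg_neg] at h
      exact h
  have hnn : ∀ v : Place K F, 0 ≤ v.ord f := fun v =>
    le_trans (by simpa using redDiv_nonneg ν v) (hord v)
  obtain ⟨c, hc⟩ := eq_algebraMap_of_forall_ord_nonneg HL hnn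
  have hc0 : c ≠ 0 := by
    rintro rfl
    rw [map_zero] at hc
    exact hf0 hc
  have h1 := hord (ν ⟨0, hs⟩)
  rw [redDiv_apply_self hν, hc, ffq_ord_algebraMap _ hc0] at h1
  omega

theorem finrank_L_neg_redDiv {s : ℕ} (hs : 0 < s) {ν : Fin s → Place K F}
    (hν : Function.Injective ν) :
    Module.finrank K (riemannRochSpace (-redDiv ν)) = 0 := by
  have hsub : Subsingleton (riemannRochSpace (-redDiv ν)) := by
    refine ⟨fun x y => ?_⟩
    apply Subtype.ext
    rw [eq_zero_of_mem_L_neg_redDiv HL hs hν x.2, eq_zero_of_mem_L_neg_redDiv HL hs hν y.2]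
  exact Module.finrank_zero_of_subsingleton

variable (hR : ∃ γ : ℤ, ∀ D : Divisor K F,
    Divisor.degree D + 1 - γ ≤ (Module.finrank K (riemannRochSpace D) : ℤ))

include hR

/-- `h¹(-(ν_1 + … + ν_s)) = g + s - 1` for `s ≥ 1`. -/
theorem finrank_H1_neg_redDiv {s : ℕ} (hs : 0 < s) {ν : Fin s → Place K F}
    (hν : Function.Injective ν) :
    Module.finrank K (H1 (-redDiv ν)) = genusFF K F + s - 1 := by
  have h := finrank_L_sub_finrank_H1 HL hR (-redDiv ν)
  rw [finrank_L_neg_redDiv HL hs hν, map_neg, degree_redDiv HL] at h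
  have : (Module.finrank K (H1 (-redDiv ν)) : ℤ) = (genusFF K F : ℤ) + (s : ℤ) - 1 := by
    push_cast at h
    linarith
  omega

/-- **(n1)**: `g + s - 1` distinct places off the nodes, outside a finite set `S`, with
`H¹(∑ Q_i - ∑ ν_j) = 0` and `L(∑ Q_i - ∑ ν_j) = 0`. -/
theorem exists_offnode_nonspecial [Infinite (Place K F)] {s : ℕ} (hs : 0 < s)
    {ν : Fin s → Place K F} (hν : Function.Injective ν) {S : Set (Place K F)} (hS : S.Finite) :
    ∃ Q : Fin (genusFF K F + s - 1) → Place K F, Function.Injective Q ∧ (∀ i, Q i ∉ S) ∧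
      (∀ i j, Q i ≠ ν j) ∧ Module.finrank K (H1 (redDiv Q - redDiv ν)) = 0 ∧
      ∀ f ∈ riemannRochSpace (redDiv Q - redDiv ν), f = 0 := by
  classical
  have hS' : (S ∪ Set.range ν).Finite := hS.union (Set.finite_range ν)
  have hSD : ∀ v, v ∉ S ∪ Set.range ν → (-redDiv ν) v = 0 := by
    intro v hv
    rw [Finsupp.neg_apply, neg_eq_zero]
    exact redDiv_apply_of_not_mem fun j h => hv (Or.inr ⟨j, h⟩)
  obtain ⟨Q, hQinj, hQS, hQ0⟩ := exists_nonspecial_base_not_mem HL hR (-redDiv ν) hS' hSD
  have hcard := finrank_H1_neg_redDiv HL hR hs hν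
  have hL := finrank_L_add_redDiv HL hR (-redDiv ν) hQ0
  rw [finrank_L_neg_redDiv HL hs hν] at hL
  -- reindex by `Fin (g + s - 1)`
  let e : Fin (genusFF K F + s - 1) ≃ Fin (Module.finrank K (H1 (-redDiv ν))) :=
    finCongr hcard.symm
  have hred : redDiv (fun i => Q (e i)) = redDiv Q := by
    unfold redDiv
    exact Equiv.sum_comp e fun i => Finsupp.single (Q i) (1 : ℤ)
  have hdiv : redDiv (fun i => Q (e i)) - redDiv ν = -redDiv ν + redDiv Q := by
    rw [hred]; abel
  refine ⟨fun i => Q (e i), hQinj.comp e.injective, fun i h => hQS (e i) (Or.inl h),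
    fun i j h => hQS (e i) (Or.inr ⟨j, h.symm⟩), ?_, ?_⟩
  · rw [hdiv]; exact hQ0
  · intro f hf
    rw [hdiv] at hf
    have hfin : FiniteDimensional K (riemannRochSpace (-redDiv ν + redDiv Q)) :=
      LSpace.finiteDimensional_L HL _
    have hsub : Subsingleton (riemannRochSpace (-redDiv ν + redDiv Q)) :=
      Module.finrank_zero_iff.mp hL
    have := Subsingleton.elim (⟨f, hf⟩ : riemannRochSpace (-redDiv ν + redDiv Q)) 0
    exact congrArg Subtype.val this

end Nodes

end Fermat.Agent.ES.W33.NonSpecialBase14
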