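/-
Programme W (S33), chapter B2' (curve theory on the nodal special fibre, characteristic-free), helper9:
**(N-ii) a non-special reduced divisor of bidegree `(g₁ + s - 1, g₂)` on a two-component nodal curve.**

The base-divisor lemma (`h¹(D₀)` generic points kill `H¹(D₀)`) is helper14's `W33/NonSpecialBase14`.
PURE CURVE THEORY over a field `k` (no model, no valuation ring): two function fields `F₁ / k`, `F₂ / k`
(the two components `C₁`, `C₂`) with the hypotheses of the lite chapter `V19/B2` (`HL_i : LSpace.LHyp k F_i`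
and Riemann's inequality `hR_i`), and `s ≥ 1` nodes: the place `ν₁ j` of `C₁` is glued to the place `ν₂ j` of
`C₂`.  The arithmetic genus of the nodal curve is `g₁ + g₂ + s - 1`.

RELATIONAL glueing condition (no value map needed):
* `Van v f`             : `f` vanishes at `v` (`f = 0 ∨ 0 < v.ord f`);
* `Glue ν₁ ν₂ f₁ f₂`    : for every node `j` there is a constant `c` with `f₁ - c` vanishing at `ν₁ j` and
                          `f₂ - c` vanishing at `ν₂ j` (i.e. `f₁`, `f₂` are regular at the node and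
                          `f₁(ν₁ j) = f₂(ν₂ j)`).
RESULTS
* `exists_nonspecial_bidegree` : for ANY infinite sets `T₁` (off the nodes of `C₁`), `T₂` of places there are
  DISTINCT `Q₁ i ∈ T₁` (`g₁ + s - 1` of them) and DISTINCT `Q₂ i ∈ T₂` (`g₂` of them) with
  (a) `h¹(∑ Q₂) = 0`, (b) `h¹(∑ Q₁ - ∑ ν₁) = 0` and `L(∑ Q₁ - ∑ ν₁) = 0`,
  (c) **`L_C(Ē₀) = k · (1,1)`**: a glued pair `(f₁, f₂) ∈ L(∑ Q₁) × L(∑ Q₂)` is a constant pair `(c, c)`;
* `eq_redDiv_of_glue` : (d) the uniqueness axiom of the reduction datum: effective divisors `E₁`, `E₂`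
  with `E_i - ∑ Q_i = div u_i` and `Glue u₁ u₂` are `∑ Q_1`, `∑ Q_2`;
* `const_of_glue` : (c) from (a) and (b) alone (for consumers who obtain the `Q_i` differently).
-/
import Mathlib
import Fermat.Agent.ES.V19.GenericNonSpecial8
import Fermat.Agent.ES.W33.NonSpecialBase14

set_option autoImplicit false

open AlgebraicCurve

noncomputable section

namespace Fermat.Agent.ES.W33.NodalNonSpecial9

open Fermat.Agent.X0.FF Fermat.Agent.RR Fermat.Agent.RR.LSpace Fermat.Agent.RR.Repart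
  Fermat.Agent.ES.V19.H1FiniteL8 Fermat.Agent.ES.V19.H1LargeL8 Fermat.Agent.ES.V19.OnePlaceRep9
  Fermat.Agent.ES.V19.NonSpecial9 Fermat.Agent.ES.V19.GenericNonSpecial8
  Fermat.Agent.ES.W33.NonSpecialBase14

variable {k F₁ F₂ : Type*} [Field k] [Field F₁] [Field F₂] [Algebra k F₁] [Algebra k F₂]

/-- `f` vanishes at the place `v`. -/
def Van {F : Type*} [Field F] [Algebra k F] (v : Place k F) (f : F) : Prop :=
  f = 0 ∨ 0 < v.ord f

/-- the pair `(f₁, f₂)` is regular at every node and takes the same value on its two branches. -/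
def Glue {s : ℕ} (ν₁ : Fin s → Place k F₁) (ν₂ : Fin s → Place k F₂) (f₁ : F₁) (f₂ : F₂) : Prop :=
  ∀ j, ∃ c : k, Van (ν₁ j) (f₁ - algebraMap k F₁ c) ∧ Van (ν₂ j) (f₂ - algebraMap k F₂ c)

/-- a constant pair is glued. -/
theorem glue_const {s : ℕ} (ν₁ : Fin s → Place k F₁) (ν₂ : Fin s → Place k F₂) (c : k) :
    Glue ν₁ ν₂ (algebraMap k F₁ c) (algebraMap k F₂ c) :=
  fun _ => ⟨c, Or.inl (sub_self _), Or.inl (sub_self _)⟩

/-- a constant vanishing at a place is zero. -/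
theorem eq_zero_of_van_algebraMap {F : Type*} [Field F] [Algebra k F] (v : Place k F) {c : k}
    (h : Van v (algebraMap k F c)) : c = 0 := by
  by_contra hc
  rcases h with h | h
  · exact hc ((map_eq_zero (algebraMap k F)).mp h)
  · rw [ffq_ord_algebraMap v hc] at h
    exact lt_irrefl _ h

/-- `f ∈ L(E)` vanishing at the distinct places `ν j` outside the support of `E` lies in `L(E - ∑ ν)`. -/
theorem mem_L_sub_redDiv {F : Type*} [Field F] [Algebra k F] {E : Divisor k F} {s : ℕ}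
    {ν : Fin s → Place k F} (hν : Function.Injective ν) (hE : ∀ j, E (ν j) = 0) {f : F}
    (hf : f ∈ riemannRochSpace E) (hv : ∀ j, Van (ν j) f) : f ∈ riemannRochSpace (E - redDiv ν) := by
  rw [mem_riemannRochSpace_iff] at hf ⊢
  intro v
  by_cases hf0 : f = 0
  · exact Or.inl hf0
  right
  by_cases hvν : ∃ j, ν j = v
  · obtain ⟨j, rfl⟩ := hvν
    rw [Finsupp.sub_apply, hE j, redDiv_apply_self hν j]
    rcases hv j with h | h
    · exact absurd h hf0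
    · omega
  · push Not at hvν
    rw [Finsupp.sub_apply, redDiv_apply_of_not_mem hvν, sub_zero]
    exact (hf v).resolve_left hf0

section Main

variable (HL₁ : LHyp k F₁)
  (hR₁ : ∃ γ : ℤ, ∀ D : Divisor k F₁,
    Divisor.degree D + 1 - γ ≤ (Module.finrank k (riemannRochSpace D) : ℤ))
  (HL₂ : LHyp k F₂)
  (hR₂ : ∃ γ : ℤ, ∀ D : Divisor k F₂,
    Divisor.degree D + 1 - γ ≤ (Module.finrank k (riemannRochSpace D) : ℤ))

include HL₂ in
/-- **(c) from (a), (b)**: if `l(∑ Q₂) = 1` and `L(∑ Q₁ - ∑ ν₁) = 0` (the `Q₁ i` off the nodes), a glued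
pair `(f₁, f₂) ∈ L(∑ Q₁) × L(∑ Q₂)` is a constant pair. -/
theorem const_of_glue {s n₁ n₂ : ℕ} {ν₁ : Fin s → Place k F₁} (hν₁ : Function.Injective ν₁)
    (ν₂ : Fin s → Place k F₂)
    {Q₁ : Fin n₁ → Place k F₁} (hQν : ∀ i j, Q₁ i ≠ ν₁ j) {Q₂ : Fin n₂ → Place k F₂}
    (h2 : Module.finrank k (riemannRochSpace (redDiv Q₂)) = 1)
    (h1 : riemannRochSpace (redDiv Q₁ - redDiv ν₁) = ⊥)
    {f₁ : F₁} (hf₁ : f₁ ∈ riemannRochSpace (redDiv Q₁))
    {f₂ : F₂} (hf₂ : f₂ ∈ riemannRochSpace (redDiv Q₂)) (hglue : Glue ν₁ ν₂ f₁ f₂) :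
    ∃ c : k, f₁ = algebraMap k F₁ c ∧ f₂ = algebraMap k F₂ c := by
  obtain ⟨c, hc⟩ := eq_algebraMap_of_finrank_L_eq_one HL₂ (redDiv_nonneg Q₂) h2 hf₂
  refine ⟨c, ?_, hc⟩
  -- `f₁ - c` vanishes at every node
  have hvan : ∀ j, Van (ν₁ j) (f₁ - algebraMap k F₁ c) := by
    intro j
    obtain ⟨cj, h1j, h2j⟩ := hglue j
    have hcj : c - cj = 0 := by
      apply eq_zero_of_van_algebraMap (ν₂ j)
      rwa [map_sub, ← hc]
    have : cj = c := (sub_eq_zero.mp hcj).symm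
    rwa [this] at h1j
  have hmem : f₁ - algebraMap k F₁ c ∈ riemannRochSpace (redDiv Q₁) :=
    Submodule.sub_mem _ hf₁ (algebraMap_mem_L (redDiv_nonneg Q₁) c)
  have hE : ∀ j, (redDiv Q₁) (ν₁ j) = 0 := fun j =>
    redDiv_apply_of_not_mem fun i => hQν i j
  have := mem_L_sub_redDiv hν₁ hE hmem hvan
  rw [h1, Submodule.mem_bot] at this
  exact sub_eq_zero.mp this

include HL₁ hR₁ HL₂ hR₂ in
/-- **(N-ii) A non-special reduced divisor of bidegree `(g₁ + s - 1, g₂)` in the smooth locus of the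
two-component nodal curve**, with its points inside arbitrary infinite sets `T₁` (off the nodes), `T₂`. -/
theorem exists_nonspecial_bidegree {s : ℕ} (hs : 1 ≤ s) {ν₁ : Fin s → Place k F₁}
    (hν₁ : Function.Injective ν₁) (ν₂ : Fin s → Place k F₂)
    {T₁ : Set (Place k F₁)} (hT₁ : T₁.Infinite) (hT₁ν : ∀ v ∈ T₁, ∀ j, v ≠ ν₁ j)
    {T₂ : Set (Place k F₂)} (hT₂ : T₂.Infinite) :
    ∃ (Q₁ : Fin (genusFF k F₁ + s - 1) → Place k F₁) (Q₂ : Fin (genusFF k F₂) → Place k F₂),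
      Function.Injective Q₁ ∧ (∀ i, Q₁ i ∈ T₁) ∧ Function.Injective Q₂ ∧ (∀ i, Q₂ i ∈ T₂) ∧
      Module.finrank k (H1 (redDiv Q₂)) = 0 ∧
      Module.finrank k (H1 (redDiv Q₁ - redDiv ν₁)) = 0 ∧
      riemannRochSpace (redDiv Q₁ - redDiv ν₁) = ⊥ ∧
      ∀ f₁ ∈ riemannRochSpace (redDiv Q₁), ∀ f₂ ∈ riemannRochSpace (redDiv Q₂),
        Glue ν₁ ν₂ f₁ f₂ → ∃ c : k, f₁ = algebraMap k F₁ c ∧ f₂ = algebraMap k F₂ c := by
  classical
  -- second component
  obtain ⟨Q₂, hQ₂, hQ₂T, h0₂⟩ := exists_nonspecial_mem HL₂ hR₂ hT₂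
  have hl₂ := finrank_L_redDiv HL₂ hR₂ h0₂
  -- first component, base divisor `- ∑ ν₁` (helper14's `NonSpecialBase14`)
  have hs0 : 0 < s := hs
  have hn := finrank_H1_neg_redDiv HL₁ hR₁ hs0 hν₁
  have hT0 : ∀ v ∈ T₁, (-redDiv ν₁) v = 0 := by
    intro v hv
    rw [Finsupp.neg_apply, redDiv_apply_of_not_mem fun j => (hT₁ν v hv j).symm, neg_zero]
  obtain ⟨Q, hQ, hQT, h0⟩ := exists_nonspecial_base_mem HL₁ hR₁ (-redDiv ν₁) hT₁ hT0
  have hbot : riemannRochSpace (-redDiv ν₁ + redDiv Q) = ⊥ := by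
    have h := finrank_L_add_redDiv HL₁ hR₁ (-redDiv ν₁) h0
    rw [finrank_L_neg_redDiv HL₁ hs0 hν₁] at h
    have hfin : Module.Finite k (riemannRochSpace (-redDiv ν₁ + redDiv Q)) :=
      finiteDimensional_L HL₁ _
    exact Submodule.finrank_eq_zero.mp h
  -- reindex
  let e : Fin (genusFF k F₁ + s - 1) ≃ Fin (Module.finrank k (H1 (-redDiv ν₁))) := finCongr hn.symm
  have hred : redDiv (fun i => Q (e i)) = redDiv Q := by
    show ∑ i, Finsupp.single (Q (e i)) (1 : ℤ) = ∑ i, Finsupp.single (Q i) (1 : ℤ)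
    exact Equiv.sum_comp e fun i => Finsupp.single (Q i) (1 : ℤ)
  have hcomm : redDiv Q - redDiv ν₁ = -redDiv ν₁ + redDiv Q := by abel
  refine ⟨fun i => Q (e i), Q₂, hQ.comp e.injective, fun i => hQT _, hQ₂, hQ₂T, h0₂, ?_, ?_, ?_⟩
  · rw [hred, hcomm]; exact h0
  · rw [hred, hcomm]; exact hbot
  · intro f₁ hf₁ f₂ hf₂ hglue
    refine const_of_glue HL₂ hν₁ ν₂ (fun i j => hT₁ν _ (hQT _) j) hl₂ ?_ hf₁ hf₂ hglue
    rw [hred, hcomm]; exact hbot

/-- **(d) the uniqueness axiom of the reduction datum**: if every glued pair in `L(∑ Q₁) × L(∑ Q₂)` is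
constant, effective divisors `E₁`, `E₂` with `E_i - ∑ Q_i = div u_i` (`u_i ≠ 0`) and `Glue u₁ u₂` are
`∑ Q₁`, `∑ Q₂`. -/
theorem eq_redDiv_of_glue {s n₁ n₂ : ℕ} {ν₁ : Fin s → Place k F₁} {ν₂ : Fin s → Place k F₂}
    {Q₁ : Fin n₁ → Place k F₁} {Q₂ : Fin n₂ → Place k F₂}
    (hconst : ∀ f₁ ∈ riemannRochSpace (redDiv Q₁), ∀ f₂ ∈ riemannRochSpace (redDiv Q₂),
      Glue ν₁ ν₂ f₁ f₂ → ∃ c : k, f₁ = algebraMap k F₁ c ∧ f₂ = algebraMap k F₂ c)
    {E₁ : Divisor k F₁} {E₂ : Divisor k F₂} (hE₁ : 0 ≤ E₁) (hE₂ : 0 ≤ E₂)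
    {u₁ : F₁} {u₂ : F₂} (hu₁ : u₁ ≠ 0) (hu₂ : u₂ ≠ 0)
    (hdiv₁ : ∀ v, (E₁ - redDiv Q₁) v = v.ord u₁) (hdiv₂ : ∀ v, (E₂ - redDiv Q₂) v = v.ord u₂)
    (hglue : Glue ν₁ ν₂ u₁ u₂) : E₁ = redDiv Q₁ ∧ E₂ = redDiv Q₂ := by
  have hm₁ : u₁ ∈ riemannRochSpace (redDiv Q₁) := by
    rw [mem_L_iff hu₁]
    intro v
    have h1 := hdiv₁ v
    have h2 := hE₁ v
    rw [Finsupp.sub_apply] at h1
    simp only [Finsupp.coe_zero, Pi.zero_apply] at h2
    omega
  have hm₂ : u₂ ∈ riemannRochSpace (redDiv Q₂) := by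
    rw [mem_L_iff hu₂]
    intro v
    have h1 := hdiv₂ v
    have h2 := hE₂ v
    rw [Finsupp.sub_apply] at h1
    simp only [Finsupp.coe_zero, Pi.zero_apply] at h2
    omega
  obtain ⟨c, hc₁, hc₂⟩ := hconst u₁ hm₁ u₂ hm₂ hglue
  have hc : c ≠ 0 := by
    rintro rfl
    rw [map_zero] at hc₁
    exact hu₁ hc₁
  constructor
  · ext v
    have h1 := hdiv₁ v
    rw [hc₁, ffq_ord_algebraMap v hc, Finsupp.sub_apply] at h1
    omega
  · ext v
    have h1 := hdiv₂ v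
    rw [hc₂, ffq_ord_algebraMap v hc, Finsupp.sub_apply] at h1
    omega

end Main

end Fermat.Agent.ES.W33.NodalNonSpecial9

end
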