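/-
Programme W (S33), chapter B2' (curve theory on the nodal special fibre), helper9:
**the points `Q̄_i` of the chart of the nodal model, in the vocabulary of the frozen interface
`W33/XiIfaceN29` (ruling w1)**: `g = (g₁ + s - 1) + g₂` DISTINCT SMOOTH points of the two-component nodal
curve, inside arbitrary infinite sets of places, such that every GLUED section of `O(Ē₀)` is a constant —
the fields `inj`, `smooth`, `const_E0bar` of `XiIfaceN29.ChartHypN`.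

* `glue_of_gluedAt`      : `XiIfaceN29.Nodes.GluedAt` is `NodalNonSpecial9.Glue`;
* `comp₁_sumPts`, `comp₂_sumPts` : the component divisors of `∑ Q̄_i` for `Q̄ = Q₁ ⊔ Q₂`;
* `exists_chart_points`  : THE EXIT (from `NodalNonSpecial9.exists_nonspecial_bidegree`).
-/
import Mathlib
import Fermat.Agent.ES.W33.XiIfaceN29
import Fermat.Agent.ES.W33.NodalNonSpecial9

set_option autoImplicit false

open AlgebraicCurve

noncomputable section

namespace Fermat.Agent.ES.W33.NodalChartPts9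

open Fermat.Agent.RR.LSpace Fermat.Agent.ES.V19.OnePlaceRep9
  Fermat.Agent.ES.W33.XiIfaceN29 Fermat.Agent.ES.W33.NodalNonSpecial9

variable {k Ft₁ Ft₂ : Type*} [Field k] [Field Ft₁] [Algebra k Ft₁] [Field Ft₂] [Algebra k Ft₂]

/-- `ValAt Q f c` says that `f - c` vanishes at `Q`. -/
theorem van_of_valAt {Ft : Type*} [Field Ft] [Algebra k Ft] {Q : Place k Ft} {f : Ft} {c : k}
    (h : ValAt Q f c) : Van Q (f - algebraMap k Ft c) := by
  rcases h with h | h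
  · exact Or.inl (sub_eq_zero.mpr h)
  · exact Or.inr h

/-- the glueing condition of the interface is the relational glueing condition of `NodalNonSpecial9`. -/
theorem glue_of_gluedAt {s : ℕ} (N : Nodes k Ft₁ Ft₂ s) {f : Ft₁ × Ft₂} (h : ∀ j, N.GluedAt f j) :
    Glue N.ν₁ N.ν₂ f.1 f.2 := by
  intro j
  obtain ⟨c, h1, h2⟩ := h j
  exact ⟨c, van_of_valAt h1, van_of_valAt h2⟩

/-- the family `Q̄ = Q₁ ⊔ Q₂` of points of the two components. -/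
def sumFam {n₁ n₂ : ℕ} (Q₁ : Fin n₁ → Place k Ft₁) (Q₂ : Fin n₂ → Place k Ft₂) :
    Fin n₁ ⊕ Fin n₂ → SPt k Ft₁ Ft₂ :=
  Sum.elim (fun i => Sum.inl (Q₁ i)) (fun i => Sum.inr (Q₂ i))

theorem sumFam_injective {n₁ n₂ : ℕ} {Q₁ : Fin n₁ → Place k Ft₁} {Q₂ : Fin n₂ → Place k Ft₂}
    (h₁ : Function.Injective Q₁) (h₂ : Function.Injective Q₂) :
    Function.Injective (sumFam Q₁ Q₂) := by
  rintro (i | i) (j | j) h
  · exact congrArg Sum.inl (h₁ (Sum.inl_injective h))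
  · exact absurd h Sum.inl_ne_inr
  · exact absurd h Sum.inr_ne_inl
  · exact congrArg Sum.inr (h₂ (Sum.inr_injective h))

/-- the first component of `∑ Q̄_i`. -/
theorem comp₁_sumPts {n₁ n₂ : ℕ} (Q₁ : Fin n₁ → Place k Ft₁) (Q₂ : Fin n₂ → Place k Ft₂) :
    SDiv.comp₁ (∑ x, Finsupp.single (sumFam Q₁ Q₂ x) (1 : ℤ)) = redDiv Q₁ := by
  classical
  ext v
  show (∑ x, Finsupp.single (sumFam Q₁ Q₂ x) (1 : ℤ)) (Sum.inl v) = redDiv Q₁ v
  rw [Finsupp.finsetSum_apply, Fintype.sum_sum_type]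
  have h2 : ∑ x : Fin n₂, (Finsupp.single (sumFam Q₁ Q₂ (Sum.inr x)) (1 : ℤ)) (Sum.inl v) = 0 := by
    apply Finset.sum_eq_zero
    intro x _
    exact Finsupp.single_eq_of_ne (by simp [sumFam])
  rw [h2, add_zero, redDiv, Finsupp.finsetSum_apply]
  apply Finset.sum_congr rfl
  intro x _
  show (Finsupp.single (Sum.inl (Q₁ x) : SPt k Ft₁ Ft₂) (1 : ℤ)) (Sum.inl v)
    = (Finsupp.single (Q₁ x) (1 : ℤ)) v
  by_cases hx : Q₁ x = v
  · rw [hx, Finsupp.single_eq_same, Finsupp.single_eq_same]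
  · rw [Finsupp.single_eq_of_ne (fun h => hx (Sum.inl_injective h).symm),
      Finsupp.single_eq_of_ne (fun h => hx h.symm)]

/-- the second component of `∑ Q̄_i`. -/
theorem comp₂_sumPts {n₁ n₂ : ℕ} (Q₁ : Fin n₁ → Place k Ft₁) (Q₂ : Fin n₂ → Place k Ft₂) :
    SDiv.comp₂ (∑ x, Finsupp.single (sumFam Q₁ Q₂ x) (1 : ℤ)) = redDiv Q₂ := by
  classical
  ext v
  show (∑ x, Finsupp.single (sumFam Q₁ Q₂ x) (1 : ℤ)) (Sum.inr v) = redDiv Q₂ v
  rw [Finsupp.finsetSum_apply, Fintype.sum_sum_type]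
  have h1 : ∑ x : Fin n₁, (Finsupp.single (sumFam Q₁ Q₂ (Sum.inl x)) (1 : ℤ)) (Sum.inr v) = 0 := by
    apply Finset.sum_eq_zero
    intro x _
    exact Finsupp.single_eq_of_ne (by simp [sumFam])
  rw [h1, zero_add, redDiv, Finsupp.finsetSum_apply]
  apply Finset.sum_congr rfl
  intro x _
  show (Finsupp.single (Sum.inr (Q₂ x) : SPt k Ft₁ Ft₂) (1 : ℤ)) (Sum.inr v)
    = (Finsupp.single (Q₂ x) (1 : ℤ)) v
  by_cases hx : Q₂ x = v
  · rw [hx, Finsupp.single_eq_same, Finsupp.single_eq_same]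
  · rw [Finsupp.single_eq_of_ne (fun h => hx (Sum.inr_injective h).symm),
      Finsupp.single_eq_of_ne (fun h => hx h.symm)]

section Main

variable (HL₁ : LHyp k Ft₁)
  (hR₁ : ∃ γ : ℤ, ∀ D : Divisor k Ft₁,
    Divisor.degree D + 1 - γ ≤ (Module.finrank k (riemannRochSpace D) : ℤ))
  (HL₂ : LHyp k Ft₂)
  (hR₂ : ∃ γ : ℤ, ∀ D : Divisor k Ft₂,
    Divisor.degree D + 1 - γ ≤ (Module.finrank k (riemannRochSpace D) : ℤ))

include HL₁ hR₁ HL₂ hR₂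

/-- **THE EXIT of B2'**: `g = (g₁ + s - 1) + g₂` distinct smooth points `Q̄_i` of the nodal curve, those of
the first component inside `T₁`, those of the second inside `T₂` (arbitrary infinite sets of non-node
places), such that every glued section of `O(Ē₀)`, `Ē₀ = ∑ Q̄_i`, is a constant: the fields `inj`,
`smooth`, `const_E0bar` of `XiIfaceN29.ChartHypN`. -/
theorem exists_chart_points {s : ℕ} (hs : 0 < s) (N : Nodes k Ft₁ Ft₂ s)
    (hν₁ : Function.Injective N.ν₁)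
    {T₁ : Set (Place k Ft₁)} (hT₁ : T₁.Infinite) (hT₁ν : ∀ v ∈ T₁, ∀ j, v ≠ N.ν₁ j)
    {T₂ : Set (Place k Ft₂)} (hT₂ : T₂.Infinite) (hT₂ν : ∀ v ∈ T₂, ∀ j, v ≠ N.ν₂ j)
    {g : ℕ} (hg : g = genusFF k Ft₁ + s - 1 + genusFF k Ft₂) :
    ∃ Qbar : Fin g → SPt k Ft₁ Ft₂, Function.Injective Qbar ∧ (∀ i, N.IsSmooth (Qbar i)) ∧
      (∀ i, (∃ Q ∈ T₁, Qbar i = Sum.inl Q) ∨ ∃ Q ∈ T₂, Qbar i = Sum.inr Q) ∧
      ∀ f ∈ N.LN (∑ i, Finsupp.single (Qbar i) (1 : ℤ)),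
        ∃ c : k, f = (algebraMap k Ft₁ c, algebraMap k Ft₂ c) := by
  classical
  obtain ⟨Q₁, Q₂, hQ₁, hQ₁T, hQ₂, hQ₂T, -, -, -, hconst⟩ :=
    exists_nonspecial_bidegree HL₁ hR₁ HL₂ hR₂ hs hν₁ N.ν₂ hT₁ hT₁ν hT₂
  let e : Fin g ≃ Fin (genusFF k Ft₁ + s - 1) ⊕ Fin (genusFF k Ft₂) :=
    (finCongr hg).trans finSumFinEquiv.symm
  have hsum : ∑ i, Finsupp.single (sumFam Q₁ Q₂ (e i)) (1 : ℤ)
      = ∑ x, Finsupp.single (sumFam Q₁ Q₂ x) (1 : ℤ) :=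
    Equiv.sum_comp e fun x => Finsupp.single (sumFam Q₁ Q₂ x) (1 : ℤ)
  refine ⟨fun i => sumFam Q₁ Q₂ (e i), (sumFam_injective hQ₁ hQ₂).comp e.injective, ?_, ?_, ?_⟩
  · intro i
    show N.IsSmooth (sumFam Q₁ Q₂ (e i))
    generalize e i = x
    rcases x with x | x
    · exact fun j => hT₁ν _ (hQ₁T x) j
    · exact fun j => hT₂ν _ (hQ₂T x) j
  · intro i
    show (∃ Q ∈ T₁, sumFam Q₁ Q₂ (e i) = Sum.inl Q) ∨ ∃ Q ∈ T₂, sumFam Q₁ Q₂ (e i) = Sum.inr Q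
    generalize e i = x
    rcases x with x | x
    · exact Or.inl ⟨Q₁ x, hQ₁T x, rfl⟩
    · exact Or.inr ⟨Q₂ x, hQ₂T x, rfl⟩
  · rintro f ⟨hf₁, hf₂, hglue⟩
    rw [hsum] at hf₁ hf₂
    rw [comp₁_sumPts] at hf₁
    rw [comp₂_sumPts] at hf₂
    obtain ⟨c, h1, h2⟩ := hconst f.1 hf₁ f.2 hf₂ (glue_of_gluedAt N hglue)
    exact ⟨c, Prod.ext h1 h2⟩

end Main

end Fermat.Agent.ES.W33.NodalChartPts9

end
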