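/-
Programme W (S33), GEO JOIN (helper23): **the `≤`-form of helper9's exit of (B2′)**
`NodalChartPts9.exists_chart_points` — only the inequality `g ≤ g₁ + s - 1 + g₂` of (B1′) is available
(Nakayama direction, ruling w12): take a sub-family of a non-special family; `L` is monotone.

* `LN_mono`                  : the glued space `LN` is monotone in the divisor;
* `sum_single_castLE_le`     : `∑_{i < g} Q̄_i ≤ ∑_{i < g'} Q̄_i` for `g ≤ g'`;
* `exists_chart_points_le`   : THE EXIT with `hg : g ≤ genusFF k Ft₁ + s - 1 + genusFF k Ft₂`.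
-/
import Mathlib
import Fermat.Agent.ES.W33.NodalChartPts9

set_option autoImplicit false

open AlgebraicCurve

noncomputable section

namespace Fermat.Agent.ES.W33.ChartPtsLe23

open Fermat.Agent.RR.LSpace Fermat.Agent.ES.W33.XiIfaceN29 Fermat.Agent.ES.W33.NodalChartPts9

variable {k Ft₁ Ft₂ : Type*} [Field k] [Field Ft₁] [Algebra k Ft₁] [Field Ft₂] [Algebra k Ft₂]

/-- `L(D)` is monotone in `D`. -/
theorem L_mono {Ft : Type*} [Field Ft] [Algebra k Ft] {D D' : Divisor k Ft}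
    (h : ∀ v, D v ≤ D' v) {f : Ft} (hf : f ∈ riemannRochSpace D) : f ∈ riemannRochSpace D' := by
  rw [mem_riemannRochSpace_iff] at hf ⊢
  intro v
  rcases hf v with h0 | h1
  · exact Or.inl h0
  · right
    have := h v
    omega

/-- the glued space `LN(D)` is monotone in `D`. -/
theorem LN_mono {s : ℕ} (N : Nodes k Ft₁ Ft₂ s) {D D' : SDiv k Ft₁ Ft₂} (h : ∀ Q, D Q ≤ D' Q)
    {f : Ft₁ × Ft₂} (hf : f ∈ N.LN D) : f ∈ N.LN D' := by
  obtain ⟨h1, h2, h3⟩ := hf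
  refine ⟨L_mono (fun v => ?_) h1, L_mono (fun v => ?_) h2, h3⟩
  · show Finsupp.comapDomain Sum.inl D Sum.inl_injective.injOn v ≤
      Finsupp.comapDomain Sum.inl D' Sum.inl_injective.injOn v
    rw [Finsupp.comapDomain_apply, Finsupp.comapDomain_apply]
    exact h _
  · show Finsupp.comapDomain Sum.inr D Sum.inr_injective.injOn v ≤
      Finsupp.comapDomain Sum.inr D' Sum.inr_injective.injOn v
    rw [Finsupp.comapDomain_apply, Finsupp.comapDomain_apply]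
    exact h _

/-- a sub-family gives a smaller divisor. -/
theorem sum_single_castLE_le {β : Type*} {g g' : ℕ} (h : g ≤ g') (Q : Fin g' → β) (v : β) :
    (∑ i : Fin g, Finsupp.single (Q (Fin.castLE h i)) (1 : ℤ)) v ≤
      (∑ i : Fin g', Finsupp.single (Q i) (1 : ℤ)) v := by
  classical
  rw [Finsupp.finsetSum_apply, Finsupp.finsetSum_apply]
  have e : ∑ i : Fin g, (Finsupp.single (Q (Fin.castLE h i)) (1 : ℤ)) v =
      ∑ j ∈ Finset.univ.image (Fin.castLE h), (Finsupp.single (Q j) (1 : ℤ)) v := by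
    rw [Finset.sum_image]
    intro a _ b _ hab
    exact Fin.castLE_injective h hab
  rw [e]
  refine Finset.sum_le_sum_of_subset_of_nonneg (Finset.subset_univ _) fun j _ _ => ?_
  rw [Finsupp.single_apply]
  split_ifs <;> simp

variable (HL₁ : LHyp k Ft₁)
  (hR₁ : ∃ γ : ℤ, ∀ D : Divisor k Ft₁,
    Divisor.degree D + 1 - γ ≤ (Module.finrank k (riemannRochSpace D) : ℤ))
  (HL₂ : LHyp k Ft₂)
  (hR₂ : ∃ γ : ℤ, ∀ D : Divisor k Ft₂,
    Divisor.degree D + 1 - γ ≤ (Module.finrank k (riemannRochSpace D) : ℤ))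

include HL₁ hR₁ HL₂ hR₂ in
/-- **THE EXIT of (B2′), `≤`-form**: `g ≤ g₁ + s - 1 + g₂` distinct smooth points inside `T₁`, `T₂` such
that every glued section of `O(Ē₀)` is a constant. -/
theorem exists_chart_points_le {s : ℕ} (hs : 0 < s) (N : Nodes k Ft₁ Ft₂ s)
    (hν₁ : Function.Injective N.ν₁)
    {T₁ : Set (Place k Ft₁)} (hT₁ : T₁.Infinite) (hT₁ν : ∀ v ∈ T₁, ∀ j, v ≠ N.ν₁ j)
    {T₂ : Set (Place k Ft₂)} (hT₂ : T₂.Infinite) (hT₂ν : ∀ v ∈ T₂, ∀ j, v ≠ N.ν₂ j)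
    {g : ℕ} (hg : g ≤ genusFF k Ft₁ + s - 1 + genusFF k Ft₂) :
    ∃ Qbar : Fin g → SPt k Ft₁ Ft₂, Function.Injective Qbar ∧ (∀ i, N.IsSmooth (Qbar i)) ∧
      (∀ i, (∃ Q ∈ T₁, Qbar i = Sum.inl Q) ∨ ∃ Q ∈ T₂, Qbar i = Sum.inr Q) ∧
      ∀ f ∈ N.LN (∑ i, Finsupp.single (Qbar i) (1 : ℤ)),
        ∃ c : k, f = (algebraMap k Ft₁ c, algebraMap k Ft₂ c) := by
  obtain ⟨Qbar', hinj', hsm', hmem', hconst'⟩ :=
    exists_chart_points HL₁ hR₁ HL₂ hR₂ hs N hν₁ hT₁ hT₁ν hT₂ hT₂ν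
      (g := genusFF k Ft₁ + s - 1 + genusFF k Ft₂) rfl
  exact ⟨fun i => Qbar' (Fin.castLE hg i), hinj'.comp (Fin.castLE_injective hg),
    fun i => hsm' _, fun i => hmem' _,
    fun f hf => hconst' f (LN_mono N (fun Q => sum_single_castLE_le hg Qbar' Q) hf)⟩

end Fermat.Agent.ES.W33.ChartPtsLe23
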