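/-
Programme W (S33, SPINE v1.1), THE GEO JOIN, part 2d (helper23, ruling w11): **the generic-fibre input
`XiIfaceN29.RedHypN g` from main**, at any level `N'` with a Hauptmodul base `(n, e)`, `n ∣ N'`, and
`g := genusFF ℚ̄ F`:
* `lhyp`    : `RR.LHypGen.lHyp_of_isGen` (places of degree one, residues, principal divisors);
* `riemann` : char-0 Riemann–Roch on main in the existence form `XiRedHyp5.exists_ne_zero_mem_L`.
No reduction enters: this is why (B1′) only has to compare `g` with the special fibre (ruling w12).
-/
import Mathlib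
import Fermat.Agent.X0.HasCanDivInst
import Fermat.Agent.ES.V19.InstNames3
import Fermat.Agent.ES.V19.XiRedHyp5
import Fermat.Agent.ES.W33.XiIfaceN29

set_option autoImplicit false
set_option linter.unusedSectionVars false
set_option synthInstance.maxHeartbeats 400000

noncomputable section

open AlgebraicCurve ModularCurve

namespace Fermat.Agent.ES.W33.GeoGeneric23

open Fermat.Agent.X0 Fermat.Agent.X0.FF Fermat.Agent.RED.BASE.Hauptmodul12
  Fermat.Agent.ES.V19.InstNames3 Fermat.Agent.ES.W33.XiIfaceN29

local notation "Qb" => AlgebraicClosure ℚ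

/-- **`RedHypN` at the generic fibre of level `N'`**, `g := genusFF ℚ̄ F`. -/
theorem redHypN_main (n e N' : ℕ) [NeZero n] [NeZero N'] (hb : BaseHyp n e) (hnN : n ∣ N') :
    RedHypN (K := Qb) (F := ↥(modularFunctionFieldBar N'))
      (genusFF Qb ↥(modularFunctionFieldBar N')) := by
  have : HasCanonicalDivisor (K := Qb) (F := ↥(modularFunctionFieldBar N')) :=
    Fermat.Agent.X0.HasCanDivInst.hasCanonicalDivisor' N'
  have hx := hxV n e N' hb hnN
  exact
    { lhyp := Fermat.Agent.RR.LHypGen.lHyp_of_isGen hx
      riemann := Fermat.Agent.ES.V19.XiRedHyp5.exists_ne_zero_mem_L hx le_rfl }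

end Fermat.Agent.ES.W33.GeoGeneric23
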