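/-
Programme W (S33, route `S33_ROUTE8.md`, SPINE v1.1), THE GEO JOIN, part 1 (helper23, ruling w11):
**the abstract join** — from helper27's top layer (`RedDatum27` / `RedDatumXi27`) at the carrier
`F := ↥(modularFunctionFieldBar N')` (so that `Pic0 Q̄ F = JZero N'` LITERALLY) to helper8's frozen
geometric exit `WIface8.HasNodalChart p N' A`.

NAMED INPUTS (one per chapter; `Pl` is an ARBITRARY type of special-fibre points):
* `H   : RedDatum A r χ J1div`                      — (B1′ + B2′ + B3′ discs + B5′), via helper5's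
                                                       `RedDatumN5.redDatum_of_nodal`;
* `hG  : EqvHypW r χ ↥Γ_f (rho p f)`                — (B3′ Galois): `Γ_f` fixes the coordinates `t_i` and
                                                       preserves the discs of the `Q̄_i`;
* `hJ  : J1Spec J1div J1`                            — `J1 := j1N N r` (helper29's `PrinN29`), by `Iff.rfl`;
* `hGa : …`                                          — (Ga), helper8's ruling w2 (`GaExitN`), transported
                                                       to `J1` through `hJ`;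
* `hC  : ∃ Fgl Inv, XiC … J1 (xi r χ) ↥O_f Fgl Inv` — (G3′), V19's literal `XiIface29.XiC` UNCHANGED.

DISCHARGED HERE: `XiIface29.XiData` (`RedDatumXi27.xiData_of_redDatum`), the bridge to
`Assemble11.XiData` (`XiDataBridge23.assemble_of_iface`), the `Γ_f`-stability of `J1`
(`RedDatumXi27.xiA` + `xiB`: `y ∈ J¹ ⇒ IsXi y s ⇒ IsXi (σ • y) (σ • s) ⇒ σ • y ∈ J¹`), residual
constancy (all coordinates lie in `𝔪_A`).
-/
import Mathlib
import Fermat.Agent.ES.W33.WIface8
import Fermat.Agent.ES.W33.RedDatumXi27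
import Fermat.Agent.ES.V19.XiEqvInst29
import Fermat.Agent.ES.V19.XiDataBridge23

set_option autoImplicit false
set_option linter.unusedSectionVars false
set_option synthInstance.maxHeartbeats 400000

noncomputable section

open AlgebraicCurve ModularCurve

namespace Fermat.Agent.ES.W33.GeoJoinCore23

open Fermat.Agent.ES.V19.GammaF16 Fermat.Agent.ES.V19.TraceDescent26
  Fermat.Agent.ES.V19.XiEqvInst29 Fermat.Agent.ES.W33.RedDatum27 Fermat.Agent.ES.W33.RedDatumXi27
  Fermat.Agent.ES.W33.WIface8
open Fermat.Agent.ES.V19.XiIface29 (XiC)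

local notation "Qb" => AlgebraicClosure ℚ
local notation "GQ" => (AlgebraicClosure ℚ ≃ₐ[ℚ] AlgebraicClosure ℚ)

/-- the maximal ideal of a valuation ring is closed under subtraction. -/
theorem sub_mem_nonunits {K : Type*} [Field K] (A : ValuationSubring K) {a b : K}
    (ha : a ∈ A.nonunits) (hb : b ∈ A.nonunits) : a - b ∈ A.nonunits := by
  rw [ValuationSubring.mem_nonunits_iff] at *
  exact lt_of_le_of_lt (Valuation.map_sub _ _ _) (max_lt ha hb)

variable {p N' : ℕ} {A : ValuationSubring Qb} {Pl : Type*}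
  {r : Place Qb ↥(modularFunctionFieldBar N') → Pl} {g : ℕ}
  {χ : ChartW Qb ↥(modularFunctionFieldBar N') Pl g}
  {J1div : AddSubgroup (Divisor Qb ↥(modularFunctionFieldBar N'))}

/-- `Γ_f`-stability of `J¹` is free: it follows from (Ξa) and the equivariance clause of (Ξb). -/
theorem smul_mem_J1 (H : RedDatum A r χ J1div) {f : ℕ}
    (hG : EqvHypW r χ ↥(gammaF A p f) (rho (A := A) (M := N') p f))
    {J1 : AddSubgroup (JZero N')} (hJ : J1Spec J1div J1)
    (τ : GQ) (hτ : τ ∈ gammaF A p f) {y : JZero N'} (hy : y ∈ J1) : τ • y ∈ J1 := by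
  obtain ⟨s, hs, -⟩ := xiA H y ((hJ y).mp hy)
  have h4 := (xiB H hG).2.2.2 (⟨τ, hτ⟩ : ↥(gammaF A p f)) y s hs
  exact (hJ _).mpr ((xiB H hG).2.2.1 _ _ h4)

/-- **THE ABSTRACT GEO JOIN**: helper27's reduction datum + the `Γ_f`-equivariance of the chart +
(Ga) + (Ξc) give helper8's frozen literal `HasNodalChart p N' A`. -/
theorem hasNodalChart_of_redDatum (H : RedDatum A r χ J1div) {f : ℕ} (hf : 0 < f)
    (hG : EqvHypW r χ ↥(gammaF A p f) (rho (A := A) (M := N') p f))
    {J1 : AddSubgroup (JZero N')} (hJ : J1Spec J1div J1)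
    (hGa : ∀ τ ∈ A.inertiaSubgroupIn ℚ, ∀ τ' ∈ A.inertiaSubgroupIn ℚ, ∀ x : JZero N',
      (∃ m : ℕ, (p ^ m) • x = 0) → τ' • (τ • x - x) - (τ • x - x) ∈ J1)
    (hC : ∃ (Fgl : ℕ → Fin g → MvPolynomial (Fin g ⊕ Fin g) ↥(fixRing A (gammaF A p f)))
      (Inv : ℕ → Fin g → MvPolynomial (Fin g) ↥(fixRing A (gammaF A p f))),
      XiC A.toSubring J1 (xi r χ) ↥(fixRing A (gammaF A p f)) Fgl Inv) :
    HasNodalChart p N' A := by
  obtain ⟨Fgl, Inv, hC⟩ := hC
  obtain ⟨hX, hm⟩ := xiData_of_redDatum H hG hJ hC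
  exact ⟨f, hf, J1, fun τ hτ y hy => smul_mem_J1 H hG hJ τ hτ hy, hGa, g, xi r χ,
    Fermat.Agent.ES.V19.XiDataBridge23.assemble_of_iface hX,
    fun y hy y' hy' i => sub_mem_nonunits A (hm y hy i) (hm y' hy' i)⟩

end Fermat.Agent.ES.W33.GeoJoinCore23
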