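/-
Programme W (S33), chapter (B5′), helper29: **the group structure behind the nodal interface**
`XiIfaceN29` (everything is derived; no field is added to the interface).

* `prinN N : AddSubgroup (SDiv k Ft₁ Ft₂)` with `mem_prinN_iff : d ∈ prinN N ↔ d ∈ N.PrinN`
  (principal divisors of the nodal curve form a group: products/inverses of glued pairs);
* `redN_zero/add/neg/sub`, `redN_apply`, `OffNodes` calculus, `offNodes_redDiv`;
* `isRep_zero/add/neg`; `inJ1N_zero/add/neg`; `offNodes_zero/add/neg/sub`;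
* `j1N N r : AddSubgroup (Pic0 K F)` — THE kernel of reduction — with `j1SpecN_j1N : J1SpecN N r (j1N N r)`;
* `node_pos : ChartHypN A N r χ → 0 < s`  (from `const_E0bar`: with no node, `(1,0) ∈ LN(Ē₀)`);
* `inJ1N_smul : XiAN … → XiBN … → InJ1N N r y → InJ1N N r (σ • y)`  (`J¹` is stable under the group:
  coordinates exist (Ξa), they are transported (Ξb, clause 4), and classes with coordinates lie in `J¹`
  (Ξb, clause 3)).
-/
import Mathlib
import Fermat.Agent.X0.FFResidue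
import Fermat.Agent.ES.W33.XiIfaceN29
import Fermat.Agent.ES.W33.ValAt29

set_option autoImplicit false

noncomputable section

namespace Fermat.Agent.ES.W33.PrinN29

open scoped BigOperators
open AlgebraicCurve Fermat.Agent.X0.FF Fermat.Agent.RR.LSpace Fermat.Agent.ES.V19.OnePlaceRep9
  Fermat.Agent.ES.W33.XiIfaceN29 Fermat.Agent.ES.W33.ValAt29

variable {K F k Ft₁ Ft₂ : Type*} [Field K] [Field F] [Algebra K F] [Field k]
  [Field Ft₁] [Algebra k Ft₁] [Field Ft₂] [Algebra k Ft₂]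

/-! ### Principal divisors of the nodal curve -/

section Prin

variable {s : ℕ} (N : Nodes k Ft₁ Ft₂ s)

theorem zero_mem_PrinN : (0 : SDiv k Ft₁ Ft₂) ∈ N.PrinN := by
  refine ⟨(1, 1), one_ne_zero, one_ne_zero, ⟨fun Q => ?_, fun Q => ?_⟩, fun j => ?_⟩
  · show (0 : ℤ) = Q.ord (1 : Ft₁)
    rw [Place.ord_one]
  · show (0 : ℤ) = Q.ord (1 : Ft₂)
    rw [Place.ord_one]
  · exact ⟨1, one_ne_zero, valAt_one, valAt_one⟩

variable {N}

theorem add_mem_PrinN {d d' : SDiv k Ft₁ Ft₂} (h : d ∈ N.PrinN) (h' : d' ∈ N.PrinN) :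
    d + d' ∈ N.PrinN := by
  obtain ⟨f, hf1, hf2, ⟨hd1, hd2⟩, hv⟩ := h
  obtain ⟨f', hf1', hf2', ⟨hd1', hd2'⟩, hv'⟩ := h'
  refine ⟨(f.1 * f'.1, f.2 * f'.2), mul_ne_zero hf1 hf1', mul_ne_zero hf2 hf2',
    ⟨fun Q => ?_, fun Q => ?_⟩, fun j => ?_⟩
  · show (d + d') (Sum.inl Q) = Q.ord (f.1 * f'.1)
    rw [Finsupp.add_apply, hd1 Q, hd1' Q, Q.ord_mul hf1 hf1']
  · show (d + d') (Sum.inr Q) = Q.ord (f.2 * f'.2)
    rw [Finsupp.add_apply, hd2 Q, hd2' Q, Q.ord_mul hf2 hf2']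
  · obtain ⟨c, hc, h1, h2⟩ := hv j
    obtain ⟨c', hc', h1', h2'⟩ := hv' j
    exact ⟨c * c', mul_ne_zero hc hc', ValAt.mul h1 h1', ValAt.mul h2 h2'⟩

theorem neg_mem_PrinN {d : SDiv k Ft₁ Ft₂} (h : d ∈ N.PrinN) : -d ∈ N.PrinN := by
  obtain ⟨f, hf1, hf2, ⟨hd1, hd2⟩, hv⟩ := h
  refine ⟨(f.1⁻¹, f.2⁻¹), inv_ne_zero hf1, inv_ne_zero hf2, ⟨fun Q => ?_, fun Q => ?_⟩,
    fun j => ?_⟩
  · show (-d) (Sum.inl Q) = Q.ord f.1⁻¹
    rw [Finsupp.neg_apply, hd1 Q, Q.ord_inv]
  · show (-d) (Sum.inr Q) = Q.ord f.2⁻¹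
    rw [Finsupp.neg_apply, hd2 Q, Q.ord_inv]
  · obtain ⟨c, hc, h1, h2⟩ := hv j
    exact ⟨c⁻¹, inv_ne_zero hc, ValAt.inv h1 hc, ValAt.inv h2 hc⟩

variable (N)

/-- the group of principal divisors of the nodal curve. -/
def prinN : AddSubgroup (SDiv k Ft₁ Ft₂) where
  carrier := N.PrinN
  zero_mem' := zero_mem_PrinN N
  add_mem' := add_mem_PrinN
  neg_mem' := neg_mem_PrinN

theorem mem_prinN_iff {d : SDiv k Ft₁ Ft₂} : d ∈ prinN N ↔ d ∈ N.PrinN := Iff.rfl

end Prin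

/-! ### `redN` and `OffNodes` -/

section Red

variable {s : ℕ} (r : Place K F → SPt k Ft₁ Ft₂ ⊕ Fin s)

theorem redN_apply (D : Divisor K F) (Q : SPt k Ft₁ Ft₂) :
    redN r D Q = Finsupp.mapDomain r D (Sum.inl Q) := by
  unfold redN
  rw [Finsupp.comapDomain_apply]

theorem redN_zero : redN r (0 : Divisor K F) = 0 := by
  ext Q
  rw [redN_apply, Finsupp.mapDomain_zero]
  rfl

theorem redN_add (D D' : Divisor K F) : redN r (D + D') = redN r D + redN r D' := by
  ext Q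
  rw [Finsupp.add_apply, redN_apply, redN_apply, redN_apply, Finsupp.mapDomain_add,
    Finsupp.add_apply]

theorem redN_neg (D : Divisor K F) : redN r (-D) = -redN r D := by
  have h := redN_add r D (-D)
  rw [add_neg_cancel, redN_zero] at h
  exact eq_neg_of_add_eq_zero_right h.symm

theorem redN_sub (D D' : Divisor K F) : redN r (D - D') = redN r D - redN r D' := by
  rw [sub_eq_add_neg, redN_add, redN_neg, sub_eq_add_neg]

/-- `r_* (P_1 + … + P_n) = Q̄_1 + … + Q̄_n` when `r (P i) = inl (Q̄ i)`. -/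
theorem redN_redDiv {n : ℕ} {P : Fin n → Place K F} {Qb : Fin n → SPt k Ft₁ Ft₂}
    (hP : ∀ i, r (P i) = Sum.inl (Qb i)) :
    redN r (redDiv P) = ∑ i, Finsupp.single (Qb i) 1 := by
  classical
  ext Q
  rw [redN_apply, redDiv, Finsupp.mapDomain_finsetSum, Finsupp.finsetSum_apply,
    Finsupp.finsetSum_apply]
  refine Finset.sum_congr rfl fun i _ => ?_
  rw [Finsupp.mapDomain_single, hP i, Finsupp.single_apply, Finsupp.single_apply]
  by_cases h : Qb i = Q
  · rw [if_pos h, if_pos (by rw [h])]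
  · rw [if_neg h, if_neg (fun h' => h (Sum.inl_injective h'))]

variable {r}

theorem offNodes_zero : OffNodes r (0 : Divisor K F) := fun P hP => by
  simp at hP

theorem offNodes_add {D D' : Divisor K F} (h : OffNodes r D) (h' : OffNodes r D') :
    OffNodes r (D + D') := fun P hP j => by
  classical
  rcases Finset.mem_union.mp (Finsupp.support_add hP) with hP | hP
  · exact h P hP j
  · exact h' P hP j

theorem offNodes_neg {D : Divisor K F} (h : OffNodes r D) : OffNodes r (-D) := fun P hP j => by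
  rw [Finsupp.support_neg] at hP
  exact h P hP j

theorem offNodes_sub {D D' : Divisor K F} (h : OffNodes r D) (h' : OffNodes r D') :
    OffNodes r (D - D') := by
  rw [sub_eq_add_neg]
  exact offNodes_add h (offNodes_neg h')

theorem offNodes_redDiv {n : ℕ} {P : Fin n → Place K F} {Qb : Fin n → SPt k Ft₁ Ft₂}
    (hP : ∀ i, r (P i) = Sum.inl (Qb i)) : OffNodes r (redDiv P) := fun v hv j hj => by
  classical
  by_cases hmem : ∃ i, v = P i
  · obtain ⟨i, rfl⟩ := hmem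
    rw [hP i] at hj
    exact Sum.inl_ne_inr hj
  · have : redDiv P v = 0 := redDiv_apply_of_not_mem fun i h => hmem ⟨i, h.symm⟩
    exact (Finsupp.mem_support_iff.mp hv) this

end Red

/-! ### Representatives and the kernel of reduction -/

section J1

theorem isRep_zero : IsRep (0 : Pic0 K F) (0 : Divisor K F) :=
  ⟨AddSubgroup.zero_mem _, rfl⟩

theorem isRep_add {y y' : Pic0 K F} {D D' : Divisor K F} (h : IsRep y D) (h' : IsRep y' D') :
    IsRep (y + y') (D + D') := by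
  obtain ⟨hd, rfl⟩ := h
  obtain ⟨hd', rfl⟩ := h'
  exact ⟨AddSubgroup.add_mem _ hd hd', rfl⟩

theorem isRep_neg {y : Pic0 K F} {D : Divisor K F} (h : IsRep y D) : IsRep (-y) (-D) := by
  obtain ⟨hd, rfl⟩ := h
  exact ⟨AddSubgroup.neg_mem _ hd, rfl⟩

variable {s : ℕ} (N : Nodes k Ft₁ Ft₂ s) (r : Place K F → SPt k Ft₁ Ft₂ ⊕ Fin s)

theorem inJ1N_zero : InJ1N N r (0 : Pic0 K F) :=
  ⟨0, isRep_zero, offNodes_zero, by rw [redN_zero]; exact zero_mem_PrinN N⟩

variable {N r}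

theorem inJ1N_add {y y' : Pic0 K F} (h : InJ1N N r y) (h' : InJ1N N r y') :
    InJ1N N r (y + y') := by
  obtain ⟨D, hD, hoff, hp⟩ := h
  obtain ⟨D', hD', hoff', hp'⟩ := h'
  exact ⟨D + D', isRep_add hD hD', offNodes_add hoff hoff',
    by rw [redN_add]; exact add_mem_PrinN hp hp'⟩

theorem inJ1N_neg {y : Pic0 K F} (h : InJ1N N r y) : InJ1N N r (-y) := by
  obtain ⟨D, hD, hoff, hp⟩ := h
  exact ⟨-D, isRep_neg hD, offNodes_neg hoff, by rw [redN_neg]; exact neg_mem_PrinN hp⟩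

variable (N r)

/-- **the kernel of reduction** `J¹` of the nodal model, as a subgroup of `Pic⁰`. -/
def j1N : AddSubgroup (Pic0 K F) where
  carrier := {y | InJ1N N r y}
  zero_mem' := inJ1N_zero N r
  add_mem' := fun h h' => inJ1N_add h h'
  neg_mem' := fun h => inJ1N_neg h

theorem mem_j1N_iff {y : Pic0 K F} : y ∈ j1N N r ↔ InJ1N N r y := Iff.rfl

theorem j1SpecN_j1N : J1SpecN N r (j1N N r) := fun _ => Iff.rfl

end J1

/-! ### There is at least one node -/

section NodePos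

variable {s : ℕ} {A : ValuationSubring K} {N : Nodes k Ft₁ Ft₂ s}
  {r : Place K F → SPt k Ft₁ Ft₂ ⊕ Fin s} {g : ℕ} {χ : ChartN K F k Ft₁ Ft₂ g}

theorem E0bar_nonneg (χ : ChartN K F k Ft₁ Ft₂ g) : 0 ≤ χ.E0bar := by
  classical
  intro Q
  unfold ChartN.E0bar
  rw [Finsupp.finsetSum_apply]
  refine Finset.sum_nonneg fun i _ => ?_
  rw [Finsupp.single_apply]
  split_ifs <;> simp

theorem one_mem_L_of_nonneg {Ft : Type*} [Field Ft] [Algebra k Ft] {D : Divisor k Ft}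
    (hD : 0 ≤ D) : (1 : Ft) ∈ riemannRochSpace D := by
  rw [mem_riemannRochSpace_iff]
  intro v
  right
  rw [Place.ord_one]
  have := hD v
  simp only [Finsupp.coe_zero, Pi.zero_apply] at this
  omega

/-- **`0 < s`**: a chart with `h⁰(O(Ē₀)) = 1` forces the special fibre to be connected. -/
theorem node_pos (hχ : ChartHypN A N r χ) : 0 < s := by
  rcases Nat.eq_zero_or_pos s with hs | hs
  swap
  · exact hs
  exfalso
  subst hs
  have hmem : ((1 : Ft₁), (0 : Ft₂)) ∈ N.LN χ.E0bar := by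
    refine ⟨one_mem_L_of_nonneg fun Q => ?_, Submodule.zero_mem _, fun j => j.elim0⟩
    show (0 : ℤ) ≤ SDiv.comp₁ χ.E0bar Q
    unfold SDiv.comp₁
    rw [Finsupp.comapDomain_apply]
    exact E0bar_nonneg χ _
  obtain ⟨c, hc⟩ := hχ.const_E0bar _ hmem
  have h1 : (1 : Ft₁) = algebraMap k Ft₁ c := congrArg Prod.fst hc
  have h2 : (0 : Ft₂) = algebraMap k Ft₂ c := congrArg Prod.snd hc
  have hc0 : c = 0 := ((map_eq_zero _).mp h2.symm)
  rw [hc0, map_zero] at h1
  exact one_ne_zero h1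

end NodePos

/-! ### `J¹` is stable under the group -/

section Stable

variable {s : ℕ} {A : ValuationSubring K} {N : Nodes k Ft₁ Ft₂ s}
  {r : Place K F → SPt k Ft₁ Ft₂ ⊕ Fin s} {g : ℕ} {χ : ChartN K F k Ft₁ Ft₂ g}

theorem inJ1N_smul {Γ : Type*} [Group Γ] [MulSemiringAction Γ K] [DistribMulAction Γ (Pic0 K F)]
    (hA : XiAN A N r χ) (hB : XiBN N r χ Γ) (σ : Γ) {y : Pic0 K F} (hy : InJ1N N r y) :
    InJ1N N r (σ • y) := by
  obtain ⟨a, ha, -⟩ := hA y hy
  exact hB.2.2.1 _ _ (hB.2.2.2 σ y a ha)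

theorem smul_mem_j1N {Γ : Type*} [Group Γ] [MulSemiringAction Γ K] [DistribMulAction Γ (Pic0 K F)]
    (hA : XiAN A N r χ) (hB : XiBN N r χ Γ) (σ : Γ) {y : Pic0 K F} (hy : y ∈ j1N N r) :
    σ • y ∈ j1N N r := inJ1N_smul hA hB σ hy

end Stable

end Fermat.Agent.ES.W33.PrinN29
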