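/-
Programme W (S33), interface generalisation (helper27): **the ABSTRACT REDUCTION DATUM** — the top
layer of V19's chapter (B5) (`XiIface29`, `XiExist5`, `XiRel5`, `XiEqv29`, `XiMain29`) with the
special fibre replaced by an ARBITRARY type `Pl` of "points of the special fibre".

WHY.  `XiIface29.RedHyp / ChartHyp` take ONE function field `Ft / k` and a total map
`r : Place K F → Place k Ft` with `r_*(principal) ⊆ principal`.  On the NODAL model the special fibre
is `C̃₁ ⊔ C̃₂` glued at `s` nodes, places in the annuli have no reduction, and `r_*` does NOT map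
principal divisors to principal divisors (slopes).  But the top layer of (B5) uses the special fibre
only through TWO consequences, which are axioms here:

* `red_eff` (AX1): an effective `D` with `D - E₀ - D₀` principal, `D₀ ∈ J1div`, reduces to `Ē₀`
  (V19: `XiExist5.mapDomain_eq_redDiv`, from `hprin` + `l(Ē₀) = 1`;
   nodal: normality of the model at the nodes + non-special `Ē₀`, see `T1T2_NOTE27.md` §4);
* `lD` (AX2): `L(P_1 + … + P_g) = K` for points `P_i` in the discs of the `Q̄_i`
  (V19: `XiUniq29.const_of_mem_L_redDiv`; nodal: same normality argument);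
* `chart_mem` : `P_1 + … + P_g - E₀ ∈ J1div` for such points.

`J1div` is an ABSTRACT additive subgroup of `Divisor K F` ("divisors whose reduction is principal";
nodal: smooth-supported, reduction `= div (u₁,u₂)`, `(u₁,u₂)` units at the nodes with equal values).
`J¹ := { y | InJ1 J1div y }`.

EXIT LITERALS: `XiA`, `XiAUnique`, `XiB` below (same shape as `XiIface29`), and — with `XiIface29.XiC`
unchanged (it does not mention `r`) — THE EXIT `XiIface29.XiData A.toSubring J1 (xi r χ) R G`.
This file: definitions and `Prop`-valued literals only.  Proofs: `RedDatumXi27`.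

Instance 1 (V19): `Pl = Place k Ft`, `J1div = {D | r_* D principal}`.
Instance 2 (nodal): `Pl = Place k Ft₁ ⊕ Place k Ft₂ ⊕ Unit` (`Unit` = "in an annulus", junk).
-/
import Mathlib
import Fermat.Agent.ES.V19.XiIface29

set_option autoImplicit false

noncomputable section

namespace Fermat.Agent.ES.W33.RedDatum27

open scoped BigOperators
open AlgebraicCurve Fermat.Agent.RR.LSpace Fermat.Agent.ES.V19.OnePlaceRep9
open Fermat.Agent.ES.V19.XiIface29 (IsRep XiData XiC)

variable {K F : Type*} [Field K] [Field F] [Algebra K F] {Pl : Type*}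

/-- The data of a chart, special-fibre points in an arbitrary type `Pl`. -/
structure ChartW (K F : Type*) [Field K] [Field F] [Algebra K F] (Pl : Type*) (g : ℕ) where
  /-- the points `Q̄_i` of the special fibre -/
  Qbar : Fin g → Pl
  /-- the coordinates `t_i` -/
  t : Fin g → F
  /-- the centres `Q_i` -/
  Q : Fin g → Place K F

/-- `E₀ = Q_1 + … + Q_g`. -/
def ChartW.E0 {g : ℕ} (χ : ChartW K F Pl g) : Divisor K F := redDiv χ.Q

/-- `Ē₀ = Q̄_1 + … + Q̄_g` as a finitely supported function on `Pl`. -/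
def sumPts {n : ℕ} (Q : Fin n → Pl) : Pl →₀ ℤ := ∑ i, Finsupp.single (Q i) 1

/-- **THE ABSTRACT REDUCTION DATUM.** -/
structure RedDatum (A : ValuationSubring K) (r : Place K F → Pl) {g : ℕ}
    (χ : ChartW K F Pl g) (J1div : AddSubgroup (Divisor K F)) : Prop where
  /-- generic fibre: places of degree one, residues, principal divisors -/
  lhyp : LHyp K F
  /-- Riemann's inequality on the generic fibre -/
  riemann : ∀ D : Divisor K F, (g : ℤ) ≤ Divisor.degree D →
    ∃ f : F, f ≠ 0 ∧ f ∈ riemannRochSpace D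
  /-- the `Q̄_i` are distinct -/
  inj : Function.Injective χ.Qbar
  centre_red : ∀ i, r (χ.Q i) = χ.Qbar i
  centre_zero : ∀ i, 0 < (χ.Q i).ord (χ.t i)
  /-- (Da) -/
  val_mem : ∀ (i : Fin g) (P : Place K F), r P = χ.Qbar i →
    ∃ s ∈ A.nonunits, 0 < P.ord (χ.t i - algebraMap K F s)
  /-- (Da) -/
  val_unique : ∀ (i : Fin g), ∀ s ∈ A.nonunits,
    ∃! P : Place K F, r P = χ.Qbar i ∧ 0 < P.ord (χ.t i - algebraMap K F s)
  /-- (AX1) -/
  red_eff : ∀ D₀ ∈ J1div, ∀ D : Divisor K F, 0 ≤ D →
    D - χ.E0 - D₀ ∈ Divisor.principal (K := K) (F := F) →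
    Finsupp.mapDomain r D = sumPts χ.Qbar
  /-- (AX2) -/
  lD : ∀ P : Fin g → Place K F, (∀ i, r (P i) = χ.Qbar i) →
    ∀ f : F, f ∈ riemannRochSpace (redDiv P) → ∃ c : K, f = algebraMap K F c
  /-- points in the discs give classes of `J¹` -/
  chart_mem : ∀ P : Fin g → Place K F, (∀ i, r (P i) = χ.Qbar i) → redDiv P - χ.E0 ∈ J1div

/-- The group `G` acts through semilinear automorphisms fixing the coordinates and preserving the
discs (`XiIface29.EqvHyp` with `Pl`). -/
structure EqvHypW (r : Place K F → Pl) {g : ℕ} (χ : ChartW K F Pl g)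
    (G : Type*) [Group G] [MulSemiringAction G K] [DistribMulAction G (Pic0 K F)]
    (ρ : G →* SemilinearAut K F) : Prop where
  smul_pic : ∀ (σ : G) (y : Pic0 K F), σ • y = ρ σ • y
  smul_base : ∀ (σ : G) (a : K), σ • a = SemilinearAut.baseAut (ρ σ) a
  smul_t : ∀ (σ : G) (i : Fin g), ρ σ • χ.t i = χ.t i
  smul_disc : ∀ (σ : G) (i : Fin g) (P : Place K F), r P = χ.Qbar i → r (ρ σ • P) = χ.Qbar i

/-! ### The kernel of reduction and the chart -/

/-- `y` is the class of a divisor of degree zero lying in `J1div`. -/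
def InJ1 (J1div : AddSubgroup (Divisor K F)) (y : Pic0 K F) : Prop :=
  ∃ D : Divisor.degZero (K := K) (F := F), Pic0.mk D = y ∧ (D : Divisor K F) ∈ J1div

/-- `J1` is the kernel of reduction. -/
def J1Spec (J1div : AddSubgroup (Divisor K F)) (J1 : AddSubgroup (Pic0 K F)) : Prop :=
  ∀ y : Pic0 K F, y ∈ J1 ↔ InJ1 J1div y

/-- `y = [P_1 + … + P_g - E₀]` with `P_i` in the disc of `Q̄_i` and `t_i(P_i) = s_i`. -/
def IsXi (r : Place K F → Pl) {g : ℕ} (χ : ChartW K F Pl g) (y : Pic0 K F)
    (s : Fin g → K) : Prop :=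
  ∃ P : Fin g → Place K F, (∀ i, r (P i) = χ.Qbar i) ∧
    (∀ i, 0 < (P i).ord (χ.t i - algebraMap K F (s i))) ∧ IsRep y (redDiv P - χ.E0)

open Classical in
/-- **The chart** `Ξ` (junk value `0` where `IsXi` has no solution). -/
def xi (r : Place K F → Pl) {g : ℕ} (χ : ChartW K F Pl g) (y : Pic0 K F) : Fin g → K :=
  if h : ∃ s, IsXi r χ y s then h.choose else 0

/-! ### Exit literals -/

/-- **(Ξa), existence.** -/
def XiA (A : ValuationSubring K) (r : Place K F → Pl) {g : ℕ} (χ : ChartW K F Pl g)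
    (J1div : AddSubgroup (Divisor K F)) : Prop :=
  ∀ y : Pic0 K F, InJ1 J1div y → ∃ s : Fin g → K, IsXi r χ y s ∧ ∀ i, s i ∈ A.nonunits

/-- **(Ξa), uniqueness.** -/
def XiAUnique (r : Place K F → Pl) {g : ℕ} (χ : ChartW K F Pl g) : Prop :=
  ∀ (y : Pic0 K F) (s : Fin g → K) (P : Fin g → Place K F), (∀ i, r (P i) = χ.Qbar i) →
    (∀ i, 0 < (P i).ord (χ.t i - algebraMap K F (s i))) → IsRep y (redDiv P - χ.E0) →
    (∀ D : Divisor K F, 0 ≤ D → IsRep y (D - χ.E0) → D = redDiv P) ∧
      ∀ s' : Fin g → K, IsXi r χ y s' → s' = s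

/-- **(Ξb).** -/
def XiB (r : Place K F → Pl) {g : ℕ} (χ : ChartW K F Pl g) (J1div : AddSubgroup (Divisor K F))
    (G : Type*) [Group G] [MulSemiringAction G K] [DistribMulAction G (Pic0 K F)] : Prop :=
  IsXi r χ 0 0 ∧
    (∀ (y y' : Pic0 K F) (s : Fin g → K), IsXi r χ y s → IsXi r χ y' s → y = y') ∧
    (∀ (y : Pic0 K F) (s : Fin g → K), IsXi r χ y s → InJ1 J1div y) ∧
    ∀ (σ : G) (y : Pic0 K F) (s : Fin g → K), IsXi r χ y s → IsXi r χ (σ • y) (fun i => σ • s i)

/-- **THE EXIT of the top layer** (to be proved in `RedDatumXi27`): the three literals from the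
abstract datum; together with `XiIface29.XiC` (unchanged) they give `XiIface29.XiData`. -/
def TopExit (A : ValuationSubring K) (r : Place K F → Pl) {g : ℕ} (χ : ChartW K F Pl g)
    (J1div : AddSubgroup (Divisor K F))
    (G : Type*) [Group G] [MulSemiringAction G K] [DistribMulAction G (Pic0 K F)] : Prop :=
  XiA A r χ J1div ∧ XiAUnique r χ ∧ XiB r χ J1div G

end Fermat.Agent.ES.W33.RedDatum27
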