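/-
Programme W (S33), interface generalisation (helper27): **PROOFS of the top layer of (B5) from the
abstract reduction datum** `RedDatum27.RedDatum` — `XiA`, `XiAUnique`, `XiB`, and THE EXIT
`XiIface29.XiData A.toSubring J1 (xi r χ) R G` from `XiIface29.XiC` (unchanged literal of V19).

Every proof is V19's (`XiExist5`, `XiRel5`, `XiEqv29`, `XiMain29`), with the special fibre
`Place k Ft` replaced by the arbitrary type `Pl` and `hprin + l(Ē₀) = 1` replaced by the axiom
`red_eff`.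
-/
import Mathlib
import Fermat.Agent.ES.W33.RedDatum27
import Fermat.Agent.ES.V19.XiRel5
import Fermat.Agent.ES.V19.XiEqv29

set_option autoImplicit false

noncomputable section

namespace Fermat.Agent.ES.W33.RedDatumXi27

open scoped BigOperators
open AlgebraicCurve Fermat.Agent.X0.FF Fermat.Agent.RR.LSpace Fermat.Agent.ES.V19.OnePlaceRep9
  Fermat.Agent.ES.W33.RedDatum27
open Fermat.Agent.ES.V19.XiIface29 (IsRep XiData XiC)

variable {K F : Type*} [Field K] [Field F] [Algebra K F] {Pl : Type*}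

/-! ### Finitely supported functions: push-forward along an arbitrary map -/

section Fin

variable {α β : Type*}

theorem mapDomain_apply_eq_sum (r : α → β) (D : α →₀ ℤ) (Q : β) [DecidablePred fun P => r P = Q] :
    Finsupp.mapDomain r D Q = ∑ P ∈ D.support.filter (fun P => r P = Q), D P := by
  classical
  rw [Finsupp.mapDomain, Finsupp.sum, Finsupp.finsetSum_apply, Finset.sum_filter]
  refine Finset.sum_congr rfl fun P _ => ?_
  rw [Finsupp.single_apply]

theorem sumPts_apply_self {n : ℕ} {Q : Fin n → β} (hQ : Function.Injective Q) (i : Fin n) :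
    sumPts Q (Q i) = 1 := by
  classical
  show (∑ j, Finsupp.single (Q j) (1 : ℤ)) (Q i) = 1
  rw [Finsupp.finsetSum_apply]
  simp only [Finsupp.single_apply]
  rw [Finset.sum_eq_single i]
  · simp
  · intro j _ hj
    rw [if_neg (fun h => hj (hQ h))]
  · intro h
    exact absurd (Finset.mem_univ i) h

theorem sumPts_apply_of_not_mem {n : ℕ} {Q : Fin n → β} {v : β} (hv : ∀ i, Q i ≠ v) :
    sumPts Q v = 0 := by
  classical
  show (∑ j, Finsupp.single (Q j) (1 : ℤ)) v = 0
  rw [Finsupp.finsetSum_apply]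
  refine Finset.sum_eq_zero fun i _ => ?_
  rw [Finsupp.single_apply, if_neg (hv i)]

theorem mapDomain_redDiv (r : Place K F → β) {n : ℕ} (P : Fin n → Place K F) :
    Finsupp.mapDomain r (redDiv P) = sumPts (fun i => r (P i)) := by
  show Finsupp.mapDomain r (redDiv P) = ∑ i, Finsupp.single (r (P i)) (1 : ℤ)
  rw [redDiv, Finsupp.mapDomain_finsetSum]
  exact Finset.sum_congr rfl fun i _ => Finsupp.mapDomain_single

/-- if the coefficient of `Q` in `r_* D` is `1` and `D ≥ 0` then `D` has exactly one point over `Q`,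
with multiplicity one. -/
theorem existsUnique_pos (r : α → β) (D : α →₀ ℤ) (Q : β)
    (h1 : Finsupp.mapDomain r D Q = 1) (hnn : ∀ P, 0 ≤ D P) :
    ∃ P₀, (r P₀ = Q ∧ D P₀ = 1) ∧ ∀ P, r P = Q → 0 < D P → P = P₀ := by
  classical
  rw [mapDomain_apply_eq_sum] at h1
  set s := D.support.filter (fun P => r P = Q) with hs
  have hmem : ∀ P, P ∈ s ↔ r P = Q ∧ 0 < D P := by
    intro P
    rw [hs, Finset.mem_filter, Finsupp.mem_support_iff]
    constructor
    · rintro ⟨hne, hQ⟩
      exact ⟨hQ, lt_of_le_of_ne (hnn P) (Ne.symm hne)⟩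
    · rintro ⟨hQ, hpos⟩
      exact ⟨ne_of_gt hpos, hQ⟩
  have hne : s.Nonempty := by
    by_contra hemp
    rw [Finset.not_nonempty_iff_eq_empty] at hemp
    rw [hemp, Finset.sum_empty] at h1
    exact zero_ne_one h1
  obtain ⟨P₀, hP₀⟩ := hne
  have hle : ∀ P ∈ s, 1 ≤ D P := fun P hP => ((hmem P).mp hP).2
  have hsingle : ∀ P ∈ s, P = P₀ := by
    intro P hP
    by_contra hPne
    have hsub : ({P, P₀} : Finset α) ⊆ s := by
      intro x hx
      rw [Finset.mem_insert, Finset.mem_singleton] at hx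
      rcases hx with rfl | rfl
      · exact hP
      · exact hP₀
    have h2 : ∑ x ∈ ({P, P₀} : Finset α), D x ≤ ∑ x ∈ s, D x :=
      Finset.sum_le_sum_of_subset_of_nonneg hsub fun x hx _ => le_trans zero_le_one (hle x hx)
    rw [Finset.sum_pair hPne] at h2
    have := hle P hP
    have := hle P₀ hP₀
    omega
  have hs1 : s = {P₀} := by
    ext P
    rw [Finset.mem_singleton]
    exact ⟨hsingle P, fun h => h ▸ hP₀⟩
  rw [hs1, Finset.sum_singleton] at h1
  exact ⟨P₀, ⟨((hmem P₀).mp hP₀).1, h1⟩, fun P hQ hpos => hsingle P ((hmem P).mpr ⟨hQ, hpos⟩)⟩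

end Fin

/-! ### The shape of an effective divisor reducing to `Ē₀` -/

/-- an effective divisor reducing to `Ē₀` (distinct points) is reduced, one point in each disc. -/
theorem exists_eq_redDiv (r : Place K F → Pl) {g : ℕ} {Qb : Fin g → Pl}
    (hQb : Function.Injective Qb) {D : Divisor K F} (hD : 0 ≤ D)
    (hr : Finsupp.mapDomain r D = sumPts Qb) :
    ∃ P : Fin g → Place K F, (∀ i, r (P i) = Qb i) ∧ D = redDiv P := by
  classical
  have hnn : ∀ P : Place K F, 0 ≤ D P := fun P => hD P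
  have h1 : ∀ i, Finsupp.mapDomain r D (Qb i) = 1 := fun i => by
    rw [hr, sumPts_apply_self hQb i]
  choose P hP huniq using fun i => existsUnique_pos r D (Qb i) (h1 i) hnn
  have hPr : ∀ i, r (P i) = Qb i := fun i => (hP i).1
  have hPinj : Function.Injective P := fun i j hij => hQb (by rw [← hPr i, ← hPr j, hij])
  refine ⟨P, hPr, ?_⟩
  ext v
  by_cases hv : ∃ i, P i = v
  · obtain ⟨i, rfl⟩ := hv
    rw [redDiv_apply_self hPinj i]
    exact (hP i).2
  · push Not at hv
    rw [redDiv_apply_of_not_mem hv]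
    by_contra hne
    have hpos : 0 < D v := lt_of_le_of_ne (hD v) (Ne.symm hne)
    have h2 : Finsupp.mapDomain r D (r v) ≠ 0 := by
      rw [mapDomain_apply_eq_sum]
      have hmem : v ∈ D.support.filter (fun P => r P = r v) := by
        rw [Finset.mem_filter, Finsupp.mem_support_iff]
        exact ⟨hne, rfl⟩
      have hle : D v ≤ ∑ P ∈ D.support.filter (fun P => r P = r v), D P :=
        Finset.single_le_sum (f := fun P => D P) (fun P _ => hD P) hmem
      omega
    rw [hr] at h2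
    have hi : ∃ i, Qb i = r v := by
      by_contra hno
      push Not at hno
      exact h2 (sumPts_apply_of_not_mem hno)
    obtain ⟨i, hi⟩ := hi
    exact hv i (huniq i v hi.symm hpos).symm

/-- the points of a reduced divisor lying over distinct points are determined by it. -/
theorem eq_of_redDiv_eq (r : Place K F → Pl) {n : ℕ} {Qb : Fin n → Pl}
    (hQb : Function.Injective Qb) {P P' : Fin n → Place K F} (hP : ∀ i, r (P i) = Qb i)
    (hP' : ∀ i, r (P' i) = Qb i) (h : redDiv P = redDiv P') : P = P' := by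
  have hinj' : Function.Injective P' := fun i j hij => hQb (by rw [← hP' i, ← hP' j, hij])
  funext i
  have h1 : redDiv P (P' i) ≠ 0 := by
    rw [h, redDiv_apply_self hinj' i]
    exact one_ne_zero
  have hex : ∃ j, P j = P' i := by
    by_contra hno
    push Not at hno
    exact h1 (redDiv_apply_of_not_mem hno)
  obtain ⟨j, hj⟩ := hex
  have hji : j = i := hQb (by rw [← hP j, hj, hP' i])
  rw [← hji, hj, hji]

/-! ### The literals -/

section Lit

variable {A : ValuationSubring K} {r : Place K F → Pl} {g : ℕ} {χ : ChartW K F Pl g}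
  {J1div : AddSubgroup (Divisor K F)} (H : RedDatum A r χ J1div)

include H

/-- two effective divisors of a class, one of which is `redDiv P` with `P_i` in the discs, agree. -/
theorem eq_of_sub_mem_principal {P : Fin g → Place K F} (hP : ∀ i, r (P i) = χ.Qbar i)
    {D : Divisor K F} (hD : 0 ≤ D)
    (h : D - redDiv P ∈ Divisor.principal (K := K) (F := F)) : D = redDiv P := by
  obtain ⟨f, hf0, hf⟩ := h
  have hmem : f ∈ riemannRochSpace (redDiv P) := by
    rw [mem_L_iff hf0]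
    intro v
    have h2 := hf v
    rw [Finsupp.sub_apply] at h2
    have h3 : (0 : ℤ) ≤ D v := hD v
    omega
  obtain ⟨c, hc⟩ := H.lD P hP f hmem
  ext v
  have h2 := hf v
  rw [Finsupp.sub_apply, hc, ffp_ord_algebraMap] at h2
  omega

/-- **(Ξa), existence.** -/
theorem xiA : XiA A r χ J1div := by
  rintro y ⟨D₀, rfl, hD₀⟩
  have hdeg : Divisor.degree (D₀ : Divisor K F) = 0 := Divisor.mem_degZero.mp D₀.2
  obtain ⟨D, hD, hDp⟩ :=
    Fermat.Agent.ES.V19.XiExist5.exists_effective H.lhyp H.riemann χ.Q hdeg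
  obtain ⟨P, hP, rfl⟩ := exists_eq_redDiv r H.inj hD (H.red_eff _ hD₀ D hD hDp)
  choose s hs using fun i => H.val_mem i (P i) (hP i)
  refine ⟨s, ⟨P, hP, fun i => (hs i).2, ?_⟩, fun i => (hs i).1⟩
  exact (Fermat.Agent.ES.V19.XiRel5.isRep_mk_iff D₀
    (Fermat.Agent.ES.V19.XiPic5.sub_redDiv_mem_degZero H.lhyp P χ.Q)).mpr hDp

/-- an effective divisor of the class of `redDiv P - E₀` (with `P i` in the discs) is `redDiv P`. -/
theorem eq_redDiv_of_isRep {y : Pic0 K F} {P : Fin g → Place K F}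
    (hP : ∀ i, r (P i) = χ.Qbar i) (hrep : IsRep y (redDiv P - χ.E0)) {D : Divisor K F}
    (hD : 0 ≤ D) (hrepD : IsRep y (D - χ.E0)) : D = redDiv P := by
  apply eq_of_sub_mem_principal H hP hD
  have h := Fermat.Agent.ES.V19.XiRel5.sub_mem_principal_of_isRep hrepD hrep
  have e : D - χ.E0 - (redDiv P - χ.E0) = D - redDiv P := by abel
  rw [e] at h
  exact h

/-- **(Ξa), uniqueness.** -/
theorem xiAUnique : XiAUnique r χ := by
  intro y s P hP hs hrep
  refine ⟨fun D hD hrepD => eq_redDiv_of_isRep H hP hrep hD hrepD, ?_⟩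
  rintro s' ⟨P', hP', hs', hrep'⟩
  have e1 : redDiv P' = redDiv P := eq_redDiv_of_isRep H hP hrep (redDiv_nonneg P') hrep'
  have e2 : P' = P := eq_of_redDiv_eq r H.inj hP' hP e1
  subst e2
  funext i
  exact Fermat.Agent.ES.V19.XiRel5.const_eq_of_ord_pos (P' i) (χ.t i) (hs' i) (hs i)

/-- **(Ξb), first clause: `Ξ 0 = 0`.** -/
theorem isXi_zero : IsXi r χ 0 0 := by
  refine ⟨χ.Q, H.centre_red, fun i => ?_, ?_⟩
  · rw [Pi.zero_apply, map_zero, sub_zero]
    exact H.centre_zero i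
  · have h : IsRep (Fermat.Agent.ES.V19.XiPic5.cls H.lhyp χ.Q χ.Q) (redDiv χ.Q - χ.E0) :=
      ⟨Fermat.Agent.ES.V19.XiPic5.sub_redDiv_mem_degZero H.lhyp χ.Q χ.Q, rfl⟩
    rwa [Fermat.Agent.ES.V19.XiPic5.cls_self] at h

/-- a coordinate of a point of the disc lies in `𝔪_A`. -/
theorem mem_nonunits_of_ord_pos {i : Fin g} {P : Place K F} (hP : r P = χ.Qbar i) {s : K}
    (hs : 0 < P.ord (χ.t i - algebraMap K F s)) : s ∈ A.nonunits := by
  obtain ⟨s₀, hs₀, h₀⟩ := H.val_mem i P hP
  rw [Fermat.Agent.ES.V19.XiRel5.const_eq_of_ord_pos P (χ.t i) hs h₀]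
  exact hs₀

/-- **(Ξb), second clause: injectivity.** -/
theorem isXi_inj {y y' : Pic0 K F} {s : Fin g → K} (h : IsXi r χ y s) (h' : IsXi r χ y' s) :
    y = y' := by
  obtain ⟨P, hP, hs, hD, e⟩ := h
  obtain ⟨P', hP', hs', hD', e'⟩ := h'
  have hPP' : P = P' := by
    funext i
    obtain ⟨P₀, _, huniq⟩ := H.val_unique i (s i) (mem_nonunits_of_ord_pos H (hP i) (hs i))
    rw [huniq (P i) ⟨hP i, hs i⟩, huniq (P' i) ⟨hP' i, hs' i⟩]
  subst hPP'
  rw [← e, ← e']

/-- **(Ξb), third clause: classes with coordinates lie in `J¹`.** -/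
theorem inJ1_of_isXi {y : Pic0 K F} {s : Fin g → K} (h : IsXi r χ y s) : InJ1 J1div y := by
  obtain ⟨P, hP, _, hD, e⟩ := h
  exact ⟨⟨redDiv P - χ.E0, hD⟩, e, H.chart_mem P hP⟩

/-! ### Equivariance -/

section Eqv

variable {G : Type*} [Group G] [MulSemiringAction G K] [DistribMulAction G (Pic0 K F)]
  {ρ : G →* SemilinearAut K F} (hG : EqvHypW r χ G ρ)

include hG

omit H in
theorem smul_coord (σ : G) (i : Fin g) (s : K) :
    ρ σ • (χ.t i - algebraMap K F s) = χ.t i - algebraMap K F (σ • s) := by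
  rw [smul_sub, hG.smul_t σ i, SemilinearAut.smul_algebraMap, hG.smul_base σ s]

omit H in
theorem ord_smul_coord (σ : G) (i : Fin g) (s : K) (P : Place K F) :
    (ρ σ • P).ord (χ.t i - algebraMap K F (σ • s)) = P.ord (χ.t i - algebraMap K F s) := by
  rw [← smul_coord hG σ i s]
  exact SemilinearAut.ord_smul (ρ σ) P _

/-- the centres are fixed. -/
theorem smul_centre (σ : G) (i : Fin g) : ρ σ • χ.Q i = χ.Q i := by
  obtain ⟨P₀, -, huniq⟩ := H.val_unique i 0 A.nonunits.zero_mem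
  have h0 : ∀ P : Place K F, r P = χ.Qbar i → 0 < P.ord (χ.t i) → P = P₀ := fun P h1 h2 =>
    huniq P ⟨h1, by rw [map_zero, sub_zero]; exact h2⟩
  have hQ : χ.Q i = P₀ := h0 _ (H.centre_red i) (H.centre_zero i)
  have hσQ : ρ σ • χ.Q i = P₀ := by
    refine h0 _ (hG.smul_disc σ i _ (H.centre_red i)) ?_
    have h := ord_smul_coord hG σ i 0 (χ.Q i)
    rw [smul_zero, map_zero, sub_zero] at h
    rw [h]
    exact H.centre_zero i
  rw [hσQ, hQ]

/-- `E₀` is fixed. -/
theorem smul_E0 (σ : G) : ρ σ • χ.E0 = χ.E0 := by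
  unfold ChartW.E0
  rw [Fermat.Agent.ES.V19.XiEqv29.smul_redDiv]
  exact congrArg redDiv (funext fun i => smul_centre H hG σ i)

omit H in
/-- a representative of `y` is moved to a representative of `σ • y`. -/
theorem isRep_smul (σ : G) {y : Pic0 K F} {D : Divisor K F} (h : IsRep y D) :
    IsRep (σ • y) (ρ σ • D) := by
  obtain ⟨hD, rfl⟩ := h
  refine ⟨SemilinearAut.smul_mem_degZero (ρ σ) hD, ?_⟩
  rw [hG.smul_pic σ, SemilinearAut.pic0_smul_mk]
  rfl

/-- **(Ξb), fourth clause: equivariance.** -/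
theorem isXi_smul (σ : G) {y : Pic0 K F} {s : Fin g → K} (h : IsXi r χ y s) :
    IsXi r χ (σ • y) (fun i => σ • s i) := by
  obtain ⟨P, hP, hs, hrep⟩ := h
  refine ⟨fun i => ρ σ • P i, fun i => hG.smul_disc σ i _ (hP i), fun i => ?_, ?_⟩
  · rw [ord_smul_coord hG σ i (s i) (P i)]
    exact hs i
  · have h1 := isRep_smul hG σ hrep
    rwa [smul_sub, Fermat.Agent.ES.V19.XiEqv29.smul_redDiv, smul_E0 H hG σ] at h1

/-- **(Ξb).** -/
theorem xiB : XiB r χ J1div G :=
  ⟨isXi_zero H, fun _ _ _ h h' => isXi_inj H h h', fun _ _ h => inJ1_of_isXi H h,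
    fun σ _ _ h => isXi_smul H hG σ h⟩

/-- **THE EXIT of the top layer.** -/
theorem topExit : TopExit A r χ J1div G := ⟨xiA H, xiAUnique H, xiB H hG⟩

end Eqv

end Lit

/-! ### From the literals to `XiData` -/

section Main

variable {A : ValuationSubring K} {r : Place K F → Pl} {g : ℕ} {χ : ChartW K F Pl g}
  {J1div : AddSubgroup (Divisor K F)}

theorem isXi_xi {y : Pic0 K F} (h : ∃ s, IsXi r χ y s) : IsXi r χ y (xi r χ y) := by
  unfold xi
  rw [dif_pos h]
  exact h.choose_spec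

theorem xi_eq (hU : XiAUnique r χ) {y : Pic0 K F} {s : Fin g → K} (h : IsXi r χ y s) :
    xi r χ y = s := by
  obtain ⟨P, hP, hs, hrep⟩ := h
  exact (hU y s P hP hs hrep).2 _ (isXi_xi ⟨s, P, hP, hs, hrep⟩)

/-- **(B5′), the exit**: the chart `xi r χ` satisfies V19's `XiData`. -/
theorem xiData_of {J1 : AddSubgroup (Pic0 K F)} {R G : Type*} [CommRing R] [Algebra R K]
    [Group G] [MulSemiringAction G K] [DistribMulAction G (Pic0 K F)]
    {Fgl : ℕ → Fin g → MvPolynomial (Fin g ⊕ Fin g) R}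
    {Inv : ℕ → Fin g → MvPolynomial (Fin g) R}
    (hA : XiA A r χ J1div) (hU : XiAUnique r χ) (hB : XiB r χ J1div G) (hJ : J1Spec J1div J1)
    (hC : XiC A.toSubring J1 (xi r χ) R Fgl Inv) :
    XiData A.toSubring J1 (xi r χ) R G := by
  classical
  have hspec : ∀ y ∈ J1, IsXi r χ y (xi r χ y) := fun y hy => by
    obtain ⟨s, hs, -⟩ := hA y ((hJ y).mp hy)
    exact isXi_xi ⟨s, hs⟩
  refine ⟨?_, ?_, ?_, ?_, ?_⟩
  · intro y hy i
    obtain ⟨s, hs, hsm⟩ := hA y ((hJ y).mp hy)
    rw [xi_eq hU hs]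
    exact A.nonunits_subset (hsm i)
  · intro y hy y' hy' hyy'
    have h1 := hspec y hy
    have h2 := hspec y' hy'
    rw [← hyy'] at h2
    exact hB.2.1 y y' _ h1 h2
  · intro σ y hy i
    have h1 := hB.2.2.2 σ y _ (hspec y hy)
    rw [xi_eq hU h1]
  · intro d hd S
    let N₀ : Pic0 K F × Pic0 K F → ℕ := fun p =>
      if h : p.1 ∈ J1 ∧ p.2 ∈ J1 then (hC.1 p.1 h.1 p.2 h.2 d hd).choose else 0
    refine ⟨Fgl ((S ×ˢ S).sup N₀), fun y hy y' hy' hyJ hyJ' i => ?_⟩
    have hle : N₀ (y, y') ≤ (S ×ˢ S).sup N₀ :=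
      Finset.le_sup (f := N₀) (Finset.mem_product.mpr ⟨hy, hy'⟩)
    have hN : N₀ (y, y') = (hC.1 y hyJ y' hyJ' d hd).choose := by
      show (if h : y ∈ J1 ∧ y' ∈ J1 then (hC.1 y h.1 y' h.2 d hd).choose else 0) = _
      rw [dif_pos ⟨hyJ, hyJ'⟩]
    rw [hN] at hle
    exact (hC.1 y hyJ y' hyJ' d hd).choose_spec _ hle i
  · intro d hd S
    let N₀ : Pic0 K F → ℕ := fun y =>
      if h : y ∈ J1 then (hC.2 y h d hd).choose else 0
    refine ⟨Inv (S.sup N₀), fun y hy hyJ i => ?_⟩
    have hle : N₀ y ≤ S.sup N₀ := Finset.le_sup (f := N₀) hy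
    have hN : N₀ y = (hC.2 y hyJ d hd).choose := by
      show (if h : y ∈ J1 then (hC.2 y h d hd).choose else 0) = _
      rw [dif_pos hyJ]
    rw [hN] at hle
    exact (hC.2 y hyJ d hd).choose_spec _ hle i

/-- **`RedDatum + EqvHypW + XiC ⇒ XiData`**, moreover with all coordinates in the maximal ideal. -/
theorem xiData_of_redDatum (H : RedDatum A r χ J1div) {J1 : AddSubgroup (Pic0 K F)}
    {R G : Type*} [CommRing R] [Algebra R K]
    [Group G] [MulSemiringAction G K] [DistribMulAction G (Pic0 K F)]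
    {ρ : G →* SemilinearAut K F} (hG : EqvHypW r χ G ρ) (hJ : J1Spec J1div J1)
    {Fgl : ℕ → Fin g → MvPolynomial (Fin g ⊕ Fin g) R}
    {Inv : ℕ → Fin g → MvPolynomial (Fin g) R}
    (hC : XiC A.toSubring J1 (xi r χ) R Fgl Inv) :
    XiData A.toSubring J1 (xi r χ) R G ∧ ∀ y ∈ J1, ∀ i, xi r χ y i ∈ A.nonunits := by
  refine ⟨xiData_of (xiA H) (xiAUnique H) (xiB H hG) hJ hC, fun y hy i => ?_⟩
  obtain ⟨s, hs, hsm⟩ := xiA H y ((hJ y).mp hy)
  rw [xi_eq (xiAUnique H) hs]
  exact hsm i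

end Main

end Fermat.Agent.ES.W33.RedDatumXi27
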