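/-
Programme W (S33), chapter (B5′), helper29: **the NODAL INSTANCE of helper27's abstract reduction datum**
(`RedDatum27.RedDatum`), from the function-level interface `XiIfaceN29`.

Instance: `Pl := SPt k Ft₁ Ft₂ ⊕ Fin s` (a smooth point of a component, or a node), the total reduction
`r` of `XiIfaceN29` as it is, `Q̄'_i := Sum.inl (χ.Qbar i)`, and
`j1divN N r := { D | OffNodes r D ∧ redN r D ∈ N.PrinN }` (divisors through smooth points whose reduction
is a principal divisor of the nodal curve).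

* `j1divN N r : AddSubgroup (Divisor K F)`, `inJ1_iff : InJ1 (j1divN N r) y ↔ InJ1N N r y`,
  `j1Spec_j1N : J1Spec (j1divN N r) (j1N N r)`;
* `chartW χ : ChartW K F (SPt k Ft₁ Ft₂ ⊕ Fin s) g`; `isXi_iff`, `xi_eq_xiN`;
* `chart_mem` : points in the discs give divisors of `j1divN`;
* `eqvHypW_of : EqvHypN r χ Γ ρ → EqvHypW r (chartW χ) Γ ρ`;
* **`redDatum_of_nodal`** : `RedHypN g → ChartHypN A N r χ → (AX1) → (AX2) → RedDatum A r (chartW χ) (j1divN N r)`,
  with (AX1), (AX2) in the literal form of the fields `red_eff`, `lD` (helper5: twist argument, sup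
  trick);
* `xiAN_of`, `xiAUniqueN_of`, `xiBN_of` : the exit literals of `XiIfaceN29` from helper27's theorems;
* **`xiData_of_nodal`** : `RedDatum … → EqvHypN r χ Γ ρ → XiC A (j1N N r) (xiN r χ) R Fgl Inv →
  XiData A (j1N N r) (xiN r χ) R Γ ∧ ∀ y ∈ j1N N r, ∀ i, xiN r χ y i ∈ A.nonunits`.
-/
import Mathlib
import Fermat.Agent.ES.W33.XiIfaceN29
import Fermat.Agent.ES.W33.PrinN29
import Fermat.Agent.ES.W33.RedDatum27
import Fermat.Agent.ES.W33.RedDatumXi27

set_option autoImplicit false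

noncomputable section

namespace Fermat.Agent.ES.W33.J1DivN29

open scoped BigOperators
open AlgebraicCurve Fermat.Agent.RR.LSpace Fermat.Agent.ES.V19.OnePlaceRep9
  Fermat.Agent.ES.W33.XiIfaceN29 Fermat.Agent.ES.W33.PrinN29 Fermat.Agent.ES.W33.RedDatum27

variable {K F k Ft₁ Ft₂ : Type*} [Field K] [Field F] [Algebra K F] [Field k]
  [Field Ft₁] [Algebra k Ft₁] [Field Ft₂] [Algebra k Ft₂]
variable {s : ℕ} (N : Nodes k Ft₁ Ft₂ s) (r : Place K F → SPt k Ft₁ Ft₂ ⊕ Fin s)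

/-- divisors through smooth points whose reduction is principal on the nodal curve. -/
def j1divN : AddSubgroup (Divisor K F) where
  carrier := {D | OffNodes r D ∧ redN r D ∈ N.PrinN}
  zero_mem' := ⟨offNodes_zero, by rw [redN_zero]; exact zero_mem_PrinN N⟩
  add_mem' := fun h h' => ⟨offNodes_add h.1 h'.1, by rw [redN_add]; exact add_mem_PrinN h.2 h'.2⟩
  neg_mem' := fun h => ⟨offNodes_neg h.1, by rw [redN_neg]; exact neg_mem_PrinN h.2⟩

theorem mem_j1divN_iff {D : Divisor K F} :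
    D ∈ j1divN N r ↔ OffNodes r D ∧ redN r D ∈ N.PrinN := Iff.rfl

theorem inJ1_iff (y : Pic0 K F) : InJ1 (j1divN N r) y ↔ InJ1N N r y := by
  constructor
  · rintro ⟨D, hD, hoff, hp⟩
    exact ⟨D, ⟨D.2, hD⟩, hoff, hp⟩
  · rintro ⟨D, ⟨hd, hD⟩, hoff, hp⟩
    exact ⟨⟨D, hd⟩, hD, hoff, hp⟩

theorem j1Spec_j1N : J1Spec (j1divN N r) (j1N N r) := fun y => (inJ1_iff N r y).symm

theorem j1Spec_of_j1SpecN {J1 : AddSubgroup (Pic0 K F)} (h : J1SpecN N r J1) :
    J1Spec (j1divN N r) J1 := fun y => (h y).trans (inJ1_iff N r y).symm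

variable {N r} {g : ℕ}

/-- the chart in helper27's vocabulary. -/
def chartW (χ : ChartN K F k Ft₁ Ft₂ g) : ChartW K F (SPt k Ft₁ Ft₂ ⊕ Fin s) g where
  Qbar := fun i => Sum.inl (χ.Qbar i)
  t := χ.t
  Q := χ.Q

theorem chartW_E0 (χ : ChartN K F k Ft₁ Ft₂ g) : (chartW (s := s) χ).E0 = χ.E0 := rfl

theorem isXi_iff (χ : ChartN K F k Ft₁ Ft₂ g) (y : Pic0 K F) (a : Fin g → K) :
    IsXi r (chartW χ) y a ↔ IsXiN r χ y a := Iff.rfl

theorem xi_eq_xiN (χ : ChartN K F k Ft₁ Ft₂ g) : xi r (chartW χ) = xiN r χ := rfl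

/-- points in the discs give divisors of `j1divN`. -/
theorem chart_mem {A : ValuationSubring K} {χ : ChartN K F k Ft₁ Ft₂ g}
    (hχ : ChartHypN A N r χ) (P : Fin g → Place K F)
    (hP : ∀ i, r (P i) = Sum.inl (χ.Qbar i)) : redDiv P - χ.E0 ∈ j1divN N r := by
  refine ⟨offNodes_sub (offNodes_redDiv hP) (offNodes_redDiv hχ.centre_red), ?_⟩
  rw [redN_sub, redN_redDiv r hP]
  unfold ChartN.E0
  rw [redN_redDiv r hχ.centre_red, sub_self]
  exact zero_mem_PrinN N

theorem eqvHypW_of {χ : ChartN K F k Ft₁ Ft₂ g} {Γ : Type*} [Group Γ] [MulSemiringAction Γ K]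
    [DistribMulAction Γ (Pic0 K F)] {ρ : Γ →* SemilinearAut K F} (h : EqvHypN r χ Γ ρ) :
    EqvHypW r (chartW χ) Γ ρ where
  smul_pic := h.smul_pic
  smul_base := h.smul_base
  smul_t := h.smul_t
  smul_disc := h.smul_disc

/-- **THE NODAL INSTANCE of the abstract reduction datum**, modulo (AX1) [twist argument] and (AX2)
[sup trick] in the literal form of the fields. -/
theorem redDatum_of_nodal {A : ValuationSubring K} {χ : ChartN K F k Ft₁ Ft₂ g}
    (H : RedHypN (K := K) (F := F) g) (hχ : ChartHypN A N r χ)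
    (ax1 : ∀ D₀ ∈ j1divN N r, ∀ D : Divisor K F, 0 ≤ D →
      D - χ.E0 - D₀ ∈ Divisor.principal (K := K) (F := F) →
      Finsupp.mapDomain r D = sumPts (fun i => (Sum.inl (χ.Qbar i) : SPt k Ft₁ Ft₂ ⊕ Fin s)))
    (ax2 : ∀ P : Fin g → Place K F, (∀ i, r (P i) = Sum.inl (χ.Qbar i)) →
      ∀ f : F, f ∈ riemannRochSpace (redDiv P) → ∃ c : K, f = algebraMap K F c) :
    RedDatum A r (chartW χ) (j1divN N r) where
  lhyp := H.lhyp
  riemann := H.riemann
  inj := fun _ _ h => hχ.inj (Sum.inl_injective h)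
  centre_red := hχ.centre_red
  centre_zero := hχ.centre_zero
  val_mem := hχ.val_mem
  val_unique := hχ.val_unique
  red_eff := ax1
  lD := ax2
  chart_mem := chart_mem hχ

/-! ### The exit literals of `XiIfaceN29` from helper27's theorems -/

section Exits

variable {A : ValuationSubring K} {χ : ChartN K F k Ft₁ Ft₂ g}
  (H : RedDatum A r (chartW χ) (j1divN N r))

include H

theorem xiAN_of : XiAN A N r χ := fun y hy =>
  RedDatumXi27.xiA H y ((inJ1_iff N r y).mpr hy)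

theorem xiAUniqueN_of : XiAUniqueN r χ := RedDatumXi27.xiAUnique H

theorem xiBN_of {Γ : Type*} [Group Γ] [MulSemiringAction Γ K] [DistribMulAction Γ (Pic0 K F)]
    {ρ : Γ →* SemilinearAut K F} (hΓ : EqvHypN r χ Γ ρ) : XiBN N r χ Γ := by
  obtain ⟨h1, h2, h3, h4⟩ := RedDatumXi27.xiB H (eqvHypW_of hΓ)
  exact ⟨h1, h2, fun y a hy => (inJ1_iff N r y).mp (h3 y a hy), h4⟩

/-- **(B5′), THE EXIT**: on the kernel of reduction `j1N N r` of the nodal model the chart `xiN r χ`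
satisfies V19's `XiData` (verbatim), with all coordinates in the maximal ideal. -/
theorem xiData_of_nodal {Γ : Type*} [Group Γ] [MulSemiringAction Γ K]
    [DistribMulAction Γ (Pic0 K F)] {ρ : Γ →* SemilinearAut K F} (hΓ : EqvHypN r χ Γ ρ)
    {R : Type*} [CommRing R] [Algebra R K]
    {Fgl : ℕ → Fin g → MvPolynomial (Fin g ⊕ Fin g) R}
    {Inv : ℕ → Fin g → MvPolynomial (Fin g) R}
    (hC : Fermat.Agent.ES.V19.XiIface29.XiC A.toSubring (j1N N r) (xiN r χ) R Fgl Inv) :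
    Fermat.Agent.ES.V19.XiIface29.XiData A.toSubring (j1N N r) (xiN r χ) R Γ ∧
      ∀ y ∈ j1N N r, ∀ i, xiN r χ y i ∈ A.nonunits :=
  RedDatumXi27.xiData_of_redDatum H (eqvHypW_of hΓ) (j1Spec_j1N N r) hC

end Exits

end Fermat.Agent.ES.W33.J1DivN29
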