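/-
Programme W (S33), chapter (B5′) "the chart `Ξ` on the kernel of reduction of the NODAL model",
helper5: **the sup trick on the nodal model** — nodal port of `V19/XiHlD5.hlD`.

Setting = helper29's `XiIfaceN29`: `F / K` the generic fibre, two components `Ft₁, Ft₂ / k` glued at `s`
nodes, total reduction `r : Place K F → SPt ⊕ Fin s`, function-level context `C : RedCtxN A π N G red r`
(`G = O₁ ⊓ O₂`, `red : G →+* Ft₁ × Ft₂`), chart `χ` with `Hχ : ChartHypN A N r χ`
(`const_E0bar` : every GLUED section of `O(Ē₀)` is a constant).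

In `hlD` the auxiliary point is passed EXPLICITLY and must reduce to a SMOOTH point `Q⋆ ≠ Q̄_i`
(`hPs : r P⋆ = Sum.inl Q⋆`, `hQs`); `hlD_aux` takes it from `ChartHypN.aux` (interface v2).

* `ord_nonneg_of_valAt`   : a function with a value at `Q` is regular at `Q`;
* `mapDomain_redDiv_inl`  : `r_* (P_1 + … + P_n)` at a smooth point, for `r (P i) = inl (Q̄ i)`;
* `red_mem_LN`            : `u ∈ G ∩ L(P_1 + … + P_g)`, `P_i ∈ disc (Q̄_i)` ⇒ `red u` is a GLUED section
                            of `O(Ē₀)`;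
* **`hlD`**, `hlD_aux`     : `L(P_1 + … + P_g) = K` for every family of points in the discs.
-/
import Mathlib
import Fermat.Agent.ES.W33.XiIfaceN29
import Fermat.Agent.ES.V19.SupTrick15

set_option autoImplicit false

open AlgebraicCurve

noncomputable section

namespace Fermat.Agent.ES.W33.XiHlDN5

open scoped BigOperators
open Fermat.Agent.X0.FF Fermat.Agent.RR.LSpace Fermat.Agent.ES.V19.OnePlaceRep9
  Fermat.Agent.ES.V19.SupTrick15 Fermat.Agent.ES.W33.XiIfaceN29

variable {K F k Ft₁ Ft₂ : Type*} [Field K] [Field F] [Algebra K F] [Field k]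
  [Field Ft₁] [Algebra k Ft₁] [Field Ft₂] [Algebra k Ft₂]

/-! ### Generalities -/

/-- a function with a value at `Q` is regular at `Q`. -/
theorem ord_nonneg_of_valAt {Ft : Type*} [Field Ft] [Algebra k Ft] (Q : Place k Ft) {f : Ft}
    {c : k} (h : ValAt Q f c) : 0 ≤ Q.ord f := by
  rcases h with h | h
  · rw [h, ffp_ord_algebraMap]
  · by_cases hf : f = 0
    · rw [hf, Place.ord_zero]
    have e : (f - algebraMap k Ft c) + algebraMap k Ft c = f := by ring
    have h1 := ffp_le_ord_add Q (n := 0) (le_of_lt h)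
      (le_of_eq (ffp_ord_algebraMap Q c).symm) (by rw [e]; exact hf)
    rwa [e] at h1

/-- `r_* (P_1 + … + P_n)` at a smooth point, when `r (P i) = inl (Q̄ i)`. -/
theorem mapDomain_redDiv_inl {s : ℕ} (r : Place K F → SPt k Ft₁ Ft₂ ⊕ Fin s) {n : ℕ}
    (P : Fin n → Place K F) (Qb : Fin n → SPt k Ft₁ Ft₂)
    (hP : ∀ i, r (P i) = Sum.inl (Qb i)) (x : SPt k Ft₁ Ft₂) :
    Finsupp.mapDomain r (redDiv P) (Sum.inl x) = (∑ i, Finsupp.single (Qb i) (1 : ℤ)) x := by
  classical
  rw [redDiv, Finsupp.mapDomain_finsetSum, Finsupp.finsetSum_apply, Finsupp.finsetSum_apply]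
  refine Finset.sum_congr rfl fun i _ => ?_
  rw [Finsupp.mapDomain_single, hP i, Finsupp.single_apply, Finsupp.single_apply]
  by_cases h : Qb i = x
  · rw [if_pos h, if_pos (by rw [h])]
  · rw [if_neg h, if_neg (fun h' => h (Sum.inl_injective h'))]

/-- `Ē₀ ≥ 0`. -/
theorem E0bar_nonneg {g : ℕ} (χ : ChartN K F k Ft₁ Ft₂ g) (x : SPt k Ft₁ Ft₂) :
    0 ≤ χ.E0bar x := by
  classical
  show 0 ≤ (∑ i, Finsupp.single (χ.Qbar i) (1 : ℤ)) x
  rw [Finsupp.finsetSum_apply]
  refine Finset.sum_nonneg fun i _ => ?_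
  rw [Finsupp.single_apply]
  split_ifs <;> norm_num

/-! ### The reduction of a function with poles in the discs -/

section Main

variable {s : ℕ} {A : ValuationSubring K} {π : ↥A →+* k} {N : Nodes k Ft₁ Ft₂ s}
  {G : Subring F} {red : ↥G →+* Ft₁ × Ft₂} {r : Place K F → SPt k Ft₁ Ft₂ ⊕ Fin s}
  (C : RedCtxN A π N G red r) (HL : LHyp K F) {g : ℕ} {χ : ChartN K F k Ft₁ Ft₂ g}

include C HL in
/-- `u ∈ G ∩ L(P_1 + … + P_g)` with `P_i` in the disc of `Q̄_i` reduces to a GLUED section of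
`O(Ē₀)`. -/
theorem red_mem_LN (P : Fin g → Place K F) (hP : ∀ i, r (P i) = Sum.inl (χ.Qbar i))
    (u : ↥G) (hu0 : (u : F) ≠ 0) (hu : ∀ v : Place K F, -redDiv P v ≤ v.ord (u : F)) :
    red u ∈ N.LN χ.E0bar := by
  classical
  -- the divisor of `u`
  have hD : ∀ v, divOf HL hu0 v = v.ord (u : F) := fun v => divOf_apply HL hu0 v
  -- `r_* div u + r_* Σ P_i ≥ 0`
  have hnn : ∀ x : SPt k Ft₁ Ft₂,
      -χ.E0bar x ≤ Finsupp.mapDomain r (divOf HL hu0) (Sum.inl x) := by
    intro x
    have h1 : 0 ≤ Finsupp.mapDomain r (divOf HL hu0 + redDiv P) (Sum.inl x) := by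
      apply mapDomain_apply_nonneg
      intro v _
      rw [Finsupp.add_apply, hD]
      have := hu v
      omega
    rw [Finsupp.mapDomain_add, Finsupp.add_apply, mapDomain_redDiv_inl r P χ.Qbar hP] at h1
    have e : χ.E0bar x = (∑ i, Finsupp.single (χ.Qbar i) (1 : ℤ)) x := rfl
    rw [e]
    omega
  -- no pole of `u` passes through a node
  have hnode : ∀ (j : Fin s) (v : Place K F), r v = Sum.inr j → 0 ≤ v.ord (u : F) := by
    intro j v hv
    have h0 : redDiv P v = 0 := by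
      apply redDiv_apply_of_not_mem
      intro i hi
      rw [← hi, hP i] at hv
      exact Sum.inl_ne_inr hv
    have := hu v
    omega
  have hglue : ∀ j, N.GluedAt (red u) j := fun j => C.glue u j (hnode j)
  refine ⟨?_, ?_, hglue⟩
  · rw [mem_riemannRochSpace_iff]
    intro Q
    by_cases h0 : (red u).1 = 0
    · exact Or.inl h0
    right
    have hc : SDiv.comp₁ χ.E0bar Q = χ.E0bar (Sum.inl Q) := rfl
    rw [hc]
    by_cases hQ : N.IsSmooth (Sum.inl Q)
    · rw [← C.r1₁ u h0 (divOf HL hu0) hD Q hQ]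
      exact hnn (Sum.inl Q)
    · have hQ' : ¬ ∀ j, Q ≠ N.ν₁ j := hQ
      push Not at hQ'
      obtain ⟨j, rfl⟩ := hQ'
      obtain ⟨c, hc1, -⟩ := hglue j
      have h1 := ord_nonneg_of_valAt (N.ν₁ j) hc1
      have h2 := E0bar_nonneg χ (Sum.inl (N.ν₁ j))
      omega
  · rw [mem_riemannRochSpace_iff]
    intro Q
    by_cases h0 : (red u).2 = 0
    · exact Or.inl h0
    right
    have hc : SDiv.comp₂ χ.E0bar Q = χ.E0bar (Sum.inr Q) := rfl
    rw [hc]
    by_cases hQ : N.IsSmooth (Sum.inr Q)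
    · rw [← C.r1₂ u h0 (divOf HL hu0) hD Q hQ]
      exact hnn (Sum.inr Q)
    · have hQ' : ¬ ∀ j, Q ≠ N.ν₂ j := hQ
      push Not at hQ'
      obtain ⟨j, rfl⟩ := hQ'
      obtain ⟨c, -, hc2⟩ := hglue j
      have h1 := ord_nonneg_of_valAt (N.ν₂ j) hc2
      have h2 := E0bar_nonneg χ (Sum.inr (N.ν₂ j))
      omega

include C HL in
/-- **the sup trick on the nodal model**: `L(P_1 + … + P_g) = K` for every family of points in the
discs; `P⋆` is an auxiliary place reducing to a SMOOTH point `Q⋆` different from the `Q̄_i`. -/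
theorem hlD (Hχ : ChartHypN A N r χ) {Ps : Place K F} {Qs : SPt k Ft₁ Ft₂}
    (hPs : r Ps = Sum.inl Qs) (hQs : ∀ i, Qs ≠ χ.Qbar i)
    (P : Fin g → Place K F) (hP : ∀ i, r (P i) = Sum.inl (χ.Qbar i)) (f : F)
    (hf : f ∈ riemannRochSpace (redDiv P)) : ∃ c : K, f = algebraMap K F c := by
  classical
  -- places of the fibre of `r P⋆` are not among the `P i`
  have hfib : ∀ v : Place K F, r v = r Ps → redDiv P v = 0 := by
    intro v hv
    apply redDiv_apply_of_not_mem
    intro i hi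
    rw [← hi, hP i, hPs] at hv
    exact hQs i (Sum.inl_injective hv).symm
  -- `f` is regular at `P⋆`
  have hreg : f ∈ Ps.toValuationSubring := by
    rcases (mem_riemannRochSpace_iff.mp hf) Ps with h0 | h1
    · rw [h0]; exact zero_mem _
    · apply ffp_mem_of_ord_nonneg
      rw [hfib Ps rfl] at h1
      omega
  obtain ⟨c, hc | hc⟩ := HL.residue Ps f hreg
  · exact ⟨c, hc⟩
  exfalso
  -- `f₀ := f - c` vanishes at `P⋆`
  have hf₀ : f - algebraMap K F c ≠ 0 := by
    intro h0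
    rw [h0, Place.ord_zero] at hc
    exact lt_irrefl _ hc
  have hcL : algebraMap K F c ∈ riemannRochSpace (redDiv P) := by
    rw [mem_riemannRochSpace_iff]
    intro v
    right
    rw [ffp_ord_algebraMap]
    have := redDiv_nonneg P v
    simp only [Finsupp.coe_zero, Pi.zero_apply] at this
    omega
  have hf₀L := (mem_L_iff hf₀).mp (Submodule.sub_mem _ hf hcL)
  obtain ⟨c', hc', hu, hred⟩ := C.scale _ hf₀
  have hcF : algebraMap K F c' ≠ 0 := (_root_.map_ne_zero (algebraMap K F)).mpr hc'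
  have hord : ∀ v : Place K F,
      v.ord ((algebraMap K F c')⁻¹ * (f - algebraMap K F c)) = v.ord (f - algebraMap K F c) := by
    intro v
    rw [v.ord_mul (inv_ne_zero hcF) hf₀, v.ord_inv, ffp_ord_algebraMap, neg_zero, zero_add]
  have hu0 : (algebraMap K F c')⁻¹ * (f - algebraMap K F c) ≠ 0 :=
    mul_ne_zero (inv_ne_zero hcF) hf₀
  have hmem := red_mem_LN C HL (N := N) (χ := χ) P hP ⟨_, hu⟩ hu0
    (fun v => by rw [hord v]; exact hf₀L v)
  obtain ⟨c₀, hc₀⟩ := Hχ.const_E0bar _ hmem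
  have hc₀0 : c₀ ≠ 0 := by
    intro h0
    apply hred
    rw [hc₀, h0, map_zero, map_zero]
    rfl
  -- the divisor of `u` is positive at `P⋆` and non-negative on its fibre
  have hD : ∀ v, divOf HL hu0 v = v.ord ((algebraMap K F c')⁻¹ * (f - algebraMap K F c)) :=
    fun v => divOf_apply HL hu0 v
  have hpos : 0 < Finsupp.mapDomain r (divOf HL hu0) (r Ps) := by
    apply mapDomain_apply_pos
    · intro v hv
      rw [hD, hord]
      have h1 := hf₀L v
      rw [hfib v hv] at h1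
      omega
    · rw [hD, hord]
      exact hc
  have hsm := C.smooth Ps Qs hPs
  rw [hPs] at hpos
  rcases Qs with Q | Q
  · have h1 : (red ⟨_, hu⟩).1 ≠ 0 := by
      rw [hc₀]
      exact (_root_.map_ne_zero (algebraMap k Ft₁)).mpr hc₀0
    have h2 := C.r1₁ ⟨_, hu⟩ h1 (divOf HL hu0) hD Q hsm
    rw [h2, hc₀] at hpos
    simp only [ffp_ord_algebraMap, lt_self_iff_false] at hpos
  · have h1 : (red ⟨_, hu⟩).2 ≠ 0 := by
      rw [hc₀]
      exact (_root_.map_ne_zero (algebraMap k Ft₂)).mpr hc₀0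
    have h2 := C.r1₂ ⟨_, hu⟩ h1 (divOf HL hu0) hD Q hsm
    rw [h2, hc₀] at hpos
    simp only [ffp_ord_algebraMap, lt_self_iff_false] at hpos

include C HL in
/-- **the sup trick**, with the auxiliary point of `ChartHypN.aux`. -/
theorem hlD_aux (Hχ : ChartHypN A N r χ) (P : Fin g → Place K F)
    (hP : ∀ i, r (P i) = Sum.inl (χ.Qbar i)) (f : F)
    (hf : f ∈ riemannRochSpace (redDiv P)) : ∃ c : K, f = algebraMap K F c := by
  obtain ⟨Ps, Qs, hPs, hQs⟩ := Hχ.aux
  exact hlD C HL Hχ hPs hQs P hP f hf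

end Main

end Fermat.Agent.ES.W33.XiHlDN5
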