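/-
Programme W (S33), chapter (B5′), helper5: **generalities for the nodal (Ξa)** — no curve theory.

* `ValAt` arithmetic needed by the twist argument: `small_add`, `small_mul`, `valAt_mul`;
* `mass : (β →₀ ℤ) →+ ℤ` (total mass), `mass_mapDomain`, `mass_sum_split` (a finitely supported function
  on `α ⊕ β` has mass = mass of the `inl`-part + mass of the `inr`-part), `eq_zero_of_mass_eq_zero`;
* `existsUnique_pos_of_mapDomain_eq_one`, `eq_one_of_mapDomain_eq_one`, `exists_eq_sum_single` :
  `V19/DiscZero10` (Z2) and `V19/XiExist5.exists_eq_redDiv` for an ARBITRARY target type: an effective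
  `D` with `r_* D = b_1 + … + b_n` (distinct `b_i`) is `P_1 + … + P_n` with `r (P i) = b i`.
-/
import Mathlib
import Fermat.Agent.ES.W33.XiIfaceN29
import Fermat.Agent.ES.W33.XiHlDN5

set_option autoImplicit false

open AlgebraicCurve

noncomputable section

namespace Fermat.Agent.ES.W33.XiMassN5

open scoped BigOperators
open Fermat.Agent.X0.FF Fermat.Agent.ES.W33.XiIfaceN29 Fermat.Agent.ES.W33.XiHlDN5

/-! ### `ValAt` arithmetic -/

section ValAt

variable {k Ft : Type*} [Field k] [Field Ft] [Algebra k Ft] (Q : Place k Ft)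

/-- `x` lies in the maximal ideal of `Q`. -/
def Small (x : Ft) : Prop := x = 0 ∨ 0 < Q.ord x

theorem valAt_iff_small {f : Ft} {c : k} : ValAt Q f c ↔ Small Q (f - algebraMap k Ft c) := by
  unfold ValAt Small
  rw [sub_eq_zero]

theorem small_add {x y : Ft} (hx : Small Q x) (hy : Small Q y) : Small Q (x + y) := by
  rcases hx with rfl | hx
  · rwa [zero_add]
  rcases hy with rfl | hy
  · rw [add_zero]; exact Or.inr hx
  by_cases h0 : x + y = 0
  · exact Or.inl h0
  right
  have := ffp_le_ord_add Q (n := 1) (by omega) (by omega) h0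
  omega

theorem small_mul {x z : Ft} (hx : Small Q x) (hz : 0 ≤ Q.ord z) : Small Q (x * z) := by
  rcases hx with rfl | hx
  · left; rw [zero_mul]
  by_cases hz0 : z = 0
  · left; rw [hz0, mul_zero]
  right
  have hx0 : x ≠ 0 := by
    rintro rfl
    rw [Place.ord_zero] at hx
    exact lt_irrefl _ hx
  rw [Q.ord_mul hx0 hz0]
  omega

/-- values multiply. -/
theorem valAt_mul {f f' : Ft} {c c' : k} (h : ValAt Q f c) (h' : ValAt Q f' c') :
    ValAt Q (f * f') (c * c') := by
  rw [valAt_iff_small] at h h' ⊢
  have e : f * f' - algebraMap k Ft (c * c') =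
      (f - algebraMap k Ft c) * f' + (f' - algebraMap k Ft c') * algebraMap k Ft c := by
    rw [map_mul]; ring
  rw [e]
  refine small_add Q (small_mul Q h ?_) (small_mul Q h' ?_)
  · exact ord_nonneg_of_valAt Q ((valAt_iff_small Q).mpr h')
  · rw [ffp_ord_algebraMap]

/-- a function has at most one value. -/
theorem valAt_unique {f : Ft} {c c' : k} (h : ValAt Q f c) (h' : ValAt Q f c') : c = c' := by
  rw [valAt_iff_small] at h h'
  have hneg : Small Q (-(f - algebraMap k Ft c)) := by
    rcases h with h | h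
    · left; rw [h, neg_zero]
    · right; rwa [ffp_ord_neg]
  have h1 := small_add Q h' hneg
  have e : f - algebraMap k Ft c' + -(f - algebraMap k Ft c) = algebraMap k Ft (c - c') := by
    rw [map_sub]; ring
  rw [e] at h1
  rcases h1 with h1 | h1
  · have := (_root_.map_eq_zero (algebraMap k Ft)).mp h1
    exact sub_eq_zero.mp this
  · rw [ffp_ord_algebraMap] at h1
    exact absurd h1 (lt_irrefl _)

/-- the value of a constant. -/
theorem valAt_const_iff {a c : k} : ValAt Q (algebraMap k Ft a) c ↔ a = c :=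
  ⟨fun h => valAt_unique Q (Or.inl rfl) h, fun h => Or.inl (by rw [h])⟩

end ValAt

/-! ### Total mass -/

section Mass

variable {α β : Type*}

/-- the total mass of a finitely supported integer-valued function. -/
def mass : (β →₀ ℤ) →+ ℤ := Finsupp.liftAddHom fun _ => AddMonoidHom.id ℤ

theorem mass_single (b : β) (n : ℤ) : mass (Finsupp.single b n) = n := by
  simp [mass]

theorem mass_eq_sum (E : β →₀ ℤ) : mass E = ∑ b ∈ E.support, E b := by
  simp [mass, Finsupp.sum]

theorem mass_mapDomain (r : α → β) (D : α →₀ ℤ) : mass (Finsupp.mapDomain r D) = mass D := by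
  induction D using Finsupp.induction_linear with
  | zero => simp
  | add f g hf hg => rw [Finsupp.mapDomain_add, map_add, map_add, hf, hg]
  | single a n => rw [Finsupp.mapDomain_single, mass_single, mass_single]

theorem mass_sum_single {n : ℕ} (b : Fin n → β) :
    mass (∑ i, Finsupp.single (b i) (1 : ℤ)) = n := by
  rw [map_sum]
  simp [mass_single]

theorem comapDomain_inl_single_inr (b : β) (n : ℤ) :
    (Finsupp.single (Sum.inr b : α ⊕ β) n).comapDomain Sum.inl Sum.inl_injective.injOn = 0 := by
  classical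
  ext a
  rw [Finsupp.comapDomain_apply, Finsupp.single_apply, if_neg Sum.inr_ne_inl]
  rfl

theorem comapDomain_inr_single_inl (a : α) (n : ℤ) :
    (Finsupp.single (Sum.inl a : α ⊕ β) n).comapDomain Sum.inr Sum.inr_injective.injOn = 0 := by
  classical
  ext b
  rw [Finsupp.comapDomain_apply, Finsupp.single_apply, if_neg Sum.inl_ne_inr]
  rfl

/-- mass on a sum type. -/
theorem mass_sum_split (E : (α ⊕ β) →₀ ℤ) :
    mass E = mass (E.comapDomain Sum.inl Sum.inl_injective.injOn)
      + mass (E.comapDomain Sum.inr Sum.inr_injective.injOn) := by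
  induction E using Finsupp.induction_linear with
  | zero => simp
  | add f g hf hg =>
    rw [Finsupp.comapDomain_add_of_injective Sum.inl_injective,
      Finsupp.comapDomain_add_of_injective Sum.inr_injective, map_add, map_add, map_add, hf, hg]
    ring
  | single b n =>
    rcases b with a | b
    · rw [Finsupp.comapDomain_single, comapDomain_inr_single_inl, mass_single, mass_single,
        map_zero, add_zero]
    · rw [Finsupp.comapDomain_single, comapDomain_inl_single_inr, mass_single, mass_single,
        map_zero, zero_add]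

theorem mass_nonneg {E : β →₀ ℤ} (hE : 0 ≤ E) : 0 ≤ mass E := by
  rw [mass_eq_sum]
  exact Finset.sum_nonneg fun b _ => hE b

/-- an effective function of mass zero is zero. -/
theorem eq_zero_of_mass_eq_zero {E : β →₀ ℤ} (hE : 0 ≤ E) (h : mass E = 0) : E = 0 := by
  rw [mass_eq_sum] at h
  have h0 : ∀ b ∈ E.support, E b = 0 :=
    (Finset.sum_eq_zero_iff_of_nonneg fun b _ => hE b).mp h
  ext b
  by_cases hb : b ∈ E.support
  · simpa using h0 b hb
  · simpa [Finsupp.mem_support_iff] using hb

end Mass

/-! ### Effective functions with reduced push-forward -/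

section Reduced

variable {α β : Type*}

open Classical in
theorem mapDomain_apply_eq_sum_filter (r : α → β) (D : α →₀ ℤ) (Q : β) :
    Finsupp.mapDomain r D Q = ∑ P ∈ D.support.filter (fun P => r P = Q), D P := by
  classical
  rw [Finsupp.mapDomain, Finsupp.sum, Finsupp.finsetSum_apply, Finset.sum_filter]
  refine Finset.sum_congr rfl fun P _ => ?_
  rw [Finsupp.single_apply]

/-- if the coefficient of `Q` in `r_* D` is `1` and `D ≥ 0` on the fibre of `Q`, then `D` has
exactly one point in the fibre of `Q`. -/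
theorem existsUnique_pos_of_mapDomain_eq_one (r : α → β) (D : α →₀ ℤ)
    (Q : β) (h1 : Finsupp.mapDomain r D Q = 1) (hnn : ∀ P, r P = Q → 0 ≤ D P) :
    ∃! P, r P = Q ∧ 0 < D P := by
  classical
  rw [mapDomain_apply_eq_sum_filter] at h1
  set s := D.support.filter (fun P => r P = Q) with hs
  have hmem : ∀ P, P ∈ s ↔ r P = Q ∧ 0 < D P := by
    intro P
    rw [hs, Finset.mem_filter, Finsupp.mem_support_iff]
    constructor
    · rintro ⟨hne, hQ⟩
      exact ⟨hQ, lt_of_le_of_ne (hnn P hQ) (Ne.symm hne)⟩
    · rintro ⟨hQ, hpos⟩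
      exact ⟨ne_of_gt hpos, hQ⟩
  have hge : ∀ P ∈ s, 1 ≤ D P := fun P hP => ((hmem P).mp hP).2
  have hcard : (s.card : ℤ) ≤ 1 := by
    have := Finset.card_nsmul_le_sum s (fun P => D P) 1 hge
    rw [h1] at this
    simpa using this
  have hne : s.Nonempty := by
    rw [Finset.nonempty_iff_ne_empty]
    intro h0
    rw [h0, Finset.sum_empty] at h1
    exact zero_ne_one h1
  obtain ⟨P₀, hP₀⟩ := hne
  refine ⟨P₀, (hmem P₀).mp hP₀, fun P hP => ?_⟩
  have hP' : P ∈ s := (hmem P).mpr hP
  have hc : s.card ≤ 1 := by exact_mod_cast hcard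
  exact Finset.card_le_one.mp hc P hP' P₀ hP₀

/-- the value of `D` at the unique point is `1`. -/
theorem eq_one_of_mapDomain_eq_one (r : α → β) (D : α →₀ ℤ)
    (Q : β) (h1 : Finsupp.mapDomain r D Q = 1) (hnn : ∀ P, r P = Q → 0 ≤ D P)
    {P : α} (hQ : r P = Q) (hpos : 0 < D P) : D P = 1 := by
  classical
  obtain ⟨P₀, _, huniq⟩ := existsUnique_pos_of_mapDomain_eq_one r D Q h1 hnn
  rw [mapDomain_apply_eq_sum_filter] at h1
  have hfil : D.support.filter (fun P => r P = Q) = {P} := by
    ext P'
    rw [Finset.mem_filter, Finsupp.mem_support_iff, Finset.mem_singleton]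
    constructor
    · rintro ⟨hne, hQ'⟩
      have h' : r P' = Q ∧ 0 < D P' := ⟨hQ', lt_of_le_of_ne (hnn P' hQ') (Ne.symm hne)⟩
      rw [huniq P' h', huniq P ⟨hQ, hpos⟩]
    · rintro rfl
      exact ⟨ne_of_gt hpos, hQ⟩
  rw [hfil, Finset.sum_singleton] at h1
  exact h1

theorem sum_single_apply_self {n : ℕ} {b : Fin n → β} (hb : Function.Injective b) (i : Fin n) :
    (∑ j, Finsupp.single (b j) (1 : ℤ)) (b i) = 1 := by
  classical
  rw [Finsupp.finsetSum_apply, Finset.sum_eq_single i]
  · rw [Finsupp.single_apply, if_pos rfl]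
  · intro j _ hj
    rw [Finsupp.single_apply, if_neg (fun h => hj (hb h))]
  · intro h
    exact absurd (Finset.mem_univ i) h

theorem sum_single_apply_of_not_mem {n : ℕ} {b : Fin n → β} {x : β} (hx : ∀ i, b i ≠ x) :
    (∑ j, Finsupp.single (b j) (1 : ℤ)) x = 0 := by
  classical
  rw [Finsupp.finsetSum_apply]
  exact Finset.sum_eq_zero fun j _ => by rw [Finsupp.single_apply, if_neg (hx j)]

/-- an effective `D` whose push-forward is the reduced sum of distinct points `b_i` is the reduced
sum of points `P_i` with `r (P i) = b i`. -/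
theorem exists_eq_sum_single (r : α → β) {n : ℕ} {b : Fin n → β} (hb : Function.Injective b)
    {D : α →₀ ℤ} (hD : 0 ≤ D)
    (hr : Finsupp.mapDomain r D = ∑ i, Finsupp.single (b i) (1 : ℤ)) :
    ∃ P : Fin n → α, (∀ i, r (P i) = b i) ∧ D = ∑ i, Finsupp.single (P i) (1 : ℤ) := by
  classical
  have hnn : ∀ (Q : β) (P : α), r P = Q → 0 ≤ D P := fun _ P _ => hD P
  have h1 : ∀ i, Finsupp.mapDomain r D (b i) = 1 := fun i => by
    rw [hr, sum_single_apply_self hb i]
  have hex : ∀ i, ∃ P, r P = b i ∧ 0 < D P := fun i =>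
    (existsUnique_pos_of_mapDomain_eq_one r D (b i) (h1 i) (hnn _)).exists
  choose P hP using hex
  have hPr : ∀ i, r (P i) = b i := fun i => (hP i).1
  have hPinj : Function.Injective P := fun i j hij => hb (by rw [← hPr i, ← hPr j, hij])
  refine ⟨P, hPr, ?_⟩
  ext v
  by_cases hv : ∃ i, P i = v
  · obtain ⟨i, rfl⟩ := hv
    rw [sum_single_apply_self hPinj i]
    exact eq_one_of_mapDomain_eq_one r D (b i) (h1 i) (hnn _) (hPr i) (hP i).2
  · push Not at hv
    rw [sum_single_apply_of_not_mem hv]
    by_contra hne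
    have hpos : 0 < D v := lt_of_le_of_ne (hD v) (Ne.symm hne)
    have h2 : Finsupp.mapDomain r D (r v) ≠ 0 := by
      rw [mapDomain_apply_eq_sum_filter]
      have hmem : v ∈ D.support.filter (fun P => r P = r v) := by
        rw [Finset.mem_filter, Finsupp.mem_support_iff]
        exact ⟨hne, rfl⟩
      have hle : D v ≤ ∑ P ∈ D.support.filter (fun P => r P = r v), D P :=
        Finset.single_le_sum (f := fun P => D P) (fun P _ => hD P) hmem
      omega
    rw [hr] at h2
    have hi : ∃ i, b i = r v := by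
      by_contra hcon
      push Not at hcon
      exact h2 (sum_single_apply_of_not_mem hcon)
    obtain ⟨i, hi⟩ := hi
    obtain ⟨P₀, _, huniq⟩ := existsUnique_pos_of_mapDomain_eq_one r D (b i) (h1 i) (hnn _)
    have e1 : v = P₀ := huniq v ⟨hi.symm, hpos⟩
    have e2 : P i = P₀ := huniq (P i) (hP i)
    exact hv i (e2.trans e1.symm)

end Reduced

end Fermat.Agent.ES.W33.XiMassN5
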