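/-
Programme W (S33), chapter (B5′) "the chart `Ξ` on the kernel of reduction of the NODAL model",
helper5: **(Ξa) on the nodal model: the effective divisor of the class `y + E₀`, `y ∈ J¹`, has exactly
one point in each residue disc and NO point over a node** — nodal port of `V19/XiExist5`
(the "twist" argument of helper29 #25998 (c) / helper27 #26020; no slope formula, no moving lemma).

Setting = helper29's `XiIfaceN29` (interface v2): `C : RedCtxN A π N G red r`, `HL : LHyp K F`,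
`Hχ : ChartHypN A N r χ`.  Let `D₀` have degree `0`, support off the nodes and `redN r D₀ = div (φ₁, φ₂)`
principal on the nodal curve (`[D₀] ∈ J¹`), and let `D ≥ 0` with `D - E₀ - D₀ = div f`.  Scale `f` by the
minimum of the two Gauss valuations (`RedCtxN.scale`); no pole of `f` passes through a node, so `red f`
is glued at every node (`RedCtxN.glue`) and `(f̄₁ φ₁, f̄₂ φ₂)` is a GLUED section of `O(Ē₀)`, hence a
constant `c₀` (`ChartHypN.const_E0bar`), `c₀ ≠ 0` because `red f ≠ 0`.  So both `f̄_i ≠ 0`, `(r1_i)` gives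
`redN r D = Ē₀`, and the degree count `deg D = g = deg Ē₀` leaves no room for a point over a node.

* `redN_apply`, `redN_E0`;
* **`offNodes_and_redN_eq`** : `OffNodes r D ∧ redN r D = Ē₀`;
* **`red_eff`**, `red_eff'`  : (AX1) of helper27's `RedDatum27.RedDatum` at the nodal instance,
                               `r_* D = Σ inl (Q̄ i)` (degree of `D₀` as a hypothesis, resp. derived from
                               `LHyp` on the two components: `degree_eq_zero_of_mem_PrinN`);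
* `exists_eq_redDiv`         : then `D = redDiv P` with `r (P i) = inl (Q̄ i)`;
* `exists_effective`         : RR on the generic fibre (`V19/XiExist5.exists_effective`);
* **`exists_points`**        : `∃ P, (∀ i, r (P i) = inl (Q̄ i)) ∧ redDiv P - E₀ - D₀` principal.
-/
import Mathlib
import Fermat.Agent.ES.W33.XiIfaceN29
import Fermat.Agent.ES.W33.XiHlDN5
import Fermat.Agent.ES.W33.XiMassN5
import Fermat.Agent.ES.V19.XiExist5

set_option autoImplicit false

open AlgebraicCurve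

noncomputable section

namespace Fermat.Agent.ES.W33.XiExistN5

open scoped BigOperators
open Fermat.Agent.X0.FF Fermat.Agent.RR.LSpace Fermat.Agent.ES.V19.OnePlaceRep9
  Fermat.Agent.ES.V19.SupTrick15 Fermat.Agent.ES.W33.XiIfaceN29 Fermat.Agent.ES.W33.XiHlDN5
  Fermat.Agent.ES.W33.XiMassN5

variable {K F k Ft₁ Ft₂ : Type*} [Field K] [Field F] [Algebra K F] [Field k]
  [Field Ft₁] [Algebra k Ft₁] [Field Ft₂] [Algebra k Ft₂]

/-! ### `redN` -/

section RedN

variable {s : ℕ} (r : Place K F → SPt k Ft₁ Ft₂ ⊕ Fin s)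

theorem redN_apply (D : Divisor K F) (x : SPt k Ft₁ Ft₂) :
    redN r D x = Finsupp.mapDomain r D (Sum.inl x) := rfl

/-- `redN r E₀ = Ē₀`. -/
theorem redN_E0 {g : ℕ} {χ : ChartN K F k Ft₁ Ft₂ g}
    (hc : ∀ i, r (χ.Q i) = Sum.inl (χ.Qbar i)) : redN r χ.E0 = χ.E0bar := by
  ext x
  rw [redN_apply]
  exact mapDomain_redDiv_inl r χ.Q χ.Qbar hc x

/-- the mass of `Ē₀` is `g`. -/
theorem mass_E0bar {g : ℕ} (χ : ChartN K F k Ft₁ Ft₂ g) : mass χ.E0bar = g :=
  mass_sum_single χ.Qbar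

end RedN

/-! ### The reduction of the effective divisor of the class -/

section Main

variable {s : ℕ} {A : ValuationSubring K} {π : ↥A →+* k} {N : Nodes k Ft₁ Ft₂ s}
  {G : Subring F} {red : ↥G →+* Ft₁ × Ft₂} {r : Place K F → SPt k Ft₁ Ft₂ ⊕ Fin s}
  (C : RedCtxN A π N G red r) (HL : LHyp K F) {g : ℕ} {χ : ChartN K F k Ft₁ Ft₂ g}
  (Hχ : ChartHypN A N r χ)

include HL in
/-- under `LHyp`, the degree is the total mass. -/
theorem degree_eq_mass (D : Divisor K F) : Divisor.degree D = mass D := by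
  rw [degree_eq_sum HL, mass_eq_sum]

include C HL Hχ in
/-- **the twist argument**: an effective `D` with `D - E₀ - D₀` principal, `[D₀] ∈ J¹`, has no point
over a node and reduces to `Ē₀`. -/
theorem offNodes_and_redN_eq {D₀ D : Divisor K F} (hdeg : Divisor.degree D₀ = 0)
    (hoff : OffNodes r D₀) (hD₀ : redN r D₀ ∈ N.PrinN) (hD : 0 ≤ D)
    (hDp : D - χ.E0 - D₀ ∈ Divisor.principal (K := K) (F := F)) :
    OffNodes r D ∧ redN r D = χ.E0bar := by
  classical
  obtain ⟨f, hf0, hf⟩ := hDp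
  obtain ⟨c, hc0, hu, hred⟩ := C.scale f hf0
  have hcF : algebraMap K F c ≠ 0 := (_root_.map_ne_zero (algebraMap K F)).mpr hc0
  have hord : ∀ v : Place K F, v.ord ((algebraMap K F c)⁻¹ * f) = v.ord f := by
    intro v
    rw [v.ord_mul (inv_ne_zero hcF) hf0, v.ord_inv, ffp_ord_algebraMap, neg_zero, zero_add]
  obtain ⟨u, hucoe, hredu⟩ : ∃ u : ↥G, (u : F) = (algebraMap K F c)⁻¹ * f ∧ red u ≠ 0 :=
    ⟨⟨_, hu⟩, rfl, hred⟩
  -- the divisor of `u`
  have hDu : ∀ v, (D - χ.E0 - D₀) v = v.ord (u : F) := fun v => by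
    rw [hucoe, hf v, hord v]
  -- a point of `E₀` or of `D₀` is not over a node
  have hE0node : ∀ (j : Fin s) (v : Place K F), r v = Sum.inr j → χ.E0 v = 0 := by
    intro j v hv
    apply redDiv_apply_of_not_mem
    intro i hi
    rw [← hi, Hχ.centre_red i] at hv
    exact Sum.inl_ne_inr hv
  have hD0node : ∀ (j : Fin s) (v : Place K F), r v = Sum.inr j → D₀ v = 0 := by
    intro j v hv
    by_contra hne
    exact hoff v (Finsupp.mem_support_iff.mpr hne) j hv
  -- no pole of `u` passes through a node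
  have hnode : ∀ (j : Fin s) (v : Place K F), r v = Sum.inr j → 0 ≤ v.ord (u : F) := by
    intro j v hv
    rw [← hDu v, Finsupp.sub_apply, Finsupp.sub_apply, hE0node j v hv, hD0node j v hv]
    have := hD v
    simp only [Finsupp.coe_zero, Pi.zero_apply] at this
    omega
  have hglue : ∀ j, N.GluedAt (red u) j := fun j => C.glue u j (hnode j)
  -- the generator of `redN r D₀`
  obtain ⟨φ, hφ1, hφ2, ⟨hφd1, hφd2⟩, hφn⟩ := hD₀
  -- `r_* div u` at a smooth point
  have hsm : ∀ x : SPt k Ft₁ Ft₂, Finsupp.mapDomain r (D - χ.E0 - D₀) (Sum.inl x)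
      = redN r D x - χ.E0bar x - redN r D₀ x := by
    intro x
    rw [Finsupp.mapDomain_sub, Finsupp.mapDomain_sub, Finsupp.sub_apply, Finsupp.sub_apply,
      ← redN_apply, ← redN_apply, ← redN_apply, redN_E0 r Hχ.centre_red]
  have hredD_nn : ∀ x : SPt k Ft₁ Ft₂, 0 ≤ redN r D x := by
    intro x
    rw [redN_apply]
    exact mapDomain_apply_nonneg r D _ fun v _ => hD v
  -- nothing reduces to a node place
  have hnodeplace₁ : ∀ (j : Fin s) (E : Divisor K F), redN r E (Sum.inl (N.ν₁ j)) = 0 := by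
    intro j E
    rw [redN_apply, Fermat.Agent.ES.V19.SupTrick15.mapDomain_apply_eq_sum]
    refine Finset.sum_eq_zero fun v _ => ?_
    rw [if_neg]
    intro hv
    exact C.smooth v _ hv j rfl
  have hnodeplace₂ : ∀ (j : Fin s) (E : Divisor K F), redN r E (Sum.inr (N.ν₂ j)) = 0 := by
    intro j E
    rw [redN_apply, Fermat.Agent.ES.V19.SupTrick15.mapDomain_apply_eq_sum]
    refine Finset.sum_eq_zero fun v _ => ?_
    rw [if_neg]
    intro hv
    exact C.smooth v _ hv j rfl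
  -- the twisted reduction
  obtain ⟨ub, hub⟩ : ∃ ub : Ft₁ × Ft₂, ub = red u := ⟨_, rfl⟩
  rw [← hub] at hglue hredu
  have hw : ((ub.1 * φ.1, ub.2 * φ.2) : Ft₁ × Ft₂) ∈ N.LN χ.E0bar := by
    refine ⟨?_, ?_, ?_⟩
    · rw [mem_riemannRochSpace_iff]
      intro Q
      by_cases h0 : ub.1 = 0
      · left; show ub.1 * φ.1 = 0; rw [h0, zero_mul]
      right
      show -(SDiv.comp₁ χ.E0bar Q) ≤ Q.ord (ub.1 * φ.1)
      have hcE : SDiv.comp₁ χ.E0bar Q = χ.E0bar (Sum.inl Q) := rfl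
      rw [hcE, Q.ord_mul h0 hφ1]
      by_cases hQ : N.IsSmooth (Sum.inl Q)
      · have h1 := C.r1₁ u (hub ▸ h0) (D - χ.E0 - D₀) hDu Q hQ
        rw [hsm, hφd1 Q, ← hub] at h1
        have := hredD_nn (Sum.inl Q)
        omega
      · have hQ' : ¬ ∀ j, Q ≠ N.ν₁ j := hQ
        push Not at hQ'
        obtain ⟨j, rfl⟩ := hQ'
        obtain ⟨c₁, hc₁, -⟩ := hglue j
        obtain ⟨c₂, -, hc₂, -⟩ := hφn j
        have h1 := ord_nonneg_of_valAt (N.ν₁ j) hc₁
        have h2 := ord_nonneg_of_valAt (N.ν₁ j) hc₂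
        have h3 := E0bar_nonneg χ (Sum.inl (N.ν₁ j))
        omega
    · rw [mem_riemannRochSpace_iff]
      intro Q
      by_cases h0 : ub.2 = 0
      · left; show ub.2 * φ.2 = 0; rw [h0, zero_mul]
      right
      show -(SDiv.comp₂ χ.E0bar Q) ≤ Q.ord (ub.2 * φ.2)
      have hcE : SDiv.comp₂ χ.E0bar Q = χ.E0bar (Sum.inr Q) := rfl
      rw [hcE, Q.ord_mul h0 hφ2]
      by_cases hQ : N.IsSmooth (Sum.inr Q)
      · have h1 := C.r1₂ u (hub ▸ h0) (D - χ.E0 - D₀) hDu Q hQ
        rw [hsm, hφd2 Q, ← hub] at h1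
        have := hredD_nn (Sum.inr Q)
        omega
      · have hQ' : ¬ ∀ j, Q ≠ N.ν₂ j := hQ
        push Not at hQ'
        obtain ⟨j, rfl⟩ := hQ'
        obtain ⟨c₁, -, hc₁⟩ := hglue j
        obtain ⟨c₂, -, -, hc₂⟩ := hφn j
        have h1 := ord_nonneg_of_valAt (N.ν₂ j) hc₁
        have h2 := ord_nonneg_of_valAt (N.ν₂ j) hc₂
        have h3 := E0bar_nonneg χ (Sum.inr (N.ν₂ j))
        omega
    · intro j
      obtain ⟨c₁, h11, h12⟩ := hglue j
      obtain ⟨c₂, -, h21, h22⟩ := hφn j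
      exact ⟨c₁ * c₂, valAt_mul _ h11 h21, valAt_mul _ h12 h22⟩
  obtain ⟨c₀, hc₀⟩ := Hχ.const_E0bar _ hw
  have hc₀1 : ub.1 * φ.1 = algebraMap k Ft₁ c₀ := congrArg Prod.fst hc₀
  have hc₀2 : ub.2 * φ.2 = algebraMap k Ft₂ c₀ := congrArg Prod.snd hc₀
  -- `c₀ ≠ 0` because `red u ≠ 0`
  have hc₀0 : c₀ ≠ 0 := by
    intro h0
    rw [h0, map_zero] at hc₀1 hc₀2
    apply hredu
    have e1 : ub.1 = 0 := (mul_eq_zero.mp hc₀1).resolve_right hφ1
    have e2 : ub.2 = 0 := (mul_eq_zero.mp hc₀2).resolve_right hφ2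
    exact Prod.ext e1 e2
  have hub1 : ub.1 ≠ 0 := by
    intro h0
    rw [h0, zero_mul] at hc₀1
    exact hc₀0 ((_root_.map_eq_zero (algebraMap k Ft₁)).mp hc₀1.symm)
  have hub2 : ub.2 ≠ 0 := by
    intro h0
    rw [h0, zero_mul] at hc₀2
    exact hc₀0 ((_root_.map_eq_zero (algebraMap k Ft₂)).mp hc₀2.symm)
  -- `redN r D = Ē₀`
  have hredD : redN r D = χ.E0bar := by
    ext x
    rcases x with Q | Q
    · by_cases hQ : N.IsSmooth (Sum.inl Q)
      · have h1 := C.r1₁ u (hub ▸ hub1) (D - χ.E0 - D₀) hDu Q hQ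
        rw [hsm, hφd1 Q, ← hub] at h1
        have h2 : Q.ord (ub.1 * φ.1) = 0 := by rw [hc₀1, ffp_ord_algebraMap]
        rw [Q.ord_mul hub1 hφ1] at h2
        omega
      · have hQ' : ¬ ∀ j, Q ≠ N.ν₁ j := hQ
        push Not at hQ'
        obtain ⟨j, rfl⟩ := hQ'
        rw [hnodeplace₁ j D]
        symm
        apply sum_single_apply_of_not_mem
        intro i hi
        have hsmi := Hχ.smooth i
        rw [hi] at hsmi
        exact hsmi j rfl
    · by_cases hQ : N.IsSmooth (Sum.inr Q)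
      · have h1 := C.r1₂ u (hub ▸ hub2) (D - χ.E0 - D₀) hDu Q hQ
        rw [hsm, hφd2 Q, ← hub] at h1
        have h2 : Q.ord (ub.2 * φ.2) = 0 := by rw [hc₀2, ffp_ord_algebraMap]
        rw [Q.ord_mul hub2 hφ2] at h2
        omega
      · have hQ' : ¬ ∀ j, Q ≠ N.ν₂ j := hQ
        push Not at hQ'
        obtain ⟨j, rfl⟩ := hQ'
        rw [hnodeplace₂ j D]
        symm
        apply sum_single_apply_of_not_mem
        intro i hi
        have hsmi := Hχ.smooth i
        rw [hi] at hsmi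
        exact hsmi j rfl
  refine ⟨?_, hredD⟩
  -- the degree count
  have hdegD : Divisor.degree D = g := by
    have e : D = (D - χ.E0 - D₀) + χ.E0 + D₀ := by abel
    have hp : Divisor.degree (D - χ.E0 - D₀) = 0 := by
      obtain ⟨D', hD'1, hD'2⟩ := HL.principal f hf0
      have : D - χ.E0 - D₀ = D' := by
        ext v
        rw [hf v, hD'1 v]
      rw [this, hD'2]
    have hE0 : Divisor.degree χ.E0 = g := degree_redDiv HL χ.Q
    rw [e, map_add, map_add, hp, hdeg, hE0]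
    ring
  have hmass : mass (Finsupp.mapDomain r D) = g := by
    rw [mass_mapDomain, ← degree_eq_mass HL, hdegD]
  rw [mass_sum_split] at hmass
  have hinl : (Finsupp.mapDomain r D).comapDomain Sum.inl Sum.inl_injective.injOn = χ.E0bar :=
    hredD
  rw [hinl, mass_E0bar] at hmass
  have hinr0 : (Finsupp.mapDomain r D).comapDomain Sum.inr Sum.inr_injective.injOn = 0 := by
    apply eq_zero_of_mass_eq_zero
    · intro j
      rw [Finsupp.comapDomain_apply]
      exact mapDomain_apply_nonneg r D _ fun v _ => hD v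
    · omega
  intro v hv j hvj
  have hpos : 0 < D v := lt_of_le_of_ne (hD v) (Ne.symm (Finsupp.mem_support_iff.mp hv))
  have h1 := mapDomain_apply_pos r D v (fun P _ => hD P) hpos
  rw [hvj] at h1
  have h2 := congrArg (fun E : Fin s →₀ ℤ => E j) hinr0
  simp only [Finsupp.comapDomain_apply, Finsupp.coe_zero, Pi.zero_apply] at h2
  omega

/-- a divisor off the nodes which reduces to `Ē₀` has total push-forward `Σ inl (Q̄ i)`. -/
theorem mapDomain_eq_of_redN_eq {D : Divisor K F} (hoff : OffNodes r D)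
    (hr : redN r D = χ.E0bar) :
    Finsupp.mapDomain r D
      = ∑ i, Finsupp.single (Sum.inl (χ.Qbar i) : SPt k Ft₁ Ft₂ ⊕ Fin s) (1 : ℤ) := by
  classical
  ext b
  rcases b with x | j
  · rw [← redN_apply, hr]
    show (∑ i, Finsupp.single (χ.Qbar i) (1 : ℤ)) x = _
    rw [Finsupp.finsetSum_apply, Finsupp.finsetSum_apply]
    refine Finset.sum_congr rfl fun i _ => ?_
    rw [Finsupp.single_apply, Finsupp.single_apply]
    by_cases h : χ.Qbar i = x
    · rw [if_pos h, if_pos (by rw [h])]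
    · rw [if_neg h, if_neg (fun h' => h (Sum.inl_injective h'))]
  · rw [sum_single_apply_of_not_mem (fun i => Sum.inl_ne_inr),
      Fermat.Agent.ES.V19.SupTrick15.mapDomain_apply_eq_sum]
    refine Finset.sum_eq_zero fun v hv => ?_
    rw [if_neg (hoff v hv j)]

/-- an effective divisor off the nodes which reduces to `Ē₀` is `redDiv P` with one point in each
disc. -/
theorem exists_eq_redDiv (hQb : Function.Injective χ.Qbar) {D : Divisor K F} (hD : 0 ≤ D)
    (hoff : OffNodes r D) (hr : redN r D = χ.E0bar) :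
    ∃ P : Fin g → Place K F, (∀ i, r (P i) = Sum.inl (χ.Qbar i)) ∧ D = redDiv P := by
  have hinj : Function.Injective fun i => (Sum.inl (χ.Qbar i) : SPt k Ft₁ Ft₂ ⊕ Fin s) :=
    Sum.inl_injective.comp hQb
  obtain ⟨P, hP, hDP⟩ := exists_eq_sum_single r hinj hD (mapDomain_eq_of_redN_eq hoff hr)
  exact ⟨P, hP, hDP⟩

include C HL Hχ in
/-- **(AX1) of `RedDatum27.RedDatum` at the nodal instance** (`Pl := SPt ⊕ Fin s`,
`Q̄'_i := inl (Q̄_i)`), with the degree of `D₀` as a hypothesis. -/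
theorem red_eff {D₀ : Divisor K F} (hdeg : Divisor.degree D₀ = 0)
    (hoff : OffNodes r D₀) (hD₀ : redN r D₀ ∈ N.PrinN) (D : Divisor K F) (hD : 0 ≤ D)
    (hDp : D - χ.E0 - D₀ ∈ Divisor.principal (K := K) (F := F)) :
    Finsupp.mapDomain r D
      = ∑ i, Finsupp.single (Sum.inl (χ.Qbar i) : SPt k Ft₁ Ft₂ ⊕ Fin s) (1 : ℤ) := by
  obtain ⟨h1, h2⟩ := offNodes_and_redN_eq C HL Hχ hdeg hoff hD₀ hD hDp
  exact mapDomain_eq_of_redN_eq h1 h2

include HL in
/-- a divisor off the nodes whose reduction is principal on the nodal curve has degree `0`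
(principal divisors of the two components have degree `0`). -/
theorem degree_eq_zero_of_mem_PrinN (HLt₁ : LHyp k Ft₁) (HLt₂ : LHyp k Ft₂) {D₀ : Divisor K F}
    (hoff : OffNodes r D₀) (hD₀ : redN r D₀ ∈ N.PrinN) : Divisor.degree D₀ = 0 := by
  classical
  obtain ⟨φ, hφ1, hφ2, ⟨hφd1, hφd2⟩, -⟩ := hD₀
  rw [degree_eq_mass HL, ← mass_mapDomain r D₀, mass_sum_split]
  have hinr : (Finsupp.mapDomain r D₀).comapDomain Sum.inr Sum.inr_injective.injOn = 0 := by
    ext j
    rw [Finsupp.comapDomain_apply, Fermat.Agent.ES.V19.SupTrick15.mapDomain_apply_eq_sum]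
    refine Finset.sum_eq_zero fun v hv => ?_
    rw [if_neg (hoff v hv j)]
  have hinl : (Finsupp.mapDomain r D₀).comapDomain Sum.inl Sum.inl_injective.injOn
      = redN r D₀ := rfl
  rw [hinr, hinl, map_zero, add_zero, mass_sum_split]
  have h1 : (redN r D₀).comapDomain Sum.inl Sum.inl_injective.injOn = divOf HLt₁ hφ1 := by
    ext Q
    rw [Finsupp.comapDomain_apply, hφd1 Q, divOf_apply]
  have h2 : (redN r D₀).comapDomain Sum.inr Sum.inr_injective.injOn = divOf HLt₂ hφ2 := by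
    ext Q
    rw [Finsupp.comapDomain_apply, hφd2 Q, divOf_apply]
  rw [h1, h2, ← degree_eq_mass HLt₁, ← degree_eq_mass HLt₂, degree_divOf, degree_divOf,
    add_zero]

include C HL Hχ in
/-- **(AX1)**, with `LHyp` on the two components instead of the degree hypothesis. -/
theorem red_eff' (HLt₁ : LHyp k Ft₁) (HLt₂ : LHyp k Ft₂) {D₀ : Divisor K F}
    (hoff : OffNodes r D₀) (hD₀ : redN r D₀ ∈ N.PrinN) (D : Divisor K F) (hD : 0 ≤ D)
    (hDp : D - χ.E0 - D₀ ∈ Divisor.principal (K := K) (F := F)) :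
    Finsupp.mapDomain r D
      = ∑ i, Finsupp.single (Sum.inl (χ.Qbar i) : SPt k Ft₁ Ft₂ ⊕ Fin s) (1 : ℤ) :=
  red_eff C HL Hχ (degree_eq_zero_of_mem_PrinN HL HLt₁ HLt₂ hoff hD₀) hoff hD₀ D hD hDp

include C HL Hχ in
/-- every effective divisor of the class `[D₀] + E₀`, `[D₀] ∈ J¹`, is `redDiv P` with one point in
each disc. -/
theorem exists_points_of_effective {D₀ D : Divisor K F} (hdeg : Divisor.degree D₀ = 0)
    (hoff : OffNodes r D₀) (hD₀ : redN r D₀ ∈ N.PrinN) (hD : 0 ≤ D)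
    (hDp : D - χ.E0 - D₀ ∈ Divisor.principal (K := K) (F := F)) :
    ∃ P : Fin g → Place K F, (∀ i, r (P i) = Sum.inl (χ.Qbar i)) ∧ D = redDiv P := by
  obtain ⟨h1, h2⟩ := offNodes_and_redN_eq C HL Hχ hdeg hoff hD₀ hD hDp
  exact exists_eq_redDiv Hχ.inj hD h1 h2

include C HL Hχ in
/-- **(Ξa), existence, divisor form**: for `[D₀] ∈ J¹` there are points `P i` in the discs of the
`Q̄_i` with `P_1 + … + P_g - E₀ ∼ D₀`. -/
theorem exists_points
    (hriem : ∀ D : Divisor K F, (g : ℤ) ≤ Divisor.degree D →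
      ∃ f : F, f ≠ 0 ∧ f ∈ riemannRochSpace D)
    {D₀ : Divisor K F} (hdeg : Divisor.degree D₀ = 0)
    (hoff : OffNodes r D₀) (hD₀ : redN r D₀ ∈ N.PrinN) :
    ∃ P : Fin g → Place K F, (∀ i, r (P i) = Sum.inl (χ.Qbar i)) ∧
      redDiv P - χ.E0 - D₀ ∈ Divisor.principal (K := K) (F := F) := by
  obtain ⟨D, hD, hDp⟩ :=
    Fermat.Agent.ES.V19.XiExist5.exists_effective HL hriem χ.Q hdeg
  obtain ⟨P, hP, rfl⟩ := exists_points_of_effective C HL Hχ hdeg hoff hD₀ hD hDp
  exact ⟨P, hP, hDp⟩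

end Main

end Fermat.Agent.ES.W33.XiExistN5
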