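/-
Programme W (S33), chapter (B5′), helper5: **the nodal instance of helper27's abstract reduction datum,
with (AX1) and (AX2) discharged**.

`J1DivN29.redDatum_of_nodal` takes (AX1) [`RedDatum.red_eff`] and (AX2) [`RedDatum.lD`] as hypotheses in
the literal form of the fields.  Here they are supplied from `XiExistN5.red_eff'` (twist argument; the
degree of a divisor of `j1divN N r` is `0` because principal divisors of the two components have
degree `0`: this is where the component hypotheses `LHyp k Ft₁`, `LHyp k Ft₂` enter) and from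
`XiHlDN5.hlD_aux` (sup trick).

* **`redDatum_of_nodal`** : `RedCtxN A π N G red r → RedHypN g → ChartHypN A N r χ → LHyp k Ft₁ →
  LHyp k Ft₂ → RedDatum A r (chartW χ) (j1divN N r)`  — the input `H` of `GeoJoinCore23`;
* `xiAN_of_nodal`, `xiAUniqueN_of_nodal`, `xiBN_of_nodal` : the exit literals of `XiIfaceN29`;
* **`xiData_of_nodal`** : with the `Γ`-equivariance `EqvHypN` and (Ξc) `XiC`, V19's `XiData` on
  `j1N N r` with all coordinates in the maximal ideal.
-/
import Mathlib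
import Fermat.Agent.ES.W33.XiIfaceN29
import Fermat.Agent.ES.W33.PrinN29
import Fermat.Agent.ES.W33.RedDatum27
import Fermat.Agent.ES.W33.RedDatumXi27
import Fermat.Agent.ES.W33.J1DivN29
import Fermat.Agent.ES.W33.XiHlDN5
import Fermat.Agent.ES.W33.XiExistN5

set_option autoImplicit false

noncomputable section

namespace Fermat.Agent.ES.W33.RedDatumN5

open scoped BigOperators
open AlgebraicCurve Fermat.Agent.RR.LSpace Fermat.Agent.ES.V19.OnePlaceRep9
  Fermat.Agent.ES.W33.XiIfaceN29 Fermat.Agent.ES.W33.PrinN29 Fermat.Agent.ES.W33.RedDatum27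
  Fermat.Agent.ES.W33.J1DivN29

variable {K F k Ft₁ Ft₂ : Type*} [Field K] [Field F] [Algebra K F] [Field k]
  [Field Ft₁] [Algebra k Ft₁] [Field Ft₂] [Algebra k Ft₂]
variable {s : ℕ} {A : ValuationSubring K} {π : ↥A →+* k} {N : Nodes k Ft₁ Ft₂ s}
  {G : Subring F} {red : ↥G →+* Ft₁ × Ft₂} {r : Place K F → SPt k Ft₁ Ft₂ ⊕ Fin s}
  {g : ℕ} {χ : ChartN K F k Ft₁ Ft₂ g}

/-- (AX1) in the literal form of the field `RedDatum.red_eff` for `j1divN N r`. -/
theorem ax1 (C : RedCtxN A π N G red r) (HL : LHyp K F) (hχ : ChartHypN A N r χ)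
    (HLt₁ : LHyp k Ft₁) (HLt₂ : LHyp k Ft₂) :
    ∀ D₀ ∈ j1divN N r, ∀ D : Divisor K F, 0 ≤ D →
      D - χ.E0 - D₀ ∈ Divisor.principal (K := K) (F := F) →
      Finsupp.mapDomain r D = sumPts (fun i => (Sum.inl (χ.Qbar i) : SPt k Ft₁ Ft₂ ⊕ Fin s)) :=
  fun _ hD₀ D hD hDp =>
    Fermat.Agent.ES.W33.XiExistN5.red_eff' C HL hχ HLt₁ HLt₂ hD₀.1 hD₀.2 D hD hDp

/-- (AX2) in the literal form of the field `RedDatum.lD`. -/
theorem ax2 (C : RedCtxN A π N G red r) (HL : LHyp K F) (hχ : ChartHypN A N r χ) :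
    ∀ P : Fin g → Place K F, (∀ i, r (P i) = Sum.inl (χ.Qbar i)) →
      ∀ f : F, f ∈ riemannRochSpace (redDiv P) → ∃ c : K, f = algebraMap K F c :=
  Fermat.Agent.ES.W33.XiHlDN5.hlD_aux C HL hχ

/-- **THE NODAL INSTANCE of the abstract reduction datum** (all fields proved). -/
theorem redDatum_of_nodal (C : RedCtxN A π N G red r) (H : RedHypN (K := K) (F := F) g)
    (hχ : ChartHypN A N r χ) (HLt₁ : LHyp k Ft₁) (HLt₂ : LHyp k Ft₂) :
    RedDatum A r (chartW χ) (j1divN N r) :=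
  Fermat.Agent.ES.W33.J1DivN29.redDatum_of_nodal H hχ (ax1 C H.lhyp hχ HLt₁ HLt₂)
    (ax2 C H.lhyp hχ)

section Exits

variable (C : RedCtxN A π N G red r) (H : RedHypN (K := K) (F := F) g)
  (hχ : ChartHypN A N r χ) (HLt₁ : LHyp k Ft₁) (HLt₂ : LHyp k Ft₂)

include C H hχ HLt₁ HLt₂

/-- (Ξa), existence: the literal `XiAN` of `XiIfaceN29`. -/
theorem xiAN_of_nodal : XiAN A N r χ := xiAN_of (redDatum_of_nodal C H hχ HLt₁ HLt₂)

/-- (Ξa), uniqueness: the literal `XiAUniqueN` of `XiIfaceN29`. -/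
theorem xiAUniqueN_of_nodal : XiAUniqueN r χ :=
  xiAUniqueN_of (redDatum_of_nodal C H hχ HLt₁ HLt₂)

/-- (Ξb): the literal `XiBN` of `XiIfaceN29`. -/
theorem xiBN_of_nodal {Γ : Type*} [Group Γ] [MulSemiringAction Γ K]
    [DistribMulAction Γ (Pic0 K F)] {ρ : Γ →* SemilinearAut K F} (hΓ : EqvHypN r χ Γ ρ) :
    XiBN N r χ Γ := xiBN_of (redDatum_of_nodal C H hχ HLt₁ HLt₂) hΓ

/-- **(B5′), THE EXIT**: V19's `XiData` (verbatim) on the kernel of reduction `j1N N r` of the nodal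
model, with all coordinates in the maximal ideal. -/
theorem xiData_of_nodal {Γ : Type*} [Group Γ] [MulSemiringAction Γ K]
    [DistribMulAction Γ (Pic0 K F)] {ρ : Γ →* SemilinearAut K F} (hΓ : EqvHypN r χ Γ ρ)
    {R : Type*} [CommRing R] [Algebra R K]
    {Fgl : ℕ → Fin g → MvPolynomial (Fin g ⊕ Fin g) R}
    {Inv : ℕ → Fin g → MvPolynomial (Fin g) R}
    (hC : Fermat.Agent.ES.V19.XiIface29.XiC A.toSubring (j1N N r) (xiN r χ) R Fgl Inv) :
    Fermat.Agent.ES.V19.XiIface29.XiData A.toSubring (j1N N r) (xiN r χ) R Γ ∧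
      ∀ y ∈ j1N N r, ∀ i, xiN r χ y i ∈ A.nonunits :=
  Fermat.Agent.ES.W33.J1DivN29.xiData_of_nodal (redDatum_of_nodal C H hχ HLt₁ HLt₂) hΓ hC

end Exits

end Fermat.Agent.ES.W33.RedDatumN5
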