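/-
Programme W (S33, SPINE v1.1), THE GEO JOIN, part 2b (helper23, ruling w11):
**`HasNodalChart p (M' * p) A` at the nodal instance, from ONE named hypothesis per chapter.**

Setting = `GeoNames23` (`I : NodalInst p M' A`, `hI : NodalInstHyp I` — B3′).  `g := genusFF ℚ̄ F`.

NAMED HYPOTHESES (each is the exit literal of a chapter, in the exact form its owner exports):
* `HR  : RedHypN g`                         — generic fibre (main: `LHypGen` + char-0 RR; `GeoGeneric23`);
* `hB2 : …`                                 — (B1′ + B2′) inside ANY two infinite sets of non-node places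
                                              there are `g` distinct points with `h⁰(O(Ē₀)) = 1`
                                              (helper9's `NodalChartPts9.exists_chart_points` + B1′'s
                                              `g ≤ g₁ + s - 1 + g₂`);
* `hGa : …`                                 — (Ga), rulings w2/w13: for ANY chart with `ChartHypN` (helper13's
                                              `GaAbs13.inJ1N_secondDiff` needs one) all mixed second
                                              differences along the inertia group lie in `J¹`;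
* `hG3 : …`                                 — (G3′), ruling j3: (Ξc) for THE chart `chartOfN I Q̄` at every
                                              good nonspecial family `Q̄` with an auxiliary good point,
                                              at some level above any given one.
DISCHARGED HERE: the choice of the points inside the good sets, `ChartHypN` (`GeoNames23.chartHypN_of`),
the level and `EqvHypN`/`EqvHypW` (`GeoNames23.exists_eqvHypN`, `J1DivN29.eqvHypW_of`), the abstract
reduction datum (helper5's `RedDatumN5.redDatum_of_nodal`: (AX1), (AX2) PROVED), `J1Spec`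
(`J1DivN29.j1Spec_j1N`), the transport of (Ga) and (Ξc) to the top layer, the abstract join
`GeoJoinCore23`.
-/
import Mathlib
import Fermat.Agent.ES.W33.GeoNames23
import Fermat.Agent.ES.W33.RedDatumN5
import Fermat.Agent.ES.W33.GeoJoinCore23

set_option autoImplicit false
set_option linter.unusedSectionVars false
set_option synthInstance.maxHeartbeats 400000

noncomputable section

open AlgebraicCurve ModularCurve

namespace Fermat.Agent.ES.W33.GeoJoin23

open Fermat.Agent.X0.FF Fermat.Agent.ES.V19.GammaF16 Fermat.Agent.ES.V19.TraceDescent26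
  Fermat.Agent.ES.V19.XiEqvInst29
  Fermat.Agent.ES.W33.XiIfaceN29 Fermat.Agent.ES.W33.PrinN29 Fermat.Agent.ES.W33.J1DivN29
  Fermat.Agent.ES.W33.GeoNames23 Fermat.Agent.ES.W33.WIface8
open Fermat.Agent.ES.V19.XiIface29 (XiC)

attribute [local instance 5000] HahnSeries.powerSeriesAlgebra SubalgebraClass.toAlgebra

local notation "Qb" => AlgebraicClosure ℚ
local notation "GQ" => (AlgebraicClosure ℚ ≃ₐ[ℚ] AlgebraicClosure ℚ)

variable {p M' : ℕ} {A : ValuationSubring Qb} {I : NodalInst p M' A}

/-- the good points of the first component. -/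
def goodOne (I : NodalInst p M' A) : Set (Place (kW A) (FtW M' A)) := {Q | I.Good (Sum.inl Q)}

/-- the good points of the second component. -/
def goodTwo (I : NodalInst p M' A) : Set (Place (kW A) (FtW M' A)) := {Q | I.Good (Sum.inr Q)}

theorem goodOne_infinite [Infinite (Place (kW A) (FtW M' A))] (hI : NodalInstHyp I) :
    (goodOne I).Infinite := by
  have hfin : ({Q : Place (kW A) (FtW M' A) | ¬ I.Good (Sum.inl Q)}).Finite :=
    hI.bad_finite.preimage Sum.inl_injective.injOn
  have h := hfin.infinite_compl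
  refine h.mono fun Q hQ => ?_
  simpa [goodOne] using hQ

theorem goodTwo_infinite [Infinite (Place (kW A) (FtW M' A))] (hI : NodalInstHyp I) :
    (goodTwo I).Infinite := by
  have hfin : ({Q : Place (kW A) (FtW M' A) | ¬ I.Good (Sum.inr Q)}).Finite :=
    hI.bad_finite.preimage Sum.inr_injective.injOn
  have h := hfin.infinite_compl
  refine h.mono fun Q hQ => ?_
  simpa [goodTwo] using hQ

theorem goodOne_ne_node (hI : NodalInstHyp I) :
    ∀ v ∈ goodOne I, ∀ j, v ≠ I.nodes.ν₁ j := fun _ hv =>
  hI.good_smooth (Q := Sum.inl _) hv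

theorem goodTwo_ne_node (hI : NodalInstHyp I) :
    ∀ v ∈ goodTwo I, ∀ j, v ≠ I.nodes.ν₂ j := fun _ hv =>
  hI.good_smooth (Q := Sum.inr _) hv

/-- **THE GEO JOIN at the instance.** -/
theorem hasNodalChart_of_inst [Infinite (Place (kW A) (FtW M' A))] (hI : NodalInstHyp I)
    (HLt : Fermat.Agent.RR.LSpace.LHyp (kW A) (FtW M' A))
    (HR : RedHypN (K := Qb) (F := FW p M') (genusFF Qb (FW p M')))
    (hB2 : ∀ T₁ : Set (Place (kW A) (FtW M' A)), T₁.Infinite → (∀ v ∈ T₁, ∀ j, v ≠ I.nodes.ν₁ j) →
      ∀ T₂ : Set (Place (kW A) (FtW M' A)), T₂.Infinite → (∀ v ∈ T₂, ∀ j, v ≠ I.nodes.ν₂ j) →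
      ∃ Qbar : Fin (genusFF Qb (FW p M')) → SPtW M' A, Function.Injective Qbar ∧
        (∀ i, (∃ Q ∈ T₁, Qbar i = Sum.inl Q) ∨ ∃ Q ∈ T₂, Qbar i = Sum.inr Q) ∧
        ∀ f ∈ I.nodes.LN (∑ i, Finsupp.single (Qbar i) (1 : ℤ)),
          ∃ c : kW A, f = (algebraMap (kW A) (FtW M' A) c, algebraMap (kW A) (FtW M' A) c))
    (hGa : ∀ χ : ChartN Qb (FW p M') (kW A) (FtW M' A) (FtW M' A) (genusFF Qb (FW p M')),
      ChartHypN A I.nodes I.r χ →
      ∀ τ ∈ A.inertiaSubgroupIn ℚ, ∀ τ' ∈ A.inertiaSubgroupIn ℚ, ∀ x : JZero (M' * p),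
      (∃ m : ℕ, (p ^ m) • x = 0) → InJ1N I.nodes I.r (τ' • (τ • x - x) - (τ • x - x)))
    (hG3 : ∀ Qbar : Fin (genusFF Qb (FW p M')) → SPtW M' A, Function.Injective Qbar →
      (∀ i, I.Good (Qbar i)) →
      (∀ f ∈ I.nodes.LN (∑ i, Finsupp.single (Qbar i) (1 : ℤ)),
        ∃ c : kW A, f = (algebraMap (kW A) (FtW M' A) c, algebraMap (kW A) (FtW M' A) c)) →
      ∀ Qs : SPtW M' A, I.Good Qs → (∀ i, Qs ≠ Qbar i) →
      ∀ f₀ : ℕ, 0 < f₀ → ∃ f : ℕ, 0 < f ∧ f₀ ∣ f ∧
        ∃ (Fgl : ℕ → Fin (genusFF Qb (FW p M')) →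
            MvPolynomial (Fin (genusFF Qb (FW p M')) ⊕ Fin (genusFF Qb (FW p M')))
              ↥(fixRing A (gammaF A p f)))
          (Inv : ℕ → Fin (genusFF Qb (FW p M')) →
            MvPolynomial (Fin (genusFF Qb (FW p M'))) ↥(fixRing A (gammaF A p f))),
          XiC A.toSubring (j1N I.nodes I.r) (xiN I.r (chartOfN I Qbar))
            ↥(fixRing A (gammaF A p f)) Fgl Inv) :
    HasNodalChart p (M' * p) A := by
  classical
  -- the points
  obtain ⟨Qbar, hinj, hmem, hconst⟩ := hB2 (goodOne I) (goodOne_infinite hI) (goodOne_ne_node hI)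
    (goodTwo I) (goodTwo_infinite hI) (goodTwo_ne_node hI)
  have hgood : ∀ i, I.Good (Qbar i) := fun i => by
    rcases hmem i with ⟨Q, hQ, h⟩ | ⟨Q, hQ, h⟩
    · rw [h]; exact hQ
    · rw [h]; exact hQ
  -- one more good point
  obtain ⟨Qs₁, hQs₁, hQs₁ne⟩ :
      ∃ Q ∈ goodOne I, Q ∉ (Finset.univ.image fun i => Qbar i).preimage Sum.inl
        Sum.inl_injective.injOn :=
    (goodOne_infinite hI).exists_notMem_finset _
  have hQs : I.Good (Sum.inl Qs₁) := hQs₁
  have hne : ∀ i, (Sum.inl Qs₁ : SPtW M' A) ≠ Qbar i := fun i h => by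
    apply hQs₁ne
    rw [Finset.mem_preimage, Finset.mem_image]
    exact ⟨i, Finset.mem_univ i, h.symm⟩
  -- the chart, its hypotheses, the level
  have Hχ := chartHypN_of hI hinj hgood hconst hQs hne
  obtain ⟨f₀, hf₀, Heq⟩ := exists_eqvHypN (Qbar := Qbar) hI hgood
  obtain ⟨f, hf, hff, Fgl, Inv, hC⟩ := hG3 Qbar hinj hgood hconst _ hQs hne f₀ hf₀
  have hG := eqvHypW_of (s := I.s) (Heq f hff)
  refine Fermat.Agent.ES.W33.GeoJoinCore23.hasNodalChart_of_redDatum
    (Fermat.Agent.ES.W33.RedDatumN5.redDatum_of_nodal hI.ctx HR Hχ HLt HLt) hf hG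
    (j1Spec_j1N I.nodes I.r) (fun τ hτ τ' hτ' x hx => ?_) ⟨Fgl, Inv, ?_⟩
  · exact (mem_j1N_iff I.nodes I.r).mpr (hGa _ Hχ τ hτ τ' hτ' x hx)
  · rw [xi_eq_xiN]
    exact hC

end Fermat.Agent.ES.W33.GeoJoin23
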