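/-
Programme W (S33), chapter (Ga), the ABSTRACT BRIDGE (helper13).

Vocabulary of helper29's `XiIfaceN29` (nodal special fibre: two function fields `Ft₁, Ft₂ / k` glued at
`s` nodes; `r : Place K F → SPt ⊕ Fin s` the total reduction of places; `RedCtxN`, `RedHypN`,
`ChartHypN`).

`inJ1N_of_nodeGens` : let `Z` be a divisor of degree `0` on the generic fibre such that
* (i)  the push-forward of `Z` to the smooth points of the special fibre vanishes, and
* (ii) at every node `j` there is `g_j ∈ G` with reduction `(1,1)` and `ord_P g_j = Z P` at every place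
       `P` through the node `j` ("`Z` is principal at the node, with a generator `≡ 1`").
Then the class of `Z` lies in the kernel of reduction: `InJ1N N r [Z]`.

Proof: Riemann gives `0 ≠ f ∈ L(Z + E₀)`; scale it to `h ∈ G` with `red h ≠ 0`;
`D_y := div h + Z + E₀ ≥ 0` has degree `g`.  By `(r1)` at the smooth points and (i), and by `glue`
applied to `h · g_j` at the nodes, `red h` is a GLUED section of `O(Ē₀)`, hence a nonzero constant
(`const_E0bar`); by `(r1)` again `r_* D_y = Ē₀` on the smooth points, and the degree count shows that no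
point of `D_y` passes through a node.  So `D := D_y - E₀` represents `[Z]`, is supported off the nodes,
and reduces to `0 = div (1,1)`.
-/
import Mathlib
import Fermat.Agent.ES.W33.XiIfaceN29
import Fermat.Agent.ES.V19.XiPic5
import Fermat.Agent.X0.FFResidue

set_option autoImplicit false

noncomputable section

namespace Fermat.Agent.ES.W33.GaBridge13

open scoped BigOperators
open AlgebraicCurve Fermat.Agent.RR.LSpace Fermat.Agent.ES.V19.OnePlaceRep9
  Fermat.Agent.ES.W33.XiIfaceN29 Fermat.Agent.X0.FF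

/-! ### Generalities on finitely supported integer functions -/

section Finsupp

variable {α β : Type*}

/-- the total mass of a finitely supported integer function. -/
def tot : (α →₀ ℤ) →+ ℤ := Finsupp.liftAddHom fun _ => AddMonoidHom.id ℤ

theorem tot_apply (D : α →₀ ℤ) : tot D = ∑ a ∈ D.support, D a := by
  rw [tot, Finsupp.liftAddHom_apply, Finsupp.sum]
  rfl

theorem tot_single (a : α) (n : ℤ) : tot (Finsupp.single a n) = n := by
  rw [tot, Finsupp.liftAddHom_apply_single]
  rfl

theorem tot_mapDomain (r : α → β) (D : α →₀ ℤ) : tot (Finsupp.mapDomain r D) = tot D := by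
  unfold tot
  rw [Finsupp.liftAddHom_apply, Finsupp.liftAddHom_apply]
  exact Finsupp.sum_mapDomain_index_addMonoidHom (f := r) (s := D)
    (h := fun _ => AddMonoidHom.id ℤ)

theorem mapDomain_apply_eq_sum [DecidableEq β] (r : α → β) (D : α →₀ ℤ) (w : β) :
    Finsupp.mapDomain r D w = ∑ P ∈ D.support.filter (fun P => r P = w), D P := by
  rw [Finsupp.mapDomain, Finsupp.sum_apply, Finsupp.sum, Finset.sum_filter]
  refine Finset.sum_congr rfl fun P _ => ?_
  rw [Finsupp.single_apply]

theorem mapDomain_apply_nonneg (r : α → β) {D : α →₀ ℤ} (hD : 0 ≤ D) (w : β) :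
    0 ≤ Finsupp.mapDomain r D w := by
  classical
  rw [mapDomain_apply_eq_sum]
  exact Finset.sum_nonneg fun P _ => hD P

/-- if nothing is mapped to `w`, the push-forward vanishes at `w`. -/
theorem mapDomain_apply_eq_zero_of_forall_ne (r : α → β) (D : α →₀ ℤ) (w : β)
    (h : ∀ P, r P ≠ w) : Finsupp.mapDomain r D w = 0 := by
  classical
  rw [mapDomain_apply_eq_sum]
  refine Finset.sum_eq_zero fun P hP => ?_
  exact absurd (Finset.mem_filter.mp hP).2 (h P)

/-- for an effective `D`: if the push-forward vanishes at `w`, then `D` vanishes on the fibre of `w`. -/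
theorem eq_zero_of_mapDomain_apply_eq_zero (r : α → β) {D : α →₀ ℤ} (hD : 0 ≤ D) (w : β)
    (h : Finsupp.mapDomain r D w = 0) (P : α) (hP : r P = w) : D P = 0 := by
  classical
  rw [mapDomain_apply_eq_sum] at h
  by_cases hmem : P ∈ D.support
  · have h0 := (Finset.sum_eq_zero_iff_of_nonneg fun Q _ => hD Q).mp h P
      (Finset.mem_filter.mpr ⟨hmem, hP⟩)
    exact h0
  · simpa [Finsupp.mem_support_iff] using hmem

/-- mass count: an effective function of total mass `n` whose restriction to the image of an injective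
`ι : γ → β` agrees with a function `E` of total mass `n` vanishes outside the image. -/
theorem eq_zero_of_tot_eq {γ : Type*} (ι : γ → β) (hι : Function.Injective ι) {M : β →₀ ℤ}
    (hM : 0 ≤ M) (E : γ →₀ ℤ) (hME : ∀ c, M (ι c) = E c) (htot : tot M = tot E) (w : β)
    (hw : ∀ c, ι c ≠ w) : M w = 0 := by
  classical
  by_contra hne
  have hpos : 0 < M w := lt_of_le_of_ne (hM w) (Ne.symm hne)
  have hsub : insert w (E.support.image ι) ⊆ M.support := by
    intro x hx
    rcases Finset.mem_insert.mp hx with rfl | hx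
    · exact Finsupp.mem_support_iff.mpr hne
    · obtain ⟨c, hc, rfl⟩ := Finset.mem_image.mp hx
      rw [Finsupp.mem_support_iff, hME]
      exact Finsupp.mem_support_iff.mp hc
  have hnot : w ∉ E.support.image ι := by
    intro hx
    obtain ⟨c, _, hc⟩ := Finset.mem_image.mp hx
    exact hw c hc
  have h1 : ∑ x ∈ insert w (E.support.image ι), M x ≤ ∑ x ∈ M.support, M x :=
    Finset.sum_le_sum_of_subset_of_nonneg hsub fun x _ _ => hM x
  rw [Finset.sum_insert hnot, Finset.sum_image (fun a _ b _ h => hι h)] at h1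
  have h2 : ∑ c ∈ E.support, M (ι c) = tot E := by
    rw [tot_apply]
    exact Finset.sum_congr rfl fun c _ => hME c
  rw [h2, ← tot_apply, htot] at h1
  omega

end Finsupp

variable {K F k Ft₁ Ft₂ : Type*} [Field K] [Field F] [Algebra K F] [Field k]
  [Field Ft₁] [Algebra k Ft₁] [Field Ft₂] [Algebra k Ft₂]

/-! ### Unfolding lemmas (by `rfl`, so that no equation lemma of the interface is realized here) -/

theorem E0_def {g : ℕ} (χ : ChartN K F k Ft₁ Ft₂ g) : χ.E0 = redDiv χ.Q := rfl

theorem E0bar_def {g : ℕ} (χ : ChartN K F k Ft₁ Ft₂ g) :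
    χ.E0bar = ∑ i, Finsupp.single (χ.Qbar i) (1 : ℤ) := rfl

theorem redN_apply' {s : ℕ} (r : Place K F → SPt k Ft₁ Ft₂ ⊕ Fin s) (D : Divisor K F)
    (Q : SPt k Ft₁ Ft₂) : redN r D Q = Finsupp.mapDomain r D (Sum.inl Q) := rfl

/-! ### The base divisor and its reduction -/

section Base

variable {s : ℕ} {A : ValuationSubring K} {N : Nodes k Ft₁ Ft₂ s}
  {r : Place K F → SPt k Ft₁ Ft₂ ⊕ Fin s} {g : ℕ} {χ : ChartN K F k Ft₁ Ft₂ g}

theorem tot_E0bar (χ : ChartN K F k Ft₁ Ft₂ g) : tot χ.E0bar = g := by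
  rw [E0bar_def, map_sum]
  simp [tot_single]

theorem mapDomain_E0 (hχ : ChartHypN A N r χ) :
    Finsupp.mapDomain r χ.E0 = ∑ i, Finsupp.single (Sum.inl (χ.Qbar i)) (1 : ℤ) := by
  rw [E0_def, redDiv, Finsupp.mapDomain_finsetSum]
  refine Finset.sum_congr rfl fun i _ => ?_
  rw [Finsupp.mapDomain_single, hχ.centre_red i]

theorem mapDomain_E0_inl (hχ : ChartHypN A N r χ) (Q : SPt k Ft₁ Ft₂) :
    Finsupp.mapDomain r χ.E0 (Sum.inl Q) = χ.E0bar Q := by
  classical
  rw [mapDomain_E0 hχ, E0bar_def, Finsupp.finsetSum_apply, Finsupp.finsetSum_apply]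
  refine Finset.sum_congr rfl fun i _ => ?_
  rw [Finsupp.single_apply, Finsupp.single_apply]
  simp only [Sum.inl.injEq]

theorem mapDomain_E0_inr (hχ : ChartHypN A N r χ) (j : Fin s) :
    Finsupp.mapDomain r χ.E0 (Sum.inr j) = 0 := by
  classical
  rw [mapDomain_E0 hχ, Finsupp.finsetSum_apply]
  refine Finset.sum_eq_zero fun i _ => ?_
  rw [Finsupp.single_apply, if_neg (by simp)]

/-- `E₀` does not meet the places through a node. -/
theorem E0_apply_of_inr (hχ : ChartHypN A N r χ) {P : Place K F} {j : Fin s}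
    (hP : r P = Sum.inr j) : χ.E0 P = 0 := by
  rw [E0_def]
  refine redDiv_apply_of_not_mem fun i hi => ?_
  have := hχ.centre_red i
  rw [hi, hP] at this
  exact Sum.inr_ne_inl this

/-- `Ē₀` vanishes at the points which are not smooth. -/
theorem E0bar_apply_of_not_smooth (hχ : ChartHypN A N r χ) {Q : SPt k Ft₁ Ft₂}
    (hQ : ¬ N.IsSmooth Q) : χ.E0bar Q = 0 := by
  classical
  rw [E0bar_def, Finsupp.finsetSum_apply]
  refine Finset.sum_eq_zero fun i _ => ?_
  rw [Finsupp.single_apply, if_neg]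
  intro h
  exact hQ (h ▸ hχ.smooth i)

end Base

/-! ### Values at a place -/

section Val

variable {Ft : Type*} [Field Ft] [Algebra k Ft]

/-- a function with a value at `Q` is regular at `Q`. -/
theorem ord_nonneg_of_valAt {Q : Place k Ft} {f : Ft} {c : k} (h : ValAt Q f c) : 0 ≤ Q.ord f := by
  rcases h with h | h
  · rw [h, ffp_ord_algebraMap]
  · by_cases hf : f = 0
    · rw [hf, Place.ord_zero]
    · have e : f = (f - algebraMap k Ft c) + algebraMap k Ft c := by ring
      rw [e]
      refine ffp_le_ord_add Q h.le ?_ (by rwa [← e])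
      rw [ffp_ord_algebraMap]

theorem valAt_one (Q : Place k Ft) : ValAt Q (1 : Ft) (1 : k) := Or.inl (map_one _).symm

end Val

/-! ### The bridge -/

section Bridge

variable {s : ℕ} {A : ValuationSubring K} {π : ↥A →+* k} {N : Nodes k Ft₁ Ft₂ s}
  {G : Subring F} {red : ↥G →+* Ft₁ × Ft₂} {r : Place K F → SPt k Ft₁ Ft₂ ⊕ Fin s}

/-- the zero divisor is principal on the nodal curve. -/
theorem zero_mem_prinN (N : Nodes k Ft₁ Ft₂ s) : (0 : SDiv k Ft₁ Ft₂) ∈ N.PrinN := by
  refine ⟨(1, 1), one_ne_zero, one_ne_zero, ⟨fun Q => ?_, fun Q => ?_⟩, fun j => ?_⟩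
  · simp
  · simp
  · exact ⟨1, one_ne_zero, valAt_one _, valAt_one _⟩

/-- a non-smooth point of the first component is a node place. -/
theorem exists_eq_ν₁_of_not_smooth {Q : Place k Ft₁} (h : ¬ N.IsSmooth (Sum.inl Q)) :
    ∃ j, Q = N.ν₁ j := by
  by_contra hcon
  push Not at hcon
  exact h hcon

theorem exists_eq_ν₂_of_not_smooth {Q : Place k Ft₂} (h : ¬ N.IsSmooth (Sum.inr Q)) :
    ∃ j, Q = N.ν₂ j := by
  by_contra hcon
  push Not at hcon
  exact h hcon

set_option maxHeartbeats 1600000 in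
/-- **The bridge.** -/
theorem inJ1N_of_nodeGens (C : RedCtxN A π N G red r) {g : ℕ} (H : RedHypN (K := K) (F := F) g)
    {χ : ChartN K F k Ft₁ Ft₂ g} (hχ : ChartHypN A N r χ)
    (Z : Divisor K F) (hZ : Z ∈ Divisor.degZero (K := K) (F := F))
    (hsm : ∀ Q : SPt k Ft₁ Ft₂, Finsupp.mapDomain r Z (Sum.inl Q) = 0)
    (hnode : ∀ j : Fin s, ∃ gj : ↥G, red gj = 1 ∧
      ∀ P : Place K F, r P = Sum.inr j → P.ord (gj : F) = Z P) :
    InJ1N N r (Pic0.mk ⟨Z, hZ⟩) := by
  classical
  have HL := H.lhyp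
  -- Riemann
  have hdeg : (g : ℤ) ≤ Divisor.degree (Z + χ.E0) := by
    rw [map_add, Divisor.mem_degZero.mp hZ, E0_def, degree_redDiv HL, zero_add]
  obtain ⟨f, hf0, hf⟩ := H.riemann _ hdeg
  obtain ⟨c, hc0, hmem, hred⟩ := C.scale f hf0
  have hcF : (algebraMap K F c)⁻¹ ≠ 0 := inv_ne_zero ((map_ne_zero _).mpr hc0)
  set h : F := (algebraMap K F c)⁻¹ * f with hh
  have hh0 : h ≠ 0 := mul_ne_zero hcF hf0
  have hhL : h ∈ riemannRochSpace (Z + χ.E0) := by
    have := (riemannRochSpace (Z + χ.E0)).smul_mem c⁻¹ hf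
    rwa [Algebra.smul_def, map_inv₀] at this
  have hord : ∀ P : Place K F, -(Z P + χ.E0 P) ≤ P.ord h := fun P => by
    have := (mem_L_iff hh0).mp hhL P
    rwa [Finsupp.add_apply] at this
  set hG : ↥G := ⟨h, hmem⟩ with hhG
  -- the effective divisor of the class
  set Dy : Divisor K F := divOf HL hh0 + (Z + χ.E0) with hDy
  have hDy0 : 0 ≤ Dy := by
    intro P
    have := hord P
    rw [hDy, Finsupp.add_apply, Finsupp.add_apply, divOf_apply]
    show (0 : ℤ) ≤ _
    omega
  have hDydeg : Divisor.degree Dy = g := by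
    rw [hDy, map_add, degree_divOf, map_add, Divisor.mem_degZero.mp hZ, E0_def,
      degree_redDiv HL]
    ring
  have hdiv : divOf HL hh0 = Dy - Z - χ.E0 := by rw [hDy]; abel
  have hMdiv : ∀ w, Finsupp.mapDomain r (divOf HL hh0) w =
      Finsupp.mapDomain r Dy w - Finsupp.mapDomain r Z w - Finsupp.mapDomain r χ.E0 w := by
    intro w
    rw [hdiv, Finsupp.mapDomain_sub, Finsupp.mapDomain_sub, Finsupp.sub_apply, Finsupp.sub_apply]
  have hMnn : ∀ w, 0 ≤ Finsupp.mapDomain r Dy w := mapDomain_apply_nonneg r hDy0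
  -- the reduction of `h` is glued at every node
  have hglue : ∀ j, N.GluedAt (red hG) j := by
    intro j
    obtain ⟨gj, hgj1, hgj⟩ := hnode j
    have hgj0 : (gj : F) ≠ 0 := by
      intro h0
      have : gj = 0 := Subtype.ext h0
      rw [this, map_zero] at hgj1
      exact zero_ne_one hgj1
    have hreg : ∀ P : Place K F, r P = Sum.inr j → 0 ≤ P.ord ((hG * gj : ↥G) : F) := by
      intro P hP
      have h1 := hord P
      rw [E0_apply_of_inr hχ hP] at h1
      show 0 ≤ P.ord (h * (gj : F))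
      rw [P.ord_mul hh0 hgj0, hgj P hP]
      omega
    have := C.glue (hG * gj) j hreg
    rwa [map_mul, hgj1, mul_one] at this
  -- `red h` is a glued section of `O(Ē₀)`
  have hLN : red hG ∈ N.LN χ.E0bar := by
    refine ⟨?_, ?_, hglue⟩
    · by_cases h1 : (red hG).1 = 0
      · rw [h1]; exact Submodule.zero_mem _
      rw [mem_L_iff h1]
      intro Q
      have e : SDiv.comp₁ χ.E0bar Q = χ.E0bar (Sum.inl Q) := Finsupp.comapDomain_apply _ _ _ _
      rw [e]
      by_cases hQ : N.IsSmooth (Sum.inl Q)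
      · have := C.r1₁ hG h1 (divOf HL hh0) (fun P => divOf_apply HL hh0 P) Q hQ
        rw [← this, hMdiv, hsm, mapDomain_E0_inl hχ]
        have := hMnn (Sum.inl (Sum.inl Q))
        omega
      · rw [E0bar_apply_of_not_smooth hχ hQ, neg_zero]
        obtain ⟨j, rfl⟩ := exists_eq_ν₁_of_not_smooth hQ
        obtain ⟨c', hc', -⟩ := hglue j
        exact ord_nonneg_of_valAt hc'
    · by_cases h2 : (red hG).2 = 0
      · rw [h2]; exact Submodule.zero_mem _
      rw [mem_L_iff h2]
      intro Q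
      have e : SDiv.comp₂ χ.E0bar Q = χ.E0bar (Sum.inr Q) := Finsupp.comapDomain_apply _ _ _ _
      rw [e]
      by_cases hQ : N.IsSmooth (Sum.inr Q)
      · have := C.r1₂ hG h2 (divOf HL hh0) (fun P => divOf_apply HL hh0 P) Q hQ
        rw [← this, hMdiv, hsm, mapDomain_E0_inl hχ]
        have := hMnn (Sum.inl (Sum.inr Q))
        omega
      · rw [E0bar_apply_of_not_smooth hχ hQ, neg_zero]
        obtain ⟨j, rfl⟩ := exists_eq_ν₂_of_not_smooth hQ
        obtain ⟨c', -, hc'⟩ := hglue j
        exact ord_nonneg_of_valAt hc'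
  -- hence a nonzero constant
  obtain ⟨c₀, hc₀⟩ := hχ.const_E0bar _ hLN
  have hc₀0 : c₀ ≠ 0 := by
    rintro rfl
    apply hred
    rw [hc₀, map_zero, map_zero]
    rfl
  have h1 : (red hG).1 ≠ 0 := by rw [hc₀]; exact (map_ne_zero _).mpr hc₀0
  have h2 : (red hG).2 ≠ 0 := by rw [hc₀]; exact (map_ne_zero _).mpr hc₀0
  -- `r_* D_y = Ē₀` on the points of the two components
  have hMy : ∀ Q : SPt k Ft₁ Ft₂, Finsupp.mapDomain r Dy (Sum.inl Q) = χ.E0bar Q := by
    intro Q
    by_cases hQ : N.IsSmooth Q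
    · have key : Finsupp.mapDomain r (divOf HL hh0) (Sum.inl Q) = 0 := by
        rcases Q with Q | Q
        · rw [C.r1₁ hG h1 (divOf HL hh0) (fun P => divOf_apply HL hh0 P) Q hQ, hc₀]
          exact ffp_ord_algebraMap Q c₀
        · rw [C.r1₂ hG h2 (divOf HL hh0) (fun P => divOf_apply HL hh0 P) Q hQ, hc₀]
          exact ffp_ord_algebraMap Q c₀
      rw [hMdiv, hsm, mapDomain_E0_inl hχ] at key
      omega
    · rw [E0bar_apply_of_not_smooth hχ hQ]
      exact mapDomain_apply_eq_zero_of_forall_ne r Dy _ fun P hP => hQ (C.smooth P Q hP)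
  -- no point of `D_y` passes through a node
  have htot : tot (Finsupp.mapDomain r Dy) = tot χ.E0bar := by
    rw [tot_mapDomain, tot_E0bar, tot_apply, ← degree_eq_sum HL, hDydeg]
  have hMnode : ∀ j : Fin s, Finsupp.mapDomain r Dy (Sum.inr j) = 0 := fun j =>
    eq_zero_of_tot_eq (Sum.inl : SPt k Ft₁ Ft₂ → SPt k Ft₁ Ft₂ ⊕ Fin s) Sum.inl_injective
      (fun w => hMnn w) χ.E0bar hMy htot (Sum.inr j) fun c => Sum.inl_ne_inr
  have hDynode : ∀ (P : Place K F) (j : Fin s), r P = Sum.inr j → Dy P = 0 := fun P j hP =>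
    eq_zero_of_mapDomain_apply_eq_zero r hDy0 _ (hMnode j) P hP
  -- the representative
  have hD0 : Dy - χ.E0 ∈ Divisor.degZero (K := K) (F := F) := by
    rw [Divisor.mem_degZero, map_sub, hDydeg, E0_def, degree_redDiv HL, sub_self]
  refine ⟨Dy - χ.E0, ⟨hD0, ?_⟩, ?_, ?_⟩
  · rw [Fermat.Agent.ES.V19.XiPic5.mk_eq_mk_iff]
    show Dy - χ.E0 - Z ∈ _
    have e : Dy - χ.E0 - Z = divOf HL hh0 := by rw [hDy]; abel
    rw [e]
    exact ⟨h, hh0, fun v => divOf_apply HL hh0 v⟩
  · intro P hP j hj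
    apply Finsupp.mem_support_iff.mp hP
    rw [Finsupp.sub_apply, hDynode P j hj, E0_apply_of_inr hχ hj, sub_zero]
  · have e : redN r (Dy - χ.E0) = 0 := by
      ext Q
      rw [redN_apply', Finsupp.mapDomain_sub, Finsupp.sub_apply, hMy,
        mapDomain_E0_inl hχ, sub_self]
      rfl
    rw [e]
    exact zero_mem_prinN N

end Bridge

end Fermat.Agent.ES.W33.GaBridge13
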