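/-
Programme W (S33), chapter (Ga), THE EXIT OF (Ga) IN ABSTRACT FORM (helper13).

Vocabulary of helper29's `XiIfaceN29`.  `τ τ' : SemilinearAut K F` two semilinear automorphisms of the
generic fibre (in the application: two elements of the inertia group at `p`) such that

* (I-a) `r (τ • P) = r P` and `r (τ' • P) = r P` for every place `P` (inertia is invisible on the special
  fibre: smooth points AND nodes);
* (I-b) the mixed second difference `sd τ τ' ξ = (τ'τξ · ξ) / (τ'ξ · τξ)` of every `ξ ≠ 0` lies in `G` and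
  reduces to `(1,1)` (Programme N's (U1));
* (I-c) every place `P` through a node `j` is either fixed by `τ` or has a Lemma-A element `ξ`:
  `ord_P ξ = 1` and `ord_{P'} ξ = 0` for every other place `P'` through the node `j`.

`inJ1N_secondDiff` : then for EVERY class `x`, the mixed second difference
`τ' • (τ • x - x) - (τ • x - x)` lies in the kernel of reduction `InJ1N N r`.

Proof: `x = [D]`, `Z := (τ'-1)(τ-1)D`.  By (I-a) `r_* Z = 0`.  At the node `j` put
`Ξ_j := ∏ ξ_P ^ (D P)` over the places `P` of `D` through `j` not fixed by `τ`; then `g_j := sd τ τ' Ξ_j`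
reduces to `(1,1)` by (I-b) and `ord_w g_j = Z w` at every place `w` through `j` (pure place calculus:
Programme N's `SecondDiff6` in divisor form).  Conclude by `GaBridge13.inJ1N_of_nodeGens`.
-/
import Mathlib
import Fermat.Agent.ES.W33.GaBridge13
import Fermat.Prelude.Def_AlgebraicCurve_BaseChangeGalois

set_option autoImplicit false

noncomputable section

namespace Fermat.Agent.ES.W33.GaAbs13

open scoped BigOperators
open AlgebraicCurve Fermat.Agent.RR.LSpace Fermat.Agent.ES.W33.XiIfaceN29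
  Fermat.Agent.ES.W33.GaBridge13

variable {K F : Type*} [Field K] [Field F] [Algebra K F]

/-! ### The mixed second difference of a function -/

/-- the mixed second difference `(τ'τξ · ξ) / (τ'ξ · τξ)`. -/
def sd (τ τ' : SemilinearAut K F) (ξ : F) : F :=
  (τ' • τ • ξ) * ξ / ((τ' • ξ) * (τ • ξ))

theorem smul_ne_zero' (τ : SemilinearAut K F) {ξ : F} (hξ : ξ ≠ 0) : τ • ξ ≠ 0 := by
  rw [SemilinearAut.smul_def]
  exact (map_ne_zero_iff _ (SemilinearAut.toRingAut τ).injective).mpr hξ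

theorem sd_ne_zero (τ τ' : SemilinearAut K F) {ξ : F} (hξ : ξ ≠ 0) : sd τ τ' ξ ≠ 0 := by
  unfold sd
  exact div_ne_zero (mul_ne_zero (smul_ne_zero' τ' (smul_ne_zero' τ hξ)) hξ)
    (mul_ne_zero (smul_ne_zero' τ' hξ) (smul_ne_zero' τ hξ))

/-- `ord_w (g • f) = ord_{g⁻¹ w} f`. -/
theorem ord_smul_eq (g : SemilinearAut K F) (w : Place K F) (f : F) :
    w.ord (g • f) = (g⁻¹ • w).ord f := by
  have h := SemilinearAut.ord_smul g (g⁻¹ • w) f
  rwa [smul_inv_smul] at h

/-- the order of a second difference. -/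
theorem ord_sd (τ τ' : SemilinearAut K F) {ξ : F} (hξ : ξ ≠ 0) (w : Place K F) :
    w.ord (sd τ τ' ξ) =
      (τ⁻¹ • τ'⁻¹ • w).ord ξ + w.ord ξ - (τ'⁻¹ • w).ord ξ - (τ⁻¹ • w).ord ξ := by
  have h1 := smul_ne_zero' τ hξ
  have h2 := smul_ne_zero' τ' hξ
  have h3 := smul_ne_zero' τ' h1
  unfold sd
  rw [div_eq_mul_inv, w.ord_mul (mul_ne_zero h3 hξ) (inv_ne_zero (mul_ne_zero h2 h1)),
    w.ord_mul h3 hξ, Place.ord_inv, w.ord_mul h2 h1, ord_smul_eq τ' w (τ • ξ),
    ord_smul_eq τ (τ'⁻¹ • w) ξ, ord_smul_eq τ' w ξ, ord_smul_eq τ w ξ]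
  ring

/-! ### Orders of a product of powers -/

theorem ord_prod_zpow (w : Place K F) {ι : Type*} (S : Finset ι) (ξ : ι → F) (n : ι → ℤ)
    (hξ : ∀ i ∈ S, ξ i ≠ 0) :
    (∏ i ∈ S, ξ i ^ n i) ≠ 0 ∧ w.ord (∏ i ∈ S, ξ i ^ n i) = ∑ i ∈ S, n i * w.ord (ξ i) := by
  classical
  induction S using Finset.induction_on with
  | empty => simp
  | insert a S ha ih =>
    have hξ' : ∀ i ∈ S, ξ i ≠ 0 := fun i hi => hξ i (Finset.mem_insert_of_mem hi)
    obtain ⟨h0, hord⟩ := ih hξ'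
    have ha0 : ξ a ^ n a ≠ 0 := zpow_ne_zero _ (hξ a (Finset.mem_insert_self a S))
    rw [Finset.prod_insert ha, Finset.sum_insert ha]
    refine ⟨mul_ne_zero ha0 h0, ?_⟩
    rw [w.ord_mul ha0 h0, hord, Place.ord_zpow]

/-! ### The second difference of a divisor -/

/-- `(τ'-1)(τ-1)D`. -/
def sdDiv (τ τ' : SemilinearAut K F) (D : Divisor K F) : Divisor K F :=
  τ' • (τ • D - D) - (τ • D - D)

theorem sdDiv_apply (τ τ' : SemilinearAut K F) (D : Divisor K F) (w : Place K F) :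
    sdDiv τ τ' D w = D (τ⁻¹ • τ'⁻¹ • w) - D (τ'⁻¹ • w) - (D (τ⁻¹ • w) - D w) := by
  unfold sdDiv
  rw [Finsupp.sub_apply, SemilinearAut.divisor_smul_apply, Finsupp.sub_apply, Finsupp.sub_apply,
    SemilinearAut.divisor_smul_apply, SemilinearAut.divisor_smul_apply]

theorem sdDiv_mem_degZero (τ τ' : SemilinearAut K F) {D : Divisor K F}
    (hD : D ∈ Divisor.degZero (K := K) (F := F)) :
    sdDiv τ τ' D ∈ Divisor.degZero (K := K) (F := F) := by
  unfold sdDiv
  have h1 : τ • D - D ∈ Divisor.degZero (K := K) (F := F) :=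
    AddSubgroup.sub_mem _ (SemilinearAut.smul_mem_degZero τ hD) hD
  exact AddSubgroup.sub_mem _ (SemilinearAut.smul_mem_degZero τ' h1) h1

/-- the class of the second difference of a divisor is the second difference of its class. -/
theorem mk_sdDiv (τ τ' : SemilinearAut K F) (D : Divisor.degZero (K := K) (F := F)) :
    τ' • (τ • Pic0.mk D - Pic0.mk D) - (τ • Pic0.mk D - Pic0.mk D) =
      Pic0.mk ⟨sdDiv τ τ' (D : Divisor K F), sdDiv_mem_degZero τ τ' D.2⟩ := rfl

variable {k Ft₁ Ft₂ : Type*} [Field k] [Field Ft₁] [Algebra k Ft₁] [Field Ft₂] [Algebra k Ft₂]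

/-- if `r ∘ τ = r` then `r_* (τ • D) = r_* D`. -/
theorem mapDomain_smul_of_invariant {β : Type*} (r : Place K F → β) (τ : SemilinearAut K F)
    (hr : ∀ P, r (τ • P) = r P) (D : Divisor K F) :
    Finsupp.mapDomain r (τ • D) = Finsupp.mapDomain r D := by
  rw [SemilinearAut.divisor_smul_def, ← Finsupp.mapDomain_comp]
  congr 1
  funext P
  exact hr P

theorem mapDomain_sdDiv {β : Type*} (r : Place K F → β) (τ τ' : SemilinearAut K F)
    (hr' : ∀ P, r (τ' • P) = r P) (D : Divisor K F) :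
    Finsupp.mapDomain r (sdDiv τ τ' D) = 0 := by
  unfold sdDiv
  rw [Finsupp.mapDomain_sub, mapDomain_smul_of_invariant r τ' hr', sub_self]

theorem r_inv_smul {β : Type*} (r : Place K F → β) (τ : SemilinearAut K F)
    (hr : ∀ P, r (τ • P) = r P) (P : Place K F) : r (τ⁻¹ • P) = r P := by
  have := hr (τ⁻¹ • P)
  rw [smul_inv_smul] at this
  exact this.symm

/-! ### The exit -/

section Exit

variable {s : ℕ} {A : ValuationSubring K} {π : ↥A →+* k} {N : Nodes k Ft₁ Ft₂ s}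
  {G : Subring F} {red : ↥G →+* Ft₁ × Ft₂} {r : Place K F → SPt k Ft₁ Ft₂ ⊕ Fin s}

set_option maxHeartbeats 1600000 in
/-- **(Ga), abstract form.** -/
theorem inJ1N_secondDiff (C : RedCtxN A π N G red r) {g : ℕ} (H : RedHypN (K := K) (F := F) g)
    {χ : ChartN K F k Ft₁ Ft₂ g} (hχ : ChartHypN A N r χ) (τ τ' : SemilinearAut K F)
    (hr : ∀ P : Place K F, r (τ • P) = r P) (hr' : ∀ P : Place K F, r (τ' • P) = r P)
    (hsd : ∀ ξ : F, ξ ≠ 0 → ∃ h : sd τ τ' ξ ∈ G, red ⟨_, h⟩ = 1)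
    (hnode : ∀ (j : Fin s) (P : Place K F), r P = Sum.inr j →
      τ • P = P ∨ ∃ ξ : F, P.ord ξ = 1 ∧
        ∀ P' : Place K F, P' ≠ P → r P' = Sum.inr j → P'.ord ξ = 0)
    (x : Pic0 K F) :
    InJ1N N r (τ' • (τ • x - x) - (τ • x - x)) := by
  classical
  obtain ⟨D, rfl⟩ := Pic0.mk_surjective x
  rw [mk_sdDiv]
  refine inJ1N_of_nodeGens C H hχ _ _ (fun Q => ?_) (fun j => ?_)
  · rw [mapDomain_sdDiv r τ τ' hr']
    rfl
  -- the node `j`
  set D' : Divisor K F := (D : Divisor K F) with hD'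
  -- Lemma-A elements
  have hex : ∀ P : Place K F, ∃ ξ : F, r P = Sum.inr j → τ • P ≠ P →
      P.ord ξ = 1 ∧ ∀ P' : Place K F, P' ≠ P → r P' = Sum.inr j → P'.ord ξ = 0 := by
    intro P
    by_cases hP : r P = Sum.inr j ∧ τ • P ≠ P
    · rcases hnode j P hP.1 with h | ⟨ξ, hξ⟩
      · exact absurd h hP.2
      · exact ⟨ξ, fun _ _ => hξ⟩
    · exact ⟨1, fun h1 h2 => absurd ⟨h1, h2⟩ hP⟩
  choose ξ hξ using hex
  set S : Finset (Place K F) := D'.support.filter (fun P => r P = Sum.inr j ∧ τ • P ≠ P) with hS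
  have hSmem : ∀ P, P ∈ S ↔ D' P ≠ 0 ∧ r P = Sum.inr j ∧ τ • P ≠ P := fun P => by
    rw [hS, Finset.mem_filter, Finsupp.mem_support_iff]
  have hξ0 : ∀ P ∈ S, ξ P ≠ 0 := by
    intro P hP h0
    have h1 := (hξ P ((hSmem P).mp hP).2.1 ((hSmem P).mp hP).2.2).1
    rw [h0, Place.ord_zero] at h1
    exact zero_ne_one h1
  set Ξ : F := ∏ P ∈ S, ξ P ^ D' P with hΞ
  -- the order of `Ξ` at a place through the node
  have hordΞ : ∀ u : Place K F, r u = Sum.inr j →
      u.ord Ξ = if τ • u = u then 0 else D' u := by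
    intro u hu
    rw [hΞ, (ord_prod_zpow u S ξ (fun P => D' P) hξ0).2]
    have hterm : ∀ P ∈ S, D' P * u.ord (ξ P) = if P = u then D' u else 0 := by
      intro P hP
      obtain ⟨-, hPj, hPτ⟩ := (hSmem P).mp hP
      by_cases hPu : P = u
      · rw [if_pos hPu, ← hPu, (hξ P hPj hPτ).1, mul_one]
      · rw [if_neg hPu, (hξ P hPj hPτ).2 u (fun h => hPu h.symm) hu, mul_zero]
    rw [Finset.sum_congr rfl hterm, Finset.sum_ite_eq' S u]
    by_cases hfix : τ • u = u
    · rw [if_pos hfix, if_neg]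
      intro huS
      exact ((hSmem u).mp huS).2.2 hfix
    · rw [if_neg hfix]
      by_cases huS : u ∈ S
      · rw [if_pos huS]
      · rw [if_neg huS]
        by_contra hne
        exact huS ((hSmem u).mpr ⟨fun h => hne h.symm, hu, hfix⟩)
  have hΞ0 : Ξ ≠ 0 := (ord_prod_zpow (Classical.choice H.lhyp.nonempty) S ξ (fun P => D' P) hξ0).1
  obtain ⟨hG, hred⟩ := hsd Ξ hΞ0
  refine ⟨⟨_, hG⟩, hred, fun w hw => ?_⟩
  show w.ord (sd τ τ' Ξ) = sdDiv τ τ' D' w
  -- the four places are through the node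
  have hb : r (τ'⁻¹ • w) = Sum.inr j := by rw [r_inv_smul r τ' hr', hw]
  have ha : r (τ⁻¹ • τ'⁻¹ • w) = Sum.inr j := by rw [r_inv_smul r τ hr, hb]
  have hc : r (τ⁻¹ • w) = Sum.inr j := by rw [r_inv_smul r τ hr, hw]
  rw [ord_sd τ τ' hΞ0, sdDiv_apply, hordΞ _ ha, hordΞ _ hw, hordΞ _ hb, hordΞ _ hc]
  -- `Φ(u) = D(τ⁻¹u) - D(u)` computed with or without the fixed points
  have key : ∀ u : Place K F,
      ((if τ • (τ⁻¹ • u) = τ⁻¹ • u then 0 else D' (τ⁻¹ • u)) - if τ • u = u then 0 else D' u) =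
        D' (τ⁻¹ • u) - D' u := by
    intro u
    by_cases hfix : τ • u = u
    · have h2 : τ⁻¹ • u = u := by
        rw [inv_smul_eq_iff]; exact hfix.symm
      rw [if_pos hfix, h2, if_pos hfix, sub_self, sub_self]
    · have h2 : τ • (τ⁻¹ • u) ≠ τ⁻¹ • u := by
        rw [smul_inv_smul]
        intro h
        exact hfix (eq_inv_smul_iff.mp h)
      rw [if_neg hfix, if_neg h2]
  have k1 := key (τ'⁻¹ • w)
  have k2 := key w
  omega

end Exit

end Fermat.Agent.ES.W33.GaAbs13
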