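/-
Programme W (S33, SPINE v1.1), THE GEO JOIN, part 2c (helper23, ruling w11): **the (Ga) hypothesis of
`GeoJoin23.hasNodalChart_of_inst` from helper13's abstract exit `GaAbs13.inJ1N_secondDiff` (ruling w13)
and the three instance literals**

* (I-a) `NodalInstHyp.r_smul_inertia` (B3′ / helper1): inertia is invisible on the special fibre;
* (I-b) `IbHyp I` (helper25, helper15): the mixed second difference `sd τ τ' ξ` of every function is
  integral for both Gauss valuations and reduces to `(1, 1)`;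
* (I-c) `IcHyp I` (helper6, helper10, helper11): a place in a node disc is fixed by `τ`, or is the only
  zero in that disc of a function without poles there (node lemma A).

`τ` acts on `F`, on places and on `Pic⁰` through `arithmeticGalois (modularFunctionFieldFull (M' * p)) τ`
(this IS the action `τ • x` on `JZero (M' * p)`: `ModularCurve.galois_smul_pic0_def`, `rfl`).
-/
import Mathlib
import Fermat.Agent.ES.W33.GeoNames23
import Fermat.Agent.ES.W33.GaAbs13

set_option autoImplicit false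
set_option linter.unusedSectionVars false
set_option synthInstance.maxHeartbeats 400000

noncomputable section

open AlgebraicCurve ModularCurve

namespace Fermat.Agent.ES.W33.GeoJoinGa23

open Fermat.Agent.X0.FF Fermat.Agent.ES.W33.XiIfaceN29 Fermat.Agent.ES.W33.GeoNames23
  Fermat.Agent.ES.W33.GaAbs13

attribute [local instance 5000] HahnSeries.powerSeriesAlgebra SubalgebraClass.toAlgebra

local notation "Qb" => AlgebraicClosure ℚ
local notation "GQ" => (AlgebraicClosure ℚ ≃ₐ[ℚ] AlgebraicClosure ℚ)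

variable {p M' : ℕ} {A : ValuationSubring Qb}

/-- the semilinear automorphism of `F` attached to `τ ∈ Gal(ℚ̄/ℚ)`. -/
abbrev aG (p M' : ℕ) (τ : GQ) : SemilinearAut Qb (FW p M') :=
  arithmeticGalois (modularFunctionFieldFull (M' * p)) τ

/-- **(I-b)** at the instance. -/
def IbHyp (I : NodalInst p M' A) : Prop :=
  ∀ τ ∈ A.inertiaSubgroupIn ℚ, ∀ τ' ∈ A.inertiaSubgroupIn ℚ, ∀ ξ : FW p M', ξ ≠ 0 →
    ∃ h : sd (aG p M' τ) (aG p M' τ') ξ ∈ I.G, I.red ⟨_, h⟩ = 1

/-- **(I-c)** at the instance. -/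
def IcHyp (I : NodalInst p M' A) : Prop :=
  ∀ τ ∈ A.inertiaSubgroupIn ℚ, ∀ (j : Fin I.s) (P : Place Qb (FW p M')), I.r P = Sum.inr j →
    aG p M' τ • P = P ∨ ∃ ξ : FW p M', P.ord ξ = 1 ∧
      ∀ P' : Place Qb (FW p M'), P' ≠ P → I.r P' = Sum.inr j → P'.ord ξ = 0

variable {I : NodalInst p M' A}

/-- **(Ga) at the instance**, in the form consumed by `GeoJoin23.hasNodalChart_of_inst`. -/
theorem gaExit_of_inst (hI : NodalInstHyp I) {g : ℕ}
    (HR : RedHypN (K := Qb) (F := FW p M') g) (hIb : IbHyp I) (hIc : IcHyp I)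
    (χ : ChartN Qb (FW p M') (kW A) (FtW M' A) (FtW M' A) g)
    (Hχ : ChartHypN A I.nodes I.r χ) :
    ∀ τ ∈ A.inertiaSubgroupIn ℚ, ∀ τ' ∈ A.inertiaSubgroupIn ℚ, ∀ x : JZero (M' * p),
      (∃ m : ℕ, (p ^ m) • x = 0) → InJ1N I.nodes I.r (τ' • (τ • x - x) - (τ • x - x)) :=
  fun τ hτ τ' hτ' x _ =>
    inJ1N_secondDiff hI.ctx HR Hχ (aG p M' τ) (aG p M' τ') (hI.r_smul_inertia τ hτ)
      (hI.r_smul_inertia τ' hτ') (hIb τ hτ τ' hτ') (hIc τ hτ) x

end Fermat.Agent.ES.W33.GeoJoinGa23
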