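/-
Programme W (S33, SPINE v1.1), THE GEO JOIN, part 3 (helper23, ruling w11): **`GeoW23.hasNodalChart` —
helper8's frozen geometric exit `WIface8.HasNodalChart p N' A` at every level `N'` with `p ∥ N'`,
`4 ∣ N'` (`p` odd; `N' = auxLevel p N` in S33), from ONE input `GeoInput`: at every instance
`(M', p, A)` (`p` odd, `p ∤ M'`, `4 ∣ M'`; ruling w46) a nodal instance `I : GeoNames23.NodalInst p M' A` with the exits of the chapters.**

`InstInput I` (one field per chapter; (B5′ top) needs none: `RedDatumN5.redDatum_of_nodal` is PROVED):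
* `hyp : NodalInstHyp I`  — (B3′) `RedCtxN`, the good points with their (Da) literals and levels, (I-a);
* `b1  : B1Exit I`        — (B1′) `0 < s` and `g ≤ g₁ + s - 1 + g₂`;
* `ib  : IbHyp I`, `ic : IcHyp I` — (Ga) instance literals (I-b), (I-c);
* `g3  : G3Exit I`        — (G3′) (Ξc) for THE chart `chartOfN I Q̄` at some level above any given one.
DISCHARGED HERE: the level `N' = M' * p`; the Hauptmodul base `(4, 8)`; the curve theory of the special
fibre of the GOOD level (`LHypFt13`, `GoodCofinite16.infinite_place`); (B2′) in the `≤`-form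
(`ChartPtsLe23`); the generic fibre (`GeoGeneric23`); (Ga) (`GeoJoinGa23`); the join (`GeoJoin23`).
-/
import Mathlib
import Fermat.Agent.ES.W33.GeoJoin23
import Fermat.Agent.ES.W33.GeoJoinGa23
import Fermat.Agent.ES.W33.GeoGeneric23
import Fermat.Agent.ES.W33.ChartPtsLe23
import Fermat.Agent.ES.V19.LHypFt13
import Fermat.Agent.ES.V19.GoodCofinite16
import Fermat.Agent.ES.TOP.AuxBase8
import Fermat.Agent.ES.N34.IfaceN4
import Fermat.Agent.ES.V19.TopLevel19

set_option autoImplicit false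
set_option linter.unusedSectionVars false
set_option synthInstance.maxHeartbeats 400000

noncomputable section

open AlgebraicCurve ModularCurve IntermediateField

namespace Fermat.Agent.ES.W33.GeoW23

open Fermat.Agent.X0 Fermat.Agent.X0.FF Fermat.Agent.RED.Interface4 Fermat.Agent.RED.BASE
  Fermat.Agent.RED.BASE.Hauptmodul12
  Fermat.Agent.ES.RED Fermat.Agent.ES.RED.Contract8
  Fermat.Agent.ES.V19.InstNames3 Fermat.Agent.ES.V19.GammaF16 Fermat.Agent.ES.V19.TraceDescent26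
  Fermat.Agent.ES.W33.XiIfaceN29 Fermat.Agent.ES.W33.PrinN29
  Fermat.Agent.ES.W33.GeoNames23 Fermat.Agent.ES.W33.GeoJoin23 Fermat.Agent.ES.W33.GeoJoinGa23
  Fermat.Agent.ES.W33.GeoGeneric23 Fermat.Agent.ES.W33.ChartPtsLe23 Fermat.Agent.ES.W33.WIface8
open Fermat.Agent.ES.V19.XiIface29 (XiC)

attribute [local instance 5000] HahnSeries.powerSeriesAlgebra SubalgebraClass.toAlgebra

local notation "Qb" => AlgebraicClosure ℚ

variable {p M' : ℕ} {A : ValuationSubring Qb}

/-- **(B1′) exit**: the special fibre is connected and `g ≤ g₁ + s - 1 + g₂`. -/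
def B1Exit (I : NodalInst p M' A) : Prop :=
  0 < I.s ∧ genusFF Qb (FW p M') ≤
    genusFF (kW A) (FtW M' A) + I.s - 1 + genusFF (kW A) (FtW M' A)

/-- **(G3′) exit**: (Ξc) for THE chart at every good non-special family with an auxiliary good
point, at some level above any given one. -/
def G3Exit (I : NodalInst p M' A) : Prop :=
  ∀ Qbar : Fin (genusFF Qb (FW p M')) → SPtW M' A, Function.Injective Qbar →
    (∀ i, I.Good (Qbar i)) →
    (∀ f ∈ I.nodes.LN (∑ i, Finsupp.single (Qbar i) (1 : ℤ)),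
      ∃ c : kW A, f = (algebraMap (kW A) (FtW M' A) c, algebraMap (kW A) (FtW M' A) c)) →
    ∀ Qs : SPtW M' A, I.Good Qs → (∀ i, Qs ≠ Qbar i) →
    ∀ f₀ : ℕ, 0 < f₀ → ∃ f : ℕ, 0 < f ∧ f₀ ∣ f ∧
      ∃ (Fgl : ℕ → Fin (genusFF Qb (FW p M')) →
          MvPolynomial (Fin (genusFF Qb (FW p M')) ⊕ Fin (genusFF Qb (FW p M')))
            ↥(fixRing A (gammaF A p f)))
        (Inv : ℕ → Fin (genusFF Qb (FW p M')) →
          MvPolynomial (Fin (genusFF Qb (FW p M'))) ↥(fixRing A (gammaF A p f))),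
        XiC A.toSubring (j1N I.nodes I.r) (xiN I.r (chartOfN I Qbar))
          ↥(fixRing A (gammaF A p f)) Fgl Inv

/-- **everything the chapters deliver at one instance.** -/
structure InstInput (I : NodalInst p M' A) : Prop where
  hyp : NodalInstHyp I
  b1 : B1Exit I
  ib : IbHyp I
  ic : IcHyp I
  g3 : G3Exit I

/-- **THE ONE INPUT OF GEO** (ruling w46: the base `(4, 8)` only): a nodal instance with all
chapter exits, at every `(M', p, A)` with `p` odd, `p ∤ M'`, `4 ∣ M'`. -/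
def GeoInput : Prop :=
  ∀ (M' : ℕ) [NeZero M'] (p : ℕ) [Fact p.Prime], p ≠ 2 → ¬ p ∣ M' → 4 ∣ M' →
    ∀ A : ValuationSubring Qb, A.LiesOverPrime p → ∃ I : NodalInst p M' A, InstInput I

/-- the geometric exit at the level `M' * p`, from the chapter exits at one instance. -/
theorem hasNodalChart_mul (n e M' : ℕ) [NeZero n] [NeZero M'] (p : ℕ) [Fact p.Prime]
    (hpM : ¬ p ∣ M') (hb : BaseHyp n e) (hnM : n ∣ M') (A : ValuationSubring Qb)
    (hA : A.LiesOverPrime p) {I : NodalInst p M' A} (H : InstInput I) :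
    HasNodalChart p (M' * p) A := by
  have hin := inputs0V n e M' p hpM hb hnM A hA
  have hr := hrV n e M' p hpM hb hnM A hA
  have : IsAlgClosed (kA A) := isAlgClosed_kA A
  have HL := Fermat.Agent.ES.V19.LHypFt13.lHyp_Ft n e M' p hpM (tMem_of_dvd hb hnM)
    (tGenBase' hb) A hA hr
  have hR := Fermat.Agent.ES.V19.LHypFt13.riemann_inequality_Ft n e M' p hpM
    (tMem_of_dvd hb hnM) (tGenBase' hb) A hA hr
  have : Infinite (Place (kW A) (FtW M' A)) :=
    Fermat.Agent.ES.V19.GoodCofinite16.infinite_place hin.gent hin.sep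
  have : NeZero (M' * p) := ⟨Nat.mul_ne_zero (NeZero.ne M') (Fact.out : p.Prime).ne_zero⟩
  have HR := redHypN_main n e (M' * p) hb (Dvd.dvd.mul_right hnM p)
  refine hasNodalChart_of_inst H.hyp HL HR (fun T₁ hT₁ hT₁ν T₂ hT₂ hT₂ν => ?_)
    (gaExit_of_inst H.hyp HR H.ib H.ic) H.g3
  obtain ⟨Qbar, h1, -, h3, h4⟩ := exists_chart_points_le HL hR HL hR H.b1.1 I.nodes
    H.hyp.nodes_inj hT₁ hT₁ν hT₂ hT₂ν H.b1.2
  exact ⟨Qbar, h1, h3, h4⟩

/-- **THE GEOMETRIC EXIT OF PROGRAMME W**: `HasNodalChart p N' A` at every level `N'` with `p ∥ N'`,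
`4 ∣ N'`, `p` odd, `A` over `p`. -/
theorem hasNodalChart (H : GeoInput) (p N' : ℕ) [NeZero N'] [Fact p.Prime] (hp2 : p ≠ 2)
    (hpN : p ∣ N') (hp2N : ¬ p ^ 2 ∣ N') (h4 : 4 ∣ N') (A : ValuationSubring Qb)
    (hA : A.LiesOverPrime p) : HasNodalChart p N' A := by
  have hp : p.Prime := Fact.out
  obtain ⟨M', rfl⟩ : ∃ M', N' = M' * p := ⟨N' / p, (Nat.div_mul_cancel hpN).symm⟩
  have hM0 : M' ≠ 0 := fun h => NeZero.ne (M' * p) (by rw [h, zero_mul])
  have : NeZero M' := ⟨hM0⟩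
  have hpM : ¬ p ∣ M' := fun h => hp2N (by rw [pow_two]; exact Nat.mul_dvd_mul_right h p)
  have hcop : Nat.Coprime 4 p := by
    have h2 : Nat.Coprime 2 p := (Nat.coprime_primes Nat.prime_two hp).mpr (Ne.symm hp2)
    have : (4 : ℕ) = 2 ^ 2 := by norm_num
    rw [this]
    exact Nat.Coprime.pow_left 2 h2
  have h4M : 4 ∣ M' := hcop.dvd_of_dvd_mul_right h4
  have : NeZero 4 := ⟨by norm_num⟩
  obtain ⟨I, HI⟩ := H M' p hp2 hpM h4M A hA
  exact hasNodalChart_mul 4 8 M' p hpM baseHyp_four h4M A hA HI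

/-- **THE GEOMETRIC EXIT, in the form the TOP/LVL chapter consumes** (`TopW19.hasConnOrder_of_hasNodalChart`):
at the auxiliary level `auxLevel p N` (`= lcm N 4` for `p` odd), for `p ∥ N`. -/
theorem hasNodalChart_auxLevel (H : GeoInput) {p N : ℕ} [NeZero N] (hp : p.Prime) (hp2 : p ≠ 2)
    (hN : p ∣ N ∧ ¬ p ^ 2 ∣ N) (A : ValuationSubring Qb) (hA : A.LiesOverPrime p) :
    HasNodalChart p (auxLevel p N) A := by
  have : Fact p.Prime := ⟨hp⟩
  have := Fermat.Agent.ES.V19.TopLevel19.neZero_auxLevel19 p N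
  obtain ⟨M', hM', hpM', -⟩ := Fermat.Agent.ES.N34.IfaceN4.auxLevel_eq_mul hp hN.1 hN.2
  refine hasNodalChart H p (auxLevel p N) hp2 (hN.1.trans (dvd_auxLevel p N)) ?_
    (Fermat.Agent.ES.TOP.AuxBase8.four_dvd_auxLevel N hp2) A hA
  rw [hM', pow_two]
  intro h
  exact hpM' (Nat.dvd_of_mul_dvd_mul_right hp.pos h)

end Fermat.Agent.ES.W33.GeoW23
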