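/-
helper7 — Programme W (S33), chapter G3′ (the chart `Ξ` on the kernel of reduction of the NODAL model),
**THE BRIDGE of (Ξc), MODEL-FREE.**

This is `V19/XiLocal7` + `V19/XiBridge7` with every reference to a model of the curve removed
(no `TwoCharts`, no reduction map of functions, no `GaussFrac15`, no `SupTrick15.RedCtx`, no places of a
special fibre).  The geometry enters through an abstract FAMILY OF `g` DISCS on `F / L`:

* `DiscFam A F g` (data): `Gi` ("integral functions": `gaussInt G red` in Programme V, `O₁ ⊓ O₂` on the nodal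
  model), `mem i P` ("`P` lies in the disc `i`"), `CQ i` (the local ring of the disc `i`), `τ i` (the
  coordinate `t - c_i`); `tauSub D i s = τ_i - s`;
* `DiscFamHyp D tay` (hypotheses): `A ⊆ Gi`; the discs are disjoint; `τ_i - s` is a UNIT of `Gi` for
  `s ∈ 𝔪_A`; (Da) `τ_i - s` has exactly one zero in the disc `i`, a simple one; `A, τ_i ∈ CQ_i`; `CQ_i` is
  regular on the disc `i`; (Db) an element of `Gi` regular on the disc `i` lies in `CQ_i`; `A` has rank one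
  (`arch`); the Taylor expansions `tay i : CQ_i →+* A⟦X⟧` send `τ_i ↦ X`, `a ↦ a`;
* `Small D f` : `f = c₀ · w` with `c₀ ∈ 𝔪_A`, `w ∈ Gi` (an ideal of `Gi`); `IsOne D h` : `h ∈ Gi` and
  `h - 1` is small ("`h̄ = 1`", stated without any reduction map);
* `ExpPkgA D Sys tay d s''` : the expansion package of (Le) (`V19/XiBridge7.ExpPkg` verbatim in this vocabulary).

EXITS (the conclusions of `V19/XiBridge7`):
* `exists_identity`, `add_congr_of_discs`, `neg_congr_of_discs`.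
-/
import Mathlib
import Fermat.Agent.ES.V19.XiBridge7

set_option autoImplicit false

noncomputable section

open AlgebraicCurve

namespace Fermat.Agent.ES.W33.XiBridgeA7

open scoped BigOperators
open Fermat.Agent.X0.FF Fermat.Agent.ES.V19.XiLocal7 Fermat.Agent.ES.V19.XiBridge7
  Fermat.Agent.ES.V19.XiAdd7 Fermat.Agent.ES.V19.OnePlaceRep9
  Fermat.Agent.ES.V19.NormalForm23 Fermat.Agent.ES.V19.LaurentMap19 Fermat.Agent.ES.V19.FGLUniv19

universe u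

/-! ### The abstract family of discs -/

section Defs

variable {L : Type u} [Field L]

/-- **A family of `g` discs on `F / L`** (data only). -/
structure DiscFam (A : ValuationSubring L) (F : Type*) [Field F] [Algebra L F] (g : ℕ) where
  /-- the ring of "integral" functions -/
  Gi : Subring F
  /-- `P` lies in the disc `i` -/
  mem : Fin g → Place L F → Prop
  /-- the local ring of the disc `i` -/
  CQ : Fin g → Subring F
  /-- the coordinate `τ_i = t - c_i` of the disc `i` -/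
  τ : Fin g → F

variable {A : ValuationSubring L} {F : Type*} [Field F] [Algebra L F] {g : ℕ}

/-- `τ_i - s`. -/
def DiscFam.tauSub (D : DiscFam A F g) (i : Fin g) (s : ↥A) : F :=
  D.τ i - algebraMap L F (s : L)

/-- `f = c₀ · w` with `c₀ ∈ 𝔪_A` and `w` integral. -/
def Small (D : DiscFam A F g) (f : F) : Prop :=
  ∃ c₀ : ↥A, c₀ ∈ IsLocalRing.maximalIdeal ↥A ∧ ∃ w ∈ D.Gi, f = algebraMap L F (c₀ : L) * w

/-- "`h̄ = 1`": `h` is integral and `h - 1` is small. -/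
def IsOne (D : DiscFam A F g) (h : F) : Prop := h ∈ D.Gi ∧ Small D (h - 1)

/-- **The hypotheses on a family of discs.** -/
structure DiscFamHyp (D : DiscFam A F g) (tay : ∀ i, ↥(D.CQ i) →+* PowerSeries ↥A) : Prop where
  const_mem : ∀ a : ↥A, algebraMap L F (a : L) ∈ D.Gi
  disjoint : ∀ (i j : Fin g) (P : Place L F), D.mem i P → D.mem j P → i = j
  tau_unit : ∀ (i : Fin g) (s : ↥A), s ∈ IsLocalRing.maximalIdeal ↥A →
    D.tauSub i s ∈ D.Gi ∧ (D.tauSub i s)⁻¹ ∈ D.Gi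
  da : ∀ (i : Fin g) (s : ↥A), s ∈ IsLocalRing.maximalIdeal ↥A →
    ∃ P : Place L F, D.mem i P ∧ P.ord (D.tauSub i s) = 1 ∧
      ∀ P' : Place L F, D.mem i P' → 0 < P'.ord (D.tauSub i s) → P' = P
  const_mem_CQ : ∀ (i : Fin g) (a : ↥A), algebraMap L F (a : L) ∈ D.CQ i
  tau_mem_CQ : ∀ i : Fin g, D.τ i ∈ D.CQ i
  reg : ∀ i : Fin g, ∀ f ∈ D.CQ i, ∀ P : Place L F, D.mem i P → 0 ≤ P.ord f
  db : ∀ i : Fin g, ∀ f ∈ D.Gi, (∀ P : Place L F, D.mem i P → 0 ≤ P.ord f) → f ∈ D.CQ i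
  arch : ∀ π : ↥A, π ∈ IsLocalRing.maximalIdeal ↥A → π ≠ 0 → ∀ d : ↥A, d ≠ 0 →
    ∃ N : ℕ, d ∣ π ^ N
  tay_tau : ∀ i : Fin g, tay i ⟨D.τ i, tau_mem_CQ i⟩ = PowerSeries.X
  tay_const : ∀ (i : Fin g) (a : ↥A),
    tay i ⟨algebraMap L F (a : L), const_mem_CQ i a⟩ = PowerSeries.C a

/-- **The expansion package** consumed from (Le) for a modulus `d` and pole coordinates `s''`
(`V19/XiBridge7.ExpPkg` in the vocabulary of `DiscFam`). -/
structure ExpPkgA {O : Type u} [CommRing O] [Algebra O ↥A] (D : DiscFam A F g)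
    (Sys : NFSystem O g) (tay : ∀ i, ↥(D.CQ i) →+* PowerSeries ↥A) (d : ↥A)
    (s'' : Fin g → ↥A) where
  /-- the ring `B^♯` -/
  B : Subring F
  /-- the truncated expansion `Exp^R` -/
  E : ↥B →+* Lam g (Rd d)
  mem_B : ∀ f : F, f ∈ D.Gi →
    (∀ P : Place L F, P.ord f < 0 → ∃ i, D.mem i P ∧
      (0 < P.ord (D.tauSub i 0) ∨ 0 < P.ord (D.tauSub i (s'' i)))) → f ∈ B
  E_mem : ∀ f : ↥B, E f ∈ Sys.AR (Rd d)
  E_const : ∀ (a : ↥A) (ha : algebraMap L F (a : L) ∈ B),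
    E ⟨algebraMap L F (a : L), ha⟩ = (mkd d a) • (1 : Lam g (Rd d))
  E_loc : ∀ (f : ↥B) (i : Fin g) (v : ↥(D.CQ i)),
    (f : F) * (D.tauSub i 0 * D.tauSub i (s'' i)) = (v : F) →
      E f i * (LX (Rd d) * (LX (Rd d) - HahnSeries.C (mkd d (s'' i))))
        = HahnSeries.ofPowerSeries ℤ (Rd d) (PowerSeries.map (mkd d) (tay i v))

end Defs

/-! ### Small elements form an ideal of `Gi` -/

section SmallLemmas

variable {L : Type u} [Field L] {A : ValuationSubring L}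
variable {F : Type*} [Field F] [Algebra L F] {g : ℕ} {D : DiscFam A F g}

theorem small_zero : Small D (0 : F) :=
  ⟨0, Ideal.zero_mem _, 0, D.Gi.zero_mem, by simp⟩

theorem small_const {s : ↥A}
    (hs : s ∈ IsLocalRing.maximalIdeal ↥A) : Small D (algebraMap L F (s : L)) :=
  ⟨s, hs, 1, D.Gi.one_mem, (mul_one _).symm⟩

theorem Small.mul_mem {f x : F} (hf : Small D f) (hx : x ∈ D.Gi) : Small D (f * x) := by
  obtain ⟨c₀, hc₀, w, hw, e⟩ := hf
  exact ⟨c₀, hc₀, w * x, D.Gi.mul_mem hw hx, by rw [e, mul_assoc]⟩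

theorem Small.neg {f : F} (hf : Small D f) : Small D (-f) := by
  obtain ⟨c₀, hc₀, w, hw, e⟩ := hf
  exact ⟨c₀, hc₀, -w, D.Gi.neg_mem hw, by rw [e, mul_neg]⟩

theorem Small.add (hc : ∀ a : ↥A, algebraMap L F (a : L) ∈ D.Gi) {f f' : F} (hf : Small D f)
    (hf' : Small D f') : Small D (f + f') := by
  obtain ⟨c, hcm, w, hw, e⟩ := hf
  obtain ⟨c', hcm', w', hw', e'⟩ := hf'
  rcases ValuationRing.dvd_total c c' with ⟨q, hq⟩ | ⟨q, hq⟩
  · refine ⟨c, hcm, w + algebraMap L F (q : L) * w',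
      D.Gi.add_mem hw (D.Gi.mul_mem (hc q) hw'), ?_⟩
    rw [e, e', hq, MulMemClass.coe_mul, map_mul]
    ring
  · refine ⟨c', hcm', algebraMap L F (q : L) * w + w',
      D.Gi.add_mem (D.Gi.mul_mem (hc q) hw) hw', ?_⟩
    rw [e, e', hq, MulMemClass.coe_mul, map_mul]
    ring

theorem Small.sub (hc : ∀ a : ↥A, algebraMap L F (a : L) ∈ D.Gi) {f f' : F} (hf : Small D f)
    (hf' : Small D f') : Small D (f - f') := by
  rw [sub_eq_add_neg]
  exact hf.add hc hf'.neg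

theorem Small.mem_Gi (hc : ∀ a : ↥A, algebraMap L F (a : L) ∈ D.Gi) {f : F} (hf : Small D f) :
    f ∈ D.Gi := by
  obtain ⟨c₀, -, w, hw, e⟩ := hf
  rw [e]
  exact D.Gi.mul_mem (hc c₀) hw

end SmallLemmas

/-! ### The local analysis in one disc -/

section Disc

variable {L : Type u} [Field L] {A : ValuationSubring L}
variable {F : Type*} [Field F] [Algebra L F] {g : ℕ} {D : DiscFam A F g}
  {tay : ∀ i, ↥(D.CQ i) →+* PowerSeries ↥A}

theorem tauSub_zero (D : DiscFam A F g) (i : Fin g) : D.tauSub i 0 = D.τ i := by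
  unfold DiscFam.tauSub
  rw [ZeroMemClass.coe_zero, map_zero, sub_zero]

theorem tauSub_ne_zero (H : DiscFamHyp D tay) (i : Fin g) {s : ↥A}
    (hs : s ∈ IsLocalRing.maximalIdeal ↥A) : D.tauSub i s ≠ 0 := by
  obtain ⟨P, -, h1, -⟩ := H.da i s hs
  intro h0
  rw [h0, Place.ord_zero] at h1
  exact zero_ne_one h1

theorem tauSub_mem_CQ (H : DiscFamHyp D tay) (i : Fin g) (s : ↥A) : D.tauSub i s ∈ D.CQ i :=
  (D.CQ i).sub_mem (H.tau_mem_CQ i) (H.const_mem_CQ i s)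

theorem tay_tauSub (H : DiscFamHyp D tay) (i : Fin g) (s : ↥A) :
    tay i ⟨D.tauSub i s, tauSub_mem_CQ H i s⟩ = PowerSeries.X - PowerSeries.C s := by
  have e : (⟨D.tauSub i s, tauSub_mem_CQ H i s⟩ : ↥(D.CQ i))
      = ⟨D.τ i, H.tau_mem_CQ i⟩ - ⟨algebraMap L F (s : L), H.const_mem_CQ i s⟩ :=
    Subtype.ext rfl
  rw [e, map_sub, H.tay_tau, H.tay_const]

open Classical in
/-- On the disc `i`: `ord_P (τ_i - s) = [P = P₀]`, `P₀` the zero of `τ_i - s`. -/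
theorem ord_tauSub_eq (H : DiscFamHyp D tay) (i : Fin g) {s : ↥A}
    (hs : s ∈ IsLocalRing.maximalIdeal ↥A) {P₀ : Place L F} (hQ₀ : D.mem i P₀)
    (h₀ : 0 < P₀.ord (D.tauSub i s)) {P : Place L F} (hQ : D.mem i P) :
    P.ord (D.tauSub i s) = if P = P₀ then 1 else 0 := by
  obtain ⟨P₁, _, h1, huniq⟩ := H.da i s hs
  have e₀ : P₀ = P₁ := huniq P₀ hQ₀ h₀
  split_ifs with hP
  · rw [hP, e₀, h1]
  · have hge := H.reg i _ (tauSub_mem_CQ H i s) P hQ
    by_contra hne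
    have hpos : 0 < P.ord (D.tauSub i s) := lt_of_le_of_ne hge (Ne.symm hne)
    exact hP ((huniq P hQ hpos).trans e₀.symm)

/-- `(τ - s₃)(τ - s₄) - (τ - s₁)(τ - s₂)` is small. -/
theorem small_tau_diff (H : DiscFamHyp D tay) (i : Fin g) {s₁ s₂ s₃ s₄ : ↥A}
    (hs₁ : s₁ ∈ IsLocalRing.maximalIdeal ↥A) (hs₂ : s₂ ∈ IsLocalRing.maximalIdeal ↥A)
    (hs₃ : s₃ ∈ IsLocalRing.maximalIdeal ↥A) (hs₄ : s₄ ∈ IsLocalRing.maximalIdeal ↥A) :
    Small D (D.tauSub i s₃ * D.tauSub i s₄ - D.tauSub i s₁ * D.tauSub i s₂) := by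
  have hτ : D.τ i ∈ D.Gi := by
    have := (H.tau_unit i 0 (Ideal.zero_mem _)).1
    rwa [tauSub_zero] at this
  have e : D.tauSub i s₃ * D.tauSub i s₄ - D.tauSub i s₁ * D.tauSub i s₂
      = algebraMap L F ((s₁ + s₂ - s₃ - s₄ : ↥A) : L) * D.τ i
        + (algebraMap L F ((s₃ * s₄ : ↥A) : L) - algebraMap L F ((s₁ * s₂ : ↥A) : L)) := by
    unfold DiscFam.tauSub
    simp only [AddSubgroupClass.coe_sub, AddMemClass.coe_add, MulMemClass.coe_mul, map_sub,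
      map_add, map_mul]
    ring
  rw [e]
  have h1 : s₁ + s₂ - s₃ - s₄ ∈ IsLocalRing.maximalIdeal ↥A :=
    Ideal.sub_mem _ (Ideal.sub_mem _ (Ideal.add_mem _ hs₁ hs₂) hs₃) hs₄
  have h2 : s₃ * s₄ ∈ IsLocalRing.maximalIdeal ↥A := Ideal.mul_mem_left _ _ hs₄
  have h3 : s₁ * s₂ ∈ IsLocalRing.maximalIdeal ↥A := Ideal.mul_mem_left _ _ hs₂
  exact ((small_const h1).mul_mem hτ).add H.const_mem
    ((small_const h2).sub H.const_mem (small_const h3))

open Classical in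
/-- **The local factor.** `h` with `h̄ = 1` whose divisor on the disc `i` is `P₁ + P₂ - P₃ - P₄`
(`P_k` the zero of `τ_i - s_k`) is `u (τ - s₁)(τ - s₂) / ((τ - s₃)(τ - s₄))` with `u ∈ CQ_i`,
`u = 1 + c₀ w`, `c₀ ∈ 𝔪_A`, `w ∈ CQ_i`. -/
theorem exists_local_factor (H : DiscFamHyp D tay) (i : Fin g) {h : F} (hh : IsOne D h)
    {s₁ s₂ s₃ s₄ : ↥A}
    (hs₁ : s₁ ∈ IsLocalRing.maximalIdeal ↥A) (hs₂ : s₂ ∈ IsLocalRing.maximalIdeal ↥A)
    (hs₃ : s₃ ∈ IsLocalRing.maximalIdeal ↥A) (hs₄ : s₄ ∈ IsLocalRing.maximalIdeal ↥A)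
    {P₁ P₂ P₃ P₄ : Place L F}
    (hP₁ : D.mem i P₁ ∧ 0 < P₁.ord (D.tauSub i s₁)) (hP₂ : D.mem i P₂ ∧ 0 < P₂.ord (D.tauSub i s₂))
    (hP₃ : D.mem i P₃ ∧ 0 < P₃.ord (D.tauSub i s₃)) (hP₄ : D.mem i P₄ ∧ 0 < P₄.ord (D.tauSub i s₄))
    (hh0 : h ≠ 0)
    (hord : ∀ P, D.mem i P → P.ord h = (if P = P₁ then 1 else 0) + (if P = P₂ then 1 else 0)
      - (if P = P₃ then 1 else 0) - (if P = P₄ then 1 else 0)) :
    ∃ u : F, ∃ _ : u ∈ D.CQ i,
      h * (D.tauSub i s₃ * D.tauSub i s₄) = u * (D.tauSub i s₁ * D.tauSub i s₂) ∧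
      ∃ c₀ : ↥A, c₀ ∈ IsLocalRing.maximalIdeal ↥A ∧ ∃ w ∈ D.CQ i,
        u - 1 = algebraMap L F (c₀ : L) * w := by
  have n₁ := tauSub_ne_zero H i hs₁
  have n₂ := tauSub_ne_zero H i hs₂
  have n₃ := tauSub_ne_zero H i hs₃
  have n₄ := tauSub_ne_zero H i hs₄
  obtain ⟨m₁, i₁⟩ := H.tau_unit i s₁ hs₁
  obtain ⟨m₂, i₂⟩ := H.tau_unit i s₂ hs₂
  obtain ⟨m₃, -⟩ := H.tau_unit i s₃ hs₃
  obtain ⟨m₄, -⟩ := H.tau_unit i s₄ hs₄
  set u : F := h * (D.tauSub i s₃ * D.tauSub i s₄) * (D.tauSub i s₁ * D.tauSub i s₂)⁻¹ with hu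
  have hinvG : (D.tauSub i s₁ * D.tauSub i s₂)⁻¹ ∈ D.Gi := by
    rw [mul_inv]
    exact D.Gi.mul_mem i₁ i₂
  have huG : u ∈ D.Gi := D.Gi.mul_mem (D.Gi.mul_mem hh.1 (D.Gi.mul_mem m₃ m₄)) hinvG
  have hueq : h * (D.tauSub i s₃ * D.tauSub i s₄) = u * (D.tauSub i s₁ * D.tauSub i s₂) := by
    rw [hu, mul_assoc, inv_mul_cancel₀ (mul_ne_zero n₁ n₂), mul_one]
  -- `u` has order `0` on the disc
  have huord : ∀ P, D.mem i P → P.ord u = 0 := by
    intro P hQ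
    rw [hu, Place.ord_mul P (mul_ne_zero hh0 (mul_ne_zero n₃ n₄))
        (inv_ne_zero (mul_ne_zero n₁ n₂)),
      Place.ord_mul P hh0 (mul_ne_zero n₃ n₄), Place.ord_mul P n₃ n₄, Place.ord_inv,
      Place.ord_mul P n₁ n₂, hord P hQ, ord_tauSub_eq H i hs₁ hP₁.1 hP₁.2 hQ,
      ord_tauSub_eq H i hs₂ hP₂.1 hP₂.2 hQ, ord_tauSub_eq H i hs₃ hP₃.1 hP₃.2 hQ,
      ord_tauSub_eq H i hs₄ hP₄.1 hP₄.2 hQ]
    ring
  have huCQ : u ∈ D.CQ i := H.db i u huG fun P hQ => (huord P hQ).ge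
  -- `u - 1` is small
  have hsm : Small D (u - 1) := by
    have e : u - 1 = ((h - 1) * (D.tauSub i s₃ * D.tauSub i s₄)
        + (D.tauSub i s₃ * D.tauSub i s₄ - D.tauSub i s₁ * D.tauSub i s₂))
        * (D.tauSub i s₁ * D.tauSub i s₂)⁻¹ := by
      rw [hu]
      field_simp
      ring
    rw [e]
    exact ((hh.2.mul_mem (D.Gi.mul_mem m₃ m₄)).add H.const_mem
      (small_tau_diff H i hs₁ hs₂ hs₃ hs₄)).mul_mem hinvG
  obtain ⟨c₀, hc₀, w, hw, e⟩ := hsm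
  refine ⟨u, huCQ, hueq, ?_⟩
  rcases eq_or_ne (c₀ : L) 0 with hz | hz
  · refine ⟨c₀, hc₀, 0, (D.CQ i).zero_mem, ?_⟩
    rw [e, hz, map_zero, zero_mul, mul_zero]
  · refine ⟨c₀, hc₀, w, H.db i w hw fun P hQ => ?_, e⟩
    have h1 := H.reg i (u - 1) ((D.CQ i).sub_mem huCQ (D.CQ i).one_mem) P hQ
    rwa [e, ord_const_mul P hz] at h1

end Disc

/-! ### The divisor of `h` on the discs -/

section DivH

variable {L : Type u} [Field L] {A : ValuationSubring L}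
variable {F : Type*} [Field F] [Algebra L F] {g : ℕ} {D : DiscFam A F g}

open Classical in
/-- the divisor of `h` on the disc `i`. -/
theorem ord_disc (hdisj : ∀ (i j : Fin g) (P : Place L F), D.mem i P → D.mem j P → i = j)
    {P P' P'' Q₀ : Fin g → Place L F}
    (hP : ∀ i, D.mem i (P i)) (hP' : ∀ i, D.mem i (P' i))
    (hP'' : ∀ i, D.mem i (P'' i)) (hQ₀ : ∀ i, D.mem i (Q₀ i)) {h : F}
    (hdiv : ∀ v : Place L F, v.ord h = (redDiv P + redDiv P' - redDiv P'' - redDiv Q₀) v)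
    (i : Fin g) (v : Place L F) (hv : D.mem i v) :
    v.ord h = (if v = P i then 1 else 0) + (if v = P' i then 1 else 0)
      - (if v = P'' i then 1 else 0) - (if v = Q₀ i then 1 else 0) := by
  have key : ∀ R : Fin g → Place L F, (∀ j, D.mem j (R j)) →
      redDiv R v = if v = R i then 1 else 0 := by
    intro R hR
    rw [redDiv_apply_eq_sum, Finset.sum_eq_single i]
    · intro j _ hj
      rw [if_neg]
      intro h
      exact hj (hdisj j i v (h ▸ hR j) hv)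
    · intro h
      exact absurd (Finset.mem_univ i) h
  rw [hdiv, Finsupp.sub_apply, Finsupp.sub_apply, Finsupp.add_apply, key P hP, key P' hP',
    key P'' hP'', key Q₀ hQ₀]

end DivH

/-! ### The identity `E * σ(s'') = β * (σ(s) * σ(s'))` -/

section Main

variable {L : Type u} [Field L] {A : ValuationSubring L}
variable {F : Type*} [Field F] [Algebra L F]
variable {g : ℕ} {O : Type u} [CommRing O] [Algebra O ↥A]
variable {D : DiscFam A F g} {Sys : NFSystem O g}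
  {tay : ∀ i, ↥(D.CQ i) →+* PowerSeries ↥A}

/-- **The identity.**  See `V19/XiBridge7.exists_identity`. -/
theorem exists_identity (H : DiscFamHyp D tay)
    {s s' s'' : Fin g → ↥A} (hs : ∀ i, s i ∈ IsLocalRing.maximalIdeal ↥A)
    (hs' : ∀ i, s' i ∈ IsLocalRing.maximalIdeal ↥A)
    (hs'' : ∀ i, s'' i ∈ IsLocalRing.maximalIdeal ↥A)
    {P P' P'' Q₀ : Fin g → Place L F}
    (hP : ∀ i, D.mem i (P i) ∧ 0 < (P i).ord (D.tauSub i (s i)))
    (hP' : ∀ i, D.mem i (P' i) ∧ 0 < (P' i).ord (D.tauSub i (s' i)))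
    (hP'' : ∀ i, D.mem i (P'' i) ∧ 0 < (P'' i).ord (D.tauSub i (s'' i)))
    (hQ₀ : ∀ i, D.mem i (Q₀ i) ∧ 0 < (Q₀ i).ord (D.tauSub i 0))
    {h : F} (hh : IsOne D h) (hh0 : h ≠ 0)
    (hdiv : ∀ v : Place L F, v.ord h = (redDiv P + redDiv P' - redDiv P'' - redDiv Q₀) v)
    {d : ↥A} (hd : d ∈ IsLocalRing.maximalIdeal ↥A) (hd0 : d ≠ 0)
    (pkg : ExpPkgA D Sys tay d s'')
    (hBR : ∀ x : Lam g (Rd d), (∀ i, ∀ m : ℤ, m < 0 → (x i).coeff m = 0) → x ∈ Sys.BR (Rd d)) :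
    ∃ (π : ↥A) (N₀ : ℕ), d ∣ π ^ N₀ ∧ (∀ i, π ∣ s i) ∧ (∀ i, π ∣ s' i) ∧ (∀ i, π ∣ s'' i) ∧
      ∃ E β : Lam g (Rd d), E - 1 ∈ Ipi d π • (Sys.AR (Rd d)).toSubmodule ∧
        β - 1 ∈ Ipi d π • (Sys.BR (Rd d)).toSubmodule ∧
        E * sig (wLam g (Rd d)) (fun i => mkd d (s'' i))
          = β * (sig (wLam g (Rd d)) (fun i => mkd d (s i))
            * sig (wLam g (Rd d)) (fun i => mkd d (s' i))) := by
  classical
  -- Steps 1–2: the local factors `u_i = 1 + c₀_i w_i`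
  have hloc : ∀ i, ∃ u : F, ∃ hu : u ∈ D.CQ i,
      h * (D.tauSub i (s'' i) * D.tauSub i 0) = u * (D.tauSub i (s i) * D.tauSub i (s' i)) ∧
      ∃ c₀ : ↥A, c₀ ∈ IsLocalRing.maximalIdeal ↥A ∧ ∃ w ∈ D.CQ i,
        u - 1 = algebraMap L F (c₀ : L) * w := fun i =>
    exists_local_factor H i hh (hs i) (hs' i) (hs'' i) (Ideal.zero_mem _) (hP i) (hP' i)
      (hP'' i) (hQ₀ i) hh0
      (fun v hv => ord_disc H.disjoint (fun j => (hP j).1) (fun j => (hP' j).1)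
        (fun j => (hP'' j).1) (fun j => (hQ₀ j).1) hdiv i v hv)
  choose u hu_mem hu_eq c₀ hc₀ w hw_mem hw_eq using hloc
  -- Step 3: `h = 1 + c₁ w₁`
  obtain ⟨c₁, hc₁, w₁, hw₁, hw₁_eq⟩ := hh.2
  -- Step 4: the common divisor
  obtain ⟨π, hπ, hπ0, hπd, hπS⟩ := exists_common_divisor A
    (Finset.univ.image s ∪ Finset.univ.image s' ∪ Finset.univ.image s'' ∪ Finset.univ.image c₀
      ∪ {c₁})
    (by
      intro a ha
      simp only [Finset.mem_union, Finset.mem_image, Finset.mem_univ, true_and,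
        Finset.mem_singleton] at ha
      rcases ha with (((⟨i, rfl⟩ | ⟨i, rfl⟩) | ⟨i, rfl⟩) | ⟨i, rfl⟩) | rfl
      · exact hs i
      · exact hs' i
      · exact hs'' i
      · exact hc₀ i
      · exact hc₁) hd hd0
  obtain ⟨N₀, hN₀⟩ := H.arch π hπ hπ0 d hd0
  have hπs : ∀ i, π ∣ s i := fun i => hπS _ (by
    simp only [Finset.mem_union, Finset.mem_image, Finset.mem_univ, true_and,
      Finset.mem_singleton]
    exact Or.inl (Or.inl (Or.inl (Or.inl ⟨i, rfl⟩))))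
  have hπs' : ∀ i, π ∣ s' i := fun i => hπS _ (by
    simp only [Finset.mem_union, Finset.mem_image, Finset.mem_univ, true_and,
      Finset.mem_singleton]
    exact Or.inl (Or.inl (Or.inl (Or.inr ⟨i, rfl⟩))))
  have hπs'' : ∀ i, π ∣ s'' i := fun i => hπS _ (by
    simp only [Finset.mem_union, Finset.mem_image, Finset.mem_univ, true_and,
      Finset.mem_singleton]
    exact Or.inl (Or.inl (Or.inr ⟨i, rfl⟩)))
  have hπc₀ : ∀ i, π ∣ c₀ i := fun i => hπS _ (by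
    simp only [Finset.mem_union, Finset.mem_image, Finset.mem_univ, true_and,
      Finset.mem_singleton]
    exact Or.inl (Or.inr ⟨i, rfl⟩))
  have hπc₁ : π ∣ c₁ := hπS _ (Finset.mem_union_right _ (Finset.mem_singleton_self _))
  obtain ⟨q₁, hq₁⟩ := hπc₁
  choose q hq using hπc₀
  have hπL : (π : L) ≠ 0 := fun h => hπ0 (Subtype.ext h)
  -- Step 5: `f₁ = (h - 1) / π`
  set f₁ : F := algebraMap L F (q₁ : L) * w₁ with hf₁
  have hf₁GI : f₁ ∈ D.Gi := D.Gi.mul_mem (H.const_mem q₁) hw₁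
  have hh1 : h - 1 = algebraMap L F (π : L) * f₁ := by
    rw [hw₁_eq, hq₁, hf₁, MulMemClass.coe_mul, map_mul, mul_assoc]
  -- membership in `B^♯`
  have hmemB : ∀ f : F, f ∈ D.Gi → (∀ v : Place L F, v.ord f < 0 → v.ord h < 0) →
      f ∈ pkg.B := by
    intro f hf hpole
    refine pkg.mem_B f hf fun v hv => ?_
    obtain ⟨i, hi | hi⟩ := pole_mem hdiv (hpole v hv)
    · exact ⟨i, hi ▸ (hQ₀ i).1, Or.inl (hi ▸ (hQ₀ i).2)⟩
    · exact ⟨i, hi ▸ (hP'' i).1, Or.inr (hi ▸ (hP'' i).2)⟩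
  have hhB : h ∈ pkg.B := hmemB h hh.1 fun v hv => hv
  have hf₁B : f₁ ∈ pkg.B := by
    refine hmemB f₁ hf₁GI fun v hv => ?_
    have h1 : v.ord (h - 1) < 0 := by rwa [hh1, ord_const_mul v hπL]
    have hne : h - 1 ≠ 0 := by
      intro h0
      rw [h0, Place.ord_zero] at h1
      exact lt_irrefl _ h1
    by_contra hge
    have h2 := ord_sub_ge v hne
    rw [Place.ord_one] at h2
    have h3 : 0 ≤ min (v.ord h) 0 := le_min (not_lt.mp hge) le_rfl
    omega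
  have hcB : ∀ a : ↥A, algebraMap L F (a : L) ∈ pkg.B := fun a =>
    pkg.mem_B _ (H.const_mem a) fun v hv => by
      rw [ord_algebraMap] at hv
      exact absurd hv (lt_irrefl _)
  -- Step 6: `E = Exp^R h`
  have hBeq : (⟨h, hhB⟩ : ↥pkg.B) = 1 + ⟨algebraMap L F (π : L), hcB π⟩ * ⟨f₁, hf₁B⟩ :=
    Subtype.ext (by
      show h = 1 + algebraMap L F (π : L) * f₁
      rw [← hh1]; ring)
  have hEeq : pkg.E ⟨h, hhB⟩ = 1 + (mkd d π) • pkg.E ⟨f₁, hf₁B⟩ := by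
    rw [hBeq, map_add, map_one, map_mul, pkg.E_const, smul_mul_assoc, one_mul]
  have hE : pkg.E ⟨h, hhB⟩ - 1 ∈ Ipi d π • (Sys.AR (Rd d)).toSubmodule := by
    rw [hEeq, add_sub_cancel_left]
    exact Submodule.smul_mem_smul (mk_mem_Ipi d (dvd_refl π)) (pkg.E_mem _)
  -- Step 7: `β = Taylor u`
  have hueq : ∀ i, (⟨u i, hu_mem i⟩ : ↥(D.CQ i)) = 1 +
      ⟨algebraMap L F (π : L), H.const_mem_CQ i π⟩ *
        (⟨algebraMap L F ((q i : ↥A) : L), H.const_mem_CQ i (q i)⟩ * ⟨w i, hw_mem i⟩) :=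
    fun i => Subtype.ext (by
      show u i = 1 + algebraMap L F (π : L) * (algebraMap L F ((q i : ↥A) : L) * w i)
      have := hw_eq i
      rw [hq i, MulMemClass.coe_mul, map_mul, mul_assoc] at this
      rw [← this]; ring)
  set y : Lam g (Rd d) := fun i => HahnSeries.ofPowerSeries ℤ (Rd d)
    (PowerSeries.map (mkd d) (PowerSeries.C (q i) * tay i ⟨w i, hw_mem i⟩)) with hy
  set β : Lam g (Rd d) := fun i => HahnSeries.ofPowerSeries ℤ (Rd d)
    (PowerSeries.map (mkd d) (tay i ⟨u i, hu_mem i⟩)) with hβdef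
  have hβi : ∀ i, β i = 1 + HahnSeries.C (mkd d π) * y i := by
    intro i
    show HahnSeries.ofPowerSeries ℤ (Rd d) (PowerSeries.map (mkd d) (tay i ⟨u i, hu_mem i⟩)) = _
    rw [hueq i, map_add, map_one, map_mul, map_mul, H.tay_const, H.tay_const, map_add, map_one,
      map_mul, PowerSeries.map_C, map_add, map_one, map_mul, HahnSeries.ofPowerSeries_C]
  have hβeq : β - 1 = (mkd d π) • y := by
    refine Lam.ext fun i m => ?_
    rw [Fermat.Agent.ES.V19.LaurentMap19.sub_apply, Fermat.Agent.ES.V19.LaurentMap19.one_apply,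
      hβi i, add_sub_cancel_left, smul_apply_coeff, HahnSeries.C_mul_eq_smul, HahnSeries.coeff_smul, smul_eq_mul]
  have hyBR : y ∈ Sys.BR (Rd d) := by
    refine hBR y fun i m hm => ?_
    show (HahnSeries.ofPowerSeries ℤ (Rd d) _).coeff m = 0
    rw [PowerSeries.coeff_coe, if_pos hm]
  have hβ : β - 1 ∈ Ipi d π • (Sys.BR (Rd d)).toSubmodule := by
    rw [hβeq]
    exact Submodule.smul_mem_smul (mk_mem_Ipi d (dvd_refl π)) hyBR
  -- Step 8: the local shapes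
  have hLX : HahnSeries.ofPowerSeries ℤ (Rd d) PowerSeries.X = LX (Rd d) :=
    HahnSeries.ofPowerSeries_X
  have hshape : ∀ i, pkg.E ⟨h, hhB⟩ i * ((LX (Rd d) - HahnSeries.C (mkd d (s'' i))) * LX (Rd d))
      = β i * ((LX (Rd d) - HahnSeries.C (mkd d (s i)))
        * (LX (Rd d) - HahnSeries.C (mkd d (s' i)))) := by
    intro i
    have h1 := pkg.E_loc ⟨h, hhB⟩ i
      (⟨u i, hu_mem i⟩ * (⟨D.tauSub i (s i), tauSub_mem_CQ H i (s i)⟩
        * ⟨D.tauSub i (s' i), tauSub_mem_CQ H i (s' i)⟩))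
      (by
        show h * (D.tauSub i 0 * D.tauSub i (s'' i))
          = u i * (D.tauSub i (s i) * D.tauSub i (s' i))
        rw [← hu_eq i]; ring)
    have htay : tay i (⟨u i, hu_mem i⟩ *
        (⟨D.tauSub i (s i), tauSub_mem_CQ H i (s i)⟩
          * ⟨D.tauSub i (s' i), tauSub_mem_CQ H i (s' i)⟩))
        = tay i ⟨u i, hu_mem i⟩ * ((PowerSeries.X - PowerSeries.C (s i))
          * (PowerSeries.X - PowerSeries.C (s' i))) := by
      rw [map_mul, map_mul, tay_tauSub H i (s i), tay_tauSub H i (s' i)]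
    rw [htay] at h1
    simp only [map_mul, map_sub, PowerSeries.map_X, PowerSeries.map_C, hLX,
      HahnSeries.ofPowerSeries_C] at h1
    rw [mul_comm (LX (Rd d) - HahnSeries.C (mkd d (s'' i))) (LX (Rd d))]
    exact h1
  exact ⟨π, N₀, hN₀, hπs, hπs', hπs'', pkg.E ⟨h, hhB⟩, β, hE, hβ, sig_identity_of_local hshape⟩

/-- **(Ξc), addition, at the level of the discs.**  For every `d ≠ 0` there is `N₀` such that the
coordinates `s''` of the sum are `F^(N)(s, s')` modulo `d`, for all `N ≥ N₀`. -/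
theorem add_congr_of_discs (H : DiscFamHyp D tay)
    {s s' s'' : Fin g → ↥A} (hs : ∀ i, s i ∈ IsLocalRing.maximalIdeal ↥A)
    (hs' : ∀ i, s' i ∈ IsLocalRing.maximalIdeal ↥A)
    (hs'' : ∀ i, s'' i ∈ IsLocalRing.maximalIdeal ↥A)
    {P P' P'' Q₀ : Fin g → Place L F}
    (hP : ∀ i, D.mem i (P i) ∧ 0 < (P i).ord (D.tauSub i (s i)))
    (hP' : ∀ i, D.mem i (P' i) ∧ 0 < (P' i).ord (D.tauSub i (s' i)))
    (hP'' : ∀ i, D.mem i (P'' i) ∧ 0 < (P'' i).ord (D.tauSub i (s'' i)))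
    (hQ₀ : ∀ i, D.mem i (Q₀ i) ∧ 0 < (Q₀ i).ord (D.tauSub i 0))
    {h : F} (hh : IsOne D h) (hh0 : h ≠ 0)
    (hdiv : ∀ v : Place L F, v.ord h = (redDiv P + redDiv P' - redDiv P'' - redDiv Q₀) v)
    {d : ↥A} (hd0 : d ≠ 0)
    (pkg : d ∈ IsLocalRing.maximalIdeal ↥A → ExpPkgA D Sys tay d s'')
    (hBR : ∀ x : Lam g (Rd d), (∀ i, ∀ m : ℤ, m < 0 → (x i).coeff m = 0) → x ∈ Sys.BR (Rd d)) :
    ∃ N₀ : ℕ, ∀ N : ℕ, N₀ ≤ N → ∀ i,
      d ∣ s'' i - MvPolynomial.aeval (Sum.elim s s')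
        (Fermat.Agent.ES.V19.FGLUniv19.F Sys N i) := by
  by_cases hd : d ∈ IsLocalRing.maximalIdeal ↥A
  · obtain ⟨π, N₀, hN₀, hπs, hπs', hπs'', E, β, hE, hβ, hid⟩ :=
      exists_identity H hs hs' hs'' hP hP' hP'' hQ₀ hh hh0 hdiv hd hd0 (pkg hd) hBR
    exact ⟨N₀, fun N hN i => add_congr Sys d π hN₀ hN hπs hπs' hπs'' hE hβ hid i⟩
  · have hu : IsUnit d := by
      by_contra hnu
      exact hd ((IsLocalRing.mem_maximalIdeal _).mpr hnu)
    exact ⟨0, fun N _ i => hu.dvd⟩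

/-- **(Ξc), inverse, at the level of the discs.**  `P'` = the points of `-y`, `t` its coordinates:
`div h = ∑ P_i + ∑ P'_i - 2 ∑ Q_i`. -/
theorem neg_congr_of_discs (H : DiscFamHyp D tay)
    {s t : Fin g → ↥A} (hs : ∀ i, s i ∈ IsLocalRing.maximalIdeal ↥A)
    (ht : ∀ i, t i ∈ IsLocalRing.maximalIdeal ↥A)
    {P P' Q₀ : Fin g → Place L F}
    (hP : ∀ i, D.mem i (P i) ∧ 0 < (P i).ord (D.tauSub i (s i)))
    (hP' : ∀ i, D.mem i (P' i) ∧ 0 < (P' i).ord (D.tauSub i (t i)))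
    (hQ₀ : ∀ i, D.mem i (Q₀ i) ∧ 0 < (Q₀ i).ord (D.tauSub i 0))
    {h : F} (hh : IsOne D h) (hh0 : h ≠ 0)
    (hdiv : ∀ v : Place L F, v.ord h = (redDiv P + redDiv P' - redDiv Q₀ - redDiv Q₀) v)
    {d : ↥A} (hd0 : d ≠ 0)
    (pkg : d ∈ IsLocalRing.maximalIdeal ↥A → ExpPkgA D Sys tay d (fun _ => 0))
    (hBR : ∀ x : Lam g (Rd d), (∀ i, ∀ m : ℤ, m < 0 → (x i).coeff m = 0) → x ∈ Sys.BR (Rd d)) :
    ∃ N₀ : ℕ, ∀ N : ℕ, N₀ ≤ N → ∀ i,
      d ∣ t i - MvPolynomial.aeval s (Fermat.Agent.ES.V19.FGLUniv19.G Sys N i) := by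
  by_cases hd : d ∈ IsLocalRing.maximalIdeal ↥A
  · obtain ⟨π, N₀, hN₀, hπs, hπt, -, E, β, hE, hβ, hid⟩ :=
      exists_identity H hs ht (s'' := fun _ => 0) (fun _ => Ideal.zero_mem _) hP hP' hQ₀ hQ₀ hh
        hh0 hdiv hd hd0 (pkg hd) hBR
    have hz : (fun _ : Fin g => mkd d (0 : ↥A)) = fun _ => (0 : Rd d) := by
      funext i
      exact map_zero _
    rw [hz, sig_zero, mul_one] at hid
    exact ⟨N₀, fun N hN i => neg_congr Sys d π hN₀ hN hπs hπt hE hβ hid i⟩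
  · have hu : IsUnit d := by
      by_contra hnu
      exact hd ((IsLocalRing.mem_maximalIdeal _).mpr hnu)
    exact ⟨0, fun N _ i => hu.dvd⟩

end Main

end Fermat.Agent.ES.W33.XiBridgeA7
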