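/-
helper7 — Programme W (S33), chapter G3′: **(Ξc) on the NODAL model in the literal of `V19/XiIface29`**
(the nodal twin of `V19/XiCGlue7`).

* `discFamOf Gi r χ CQ : XiBridgeA7.DiscFam A F g` — the family of the `g` residue discs of a chart `χ` of
  the nodal model: `Gi` the integral functions (`O₁ ⊓ O₂`), `mem i P := r P = Sum.inl (χ.Qbar i)`,
  `τ := χ.t`, `CQ` the local rings of the discs (inside `Gi`).
* `isOne_of_red_eq_one` : helper29's `red h = 1` gives `XiBridgeA7.IsOne`.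
* **`xiCN_of_discs`** : from
    `C : RedCtxN A π N Gi red r`, `LHyp k Ft₁`, `LHyp k Ft₂`, `π` onto, `hχ : ChartHypN A N r χ`,
    `XiAN A N r χ`, `XiAUniqueN r χ` (helper5 `RedDatumN5`), `J1SpecN N r J1`,
    `H : DiscFamHyp (discFamOf Gi r χ CQ) tay`  (Da + Db + Taylor rules + rank one),
    `pkg : ∀ d s'', … → ExpPkgA (discFamOf Gi r χ CQ) Sys tay d s''`   ((Le) at the instance),
  the exit **`XiIface29.XiC A.toSubring J1 (xiN r χ) R (F Sys) (G Sys)`** for every coefficient ring `R` with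
  compatible algebra structures on `A` and `L`.

Proof: as in `V19/XiCGlue7`: coordinates of `y`, `y'`, `y + y'` (resp. `-y`) from `XiAN`; the function `h`
from helper29's `XiAddHN29.exists_h_add / exists_h_neg`; then `XiBridgeA7.add/neg_congr_of_discs`; push
the congruence from `↥A` to `L`.
-/
import Mathlib
import Fermat.Agent.ES.V19.XiIface29
import Fermat.Agent.ES.W33.XiBridgeA7
import Fermat.Agent.ES.W33.XiIfaceN29
import Fermat.Agent.ES.W33.XiAddHN29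

set_option autoImplicit false

noncomputable section

open AlgebraicCurve

namespace Fermat.Agent.ES.W33.XiCGlueN7

open scoped BigOperators
open Fermat.Agent.X0.FF Fermat.Agent.RR.LSpace Fermat.Agent.ES.V19.OnePlaceRep9
  Fermat.Agent.ES.V19.XiAdd7 Fermat.Agent.ES.V19.XiBridge7
  Fermat.Agent.ES.V19.NormalForm23 Fermat.Agent.ES.V19.LaurentMap19 Fermat.Agent.ES.V19.FGLUniv19
  Fermat.Agent.ES.W33.XiIfaceN29 Fermat.Agent.ES.W33.XiBridgeA7 Fermat.Agent.ES.W33.XiAddHN29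

universe u

variable {L : Type u} [Field L] {A : ValuationSubring L}
variable {F : Type*} [Field F] [Algebra L F]
variable {k Ft₁ Ft₂ : Type*} [Field k] [Field Ft₁] [Algebra k Ft₁] [Field Ft₂] [Algebra k Ft₂]
variable {s : ℕ} {g : ℕ}

/-- **The family of residue discs of a chart of the nodal model.** -/
def discFamOf (A : ValuationSubring L) (Gi : Subring F)
    (r : Place L F → SPt k Ft₁ Ft₂ ⊕ Fin s) (χ : ChartN L F k Ft₁ Ft₂ g)
    (CQ : Fin g → Subring F) : DiscFam A F g where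
  Gi := Gi
  mem := fun i P => r P = Sum.inl (χ.Qbar i)
  CQ := CQ
  τ := χ.t

section Basic

variable {Gi : Subring F} {r : Place L F → SPt k Ft₁ Ft₂ ⊕ Fin s} {χ : ChartN L F k Ft₁ Ft₂ g}
  {CQ : Fin g → Subring F}

theorem discFamOf_tauSub (i : Fin g) (a : ↥A) :
    (discFamOf A Gi r χ CQ).tauSub i a = χ.t i - algebraMap L F (a : L) := rfl

/-- `red h = 1` is `IsOne` for the family of discs. -/
theorem isOne_of_red_eq_one {π : ↥A →+* k} {N : Nodes k Ft₁ Ft₂ s} {red : ↥Gi →+* Ft₁ × Ft₂}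
    (C : RedCtxN A π N Gi red r) {h : F} (hh : ∃ hG : h ∈ Gi, red ⟨h, hG⟩ = 1) :
    IsOne (discFamOf A Gi r χ CQ) h := by
  obtain ⟨hG, hred⟩ := hh
  refine ⟨hG, ?_⟩
  obtain ⟨c₁, hc₁, w, hw, e⟩ := small_of_red_eq_one C hG hred
  obtain ⟨ha, hm⟩ := ValuationSubring.mem_nonunits_iff_exists_mem_maximalIdeal.mp hc₁
  exact ⟨⟨c₁, ha⟩, hm, w, hw, e⟩

/-- Coordinates in `𝔪_A` of a class, as elements of `↥A`, with the points carrying them. -/
theorem exists_lift_coords {y : Pic0 L F} {a : Fin g → L}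
    (hXi : IsXiN r χ y a) (ham : ∀ i, a i ∈ A.nonunits) :
    ∃ sA : Fin g → ↥A, (∀ i, ((sA i : ↥A) : L) = a i) ∧
      (∀ i, sA i ∈ IsLocalRing.maximalIdeal ↥A) ∧ ∃ P : Fin g → Place L F,
        (∀ i, (discFamOf A Gi r χ CQ).mem i (P i) ∧
          0 < (P i).ord ((discFamOf A Gi r χ CQ).tauSub i (sA i))) ∧
        IsRep y (redDiv P - χ.E0) := by
  obtain ⟨P, hP, hs, hrep⟩ := hXi
  have hlift : ∀ i, ∃ b : ↥A, (b : L) = a i ∧ b ∈ IsLocalRing.maximalIdeal ↥A := fun i => by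
    obtain ⟨ha, hm⟩ := ValuationSubring.mem_nonunits_iff_exists_mem_maximalIdeal.mp (ham i)
    exact ⟨⟨a i, ha⟩, rfl, hm⟩
  choose sA hsA hsAm using hlift
  refine ⟨sA, hsA, hsAm, P, fun i => ⟨hP i, ?_⟩, hrep⟩
  have h1 := hs i
  rw [← hsA i] at h1
  exact h1

end Basic

section Coe

variable {R : Type*} [CommRing R] [Algebra R ↥A] [Algebra R L]

/-- `aeval` commutes with the inclusion `↥A → L`. -/
theorem coe_aeval (hcomp : ∀ r : R, ((algebraMap R ↥A r : ↥A) : L) = algebraMap R L r)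
    {ι : Type*} (v : ι → ↥A) (p : MvPolynomial ι R) :
    ((MvPolynomial.aeval v p : ↥A) : L) = MvPolynomial.aeval (fun k => ((v k : ↥A) : L)) p := by
  have h1 := MvPolynomial.map_aeval v A.subtype p
  have h2 : A.subtype.comp (algebraMap R ↥A) = algebraMap R L := RingHom.ext hcomp
  rw [h2] at h1
  exact h1

end Coe

section Main

variable {π : ↥A →+* k} {N : Nodes k Ft₁ Ft₂ s} {Gi : Subring F} {red : ↥Gi →+* Ft₁ × Ft₂}
  {r : Place L F → SPt k Ft₁ Ft₂ ⊕ Fin s} {χ : ChartN L F k Ft₁ Ft₂ g}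
  {CQ : Fin g → Subring F} {tay : ∀ i, ↥(CQ i) →+* PowerSeries ↥A}
variable {R : Type u} [CommRing R] [Algebra R ↥A] [Algebra R L]

/-- the uniqueness literal computes `xiN`. -/
theorem xiN_eq (hU : XiAUniqueN r χ) {y : Pic0 L F} {a : Fin g → L} (h : IsXiN r χ y a) :
    xiN r χ y = a := by
  obtain ⟨P, hP, hs, hrep⟩ := h
  have hex : ∃ a, IsXiN r χ y a := ⟨a, P, hP, hs, hrep⟩
  refine (hU y a P hP hs hrep).2 _ ?_
  unfold xiN
  rw [dif_pos hex]
  exact hex.choose_spec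

/-- **(Ξc) on the nodal model, in the literal of `V19/XiIface29`** (see the file header). -/
theorem xiCN_of_discs (C : RedCtxN A π N Gi red r) (HLt₁ : LHyp k Ft₁) (HLt₂ : LHyp k Ft₂)
    (hπ : Function.Surjective π) (hχ : ChartHypN A N r χ)
    (hA : XiAN A N r χ) (hU : XiAUniqueN r χ)
    {J1 : AddSubgroup (Pic0 L F)} (hJ : J1SpecN N r J1)
    (H : DiscFamHyp (discFamOf A Gi r χ CQ) tay)
    (hcomp : ∀ c : R, ((algebraMap R ↥A c : ↥A) : L) = algebraMap R L c)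
    (Sys : NFSystem R g)
    (pkg : ∀ (d : ↥A) (s'' : Fin g → ↥A), d ≠ 0 → d ∈ IsLocalRing.maximalIdeal ↥A →
      (∀ i, s'' i ∈ IsLocalRing.maximalIdeal ↥A) →
      ExpPkgA (discFamOf A Gi r χ CQ) Sys tay d s'')
    (hBR : ∀ (d : ↥A) (x : Lam g (Rd d)), (∀ i, ∀ m : ℤ, m < 0 → (x i).coeff m = 0) →
      x ∈ Sys.BR (Rd d)) :
    Fermat.Agent.ES.V19.XiIface29.XiC A.toSubring J1 (xiN r χ) R
      (Fermat.Agent.ES.V19.FGLUniv19.F Sys) (Fermat.Agent.ES.V19.FGLUniv19.G Sys) := by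
  have hQ₀ : ∀ i, (discFamOf A Gi r χ CQ).mem i (χ.Q i) ∧
      0 < (χ.Q i).ord ((discFamOf A Gi r χ CQ).tauSub i 0) := fun i =>
    ⟨hχ.centre_red i, by
      rw [tauSub_zero]
      exact hχ.centre_zero i⟩
  have hdne : ∀ d : R, algebraMap R L d ≠ 0 → algebraMap R ↥A d ≠ 0 := by
    intro d hd h0
    apply hd
    rw [← hcomp, h0]
    rfl
  refine ⟨?_, ?_⟩
  · -- addition
    intro y hy y' hy' d hd
    obtain ⟨a, hXi, ham⟩ := hA y ((hJ y).mp hy)
    obtain ⟨a', hXi', ham'⟩ := hA y' ((hJ y').mp hy')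
    obtain ⟨a'', hXi'', ham''⟩ := hA (y + y') ((hJ (y + y')).mp (J1.add_mem hy hy'))
    obtain ⟨sA, hsA, hsAm, P, hP, hrep⟩ :=
      exists_lift_coords (Gi := Gi) (CQ := CQ) hXi ham
    obtain ⟨sA', hsA', hsAm', P', hP', hrep'⟩ :=
      exists_lift_coords (Gi := Gi) (CQ := CQ) hXi' ham'
    obtain ⟨sA'', hsA'', hsAm'', P'', hP'', hrep''⟩ :=
      exists_lift_coords (Gi := Gi) (CQ := CQ) hXi'' ham''
    obtain ⟨h, hh0, hh, hdiv⟩ := exists_h_add C HLt₁ HLt₂ hπ hχ (fun i => (hP i).1)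
      (fun i => (hP' i).1) (fun i => (hP'' i).1) hrep hrep' hrep''
    obtain ⟨N₀, hN₀⟩ := add_congr_of_discs (Sys := Sys) H hsAm hsAm' hsAm'' hP hP' hP'' hQ₀
      (isOne_of_red_eq_one C hh) hh0 hdiv (hdne d hd)
      (fun hdm => pkg _ sA'' (hdne d hd) hdm hsAm'') (hBR _)
    refine ⟨N₀, fun n hn i => ?_⟩
    obtain ⟨b, hb⟩ := hN₀ n hn i
    refine ⟨(b : L), b.2, ?_⟩
    rw [xiN_eq hU hXi, xiN_eq hU hXi', xiN_eq hU hXi'']
    have e1 : Sum.elim a a' = fun j => ((Sum.elim sA sA' j : ↥A) : L) := by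
      funext j
      rcases j with j | j
      · exact (hsA j).symm
      · exact (hsA' j).symm
    rw [e1, ← coe_aeval hcomp, ← hsA'' i, ← hcomp d]
    have := congrArg (Subtype.val) hb
    exact this
  · -- inverse
    intro y hy d hd
    obtain ⟨a, hXi, ham⟩ := hA y ((hJ y).mp hy)
    obtain ⟨t, hXi', ham'⟩ := hA (-y) ((hJ (-y)).mp (J1.neg_mem hy))
    obtain ⟨sA, hsA, hsAm, P, hP, hrep⟩ :=
      exists_lift_coords (Gi := Gi) (CQ := CQ) hXi ham
    obtain ⟨tA, htA, htAm, P', hP', hrep'⟩ :=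
      exists_lift_coords (Gi := Gi) (CQ := CQ) hXi' ham'
    obtain ⟨h, hh0, hh, hdiv⟩ := exists_h_neg C HLt₁ HLt₂ hπ hχ (fun i => (hP i).1)
      (fun i => (hP' i).1) hrep hrep'
    obtain ⟨N₀, hN₀⟩ := neg_congr_of_discs (Sys := Sys) H hsAm htAm hP hP' hQ₀
      (isOne_of_red_eq_one C hh) hh0 hdiv (hdne d hd)
      (fun hdm => pkg _ (fun _ => 0) (hdne d hd) hdm fun _ => Ideal.zero_mem _) (hBR _)
    refine ⟨N₀, fun n hn i => ?_⟩
    obtain ⟨b, hb⟩ := hN₀ n hn i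
    refine ⟨(b : L), b.2, ?_⟩
    rw [xiN_eq hU hXi, xiN_eq hU hXi']
    have e1 : a = fun j => ((sA j : ↥A) : L) := by
      funext j
      exact (hsA j).symm
    rw [e1, ← coe_aeval hcomp, ← htA i, ← hcomp d]
    have := congrArg (Subtype.val) hb
    exact this

end Main

end Fermat.Agent.ES.W33.XiCGlueN7
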