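/-
helper7 — Programme W (S33), chapter G3′, **THE LAST JOIN: `GeoW23.G3Exit I` at the nodal instance.**

`g3Exit` : for `I : GeoNames23.NodalInst p M' A` with `hI : NodalInstHyp I` (B3′) and the local expansion
exports `E : DensBaseInstN9.GoodExp I` (B3′: (E1) `LocExpN`, (E2), (Da), (U), (E4)), the exit literal
`GeoW23.G3Exit I` of helper23's join: (Ξc) for THE chart `chartOfN I Q̄` at every good nonspecial family with
an auxiliary good point, at some level above any given one.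

Composition (nothing new is proved here):
* helper9's `DensBaseInstN9.exists_densBase_inst` (G4′ at the instance: level `f₁`, basis data `D` over
  `O_f = fixRing A Γ_f`, the density base `Bs`, the chart equation, (Da) and (U) for `Bs`);
* helper21's `ExpPkgAOfDensN21.discFamHyp / expPkgAAt / hBR_nf` ((Le) ⇒ the package of the bridge);
* helper5's `RedDatumN5.xiAN_of_nodal / xiAUniqueN_of_nodal` ((Ξa)); `GeoNames23.chartHypN_of`;
  helper29's `PrinN29.j1SpecN_j1N`;
* `XiCGlueN7.xiCN_of_discs` (the glue; the bridge is `XiBridgeA7`);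
* main: `ArchVal14.exists_dvd_pow` (rank one), `LHypFt13.lHyp_Ft` (the special fibre),
  `GeoGeneric23.redHypN_main`, `LHypGen.riemann_inequality_of_isGen` (the generic fibre).
The level is `f := f₀ * f₁`; `Fgl := FGLUniv19.F (nfSystem D)`, `Inv := FGLUniv19.G (nfSystem D)`.
-/
import Mathlib
import Fermat.Agent.ES.V19.ArchVal14
import Fermat.Agent.ES.V19.LHypFt13
import Fermat.Agent.ES.W33.GeoW23
import Fermat.Agent.ES.W33.RedDatumN5
import Fermat.Agent.ES.W33.DensBaseInstN9
import Fermat.Agent.ES.W33.ExpPkgAOfDensN21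
import Fermat.Agent.ES.W33.XiCGlueN7

set_option autoImplicit false
set_option linter.unusedSectionVars false
set_option synthInstance.maxHeartbeats 400000
set_option maxHeartbeats 1000000

noncomputable section

open AlgebraicCurve ModularCurve IntermediateField

namespace Fermat.Agent.ES.W33.G3ExitN7

open Fermat.Agent.X0 Fermat.Agent.X0.FF Fermat.Agent.RED.Interface4 Fermat.Agent.RED.BASE
  Fermat.Agent.RED.BASE.Hauptmodul12
  Fermat.Agent.ES.RED Fermat.Agent.ES.RED.Contract8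
  Fermat.Agent.ES.V19.InstNames3 Fermat.Agent.ES.V19.GammaF16 Fermat.Agent.ES.V19.TraceDescent26
  Fermat.Agent.ES.V19.XiEqvInst29 Fermat.Agent.ES.V19.NormalFormBasis14
  Fermat.Agent.ES.V19.NFSystemOfBasis14
  Fermat.Agent.ES.W33.XiIfaceN29 Fermat.Agent.ES.W33.PrinN29
  Fermat.Agent.ES.W33.GeoNames23 Fermat.Agent.ES.W33.GeoW23 Fermat.Agent.ES.W33.GeoGeneric23
  Fermat.Agent.ES.W33.DensityInstN21 Fermat.Agent.ES.W33.ExpPkgOfDensN21
  Fermat.Agent.ES.W33.ExpPkgAOfDensN21 Fermat.Agent.ES.W33.DensBaseInstN9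
  Fermat.Agent.ES.W33.RedDatumN5 Fermat.Agent.ES.W33.XiCGlueN7
open Fermat.Agent.ES.V19.XiIface29 (XiC)
open Fermat.Agent.ES.V19.XiCInst9 (algFix)

attribute [local instance 5000] HahnSeries.powerSeriesAlgebra SubalgebraClass.toAlgebra
attribute [local instance] algFix

local notation "Qb" => AlgebraicClosure ℚ

variable {p M' : ℕ} {A : ValuationSubring Qb}

/-- **(G3′) at the nodal instance**: helper23's exit literal `GeoW23.G3Exit I` from the instance
hypotheses `NodalInstHyp I` and the local expansion exports `GoodExp I` of B3′. -/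
theorem g3Exit (n e M' : ℕ) [NeZero n] [NeZero M'] (p : ℕ) [Fact p.Prime]
    (hpM : ¬ p ∣ M') (hb : BaseHyp n e) (hnM : n ∣ M') (A : ValuationSubring Qb)
    (hA : A.LiesOverPrime p) {I : NodalInst p M' A} (hI : NodalInstHyp I) (E : GoodExp I) :
    G3Exit I := by
  have hp : p.Prime := Fact.out
  have hr := hrV n e M' p hpM hb hnM A hA
  have : IsAlgClosed (kA A) := isAlgClosed_kA A
  have HLt := Fermat.Agent.ES.V19.LHypFt13.lHyp_Ft n e M' p hpM (tMem_of_dvd hb hnM)
    (tGenBase' hb) A hA hr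
  have : NeZero (M' * p) := ⟨Nat.mul_ne_zero (NeZero.ne M') hp.ne_zero⟩
  have HR := redHypN_main n e (M' * p) hb (Dvd.dvd.mul_right hnM p)
  have hR := Fermat.Agent.RR.LHypGen.riemann_inequality_of_isGen
    (hxV n e (M' * p) hb (Dvd.dvd.mul_right hnM p))
  intro Qbar hinj hgood hconst Qs hQs hne f₀ hf₀
  obtain ⟨f₁, hf₁, Hlev⟩ := exists_densBase_inst hI E HR.lhyp hR hinj hgood hconst hQs hne
  refine ⟨f₀ * f₁, Nat.mul_pos hf₀ hf₁, Dvd.intro _ rfl, ?_⟩
  obtain ⟨-, -, -, D, -, -, Bs, hchart, -, -, -, hda, hU⟩ := Hlev (f₀ * f₁) (Dvd.intro_left _ rfl)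
  refine ⟨Fermat.Agent.ES.V19.FGLUniv19.F (nfSystem D),
    Fermat.Agent.ES.V19.FGLUniv19.G (nfSystem D), ?_⟩
  have Hχ := chartHypN_of hI hinj hgood hconst hQs hne
  have hXA := xiAN_of_nodal hI.ctx HR Hχ HLt HLt
  have hXU := xiAUniqueN_of_nodal hI.ctx HR Hχ HLt HLt
  have HD : DiscHypN Bs :=
    ⟨hda, fun s hs _ d hd => Fermat.Agent.ES.V19.ArchVal14.exists_dvd_pow hp hA hs hd⟩
  rw [hchart] at Hχ hXA hXU ⊢
  exact xiCN_of_discs (CQ := fun i => (Bs.X i).CQ) (tay := tayFam Bs) hI.ctx HLt HLt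
    IsLocalRing.residue_surjective Hχ hXA hXU (j1SpecN_j1N I.nodes I.r)
    (discFamHyp Bs HD hU) (fun _ => rfl) (nfSystem D)
    (fun _ _ hd0 _ hs'' => expPkgAAt Bs HD hd0 hs'') (fun d => hBR_nf D d)

end Fermat.Agent.ES.W33.G3ExitN7

end
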