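/-
Programme W (S33), chapter (Ga), THE EXIT OF (Ga) AT THE NODAL INSTANCE (helper13, (Ga) captain).

Names of helper3's `NodalDefs3` (`GN`, `redN`, `rN`, `nodesN`, `NodalRedCtx`, `InertiaInvisible`), the
semilinear action `rhoG := arithmeticGalois` of `Gal(ℚ̄/ℚ)` on `F = ℚ̄·F_{M'p}` (for which the Prelude action
on `JZero (M' * p) = Pic0 ℚ̄ F` is `σ • y = rhoG σ • y` by `rfl`).

* `Ib` : **(I-b)** at the instance — the mixed second difference of every `ξ ≠ 0` along two inertia elements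
  lies in `GN` and reduces to `(1,1)`;
* `Ic` : **(I-c)** at the instance — every place through a node is fixed by inertia or has a Lemma-A element;
* `gaExit` : `NodalRedCtx` + `RedHypN g` + `ChartHypN` + (I-a) `InertiaInvisible` + (I-b) + (I-c) ⊢ for all
  `τ τ'` in the inertia group of `A` and EVERY `x : JZero (M' * p)`:
  `InJ1N nodesN rN (τ' • (τ • x - x) - (τ • x - x))`.
-/
import Mathlib
import Fermat.Agent.ES.W33.NodalDefs3
import Fermat.Agent.ES.W33.GaAbs13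

set_option autoImplicit false
set_option synthInstance.maxHeartbeats 400000
set_option linter.unusedSectionVars false

open ModularCurve AlgebraicCurve

noncomputable section

namespace Fermat.Agent.ES.W33.GaExit13

open Fermat.Agent.RED.Interface4 Fermat.Agent.RED.BASE.Interface12 Fermat.Agent.RED.BASE.Hauptmodul12
  Fermat.Agent.ES.RED.Contract8 Fermat.Agent.ES.RED.ModelInst4 Fermat.Agent.ES.RED.SpecialInv25
  Fermat.Agent.ES.W33.XiIfaceN29 Fermat.Agent.ES.W33.NodalDefs3 Fermat.Agent.ES.W33.GaAbs13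

variable (n e M' : ℕ) [NeZero n] [NeZero M'] (p : ℕ) [Fact p.Prime] (hpM : ¬ p ∣ M')
  (hb : BaseHyp n e) (hnM : n ∣ M') (A : ValuationSubring Qbar) (hA : A.LiesOverPrime p)

/-- the semilinear action of `Gal(ℚ̄/ℚ)` on the function field of the bad level. -/
abbrev rhoG : (Qbar ≃ₐ[ℚ] Qbar) →* SemilinearAut Qbar ↥(Fbar (M' * p)) :=
  arithmeticGalois (modularFunctionFieldFull (M' * p))

/-- **(I-b) at the instance**: second differences along inertia reduce to `(1,1)`. -/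
def Ib : Prop :=
  ∀ τ ∈ A.inertiaSubgroupIn ℚ, ∀ τ' ∈ A.inertiaSubgroupIn ℚ, ∀ ξ : ↥(Fbar (M' * p)), ξ ≠ 0 →
    ∃ h : sd (rhoG M' p τ) (rhoG M' p τ') ξ ∈ GN M' p A, redN M' p A ⟨_, h⟩ = 1

/-- **(I-c) at the instance**: a place through a node is fixed by inertia, or has a Lemma-A element. -/
def Ic : Prop :=
  ∀ (j : Fin (sN n e M' p hpM hb hnM A hA)) (P : Place Qbar ↥(Fbar (M' * p))),
    rN n e M' p hpM hb hnM A hA P = Sum.inr j →
      (∀ τ ∈ A.inertiaSubgroupIn ℚ, rhoG M' p τ • P = P) ∨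
        ∃ ξ : ↥(Fbar (M' * p)), P.ord ξ = 1 ∧
          ∀ P' : Place Qbar ↥(Fbar (M' * p)), P' ≠ P →
            rN n e M' p hpM hb hnM A hA P' = Sum.inr j → P'.ord ξ = 0

/-- **THE EXIT OF (Ga)** at the nodal instance. -/
theorem gaExit (C : NodalRedCtx n e M' p hpM hb hnM A hA) {g : ℕ}
    (H : RedHypN (K := Qbar) (F := ↥(Fbar (M' * p))) g)
    {χ : ChartN Qbar ↥(Fbar (M' * p)) (kA A) (Ft M' A) (Ft M' A) g}
    (hχ : ChartHypN A (nodesN n e M' p hpM hb hnM A hA) (rN n e M' p hpM hb hnM A hA) χ)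
    (hIa : InertiaInvisible n e M' p hpM hb hnM A hA (rhoG M' p))
    (hIb : Ib M' p A) (hIc : Ic n e M' p hpM hb hnM A hA)
    (τ : Qbar ≃ₐ[ℚ] Qbar) (hτ : τ ∈ A.inertiaSubgroupIn ℚ)
    (τ' : Qbar ≃ₐ[ℚ] Qbar) (hτ' : τ' ∈ A.inertiaSubgroupIn ℚ) (x : JZero (M' * p)) :
    InJ1N (nodesN n e M' p hpM hb hnM A hA) (rN n e M' p hpM hb hnM A hA)
      (τ' • (τ • x - x) - (τ • x - x)) := by
  show InJ1N _ _ (rhoG M' p τ' • (rhoG M' p τ • x - x) - (rhoG M' p τ • x - x))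
  refine inJ1N_secondDiff C H hχ (rhoG M' p τ) (rhoG M' p τ') (hIa τ hτ) (hIa τ' hτ')
    (hIb τ hτ τ' hτ') (fun j P hP => ?_) x
  rcases hIc j P hP with h | h
  · exact Or.inl (h τ hτ)
  · exact Or.inr h

end Fermat.Agent.ES.W33.GaExit13
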