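/-
Programme W (S33, SPINE v1.1), THE GEO JOIN, part 4 (helper23): **the nodal instance as a term of
`GeoNames23.NodalInst`**, on helper3's definitions `NodalDefs3` (d2c66c4e).

`nodalInst … Good coord centre : NodalInst p M' A` has `s/nodes/G/red/r := sN/nodesN/GN/redN/rN`; the
three disc-level data `Good`, `coord`, `centre` are PARAMETERS (B3′ chooses them).  The exits (B1′),
(I-b), (I-c) do not depend on them:
* `ibHyp_of` : helper25's `IbInst25.ib_inst` IS `GeoJoinGa23.IbHyp (nodalInst …)`;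
* `ibHyp_of_ib`, `icHyp_of_ic` : helper13's literals `GaExit13.Ib`, `GaExit13.Ic` give `IbHyp`, `IcHyp`;
* `icHyp_iff`, `b1Exit_iff` : the literals of `IcHyp`, `B1Exit` at the instance, in `NodalDefs3` names.
-/
import Mathlib
import Fermat.Agent.ES.W33.GeoW23
import Fermat.Agent.ES.W33.NodalDefs3
import Fermat.Agent.ES.W33.GaExit13

set_option autoImplicit false
set_option linter.unusedSectionVars false
set_option synthInstance.maxHeartbeats 400000

noncomputable section

open AlgebraicCurve ModularCurve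

namespace Fermat.Agent.ES.W33.GeoInst23

open Fermat.Agent.X0 Fermat.Agent.X0.FF Fermat.Agent.RED.Interface4 Fermat.Agent.RED.BASE
  Fermat.Agent.RED.BASE.Interface12 Fermat.Agent.RED.BASE.Hauptmodul12
  Fermat.Agent.ES.RED.Contract8 Fermat.Agent.ES.RED.ModelInst4 Fermat.Agent.ES.V19.InstNames3
  Fermat.Agent.ES.W33.XiIfaceN29 Fermat.Agent.ES.W33.GeoNames23 Fermat.Agent.ES.W33.GeoJoinGa23
  Fermat.Agent.ES.W33.GeoW23 Fermat.Agent.ES.W33.NodalDefs3 Fermat.Agent.ES.W33.GaAbs13

attribute [local instance 5000] HahnSeries.powerSeriesAlgebra SubalgebraClass.toAlgebra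

local notation "Qb" => AlgebraicClosure ℚ

variable (n e M' : ℕ) [NeZero n] [NeZero M'] (p : ℕ) [Fact p.Prime] (hpM : ¬ p ∣ M')
  (hb : BaseHyp n e) (hnM : n ∣ M') (A : ValuationSubring Qb) (hA : A.LiesOverPrime p)

/-- **the nodal instance** on `NodalDefs3`, with the disc-level data as parameters. -/
def nodalInst (Good : SPtW M' A → Prop) (coord : SPtW M' A → FW p M')
    (centre : SPtW M' A → Place Qb (FW p M')) : NodalInst p M' A where
  s := sN n e M' p hpM hb hnM A hA
  nodes := nodesN n e M' p hpM hb hnM A hA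
  G := GN M' p A
  red := redN M' p A
  r := rN n e M' p hpM hb hnM A hA
  Good := Good
  coord := coord
  centre := centre

variable (Good : SPtW M' A → Prop) (coord : SPtW M' A → FW p M')
  (centre : SPtW M' A → Place Qb (FW p M'))

/-- **(I-b)**: the literal proved by helper25's `IbInst25.ib_inst` is `IbHyp` at the instance. -/
theorem ibHyp_of
    (h : ∀ σ ∈ A.inertiaSubgroupIn ℚ, ∀ σ' ∈ A.inertiaSubgroupIn ℚ,
      ∀ ξ : ↥(Fbar (M' * p)), ξ ≠ 0 →
      ∃ h : sd (arithmeticGalois (modularFunctionFieldFull (M' * p)) σ)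
          (arithmeticGalois (modularFunctionFieldFull (M' * p)) σ') ξ ∈ GN M' p A,
        redN M' p A ⟨_, h⟩ = 1) :
    IbHyp (nodalInst n e M' p hpM hb hnM A hA Good coord centre) := h

/-- helper13's `GaExit13.Ib` IS `IbHyp` at the instance. -/
theorem ibHyp_of_ib (h : Fermat.Agent.ES.W33.GaExit13.Ib M' p A) :
    IbHyp (nodalInst n e M' p hpM hb hnM A hA Good coord centre) := h

/-- helper13's `GaExit13.Ic` gives `IcHyp` at the instance. -/
theorem icHyp_of_ic (h : Fermat.Agent.ES.W33.GaExit13.Ic n e M' p hpM hb hnM A hA) :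
    IcHyp (nodalInst n e M' p hpM hb hnM A hA Good coord centre) :=
  fun τ hτ j P hP => (h j P hP).imp (fun h' => h' τ hτ) id

/-- **(I-c)** at the instance, in `NodalDefs3` names. -/
theorem icHyp_iff :
    IcHyp (nodalInst n e M' p hpM hb hnM A hA Good coord centre) ↔
      ∀ τ ∈ A.inertiaSubgroupIn ℚ, ∀ (j : Fin (sN n e M' p hpM hb hnM A hA))
        (P : Place Qb ↥(Fbar (M' * p))), rN n e M' p hpM hb hnM A hA P = Sum.inr j →
        arithmeticGalois (modularFunctionFieldFull (M' * p)) τ • P = P ∨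
          ∃ ξ : ↥(Fbar (M' * p)), P.ord ξ = 1 ∧
            ∀ P' : Place Qb ↥(Fbar (M' * p)), P' ≠ P →
              rN n e M' p hpM hb hnM A hA P' = Sum.inr j → P'.ord ξ = 0 := Iff.rfl

/-- **(B1′)** at the instance, in `NodalDefs3` names. -/
theorem b1Exit_iff :
    B1Exit (nodalInst n e M' p hpM hb hnM A hA Good coord centre) ↔
      (0 < sN n e M' p hpM hb hnM A hA ∧
        genusFF Qb ↥(Fbar (M' * p)) ≤
          genusFF (kA A) (Ft M' A) + sN n e M' p hpM hb hnM A hA - 1 +
            genusFF (kA A) (Ft M' A)) := Iff.rfl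

end Fermat.Agent.ES.W33.GeoInst23
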