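/-
Programme W (S33, SPINE v1.1), THE GEO JOIN, part 6 (helper23): **THE DEFINITION of
`Good / coord / centre`** of the nodal instance, by ONE per-point package, and everything of
`GeoNames23.NodalInstHyp` and of helper9's `DensBaseInstN9.GoodExp` that is per-point.

`I₀ : NodalInst p M' A` is ANY instance datum (only `I₀.s, nodes, G, red, r` are used: the place-level
and function-level data; its own `Good/coord/centre` are ignored).

* `PtPkg I₀ Q` (a `Type`): everything B3′ delivers AT ONE smooth point `Q` (of either component):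
  the coordinate `coord`, (Da) [`val`: the values of the coordinate on the disc lie in `𝔪_A`; `da`: for
  `s ∈ 𝔪_A`, `coord - s` has exactly one zero in the disc, a simple one], (U) `tau_unit`, the level of
  the coordinate `fix`, the local expansion datum `X : LocExpN …` with `(X.τ : F) = coord`, and Taylor's
  formula (E4).  [At the instance: `coord = tN^{±1} - c` on component 1 and `yN^{±1} - c` on
  component 2 (JOIN FLAG F1), from `DiscExitP22.da` + helper21's `LocExp1.toN₁/toN₂`.]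
* `goodInst I₀` : the instance with **`Good Q := Nonempty (PtPkg I₀ Q)`**, `coord`, `centre` chosen;
* `nodalInstHyp_goodInst` : `NodalInstHyp (goodInst I₀)` from the NON-per-point facts only: `ctx`,
  `nodes_inj`, `r_smul_inertia`, the place half of `level` (helper1's `LevelFibre1.exists_level_disc`),
  and **`hfin : {Q | IsEmpty (PtPkg I₀ Q)}.Finite`** (all but finitely many points have a package);
* `goodExp_goodInst : GoodExp (goodInst I₀)` — UNCONDITIONAL.
-/
import Mathlib
import Fermat.Agent.ES.W33.GeoNames23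
import Fermat.Agent.ES.W33.DensBaseInstN9

set_option autoImplicit false
set_option linter.unusedSectionVars false
set_option synthInstance.maxHeartbeats 400000

noncomputable section

open AlgebraicCurve ModularCurve

namespace Fermat.Agent.ES.W33.GoodPts23

open Fermat.Agent.X0.FF Fermat.Agent.ES.V19.GammaF16 Fermat.Agent.ES.V19.TraceDescent26
  Fermat.Agent.ES.V19.XiEqvInst29
  Fermat.Agent.ES.W33.XiIfaceN29 Fermat.Agent.ES.W33.DensityInstN21 Fermat.Agent.ES.W33.GeoNames23
  Fermat.Agent.ES.W33.DensBaseInstN9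

attribute [local instance 5000] HahnSeries.powerSeriesAlgebra SubalgebraClass.toAlgebra

local notation "Qb" => AlgebraicClosure ℚ

variable {p M' : ℕ} {A : ValuationSubring Qb}

/-- **everything B3′ delivers at ONE smooth point `Q`.** -/
structure PtPkg (I₀ : NodalInst p M' A) (Q : SPtW M' A) where
  /-- the coordinate of the disc of `Q` -/
  coord : FW p M'
  /-- (Da), first half: the values of the coordinate on the disc lie in `𝔪_A` -/
  val : ∀ P : Place Qb (FW p M'), I₀.r P = Sum.inl Q →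
    ∃ a ∈ A.nonunits, 0 < P.ord (coord - algebraMap Qb (FW p M') a)
  /-- (Da), second half: for `s ∈ 𝔪_A`, `coord - s` has exactly one zero in the disc, a simple one -/
  da : ∀ s : ↥A, s ∈ IsLocalRing.maximalIdeal ↥A →
    ∃ P : Place Qb (FW p M'), I₀.r P = Sum.inl Q ∧
      P.ord (coord - algebraMap Qb (FW p M') (s : Qb)) = 1 ∧
      ∀ P' : Place Qb (FW p M'), I₀.r P' = Sum.inl Q →
        0 < P'.ord (coord - algebraMap Qb (FW p M') (s : Qb)) → P' = P
  /-- (U) -/
  tau_unit : ∀ s : ↥A, s ∈ IsLocalRing.maximalIdeal ↥A →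
    (coord - algebraMap Qb (FW p M') (s : Qb))⁻¹ ∈ I₀.G
  /-- the coordinate is fixed by some `Γ_f` -/
  fix : ∃ f₀ : ℕ, 0 < f₀ ∧ ∀ σ : ↥(gammaF A p f₀),
    rho (A := A) (M := M' * p) p f₀ σ • coord = coord
  /-- (E1) -/
  X : LocExpN (A := A) I₀.G I₀.red I₀.r (IsLocalRing.residue ↥A) Q
  /-- (E2) -/
  tau_eq : ((X.τ : ↥X.CQ) : FW p M') = coord
  /-- (E4) -/
  taylor : ∀ (n : ℕ) (c : ↥X.CQ), ∃ b : ↥X.CQ,
    c = ∑ j ∈ Finset.range n, X.constC (PowerSeries.coeff j (X.tay c)) * X.τ ^ j + X.τ ^ n * b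

variable (I₀ : NodalInst p M' A)

/-- **GOOD** := the point has a package. -/
def GoodN (Q : SPtW M' A) : Prop := Nonempty (PtPkg I₀ Q)

/-- the chosen package at a good point. -/
def pkg {Q : SPtW M' A} (h : GoodN I₀ Q) : PtPkg I₀ Q := Classical.choice h

open Classical in
/-- **the coordinate** at a good point (`0` elsewhere). -/
def coordN (Q : SPtW M' A) : FW p M' :=
  if h : GoodN I₀ Q then (pkg I₀ h).coord else 0

theorem coordN_eq {Q : SPtW M' A} (h : GoodN I₀ Q) : coordN I₀ Q = (pkg I₀ h).coord :=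
  dif_pos h

theorem zero_mem_max : (0 : ↥A) ∈ IsLocalRing.maximalIdeal ↥A := Ideal.zero_mem _

open Classical in
/-- **the centre** of the disc of a good point: the zero of its coordinate (junk elsewhere). -/
def centreN [Nonempty (Place Qb (FW p M'))] (Q : SPtW M' A) : Place Qb (FW p M') :=
  if h : GoodN I₀ Q then Classical.choose ((pkg I₀ h).da 0 zero_mem_max)
  else Classical.arbitrary _

variable [Nonempty (Place Qb (FW p M'))]

theorem centreN_spec {Q : SPtW M' A} (h : GoodN I₀ Q) :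
    I₀.r (centreN I₀ Q) = Sum.inl Q ∧ (centreN I₀ Q).ord (coordN I₀ Q) = 1 := by
  have hs := Classical.choose_spec ((pkg I₀ h).da 0 zero_mem_max)
  have hc : centreN I₀ Q = Classical.choose ((pkg I₀ h).da 0 zero_mem_max) := dif_pos h
  rw [hc, coordN_eq I₀ h]
  have e : (pkg I₀ h).coord - algebraMap Qb (FW p M') ((0 : ↥A) : Qb) = (pkg I₀ h).coord := by
    rw [ZeroMemClass.coe_zero, map_zero, sub_zero]
  exact ⟨hs.1, (congrArg (Place.ord _) e).symm.trans hs.2.1⟩

/-- **the instance with the chosen `Good / coord / centre`.** -/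
def goodInst : NodalInst p M' A where
  s := I₀.s
  nodes := I₀.nodes
  G := I₀.G
  red := I₀.red
  r := I₀.r
  Good := GoodN I₀
  coord := coordN I₀
  centre := centreN I₀

/-- membership in `𝔪_A` and in `A.nonunits`. -/
theorem coe_mem_nonunits {s : ↥A} (hs : s ∈ IsLocalRing.maximalIdeal ↥A) : (s : Qb) ∈ A.nonunits := by
  rw [IsLocalRing.mem_maximalIdeal, mem_nonunits_iff] at hs
  exact (A.coe_mem_nonunits_iff).2 hs

theorem exists_of_mem_nonunits {a : Qb} (ha : a ∈ A.nonunits) :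
    ∃ s : ↥A, s ∈ IsLocalRing.maximalIdeal ↥A ∧ (s : Qb) = a := by
  have haA : a ∈ A := A.nonunits_le ha
  refine ⟨⟨a, haA⟩, ?_, rfl⟩
  rw [IsLocalRing.mem_maximalIdeal, mem_nonunits_iff]
  exact (A.coe_mem_nonunits_iff (a := ⟨a, haA⟩)).1 ha

/-- **`NodalInstHyp` of the chosen instance**, from the facts which are NOT per-point. -/
theorem nodalInstHyp_goodInst
    (ctx : RedCtxN A (IsLocalRing.residue ↥A) I₀.nodes I₀.G I₀.red I₀.r)
    (nodes_inj : Function.Injective I₀.nodes.ν₁)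
    (hfin : {Q : SPtW M' A | IsEmpty (PtPkg I₀ Q)}.Finite)
    (level_place : ∀ Q : SPtW M' A, ∃ f₀ : ℕ, 0 < f₀ ∧ ∀ (σ : ↥(gammaF A p f₀))
      (P : Place Qb (FW p M')), I₀.r P = Sum.inl Q →
        I₀.r (rho (A := A) (M := M' * p) p f₀ σ • P) = Sum.inl Q)
    (r_smul_inertia : ∀ τ ∈ A.inertiaSubgroupIn ℚ, ∀ P : Place Qb (FW p M'),
      I₀.r (arithmeticGalois (modularFunctionFieldFull (M' * p)) τ • P) = I₀.r P) :
    NodalInstHyp (goodInst I₀) where
  ctx := ctx
  nodes_inj := nodes_inj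
  bad_finite := by
    refine hfin.subset fun Q hQ => ?_
    show IsEmpty (PtPkg I₀ Q)
    exact not_nonempty_iff.1 hQ
  centre_red := fun Q hQ => (centreN_spec I₀ hQ).1
  centre_zero := fun Q hQ => by
    show 0 < (centreN I₀ Q).ord (coordN I₀ Q)
    rw [(centreN_spec I₀ hQ).2]
    exact one_pos
  val_mem := fun Q hQ P hP => by
    show ∃ a ∈ A.nonunits, 0 < P.ord (coordN I₀ Q - algebraMap Qb (FW p M') a)
    rw [coordN_eq I₀ hQ]
    exact (pkg I₀ hQ).val P hP
  val_unique := fun Q hQ a ha => by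
    show ∃! P : Place Qb (FW p M'), I₀.r P = Sum.inl Q ∧
      0 < P.ord (coordN I₀ Q - algebraMap Qb (FW p M') a)
    rw [coordN_eq I₀ hQ]
    obtain ⟨s, hs, rfl⟩ := exists_of_mem_nonunits ha
    obtain ⟨P, hPQ, hP1, huniq⟩ := (pkg I₀ hQ).da s hs
    refine ⟨P, ⟨hPQ, by rw [hP1]; exact one_pos⟩, fun P' hP' => huniq P' hP'.1 hP'.2⟩
  level := fun Q hQ => by
    obtain ⟨f₁, hf₁, h₁⟩ := (pkg I₀ hQ).fix
    obtain ⟨f₂, hf₂, h₂⟩ := level_place Q
    refine ⟨f₁ * f₂, Nat.mul_pos hf₁ hf₂, fun σ => ?_⟩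
    have hle₁ : gammaF A p (f₁ * f₂) ≤ gammaF A p f₁ := gammaF_anti (Dvd.intro _ rfl)
    have hle₂ : gammaF A p (f₁ * f₂) ≤ gammaF A p f₂ := gammaF_anti (Dvd.intro_left _ rfl)
    refine ⟨?_, fun P hP => ?_⟩
    · show rho (A := A) (M := M' * p) p (f₁ * f₂) σ • coordN I₀ Q = coordN I₀ Q
      rw [coordN_eq I₀ hQ, rho_incl (M' := M') hle₁ σ]
      exact h₁ _
    · show I₀.r (rho (A := A) (M := M' * p) p (f₁ * f₂) σ • P) = Sum.inl Q
      rw [rho_incl (M' := M') hle₂ σ]
      exact h₂ _ P hP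
  r_smul_inertia := r_smul_inertia

/-- **`GoodExp` of the chosen instance** (helper9's contract for G4′/(Le)/(Ξc)): unconditional. -/
def goodExp_goodInst : GoodExp (goodInst I₀) where
  X := fun Q hQ => (pkg I₀ hQ).X
  tau_eq := fun Q hQ => by
    show (((pkg I₀ hQ).X.τ : ↥(pkg I₀ hQ).X.CQ) : FW p M') = coordN I₀ Q
    rw [coordN_eq I₀ hQ]
    exact (pkg I₀ hQ).tau_eq
  da := fun Q hQ s hs => by
    show ∃ P : Place Qb (FW p M'), I₀.r P = Sum.inl Q ∧
      P.ord (coordN I₀ Q - algebraMap Qb (FW p M') (s : Qb)) = 1 ∧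
      ∀ P' : Place Qb (FW p M'), I₀.r P' = Sum.inl Q →
        0 < P'.ord (coordN I₀ Q - algebraMap Qb (FW p M') (s : Qb)) → P' = P
    rw [coordN_eq I₀ hQ]
    exact (pkg I₀ hQ).da s hs
  tau_unit := fun Q hQ s hs => by
    show (coordN I₀ Q - algebraMap Qb (FW p M') (s : Qb))⁻¹ ∈ I₀.G
    rw [coordN_eq I₀ hQ]
    exact (pkg I₀ hQ).tau_unit s hs
  taylor := fun Q hQ n c => (pkg I₀ hQ).taylor n c

end Fermat.Agent.ES.W33.GoodPts23
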