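/-
Programme W (S33), chapter (Ga), literal (I-b), component `i = 2` (helper25): **the Fricke involution
`W_N` of `Fbar N` commutes with the coefficientwise Galois action** (the `ℚ̄`-level twin of
`N34/FrickeFK8.frickeFK_arithmeticRingAut`), and the consequences for the mixed second difference.

* `arithmeticRingAut_jdF` : the generators `x_d = j(q^d)` have rational `q`-expansions, so they are
  fixed by the coefficientwise action of every `σ : ℚ̄ ≃ₐ[ℚ] ℚ̄`;
* **`frickeBar_arithmeticRingAut`** : `W (σ f) = σ (W f)` (`W x_d = x_{N/d}` and `W` is `ℚ̄`-linear, `σ`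
  fixes the `x_d` and acts on `ℚ̄` — compare on `ℚ̄[x_d] ` and pass to fractions);
* `frickeBarEquiv_arithmeticRingAut` : the same for the `AlgEquiv`;
* `map_secondDiff` (abstract) : a ring automorphism `w` commuting with `g`, `g'` commutes with the
  mixed second difference, `w (secondDiff g g' f) = secondDiff g g' (w f)`;
* `frickeBarEquiv_secondDiff` : the instance `w = W_N`, `g, g' =` two Galois automorphisms.
-/
import Mathlib
import Fermat.Agent.ES.N34.FrickeFK8
import Fermat.Agent.ES.N34.GalGauss21

set_option autoImplicit false

noncomputable section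

namespace Fermat.Agent.ES.W33.FrickeGal25

open Fermat.Agent.X0 ModularCurve Fermat.Agent.ES.N34.FrickeFK8
open Fermat.Agent.ES.N34.GalGauss21 (secondDiff)

/-! ### abstract: automorphisms commuting with `g`, `g'` commute with the second difference -/

section Abstract

variable {F : Type*} [Field F]

theorem map_secondDiff (w g g' : F ≃+* F) (hg : ∀ f, w (g f) = g (w f))
    (hg' : ∀ f, w (g' f) = g' (w f)) (f : F) :
    w (secondDiff g g' f) = secondDiff g g' (w f) := by
  show w (g' (g f / f) / (g f / f)) = g' (g (w f) / w f) / (g (w f) / w f)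
  rw [map_div₀, hg', map_div₀, hg]

end Abstract

/-! ### the Fricke involution is rational -/

variable (N : ℕ) [NeZero N]

/-- the generators `x_d` are Galois-fixed. -/
theorem arithmeticRingAut_jdF (σ : Kbar ≃ₐ[ℚ] Kbar) (d : ℕ) [NeZero d] (hd : d ∣ N) :
    arithmeticRingAut (modularFunctionFieldFull N) σ (jdF N d hd) = jdF N d hd := by
  apply Subtype.ext
  rw [coe_arithmeticRingAut_apply, FracR.coe_jdF, coeffMap_coeffEmb]

/-- **`W_N` commutes with the coefficientwise Galois action.** -/
theorem frickeBar_arithmeticRingAut (σ : Kbar ≃ₐ[ℚ] Kbar) (f : FF N) :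
    frickeBar N (arithmeticRingAut (modularFunctionFieldFull N) σ f) =
      arithmeticRingAut (modularFunctionFieldFull N) σ (frickeBar N f) := by
  have hR : ∀ u : Rsub N,
      frickeBar N (arithmeticRingAut (modularFunctionFieldFull N) σ (u : FF N)) =
        arithmeticRingAut (modularFunctionFieldFull N) σ (frickeBar N (u : FF N)) := by
    intro u
    induction u using FracR.Rsub_induction with
    | hgen d hd =>
        obtain ⟨e, hde⟩ := hd
        have he0 : e ≠ 0 := by
          rintro rfl
          exact NeZero.ne N (by rw [hde, mul_zero])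
        have : NeZero e := ⟨he0⟩
        rw [FracR.coe_jdR, arithmeticRingAut_jdF, frickeBar_jdF N d e hde.symm,
          arithmeticRingAut_jdF]
    | hconst c =>
        show frickeBar N (arithmeticRingAut (modularFunctionFieldFull N) σ
            (algebraMap Kbar (FF N) c)) =
          arithmeticRingAut (modularFunctionFieldFull N) σ (frickeBar N (algebraMap Kbar (FF N) c))
        rw [arithmeticRingAut_algebraMap, (frickeBar N).commutes, (frickeBar N).commutes,
          arithmeticRingAut_algebraMap]
    | hadd u v hu hv =>
        show frickeBar N (arithmeticRingAut (modularFunctionFieldFull N) σ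
            ((u : FF N) + (v : FF N))) =
          arithmeticRingAut (modularFunctionFieldFull N) σ (frickeBar N ((u : FF N) + (v : FF N)))
        rw [map_add, map_add, hu, hv, map_add, map_add]
    | hmul u v hu hv =>
        show frickeBar N (arithmeticRingAut (modularFunctionFieldFull N) σ
            ((u : FF N) * (v : FF N))) =
          arithmeticRingAut (modularFunctionFieldFull N) σ (frickeBar N ((u : FF N) * (v : FF N)))
        rw [map_mul, map_mul, hu, hv, map_mul, map_mul]
  obtain ⟨r, s, rfl⟩ := FracR.exists_div N f
  rw [map_div₀, map_div₀, hR r, hR s, map_div₀, map_div₀]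

theorem frickeBarEquiv_arithmeticRingAut (σ : Kbar ≃ₐ[ℚ] Kbar) (f : FF N) :
    frickeBarEquiv N (arithmeticRingAut (modularFunctionFieldFull N) σ f) =
      arithmeticRingAut (modularFunctionFieldFull N) σ (frickeBarEquiv N f) :=
  frickeBar_arithmeticRingAut N σ f

/-- **`W_N` commutes with the mixed second difference of two Galois automorphisms.** -/
theorem frickeBarEquiv_secondDiff (σ σ' : Kbar ≃ₐ[ℚ] Kbar) (f : FF N) :
    frickeBarEquiv N (secondDiff (arithmeticRingAut (modularFunctionFieldFull N) σ)
        (arithmeticRingAut (modularFunctionFieldFull N) σ') f) =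
      secondDiff (arithmeticRingAut (modularFunctionFieldFull N) σ)
        (arithmeticRingAut (modularFunctionFieldFull N) σ') (frickeBarEquiv N f) :=
  map_secondDiff (frickeBarEquiv N : FF N ≃+* FF N) _ _
    (fun f => frickeBar_arithmeticRingAut N σ f) (fun f => frickeBar_arithmeticRingAut N σ' f) f

end Fermat.Agent.ES.W33.FrickeGal25
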