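/-
Programme W (S33), chapter (Ga), literal (I-b) (helper25): **the mixed second difference has
reduction `1`, in the fraction vocabulary of `V19/GaussFrac15`** (`IsGI`, `IsGU`, `IsRedOf`,
`gaussInt`, `rho`) — the form in which B3′ presents each Gauss valuation of the nodal model
(`O_i = gaussInt B_i red_i`, `B_i` a (localised) chart ring of the component `C_i`,
`red_i : B_i →+* F̃` INTO A FIELD).

`G ⊂ F` a subring, `red : G →+* Ft`, `g : F ≃+* F`.
* `IsRedFix G red g` : `g G ⊆ G` and `red (g b) = red b` (an inertia element acts coefficientwise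
  on `A`-integral expansions and is the identity on the residue field of `A`);
* `IsRedFix.isRedOf_map` : then `IsRedOf G red f φ → IsRedOf G red (g f) φ` (so `g` preserves
  `gaussInt G red`, Gauss units, and `rho`);
* `isGU_ratio_of_scale` : if every `f ≠ 0` is `c · u`, `c` in a set `C` of "constants", `u` a Gauss
  unit, and `g c / c` is a Gauss unit for `c ∈ C`, then `g f / f` is a Gauss unit for every `f ≠ 0`
  (`v ∘ g = v`);
* **`isRedOf_secondDiff`** : `IsRedOf G red (secondDiff g g' f) 1` for every `f ≠ 0`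
  (`secondDiff g g' f = g'(g f / f)/(g f / f) = (g' g f · f)/(g' f · g f)`, `N34/GalGauss21`);
* `secondDiff_mem_gaussInt`, `rho_secondDiff` : the same as a statement about `gaussInt`/`rho`.
-/
import Mathlib
import Fermat.Agent.ES.N34.GalGauss21
import Fermat.Agent.ES.V19.GaussFrac15

set_option autoImplicit false

noncomputable section

namespace Fermat.Agent.ES.W33.SecondDiffFrac25

open Fermat.Agent.ES.N34.GalGauss21 (secondDiff)
open Fermat.Agent.ES.V19.GaussFrac15

variable {F Ft : Type*} [Field F] [Field Ft] {G : Subring F} {red : ↥G →+* Ft}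

/-- `g` maps `G` into itself and commutes with the reduction. -/
structure IsRedFix (G : Subring F) (red : ↥G →+* Ft) (g : F ≃+* F) : Prop where
  map_mem : ∀ b : F, b ∈ G → g b ∈ G
  red_map : ∀ (b : F) (hb : b ∈ G), red ⟨g b, map_mem b hb⟩ = red ⟨b, hb⟩

/-- `g` preserves reductions of Gauss-integral functions. -/
theorem IsRedFix.isRedOf_map {g : F ≃+* F} (hg : IsRedFix G red g) {f : F} {φ : Ft}
    (h : IsRedOf G red f φ) : IsRedOf G red (g f) φ := by
  obtain ⟨a, b, hb, hab, hφ⟩ := h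
  refine ⟨⟨g a, hg.map_mem _ a.2⟩, ⟨g b, hg.map_mem _ b.2⟩, ?_, ?_, ?_⟩
  · rw [hg.red_map]; exact hb
  · show g f * g (b : F) = g (a : F)
    rw [← map_mul, hab]
  · rw [hg.red_map, hg.red_map]; exact hφ

theorem IsRedFix.isGI_map {g : F ≃+* F} (hg : IsRedFix G red g) {f : F} (h : IsGI G red f) :
    IsGI G red (g f) := by
  obtain ⟨φ, hφ⟩ := h.exists_isRedOf
  exact (hg.isRedOf_map hφ).isGI

theorem IsRedFix.isGU_map {g : F ≃+* F} (hg : IsRedFix G red g) {f : F} (h : IsGU G red f) :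
    IsGU G red (g f) := by
  obtain ⟨φ, hφ0, hφ⟩ := h.exists_isRedOf
  exact (hg.isRedOf_map hφ).isGU hφ0

/-- `v ∘ g = v` from a scaling property. -/
theorem isGU_ratio_of_scale {g : F ≃+* F} (hg : IsRedFix G red g) (C : Set F)
    (hscale : ∀ f : F, f ≠ 0 → ∃ c ∈ C, c ≠ 0 ∧ IsGU G red (c⁻¹ * f))
    (hC : ∀ c ∈ C, c ≠ 0 → IsGU G red (g c / c)) {f : F} (hf : f ≠ 0) :
    IsGU G red (g f / f) := by
  obtain ⟨c, hcC, hc0, hu⟩ := hscale f hf
  have hgc0 : g c ≠ 0 := (map_ne_zero_iff g g.injective).mpr hc0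
  have e : g f / f = g c / c * (g (c⁻¹ * f) * (c⁻¹ * f)⁻¹) := by
    rw [map_mul, map_inv₀]
    field_simp
  rw [e]
  exact (hC c hcC hc0).mul ((hg.isGU_map hu).mul hu.inv)

/-- **(I-b), one component: the mixed second difference reduces to `1`.** -/
theorem isRedOf_secondDiff {g g' : F ≃+* F} (hg : ∀ f : F, f ≠ 0 → IsGU G red (g f / f))
    (hg' : IsRedFix G red g') {f : F} (hf : f ≠ 0) : IsRedOf G red (secondDiff g g' f) 1 := by
  obtain ⟨φ, hφ0, hφ⟩ := (hg f hf).exists_isRedOf
  have h1 := hg'.isRedOf_map hφ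
  have h2 := h1.mul (hφ.inv hφ0)
  rw [mul_inv_cancel₀ hφ0] at h2
  unfold secondDiff
  rw [div_eq_mul_inv]
  exact h2

theorem secondDiff_mem_gaussInt {g g' : F ≃+* F}
    (hg : ∀ f : F, f ≠ 0 → IsGU G red (g f / f)) (hg' : IsRedFix G red g') {f : F}
    (hf : f ≠ 0) : secondDiff g g' f ∈ gaussInt G red :=
  (isRedOf_secondDiff hg hg' hf).isGI

theorem rho_secondDiff {g g' : F ≃+* F} (hg : ∀ f : F, f ≠ 0 → IsGU G red (g f / f))
    (hg' : IsRedFix G red g') {f : F} (hf : f ≠ 0) :
    rho G red ⟨secondDiff g g' f, secondDiff_mem_gaussInt hg hg' hf⟩ = 1 :=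
  rho_eq_of_isRedOf (isRedOf_secondDiff hg hg' hf)

end Fermat.Agent.ES.W33.SecondDiffFrac25
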