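/-
Programme W (S33), chapter (Ga), **literal (I-b) AT THE INSTANCE `NodalDefs3`** (helper25): for two
automorphisms `σ, σ' : ℚ̄ ≃ₐ[ℚ] ℚ̄` acting coefficientwise on `F = Fbar (M' p)`, the mixed second
difference `sd (ρ σ) (ρ σ') ξ` of every `ξ ≠ 0` lies in `GN = O1 ⊓ O2` and `redN` of it is `1 = (1, 1)` —
exactly the hypothesis `hsd` of `GaAbs13.inJ1N_secondDiff` at `τ = ρ σ`, `τ' = ρ σ'`,
`ρ = arithmeticGalois (modularFunctionFieldFull (M' * p))`.

INPUTS (both about the FIRST Gauss valuation only — the expansion at `∞`; the second component is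
reduced to the first one by `FrickeGal25`: `W` commutes with the Galois action, hence with `sd`):
* `(V₁)` for `σ`  : `∀ f ≠ 0, IsGU Gq1 redq1 (σ f / f)`      (`v₁ ∘ σ = v₁`);
* `(R₁)` for `σ'` : `IsRedFix Gq1 redq1 σ'`                  (`σ'` preserves the ring of `A`-integral
  `q`-expansions and is trivial on its reduction).
For `σ, σ' ∈ I_A` both hold (`σ` acts on `A`-integral `q`-expansions coefficientwise, preserves `A` and is
the identity on its residue field; `(V₁)` from `(R₁)` + scaling by `SecondDiffFrac25.isGU_ratio_of_scale`).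

* `sd_eq_secondDiff` : `GaAbs13.sd τ τ' ξ = GalGauss21.secondDiff τ τ' ξ` for `ξ ≠ 0`;
* `ib_core` : the statement for two given `σ, σ'` from `(V₁) σ`, `(R₁) σ'`;
* **`ib_inst`** : the literal over the inertia group, from `(V₁)`, `(R₁)` over the inertia group; binder
  order `σ hσ σ' hσ' ξ hξ`, so that `ib_inst M' p A hV hR : GaExit13.Ib M' p A` and
  `: GeoJoinGa23.IbHyp I` for every `I` with `I.G = GN M' p A`, `I.red = redN M' p A` (by `rfl`).
-/
import Mathlib
import Fermat.Agent.ES.W33.NodalDefs3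
import Fermat.Agent.ES.W33.GaAbs13
import Fermat.Agent.ES.W33.SecondDiffFrac25
import Fermat.Agent.ES.W33.FrickeGal25

set_option autoImplicit false
set_option synthInstance.maxHeartbeats 400000
set_option linter.unusedSectionVars false

open HahnSeries ModularCurve AlgebraicCurve

noncomputable section

namespace Fermat.Agent.ES.W33.IbInst25

open Fermat.Agent.RED.Interface4 Fermat.Agent.ES.RED.Contract8
  Fermat.Agent.ES.N34.FrickeFK8 Fermat.Agent.X0
  Fermat.Agent.ES.V19.GaussFrac15 Fermat.Agent.ES.W33.NodalDefs3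
  Fermat.Agent.ES.W33.SecondDiffFrac25 Fermat.Agent.ES.W33.FrickeGal25
open Fermat.Agent.ES.N34.GalGauss21 (secondDiff)
open Fermat.Agent.ES.W33.GaAbs13 (sd)

attribute [local instance 5000] HahnSeries.powerSeriesAlgebra SubalgebraClass.toAlgebra

/-! ### the two notations for the second difference agree -/

section Abstract

variable {K F : Type*} [Field K] [Field F] [Algebra K F]

theorem sd_eq_secondDiff (τ τ' : SemilinearAut K F) {ξ : F} (hξ : ξ ≠ 0) :
    sd τ τ' ξ = secondDiff (SemilinearAut.toRingAut τ) (SemilinearAut.toRingAut τ') ξ := by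
  have h1 : SemilinearAut.toRingAut τ ξ ≠ 0 :=
    (map_ne_zero_iff _ (SemilinearAut.toRingAut τ).injective).mpr hξ
  have h2 : SemilinearAut.toRingAut τ' ξ ≠ 0 :=
    (map_ne_zero_iff _ (SemilinearAut.toRingAut τ').injective).mpr hξ
  have h3 : SemilinearAut.toRingAut τ' (SemilinearAut.toRingAut τ ξ) ≠ 0 :=
    (map_ne_zero_iff _ (SemilinearAut.toRingAut τ').injective).mpr h1
  show SemilinearAut.toRingAut τ' (SemilinearAut.toRingAut τ ξ) * ξ /
      (SemilinearAut.toRingAut τ' ξ * SemilinearAut.toRingAut τ ξ) =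
    SemilinearAut.toRingAut τ' (SemilinearAut.toRingAut τ ξ / ξ) /
      (SemilinearAut.toRingAut τ ξ / ξ)
  rw [map_div₀]
  field_simp

end Abstract

/-! ### the instance -/

variable (M' : ℕ) [NeZero M'] (p : ℕ) [Fact p.Prime] (A : ValuationSubring Qbar)

/-- **(I-b) for two given automorphisms**, from `(V₁)` for the first and `(R₁)` for the second. -/
theorem ib_core (σ σ' : Qbar ≃ₐ[ℚ] Qbar)
    (hV : ∀ f : ↥(Fbar (M' * p)), f ≠ 0 →
      IsGU (Gq1 M' p A) (redq1 M' p A)
        (arithmeticRingAut (modularFunctionFieldFull (M' * p)) σ f / f))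
    (hR : IsRedFix (Gq1 M' p A) (redq1 M' p A)
      (arithmeticRingAut (modularFunctionFieldFull (M' * p)) σ'))
    (ξ : ↥(Fbar (M' * p))) (hξ : ξ ≠ 0) :
    ∃ h : sd (arithmeticGalois (modularFunctionFieldFull (M' * p)) σ)
        (arithmeticGalois (modularFunctionFieldFull (M' * p)) σ') ξ ∈ GN M' p A,
      redN M' p A ⟨_, h⟩ = 1 := by
  rw [sd_eq_secondDiff _ _ hξ]
  show ∃ h : secondDiff (arithmeticRingAut (modularFunctionFieldFull (M' * p)) σ)
      (arithmeticRingAut (modularFunctionFieldFull (M' * p)) σ') ξ ∈ GN M' p A,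
    redN M' p A ⟨_, h⟩ = 1
  have hWξ : frickeN M' p ξ ≠ 0 :=
    (map_ne_zero_iff _ (frickeN M' p).injective).mpr hξ
  have h1 := isRedOf_secondDiff hV hR hξ
  have h2 := isRedOf_secondDiff hV hR hWξ
  rw [← frickeBarEquiv_secondDiff (M' * p) σ σ' ξ] at h2
  have hO1 : secondDiff (arithmeticRingAut (modularFunctionFieldFull (M' * p)) σ)
      (arithmeticRingAut (modularFunctionFieldFull (M' * p)) σ') ξ ∈ O1 M' p A := h1.isGI
  have hO2 : secondDiff (arithmeticRingAut (modularFunctionFieldFull (M' * p)) σ)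
      (arithmeticRingAut (modularFunctionFieldFull (M' * p)) σ') ξ ∈ O2 M' p A :=
    (mem_O2_iff M' p A _).mpr h2.isGI
  refine ⟨⟨hO1, hO2⟩, ?_⟩
  refine Prod.ext ?_ ?_
  · rw [redN_fst]
    exact rho_eq_of_isRedOf h1
  · rw [redN_snd, rho2_apply]
    exact rho_eq_of_isRedOf h2

/-- **(I-b) at the instance**: the hypothesis `hsd` of `GaAbs13.inJ1N_secondDiff` for every pair of
inertia elements, from `(V₁)`, `(R₁)` over the inertia group. -/
theorem ib_inst
    (hV : ∀ σ ∈ A.inertiaSubgroupIn ℚ, ∀ f : ↥(Fbar (M' * p)), f ≠ 0 →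
      IsGU (Gq1 M' p A) (redq1 M' p A)
        (arithmeticRingAut (modularFunctionFieldFull (M' * p)) σ f / f))
    (hR : ∀ σ ∈ A.inertiaSubgroupIn ℚ, IsRedFix (Gq1 M' p A) (redq1 M' p A)
      (arithmeticRingAut (modularFunctionFieldFull (M' * p)) σ))
    (σ : Qbar ≃ₐ[ℚ] Qbar) (hσ : σ ∈ A.inertiaSubgroupIn ℚ)
    (σ' : Qbar ≃ₐ[ℚ] Qbar) (hσ' : σ' ∈ A.inertiaSubgroupIn ℚ)
    (ξ : ↥(Fbar (M' * p))) (hξ : ξ ≠ 0) :
    ∃ h : sd (arithmeticGalois (modularFunctionFieldFull (M' * p)) σ)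
        (arithmeticGalois (modularFunctionFieldFull (M' * p)) σ') ξ ∈ GN M' p A,
      redN M' p A ⟨_, h⟩ = 1 :=
  ib_core M' p A σ σ' (hV σ hσ) (hR σ' hσ') ξ hξ

end Fermat.Agent.ES.W33.IbInst25
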