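/-
Programme W (S33), chapter (Ga), literal (I-b), FIRST Gauss valuation (helper15), v2 (trimmed to what
`IbExit15` uses): **inertia acts on the Gauss ring of the `q`-expansion at `∞` compatibly with the
reduction, and the decomposition group preserves the valuation of `A`.**
`G := GaussRing15.gaussRing A (residue A) (laurentBaseChange ℚ̄ F₀) Et`, `red := gaussRed …`
(ANY `F₀`, ANY `Et ≤ k̄((q))`; helper3's `NodalDefs3.Gq1` is the case `F₀ = F_{M'p}`, `Et = F̃_{M'}`).

* `galois_div_self_mem` : `τ ∈ D_A`, `c ≠ 0` ⇒ `τ c / c ∈ Aˣ` (a power of `τ` fixes `c`; the telescoping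
  product of the conjugates of a non-unit would be `1`);
* `arith_mem_gaussRing`, `gaussRed_arith` : `τ ∈ I_A` maps `G` to itself and commutes with `red`
  (coefficientwise action on `A`-integral expansions, trivial on the residue field);
* `const_mem_gaussInt` : constants of `A` are Gauss-integral.
-/
import Mathlib
import Fermat.Agent.ES.RED.GaloisRed21
import Fermat.Agent.ES.RED.GaussRing15
import Fermat.Agent.ES.V19.GaussFrac15

set_option autoImplicit false
set_option linter.unusedSectionVars false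

open HahnSeries ModularCurve AlgebraicCurve

noncomputable section

namespace Fermat.Agent.ES.W33.IbOne15

open Fermat.Agent.ES.RED.GaloisRed21 Fermat.Agent.ES.RED.GaussRing15
  Fermat.Agent.ES.V19.GaussFrac15

local notation "Qb" => AlgebraicClosure ℚ
local notation "GQ" => (AlgebraicClosure ℚ ≃ₐ[ℚ] AlgebraicClosure ℚ)

/-! ### the decomposition group preserves the valuation of `A` -/

section Decomp

variable (A : ValuationSubring Qb)

/-- some positive power of `τ` fixes `c` (`c` is algebraic over `ℚ`). -/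
theorem exists_pow_fix (τ : GQ) (c : Qb) : ∃ m : ℕ, 0 < m ∧ (τ ^ m) c = c := by
  have : Algebra.IsAlgebraic ℚ Qb := AlgebraicClosure.isAlgebraic ℚ
  have hint : IsIntegral ℚ c := (Algebra.IsAlgebraic.isAlgebraic c).isIntegral
  have hmem : ∀ i : ℕ, (τ ^ i) c ∈ (minpoly ℚ c).rootSet Qb := fun i => by
    rw [Polynomial.mem_rootSet]
    refine ⟨minpoly.ne_zero hint, ?_⟩
    have e : Polynomial.aeval ((τ ^ i) c) (minpoly ℚ c) =
        (τ ^ i) (Polynomial.aeval c (minpoly ℚ c)) :=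
      Polynomial.aeval_algHom_apply ((τ ^ i : GQ) : Qb →ₐ[ℚ] Qb) c (minpoly ℚ c)
    rw [e, minpoly.aeval, map_zero]
  obtain ⟨a, b, hab, h⟩ := Set.Finite.exists_lt_map_eq_of_forall_mem hmem
    (Polynomial.rootSet_finite _ _)
  refine ⟨b - a, Nat.sub_pos_of_lt hab, ?_⟩
  have e : τ ^ b = τ ^ a * τ ^ (b - a) := by rw [← _root_.pow_add, Nat.add_sub_cancel' hab.le]
  rw [e, AlgEquiv.mul_apply] at h
  exact ((τ ^ a).injective h).symm

/-- elements of the decomposition group map `A` to `A`. -/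
theorem decomp_mem {τ : GQ} (hτ : τ ∈ A.decompositionSubgroup ℚ) {x : Qb} (hx : x ∈ A) :
    τ x ∈ A := (sigmaA A ⟨τ, hτ⟩ ⟨x, hx⟩).2

/-- elements of the decomposition group map non-units to non-units. -/
theorem decomp_nonunit {τ : GQ} (hτ : τ ∈ A.decompositionSubgroup ℚ) {x : Qb}
    (hxi : x⁻¹ ∉ A) : (τ x)⁻¹ ∉ A := by
  intro h
  apply hxi
  have h1 := decomp_mem A (inv_mem hτ) h
  rwa [← map_inv₀, show (τ⁻¹ : GQ) (τ x⁻¹) = x⁻¹ from AlgEquiv.symm_apply_apply τ _] at h1

/-- the product of `m ≥ 1` conjugates of a non-unit of `A` under the powers of `τ ∈ D_A` is a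
non-unit of `A`. -/
theorem prod_conj_nonunit {τ : GQ} (hτ : τ ∈ A.decompositionSubgroup ℚ) {x : Qb}
    (hx : x ∈ A) (hxi : x⁻¹ ∉ A) (m : ℕ) :
    (∏ i ∈ Finset.range (m + 1), (τ ^ i) x) ∈ A ∧ (∏ i ∈ Finset.range (m + 1), (τ ^ i) x)⁻¹ ∉ A := by
  induction m with
  | zero =>
    rw [Finset.prod_range_one, pow_zero]
    exact ⟨hx, hxi⟩
  | succ m ih =>
    rw [Finset.prod_range_succ]
    have hτm : τ ^ (m + 1) ∈ A.decompositionSubgroup ℚ := pow_mem hτ _
    have h1 := decomp_mem A hτm hx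
    refine ⟨A.mul_mem _ _ ih.1 h1, fun h => ih.2 ?_⟩
    rw [mul_inv] at h
    have := A.mul_mem _ _ h h1
    by_cases h0 : (τ ^ (m + 1)) x = 0
    · exfalso
      apply decomp_nonunit A hτm hxi
      rw [h0, inv_zero]; exact A.zero_mem
    · rwa [mul_assoc, inv_mul_cancel₀ h0, mul_one] at this

/-- telescoping: `∏_{i<m} τ^i (τ c / c) = τ^m c / c`. -/
theorem prod_conj_div (τ : GQ) {c : Qb} (hc : c ≠ 0) (m : ℕ) :
    (∏ i ∈ Finset.range m, (τ ^ i) (τ c / c)) = (τ ^ m) c / c := by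
  induction m with
  | zero => rw [Finset.prod_range_zero, pow_zero, AlgEquiv.one_apply, div_self hc]
  | succ m ih =>
    rw [Finset.prod_range_succ, ih, map_div₀, pow_succ, AlgEquiv.mul_apply]
    have h0 : (τ ^ m) c ≠ 0 := (map_ne_zero_iff _ (τ ^ m).injective).mpr hc
    field_simp

/-- a non-unit of the shape `τ c / c`, `τ ∈ D_A`, does not exist. -/
theorem not_nonunit_div {τ : GQ} (hτ : τ ∈ A.decompositionSubgroup ℚ) {c : Qb} (hc : c ≠ 0)
    (hx : τ c / c ∈ A) : (τ c / c)⁻¹ ∈ A := by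
  by_contra hxi
  obtain ⟨m, hm, hfix⟩ := exists_pow_fix τ c
  obtain ⟨m', rfl⟩ : ∃ m', m = m' + 1 := ⟨m - 1, (Nat.sub_add_cancel hm).symm⟩
  have h := (prod_conj_nonunit A hτ hx hxi m').2
  rw [prod_conj_div τ hc, hfix, div_self hc, inv_one] at h
  exact h A.one_mem

/-- **the decomposition group preserves the valuation**: `τ c / c ∈ Aˣ`. -/
theorem galois_div_self_mem {τ : GQ} (hτ : τ ∈ A.decompositionSubgroup ℚ) {c : Qb} (hc : c ≠ 0) :
    τ c / c ∈ A ∧ (τ c / c)⁻¹ ∈ A := by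
  have hτc : τ c ≠ 0 := (map_ne_zero_iff _ τ.injective).mpr hc
  rcases A.mem_or_inv_mem (τ c / c) with h | h
  · exact ⟨h, not_nonunit_div A hτ hc h⟩
  · -- `(τ c / c)⁻¹ = τ⁻¹ c' / c'` with `c' = τ c`
    have e : (τ c / c)⁻¹ = (τ⁻¹ : GQ) (τ c) / τ c := by
      rw [show (τ⁻¹ : GQ) (τ c) = c from AlgEquiv.symm_apply_apply τ c, inv_div]
    rw [e] at h
    have h2 := not_nonunit_div A (inv_mem hτ) hτc h
    rw [← e] at h h2
    rw [inv_inv] at h2
    exact ⟨h2, h⟩

end Decomp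

/-! ### inertia on the Gauss ring -/

section Gauss

variable (A : ValuationSubring Qb) (F₀ : IntermediateField ℚ (LaurentSeries ℚ))
  (Et : IntermediateField (IsLocalRing.ResidueField ↥A) (LaurentSeries (IsLocalRing.ResidueField ↥A)))

local notation "E" => laurentBaseChange Qb F₀

/-- the Gauss ring `G` (abbreviation of `GaussRing15.gaussRing`). -/
abbrev GR : Subring ↥(laurentBaseChange Qb F₀) :=
  gaussRing A (IsLocalRing.residue ↥A) (laurentBaseChange Qb F₀) Et

/-- its reduction (abbreviation of `GaussRing15.gaussRed`). -/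
abbrev redGR : ↥(GR A F₀ Et) →+* ↥Et :=
  gaussRed A (IsLocalRing.residue ↥A) (laurentBaseChange Qb F₀) Et

local notation "G" => GR A F₀ Et
local notation "redG" => redGR A F₀ Et

/-- an inertia element lies in the decomposition group. -/
theorem mem_decomp_of_mem_inertia {τ : GQ} (hτ : τ ∈ A.inertiaSubgroupIn ℚ) :
    τ ∈ A.decompositionSubgroup ℚ := (psiRes_eq_one_of_mem_inertia A hτ).1

/-- the expansion of `τ f` from an `A`-integral expansion of `f`, `τ ∈ D_A`. -/
theorem coeffMap_subtype_sigmaA' {τ : GQ} (hτ : τ ∈ A.decompositionSubgroup ℚ)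
    (Y : LaurentSeries ↥A) (f : ↥E) (hY : coeffMap A.subtype Y = (f : LaurentSeries Qb)) :
    coeffMap A.subtype (coeffMap (sigmaA A ⟨τ, hτ⟩) Y) =
      ((arithmeticRingAut F₀ τ f : ↥E) : LaurentSeries Qb) := by
  rw [coeffMap_subtype_sigmaA, hY, coe_arithmeticRingAut_apply]
  exact coeffMap_congr (RingHom.ext fun _ => rfl) _

/-- the reduction of the expansion of `τ f`, `τ ∈ I_A`, is the reduction of the expansion of `f`. -/
theorem coeffMap_residue_sigmaA' {τ : GQ} (hτ : τ ∈ A.inertiaSubgroupIn ℚ) (Y : LaurentSeries ↥A) :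
    coeffMap (IsLocalRing.residue ↥A)
        (coeffMap (sigmaA A ⟨τ, mem_decomp_of_mem_inertia A hτ⟩) Y) =
      coeffMap (IsLocalRing.residue ↥A) Y := by
  obtain ⟨h, h1⟩ := psiRes_eq_one_of_mem_inertia A hτ
  rw [coeffMap_residue_sigmaA, h1]
  have e : ((RingEquiv.refl (IsLocalRing.ResidueField ↥A) : _ ≃+* _) :
      IsLocalRing.ResidueField ↥A →+* IsLocalRing.ResidueField ↥A) = RingHom.id _ :=
    RingHom.ext fun _ => rfl
  rw [coeffMap_congr e, coeffMap_id]

/-- **inertia maps the Gauss ring to itself …** -/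
theorem arith_mem_gaussRing {τ : GQ} (hτ : τ ∈ A.inertiaSubgroupIn ℚ) (a : ↥G) :
    arithmeticRingAut F₀ τ (a : ↥E) ∈ G := by
  obtain ⟨Y, hY, hYt⟩ := a.2
  refine ⟨coeffMap (sigmaA A ⟨τ, mem_decomp_of_mem_inertia A hτ⟩) Y,
    coeffMap_subtype_sigmaA' A F₀ _ Y _ hY, ?_⟩
  rw [coeffMap_residue_sigmaA' A hτ]
  exact hYt

/-- **… and commutes with the reduction.** -/
theorem gaussRed_arith {τ : GQ} (hτ : τ ∈ A.inertiaSubgroupIn ℚ) (a : ↥G) :
    redG ⟨arithmeticRingAut F₀ τ (a : ↥E), arith_mem_gaussRing A F₀ Et hτ a⟩ = redG a := by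
  obtain ⟨Y, hY, hYt⟩ := a.2
  apply Subtype.ext
  rw [gaussRed_eq A _ _ Et _ (coeffMap_subtype_sigmaA' A F₀ (mem_decomp_of_mem_inertia A hτ) Y _ hY),
    coeffMap_residue_sigmaA' A hτ, gaussRed_eq A _ _ Et a hY]

variable {A F₀ Et}

/-- constants of `A` are Gauss-integral. -/
theorem const_mem_gaussInt {c : Qb} (hc : c ∈ A) : algebraMap Qb ↥E c ∈ gaussInt G redG :=
  le_gaussInt (GR A F₀ Et) (redGR A F₀ Et)
    (algebraMap_mem_gaussRing A (IsLocalRing.residue ↥A) (laurentBaseChange Qb F₀) Et ⟨c, hc⟩)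

end Gauss

end Fermat.Agent.ES.W33.IbOne15
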