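/-
Programme W (S33), chapters (Ga)/(B3′), helper25: **SCALING FOR THE FIRST GAUSS VALUATION AT THE BAD
LEVEL** `N' = M' * p`, `p ∤ M'`, residue characteristic `p`.

Every nonzero `f ∈ Fbar (M' * p)` is `c · u` with `c ∈ ℚ̄ˣ` and `u` a Gauss unit for
`(Gq1, redq1)` of `NodalDefs3` (fraction `a / b` of two `A`-integral `q`-expansions whose reductions are
NONZERO AND LIE IN `F̃_{M'}`): the valuation `v₁` is defined on all of `F` with the value group of `A`,
`O1 = gaussInt Gq1 redq1` is its valuation ring and `F̃_{M'}` its residue field.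

This is the twin of `V19/ScaleQbar8.exists_scale` (good level).  The only new input is the residue
field at the bad level: over a large number field `K`, Programme N's
`CombA26.hcombAt_of` (`O1 = α(Ov_{M'}) + π O1`: V1 + V2 degree count `n' + p n' = [F_{M'p} : K(t)]`) gives
`resField (A ∩ K) (K·F_{M'p}) ⊆ resField (A ∩ K) (K·F_{M'}) = κ·F̃_{M'}` (`redL_mem_fullC_bad`).

* `redL_mem_fullC_bad`, `coeffMap_residue_mem_bad` : the residue of an integral series in `K·F_{M'p}`
  lies in `F̃_{M'}`;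
* **`exists_scale_bad`** : scale₁ in the names of `NodalDefs3` (parameter block of `NodalDefs3`; the
  Hauptmodul base `(n, e)` only serves to choose the number field: `j ∈ K(t)`, `t ∈ K·F_{M'}`).
-/
import Mathlib
import Fermat.Agent.ES.V19.ScaleQbar8
import Fermat.Agent.ES.N34.CombA26
import Fermat.Agent.ES.W33.NodalDefs3

set_option autoImplicit false
set_option linter.style.haveILetI false
set_option linter.unusedSectionVars false
set_option synthInstance.maxHeartbeats 400000

noncomputable section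

open HahnSeries ModularCurve IntermediateField

namespace Fermat.Agent.ES.W33.ScaleOne25

open Fermat.Agent.RED.PUR.GaussGen8 Fermat.Agent.RED.PUR.KtGauss8
open Fermat.Agent.RED.PUR.GaussBridge10 Fermat.Agent.RED.PUR.GaussInst25
open Fermat.Agent.RED.PUR Fermat.Agent.IG.PR
open Fermat.Agent.RED.Interface4 Fermat.Agent.RED.DESC Fermat.Agent.RED.DESC.NumberFieldDVR27
open Fermat.Agent.RED.BASE.EtaQuot12 Fermat.Agent.RED.BASE.Hauptmodul12
  Fermat.Agent.RED.BASE.Interface12
open Fermat.Agent.ES.RED.GaussUnit25 Fermat.Agent.ES.RED.GaussRing15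
open Fermat.Agent.ES.RED.Contract8
open Fermat.Agent.ES.V19.GaussFrac15 Fermat.Agent.ES.V19.ScaleQbar8
open Fermat.Agent.ES.N34.ModelDefs9 Fermat.Agent.ES.N34.CombA26
open Fermat.Agent.ES.W33.NodalDefs3

attribute [local instance 5000] HahnSeries.powerSeriesAlgebra SubalgebraClass.toAlgebra

variable (A : ValuationSubring Qbar) (K : IntermediateField ℚ Qbar)

/-- **The residue field of `v₁` at the bad level is `κ·F̃_{M'}`**: the reduction of an integral series
over `A ∩ K` lying in `K·F_{M' q}` lies in `κ(j̃(q^d) : d ∣ M')`. -/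
theorem redL_mem_fullC_bad [FiniteDimensional ℚ K] {n e : ℕ} [NeZero n] (q : ℕ) [Fact q.Prime]
    [NeZero q] (hA : A.LiesOverPrime q) (M' : ℕ) [NeZero M'] (hqM : ¬ q ∣ M')
    (hcomb : HcombAt n e q M' A K) (ht : tq (↥K) n e ∈ FK M' K)
    (a : LaurentSeries ↥(AK A K)) (haE : embK (AK A K) a ∈ FK (M' * q) K) :
    redL (AK A K) a ∈ modularFunctionFieldFullC (Res (AK A K)) M' := by
  haveI : IsDiscreteValuationRing ↥(AK A K) :=
    isDiscreteValuationRing_AK A K (Fact.out : q.Prime).ne_zero hA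
  obtain ⟨π, hπ⟩ := IsDiscreteValuationRing.exists_irreducible ↥(AK A K)
  have hu := isUnif_of_irreducible (AK A K) hπ
  have hE : FK (M' * q) K ≤ fracField (AK A K) := FK_le_fracField A K (M' * q)
  have hx : (⟨embK (AK A K) a, haE⟩ : FK (M' * q) K) ∈ O1 M' q hu hE :=
    (mem_O1_iff M' q hu hE _).mpr (embK_mem (AK A K) a)
  obtain ⟨z, hz, c, hc, h⟩ := hcomb ht hE π hu _ hx
  have hcG : ((c : FK (M' * q) K) : LaurentSeries K) ∈ gaussRing (AK A K) :=
    (mem_O1_iff M' q hu hE c).mp hc
  have h' : embK (AK A K) a - ((z : FK M' K) : LaurentSeries K) =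
      HahnSeries.C (((π : ↥(AK A K)) : K)) * ((c : FK (M' * q) K) : LaurentSeries K) := by
    have h1 := congrArg (fun y : FK (M' * q) K => (y : LaurentSeries K)) h
    have h2 : ((algebraMap ↥(AK A K) ↥(FK (M' * q) K) π : FK (M' * q) K) : LaurentSeries K) =
        HahnSeries.C (((π : ↥(AK A K)) : K)) :=
      Fermat.Agent.RED.NumInst4.coe_algebraMap_OE (AK A K) (FK (M' * q) K) π
    have h3 : ((alpha K M' q z : FK (M' * q) K) : LaurentSeries K) = (z : LaurentSeries K) :=
      coe_alpha K M' q z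
    calc embK (AK A K) a - ((z : FK M' K) : LaurentSeries K)
        = (((⟨embK (AK A K) a, haE⟩ : FK (M' * q) K) - alpha K M' q z : FK (M' * q) K) :
            LaurentSeries K) := by
          rw [← h3]; rfl
      _ = ((algebraMap ↥(AK A K) ↥(FK (M' * q) K) π * c : FK (M' * q) K) : LaurentSeries K) := h1
      _ = _ := by rw [← h2]; rfl
  have hred : gaussRed (AK A K) ⟨embK (AK A K) a, embK_mem (AK A K) a⟩ -
      gaussRed (AK A K) ⟨((z : FK M' K) : LaurentSeries K), hz⟩ =
      gaussRed (AK A K) (constG (AK A K) π) *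
        gaussRed (AK A K) ⟨((c : FK (M' * q) K) : LaurentSeries K), hcG⟩ := by
    rw [← map_sub, ← map_mul]
    congr 1
    exact Subtype.ext h'
  rw [gaussRed_unif hu, zero_mul, sub_eq_zero, gaussRed_embK] at hred
  rw [hred, ← resField_FK_eq A K q hA M' hqM]
  exact ⟨((z : FK M' K) : LaurentSeries K), hz, z.2, rfl⟩

/-- the same over `ℚ̄`: the reduction mod `𝔪_A` lies in `F̃_{M'}`. -/
theorem coeffMap_residue_mem_bad [FiniteDimensional ℚ K] {n e : ℕ} [NeZero n] (q : ℕ)
    [Fact q.Prime] [NeZero q] (hA : A.LiesOverPrime q) (M' : ℕ) [NeZero M'] (hqM : ¬ q ∣ M')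
    (hcomb : HcombAt n e q M' A K) (ht : tq (↥K) n e ∈ FK M' K)
    (a : LaurentSeries ↥(AK A K)) (haE : embK (AK A K) a ∈ FK (M' * q) K) :
    coeffMap (IsLocalRing.residue ↥A) (coeffMap (incl A K) a) ∈
      modularFunctionFieldFullC (IsLocalRing.ResidueField ↥A) M' := by
  rw [coeffMap_residue_incl]
  exact coeffMap_mem_fullC (resMap A K) M' (redL_mem_fullC_bad A K q hA M' hqM hcomb ht a haE)

variable (n e M' : ℕ) [NeZero n] [NeZero M'] (p : ℕ) [Fact p.Prime] (hpM : ¬ p ∣ M')
  (hb : BaseHyp n e) (hnM : n ∣ M') (hA : A.LiesOverPrime p)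

include hpM hb hnM hA in
/-- **scale₁ at the bad level**: every nonzero function of `Fbar (M' * p)` is a nonzero constant times
a Gauss unit of the first Gauss valuation. -/
theorem exists_scale_bad (f : ↥(Fbar (M' * p))) (hf0 : f ≠ 0) :
    ∃ c : Qbar, c ≠ 0 ∧
      IsGU (Gq1 M' p A) (redq1 M' p A) ((algebraMap Qbar ↥(Fbar (M' * p)) c)⁻¹ * f) := by
  haveI := isAlgebraic_Qbar
  haveI : NeZero p := ⟨(Fact.out : p.Prime).ne_zero⟩
  -- the large number field
  obtain ⟨K₁, hK₁, hJ⟩ := Fermat.Agent.RED.ModelFinal4.jTarget (tGenBase' hb)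
  obtain ⟨K₂, hK₂, hT⟩ := Fermat.Agent.RED.ModelFinal4.tTarget M' (tMem_of_dvd hb hnM)
  haveI := hK₁
  haveI := hK₂
  obtain ⟨K, hK₀, hfin, x', hx', hx'f⟩ :=
    CoeffDescent1.exists_finite_descent (L := Qbar) (F₀ := modularFunctionFieldFull (M' * p))
      (K₁ ⊔ K₂) f.2
  haveI := hfin
  have hjt := hJ K hfin (le_sup_left.trans hK₀)
  have ht := hT K hfin (le_sup_right.trans hK₀)
  have hcomb : HcombAt n e p M' A K := hcombAt_of (Fact.out : p.Prime) hpM hA K hjt
  haveI : IsDiscreteValuationRing ↥(AK A K) :=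
    isDiscreteValuationRing_AK A K (Fact.out : p.Prime).ne_zero hA
  obtain ⟨π, hπ⟩ := IsDiscreteValuationRing.exists_irreducible ↥(AK A K)
  have hu := isUnif_of_irreducible (AK A K) hπ
  have hx'C : x' ∈ modularFunctionFieldFullC ↥K (M' * p) := by
    rw [← DegBaseChange25.laurentBaseChange_full_eq]; exact hx'
  have hx'0 : x' ≠ 0 := by
    rintro rfl
    rw [map_zero] at hx'f
    exact hf0 (Subtype.ext hx'f.symm)
  obtain ⟨c, a, b, hc0, haE, hbE, hared, hbred, hrel⟩ :=
    exists_integral_fraction hu (M' * p) hx'C hx'0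
  have haF : embK (AK A K) a ∈ FK (M' * p) K := by
    show _ ∈ laurentBaseChange ↥K (modularFunctionFieldFull (M' * p))
    rw [DegBaseChange25.laurentBaseChange_full_eq]; exact haE
  have hbF : embK (AK A K) b ∈ FK (M' * p) K := by
    show _ ∈ laurentBaseChange ↥K (modularFunctionFieldFull (M' * p))
    rw [DegBaseChange25.laurentBaseChange_full_eq]; exact hbE
  have hya := coeffMap_subtype_mem A K (M' * p) a haE
  have hyb := coeffMap_subtype_mem A K (M' * p) b hbE
  have hyat := coeffMap_residue_mem_bad A K p hA M' hpM hcomb ht a haF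
  have hybt := coeffMap_residue_mem_bad A K p hA M' hpM hcomb ht b hbF
  -- the two elements of the Gauss ring
  set ga : ↥(Gq1 M' p A) :=
    ⟨⟨coeffMap A.subtype (coeffMap (incl A K) a), hya⟩,
      mem_gaussRing_of_coeffMap A (resA A) _ _ _ hya hyat⟩ with hga
  set gb : ↥(Gq1 M' p A) :=
    ⟨⟨coeffMap A.subtype (coeffMap (incl A K) b), hyb⟩,
      mem_gaussRing_of_coeffMap A (resA A) _ _ _ hyb hybt⟩ with hgb
  have hreda : redq1 M' p A ga ≠ 0 := by
    intro h0
    have h1 := gaussRed_mk A (resA A) (Fbar (M' * p)) (modularFunctionFieldFullC (kA A) M') _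
      hya hyat
    rw [← hga] at h1
    rw [h1] at h0
    exact coeffMap_residue_ne_zero A K a hared (congrArg Subtype.val h0)
  have hredb : redq1 M' p A gb ≠ 0 := by
    intro h0
    have h1 := gaussRed_mk A (resA A) (Fbar (M' * p)) (modularFunctionFieldFullC (kA A) M') _
      hyb hybt
    rw [← hgb] at h1
    rw [h1] at h0
    exact coeffMap_residue_ne_zero A K b hbred (congrArg Subtype.val h0)
  have hcQ : algebraMap K Qbar c ≠ 0 := by
    rw [Ne, map_eq_zero]; exact hc0
  -- the relation `f * yb = c * ya`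
  have hrelQ : f * ((gb : ↥(Gq1 M' p A)) : ↥(Fbar (M' * p))) =
      algebraMap Qbar _ (algebraMap K Qbar c) * ((ga : ↥(Gq1 M' p A)) : ↥(Fbar (M' * p))) := by
    apply Subtype.ext
    show (f : LaurentSeries Qbar) * coeffMap A.subtype (coeffMap (incl A K) b) =
      algebraMap Qbar (LaurentSeries Qbar) (algebraMap K Qbar c) *
        coeffMap A.subtype (coeffMap (incl A K) a)
    rw [coeffMap_subtype_incl, coeffMap_subtype_incl, ← hx'f, ← map_mul, hrel, map_mul,
      GaussGen8.coeffMap_C, algebraMap_eq_C (K := Qbar)]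
  refine ⟨algebraMap K Qbar c, hcQ, ga, gb, hreda, hredb, ?_⟩
  have hcF : algebraMap Qbar ↥(Fbar (M' * p)) (algebraMap K Qbar c) ≠ 0 := by
    rw [Ne, map_eq_zero]; exact hcQ
  rw [mul_assoc, hrelQ, ← mul_assoc, inv_mul_cancel₀ hcF, one_mul]

end Fermat.Agent.ES.W33.ScaleOne25
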