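/-
Programme W (S33), chapter (Ga): **(I-b) AT THE NODAL INSTANCE, HYPOTHESIS-FREE** (helper15).

`ib : GaExit13.Ib M' p A` — for `τ, τ' ∈ I_A` and every `ξ ≠ 0` of `F = ℚ̄·F_{M'p}` the mixed second
difference `sd (ρ τ) (ρ τ') ξ` lies in `GN = O1 ⊓ O2` and reduces to `(1, 1)` — from

* helper25's assembly `IbInst25.ib_inst hV hR` (second valuation by Fricke transport),
* `hR` (R₁) := `IbOne15.arith_mem_gaussRing` / `gaussRed_arith` (inertia maps the Gauss ring `Gq1` to
  itself and commutes with `redq1`), in helper25's `SecondDiffFrac25.IsRedFix` form,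
* `hV` (V₁) := `SecondDiffFrac25.isGU_ratio_of_scale hR (range algebraMap) scale₁ units`, with
  scale₁ := helper25's `ScaleOne25.exists_scale_bad` (the bad level) and the constants by
  `IbOne15.galois_div_self_mem` (the decomposition group preserves the valuation of `A`).
-/
import Mathlib
import Fermat.Agent.ES.W33.IbOne15
import Fermat.Agent.ES.W33.IbInst25
import Fermat.Agent.ES.W33.ScaleOne25
import Fermat.Agent.ES.W33.GaExit13

set_option autoImplicit false
set_option synthInstance.maxHeartbeats 400000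
set_option linter.unusedSectionVars false

open HahnSeries ModularCurve AlgebraicCurve

noncomputable section

namespace Fermat.Agent.ES.W33.IbExit15

open Fermat.Agent.RED.Interface4 Fermat.Agent.RED.BASE.Interface12 Fermat.Agent.RED.BASE.Hauptmodul12
  Fermat.Agent.ES.RED.Contract8 Fermat.Agent.ES.RED.GaussRing15
  Fermat.Agent.ES.V19.GaussFrac15 Fermat.Agent.ES.W33.NodalDefs3
  Fermat.Agent.ES.W33.SecondDiffFrac25 Fermat.Agent.ES.W33.IbOne15

attribute [local instance 5000] HahnSeries.powerSeriesAlgebra SubalgebraClass.toAlgebra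

variable (n e M' : ℕ) [NeZero n] [NeZero M'] (p : ℕ) [Fact p.Prime] (hpM : ¬ p ∣ M')
  (hb : BaseHyp n e) (hnM : n ∣ M') (A : ValuationSubring Qbar) (hA : A.LiesOverPrime p)

/-- **(R₁)**: an inertia element maps `Gq1` to itself and commutes with `redq1`. -/
theorem hR (σ : Qbar ≃ₐ[ℚ] Qbar) (hσ : σ ∈ A.inertiaSubgroupIn ℚ) :
    IsRedFix (Gq1 M' p A) (redq1 M' p A)
      (arithmeticRingAut (modularFunctionFieldFull (M' * p)) σ) where
  map_mem b hb :=
    arith_mem_gaussRing A (modularFunctionFieldFull (M' * p))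
      (modularFunctionFieldFullC (kA A) M') hσ ⟨b, hb⟩
  red_map b hb :=
    gaussRed_arith A (modularFunctionFieldFull (M' * p))
      (modularFunctionFieldFullC (kA A) M') hσ ⟨b, hb⟩

/-- a nonzero function which is Gauss-integral together with its inverse is a Gauss unit. -/
theorem isGU_of_isGI_of_inv {f : ↥(Fbar (M' * p))} (hf : f ≠ 0)
    (h : IsGI (Gq1 M' p A) (redq1 M' p A) f) (h' : IsGI (Gq1 M' p A) (redq1 M' p A) f⁻¹) :
    IsGU (Gq1 M' p A) (redq1 M' p A) f := by
  obtain ⟨φ, hφ⟩ := h.exists_isRedOf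
  obtain ⟨ψ, hψ⟩ := h'.exists_isRedOf
  have h1 := hφ.mul hψ
  rw [mul_inv_cancel₀ hf] at h1
  have e : (1 : ↥(modularFunctionFieldFullC (kA A) M')) = φ * ψ := isRedOf_one.unique h1
  refine hφ.isGU fun h0 => one_ne_zero (α := ↥(modularFunctionFieldFullC (kA A) M')) ?_
  rw [e, h0, zero_mul]

/-- a constant which is a unit of `A` is a Gauss unit. -/
theorem isGU_const {c : Qbar} (hc : c ≠ 0) (h1 : c ∈ A) (h2 : c⁻¹ ∈ A) :
    IsGU (Gq1 M' p A) (redq1 M' p A) (algebraMap Qbar ↥(Fbar (M' * p)) c) := by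
  refine isGU_of_isGI_of_inv M' p A (by rw [Ne, map_eq_zero]; exact hc)
    (const_mem_gaussInt h1) ?_
  rw [← map_inv₀]
  exact const_mem_gaussInt h2

include hpM hb hnM hA in
/-- **(V₁)**: inertia preserves the first Gauss valuation: `σ f / f` is a Gauss unit. -/
theorem hV (σ : Qbar ≃ₐ[ℚ] Qbar) (hσ : σ ∈ A.inertiaSubgroupIn ℚ)
    (f : ↥(Fbar (M' * p))) (hf : f ≠ 0) :
    IsGU (Gq1 M' p A) (redq1 M' p A)
      (arithmeticRingAut (modularFunctionFieldFull (M' * p)) σ f / f) := by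
  refine isGU_ratio_of_scale (hR M' p A σ hσ)
    (Set.range (algebraMap Qbar ↥(Fbar (M' * p)))) ?_ ?_ hf
  · intro f hf
    obtain ⟨c, hc0, hu⟩ :=
      Fermat.Agent.ES.W33.ScaleOne25.exists_scale_bad A n e M' p hpM hb hnM hA f hf
    exact ⟨algebraMap Qbar _ c, ⟨c, rfl⟩, by rw [Ne, map_eq_zero]; exact hc0, hu⟩
  · rintro _ ⟨c, rfl⟩ hc0
    have hc : c ≠ 0 := fun h => hc0 (by rw [h, map_zero])
    obtain ⟨h1, h2⟩ := galois_div_self_mem A (mem_decomp_of_mem_inertia A hσ) hc
    have hσc : σ c ≠ 0 := (map_ne_zero_iff _ σ.injective).mpr hc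
    have e : arithmeticRingAut (modularFunctionFieldFull (M' * p)) σ
        (algebraMap Qbar ↥(Fbar (M' * p)) c) / algebraMap Qbar ↥(Fbar (M' * p)) c =
        algebraMap Qbar ↥(Fbar (M' * p)) (σ c / c) := by
      rw [arithmeticRingAut_algebraMap, map_div₀]
    rw [e]
    exact isGU_const M' p A (div_ne_zero hσc hc) h1 h2

include hpM hb hnM hA in
/-- **(I-b) at the nodal instance** (helper13's literal `GaExit13.Ib`). -/
theorem ib : Fermat.Agent.ES.W33.GaExit13.Ib M' p A :=
  fun τ hτ τ' hτ' ξ hξ =>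
    Fermat.Agent.ES.W33.IbInst25.ib_inst M' p A
      (hV n e M' p hpM hb hnM A hA) (hR M' p A) τ hτ τ' hτ' ξ hξ

end Fermat.Agent.ES.W33.IbExit15
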