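/-
Programme W (S33), chapter (Ga), literal (I-a), helper1: **inertia is invisible on the special fibre of
the nodal model** — `NodalDefs3.InertiaInvisible` for the coefficientwise Galois action
`arithmeticGalois (modularFunctionFieldFull (M' * p))` on `F = ℚ̄ · F_{M' p}`.

§1  the Fricke involution `W_N` of `Fbar N` commutes with the coefficientwise Galois action
    (`frickeBar_arithmeticRingAut`, `WN_smul_comm`);
§2  the Gauss rings are stable under the decomposition group `D_A`, and their reductions are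
    equivariant (`smul_mem_gaussRing`, `isRedOf_smul`): hence `O1`, `O2`, `rho1`, `rho2` of
    `NodalDefs3` (`smul_mem_O1`, `rho1_smul`, `smul_mem_O2`, `rho2_smul`);
§3  `InW1`, `InW2` are stable under `D_A` (`inW1_smul`, `inW2_smul`, `inW1_smul_iff`, …);
§4  `r1 (g • P) = g̃ • r1 P`, `r2 (g • P) = g̃ • r2 P` for `g ∈ D_A`; for inertia `g̃ = 1`;
§5  **`inertiaInvisible`** : `rN (τ • P) = rN P` for `τ` in the inertia group (smooth points of both
    components AND nodes), and the `D_A`-equivariance of `rN` at smooth points (`rN_smul_inl_inl`,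
    `rN_smul_inl_inr`), in the form needed for `EqvHypN.smul_disc`.
-/
import Mathlib
import Fermat.Agent.ES.W33.NodalDefs3
import Fermat.Agent.ES.RED.GaloisInst21
import Fermat.Agent.ES.RED.PullbackInj12

set_option autoImplicit false
set_option synthInstance.maxHeartbeats 400000
set_option linter.unusedSectionVars false

open HahnSeries ModularCurve AlgebraicCurve
open scoped MatrixGroups

noncomputable section

namespace Fermat.Agent.ES.W33.InertiaFibre1

open Fermat.Agent.RED.Interface4 Fermat.Agent.RED.BASE.Interface12 Fermat.Agent.RED.BASE.Hauptmodul12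
  Fermat.Agent.RED.PUR.ChartGeneric22
  Fermat.Agent.ES.RED.Contract8 Fermat.Agent.ES.RED.ModelInst4 Fermat.Agent.ES.RED.GaussRing15
  Fermat.Agent.ES.RED.PlaceValue13 Fermat.Agent.ES.RED.SpecialInv25
  Fermat.Agent.ES.RED.GaloisRed21 Fermat.Agent.ES.RED.GaloisInst21
  Fermat.Agent.ES.KRON.FrobPlace13
  Fermat.Agent.ES.HECKE.LevelPullback12 Fermat.Agent.ES.N34.FrickeFK8
  Fermat.Agent.X0 Fermat.Agent.X0.FF
  Fermat.Agent.ES.V19.GaussFrac15 Fermat.Agent.ES.V19.InstNames3 Fermat.Agent.ES.W33.XiIfaceN29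
  Fermat.Agent.ES.W33.NodalDefs3

attribute [local instance 5000] HahnSeries.powerSeriesAlgebra SubalgebraClass.toAlgebra

/-! ### §1 Fricke commutes with Galois -/

section Fricke

variable (N : ℕ) [NeZero N]

/-- the generators `x_d = j(q^d)` have rational coefficients. -/
theorem arithmeticRingAut_jdF (σ : Qbar ≃ₐ[ℚ] Qbar) (d : ℕ) [NeZero d] (hd : d ∣ N) :
    arithmeticRingAut (modularFunctionFieldFull N) σ (jdF N d hd) = jdF N d hd := by
  apply Subtype.ext
  rw [coe_arithmeticRingAut_apply, FracR.coe_jdF]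
  exact Fermat.Agent.RED.DESC.CoeffDescent1.coeffMap_coeffEmb_of_algHom (σ : Qbar →+* Qbar) _

/-- **`W_N` is rational**: it commutes with the coefficientwise Galois action. -/
theorem frickeBar_arithmeticRingAut (σ : Qbar ≃ₐ[ℚ] Qbar) (f : FF N) :
    frickeBar N (arithmeticRingAut (modularFunctionFieldFull N) σ f) =
      arithmeticRingAut (modularFunctionFieldFull N) σ (frickeBar N f) := by
  have hR : ∀ u : Rsub N, frickeBar N (arithmeticRingAut (modularFunctionFieldFull N) σ (u : FF N)) =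
      arithmeticRingAut (modularFunctionFieldFull N) σ (frickeBar N (u : FF N)) := by
    intro u
    induction u using FracR.Rsub_induction with
    | hgen d hd =>
        obtain ⟨e, hde⟩ := hd
        have he0 : e ≠ 0 := by
          rintro rfl
          exact NeZero.ne N (by rw [hde, mul_zero])
        have : NeZero e := ⟨he0⟩
        show frickeBar N (arithmeticRingAut (modularFunctionFieldFull N) σ
          (jdF N d (Dvd.intro _ hde.symm))) = arithmeticRingAut (modularFunctionFieldFull N) σ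
            (frickeBar N (jdF N d (Dvd.intro _ hde.symm)))
        rw [arithmeticRingAut_jdF, frickeBar_jdF N d e hde.symm, arithmeticRingAut_jdF]
    | hconst c =>
        show frickeBar N (arithmeticRingAut (modularFunctionFieldFull N) σ
          (algebraMap Kbar (FF N) c)) = arithmeticRingAut (modularFunctionFieldFull N) σ
            (frickeBar N (algebraMap Kbar (FF N) c))
        rw [arithmeticRingAut_algebraMap, (frickeBar N).commutes, (frickeBar N).commutes,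
          arithmeticRingAut_algebraMap]
    | hadd u v hu hv =>
        show frickeBar N (arithmeticRingAut (modularFunctionFieldFull N) σ
          ((u : FF N) + (v : FF N))) = arithmeticRingAut (modularFunctionFieldFull N) σ
            (frickeBar N ((u : FF N) + (v : FF N)))
        rw [map_add, map_add, hu, hv, map_add, map_add]
    | hmul u v hu hv =>
        show frickeBar N (arithmeticRingAut (modularFunctionFieldFull N) σ
          ((u : FF N) * (v : FF N))) = arithmeticRingAut (modularFunctionFieldFull N) σ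
            (frickeBar N ((u : FF N) * (v : FF N)))
        rw [map_mul, map_mul, hu, hv, map_mul, map_mul]
  obtain ⟨r, s, rfl⟩ := FracR.exists_div N f
  rw [map_div₀, map_div₀, hR r, hR s, map_div₀, map_div₀]

end Fricke

/-! ### §2 Galois stability of the Gauss rings -/

section Gauss

variable {L : Type*} [Field L] [Algebra ℚ L] {A : ValuationSubring L}
  (F₀ : IntermediateField ℚ (LaurentSeries ℚ)) (M : ℕ) [NeZero M]

/-- **the Gauss ring is stable under `D_A`, and its reduction is equivariant.** -/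
theorem smul_mem_gaussRing (g : A.decompositionSubgroup ℚ) {f : ↥(laurentBaseChange L F₀)}
    (hf : f ∈ gaussRing A (resA A) (laurentBaseChange L F₀)
      (modularFunctionFieldFullC (kA A) M)) :
    ∃ h : arithmeticGalois F₀ (g : L ≃ₐ[ℚ] L) • f ∈
        gaussRing A (resA A) (laurentBaseChange L F₀) (modularFunctionFieldFullC (kA A) M),
      gaussRed A (resA A) (laurentBaseChange L F₀) (modularFunctionFieldFullC (kA A) M) ⟨_, h⟩ =
        coeffSemi (kA A) M (psiRes A g) •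
          gaussRed A (resA A) (laurentBaseChange L F₀) (modularFunctionFieldFullC (kA A) M)
            ⟨f, hf⟩ := by
  obtain ⟨Y, hY, hYt⟩ := hf
  have hY' : coeffMap A.subtype (coeffMap (sigmaA A g) Y) =
      ((arithmeticGalois F₀ (g : L ≃ₐ[ℚ] L) • f : ↥(laurentBaseChange L F₀)) :
        LaurentSeries L) := by
    rw [coeffMap_subtype_sigmaA, hY]
    rfl
  have hred : coeffMap (resA A) (coeffMap (sigmaA A g) Y) =
      coeffMap ((psiRes A g : kA A ≃+* kA A) : kA A →+* kA A) (coeffMap (resA A) Y) :=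
    coeffMap_residue_sigmaA A g Y
  have hmem : coeffMap (resA A) (coeffMap (sigmaA A g) Y) ∈
      modularFunctionFieldFullC (kA A) M := by
    rw [hred]
    exact (coeffSemi (kA A) M (psiRes A g) •
      (⟨coeffMap (resA A) Y, hYt⟩ : ↥(modularFunctionFieldFullC (kA A) M))).2
  refine ⟨⟨_, hY', hmem⟩, ?_⟩
  apply Subtype.ext
  rw [gaussRed_eq A (resA A) _ _ _ hY', coe_coeffSemi_smul,
    gaussRed_eq A (resA A) _ _ ⟨f, ⟨Y, hY, hYt⟩⟩ hY, hred]

/-- transport of `IsRedOf` along a pair of ring automorphisms preserving `(G, red)`. -/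
theorem isRedOf_map {F Ft : Type*} [Field F] [Field Ft] {G : Subring F} {red : ↥G →+* Ft}
    (s : F ≃+* F) (st : Ft ≃+* Ft)
    (hG : ∀ a : ↥G, ∃ h : s (a : F) ∈ G, red ⟨_, h⟩ = st (red a)) {f : F} {φ : Ft}
    (h : IsRedOf G red f φ) : IsRedOf G red (s f) (st φ) := by
  obtain ⟨a, b, hb, hab, hφ⟩ := h
  obtain ⟨ha', hra⟩ := hG a
  obtain ⟨hb', hrb⟩ := hG b
  refine ⟨⟨_, ha'⟩, ⟨_, hb'⟩, ?_, ?_, ?_⟩
  · rw [hrb]
    exact (map_ne_zero_iff st st.injective).mpr hb
  · show s f * s (b : F) = s (a : F)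
    rw [← map_mul, hab]
  · rw [hra, hrb, ← map_mul, hφ]

end Gauss

/-! ### §3 the instance: `O1`, `O2`, `InW1`, `InW2` under the decomposition group -/

section Instance

variable (n e M' : ℕ) [NeZero n] [NeZero M'] (p : ℕ) [Fact p.Prime] (hpM : ¬ p ∣ M')
  (hb : BaseHyp n e) (hnM : n ∣ M') (A : ValuationSubring Qbar) (hA : A.LiesOverPrime p)

/-- the coefficientwise Galois action on `F = ℚ̄ · F_{M' p}` (the action defining `JZero (M' * p)`). -/
abbrev galN (τ : Qbar ≃ₐ[ℚ] Qbar) : SemilinearAut Qbar ↥(Fbar (M' * p)) :=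
  arithmeticGalois (modularFunctionFieldFull (M' * p)) τ

/-- `W (τ f) = τ (W f)`. -/
theorem frickeN_smul (τ : Qbar ≃ₐ[ℚ] Qbar) (f : ↥(Fbar (M' * p))) :
    frickeN M' p (galN M' p τ • f) = galN M' p τ • frickeN M' p f :=
  frickeBar_arithmeticRingAut (M' * p) τ f

/-- `W` commutes with the Galois action, in the group of semilinear automorphisms. -/
theorem WN_mul_galN (τ : Qbar ≃ₐ[ℚ] Qbar) : WN M' p * galN M' p τ = galN M' p τ * WN M' p := by
  apply Subtype.ext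
  apply Prod.ext
  · apply RingEquiv.ext
    intro f
    exact frickeN_smul M' p τ f
  · show (1 : RingAut Qbar) * _ = _ * (1 : RingAut Qbar)
    rw [one_mul, mul_one]

/-- `W (τ P) = τ (W P)` on places. -/
theorem WN_smul_galN_smul (τ : Qbar ≃ₐ[ℚ] Qbar) (P : Place Qbar ↥(Fbar (M' * p))) :
    WN M' p • (galN M' p τ • P) = galN M' p τ • (WN M' p • P) := by
  rw [← mul_smul, ← mul_smul, WN_mul_galN]

/-- **`O1` is stable under `D_A` and `rho1` is equivariant.** -/
theorem smul_mem_O1 (g : A.decompositionSubgroup ℚ) {f : ↥(Fbar (M' * p))}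
    (hf : f ∈ O1 M' p A) :
    ∃ h : galN M' p (g : Qbar ≃ₐ[ℚ] Qbar) • f ∈ O1 M' p A,
      rho1 M' p A ⟨_, h⟩ = coeffSemi (kA A) M' (psiRes A g) • rho1 M' p A ⟨f, hf⟩ := by
  have h0 := isRedOf_rho (Gq1 M' p A) (redq1 M' p A) ⟨f, hf⟩
  have h1 := isRedOf_map (G := Gq1 M' p A) (red := redq1 M' p A)
    (SemilinearAut.toRingAut (galN M' p (g : Qbar ≃ₐ[ℚ] Qbar)))
    (SemilinearAut.toRingAut (coeffSemi (kA A) M' (psiRes A g)))
    (fun a => smul_mem_gaussRing (modularFunctionFieldFull (M' * p)) M' g a.2) h0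
  exact ⟨h1.isGI, rho_eq_of_isRedOf h1⟩

/-- **`O2` is stable under `D_A` and `rho2` is equivariant.** -/
theorem smul_mem_O2 (g : A.decompositionSubgroup ℚ) {f : ↥(Fbar (M' * p))}
    (hf : f ∈ O2 M' p A) :
    ∃ h : galN M' p (g : Qbar ≃ₐ[ℚ] Qbar) • f ∈ O2 M' p A,
      rho2 M' p A ⟨_, h⟩ = coeffSemi (kA A) M' (psiRes A g) • rho2 M' p A ⟨f, hf⟩ := by
  obtain ⟨h, hr⟩ := smul_mem_O1 M' p A g ((mem_O2_iff M' p A f).mp hf)
  have hcomm := frickeN_smul M' p (g : Qbar ≃ₐ[ℚ] Qbar) f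
  have h' : frickeN M' p (galN M' p (g : Qbar ≃ₐ[ℚ] Qbar) • f) ∈ O1 M' p A := by
    rw [hcomm]; exact h
  refine ⟨h', ?_⟩
  rw [rho2_apply, rho2_apply]
  have hsub : (⟨frickeN M' p (galN M' p (g : Qbar ≃ₐ[ℚ] Qbar) • f), h'⟩ : ↥(O1 M' p A)) =
      ⟨galN M' p (g : Qbar ≃ₐ[ℚ] Qbar) • frickeN M' p f, h⟩ := Subtype.ext hcomm
  exact (congrArg (rho1 M' p A) hsub).trans hr

/-- the Hauptmodul has rational coefficients. -/
theorem galN_smul_tN (τ : Qbar ≃ₐ[ℚ] Qbar) :
    galN M' p τ • tN n e M' p hb hnM = tN n e M' p hb hnM := by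
  apply Subtype.ext
  rw [coe_arithmeticGalois_smul]
  exact Fermat.Agent.RED.BASE.EtaQuot12.coeffMap_tq Qbar (τ : Qbar →+* Qbar) n e

/-- the chart coordinates `t`, `t⁻¹` are fixed by Galois. -/
theorem galN_smul_chartCoord (τ : Qbar ≃ₐ[ℚ] Qbar) {s : ↥(Fbar (M' * p))}
    (hs : IsChartCoord n e M' p hb hnM s) : galN M' p τ • s = s := by
  rcases hs with rfl | rfl
  · exact galN_smul_tN n e M' p hb hnM τ
  · rw [smul_inv'', galN_smul_tN]

/-- **`W₁` is stable under `D_A`.** -/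
theorem inW1_smul (g : A.decompositionSubgroup ℚ) {P : Place Qbar ↥(Fbar (M' * p))}
    (hP : InW1 n e M' p hb hnM A P) :
    InW1 n e M' p hb hnM A (galN M' p (g : Qbar ≃ₐ[ℚ] Qbar) • P) := by
  obtain ⟨s, hs, ⟨hsP, hsA⟩, e₀, he₀, ⟨h2, hρ⟩, heP, heA, heA', hne⟩ := hP
  have hss := galN_smul_chartCoord n e M' p hb hnM (g : Qbar ≃ₐ[ℚ] Qbar) hs
  refine ⟨s, hs, ?_, galN M' p (g : Qbar ≃ₐ[ℚ] Qbar) • e₀, ?_, ?_, ?_⟩
  · have hmem : s ∈ (galN M' p (g : Qbar ≃ₐ[ℚ] Qbar) • P).toValuationSubring := by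
      have := smul_mem_smul (galN M' p (g : Qbar ≃ₐ[ℚ] Qbar)) P hsP
      rwa [hss] at this
    refine ⟨hmem, ?_⟩
    have h1 : valueHom (hxN n e M' p hb hnM) (galN M' p (g : Qbar ≃ₐ[ℚ] Qbar) • P) ⟨s, hmem⟩ =
        SemilinearAut.baseAut (galN M' p (g : Qbar ≃ₐ[ℚ] Qbar))
          (valueHom (hxN n e M' p hb hnM) P ⟨s, hsP⟩) := by
      rw [← valueHom_smul' (hxN n e M' p hb hnM) (galN M' p (g : Qbar ≃ₐ[ℚ] Qbar)) P hsP]
      congr 1
      exact Subtype.ext hss.symm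
    rw [h1]
    exact (sigmaA A g ⟨_, hsA⟩).2
  · exact smul_mem_chart g hss he₀
  · obtain ⟨h2', hρ'⟩ := smul_mem_O2 M' p A g h2
    exact ⟨h2', by rw [hρ', hρ, smul_zero]⟩
  · refine ⟨smul_mem_smul (galN M' p (g : Qbar ≃ₐ[ℚ] Qbar)) P heP, ?_, ?_, ?_⟩
    · rw [valueHom_smul' (hxN n e M' p hb hnM) (galN M' p (g : Qbar ≃ₐ[ℚ] Qbar)) P heP]
      exact (sigmaA A g ⟨_, heA⟩).2
    · rw [valueHom_smul' (hxN n e M' p hb hnM) (galN M' p (g : Qbar ≃ₐ[ℚ] Qbar)) P heP,
        ← map_inv₀]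
      exact (sigmaA A g ⟨_, heA'⟩).2
    · rw [valueHom_smul' (hxN n e M' p hb hnM) (galN M' p (g : Qbar ≃ₐ[ℚ] Qbar)) P heP]
      exact (map_ne_zero _).mpr hne

/-- **`W₂` is stable under `D_A`** (`NodalDefs3` v2: the `t`-model twin of `inW1_smul`). -/
theorem inW2_smul (g : A.decompositionSubgroup ℚ) {P : Place Qbar ↥(Fbar (M' * p))}
    (hP : InW2 n e M' p hb hnM A P) :
    InW2 n e M' p hb hnM A (galN M' p (g : Qbar ≃ₐ[ℚ] Qbar) • P) := by
  obtain ⟨s, hs, ⟨hsP, hsA⟩, e₀, he₀, ⟨h1, hρ⟩, heP, heA, heA', hne⟩ := hP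
  have hss := galN_smul_chartCoord n e M' p hb hnM (g : Qbar ≃ₐ[ℚ] Qbar) hs
  refine ⟨s, hs, ?_, galN M' p (g : Qbar ≃ₐ[ℚ] Qbar) • e₀, ?_, ?_, ?_⟩
  · have hmem : s ∈ (galN M' p (g : Qbar ≃ₐ[ℚ] Qbar) • P).toValuationSubring := by
      have := smul_mem_smul (galN M' p (g : Qbar ≃ₐ[ℚ] Qbar)) P hsP
      rwa [hss] at this
    refine ⟨hmem, ?_⟩
    have h1 : valueHom (hxN n e M' p hb hnM) (galN M' p (g : Qbar ≃ₐ[ℚ] Qbar) • P) ⟨s, hmem⟩ =
        SemilinearAut.baseAut (galN M' p (g : Qbar ≃ₐ[ℚ] Qbar))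
          (valueHom (hxN n e M' p hb hnM) P ⟨s, hsP⟩) := by
      rw [← valueHom_smul' (hxN n e M' p hb hnM) (galN M' p (g : Qbar ≃ₐ[ℚ] Qbar)) P hsP]
      congr 1
      exact Subtype.ext hss.symm
    rw [h1]
    exact (sigmaA A g ⟨_, hsA⟩).2
  · exact smul_mem_chart g hss he₀
  · obtain ⟨h1', hρ'⟩ := smul_mem_O1 M' p A g h1
    exact ⟨h1', by rw [hρ', hρ, smul_zero]⟩
  · refine ⟨smul_mem_smul (galN M' p (g : Qbar ≃ₐ[ℚ] Qbar)) P heP, ?_, ?_, ?_⟩
    · rw [valueHom_smul' (hxN n e M' p hb hnM) (galN M' p (g : Qbar ≃ₐ[ℚ] Qbar)) P heP]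
      exact (sigmaA A g ⟨_, heA⟩).2
    · rw [valueHom_smul' (hxN n e M' p hb hnM) (galN M' p (g : Qbar ≃ₐ[ℚ] Qbar)) P heP,
        ← map_inv₀]
      exact (sigmaA A g ⟨_, heA'⟩).2
    · rw [valueHom_smul' (hxN n e M' p hb hnM) (galN M' p (g : Qbar ≃ₐ[ℚ] Qbar)) P heP]
      exact (map_ne_zero _).mpr hne

theorem galN_inv_smul_smul (g : A.decompositionSubgroup ℚ) (P : Place Qbar ↥(Fbar (M' * p))) :
    galN M' p ((g⁻¹ : A.decompositionSubgroup ℚ) : Qbar ≃ₐ[ℚ] Qbar) •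
      (galN M' p (g : Qbar ≃ₐ[ℚ] Qbar) • P) = P := by
  rw [← mul_smul, ← map_mul]
  have : ((g⁻¹ : A.decompositionSubgroup ℚ) : Qbar ≃ₐ[ℚ] Qbar) * (g : Qbar ≃ₐ[ℚ] Qbar) = 1 := by
    rw [← Subgroup.coe_mul, inv_mul_cancel, Subgroup.coe_one]
  rw [this, map_one, one_smul]

theorem inW1_smul_iff (g : A.decompositionSubgroup ℚ) (P : Place Qbar ↥(Fbar (M' * p))) :
    InW1 n e M' p hb hnM A (galN M' p (g : Qbar ≃ₐ[ℚ] Qbar) • P) ↔ InW1 n e M' p hb hnM A P := by
  refine ⟨fun h => ?_, inW1_smul n e M' p hb hnM A g⟩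
  have := inW1_smul n e M' p hb hnM A g⁻¹ h
  rwa [galN_inv_smul_smul] at this

theorem inW2_smul_iff (g : A.decompositionSubgroup ℚ) (P : Place Qbar ↥(Fbar (M' * p))) :
    InW2 n e M' p hb hnM A (galN M' p (g : Qbar ≃ₐ[ℚ] Qbar) • P) ↔ InW2 n e M' p hb hnM A P := by
  refine ⟨fun h => ?_, inW2_smul n e M' p hb hnM A g⟩
  have := inW2_smul n e M' p hb hnM A g⁻¹ h
  rwa [galN_inv_smul_smul] at this

/-! ### §4 the two component maps `r1`, `r2` -/

/-- restriction to the good level is Galois-equivariant. -/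
theorem resAlpha_smul (τ : Qbar ≃ₐ[ℚ] Qbar) (P : Place Qbar ↥(Fbar (M' * p))) :
    resAlpha M' p (galN M' p τ • P) =
      arithmeticGalois (modularFunctionFieldFull M') τ • resAlpha M' p P :=
  Fermat.Agent.ES.RED.PullbackInj12.restrictAlong_smul (alphaN M' p) (alphaN_isIntegral M' p)
    (arithmeticGalois (modularFunctionFieldFull M') τ) (galN M' p τ)
    (Fermat.Agent.ES.RED.PullbackInj12.levelIncl_arithmeticGalois_smul (Dvd.intro p rfl) τ) P

/-- **`r1 (g P) = g̃ (r1 P)`** for `g ∈ D_A`. -/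
theorem r1_smul (g : A.decompositionSubgroup ℚ) (P : Place Qbar ↥(Fbar (M' * p))) :
    r1 n e M' p hpM hb hnM A hA (galN M' p (g : Qbar ≃ₐ[ℚ] Qbar) • P) =
      coeffSemi (kA A) M' (psiRes A g) • r1 n e M' p hpM hb hnM A hA P := by
  have := isAlgClosed_kA A
  unfold r1
  rw [resAlpha_smul]
  exact r_smul_decomposition' (TV n e M' p hpM hb hnM A hA) (hxtV n e M' p hpM hb hnM A hA)
    (hS0V n e M' p hpM hb hnM A hA) (hS1V n e M' p hpM hb hnM A hA) g _

/-- `ψ(g⁻¹) = ψ(g)⁻¹` on `F̃`. -/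
theorem coeffSemi_psiRes_inv (g : A.decompositionSubgroup ℚ) :
    coeffSemi (kA A) M' (psiRes A g⁻¹) = (coeffSemi (kA A) M' (psiRes A g))⁻¹ := by
  show coeffSemiHom (kA A) M'
      (MulSemiringAction.toRingAut (A.decompositionSubgroup ℚ) (kA A) g⁻¹) =
    (coeffSemiHom (kA A) M'
      (MulSemiringAction.toRingAut (A.decompositionSubgroup ℚ) (kA A) g))⁻¹
  rw [map_inv, map_inv]

/-- the canonical chart coordinate is a chart coordinate. -/
theorem isChartCoord_coordAt (P : Place Qbar ↥(Fbar (M' * p))) :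
    IsChartCoord n e M' p hb hnM (coordAt n e M' p hb hnM A P) := by
  unfold coordAt
  by_cases h : ∃ ht : tN n e M' p hb hnM ∈ P.toValuationSubring,
      valueHom (hxN n e M' p hb hnM) P ⟨tN n e M' p hb hnM, ht⟩ ∈ A
  · rw [if_pos h]
    exact Or.inl rfl
  · rw [if_neg h]
    exact Or.inr rfl

/-- "`t(P) ∈ A`" is stable under `D_A`. -/
theorem tN_val_mem_smul (g : A.decompositionSubgroup ℚ) {P : Place Qbar ↥(Fbar (M' * p))}
    (h : ∃ ht : tN n e M' p hb hnM ∈ P.toValuationSubring,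
      valueHom (hxN n e M' p hb hnM) P ⟨tN n e M' p hb hnM, ht⟩ ∈ A) :
    ∃ ht : tN n e M' p hb hnM ∈ (galN M' p (g : Qbar ≃ₐ[ℚ] Qbar) • P).toValuationSubring,
      valueHom (hxN n e M' p hb hnM) (galN M' p (g : Qbar ≃ₐ[ℚ] Qbar) • P)
        ⟨tN n e M' p hb hnM, ht⟩ ∈ A := by
  obtain ⟨ht, htA⟩ := h
  have hss := galN_smul_tN n e M' p hb hnM (g : Qbar ≃ₐ[ℚ] Qbar)
  have hmem : tN n e M' p hb hnM ∈
      (galN M' p (g : Qbar ≃ₐ[ℚ] Qbar) • P).toValuationSubring := by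
    have := smul_mem_smul (galN M' p (g : Qbar ≃ₐ[ℚ] Qbar)) P ht
    rwa [hss] at this
  refine ⟨hmem, ?_⟩
  have h1 : valueHom (hxN n e M' p hb hnM) (galN M' p (g : Qbar ≃ₐ[ℚ] Qbar) • P)
      ⟨tN n e M' p hb hnM, hmem⟩ =
      SemilinearAut.baseAut (galN M' p (g : Qbar ≃ₐ[ℚ] Qbar))
        (valueHom (hxN n e M' p hb hnM) P ⟨tN n e M' p hb hnM, ht⟩) := by
    rw [← valueHom_smul' (hxN n e M' p hb hnM) (galN M' p (g : Qbar ≃ₐ[ℚ] Qbar)) P ht]
    congr 1
    exact Subtype.ext hss.symm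
  rw [h1]
  exact (sigmaA A g ⟨_, htA⟩).2

/-- the canonical chart is stable under `D_A`. -/
theorem coordAt_smul (g : A.decompositionSubgroup ℚ) (P : Place Qbar ↥(Fbar (M' * p))) :
    coordAt n e M' p hb hnM A (galN M' p (g : Qbar ≃ₐ[ℚ] Qbar) • P) =
      coordAt n e M' p hb hnM A P := by
  have hiff : (∃ ht : tN n e M' p hb hnM ∈
        (galN M' p (g : Qbar ≃ₐ[ℚ] Qbar) • P).toValuationSubring,
      valueHom (hxN n e M' p hb hnM) (galN M' p (g : Qbar ≃ₐ[ℚ] Qbar) • P)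
        ⟨tN n e M' p hb hnM, ht⟩ ∈ A) ↔
      ∃ ht : tN n e M' p hb hnM ∈ P.toValuationSubring,
        valueHom (hxN n e M' p hb hnM) P ⟨tN n e M' p hb hnM, ht⟩ ∈ A := by
    refine ⟨fun h => ?_, tN_val_mem_smul n e M' p hb hnM A g⟩
    have := tN_val_mem_smul n e M' p hb hnM A g⁻¹ h
    rwa [galN_inv_smul_smul] at this
  unfold coordAt
  by_cases h : ∃ ht : tN n e M' p hb hnM ∈ P.toValuationSubring,
      valueHom (hxN n e M' p hb hnM) P ⟨tN n e M' p hb hnM, ht⟩ ∈ A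
  · rw [if_pos h, if_pos (hiff.mpr h)]
  · rw [if_neg h, if_neg (fun h' => h (hiff.mp h'))]

/-- **the local ring of the second component at the centre is transported by `D_A`.** -/
theorem smul_mem_cSet2 (g : A.decompositionSubgroup ℚ) {s : ↥(Fbar (M' * p))}
    (hs : IsChartCoord n e M' p hb hnM s) {P : Place Qbar ↥(Fbar (M' * p))} {y : Ft M' A}
    (hy : y ∈ cSet2 n e M' p hb hnM A s P) :
    coeffSemi (kA A) M' (psiRes A g) • y ∈
      cSet2 n e M' p hb hnM A s (galN M' p (g : Qbar ≃ₐ[ℚ] Qbar) • P) := by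
  obtain ⟨a, ha, d, hd, ha2, hd2, hdP, hdA, hdA', hdne, hyd⟩ := hy
  have hss := galN_smul_chartCoord n e M' p hb hnM (g : Qbar ≃ₐ[ℚ] Qbar) hs
  obtain ⟨ha2', hra⟩ := smul_mem_O2 M' p A g ha2
  obtain ⟨hd2', hrd⟩ := smul_mem_O2 M' p A g hd2
  refine ⟨galN M' p (g : Qbar ≃ₐ[ℚ] Qbar) • a, smul_mem_chart g hss ha,
    galN M' p (g : Qbar ≃ₐ[ℚ] Qbar) • d, smul_mem_chart g hss hd, ha2', hd2',
    smul_mem_smul (galN M' p (g : Qbar ≃ₐ[ℚ] Qbar)) P hdP, ?_, ?_, ?_, ?_⟩
  · rw [valueHom_smul' (hxN n e M' p hb hnM) (galN M' p (g : Qbar ≃ₐ[ℚ] Qbar)) P hdP]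
    exact (sigmaA A g ⟨_, hdA⟩).2
  · rw [valueHom_smul' (hxN n e M' p hb hnM) (galN M' p (g : Qbar ≃ₐ[ℚ] Qbar)) P hdP,
      ← map_inv₀]
    exact (sigmaA A g ⟨_, hdA'⟩).2
  · rw [valueHom_smul' (hxN n e M' p hb hnM) (galN M' p (g : Qbar ≃ₐ[ℚ] Qbar)) P hdP]
    exact (map_ne_zero _).mpr hdne
  · rw [hra, hrd, ← smul_mul', hyd]

/-- **`IsR2` is transported by `D_A`.** -/
theorem isR2_smul (g : A.decompositionSubgroup ℚ) {P : Place Qbar ↥(Fbar (M' * p))}
    {X : Place (kA A) (Ft M' A)} (h : IsR2 n e M' p hb hnM A P X) :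
    IsR2 n e M' p hb hnM A (galN M' p (g : Qbar ≃ₐ[ℚ] Qbar) • P)
      (coeffSemi (kA A) M' (psiRes A g) • X) := by
  intro y
  have hs := isChartCoord_coordAt n e M' p hb hnM A P
  rw [coordAt_smul, SemilinearAut.smul_toValuationSubring,
    ValuationSubring.mem_pointwise_smul_iff_inv_smul_mem]
  constructor
  · intro hy
    have := smul_mem_cSet2 n e M' p hb hnM A g hs ((h _).mp hy)
    rwa [smul_inv_smul] at this
  · intro hy
    have := smul_mem_cSet2 n e M' p hb hnM A g⁻¹ hs hy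
    rw [galN_inv_smul_smul, coeffSemi_psiRes_inv] at this
    exact (h _).mpr this

/-- **`r2 (g P) = g̃ (r2 P)`** for `g ∈ D_A` (`NodalDefs3` v2: `r2` is the centre-defined place; in the
junk case both sides are `r1`). -/
theorem r2_smul (g : A.decompositionSubgroup ℚ) (P : Place Qbar ↥(Fbar (M' * p))) :
    r2 n e M' p hpM hb hnM A hA (galN M' p (g : Qbar ≃ₐ[ℚ] Qbar) • P) =
      coeffSemi (kA A) M' (psiRes A g) • r2 n e M' p hpM hb hnM A hA P := by
  classical
  by_cases h : ∃ X : Place (kA A) (Ft M' A), IsR2 n e M' p hb hnM A P X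
  · obtain ⟨X, hX⟩ := h
    rw [r2_eq n e M' p hpM hb hnM A hA hX,
      r2_eq n e M' p hpM hb hnM A hA (isR2_smul n e M' p hb hnM A g hX)]
  · have h' : ¬ ∃ X : Place (kA A) (Ft M' A),
        IsR2 n e M' p hb hnM A (galN M' p (g : Qbar ≃ₐ[ℚ] Qbar) • P) X := by
      rintro ⟨X, hX⟩
      apply h
      have := isR2_smul n e M' p hb hnM A g⁻¹ hX
      rw [galN_inv_smul_smul] at this
      exact ⟨_, this⟩
    unfold r2
    rw [dif_neg h, dif_neg h']
    exact r1_smul n e M' p hpM hb hnM A hA g P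

/-- `r1 (τ P) = r1 P` for `τ` in the inertia group. -/
theorem r1_smul_of_mem_inertia {τ : Qbar ≃ₐ[ℚ] Qbar} (hτ : τ ∈ A.inertiaSubgroupIn ℚ)
    (P : Place Qbar ↥(Fbar (M' * p))) :
    r1 n e M' p hpM hb hnM A hA (galN M' p τ • P) = r1 n e M' p hpM hb hnM A hA P := by
  obtain ⟨h, h1⟩ := coeffSemi_psiRes_of_mem_inertia (M := M') hτ
  have := r1_smul n e M' p hpM hb hnM A hA ⟨τ, h⟩ P
  rw [h1, one_smul] at this
  exact this

/-- `r2 (τ P) = r2 P` for `τ` in the inertia group. -/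
theorem r2_smul_of_mem_inertia {τ : Qbar ≃ₐ[ℚ] Qbar} (hτ : τ ∈ A.inertiaSubgroupIn ℚ)
    (P : Place Qbar ↥(Fbar (M' * p))) :
    r2 n e M' p hpM hb hnM A hA (galN M' p τ • P) = r2 n e M' p hpM hb hnM A hA P := by
  obtain ⟨h, h1⟩ := coeffSemi_psiRes_of_mem_inertia (M := M') hτ
  have := r2_smul n e M' p hpM hb hnM A hA ⟨τ, h⟩ P
  rw [h1, one_smul] at this
  exact this

/-! ### §5 the total reduction map -/

open Classical in
/-- `rN` at a place in neither `W₁` nor `W₂` (a node disc), when there are finitely many nodes. -/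
theorem rN_of_not_of_finite [hf : Finite ↥(nodePairs n e M' p hpM hb hnM A hA)]
    {P : Place Qbar ↥(Fbar (M' * p))} (h1 : ¬ InW1 n e M' p hb hnM A P)
    (h2 : ¬ InW2 n e M' p hb hnM A P) :
    rN n e M' p hpM hb hnM A hA P =
      Sum.inr (Finite.equivFin ↥(nodePairs n e M' p hpM hb hnM A hA)
        ⟨(r1 n e M' p hpM hb hnM A hA P, r2 n e M' p hpM hb hnM A hA P), P, h1, h2, rfl⟩) := by
  unfold rN
  rw [dif_neg h1, dif_neg h2, dif_pos hf]
  rfl

open Classical in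
/-- the junk branch of `rN`. -/
theorem rN_of_not_of_infinite (hf : ¬ Finite ↥(nodePairs n e M' p hpM hb hnM A hA))
    {P : Place Qbar ↥(Fbar (M' * p))} (h1 : ¬ InW1 n e M' p hb hnM A P)
    (h2 : ¬ InW2 n e M' p hb hnM A P) :
    rN n e M' p hpM hb hnM A hA P = Sum.inl (Sum.inl (r1 n e M' p hpM hb hnM A hA P)) := by
  unfold rN
  rw [dif_neg h1, dif_neg h2, dif_neg hf]

/-- **(I-a): inertia is invisible on the special fibre** (smooth points of both components and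
nodes). -/
theorem rN_smul_of_mem_inertia {τ : Qbar ≃ₐ[ℚ] Qbar} (hτ : τ ∈ A.inertiaSubgroupIn ℚ)
    (P : Place Qbar ↥(Fbar (M' * p))) :
    rN n e M' p hpM hb hnM A hA (galN M' p τ • P) = rN n e M' p hpM hb hnM A hA P := by
  obtain ⟨h, -⟩ := coeffSemi_psiRes_of_mem_inertia (M := M') hτ
  have hr1 := r1_smul_of_mem_inertia n e M' p hpM hb hnM A hA hτ P
  have hr2 := r2_smul_of_mem_inertia n e M' p hpM hb hnM A hA hτ P
  have hW1 := inW1_smul_iff n e M' p hb hnM A ⟨τ, h⟩ P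
  have hW2 := inW2_smul_iff n e M' p hb hnM A ⟨τ, h⟩ P
  by_cases h1 : InW1 n e M' p hb hnM A P
  · rw [rN_of_inW1 n e M' p hpM hb hnM A hA h1,
      rN_of_inW1 n e M' p hpM hb hnM A hA (hW1.mpr h1), hr1]
  · have h1' : ¬ InW1 n e M' p hb hnM A (galN M' p τ • P) := fun h' => h1 (hW1.mp h')
    by_cases h2 : InW2 n e M' p hb hnM A P
    · rw [rN_of_inW2 n e M' p hpM hb hnM A hA h1 h2,
        rN_of_inW2 n e M' p hpM hb hnM A hA h1' (hW2.mpr h2), hr2]
    · have h2' : ¬ InW2 n e M' p hb hnM A (galN M' p τ • P) := fun h' => h2 (hW2.mp h')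
      by_cases hf : Finite ↥(nodePairs n e M' p hpM hb hnM A hA)
      · rw [rN_of_not_of_finite n e M' p hpM hb hnM A hA h1 h2,
          rN_of_not_of_finite n e M' p hpM hb hnM A hA h1' h2']
        have key : (⟨(r1 n e M' p hpM hb hnM A hA (galN M' p τ • P),
              r2 n e M' p hpM hb hnM A hA (galN M' p τ • P)), galN M' p τ • P, h1', h2', rfl⟩ :
            ↥(nodePairs n e M' p hpM hb hnM A hA)) =
            ⟨(r1 n e M' p hpM hb hnM A hA P, r2 n e M' p hpM hb hnM A hA P), P, h1, h2, rfl⟩ :=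
          Subtype.ext (Prod.ext hr1 hr2)
        rw [key]
      · rw [rN_of_not_of_infinite n e M' p hpM hb hnM A hA hf h1 h2,
          rN_of_not_of_infinite n e M' p hpM hb hnM A hA hf h1' h2', hr1]

/-- **(I-a) at the instance**, in helper3's literal. -/
theorem inertiaInvisible :
    InertiaInvisible n e M' p hpM hb hnM A hA
      (arithmeticGalois (modularFunctionFieldFull (M' * p))) :=
  fun _ hτ P => rN_smul_of_mem_inertia n e M' p hpM hb hnM A hA hτ P

/-! ### the decomposition group at smooth points (for `EqvHypN.smul_disc`) -/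

/-- **`D_A`-equivariance of `rN` at the points of the first component**: if `P` reduces to `Q ∈ C₁`,
then `g • P` reduces to `g̃ • Q ∈ C₁`. -/
theorem rN_smul_inl_inl (g : A.decompositionSubgroup ℚ) {P : Place Qbar ↥(Fbar (M' * p))}
    {Q : Place (kA A) (Ft M' A)}
    (hPQ : rN n e M' p hpM hb hnM A hA P = Sum.inl (Sum.inl Q)) :
    rN n e M' p hpM hb hnM A hA (galN M' p (g : Qbar ≃ₐ[ℚ] Qbar) • P) =
      Sum.inl (Sum.inl (coeffSemi (kA A) M' (psiRes A g) • Q)) := by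
  have hr1 := r1_smul n e M' p hpM hb hnM A hA g P
  have hW1 := inW1_smul_iff n e M' p hb hnM A g P
  have hW2 := inW2_smul_iff n e M' p hb hnM A g P
  by_cases h1 : InW1 n e M' p hb hnM A P
  · rw [rN_of_inW1 n e M' p hpM hb hnM A hA h1] at hPQ
    have hQ : r1 n e M' p hpM hb hnM A hA P = Q := Sum.inl_injective (Sum.inl_injective hPQ)
    rw [rN_of_inW1 n e M' p hpM hb hnM A hA (hW1.mpr h1), hr1, hQ]
  · have h1' : ¬ InW1 n e M' p hb hnM A (galN M' p (g : Qbar ≃ₐ[ℚ] Qbar) • P) :=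
      fun h' => h1 (hW1.mp h')
    by_cases h2 : InW2 n e M' p hb hnM A P
    · rw [rN_of_inW2 n e M' p hpM hb hnM A hA h1 h2] at hPQ
      exact absurd (Sum.inl_injective hPQ) Sum.inr_ne_inl
    · have h2' : ¬ InW2 n e M' p hb hnM A (galN M' p (g : Qbar ≃ₐ[ℚ] Qbar) • P) :=
        fun h' => h2 (hW2.mp h')
      by_cases hf : Finite ↥(nodePairs n e M' p hpM hb hnM A hA)
      · rw [rN_of_not_of_finite n e M' p hpM hb hnM A hA h1 h2] at hPQ
        exact absurd hPQ Sum.inr_ne_inl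
      · rw [rN_of_not_of_infinite n e M' p hpM hb hnM A hA hf h1 h2] at hPQ
        have hQ : r1 n e M' p hpM hb hnM A hA P = Q := Sum.inl_injective (Sum.inl_injective hPQ)
        rw [rN_of_not_of_infinite n e M' p hpM hb hnM A hA hf h1' h2', hr1, hQ]

/-- **`D_A`-equivariance of `rN` at the points of the second component.** -/
theorem rN_smul_inl_inr (g : A.decompositionSubgroup ℚ) {P : Place Qbar ↥(Fbar (M' * p))}
    {Q : Place (kA A) (Ft M' A)}
    (hPQ : rN n e M' p hpM hb hnM A hA P = Sum.inl (Sum.inr Q)) :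
    rN n e M' p hpM hb hnM A hA (galN M' p (g : Qbar ≃ₐ[ℚ] Qbar) • P) =
      Sum.inl (Sum.inr (coeffSemi (kA A) M' (psiRes A g) • Q)) := by
  have hr2 := r2_smul n e M' p hpM hb hnM A hA g P
  have hW1 := inW1_smul_iff n e M' p hb hnM A g P
  have hW2 := inW2_smul_iff n e M' p hb hnM A g P
  by_cases h1 : InW1 n e M' p hb hnM A P
  · rw [rN_of_inW1 n e M' p hpM hb hnM A hA h1] at hPQ
    exact absurd (Sum.inl_injective hPQ) Sum.inl_ne_inr
  · have h1' : ¬ InW1 n e M' p hb hnM A (galN M' p (g : Qbar ≃ₐ[ℚ] Qbar) • P) :=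
      fun h' => h1 (hW1.mp h')
    by_cases h2 : InW2 n e M' p hb hnM A P
    · rw [rN_of_inW2 n e M' p hpM hb hnM A hA h1 h2] at hPQ
      have hQ : r2 n e M' p hpM hb hnM A hA P = Q := Sum.inr_injective (Sum.inl_injective hPQ)
      rw [rN_of_inW2 n e M' p hpM hb hnM A hA h1' (hW2.mpr h2), hr2, hQ]
    · by_cases hf : Finite ↥(nodePairs n e M' p hpM hb hnM A hA)
      · rw [rN_of_not_of_finite n e M' p hpM hb hnM A hA h1 h2] at hPQ
        exact absurd hPQ Sum.inr_ne_inl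
      · rw [rN_of_not_of_infinite n e M' p hpM hb hnM A hA hf h1 h2] at hPQ
        exact absurd (Sum.inl_injective hPQ) Sum.inl_ne_inr

/-- the node discs are stable under `D_A`: `g • P` reduces to a node iff `P` does. -/
theorem rN_smul_isNode_iff (g : A.decompositionSubgroup ℚ) (P : Place Qbar ↥(Fbar (M' * p))) :
    (¬ InW1 n e M' p hb hnM A (galN M' p (g : Qbar ≃ₐ[ℚ] Qbar) • P) ∧
      ¬ InW2 n e M' p hb hnM A (galN M' p (g : Qbar ≃ₐ[ℚ] Qbar) • P)) ↔
    (¬ InW1 n e M' p hb hnM A P ∧ ¬ InW2 n e M' p hb hnM A P) := by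
  rw [inW1_smul_iff, inW2_smul_iff]

end Instance

end Fermat.Agent.ES.W33.InertiaFibre1
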