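/-
Programme W (S33), chapters (Ga)/(B3′), helper1: **the place part of the `level` literal of the nodal
instance** (`GeoNames23.NodalInstHyp.level`, second conjunct; `XiIfaceN29.EqvHypN.smul_disc`):
every point `Q̄` of either component of the special fibre is fixed by `Γ_f` for `f ≫ 0`, hence the
disc `{P | rN P = inl Q̄}` is stable under `Γ_f`.

`InertiaFibre1.rN_smul_inl_inl / rN_smul_inl_inr` (the `D_A`-equivariance of `rN` at smooth points) +
main's `V19/PlaceStabInst29.exists_gammaF_fixes_places_Ft` at the GOOD level `M'` (both components of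
the nodal fibre are copies of `F̃_{M'}`).

* `rN_smul_gammaF` : `rN P = inl Q → g̃ • Q = Q → rN (g • P) = inl Q` (`g ∈ D_A`, `Q` on either
  component);
* **`exists_level_disc`** : `∃ f₀ > 0, ∀ σ : Γ_{f₀}, ∀ P, rN P = inl Q → rN (rho p f₀ σ • P) = inl Q`;
* `exists_level_discs` : the same for a finite family, and at every multiple of the level.
-/
import Mathlib
import Fermat.Agent.ES.W33.InertiaFibre1
import Fermat.Agent.ES.V19.PlaceStabInst29
import Fermat.Agent.ES.V19.XiEqvInst29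

set_option autoImplicit false
set_option synthInstance.maxHeartbeats 400000
set_option linter.unusedSectionVars false

open HahnSeries ModularCurve AlgebraicCurve
open scoped MatrixGroups

noncomputable section

namespace Fermat.Agent.ES.W33.LevelFibre1

open Fermat.Agent.RED.Interface4 Fermat.Agent.RED.BASE.Interface12 Fermat.Agent.RED.BASE.Hauptmodul12
  Fermat.Agent.ES.RED.Contract8 Fermat.Agent.ES.RED.ModelInst4 Fermat.Agent.ES.RED.GaloisRed21
  Fermat.Agent.ES.KRON.FrobPlace13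
  Fermat.Agent.X0 Fermat.Agent.X0.FF
  Fermat.Agent.ES.V19.InstNames3 Fermat.Agent.ES.V19.GammaF16 Fermat.Agent.ES.V19.XiEqvInst29
  Fermat.Agent.ES.V19.PlaceStabInst29
  Fermat.Agent.ES.W33.XiIfaceN29 Fermat.Agent.ES.W33.NodalDefs3 Fermat.Agent.ES.W33.InertiaFibre1

attribute [local instance 5000] HahnSeries.powerSeriesAlgebra SubalgebraClass.toAlgebra

variable (n e M' : ℕ) [NeZero n] [NeZero M'] (p : ℕ) [Fact p.Prime] (hpM : ¬ p ∣ M')
  (hb : BaseHyp n e) (hnM : n ∣ M') (A : ValuationSubring Qbar) (hA : A.LiesOverPrime p)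

/-- the residual action of `g ∈ D_A` on the points of the two components. -/
def resSmul (g : A.decompositionSubgroup ℚ) :
    SPt (kA A) (Ft M' A) (Ft M' A) → SPt (kA A) (Ft M' A) (Ft M' A)
  | Sum.inl Q => Sum.inl (coeffSemi (kA A) M' (psiRes A g) • Q)
  | Sum.inr Q => Sum.inr (coeffSemi (kA A) M' (psiRes A g) • Q)

/-- **`D_A`-equivariance of `rN` at smooth points**, both components at once. -/
theorem rN_smul_inl (g : A.decompositionSubgroup ℚ) {P : Place Qbar ↥(Fbar (M' * p))}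
    {Q : SPt (kA A) (Ft M' A) (Ft M' A)}
    (hPQ : rN n e M' p hpM hb hnM A hA P = Sum.inl Q) :
    rN n e M' p hpM hb hnM A hA (galN M' p (g : Qbar ≃ₐ[ℚ] Qbar) • P) =
      Sum.inl (resSmul M' A g Q) := by
  rcases Q with Q | Q
  · exact rN_smul_inl_inl n e M' p hpM hb hnM A hA g hPQ
  · exact rN_smul_inl_inr n e M' p hpM hb hnM A hA g hPQ

/-- if the residual action of `g` fixes `Q`, then `g` preserves the disc of `Q`. -/
theorem rN_smul_gammaF (g : A.decompositionSubgroup ℚ) {P : Place Qbar ↥(Fbar (M' * p))}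
    {Q : SPt (kA A) (Ft M' A) (Ft M' A)} (hQ : resSmul M' A g Q = Q)
    (hPQ : rN n e M' p hpM hb hnM A hA P = Sum.inl Q) :
    rN n e M' p hpM hb hnM A hA (galN M' p (g : Qbar ≃ₐ[ℚ] Qbar) • P) = Sum.inl Q := by
  rw [rN_smul_inl n e M' p hpM hb hnM A hA g hPQ, hQ]

include hpM hb hnM hA in
/-- `Γ_f` fixes finitely many given points of the two components for `f ≫ 0`. -/
theorem exists_gammaF_fixes_spts {ι : Type*} [Finite ι]
    (Q : ι → SPt (kA A) (Ft M' A) (Ft M' A)) :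
    ∃ f : ℕ, 0 < f ∧ ∀ (σ : Qbar ≃ₐ[ℚ] Qbar) (hσ : σ ∈ gammaF A p f) (i : ι),
      resSmul M' A ⟨σ, gammaF_le_decomposition f hσ⟩ (Q i) = Q i := by
  -- the underlying places of `F̃_{M'}`
  let Q' : ι → Place (kA A) (Ft M' A) := fun i => Sum.elim id id (Q i)
  obtain ⟨f, hf, h⟩ := exists_gammaF_fixes_places_Ft (ℓ := p) (A := A) M' n e hpM
    (tMem_of_dvd hb hnM) (tGenBase' hb) hA (hrV n e M' p hpM hb hnM A hA) Q'
  refine ⟨f, hf, fun σ hσ i => ?_⟩
  have hi := h σ hσ i
  rcases hQi : Q i with Q₁ | Q₂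
  · have : Q' i = Q₁ := by simp only [Q', hQi, Sum.elim_inl, id]
    rw [this] at hi
    show Sum.inl _ = Sum.inl Q₁
    rw [hi]
  · have : Q' i = Q₂ := by simp only [Q', hQi, Sum.elim_inr, id]
    rw [this] at hi
    show Sum.inr _ = Sum.inr Q₂
    rw [hi]

/-- **the place part of `level`, finite families**: the discs of finitely many points of the
special fibre are stable under `Γ_f`, for every multiple `f` of one level `f₀`. -/
theorem exists_level_discs {ι : Type*} [Finite ι] (Q : ι → SPt (kA A) (Ft M' A) (Ft M' A)) :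
    ∃ f₀ : ℕ, 0 < f₀ ∧ ∀ f : ℕ, f₀ ∣ f → ∀ (σ : ↥(gammaF A p f)) (i : ι)
      (P : Place Qbar ↥(Fbar (M' * p))), rN n e M' p hpM hb hnM A hA P = Sum.inl (Q i) →
        rN n e M' p hpM hb hnM A hA (rho (A := A) (M := M' * p) p f σ • P) = Sum.inl (Q i) := by
  obtain ⟨f₀, hf₀, h⟩ := exists_gammaF_fixes_spts n e M' p hpM hb hnM A hA Q
  refine ⟨f₀, hf₀, fun f hf σ i P hP => ?_⟩
  have hσ : (σ : Qbar ≃ₐ[ℚ] Qbar) ∈ gammaF A p f₀ := gammaF_anti hf σ.2
  exact rN_smul_gammaF n e M' p hpM hb hnM A hA ⟨(σ : Qbar ≃ₐ[ℚ] Qbar), gammaF_le_decomposition f₀ hσ⟩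
    (h (σ : Qbar ≃ₐ[ℚ] Qbar) hσ i) hP

/-- **the place part of `GeoNames23.NodalInstHyp.level`** at one point. -/
theorem exists_level_disc (Q : SPt (kA A) (Ft M' A) (Ft M' A)) :
    ∃ f₀ : ℕ, 0 < f₀ ∧ ∀ (σ : ↥(gammaF A p f₀)) (P : Place Qbar ↥(Fbar (M' * p))),
      rN n e M' p hpM hb hnM A hA P = Sum.inl Q →
        rN n e M' p hpM hb hnM A hA (rho (A := A) (M := M' * p) p f₀ σ • P) = Sum.inl Q := by
  obtain ⟨f₀, hf₀, h⟩ := exists_level_discs n e M' p hpM hb hnM A hA (fun _ : Unit => Q)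
  exact ⟨f₀, hf₀, fun σ P hP => h f₀ dvd_rfl σ () P hP⟩

end Fermat.Agent.ES.W33.LevelFibre1
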