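/-
Programme W (S33, SPINE v1.1), THE GEO JOIN, part 5 (helper23): **the assembly of `GeoW23.GeoInput`**
at the nodal instance of `NodalDefs3` (base `(4, 8)`, ruling w46; place-level names `sN/nodesN/rN`,
ruling w47/w53), with `Good/coord/centre` DEFINED by `GoodPts23` (per-point packages).

THE INSTANCE: `base48` := `GeoInst23.nodalInst 4 8 …` (its own disc data are junk and never used);
**`inst48 := GoodPts23.goodInst base48`** (`Good Q := Nonempty (PtPkg base48 Q)`).

STATE OF THE FIVE FIELDS of `GeoW23.InstInput inst48`: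
* `ib`  — CLOSED: helper15's `IbExit15.ib` (hypothesis-free);
* `g3`  — CLOSED modulo `hyp`: helper7's `G3ExitN7.g3Exit hyp (GoodPts23.goodExp_goodInst base48)`;
* `hyp` — `GoodPts23.nodalInstHyp_goodInst` from the NON-per-point B3′ facts: `Open.ctx / nodes_inj /
          hfin` (OPEN) and the place half of `level` + (I-a) (CLOSED: helper1's
          `LevelFibre1.exists_level_disc`, `InertiaFibre1.inertiaInvisible`);
* `b1`  — (B1′) `Open.b1`;  * `ic` — (I-c) `Open.ic`.

`geoInput_of_open : (∀ M' p …, Open M' p hpM h4M A hA) → GeoInput`.  The final theorem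
`geoInput : GeoInput` replaces the fields of `Open` by their proofs as the chapter exits land.
-/
import Mathlib
import Fermat.Agent.ES.W33.GeoInst23
import Fermat.Agent.ES.W33.IbExit15
import Fermat.Agent.ES.W33.GoodPts23
import Fermat.Agent.ES.W33.G3ExitN7
import Fermat.Agent.ES.V19.NonSpecial9
import Fermat.Agent.ES.W33.LevelFibre1

set_option autoImplicit false
set_option linter.unusedSectionVars false
set_option synthInstance.maxHeartbeats 400000

noncomputable section

open AlgebraicCurve ModularCurve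

namespace Fermat.Agent.ES.W33.GeoInput23

open Fermat.Agent.X0 Fermat.Agent.X0.FF Fermat.Agent.RED.Interface4 Fermat.Agent.RED.BASE
  Fermat.Agent.RED.BASE.Interface12 Fermat.Agent.RED.BASE.Hauptmodul12
  Fermat.Agent.ES.RED.Contract8 Fermat.Agent.ES.RED.ModelInst4 Fermat.Agent.ES.V19.InstNames3
  Fermat.Agent.ES.V19.GammaF16 Fermat.Agent.ES.V19.TraceDescent26 Fermat.Agent.ES.V19.XiEqvInst29
  Fermat.Agent.ES.W33.XiIfaceN29 Fermat.Agent.ES.W33.GeoNames23 Fermat.Agent.ES.W33.GeoJoinGa23
  Fermat.Agent.ES.W33.GeoW23 Fermat.Agent.ES.W33.NodalDefs3 Fermat.Agent.ES.W33.GeoInst23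
  Fermat.Agent.ES.W33.GoodPts23

attribute [local instance 5000] HahnSeries.powerSeriesAlgebra SubalgebraClass.toAlgebra

local notation "Qb" => AlgebraicClosure ℚ

/-- `NeZero 4`, for the base `(4, 8)`. -/
theorem neZero_four : NeZero (4 : ℕ) := ⟨by norm_num⟩

variable (M' : ℕ) [NeZero M'] (p : ℕ) [Fact p.Prime] (hpM : ¬ p ∣ M') (h4M : 4 ∣ M')
  (A : ValuationSubring Qb) (hA : A.LiesOverPrime p)

include h4M in
/-- the generic fibre has a place. -/
theorem nonempty_place : Nonempty (Place Qb (FW p M')) := by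
  haveI := neZero_four
  haveI : NeZero (M' * p) := ⟨Nat.mul_ne_zero (NeZero.ne M') (Fact.out : p.Prime).ne_zero⟩
  have hx := hxV 4 8 (M' * p) baseHyp_four (Dvd.dvd.mul_right h4M p)
  haveI : Infinite (Place Qb (FW p M')) :=
    Fermat.Agent.ES.V19.NonSpecial9.infinite_place
      (Fermat.Agent.RR.LHypGen.lHyp_of_isGen hx) hx.transcendental
  infer_instance

/-- the place-level and function-level data of the instance (`NodalDefs3` at the base `(4, 8)`);
its own `Good/coord/centre` are junk and never used. -/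
def base48 : NodalInst p M' A :=
  haveI := neZero_four
  haveI := nonempty_place M' p h4M
  nodalInst 4 8 M' p hpM baseHyp_four h4M A hA (fun _ => False) (fun _ => 0)
    (fun _ => Classical.arbitrary _)

/-- **THE nodal instance**: `NodalDefs3` + the good points of `GoodPts23`. -/
def inst48 : NodalInst p M' A :=
  haveI := nonempty_place M' p h4M
  goodInst (base48 M' p hpM h4M A hA)

/-- **what is still OPEN** of `InstInput inst48`. -/
structure Open : Prop where
  /-- (B3′) helper29's function-level context at the instance -/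
  ctx : RedCtxN A (IsLocalRing.residue ↥A) (base48 M' p hpM h4M A hA).nodes
    (base48 M' p hpM h4M A hA).G (base48 M' p hpM h4M A hA).red (base48 M' p hpM h4M A hA).r
  /-- (B3′) -/
  nodes_inj : Function.Injective (base48 M' p hpM h4M A hA).nodes.ν₁
  /-- (B3′ discs) all but finitely many smooth points carry a package -/
  hfin : {Q : SPtW M' A | IsEmpty (PtPkg (base48 M' p hpM h4M A hA) Q)}.Finite
  /-- (B1′) -/
  b1 : B1Exit (base48 M' p hpM h4M A hA)
  /-- (I-c) -/
  ic : IcHyp (base48 M' p hpM h4M A hA)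

variable {M' p hpM h4M A hA}

/-- `NodalInstHyp` at the instance from the open fields. -/
theorem hyp_of_open (H : Open M' p hpM h4M A hA) : NodalInstHyp (inst48 M' p hpM h4M A hA) :=
  haveI := nonempty_place M' p h4M
  haveI := neZero_four
  nodalInstHyp_goodInst (base48 M' p hpM h4M A hA) H.ctx H.nodes_inj H.hfin
    (Fermat.Agent.ES.W33.LevelFibre1.exists_level_disc 4 8 M' p hpM baseHyp_four h4M A hA)
    (Fermat.Agent.ES.W33.InertiaFibre1.inertiaInvisible 4 8 M' p hpM baseHyp_four h4M A hA)

/-- `InstInput` at the instance from the open fields: (I-b) by `IbExit15.ib`, (G3′) by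
`G3ExitN7.g3Exit` at the packages. -/
theorem instInput_of_open (H : Open M' p hpM h4M A hA) : InstInput (inst48 M' p hpM h4M A hA) :=
  haveI := neZero_four
  haveI := nonempty_place M' p h4M
  { hyp := hyp_of_open H
    b1 := H.b1
    ib := ibHyp_of_ib 4 8 M' p hpM baseHyp_four h4M A hA _ _ _
      (Fermat.Agent.ES.W33.IbExit15.ib 4 8 M' p hpM baseHyp_four h4M A hA)
    ic := H.ic
    g3 := Fermat.Agent.ES.W33.G3ExitN7.g3Exit 4 8 M' p hpM baseHyp_four h4M A hA (hyp_of_open H)
      (goodExp_goodInst (base48 M' p hpM h4M A hA)) }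

/-- **`GeoInput` from the open fields.** -/
theorem geoInput_of_open
    (H : ∀ (M' : ℕ) [NeZero M'] (p : ℕ) [Fact p.Prime], p ≠ 2 → ∀ (hpM : ¬ p ∣ M') (h4M : 4 ∣ M')
      (A : ValuationSubring Qb) (hA : A.LiesOverPrime p), Open M' p hpM h4M A hA) :
    GeoInput := by
  intro M' _ p _ hp2 hpM h4M A hA
  exact ⟨_, instInput_of_open (H M' p hp2 hpM h4M A hA)⟩

end Fermat.Agent.ES.W33.GeoInput23
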