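/-
Programme W (S33), chapter (B3′) "reduction of places on the nodal model" — helper22:
**(R2) AT ONE SMOOTH POINT of one component**, the LOCAL half of (R2) on the nodal fibre.

This is `ES/RED/R2Abstract14` (helper14) for ONE point instead of one chart, with
* `β` an arbitrary type of points of the special fibre, `r : Place L F → β`, `b₀ : β` THE point,
  `Q : Place k Ft` the corresponding place of the function field `Ft` of the component through it;
* `G ≤ F` a subring on which the reduction `red : G →+* Ft` INTO THE FIELD of that component is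
  defined (at the instance: the Gauss valuation ring `O_i` of the component, NOT `O₁ ⊓ O₂`);
* `B ≤ G` a ring of functions regular on the disc `{P | r P = b₀}` (a localised chart ring, or the
  local ring of the model at the point);
* NO fundamental identities: the five global fields `fi, fit, fint, zeros_mem, zeros_memt` of
  `R2Abstract14.ChartHyp` are replaced by the single INPUT
  `hx : ∀ a, 0 < Q.ord (red x - ā) → push (x - a) b₀ = Q.ord (red x - ā)`,
  which is the exit of the two-component count `W33/R2CountN22`.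

Steps: (i) `push_le` (peeling, needs no `hx`: it is the input `le₁/le₂` of the count),
(ii') `good_sub_const` (from `hx` and (i)), (iii) `good_of_mem` (norm trick), (iv) `r2_point`,
`r2_point_mapDomain` : `∑_{r P = b₀} ord_P y = ord_Q (red y)` for every `y ∈ G` with `red y ≠ 0`
— the shape of `XiIfaceN29.RedCtxN.r1₁ / r1₂`.
-/
import Mathlib
import Fermat.Agent.ES.RED.R2Abstract14

set_option autoImplicit false

namespace Fermat.Agent.ES.W33.R2PointP22

open AlgebraicCurve Polynomial
open Fermat.Agent.ES.RED.R2Abstract14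

noncomputable section

variable {L : Type*} [Field L] {k : Type*} [Field k]
variable {F : Type*} [Field F] [Algebra L F] {Ft : Type*} [Field Ft] [Algebra k Ft]
variable {β : Type*}

/-- The hypotheses at one point `b₀` of the special fibre (order-only forms of (R1), (PEEL), (SAT),
norm and fraction properties of `B`); compare `R2Abstract14.ChartHyp`. -/
structure PointHyp (A : ValuationSubring L) (res : A →+* k) (G : Subring F) (red : G →+* Ft)
    (r : Place L F → β) (b₀ : β) (Q : Place k Ft) (B : Subring F) (x : G) : Prop where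
  /-- `res` kills the maximal ideal. -/
  res_nonunit : ∀ a : A, ¬ IsUnit a → res a = 0
  /-- constants of `A` are in `B`. -/
  const_mem : ∀ a : A, algebraMap L F a ∈ B
  B_le : B ≤ G
  /-- `red` is `res` on constants. -/
  red_const : ∀ a : A, red ⟨algebraMap L F a, B_le (const_mem a)⟩ = algebraMap k Ft (res a)
  x_mem : (x : F) ∈ B
  red_x_ne : ∀ c : k, red x ≠ algebraMap k Ft c
  /-- the functions of `B` are regular on the disc of `b₀`. -/
  ord_nonneg : ∀ P, r P = b₀ → ∀ b ∈ B, 0 ≤ P.ord b
  ord_red_nonneg : ∀ b : G, (b : F) ∈ B → 0 ≤ Q.ord (red b)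
  /-- (R1), order form. -/
  r1 : ∀ P, r P = b₀ → ∀ b : G, (b : F) ∈ B → 0 < P.ord (b : F) → red b ≠ 0 → 0 < Q.ord (red b)
  /-- (PEEL), order form. -/
  peel : ∀ P, r P = b₀ → ∃ u : G, (u : F) ∈ B ∧ P.ord (u : F) = 1 ∧ red u ≠ 0 ∧
      (∀ P', r P' = b₀ → P' ≠ P → P'.ord (u : F) = 0) ∧
      ∀ z : G, (z : F) ∈ B → 0 < P.ord (z : F) → ∃ d z' : G, (d : F) ∈ B ∧ (z' : F) ∈ B ∧
        red d ≠ 0 ∧ Q.ord (red d) = 0 ∧ z * d = u * z'
  /-- (SAT), strong form. -/
  sat : ∀ b : G, (b : F) ∈ B → b ≠ 0 → ∃ c : A, c ≠ 0 ∧ ∃ b' : G, (b' : F) ∈ B ∧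
      (b : F) = algebraMap L F c * (b' : F) ∧ red b' ≠ 0
  /-- norm property. -/
  norm : ∀ z : G, (z : F) ∈ B → z ≠ 0 → ∃ z' : G, (z' : F) ∈ B ∧ z' ≠ 0 ∧
      ∃ p : L[X], (z : F) * (z' : F) = aeval (x : F) p
  /-- fractions. -/
  frac : ∀ y : F, ∃ b₁ b₂ : G, (b₁ : F) ∈ B ∧ (b₂ : F) ∈ B ∧ b₂ ≠ 0 ∧ y * (b₂ : F) = (b₁ : F)

variable {A : ValuationSubring L} {res : A →+* k} {G : Subring F} {red : G →+* Ft}
  {r : Place L F → β} {b₀ : β} {Q : Place k Ft} {B : Subring F} {x : G}

/-- `z` is good at the point: its reduction is nonzero and the push-forward of its divisor has the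
right coefficient at `b₀`. -/
def Good (hfin : FinDiv L F) (red : G →+* Ft) (r : Place L F → β) (b₀ : β) (Q : Place k Ft)
    (z : G) : Prop :=
  red z ≠ 0 ∧ push hfin r (z : F) b₀ = Q.ord (red z)

theorem ne_zero_of_red_ne_zero {z : G} (hz : red z ≠ 0) : z ≠ 0 := by
  rintro rfl
  exact hz (map_zero red)

theorem coe_ne_zero_of_red_ne_zero {z : G} (hz : (red : G →+* Ft) z ≠ 0) : (z : F) ≠ 0 := by
  intro h0
  exact ne_zero_of_red_ne_zero hz (Subtype.ext h0)

theorem good_one (hfin : FinDiv L F) : Good hfin red r b₀ Q (1 : G) := by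
  refine ⟨by rw [map_one]; exact one_ne_zero, ?_⟩
  rw [map_one, Place.ord_one]
  have : ((1 : G) : F) = algebraMap L F 1 := by rw [map_one]; rfl
  rw [this, push_const]

theorem good_mul (hfin : FinDiv L F) {z₁ z₂ : G}
    (h₁ : Good hfin red r b₀ Q z₁) (h₂ : Good hfin red r b₀ Q z₂) :
    Good hfin red r b₀ Q (z₁ * z₂) := by
  refine ⟨by rw [map_mul]; exact mul_ne_zero h₁.1 h₂.1, ?_⟩
  rw [map_mul, Q.ord_mul h₁.1 h₂.1, ← h₁.2, ← h₂.2]
  have : ((z₁ * z₂ : G) : F) = (z₁ : F) * (z₂ : F) := rfl
  rw [this, push_mul hfin r (coe_ne_zero_of_red_ne_zero h₁.1) (coe_ne_zero_of_red_ne_zero h₂.1)]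

/-- The element of `G` given by a constant of `A`. -/
def constG (h : PointHyp A res G red r b₀ Q B x) (a : A) : G :=
  ⟨algebraMap L F a, h.B_le (h.const_mem a)⟩

@[simp]
theorem coe_constG (h : PointHyp A res G red r b₀ Q B x) (a : A) :
    ((constG h a : G) : F) = algebraMap L F a := rfl

theorem red_constG (h : PointHyp A res G red r b₀ Q B x) (a : A) :
    red (constG h a) = algebraMap k Ft (res a) := h.red_const a

theorem res_ne_zero_of_isUnit {a : A} (ha : IsUnit a) : (res : A →+* k) a ≠ 0 :=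
  (ha.map res).ne_zero

/-- Comparison of constants: if `y₁ = c • y₂` with both reductions nonzero, then `c` is a unit
of `A`. -/
theorem exists_unit_of_eq (h : PointHyp A res G red r b₀ Q B x) {y₁ y₂ : G}
    (h₁ : red y₁ ≠ 0) (h₂ : red y₂ ≠ 0) {c : L} (hc : c ≠ 0)
    (e : (y₁ : F) = algebraMap L F c * (y₂ : F)) : ∃ a : A, IsUnit a ∧ (a : L) = c := by
  rcases A.mem_or_inv_mem c with hcA | hcA
  · refine ⟨⟨c, hcA⟩, ?_, rfl⟩
    by_contra hnu
    apply h₁
    have e' : y₁ = constG h ⟨c, hcA⟩ * y₂ := Subtype.ext e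
    rw [e', map_mul, red_constG, h.res_nonunit _ hnu, map_zero, zero_mul]
  · have hu : IsUnit (⟨c⁻¹, hcA⟩ : A) := by
      by_contra hnu
      apply h₂
      have e' : y₂ = constG h ⟨c⁻¹, hcA⟩ * y₁ := by
        apply Subtype.ext
        change (y₂ : F) = algebraMap L F c⁻¹ * (y₁ : F)
        rw [e, ← mul_assoc, ← map_mul, inv_mul_cancel₀ hc, map_one, one_mul]
      rw [e', map_mul, red_constG, h.res_nonunit _ hnu, map_zero, zero_mul]
    obtain ⟨u, hu⟩ := hu
    refine ⟨((u⁻¹ : Aˣ) : A), Units.isUnit _, ?_⟩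
    have h1 : ((u : A) : L) * (((u⁻¹ : Aˣ) : A) : L) = 1 := by
      exact congrArg (fun a : A => (a : L)) (Units.mul_inv u)
    rw [hu] at h1
    change c⁻¹ * _ = 1 at h1
    field_simp at h1
    exact h1

theorem good_of_eq_const_mul (h : PointHyp A res G red r b₀ Q B x) (hfin : FinDiv L F)
    {y₁ y₂ : G} (h₁ : red y₁ ≠ 0) (hg : Good hfin red r b₀ Q y₂) {c : L} (hc : c ≠ 0)
    (e : (y₁ : F) = algebraMap L F c * (y₂ : F)) : Good hfin red r b₀ Q y₁ := by
  obtain ⟨a, hau, rfl⟩ := exists_unit_of_eq h h₁ hg.1 hc e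
  refine ⟨h₁, ?_⟩
  have e' : y₁ = constG h a * y₂ := Subtype.ext e
  rw [e, push_const_mul hfin r hc (coe_ne_zero_of_red_ne_zero hg.1), hg.2, e', map_mul, red_constG,
    Q.ord_mul ((_root_.map_ne_zero (algebraMap k Ft)).2 (res_ne_zero_of_isUnit hau)) hg.1,
    Fermat.Agent.X0.FF.ffp_ord_algebraMap, zero_add]

theorem push_nonneg_of_mem (h : PointHyp A res G red r b₀ Q B x) (hfin : FinDiv L F)
    {z : G} (hz : (z : F) ∈ B) : 0 ≤ push hfin r (z : F) b₀ :=
  push_nonneg hfin r _ b₀ fun P hP => h.ord_nonneg P hP _ hz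

/-- **Step (i)** (peeling): `∑_{rP = b₀} P.ord z ≤ Q.ord (red z)` for `z ∈ B` with `red z ≠ 0`. -/
theorem push_le_aux (h : PointHyp A res G red r b₀ Q B x) (hfin : FinDiv L F) :
    ∀ (m : ℕ) (z : G), (z : F) ∈ B → red z ≠ 0 → Q.ord (red z) ≤ m →
      push hfin r (z : F) b₀ ≤ Q.ord (red z) := by
  intro m
  induction m with
  | zero =>
    intro z hzB hz hm
    have h0 := h.ord_red_nonneg z hzB
    rw [push_eq_zero hfin r _ b₀]
    · exact h0
    · intro P hP
      have h1 := h.ord_nonneg P hP _ hzB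
      by_contra hne
      have hpos : 0 < P.ord (z : F) := lt_of_le_of_ne h1 (Ne.symm hne)
      have := h.r1 P hP z hzB hpos hz
      push_cast at hm
      omega
  | succ m ih =>
    intro z hzB hz hm
    have h0 := h.ord_red_nonneg z hzB
    by_cases hex : ∃ P, r P = b₀ ∧ 0 < P.ord (z : F)
    · obtain ⟨P, hP, hpos⟩ := hex
      obtain ⟨u, huB, hu1, hu, huniq, hdiv⟩ := h.peel P hP
      obtain ⟨d, z', hdB, hz'B, hd, hd0, e⟩ := hdiv z hzB hpos
      -- reductions
      have hred : red z * red d = red u * red z' := by rw [← map_mul, ← map_mul, e]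
      have hz' : red z' ≠ 0 := by
        intro h0'
        rw [h0', mul_zero] at hred
        exact mul_ne_zero hz hd hred
      have hordred : Q.ord (red z) = Q.ord (red u) + Q.ord (red z') := by
        have := congrArg Q.ord hred
        rw [Q.ord_mul hz hd, Q.ord_mul hu hz', hd0, add_zero] at this
        exact this
      have hupos : 0 < Q.ord (red u) :=
        h.r1 P hP u huB (by rw [hu1]; exact one_pos) hu
      -- pushes
      have hzF := coe_ne_zero_of_red_ne_zero hz
      have hdF := coe_ne_zero_of_red_ne_zero hd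
      have huF := coe_ne_zero_of_red_ne_zero hu
      have hz'F := coe_ne_zero_of_red_ne_zero hz'
      have eF : (z : F) * (d : F) = (u : F) * (z' : F) := congrArg (fun g : G => (g : F)) e
      have hpush : push hfin r (z : F) b₀ + push hfin r (d : F) b₀
          = push hfin r (u : F) b₀ + push hfin r (z' : F) b₀ := by
        rw [← push_mul hfin r hzF hdF, ← push_mul hfin r huF hz'F, eF]
      have hpu : push hfin r (u : F) b₀ = 1 := by
        rw [push_eq_of_unique hfin r _ b₀ P hP, hu1]
        intro P' hP' hne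
        exact huniq P' hP' hne
      have hpd : push hfin r (d : F) b₀ = 0 := by
        refine push_eq_zero hfin r _ b₀ fun P' hP' => ?_
        have h1 := h.ord_nonneg P' hP' _ hdB
        by_contra hne
        have hpos' : 0 < P'.ord (d : F) := lt_of_le_of_ne h1 (Ne.symm hne)
        have := h.r1 P' hP' d hdB hpos' hd
        rw [hd0] at this
        exact lt_irrefl _ this
      have hz'0 := h.ord_red_nonneg z' hz'B
      have hih := ih z' hz'B hz' (by push_cast at hm; omega)
      rw [hpu, hpd] at hpush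
      omega
    · rw [push_eq_zero hfin r _ b₀]
      · exact h0
      · intro P hP
        have h1 := h.ord_nonneg P hP _ hzB
        by_contra hne
        exact hex ⟨P, hP, lt_of_le_of_ne h1 (Ne.symm hne)⟩

/-- **Step (i)**: the local inequality `push ≤ ord` (the input `le₁/le₂` of `W33/R2CountN22`). -/
theorem push_le (h : PointHyp A res G red r b₀ Q B x) (hfin : FinDiv L F)
    {z : G} (hzB : (z : F) ∈ B) (hz : red z ≠ 0) :
    push hfin r (z : F) b₀ ≤ Q.ord (red z) :=
  push_le_aux h hfin (Q.ord (red z)).toNat z hzB hz (Int.self_le_toNat _)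

/-- If a product of two elements of `B` is good, both factors are good. -/
theorem good_of_good_mul (h : PointHyp A res G red r b₀ Q B x) (hfin : FinDiv L F)
    {z₁ z₂ : G} (h₁B : (z₁ : F) ∈ B) (h₂B : (z₂ : F) ∈ B)
    (hg : Good hfin red r b₀ Q (z₁ * z₂)) : Good hfin red r b₀ Q z₁ := by
  have hne := hg.1
  rw [map_mul] at hne
  have h₁ : red z₁ ≠ 0 := left_ne_zero_of_mul hne
  have h₂ : red z₂ ≠ 0 := right_ne_zero_of_mul hne
  refine ⟨h₁, ?_⟩
  have e := hg.2
  have : ((z₁ * z₂ : G) : F) = (z₁ : F) * (z₂ : F) := rfl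
  rw [this, push_mul hfin r (coe_ne_zero_of_red_ne_zero h₁) (coe_ne_zero_of_red_ne_zero h₂),
    map_mul, Q.ord_mul h₁ h₂] at e
  have l₁ := push_le h hfin h₁B h₁
  have l₂ := push_le h hfin h₂B h₂
  omega

/-- The element `x - a` of `G`. -/
def subG (h : PointHyp A res G red r b₀ Q B x) (a : A) : G := x - constG h a

theorem coe_subG (h : PointHyp A res G red r b₀ Q B x) (a : A) :
    ((subG h a : G) : F) = (x : F) - algebraMap L F a := rfl

theorem subG_mem (h : PointHyp A res G red r b₀ Q B x) (a : A) : ((subG h a : G) : F) ∈ B :=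
  B.sub_mem h.x_mem (h.const_mem a)

theorem red_subG (h : PointHyp A res G red r b₀ Q B x) (a : A) :
    red (subG h a) = red x - algebraMap k Ft (res a) := by
  rw [subG, map_sub, red_constG]

theorem red_subG_ne (h : PointHyp A res G red r b₀ Q B x) (a : A) : red (subG h a) ≠ 0 := by
  rw [red_subG]
  exact sub_ne_zero.2 (h.red_x_ne _)

/-- the local inequality for `x - a`, in the literal form of `R2CountN22.CountHyp.le₁ / le₂`. -/
theorem push_sub_const_le (h : PointHyp A res G red r b₀ Q B x) (hfin : FinDiv L F) (a : A) :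
    push hfin r ((x : F) - algebraMap L F a) b₀ ≤ Q.ord (red x - algebraMap k Ft (res a)) := by
  have := push_le h hfin (subG_mem h a) (red_subG_ne h a)
  rwa [red_subG, coe_subG] at this

/-- the regularity of `x - a` on the disc, in the literal form of `R2CountN22.CountHyp.reg₁`. -/
theorem ord_sub_const_nonneg (h : PointHyp A res G red r b₀ Q B x) (a : A) (P : Place L F)
    (hP : r P = b₀) : 0 ≤ P.ord ((x : F) - algebraMap L F a) :=
  h.ord_nonneg P hP _ (subG_mem h a)

/-- (R1) for `x - a`, in the literal form needed for `R2CountN22.CountHyp.zeros`. -/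
theorem ord_red_sub_const_pos (h : PointHyp A res G red r b₀ Q B x) (a : A) (P : Place L F)
    (hP : r P = b₀) (hpos : 0 < P.ord ((x : F) - algebraMap L F a)) :
    0 < Q.ord (red x - algebraMap k Ft (res a)) := by
  have := h.r1 P hP (subG h a) (subG_mem h a) hpos (red_subG_ne h a)
  rwa [red_subG] at this

section WithCount

variable (hfin : FinDiv L F)
variable (hx : ∀ a : A, 0 < Q.ord (red x - algebraMap k Ft (res a)) →
  push hfin r ((x : F) - algebraMap L F a) b₀ = Q.ord (red x - algebraMap k Ft (res a)))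

include hx in
/-- **Step (ii')**: `x - a` is good at the point (count + step (i)). -/
theorem good_sub_const (h : PointHyp A res G red r b₀ Q B x) (a : A) :
    Good hfin red r b₀ Q (subG h a) := by
  refine ⟨red_subG_ne h a, ?_⟩
  rw [red_subG, coe_subG]
  by_cases hpos : 0 < Q.ord (red x - algebraMap k Ft (res a))
  · exact hx a hpos
  · have h2 := h.ord_red_nonneg (subG h a) (subG_mem h a)
    rw [red_subG] at h2
    have l1 := push_sub_const_le h hfin a
    have l2 := push_nonneg_of_mem h hfin (subG_mem h a)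
    rw [coe_subG] at l2
    omega

/-- An element of `B` whose reduction is a unit at `Q` is good. -/
theorem good_of_ord_red_eq_zero (h : PointHyp A res G red r b₀ Q B x)
    {z : G} (hzB : (z : F) ∈ B) (hz : red z ≠ 0)
    (h0 : Q.ord (red z) = 0) : Good hfin red r b₀ Q z := by
  refine ⟨hz, ?_⟩
  have l1 := push_le h hfin hzB hz
  have l2 := push_nonneg_of_mem h hfin hzB
  omega

/-- The element `1 - b x` of `G`. -/
def oneSubG (h : PointHyp A res G red r b₀ Q B x) (b : A) : G := 1 - constG h b * x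

theorem coe_oneSubG (h : PointHyp A res G red r b₀ Q B x) (b : A) :
    ((oneSubG h b : G) : F) = 1 - algebraMap L F b * (x : F) := rfl

theorem oneSubG_mem (h : PointHyp A res G red r b₀ Q B x) (b : A) :
    ((oneSubG h b : G) : F) ∈ B :=
  B.sub_mem B.one_mem (B.mul_mem (h.const_mem b) h.x_mem)

theorem good_oneSubG (h : PointHyp A res G red r b₀ Q B x)
    {b : A} (hb : ¬ IsUnit b) : Good hfin red r b₀ Q (oneSubG h b) := by
  have hred : red (oneSubG h b) = 1 := by
    rw [oneSubG, map_sub, map_one, map_mul, red_constG, h.res_nonunit b hb, map_zero, zero_mul,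
      sub_zero]
  refine good_of_ord_red_eq_zero hfin h (oneSubG_mem h b) ?_ ?_
  · rw [hred]; exact one_ne_zero
  · rw [hred, Place.ord_one]

include hx in
/-- A product of linear factors `x - α` (`α ∈ L` arbitrary) is a nonzero constant of `L` times a
good element of `B`. -/
theorem exists_good_prod (h : PointHyp A res G red r b₀ Q B x) (s : Multiset L) :
    ∃ c : L, c ≠ 0 ∧ ∃ W : G, (W : F) ∈ B ∧ Good hfin red r b₀ Q W ∧
      (s.map fun α => (x : F) - algebraMap L F α).prod = algebraMap L F c * (W : F) := by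
  induction s using Multiset.induction_on with
  | empty =>
    refine ⟨1, one_ne_zero, 1, B.one_mem, good_one hfin, ?_⟩
    simp
  | cons α s ih =>
    obtain ⟨c, hc, W, hWB, hW, e⟩ := ih
    rw [Multiset.map_cons, Multiset.prod_cons, e]
    by_cases hα : α ∈ A
    · refine ⟨c, hc, subG h ⟨α, hα⟩ * W, B.mul_mem (subG_mem h _) hWB,
        good_mul hfin (good_sub_const hfin hx h _) hW, ?_⟩
      change _ = algebraMap L F c * (((x : F) - algebraMap L F α) * (W : F))
      ring
    · have hα0 : α ≠ 0 := by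
        rintro rfl
        exact hα A.zero_mem
      have hαi : α⁻¹ ∈ A := (A.mem_or_inv_mem α).resolve_left hα
      have hnu : ¬ IsUnit (⟨α⁻¹, hαi⟩ : A) := by
        intro hu
        obtain ⟨b, hb⟩ := hu.exists_right_inv
        have hb' : α⁻¹ * (b : L) = 1 := congrArg (fun a : A => (a : L)) hb
        have : (b : L) = α := by
          field_simp at hb'
          exact hb'
        exact hα (this ▸ b.2)
      refine ⟨-α * c, mul_ne_zero (neg_ne_zero.2 hα0) hc, oneSubG h ⟨α⁻¹, hαi⟩ * W,
        B.mul_mem (oneSubG_mem h _) hWB, good_mul hfin (good_oneSubG hfin h hnu) hW, ?_⟩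
      change _ = algebraMap L F (-α * c) * ((1 - algebraMap L F α⁻¹ * (x : F)) * (W : F))
      have hαF : algebraMap L F α ≠ 0 := (_root_.map_ne_zero (algebraMap L F)).2 hα0
      rw [map_mul, map_neg, map_inv₀]
      field_simp
      ring

include hx in
/-- The value at `x` of a nonzero polynomial over `L` is a nonzero constant times a good element
of `B`. -/
theorem exists_good_aeval [IsAlgClosed L] (h : PointHyp A res G red r b₀ Q B x)
    (p : L[X]) (hp : p ≠ 0) :
    ∃ c : L, c ≠ 0 ∧ ∃ W : G, (W : F) ∈ B ∧ Good hfin red r b₀ Q W ∧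
      aeval (x : F) p = algebraMap L F c * (W : F) := by
  obtain ⟨c, hc, W, hWB, hW, e⟩ := exists_good_prod hfin hx h p.roots
  refine ⟨p.leadingCoeff * c, mul_ne_zero (leadingCoeff_ne_zero.2 hp) hc, W, hWB, hW, ?_⟩
  have hsplit := (IsAlgClosed.splits p).eq_prod_roots
  have : aeval (x : F) p = algebraMap L F p.leadingCoeff *
      (p.roots.map fun α => (x : F) - algebraMap L F α).prod := by
    conv_lhs => rw [hsplit]
    rw [map_mul, aeval_C, map_multiset_prod, Multiset.map_map]
    congr 2
    refine Multiset.map_congr rfl fun α _ => ?_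
    simp
  rw [this, e, map_mul, mul_assoc]

include hx in
/-- **Step (iii)** (norm trick): every `z ∈ B` with `red z ≠ 0` is good. -/
theorem good_of_mem [IsAlgClosed L] (h : PointHyp A res G red r b₀ Q B x)
    {z : G} (hzB : (z : F) ∈ B) (hz : red z ≠ 0) :
    Good hfin red r b₀ Q z := by
  have hz0 := ne_zero_of_red_ne_zero hz
  have hzF := coe_ne_zero_of_red_ne_zero hz
  obtain ⟨z', hz'B, hz'0, p, e⟩ := h.norm z hzB hz0
  have hz'F : (z' : F) ≠ 0 := fun h0 => hz'0 (Subtype.ext h0)
  obtain ⟨c', hc', z'', hz''B, e', hz''⟩ := h.sat z' hz'B hz'0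
  have hc'L : (c' : L) ≠ 0 := fun h0 => hc' (Subtype.ext h0)
  have hp : p ≠ 0 := by
    rintro rfl
    rw [map_zero] at e
    exact mul_ne_zero hzF hz'F e
  obtain ⟨c, hc, W, hWB, hW, eW⟩ := exists_good_aeval hfin hx h p hp
  have hprod : Good hfin red r b₀ Q (z * z'') := by
    refine good_of_eq_const_mul h hfin (y₂ := W) (c := c / c') ?_ hW (div_ne_zero hc hc'L) ?_
    · rw [map_mul]; exact mul_ne_zero hz hz''
    · change (z : F) * (z'' : F) = algebraMap L F (c / c') * (W : F)
      have hc'F : algebraMap L F (c' : L) ≠ 0 := (_root_.map_ne_zero (algebraMap L F)).2 hc'L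
      rw [map_div₀, div_mul_eq_mul_div, eq_div_iff hc'F, ← eW, ← e, e']
      ring
  exact good_of_good_mul h hfin hzB hz''B hprod

include hx in
/-- **Step (iv)**, (R2) at one point: for every `y ∈ G` with nonzero reduction,
`∑_{r P = b₀} P.ord y = Q.ord (red y)`. -/
theorem r2_point [IsAlgClosed L] (h : PointHyp A res G red r b₀ Q B x)
    (y : G) (hy : red y ≠ 0) :
    push hfin r (y : F) b₀ = Q.ord (red y) := by
  have hyF := coe_ne_zero_of_red_ne_zero hy
  obtain ⟨b₁, b₂, h₁B, h₂B, h₂0, e⟩ := h.frac (y : F)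
  have h₂F : (b₂ : F) ≠ 0 := fun h0 => h₂0 (Subtype.ext h0)
  have h₁0 : b₁ ≠ 0 := by
    rintro rfl
    exact mul_ne_zero hyF h₂F e
  obtain ⟨c₁, hc₁, b₁', h₁'B, e₁, hb₁'⟩ := h.sat b₁ h₁B h₁0
  obtain ⟨c₂, hc₂, b₂', h₂'B, e₂, hb₂'⟩ := h.sat b₂ h₂B h₂0
  have hc₁L : (c₁ : L) ≠ 0 := fun h0 => hc₁ (Subtype.ext h0)
  have hc₂L : (c₂ : L) ≠ 0 := fun h0 => hc₂ (Subtype.ext h0)
  have g₁ := good_of_mem hfin hx h h₁'B hb₁'
  have g₂ := good_of_mem hfin hx h h₂'B hb₂'
  have g : Good hfin red r b₀ Q (y * b₂') := by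
    refine good_of_eq_const_mul h hfin (y₂ := b₁') (c := c₁ / c₂) ?_ g₁ (div_ne_zero hc₁L hc₂L) ?_
    · rw [map_mul]; exact mul_ne_zero hy hb₂'
    · change (y : F) * (b₂' : F) = algebraMap L F (c₁ / c₂) * (b₁' : F)
      have hc₂F : algebraMap L F (c₂ : L) ≠ 0 := (_root_.map_ne_zero (algebraMap L F)).2 hc₂L
      rw [map_div₀, div_mul_eq_mul_div, eq_div_iff hc₂F, ← e₁, ← e, e₂]
      ring
  have e3 := g.2
  have : ((y * b₂' : G) : F) = (y : F) * (b₂' : F) := rfl
  rw [this, push_mul hfin r hyF (coe_ne_zero_of_red_ne_zero hb₂'), map_mul, Q.ord_mul hy hb₂',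
    g₂.2] at e3
  omega

include hx in
/-- (R2) at one point, in the `Finsupp.mapDomain` form of `XiIfaceN29.RedCtxN.r1₁ / r1₂`. -/
theorem r2_point_mapDomain [IsAlgClosed L] (h : PointHyp A res G red r b₀ Q B x)
    (y : G) (hy : red y ≠ 0)
    (D : Place L F →₀ ℤ) (hD : ∀ P, D P = P.ord (y : F)) :
    Finsupp.mapDomain r D b₀ = Q.ord (red y) := by
  rw [eq_divOf hfin _ D hD]
  exact r2_point hfin hx h y hy

end WithCount

end

end Fermat.Agent.ES.W33.R2PointP22
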