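/-
Programme W (S33), chapter (B3′) — helper22: the ADAPTER from the one-chart contract
`W33/ContractP3.ChartSpecP` (helper3; value form) to the order-only hypotheses
`W33/R2PeelP22.PointHypA` at ONE point of the special fibre; the port of `ES/RED/R2Adapter14`
(helper14) WITHOUT the degree hypotheses (`hs`, `hxt` as generator, separability, `hdeg`), which on
the nodal fibre are replaced by the two-component count (`W33/R2CountN22`, `W33/R2JoinN22`).

Inputs besides `S : ChartSpecP A hx Ft` (one component, localised chart, `red` into the field `Ft`):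
* `hsne`, `hrne` : the coordinate and its reduction are not constant;
* a subring `G ⊇ S.B` of `F` with a ring hom `redG : G →+* Ft` extending `S.red` (the Gauss
  valuation ring of the component);
* `r : Place L F → β`, the point `b₀ : β`, its place `Q`; `hdisc` : the disc `{P | r P = b₀}` lies
  in the chart; `hR1` : (R1) at `Q` for the places of the disc (`valueHom_red` shape);
* `hpeel` : `S.PeelA P hP` on the disc; `hredint` : `red B ⊆ O_Q`; `hnorm` : weak norm property.

Exit: `pointHypA`, `pointHyp`.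
-/
import Mathlib
import Fermat.Agent.ES.W33.ContractP3
import Fermat.Agent.ES.W33.R2PeelP22

set_option autoImplicit false
set_option linter.unusedSectionVars false

namespace Fermat.Agent.ES.W33.R2AdapterP22

open AlgebraicCurve Polynomial
open Fermat.Agent.X0.FF Fermat.Agent.ES.RED.PlaceValue13 Fermat.Agent.ES.RED.Contract8
open Fermat.Agent.ES.W33.ContractP3
open Fermat.Agent.ES.RED.R2Abstract14 Fermat.Agent.ES.W33.R2PointP22 Fermat.Agent.ES.W33.R2PeelP22

noncomputable section

variable {L : Type*} [Field L] [IsAlgClosed L] {A : ValuationSubring L}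
variable {F : Type*} [Field F] [Algebra L F] {x : F} {hx : IsGen L x}
variable {Ft : Type*} [Field Ft] [Algebra (kA A) Ft] (S : ChartSpecP A hx Ft)

section Upstairs

variable (P : Place L F) (hP : S.InChart P)
include hP

theorem ord_nonneg_of_inChart {b : F} (hb : b ∈ S.B) : 0 ≤ P.ord b :=
  (ffp_mem_iff_ord_nonneg P).1 (S.mem_place P hP b hb)

theorem ev_eq_zero_of_ord_pos {b : ↥S.B} (hb : 0 < P.ord (b : F)) : S.ev P hP b = 0 :=
  (S.ev_eq_zero_iff P hP b).2 (Or.inr hb)

theorem ord_pos_of_ev_eq_zero {b : ↥S.B} (hb0 : b ≠ 0) (hb : S.ev P hP b = 0) :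
    0 < P.ord (b : F) := by
  rcases (S.ev_eq_zero_iff P hP b).1 hb with h | h
  · exact absurd (Subtype.ext h) hb0
  · exact h

theorem ord_eq_zero_of_ev_ne_zero {b : ↥S.B} (hb : S.ev P hP b ≠ 0) : P.ord (b : F) = 0 := by
  have h1 := ord_nonneg_of_inChart S P hP b.2
  by_contra hne
  exact hb (ev_eq_zero_of_ord_pos S P hP (lt_of_le_of_ne h1 (Ne.symm hne)))

theorem ev_ne_zero_of_chi_ne_zero {d : ↥S.B} (hd : S.chi P hP d ≠ 0) : S.ev P hP d ≠ 0 := by
  intro h0
  apply hd
  rw [ChartSpecP.chi_apply, h0, map_zero]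

theorem ne_zero_of_chi_ne_zero {d : ↥S.B} (hd : S.chi P hP d ≠ 0) : d ≠ 0 := by
  rintro rfl
  exact hd (map_zero _)

omit hP in
theorem coe_ne_zero {b : ↥S.B} (hb : b ≠ 0) : (b : F) ≠ 0 := fun h0 => hb (Subtype.ext h0)

variable (P' : Place L F) (hP' : S.InChart P')
include hP'

/-- If `𝔪_P ∩ B ⊆ 𝔪_{P'} ∩ B` then the two value maps agree on `B`. -/
theorem ev_eq_of_le (hle : ∀ z ∈ S.B, 0 < P.ord z → 0 < P'.ord z) (z : ↥S.B) :
    S.ev P' hP' z = S.ev P hP z := by
  have h0 := S.ev_sub_const P hP z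
  have h1 : S.ev P' hP' (z - S.const (S.ev P hP z)) = 0 := by
    rcases (S.ev_eq_zero_iff P hP _).1 h0 with h | h
    · exact (S.ev_eq_zero_iff P' hP' _).2 (Or.inl h)
    · exact (S.ev_eq_zero_iff P' hP' _).2 (Or.inr (hle _ (Subtype.mem _) h))
  rw [map_sub, S.ev_const P' hP', sub_eq_zero] at h1
  exact h1

/-- Peeling numerator and denominator: `O_P ⊆ O_{P'}`. -/
theorem mem_of_le_aux (hpeel : S.PeelA P hP)
    (hle : ∀ z ∈ S.B, 0 < P.ord z → 0 < P'.ord z) {f : F} (hf : f ∈ P.toValuationSubring) :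
    ∀ (m : ℕ) (a b : ↥S.B), b ≠ 0 → f * (b : F) = (a : F) → P.ord (b : F) ≤ m →
      f ∈ P'.toValuationSubring := by
  obtain ⟨u, hu, hdiv⟩ := hpeel
  have hfo : 0 ≤ P.ord f := (ffp_mem_iff_ord_nonneg P).1 hf
  -- the easy case: the denominator does not vanish at `P`
  have easy : ∀ a b : ↥S.B, b ≠ 0 → f * (b : F) = (a : F) → S.ev P hP b ≠ 0 →
      f ∈ P'.toValuationSubring := by
    intro a b hb0 e hev
    have hbF := coe_ne_zero S hb0
    have hev' : S.ev P' hP' b ≠ 0 := by rwa [ev_eq_of_le S P hP P' hP' hle]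
    have hb' := ord_eq_zero_of_ev_ne_zero S P' hP' hev'
    rw [ffp_mem_iff_ord_nonneg]
    rcases eq_or_ne f 0 with rfl | hf0
    · simp
    have := congrArg P'.ord e
    rw [P'.ord_mul hf0 hbF, hb', add_zero] at this
    rw [this]
    exact ord_nonneg_of_inChart S P' hP' a.2
  intro m
  induction m with
  | zero =>
    intro a b hb0 e hm
    refine easy a b hb0 e fun hev => ?_
    have := ord_pos_of_ev_eq_zero S P hP hb0 hev
    push_cast at hm
    omega
  | succ m ih =>
    intro a b hb0 e hm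
    by_cases hev : S.ev P hP b = 0
    · have hbF := coe_ne_zero S hb0
      have hbpos := ord_pos_of_ev_eq_zero S P hP hb0 hev
      -- `a` vanishes at `P` too
      have heva : S.ev P hP a = 0 := by
        rw [S.ev_eq_zero_iff]
        rcases eq_or_ne f 0 with rfl | hf0
        · left; rw [← e, zero_mul]
        · right
          rw [← e, P.ord_mul hf0 hbF]
          omega
      obtain ⟨d₁, a', hd₁, e₁⟩ := hdiv a heva
      obtain ⟨d₂, b', hd₂, e₂⟩ := hdiv b hev
      have hd₁0 := ne_zero_of_chi_ne_zero S P hP hd₁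
      have hd₂0 := ne_zero_of_chi_ne_zero S P hP hd₂
      have hu0 : u ≠ 0 := by
        rintro rfl
        rw [zero_mul] at e₂
        exact mul_ne_zero hb0 hd₂0 e₂
      have hb'0 : b' ≠ 0 := by
        rintro rfl
        rw [mul_zero] at e₂
        exact mul_ne_zero hb0 hd₂0 e₂
      have huF := coe_ne_zero S hu0
      have e₁F : (a : F) * (d₁ : F) = (u : F) * (a' : F) := congrArg (fun g : ↥S.B => (g : F)) e₁
      have e₂F : (b : F) * (d₂ : F) = (u : F) * (b' : F) := congrArg (fun g : ↥S.B => (g : F)) e₂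
      refine ih (a' * d₂) (b' * d₁) (mul_ne_zero hb'0 hd₁0) ?_ ?_
      · -- `f * (b' d₁) = a' d₂`
        have : (u : F) * (f * ((b' : F) * (d₁ : F))) = (u : F) * ((a' : F) * (d₂ : F)) := by
          calc (u : F) * (f * ((b' : F) * (d₁ : F)))
              = f * ((u : F) * (b' : F)) * (d₁ : F) := by ring
            _ = f * ((b : F) * (d₂ : F)) * (d₁ : F) := by rw [e₂F]
            _ = (f * (b : F)) * (d₁ : F) * (d₂ : F) := by ring
            _ = ((a : F) * (d₁ : F)) * (d₂ : F) := by rw [e]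
            _ = (u : F) * ((a' : F) * (d₂ : F)) := by rw [e₁F]; ring
        exact mul_left_cancel₀ huF this
      · -- the order of the denominator drops
        have hupos := ord_pos_of_ev_eq_zero S P hP hu0 hu
        have hd₁o := ord_eq_zero_of_ev_ne_zero S P hP (ev_ne_zero_of_chi_ne_zero S P hP hd₁)
        have hd₂o := ord_eq_zero_of_ev_ne_zero S P hP (ev_ne_zero_of_chi_ne_zero S P hP hd₂)
        have h2 := congrArg P.ord e₂F
        rw [P.ord_mul hbF (coe_ne_zero S hd₂0), P.ord_mul huF (coe_ne_zero S hb'0), hd₂o,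
          add_zero] at h2
        have : P.ord (((b' * d₁ : ↥S.B)) : F) = P.ord (b' : F) := by
          change P.ord ((b' : F) * (d₁ : F)) = _
          rw [P.ord_mul (coe_ne_zero S hb'0) (coe_ne_zero S hd₁0), hd₁o, add_zero]
        rw [this]
        push_cast at hm
        omega
    · exact easy a b hb0 e hev

/-- **Separation**: the ideals `𝔪_P ∩ B` separate the places of the chart. -/
theorem sep (hpeel : S.PeelA P hP) (hle : ∀ z ∈ S.B, 0 < P.ord z → 0 < P'.ord z) : P = P' := by
  apply Place.ext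
  have hsub : P.toValuationSubring ≤ P'.toValuationSubring := by
    intro f hf
    obtain ⟨a, b, hb0, e⟩ := S.frac f
    exact mem_of_le_aux S P hP P' hP' hpeel hle hf _ a b hb0 e (Int.self_le_toNat _)
  exact (Fermat.Agent.ES.HECKE.FundIdentity19.valuationSubring_eq_of_le P P'.toValuationSubring
    hsub P'.ne_top').symm

end Upstairs

section Main

variable [IsAlgClosed (kA A)] {xt : Ft} (hxt : IsGen (kA A) xt)
variable (hsne : ∀ a : ↥A, S.s ≠ algebraMap L F (a : L))
variable (hrne : ∀ c : kA A, S.red S.sB ≠ algebraMap (kA A) Ft c)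
variable (G : Subring F) (hBG : S.B ≤ G) (redG : ↥G →+* Ft)
variable (hredG : ∀ (b : F) (hb : b ∈ S.B), redG ⟨b, hBG hb⟩ = S.red ⟨b, hb⟩)
variable {β : Type*} (r : Place L F → β) (b₀ : β) (Q : Place (kA A) Ft)
variable (hdisc : ∀ P, r P = b₀ → S.InChart P)
variable (hR1 : ∀ (P : Place L F) (hP : S.InChart P), r P = b₀ → ∀ b : ↥S.B,
  ∃ hmem : S.red b ∈ Q.toValuationSubring,
    valueHom hxt Q ⟨S.red b, hmem⟩ = S.chi P hP b)
variable (hpeel : ∀ (P : Place L F) (hP : S.InChart P), r P = b₀ → S.PeelA P hP)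
variable (hredint : ∀ b : ↥S.B, S.red b ∈ Q.toValuationSubring)
variable (hnorm : ∀ z : ↥S.B, z ≠ 0 → ∃ z' : ↥S.B, z' ≠ 0 ∧
  ∃ p : L[X], (z : F) * (z' : F) = aeval S.s p)

include hR1 in
/-- `red d` is a unit at `Q` when `χ_P d ≠ 0` for a place `P` of the disc. -/
theorem ord_red_eq_zero_of_chi_ne_zero (P : Place L F) (hP : S.InChart P) (hPb : r P = b₀)
    {d : ↥S.B} (hd : S.chi P hP d ≠ 0) : Q.ord (S.red d) = 0 := by
  obtain ⟨hmem, hv⟩ := hR1 P hP hPb d
  have hu : IsUnit (⟨S.red d, hmem⟩ : ↥Q.toValuationSubring) := by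
    rw [← valueHom_ne_zero_iff hxt Q, hv]
    exact hd
  exact ffp_ord_eq_zero_of_isUnit Q hu

include hR1 in
/-- (R1), order form. -/
theorem ord_red_pos (P : Place L F) (hP : S.InChart P) (hPb : r P = b₀) {b : ↥S.B}
    (hb : 0 < P.ord (b : F)) (hb0 : S.red b ≠ 0) : 0 < Q.ord (S.red b) := by
  obtain ⟨hmem, hv⟩ := hR1 P hP hPb b
  have hχ : S.chi P hP b = 0 := by
    rw [ChartSpecP.chi_apply, ev_eq_zero_of_ord_pos S P hP hb, map_zero]
  rw [hχ, valueHom_eq_zero_iff_ord] at hv
  rcases hv with h | h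
  · exact absurd h hb0
  · exact h

include hxt hsne hrne hredG hdisc hR1 hpeel hredint hnorm in
/-- **The adapter**: the contract implies the order-only hypotheses at the point `b₀`. -/
theorem pointHypA :
    PointHypA A (resA A) G redG r b₀ Q S.B ⟨S.s, hBG S.s_mem⟩ := by
  have hred' : ∀ (b : ↥G) (hb : (b : F) ∈ S.B), redG b = S.red ⟨(b : F), hb⟩ := fun b hb =>
    hredG (b : F) hb
  have hredx : redG ⟨S.s, hBG S.s_mem⟩ = S.red S.sB := hredG S.s S.s_mem
  refine
    { res_nonunit := ?_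
      const_mem := S.const_mem
      B_le := hBG
      red_const := ?_
      x_mem := S.s_mem
      red_x_ne := ?_
      ord_nonneg := ?_
      ord_red_nonneg := ?_
      r1 := ?_
      peelA := ?_
      sep := ?_
      exists_zero := ?_
      sat := ?_
      norm := ?_
      frac := ?_ }
  · -- res_nonunit
    intro a ha
    exact (IsLocalRing.residue_eq_zero_iff a).2 ha
  · -- red_const
    intro a
    rw [hredG _ (S.const_mem a)]
    exact S.red_const a
  · -- red_x_ne
    intro c hc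
    rw [hredx] at hc
    exact hrne c hc
  · -- ord_nonneg
    intro P hP b hb
    exact ord_nonneg_of_inChart S P (hdisc P hP) hb
  · -- ord_red_nonneg
    intro b hb
    rw [hred' b hb]
    exact (ffp_mem_iff_ord_nonneg Q).1 (hredint _)
  · -- r1
    intro P hP b hb hpos hne
    rw [hred' b hb] at hne ⊢
    exact ord_red_pos S hxt r b₀ Q hR1 P (hdisc P hP) hP (b := ⟨(b : F), hb⟩) hpos hne
  · -- peelA
    intro P hP
    obtain ⟨u, hu, hdiv⟩ := hpeel P (hdisc P hP) hP
    refine ⟨⟨(u : F), hBG u.2⟩, u.2, (S.ev_eq_zero_iff P (hdisc P hP) u).1 hu, ?_⟩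
    intro z hzB hzpos
    obtain ⟨d, z', hd, e⟩ := hdiv ⟨(z : F), hzB⟩ (ev_eq_zero_of_ord_pos S P (hdisc P hP) hzpos)
    refine ⟨⟨(d : F), hBG d.2⟩, ⟨(z' : F), hBG z'.2⟩, d.2, z'.2, ?_, ?_, ?_⟩
    · rw [hredG _ d.2]
      exact fun h0 => hd (S.chi_eq_zero_of_red_eq_zero P (hdisc P hP) h0)
    · rw [hredG _ d.2]
      exact ord_red_eq_zero_of_chi_ne_zero S hxt r b₀ Q hR1 P (hdisc P hP) hP hd
    · apply Subtype.ext
      exact congrArg (fun g : ↥S.B => (g : F)) e
  · -- sep
    intro P hP P' hP' hle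
    exact sep S P (hdisc P hP) P' (hdisc P' hP') (hpeel P (hdisc P hP) hP) hle
  · -- exists_zero
    intro P hP
    refine ⟨S.ev P (hdisc P hP) S.sB, ?_⟩
    have h0 := S.ev_sub_const P (hdisc P hP) S.sB
    rcases (S.ev_eq_zero_iff P (hdisc P hP) _).1 h0 with h | h
    · exfalso
      have h1 : S.s - algebraMap L F ((S.ev P (hdisc P hP) S.sB : ↥A) : L) = 0 := h
      rw [sub_eq_zero] at h1
      exact hsne _ h1
    · exact h
  · -- sat
    intro b hb hb0
    have hb0' : (⟨(b : F), hb⟩ : ↥S.B) ≠ 0 := by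
      intro h0
      apply hb0
      apply Subtype.ext
      exact congrArg (fun g : ↥S.B => (g : F)) h0
    obtain ⟨c, b', e, hb'⟩ := S.sat ⟨(b : F), hb⟩ hb0'
    refine ⟨c, ?_, ⟨(b' : F), hBG b'.2⟩, b'.2, e, ?_⟩
    · rintro rfl
      apply hb0
      apply Subtype.ext
      change (b : F) = 0
      have e' : (b : F) = algebraMap L F ((0 : ↥A) : L) * (b' : F) := e
      rw [e']
      simp
    · rw [hredG _ b'.2]
      exact hb'
  · -- norm
    intro z hzB hz0
    have hz0' : (⟨(z : F), hzB⟩ : ↥S.B) ≠ 0 := by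
      intro h0
      apply hz0
      apply Subtype.ext
      exact congrArg (fun g : ↥S.B => (g : F)) h0
    obtain ⟨z', hz'0, p, e⟩ := hnorm ⟨(z : F), hzB⟩ hz0'
    refine ⟨⟨(z' : F), hBG z'.2⟩, z'.2, ?_, p, e⟩
    intro h0
    apply hz'0
    apply Subtype.ext
    exact congrArg (fun g : ↥G => (g : F)) h0
  · -- frac
    intro y
    obtain ⟨a, b, hb0, e⟩ := S.frac y
    refine ⟨⟨(a : F), hBG a.2⟩, ⟨(b : F), hBG b.2⟩, a.2, b.2, ?_, e⟩
    intro h0
    apply hb0
    apply Subtype.ext
    exact congrArg (fun g : ↥G => (g : F)) h0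

include hxt hsne hrne hredG hdisc hR1 hpeel hredint hnorm in
/-- the full order-only hypotheses at the point `b₀` (input of `R2PointP22`, `R2JoinN22`). -/
theorem pointHyp :
    PointHyp A (resA A) G redG r b₀ Q S.B ⟨S.s, hBG S.s_mem⟩ :=
  (pointHypA S hxt hsne hrne G hBG redG hredG r b₀ Q hdisc hR1 hpeel hredint hnorm).toPointHyp

end Main

end

end Fermat.Agent.ES.W33.R2AdapterP22
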