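/-
Programme W (S33), chapter (B3′) "reduction of places on the nodal model" — helper22: **the disc
lemmas (Da), (Db), (Dc) at a GOOD smooth point of the nodal fibre**, as literals on ONE chart
`S : ContractP3.ChartSpecP A hx Ft` (helper3; at the instance the localised chart `(B_j[1/e], ρ_i)`
of one component) with a `β`-valued reduction map `r`, the point `b₀ : β` and its place `Q` on the
component through it.  Port of `ES/V19/DiscIface3` (literals; the local ring is
`DiscChartP22.locAt S Q`) + `ES/V19/DiscExit22` (proofs).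

Inputs: `hdisc` (the disc `{P | r P = b₀}` lies in the chart), (R1) `hR1`, (PEEL-a) `hpeel` on the
disc, (R2) `hR2` for chart functions (exit of `W33/R2JoinN22` through `W33/R2AdapterP22`), `hsne`
(the coordinate is not constant).

"`A`-integral functions" = `GaussFrac15.gaussInt G gred` for ANY subring `G ⊇ S.B` of `F` with a
reduction `gred : G →+* Ft` extending `S.red` (instance: `G = O_i`, the Gauss valuation ring of the
component, `gred = ρ_i`; NOT `O₁ ⊓ O₂`, which does not contain `1 / e`).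

* `tauB S c`, `tauSub S c s`, `Good S Q c` (`ord_Q (t̃ - c̄) = 1`), `Da`, `Db`, `Dc`, `Dd` : the
  literals;
* `isGI_chart_of_mem`, `isGI_chart_of_isGI`, `isFrac_of_isGU` : the bridge;
* `chi_tauB_eq_zero`, `da`, `db`, `dc`, `dd`.
-/
import Mathlib
import Fermat.Agent.ES.V19.GaussFrac15
import Fermat.Agent.ES.W33.DiscChartP22

set_option autoImplicit false
set_option linter.unusedSectionVars false

namespace Fermat.Agent.ES.W33.DiscExitP22

open AlgebraicCurve
open Fermat.Agent.X0.FF Fermat.Agent.ES.RED.PlaceValue13 Fermat.Agent.ES.RED.Contract8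
open Fermat.Agent.ES.W33.ContractP3
open Fermat.Agent.ES.RED.R2Abstract14 Fermat.Agent.ES.W33.R2AdapterP22
open Fermat.Agent.ES.V19.GaussFrac15
open Fermat.Agent.ES.W33.DiscChartP22

noncomputable section

variable {L : Type*} [Field L] [IsAlgClosed L] {A : ValuationSubring L}
variable {F : Type*} [Field F] [Algebra L F] {x : F} {hx : IsGen L x}
variable {Ft : Type*} [Field Ft] [Algebra (kA A) Ft]

/-! ### the literals -/

section Defs

variable (S : ChartSpecP A hx Ft) {β : Type*} (r : Place L F → β) (b₀ : β)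
  (G : Subring F) (gred : ↥G →+* Ft) (Q : Place (kA A) Ft) (c : ↥A)

/-- the local parameter `τ = t - c` as an element of the chart ring (`t = S.s`). -/
def tauB : ↥S.B := S.sB - S.const c

/-- `τ - s = t - (c + s)` as an element of `F`. -/
def tauSub (s : ↥A) : F := S.s - algebraMap L F ((c : L) + (s : L))

/-- `Q` is GOOD with centre `c`: the reduction `t̃ - c̄` of `τ` has a simple zero at `Q`. -/
def Good : Prop := Q.ord (S.red (tauB S c)) = 1

/-- **(Da)** `τ` takes its values on the disc in `𝔪_A`, and `P ↦ τ(P)` is a bijection of the disc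
onto `𝔪_A`: for every `s ∈ 𝔪_A` the function `τ - s` has exactly one zero in the disc, and this
zero is simple. -/
def Da : Prop :=
  (∀ P, r P = b₀ → ∀ hP : S.InChart P, S.chi P hP (tauB S c) = 0) ∧
  ∀ s : ↥A, s ∈ IsLocalRing.maximalIdeal ↥A →
    ∃ P, r P = b₀ ∧ P.ord (tauSub S c s) = 1 ∧
      ∀ P', r P' = b₀ → 0 < P'.ord (tauSub S c s) → P' = P

/-- **(Db)** an `A`-integral function without poles on the disc lies in the local ring. -/
def Db : Prop :=
  ∀ f : F, f ∈ G → (∀ P, r P = b₀ → 0 ≤ P.ord f) → f ∈ locAt S Q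

/-- **(Dc)** an `A`-integral function with nonzero reduction is, on the disc, a unit of the local
ring times the product of the `(τ - τ(P)) ^ ord_P f` over its zeros and poles `P` in the disc. -/
def Dc : Prop :=
  ∀ f : ↥G, gred f ≠ 0 →
    ∃ (W : Finset (Place L F)) (val : Place L F → ↥A) (u : (↥(locAt S Q))ˣ),
      (∀ P ∈ W, r P = b₀ ∧ val P ∈ IsLocalRing.maximalIdeal ↥A ∧
        0 < P.ord (tauSub S c (val P))) ∧
      (∀ P, r P = b₀ → P.ord (f : F) ≠ 0 → P ∈ W) ∧
      (f : F) = ((u : ↥(locAt S Q)) : F) * ∏ P ∈ W, tauSub S c (val P) ^ (P.ord (f : F))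

/-- **(Dd)**, core form (division by `τ` in the local ring): every element of the local ring is a
constant of `A` plus a multiple of `τ`. -/
def Dd : Prop :=
  ∀ f ∈ locAt S Q, ∃ a : ↥A, ∃ g ∈ locAt S Q,
    f = algebraMap L F (a : L) + ((tauB S c : ↥S.B) : F) * g

end Defs

/-! ### the bridge: `G`-fractions are chart fractions -/

section Bridge

variable (S : ChartSpecP A hx Ft) (G : Subring F) (gred : ↥G →+* Ft) (hBG : S.B ≤ G)
  (hredG : ∀ (b : F) (hb : b ∈ S.B), gred ⟨b, hBG hb⟩ = S.red ⟨b, hb⟩)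

include hredG in
/-- Every element of `G` is a fraction of chart functions, the denominator of nonzero
reduction. -/
theorem isGI_chart_of_mem (f : ↥G) : IsGI S.B S.red (f : F) := by
  by_cases hf0 : (f : F) = 0
  · exact ⟨0, 1, by rw [map_one]; exact one_ne_zero, by rw [hf0, zero_mul]; rfl⟩
  obtain ⟨a, b, hb0, e⟩ := S.frac (f : F)
  have hbF : (b : F) ≠ 0 := coe_ne_zero S hb0
  have ha0 : a ≠ 0 := by
    rintro rfl
    have : (f : F) * (b : F) = 0 := by rw [e]; rfl
    rcases mul_eq_zero.1 this with h | h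
    · exact hf0 h
    · exact hbF h
  obtain ⟨cb, b', hbc, hb'⟩ := S.sat b hb0
  obtain ⟨ca, a', hac, ha'⟩ := S.sat a ha0
  have hcb0 : (cb : L) ≠ 0 := by
    intro h
    apply hbF
    rw [hbc, h, map_zero, zero_mul]
  have hca0 : (ca : L) ≠ 0 := by
    intro h
    apply coe_ne_zero S ha0
    rw [hac, h, map_zero, zero_mul]
  -- `f * cb * b' = ca * a'`
  have e' : (f : F) * (algebraMap L F (cb : L) * (b' : F)) = algebraMap L F (ca : L) * (a' : F) := by
    rw [← hbc, ← hac, e]
  rcases A.mem_or_inv_mem ((ca : L) / (cb : L)) with h | h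
  · -- `ca / cb ∈ A`
    refine ⟨S.const ⟨_, h⟩ * a', b', hb', ?_⟩
    show (f : F) * (b' : F) = algebraMap L F ((ca : L) / (cb : L)) * (a' : F)
    have hcbF : algebraMap L F (cb : L) ≠ 0 := (map_ne_zero (algebraMap L F)).2 hcb0
    apply mul_left_cancel₀ hcbF
    rw [map_div₀]
    field_simp
    linear_combination e'
  · -- `cb / ca ∈ A`
    have h' : (cb : L) / (ca : L) ∈ A := by
      rw [inv_div] at h; exact h
    have eF : (f : F) * ((S.const ⟨_, h'⟩ * b' : ↥S.B) : F) = (a' : F) := by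
      show (f : F) * (algebraMap L F ((cb : L) / (ca : L)) * (b' : F)) = (a' : F)
      have hcaF : algebraMap L F (ca : L) ≠ 0 := (map_ne_zero (algebraMap L F)).2 hca0
      apply mul_left_cancel₀ hcaF
      rw [map_div₀]
      field_simp
      linear_combination e'
    refine ⟨a', S.const ⟨_, h'⟩ * b', ?_, eF⟩
    intro hzero
    apply ha'
    have eG : f * ⟨((S.const ⟨_, h'⟩ * b' : ↥S.B) : F), hBG (S.const ⟨_, h'⟩ * b').2⟩ =
        ⟨(a' : F), hBG a'.2⟩ := Subtype.ext eF
    have := congrArg gred eG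
    rw [map_mul, hredG _ (S.const ⟨_, h'⟩ * b').2, hredG _ a'.2] at this
    rw [show (⟨(a' : F), a'.2⟩ : ↥S.B) = a' from rfl] at this
    rw [← this, show (⟨((S.const ⟨_, h'⟩ * b' : ↥S.B) : F), (S.const ⟨_, h'⟩ * b').2⟩ : ↥S.B) =
      S.const ⟨_, h'⟩ * b' from rfl, hzero, mul_zero]

include hredG in
/-- the chart fraction of an element of `G` of nonzero reduction has a numerator of nonzero
reduction. -/
theorem exists_chart_frac (f : ↥G) :
    ∃ a b : ↥S.B, S.red b ≠ 0 ∧ (f : F) * (b : F) = (a : F) ∧ gred f * S.red b = S.red a := by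
  obtain ⟨a, b, hb, e⟩ := isGI_chart_of_mem S G gred hBG hredG f
  refine ⟨a, b, hb, e, ?_⟩
  have eG : f * ⟨(b : F), hBG b.2⟩ = ⟨(a : F), hBG a.2⟩ := Subtype.ext e
  have := congrArg gred eG
  rwa [map_mul, hredG _ b.2, hredG _ a.2] at this

include hredG in
/-- Gauss-integral functions for `(G, gred)` are Gauss-integral for the chart. -/
theorem isGI_chart_of_isGI {f : F} (hf : IsGI G gred f) : IsGI S.B S.red f := by
  obtain ⟨a, b, hb, e⟩ := hf
  obtain ⟨a₁, a₂, ha₂, ea, -⟩ := exists_chart_frac S G gred hBG hredG a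
  obtain ⟨b₁, b₂, hb₂, eb, hbr⟩ := exists_chart_frac S G gred hBG hredG b
  have hb₁ : S.red b₁ ≠ 0 := by
    rw [← hbr]; exact mul_ne_zero hb hb₂
  refine ⟨a₁ * b₂, a₂ * b₁, by rw [map_mul]; exact mul_ne_zero ha₂ hb₁, ?_⟩
  show f * ((a₂ : F) * (b₁ : F)) = (a₁ : F) * (b₂ : F)
  rw [← ea, ← eb, ← e]; ring

include hredG in
/-- Gauss units for `(G, gred)` are Gauss units for the chart. -/
theorem isFrac_of_isGU {f : F} (hf : IsGU G gred f) : IsFrac S f := by
  obtain ⟨a, b, ha, hb, e⟩ := hf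
  obtain ⟨a₁, a₂, ha₂, ea, har⟩ := exists_chart_frac S G gred hBG hredG a
  obtain ⟨b₁, b₂, hb₂, eb, hbr⟩ := exists_chart_frac S G gred hBG hredG b
  have hb₁ : S.red b₁ ≠ 0 := by
    rw [← hbr]; exact mul_ne_zero hb hb₂
  have ha₁ : S.red a₁ ≠ 0 := by
    rw [← har]; exact mul_ne_zero ha ha₂
  refine ⟨a₁ * b₂, a₂ * b₁, by rw [map_mul]; exact mul_ne_zero ha₁ hb₂,
    by rw [map_mul]; exact mul_ne_zero ha₂ hb₁, ?_⟩
  show f * ((a₂ : F) * (b₁ : F)) = (a₁ : F) * (b₂ : F)
  rw [← ea, ← eb, ← e]; ring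

end Bridge

/-! ### the proofs -/

section Literals

variable [IsAlgClosed (kA A)] {xt : Ft} (hxt : IsGen (kA A) xt)
variable (S : ChartSpecP A hx Ft)
variable (hsne : ∀ a : ↥A, S.s ≠ algebraMap L F (a : L))
variable {β : Type*} (r : Place L F → β) (b₀ : β) (Q : Place (kA A) Ft)
variable (hdisc : ∀ P, r P = b₀ → S.InChart P)
variable (hR1 : ∀ (P : Place L F) (hP : S.InChart P), r P = b₀ → ∀ b : ↥S.B,
  ∃ hmem : S.red b ∈ Q.toValuationSubring,
    valueHom hxt Q ⟨S.red b, hmem⟩ = S.chi P hP b)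
variable (hpeel : ∀ (P : Place L F) (hP : S.InChart P), r P = b₀ → S.PeelA P hP)
variable (hfin : FinDiv L F)
variable (hR2 : ∀ b : ↥S.B, S.red b ≠ 0 → push hfin r (b : F) b₀ = Q.ord (S.red b))
variable (c : ↥A)

omit [IsAlgClosed (kA A)] in
/-- `t - (c + s)` has the reduction of `τ = t - c` for `s ∈ 𝔪_A`. -/
theorem red_subConst_add (s : ↥A) (hs : s ∈ IsLocalRing.maximalIdeal ↥A) :
    S.red (subConst S (c + s)) = S.red (tauB S c) := by
  have hres : resA A s = 0 := (IsLocalRing.residue_eq_zero_iff s).2 hs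
  show S.red (S.sB - S.const (c + s)) = S.red (S.sB - S.const c)
  rw [map_sub, map_sub, ChartSpecP.red_const', ChartSpecP.red_const', map_add, hres, add_zero]

omit [IsAlgClosed (kA A)] in
theorem coe_subConst_add (s : ↥A) :
    ((subConst S (c + s) : ↥S.B) : F) = tauSub S c s := rfl

include hR1 in
/-- `τ` takes its values on the disc of a GOOD point in `𝔪_A`. -/
theorem chi_tauB_eq_zero (hgood : Good S Q c) (P : Place L F) (hPQ : r P = b₀)
    (hP : S.InChart P) : S.chi P hP (tauB S c) = 0 := by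
  by_contra hne
  have := (ord_eq_zero_of_chi_ne_zero S hxt r b₀ Q hR1 hPQ hP hne).2
  have hg : Q.ord (S.red (tauB S c)) = 1 := hgood
  omega

include hdisc hR1 hR2 in
/-- **(Da)** at a GOOD point. -/
theorem da (hgood : Good S Q c) : Da S r b₀ c := by
  refine ⟨fun P hPQ hP => chi_tauB_eq_zero hxt S r b₀ Q hR1 c hgood P hPQ hP, ?_⟩
  intro s hs
  have hg : Q.ord (S.red (subConst S (c + s))) = 1 := by
    rw [red_subConst_add S c s hs]; exact hgood
  have hur : S.red (subConst S (c + s)) ≠ 0 := by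
    intro h
    rw [h, Place.ord_zero] at hg
    exact zero_ne_one hg
  obtain ⟨P, hPQ, hpos⟩ := exists_zero_of_ord_red_pos S r b₀ Q hdisc hfin hR2
    (subConst S (c + s)) hur (by rw [hg]; exact one_pos)
  obtain ⟨h1, h2⟩ := ord_eq_of_ord_red_eq_one S r b₀ Q hdisc hfin hR2
    (subConst S (c + s)) hg hPQ hpos
  refine ⟨P, hPQ, h1, ?_⟩
  intro P' hP'Q hpos'
  by_contra hne
  have := h2 P' hP'Q hne
  rw [coe_subConst_add] at this
  omega

variable (G : Subring F) (gred : ↥G →+* Ft) (hBG : S.B ≤ G)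
  (hredG : ∀ (b : F) (hb : b ∈ S.B), gred ⟨b, hBG hb⟩ = S.red ⟨b, hb⟩)

include hdisc hR1 hpeel hR2 hredG in
/-- **(Db)** at a point of the chart, for the Gauss-integral functions of `(G, gred)`. -/
theorem db : Db S r b₀ (gaussInt G gred) Q := by
  intro f hf hreg
  obtain ⟨a, b, hb, e⟩ := isGI_chart_of_isGI S G gred hBG hredG hf
  exact mem_locAt_of_regular S hxt r b₀ Q hdisc hR1 hpeel hfin hR2 f a b hb e hreg

include hsne hdisc hR1 hpeel hR2 hredG in
/-- **(Dc)** at a GOOD point, for the Gauss units of `(G, gred)`. -/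
theorem dc (hgood : Good S Q c) : Dc S r b₀ (gaussInt G gred) (rho G gred) Q c := by
  classical
  intro f hf
  have hGU : IsGU G gred (f : F) := (isGU_iff_rho_ne_zero f).2 hf
  have hfrac : IsFrac S (f : F) := isFrac_of_isGU S G gred hBG hredG hGU
  have hf0 : (f : F) ≠ 0 := hfrac.ne_zero
  have hWfin : {P : Place L F | r P = b₀ ∧ P.ord (f : F) ≠ 0}.Finite :=
    (hfin (f : F)).subset (fun P h => h.2)
  -- the values of `τ`
  let val : Place L F → ↥A := fun P =>
    if hP : S.InChart P then S.ev P hP S.sB - c else 0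
  have hvalP : ∀ P (hP : S.InChart P), c + val P = S.ev P hP S.sB := by
    intro P hP
    show c + (if hP : S.InChart P then S.ev P hP S.sB - c else 0) = _
    rw [dif_pos hP]; ring
  have hvalm : ∀ P, r P = b₀ → val P ∈ IsLocalRing.maximalIdeal ↥A := by
    intro P hPQ
    have hP := hdisc P hPQ
    have hχ := chi_tauB_eq_zero hxt S r b₀ Q hR1 c hgood P hPQ hP
    rw [← IsLocalRing.residue_eq_zero_iff]
    show resA A (if hP : S.InChart P then S.ev P hP S.sB - c else 0) = 0
    rw [dif_pos hP, map_sub]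
    have hχ' : S.chi P hP (S.sB - S.const c) = 0 := hχ
    rw [map_sub, ChartSpecP.chi_const, ChartSpecP.chi_apply] at hχ'
    exact hχ'
  have hvalpos : ∀ P, r P = b₀ → 0 < P.ord (tauSub S c (val P)) := by
    intro P hPQ
    have hP := hdisc P hPQ
    rw [← coe_subConst_add, hvalP P hP]
    have hne : subConst S (S.ev P hP S.sB) ≠ 0 := by
      intro h
      have h1 : ((subConst S (S.ev P hP S.sB) : ↥S.B) : F) = 0 := by rw [h]; rfl
      rw [coe_subConst, sub_eq_zero] at h1
      exact hsne _ h1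
    exact ord_pos_of_ev_eq_zero S P hP hne (S.ev_sub_const P hP S.sB)
  obtain ⟨u, hu, hu', e⟩ := exists_unit_mul_prod_sub S hxt r b₀ Q hdisc hR1 hpeel hfin hR2
    (f : F) hfrac hWfin.toFinset
    (fun P hP => ((Set.Finite.mem_toFinset hWfin).1 hP).1)
    (fun P hPQ hne => (Set.Finite.mem_toFinset hWfin).2 ⟨hPQ, hne⟩)
    (fun P => c + val P)
    (fun P hP => hvalpos P ((Set.Finite.mem_toFinset hWfin).1 hP).1)
    (fun P hP => by
      rw [red_subConst_add S c (val P) (hvalm P ((Set.Finite.mem_toFinset hWfin).1 hP).1)]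
      exact hgood)
  have hu0 : u ≠ 0 := by
    rintro rfl
    rw [zero_mul] at e
    exact hf0 e
  refine ⟨hWfin.toFinset, val, ⟨⟨u, hu⟩, ⟨u⁻¹, hu'⟩, Subtype.ext (mul_inv_cancel₀ hu0),
    Subtype.ext (inv_mul_cancel₀ hu0)⟩, ?_, ?_, e⟩
  · intro P hP
    have hPQ := ((Set.Finite.mem_toFinset hWfin).1 hP).1
    exact ⟨hPQ, hvalm P hPQ, hvalpos P hPQ⟩
  · intro P hPQ hne
    exact (Set.Finite.mem_toFinset hWfin).2 ⟨hPQ, hne⟩

include hdisc hR1 hpeel hR2 in
/-- **(Dd)**, core form, at a GOOD point: division by `τ` in the local ring. -/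
theorem dd (hgood : Good S Q c) : Dd S Q c := by
  intro f hf
  have hg : Q.ord (S.red (tauB S c)) = 1 := hgood
  have hur : S.red (tauB S c) ≠ 0 := by
    intro h
    rw [h, Place.ord_zero] at hg
    exact zero_ne_one hg
  obtain ⟨P, hPQ, hpos⟩ := exists_zero_of_ord_red_pos S r b₀ Q hdisc hfin hR2
    (tauB S c) hur (by rw [hg]; exact one_pos)
  let a : ↥A := evLoc S hxt r b₀ Q hdisc hR1 hPQ ⟨f, hf⟩
  let g0 : ↥(locAt S Q) := ⟨f, hf⟩ - ⟨((S.const a : ↥S.B) : F), coe_mem_locAt S Q (S.const a)⟩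
  have hev : evLoc S hxt r b₀ Q hdisc hR1 hPQ g0 = 0 := by
    show evLoc S hxt r b₀ Q hdisc hR1 hPQ
      (⟨f, hf⟩ - ⟨((S.const a : ↥S.B) : F), coe_mem_locAt S Q (S.const a)⟩) = 0
    rw [map_sub, evLoc_coe, S.ev_const P (hdisc _ hPQ) a]
    exact sub_self _
  obtain ⟨g, hg', e⟩ := exists_eq_mul_of_evLoc_eq_zero S hxt r b₀ Q hdisc hR1 hpeel hfin hR2
    (tauB S c) hg hPQ hpos g0 hev
  refine ⟨a, g, hg', ?_⟩
  have e' : f - algebraMap L F (a : L) = ((tauB S c : ↥S.B) : F) * g := e
  rw [← e']; ring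

end Literals

end

end Fermat.Agent.ES.W33.DiscExitP22
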