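/-
Programme W (S33 by hand, route `S33_ROUTE8.md`), chapter (Gb), group B5′/G3′, leaf **(Le) on the
NODAL model**, helper21: the nodal port of helper28's `V19/DensityInst28` — the geometric
instantiation of the abstract core `V19/DensityCore28` (which is ALREADY stated for a commutative
RING `Ft`, here `Ft₁ × Ft₂`) in helper29's nodal reduction context `XiIfaceN29.RedCtxN`.

Setting: fields `F / L`; the special fibre has TWO components with function fields `Ft₁, Ft₂ / k`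
glued at the nodes `N`; `A : ValuationSubring L`, `π : A →+* k`, `G ⊂ F` (`= O₁ ∩ O₂`) with
`red : G →+* Ft₁ × Ft₂`, `r : Place L F → SPt ⊕ Fin sn` (`RedCtxN A π N G red r`), `HL : LHyp L F`.

* `ordS Q f`, `NeAt Q f` : order / non-vanishing of a pair at a point `Q` of one of the components;
* `LocExpN G red r π Q` : the LOCAL EXPANSION DATUM at a SMOOTH point `Q` — as `DensityInst28.LocExp`
  with `CQ ≤ G` and the order inequality on the component of `Q`;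
* `DensBaseN D`, `DensPtN Bs` : the fixed / varying data (`hbar` : every GLUED section of `O(Ē)` is a
  constant pair);
* `Bsharp`, `Sloc`, `ExpR`, `ExpRB`, `rhoB : B^♯ →+* Ft₁ × Ft₂`, `evS`;
* `densHyp` : the hypotheses `DensityCore28.DensHyp` of the abstract core;
* **`ExpRB_mem_AR`**, **`dens_mem_AR`** : (Le) on the nodal model.
-/
import Mathlib
import Fermat.Agent.ES.V19.DensityInst28
import Fermat.Agent.ES.W33.XiIfaceN29

set_option autoImplicit false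
set_option linter.style.haveILetI false

open AlgebraicCurve

noncomputable section

namespace Fermat.Agent.ES.W33.DensityInstN21

open scoped BigOperators
open HahnSeries
open Fermat.Agent.X0.FF Fermat.Agent.RR.LSpace
open Fermat.Agent.ES.V19.SupTrick15 (mapDomain_apply_eq_sum mapDomain_apply_nonneg)
open Fermat.Agent.ES.V19.LaurentMap19 (Lam wLam mapLam)
open Fermat.Agent.ES.V19.LaurentTuple14 Fermat.Agent.ES.V19.NormalFormBasis14
open Fermat.Agent.ES.V19.DensityCore28 Fermat.Agent.ES.V19.FracExt28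
open Fermat.Agent.ES.V19.DensityInst28 (ofPS_coeff_neg coeffMap_ofPS isUnit_single_one isUnit_X_sub_C)
open Fermat.Agent.ES.W33.XiIfaceN29

variable {L F k Ft₁ Ft₂ : Type*} [Field L] [Field F] [Algebra L F] [Field k]
  [Field Ft₁] [Algebra k Ft₁] [Field Ft₂] [Algebra k Ft₂]
variable {A : ValuationSubring L}

/-! ### Orders of pairs at the points of the two components -/

/-- the order of the pair `f` at the point `Q` of one of the two components. -/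
def ordS : SPt k Ft₁ Ft₂ → Ft₁ × Ft₂ → ℤ
  | Sum.inl Q, f => Q.ord f.1
  | Sum.inr Q, f => Q.ord f.2

/-- the component of the pair `f` on the component of `Q` is nonzero. -/
def NeAt : SPt k Ft₁ Ft₂ → Ft₁ × Ft₂ → Prop
  | Sum.inl _, f => f.1 ≠ 0
  | Sum.inr _, f => f.2 ≠ 0

/-- the constant pair. -/
def cpair (x : k) : Ft₁ × Ft₂ := (algebraMap k Ft₁ x, algebraMap k Ft₂ x)

theorem algebraMap_eq_cpair (x : k) : algebraMap k (Ft₁ × Ft₂) x = cpair x := rfl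

theorem NeAt.mul {Q : SPt k Ft₁ Ft₂} {f f' : Ft₁ × Ft₂} (h : NeAt Q f) (h' : NeAt Q f') :
    NeAt Q (f * f') := by
  cases Q with
  | inl Q => exact mul_ne_zero h h'
  | inr Q => exact mul_ne_zero h h'

theorem NeAt.pow {Q : SPt k Ft₁ Ft₂} {f : Ft₁ × Ft₂} (h : NeAt Q f) (n : ℕ) : NeAt Q (f ^ n) := by
  cases Q with
  | inl Q => exact pow_ne_zero n h
  | inr Q => exact pow_ne_zero n h

theorem ordS_mul {Q : SPt k Ft₁ Ft₂} {f f' : Ft₁ × Ft₂} (h : NeAt Q f) (h' : NeAt Q f') :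
    ordS Q (f * f') = ordS Q f + ordS Q f' := by
  cases Q with
  | inl Q => exact Place.ord_mul Q h h'
  | inr Q => exact Place.ord_mul Q h h'

theorem ordS_pow (Q : SPt k Ft₁ Ft₂) (f : Ft₁ × Ft₂) (n : ℕ) : ordS Q (f ^ n) = n * ordS Q f := by
  cases Q with
  | inl Q => exact ord_pow Q f.1 n
  | inr Q => exact ord_pow Q f.2 n

theorem ordS_cpair (Q : SPt k Ft₁ Ft₂) (x : k) : ordS Q (cpair x : Ft₁ × Ft₂) = 0 := by
  cases Q with
  | inl Q => exact ord_algebraMap Q x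
  | inr Q => exact ord_algebraMap Q x

theorem neAt_cpair (Q : SPt k Ft₁ Ft₂) {x : k} (hx : x ≠ 0) : NeAt Q (cpair x : Ft₁ × Ft₂) := by
  cases Q with
  | inl Q => exact (_root_.map_ne_zero (algebraMap k Ft₁)).mpr hx
  | inr Q => exact (_root_.map_ne_zero (algebraMap k Ft₂)).mpr hx

theorem neAt_of_ordS_ne_zero {Q : SPt k Ft₁ Ft₂} {f : Ft₁ × Ft₂} (h : ordS Q f ≠ 0) : NeAt Q f := by
  cases Q with
  | inl Q =>
    intro h0
    apply h
    show Q.ord f.1 = 0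
    rw [h0, Place.ord_zero]
  | inr Q =>
    intro h0
    apply h
    show Q.ord f.2 = 0
    rw [h0, Place.ord_zero]

theorem ne_zero_of_neAt {Q : SPt k Ft₁ Ft₂} {f : Ft₁ × Ft₂} (h : NeAt Q f) : f ≠ 0 := by
  intro h0
  cases Q with
  | inl Q => exact h (by rw [h0]; rfl)
  | inr Q => exact h (by rw [h0]; rfl)

/-- a function with a value at a place is regular there. -/
theorem ord_nonneg_of_valAt {Ft : Type*} [Field Ft] [Algebra k Ft] {Q : Place k Ft} {f : Ft} {c : k}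
    (h : ValAt Q f c) : 0 ≤ Q.ord f := by
  rcases h with h | h
  · rw [h, ord_algebraMap]
  · by_cases hf : f = 0
    · rw [hf, Place.ord_zero]
    · have e : f = (f - algebraMap k Ft c) + algebraMap k Ft c := by ring
      rw [e]
      refine ffp_le_ord_add Q (le_of_lt h) ?_ ?_
      · rw [ord_algebraMap]
      · rw [← e]; exact hf


/-! ### The local expansion datum at a smooth point -/

/-- **The local expansion datum at a smooth point `Q` of the nodal special fibre.** -/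
structure LocExpN {sn : ℕ} (G : Subring F) (red : ↥G →+* Ft₁ × Ft₂)
    (r : Place L F → SPt k Ft₁ Ft₂ ⊕ Fin sn) (π : ↥A →+* k) (Q : SPt k Ft₁ Ft₂) where
  /-- the local ring of the disc of `Q` -/
  CQ : Subring F
  le_G : CQ ≤ G
  const_mem : ∀ a : ↥A, algebraMap L F (a : L) ∈ CQ
  /-- the parameter -/
  τ : ↥CQ
  /-- the Taylor expansion in `τ` -/
  tay : ↥CQ →+* PowerSeries ↥A
  tay_const : ∀ a : ↥A, tay ⟨algebraMap L F (a : L), const_mem a⟩ = PowerSeries.C a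
  tay_τ : tay τ = PowerSeries.X
  /-- (Db) -/
  mem_of_reg : ∀ f : F, f ∈ G → (∀ P : Place L F, r P = Sum.inl Q → 0 ≤ P.ord f) → f ∈ CQ
  reg : ∀ f : F, f ∈ CQ → ∀ P : Place L F, r P = Sum.inl Q → 0 ≤ P.ord f
  /-- compatibility of the Taylor expansion with the reduction on the component of `Q` -/
  ord_le : ∀ (f : ↥CQ) (n : ℕ), (∀ m < n, π (PowerSeries.coeff m (tay f)) = 0) →
    NeAt Q (red ⟨(f : F), le_G f.2⟩) → (n : ℤ) ≤ ordS Q (red ⟨(f : F), le_G f.2⟩)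
  /-- `Q` is GOOD: the reduction of `τ` is a uniformiser at `Q` -/
  ord_τ : ordS Q (red ⟨(τ : F), le_G τ.2⟩) = 1

namespace LocExpN

variable {sn : ℕ} {G : Subring F} {red : ↥G →+* Ft₁ × Ft₂}
  {r : Place L F → SPt k Ft₁ Ft₂ ⊕ Fin sn} {π : ↥A →+* k}
  {Q : SPt k Ft₁ Ft₂} (X : LocExpN G red r π Q)

/-- constants of `A` in the local ring. -/
def constC : ↥A →+* ↥X.CQ where
  toFun a := ⟨algebraMap L F (a : L), X.const_mem a⟩
  map_one' := Subtype.ext (by simp)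
  map_mul' a b := Subtype.ext (by simp)
  map_zero' := Subtype.ext (by simp)
  map_add' a b := Subtype.ext (by simp)

@[simp] theorem coe_constC (a : ↥A) : ((X.constC a : ↥X.CQ) : F) = algebraMap L F (a : L) := rfl

theorem tay_constC (a : ↥A) : X.tay (X.constC a) = PowerSeries.C a := X.tay_const a

/-- the reduction on the local ring. -/
def rhoC : ↥X.CQ →+* Ft₁ × Ft₂ := red.comp (Subring.inclusion X.le_G)

theorem rhoC_apply (f : ↥X.CQ) : X.rhoC f = red ⟨(f : F), X.le_G f.2⟩ := rfl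

theorem neAt_tau : NeAt Q (X.rhoC X.τ) := by
  apply neAt_of_ordS_ne_zero
  rw [rhoC_apply, X.ord_τ]
  exact one_ne_zero

end LocExpN

variable {sn : ℕ} {N : Nodes k Ft₁ Ft₂ sn} {G : Subring F} {red : ↥G →+* Ft₁ × Ft₂}
  {r : Place L F → SPt k Ft₁ Ft₂ ⊕ Fin sn} {π : ↥A →+* k}
variable {O : Type*} [CommRing O] [Algebra O ↥A] {g : ℕ}

/-- **The fixed data of (Le) on the nodal model.** -/
structure DensBaseN (N : Nodes k Ft₁ Ft₂ sn) (G : Subring F) (red : ↥G →+* Ft₁ × Ft₂)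
    (r : Place L F → SPt k Ft₁ Ft₂ ⊕ Fin sn) (π : ↥A →+* k) (D : BasisData O g) where
  C : RedCtxN A π N G red r
  HL : LHyp L F
  /-- the (smooth) points `Q̄_i` of the special fibre -/
  Qb : Fin g → SPt k Ft₁ Ft₂
  Qb_inj : Function.Injective Qb
  /-- the local data at the `Q̄_i` -/
  X : ∀ i, LocExpN (A := A) G red r π (Qb i)
  /-- the centres: the zeros of the `τ_i` -/
  P0 : Fin g → Place L F
  hP0 : ∀ i, r (P0 i) = Sum.inl (Qb i)
  zero0 : ∀ i, 0 < (P0 i).ord (((X i).τ : ↥(X i).CQ) : F)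
  /-- the auxiliary (smooth) point -/
  Qs : SPt k Ft₁ Ft₂
  hQs : ∀ i, Qb i ≠ Qs
  Xs : LocExpN (A := A) G red r π Qs
  /-- the divisor `Ē₀` -/
  Ebar : SDiv k Ft₁ Ft₂
  Ebar_nonneg : ∀ Q, 0 ≤ Ebar Q
  Ebar_Qb : ∀ i, 1 ≤ Ebar (Qb i)
  /-- every GLUED section of `O(Ē₀)` is a constant pair -/
  hbar : ∀ h ∈ N.LN Ebar, ∃ x : k, h = (cpair x : Ft₁ × Ft₂)
  /-- the integral basis -/
  bbF : Fin g → ℕ → F
  bb_gauss : ∀ i n, bbF i n ∈ G
  bb_pole : ∀ i n (P : Place L F), (∀ l, P ≠ P0 l) → bbF i n ∈ P.toValuationSubring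
  bb_exp : ∀ i n l, ∃ (m : ℕ) (h : bbF i n * (((X l).τ : ↥(X l).CQ) : F) ^ m ∈ (X l).CQ),
    ofPowerSeries ℤ ↥A ((X l).tay ⟨_, h⟩) =
      (mapLam (algebraMap O ↥A) (D.bb i n)) l * (single (1 : ℤ) (1 : ↥A)) ^ m

/-- **The varying data of (Le).** -/
structure DensPtN {D : BasisData O g} (Bs : DensBaseN (A := A) N G red r π D) where
  /-- the modulus -/
  ϖ : ↥A
  /-- the parameters of the moving points -/
  s : Fin g → ↥A
  N : ℕ
  hnil : ∀ i, ϖ ∣ s i ^ N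
  /-- the moving points -/
  P1 : Fin g → Place L F
  hP1 : ∀ i, r (P1 i) = Sum.inl (Bs.Qb i)
  zero1 : ∀ i, 0 < (P1 i).ord ((((Bs.X i).τ : ↥(Bs.X i).CQ) : F) - algebraMap L F (s i : L))

variable {D : BasisData O g} (Bs : DensBaseN (A := A) N G red r π D) (Pt : DensPtN Bs)

/-- **`B^♯`**: the integral functions whose poles are among the `P0 i`, `P1 i`. -/
def Bsharp : Subring F where
  carrier := {f | f ∈ G ∧
    ∀ P : Place L F, (∀ i, P ≠ Bs.P0 i ∧ P ≠ Pt.P1 i) → f ∈ P.toValuationSubring}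
  mul_mem' := by
    rintro f f' ⟨h, hP⟩ ⟨h', hP'⟩
    exact ⟨G.mul_mem h h', fun P hne =>
      P.toValuationSubring.mul_mem _ _ (hP P hne) (hP' P hne)⟩
  one_mem' := ⟨G.one_mem, fun P _ => P.toValuationSubring.one_mem⟩
  add_mem' := by
    rintro f f' ⟨h, hP⟩ ⟨h', hP'⟩
    exact ⟨G.add_mem h h', fun P hne =>
      P.toValuationSubring.add_mem _ _ (hP P hne) (hP' P hne)⟩
  zero_mem' := ⟨G.zero_mem, fun P _ => P.toValuationSubring.zero_mem⟩
  neg_mem' := by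
    rintro f ⟨h, hP⟩
    exact ⟨G.neg_mem h, fun P hne => P.toValuationSubring.neg_mem _ (hP P hne)⟩

theorem mem_Bsharp_iff (f : F) : f ∈ Bsharp Bs Pt ↔ f ∈ G ∧
    ∀ P : Place L F, (∀ i, P ≠ Bs.P0 i ∧ P ≠ Pt.P1 i) → f ∈ P.toValuationSubring := Iff.rfl

theorem Bsharp_le_G : Bsharp Bs Pt ≤ G := fun _ hf => hf.1

/-- the denominator `τ_i (τ_i - s_i)`. -/
def den (i : Fin g) : ↥(Bs.X i).CQ := (Bs.X i).τ * ((Bs.X i).τ - (Bs.X i).constC (Pt.s i))

theorem coe_den (i : Fin g) : ((den Bs Pt i : ↥(Bs.X i).CQ) : F) =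
    (((Bs.X i).τ : ↥(Bs.X i).CQ) : F) *
      ((((Bs.X i).τ : ↥(Bs.X i).CQ) : F) - algebraMap L F (Pt.s i : L)) := rfl

/-- the fractions `c / (τ_i (τ_i - s_i)) ^ n`, `c ∈ CQ_i`. -/
def Sloc (i : Fin g) : Subring F := awaySub (Bs.X i).CQ (den Bs Pt i)

theorem CQ_le_Sloc (i : Fin g) : (Bs.X i).CQ ≤ Sloc Bs Pt i := le_awaySub _ _

/-- the Taylor expansion modulo `ϖ`, as a Laurent series. -/
def phi (i : Fin g) : ↥(Bs.X i).CQ →+* LaurentSeries (Rq Pt.ϖ) :=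
  (ofPowerSeries ℤ (Rq Pt.ϖ)).comp
    ((PowerSeries.map (Ideal.Quotient.mk (Ideal.span {Pt.ϖ}))).comp (Bs.X i).tay)

theorem phi_apply (i : Fin g) (u : ↥(Bs.X i).CQ) : phi Bs Pt i u =
    ofPowerSeries ℤ (Rq Pt.ϖ) (PowerSeries.map (Ideal.Quotient.mk (Ideal.span {Pt.ϖ}))
      ((Bs.X i).tay u)) := rfl

theorem phi_constC (i : Fin g) (a : ↥A) :
    phi Bs Pt i ((Bs.X i).constC a) = HahnSeries.C (Ideal.Quotient.mk (Ideal.span {Pt.ϖ}) a) := by
  rw [phi_apply, LocExpN.tay_constC, PowerSeries.map_C, ofPowerSeries_C]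

theorem phi_tau (i : Fin g) : phi Bs Pt i (Bs.X i).τ = single (1 : ℤ) (1 : Rq Pt.ϖ) := by
  rw [phi_apply, (Bs.X i).tay_τ, PowerSeries.map_X, ofPowerSeries_X]

theorem phi_den (i : Fin g) : phi Bs Pt i (den Bs Pt i) =
    single (1 : ℤ) (1 : Rq Pt.ϖ) *
      (single (1 : ℤ) (1 : Rq Pt.ϖ) -
        HahnSeries.C (Ideal.Quotient.mk (Ideal.span {Pt.ϖ}) (Pt.s i))) := by
  unfold den
  rw [map_mul, map_sub, phi_tau, phi_constC]

theorem isNilpotent_mk_s (i : Fin g) :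
    IsNilpotent (Ideal.Quotient.mk (Ideal.span {Pt.ϖ}) (Pt.s i)) := by
  refine ⟨Pt.N, ?_⟩
  rw [← map_pow]
  exact Ideal.Quotient.eq_zero_iff_mem.2 (Ideal.mem_span_singleton.2 (Pt.hnil i))

theorem isUnit_phi_den (i : Fin g) : IsUnit (phi Bs Pt i (den Bs Pt i)) := by
  rw [phi_den]
  exact isUnit_single_one.mul (isUnit_X_sub_C (isNilpotent_mk_s Bs Pt i))

/-- **the truncated Laurent expansion at `Q_i`**, on the fractions `c / (τ_i (τ_i - s_i)) ^ n`. -/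
def ExpR (i : Fin g) : ↥(Sloc Bs Pt i) →+* LaurentSeries (Rq Pt.ϖ) :=
  ext (Bs.X i).CQ (den Bs Pt i) (phi Bs Pt i) (isUnit_phi_den Bs Pt i)

/-- rule (iii): on the local ring, `ExpR` is the Taylor expansion modulo `ϖ`. -/
theorem ExpR_of_mem (i : Fin g) (u : ↥(Bs.X i).CQ) :
    ExpR Bs Pt i ⟨(u : F), CQ_le_Sloc Bs Pt i u.2⟩ =
      ofPowerSeries ℤ (Rq Pt.ϖ) (PowerSeries.map (Ideal.Quotient.mk (Ideal.span {Pt.ϖ}))
        ((Bs.X i).tay u)) :=
  ext_of_mem _ _ _ _ u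

/-- rule (i): constants. -/
theorem ExpR_const (i : Fin g) (a : ↥A) :
    ExpR Bs Pt i ⟨algebraMap L F (a : L), CQ_le_Sloc Bs Pt i ((Bs.X i).const_mem a)⟩ =
      HahnSeries.C (Ideal.Quotient.mk (Ideal.span {Pt.ϖ}) a) := by
  have h := ExpR_of_mem Bs Pt i ((Bs.X i).constC a)
  rw [LocExpN.tay_constC, PowerSeries.map_C, ofPowerSeries_C] at h
  exact h

/-- rule (ii): the parameter. -/
theorem ExpR_tau (i : Fin g) :
    ExpR Bs Pt i ⟨(((Bs.X i).τ : ↥(Bs.X i).CQ) : F), CQ_le_Sloc Bs Pt i (Bs.X i).τ.2⟩ =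
      single (1 : ℤ) (1 : Rq Pt.ϖ) := by
  have h := ExpR_of_mem Bs Pt i (Bs.X i).τ
  rw [(Bs.X i).tay_τ, PowerSeries.map_X, ofPowerSeries_X] at h
  exact h

/-- `τ_i - a ↦ X - C ā`. -/
theorem ExpR_tau_sub (i : Fin g) (a : ↥A) :
    ExpR Bs Pt i ⟨(((Bs.X i).τ : ↥(Bs.X i).CQ) : F) - algebraMap L F (a : L),
        CQ_le_Sloc Bs Pt i ((Bs.X i).τ - (Bs.X i).constC a).2⟩ =
      single (1 : ℤ) (1 : Rq Pt.ϖ) - HahnSeries.C (Ideal.Quotient.mk (Ideal.span {Pt.ϖ}) a) := by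
  have h := ExpR_of_mem Bs Pt i ((Bs.X i).τ - (Bs.X i).constC a)
  rw [map_sub, (Bs.X i).tay_τ, LocExpN.tay_constC, map_sub, PowerSeries.map_X, PowerSeries.map_C,
    map_sub, ofPowerSeries_X, ofPowerSeries_C] at h
  exact h

/-- the characterising property of `ExpR`. -/
theorem ExpR_mul_pow (i : Fin g) (f : ↥(Sloc Bs Pt i)) (n : ℕ)
    (h : (f : F) * ((den Bs Pt i : ↥(Bs.X i).CQ) : F) ^ n ∈ (Bs.X i).CQ) :
    ExpR Bs Pt i f * phi Bs Pt i (den Bs Pt i) ^ n = phi Bs Pt i ⟨_, h⟩ :=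
  ext_mul_pow _ _ _ _ f n h

/-! ### `B^♯ ⊂ CQ_i[1 / τ_i (τ_i - s_i)]` -/

theorem tau_ne_zero (i : Fin g) : (((Bs.X i).τ : ↥(Bs.X i).CQ) : F) ≠ 0 := by
  intro h
  have := Bs.zero0 i
  rw [h, Place.ord_zero] at this
  exact lt_irrefl _ this

theorem tau_sub_ne_zero (i : Fin g) :
    (((Bs.X i).τ : ↥(Bs.X i).CQ) : F) - algebraMap L F (Pt.s i : L) ≠ 0 := by
  intro h
  have := Pt.zero1 i
  rw [h, Place.ord_zero] at this
  exact lt_irrefl _ this

theorem den_ne_zero (i : Fin g) : ((den Bs Pt i : ↥(Bs.X i).CQ) : F) ≠ 0 := by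
  rw [coe_den]
  exact mul_ne_zero (tau_ne_zero Bs i) (tau_sub_ne_zero Bs Pt i)

theorem ord_den_nonneg (i : Fin g) (P : Place L F) (hP : r P = Sum.inl (Bs.Qb i)) :
    0 ≤ P.ord ((den Bs Pt i : ↥(Bs.X i).CQ) : F) :=
  (Bs.X i).reg _ (den Bs Pt i).2 P hP

theorem ord_den_pos0 (i : Fin g) : 1 ≤ (Bs.P0 i).ord ((den Bs Pt i : ↥(Bs.X i).CQ) : F) := by
  rw [coe_den, Place.ord_mul _ (tau_ne_zero Bs i) (tau_sub_ne_zero Bs Pt i)]
  have h1 := Bs.zero0 i
  have h2 : 0 ≤ (Bs.P0 i).ord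
      ((((Bs.X i).τ : ↥(Bs.X i).CQ) : F) - algebraMap L F (Pt.s i : L)) :=
    (Bs.X i).reg _ ((Bs.X i).τ - (Bs.X i).constC (Pt.s i)).2 _ (Bs.hP0 i)
  omega

theorem ord_den_pos1 (i : Fin g) : 1 ≤ (Pt.P1 i).ord ((den Bs Pt i : ↥(Bs.X i).CQ) : F) := by
  rw [coe_den, Place.ord_mul _ (tau_ne_zero Bs i) (tau_sub_ne_zero Bs Pt i)]
  have h1 := Pt.zero1 i
  have h2 : 0 ≤ (Pt.P1 i).ord (((Bs.X i).τ : ↥(Bs.X i).CQ) : F) :=
    (Bs.X i).reg _ (Bs.X i).τ.2 _ (Pt.hP1 i)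
  omega

/-- a place of the disc of `Q̄_i` which is a centre or a moving point is `P0 i` or `P1 i`. -/
theorem eq_of_disc {i l : Fin g} {P : Place L F} (hP : r P = Sum.inl (Bs.Qb i)) :
    (P = Bs.P0 l → l = i) ∧ (P = Pt.P1 l → l = i) := by
  constructor
  · intro hl
    apply Bs.Qb_inj
    have h := Bs.hP0 l
    rw [← hl, hP] at h
    exact (Sum.inl.inj h).symm
  · intro hl
    apply Bs.Qb_inj
    have h := Pt.hP1 l
    rw [← hl, hP] at h
    exact (Sum.inl.inj h).symm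

/-- **`B^♯ ⊂ S_i`**: multiplying by a power of `τ_i (τ_i - s_i)` kills the poles in the disc of
`Q̄_i`, and (Db) applies. -/
theorem Bsharp_le_Sloc (i : Fin g) : Bsharp Bs Pt ≤ Sloc Bs Pt i := by
  intro f hf
  by_cases hf0 : f = 0
  · rw [hf0]; exact (Sloc Bs Pt i).zero_mem
  have hd0 := den_ne_zero Bs Pt i
  refine ⟨(-(Bs.P0 i).ord f).toNat + (-(Pt.P1 i).ord f).toNat,
    (Bs.X i).mem_of_reg _ ?_ ?_⟩
  · exact G.mul_mem hf.1 (G.pow_mem ((Bs.X i).le_G (den Bs Pt i).2) _)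
  · intro P hP
    rw [Place.ord_mul P hf0 (pow_ne_zero _ hd0), ord_pow]
    have hn0 := Int.self_le_toNat (-(Bs.P0 i).ord f)
    have hn1 := Int.self_le_toNat (-(Pt.P1 i).ord f)
    have hdn := ord_den_nonneg Bs Pt i P hP
    push_cast
    by_cases h0 : P = Bs.P0 i
    · have hd := ord_den_pos0 Bs Pt i
      rw [h0]
      nlinarith [Int.natCast_nonneg (-(Bs.P0 i).ord f).toNat,
        Int.natCast_nonneg (-(Pt.P1 i).ord f).toNat]
    · by_cases h1 : P = Pt.P1 i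
      · have hd := ord_den_pos1 Bs Pt i
        rw [h1]
        nlinarith [Int.natCast_nonneg (-(Bs.P0 i).ord f).toNat,
          Int.natCast_nonneg (-(Pt.P1 i).ord f).toNat]
      · have hfP : f ∈ P.toValuationSubring := by
          refine hf.2 P fun l => ⟨?_, ?_⟩
          · intro hl
            have : l = i := (eq_of_disc Bs Pt hP).1 hl
            exact h0 (by rw [hl, this])
          · intro hl
            have : l = i := (eq_of_disc Bs Pt hP).2 hl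
            exact h1 (by rw [hl, this])
        have hfo := ord_nonneg_of_mem P hfP
        nlinarith [Int.natCast_nonneg (-(Bs.P0 i).ord f).toNat,
          Int.natCast_nonneg (-(Pt.P1 i).ord f).toNat]

/-- **`Exp^R`** on `B^♯`. -/
def ExpRB : ↥(Bsharp Bs Pt) →+* Lam g (Rq Pt.ϖ) :=
  RingHom.pi (f := fun _ : Fin g => LaurentSeries (Rq Pt.ϖ)) fun i =>
    (ExpR Bs Pt i).comp (Subring.inclusion (Bsharp_le_Sloc Bs Pt i))

theorem ExpRB_apply (f : ↥(Bsharp Bs Pt)) (i : Fin g) :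
    ExpRB Bs Pt f i = ExpR Bs Pt i ⟨(f : F), Bsharp_le_Sloc Bs Pt i f.2⟩ := rfl


/-! ### The `A`-algebra `B^♯`, the reduction and the value at the auxiliary point -/

theorem const_mem_Bsharp (a : ↥A) : algebraMap L F (a : L) ∈ Bsharp Bs Pt :=
  ⟨Bs.C.const_mem a, fun P _ => P.algebraMap_mem' _⟩

/-- constants of `A` in `B^♯`. -/
def constB : ↥A →+* ↥(Bsharp Bs Pt) where
  toFun a := ⟨algebraMap L F (a : L), const_mem_Bsharp Bs Pt a⟩
  map_one' := Subtype.ext (by simp)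
  map_mul' a b := Subtype.ext (by simp)
  map_zero' := Subtype.ext (by simp)
  map_add' a b := Subtype.ext (by simp)

@[simp] theorem coe_constB (a : ↥A) :
    ((constB Bs Pt a : ↥(Bsharp Bs Pt)) : F) = algebraMap L F (a : L) := rfl

/-- the `A`-algebra structure of `B^♯` (NOT an instance: use `letI`). -/
@[reducible] def algB : Algebra ↥A ↥(Bsharp Bs Pt) := (constB Bs Pt).toAlgebra

/-- the reduction on `B^♯`. -/
def rhoB : ↥(Bsharp Bs Pt) →+* Ft₁ × Ft₂ := red.comp (Subring.inclusion (Bsharp_le_G Bs Pt))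

theorem rhoB_apply (f : ↥(Bsharp Bs Pt)) :
    rhoB Bs Pt f = red ⟨(f : F), Bsharp_le_G Bs Pt f.2⟩ := rfl

theorem Bsharp_le_CQs : Bsharp Bs Pt ≤ Bs.Xs.CQ := by
  intro f hf
  refine Bs.Xs.mem_of_reg f hf.1 fun P hP => ord_nonneg_of_mem P (hf.2 P fun l => ⟨?_, ?_⟩)
  · intro hl
    have h := Bs.hP0 l
    rw [← hl, hP] at h
    exact Bs.hQs l (Sum.inl.inj h).symm
  · intro hl
    have h := Pt.hP1 l
    rw [← hl, hP] at h
    exact Bs.hQs l (Sum.inl.inj h).symm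

/-- the value at the auxiliary point (constant coefficient of the Taylor expansion at `Q_⋆`). -/
def evSr : ↥(Bsharp Bs Pt) →+* ↥A :=
  (PowerSeries.constantCoeff (R := ↥A)).comp
    (Bs.Xs.tay.comp (Subring.inclusion (Bsharp_le_CQs Bs Pt)))

theorem evSr_constB (a : ↥A) : evSr Bs Pt (constB Bs Pt a) = a := by
  show PowerSeries.constantCoeff (Bs.Xs.tay (Bs.Xs.constC a)) = a
  rw [LocExpN.tay_constC, PowerSeries.constantCoeff_C]

/-- the value at the auxiliary point, as an `A`-algebra homomorphism. -/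
def evS : letI := algB Bs Pt; ↥(Bsharp Bs Pt) →ₐ[↥A] ↥A :=
  letI := algB Bs Pt
  { evSr Bs Pt with commutes' := fun a => evSr_constB Bs Pt a }


/-! ### The hypotheses of the abstract core -/

theorem cpair_zero : (cpair (0 : k) : Ft₁ × Ft₂) = 0 :=
  Prod.ext (map_zero _) (map_zero _)

theorem cpair_sub (x y : k) : (cpair (x - y) : Ft₁ × Ft₂) = cpair x - cpair y :=
  Prod.ext (map_sub _ _ _) (map_sub _ _ _)

theorem LocExpN.rhoC_constC {Q : SPt k Ft₁ Ft₂} (X : LocExpN (A := A) G red r π Q)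
    (C : RedCtxN A π N G red r) (a : ↥A) : X.rhoC (X.constC a) = cpair (π a) :=
  C.red_const a

theorem rhoB_constB (a : ↥A) : rhoB Bs Pt (constB Bs Pt a) = cpair (π a) :=
  Bs.C.red_const a

/-- the residue map `A ⧸ (ϖ) → k` (for a non-unit `ϖ`). -/
def resR (hϖ : ¬ IsUnit Pt.ϖ) : Rq Pt.ϖ →+* k :=
  Ideal.Quotient.lift (Ideal.span {Pt.ϖ}) π (by
    intro a ha
    obtain ⟨y, rfl⟩ := Ideal.mem_span_singleton.1 ha
    rw [map_mul, Bs.C.pi_nonunit _ hϖ, zero_mul])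

theorem resR_mk (hϖ : ¬ IsUnit Pt.ϖ) (a : ↥A) :
    resR Bs Pt hϖ (Ideal.Quotient.mk (Ideal.span {Pt.ϖ}) a) = π a :=
  Ideal.Quotient.lift_mk _ _ _

theorem not_isUnit_s (hϖ : ¬ IsUnit Pt.ϖ) (i : Fin g) : ¬ IsUnit (Pt.s i) := fun h =>
  hϖ (isUnit_of_dvd_unit (Pt.hnil i) (h.pow Pt.N))

/-- a constant of `L` whose inverse scales an integral function to a function with NONZERO
reduction lies in `A`. -/
theorem mem_of_scale (C : RedCtxN A π N G red r) {c : L} (hc : c ≠ 0) {f : F} (hf : f ∈ G)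
    (h : (algebraMap L F c)⁻¹ * f ∈ G) (hne : red ⟨_, h⟩ ≠ 0) : c ∈ A := by
  by_contra hcA
  have hinv : c⁻¹ ∈ A := (A.mem_or_inv_mem c).resolve_left hcA
  have hnu : ¬ IsUnit (⟨c⁻¹, hinv⟩ : ↥A) := by
    intro hu
    obtain ⟨v, hv⟩ := hu.exists_right_inv
    apply hcA
    have h1 : c⁻¹ * (v : L) = 1 := congrArg Subtype.val hv
    have h2 : (v : L) = c := by
      have h3 : c * (c⁻¹ * (v : L)) = c * 1 := by rw [h1]
      rwa [← mul_assoc, mul_inv_cancel₀ hc, one_mul, mul_one] at h3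
    rw [← h2]
    exact v.2
  apply hne
  have e : (⟨(algebraMap L F c)⁻¹ * f, h⟩ : ↥G) =
      ⟨algebraMap L F ((⟨c⁻¹, hinv⟩ : ↥A) : L), C.const_mem _⟩ * ⟨f, hf⟩ :=
    Subtype.ext (by
      show (algebraMap L F c)⁻¹ * f = algebraMap L F c⁻¹ * f
      rw [map_inv₀])
  rw [e, map_mul, C.red_const, C.pi_nonunit _ hnu]
  have : ((algebraMap k Ft₁ 0, algebraMap k Ft₂ 0) : Ft₁ × Ft₂) = 0 :=
    Prod.ext (map_zero _) (map_zero _)
  rw [this, zero_mul]

/-- scaling inside `B^♯`. -/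
theorem scale_Bsharp (b : ↥(Bsharp Bs Pt)) (hb : b ≠ 0) :
    ∃ (a : ↥A) (b' : ↥(Bsharp Bs Pt)), a ≠ 0 ∧ rhoB Bs Pt b' ≠ 0 ∧ b = constB Bs Pt a * b' := by
  have hbF : (b : F) ≠ 0 := fun h => hb (Subtype.ext h)
  obtain ⟨c, hc, huG, hne⟩ := Bs.C.scale (b : F) hbF
  have hcF : algebraMap L F c ≠ 0 := fun h => hc ((algebraMap L F).injective (by rw [h, map_zero]))
  have hbu : (b : F) = algebraMap L F c * ((algebraMap L F c)⁻¹ * (b : F)) := by
    rw [← mul_assoc, mul_inv_cancel₀ hcF, one_mul]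
  have hcA : c ∈ A := mem_of_scale Bs.C hc b.2.1 huG hne
  have huB : (algebraMap L F c)⁻¹ * (b : F) ∈ Bsharp Bs Pt := by
    refine ⟨huG, fun P hne => ?_⟩
    rw [← map_inv₀]
    exact P.toValuationSubring.mul_mem _ _ (P.algebraMap_mem' _) (b.2.2 P hne)
  refine ⟨⟨c, hcA⟩, ⟨_, huB⟩, ?_, hne, Subtype.ext hbu⟩
  intro h
  exact hc (congrArg Subtype.val h)

/-- the constant is the residue of the value at the auxiliary point. -/
theorem value_Bsharp (b : ↥(Bsharp Bs Pt)) (x : k) (hx : rhoB Bs Pt b = cpair x) :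
    x = π (evSr Bs Pt b) := by
  by_contra hne
  set b' : ↥Bs.Xs.CQ := Subring.inclusion (Bsharp_le_CQs Bs Pt) b with hb'
  set a₀ : ↥A := evSr Bs Pt b with ha₀
  have hrho : Bs.Xs.rhoC (b' - Bs.Xs.constC a₀) = cpair (x - π a₀) := by
    rw [map_sub, LocExpN.rhoC_constC _ Bs.C, cpair_sub, ← hx]
    rfl
  have hne0 : NeAt Bs.Qs (Bs.Xs.rhoC (b' - Bs.Xs.constC a₀)) := by
    rw [hrho]
    exact neAt_cpair _ (sub_ne_zero.2 hne)
  have h1 := Bs.Xs.ord_le (b' - Bs.Xs.constC a₀) 1 (by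
    intro m hm
    have hm0 : m = 0 := by omega
    rw [hm0, map_sub, LocExpN.tay_constC, map_sub, PowerSeries.coeff_zero_eq_constantCoeff_apply,
      PowerSeries.coeff_zero_eq_constantCoeff_apply, PowerSeries.constantCoeff_C]
    have : PowerSeries.constantCoeff (Bs.Xs.tay b') = a₀ := rfl
    rw [this, sub_self, map_zero]) hne0
  have h2 : ordS Bs.Qs (Bs.Xs.rhoC (b' - Bs.Xs.constC a₀)) = 0 := by
    rw [hrho, ordS_cpair]
  rw [← LocExpN.rhoC_apply, h2] at h1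
  exact absurd h1 (by norm_num)

theorem rhoC_den (hϖ : ¬ IsUnit Pt.ϖ) (i : Fin g) :
    (Bs.X i).rhoC (den Bs Pt i) = (Bs.X i).rhoC (Bs.X i).τ * (Bs.X i).rhoC (Bs.X i).τ := by
  unfold den
  rw [map_mul, map_sub, LocExpN.rhoC_constC _ Bs.C, Bs.C.pi_nonunit _ (not_isUnit_s Bs Pt hϖ i),
    cpair_zero, sub_zero]

theorem coeffMap_phi_den (hϖ : ¬ IsUnit Pt.ϖ) (i : Fin g) :
    ModularCurve.coeffMap (resR Bs Pt hϖ) (phi Bs Pt i (den Bs Pt i)) = single (2 : ℤ) (1 : k) := by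
  rw [phi_den, map_mul, map_sub, ModularCurve.coeffMap_single, map_one]
  have h0 : ModularCurve.coeffMap (resR Bs Pt hϖ)
      (HahnSeries.C (Ideal.Quotient.mk (Ideal.span {Pt.ϖ}) (Pt.s i))) = 0 := by
    show ModularCurve.coeffMap (resR Bs Pt hϖ)
      (single (0 : ℤ) (Ideal.Quotient.mk (Ideal.span {Pt.ϖ}) (Pt.s i))) = 0
    rw [ModularCurve.coeffMap_single, resR_mk, Bs.C.pi_nonunit _ (not_isUnit_s Bs Pt hϖ i),
      single_eq_zero]
  rw [h0, sub_zero, single_mul_single, mul_one]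
  rfl

/-- **the local estimate**: if the polar coefficients of order `≥ 2` of `Exp^R_i b` vanish modulo
the maximal ideal, then `b̄` has at most a simple pole at `Q̄_i` (on the component of `Q̄_i`). -/
theorem ord_rhoB_ge (hϖ : ¬ IsUnit Pt.ϖ) (b : ↥(Bsharp Bs Pt)) (i : Fin g)
    (hφ : NeAt (Bs.Qb i) (rhoB Bs Pt b))
    (hpol : ∀ m : ℤ, m < -1 → resR Bs Pt hϖ ((ExpRB Bs Pt b i).coeff m) = 0) :
    -1 ≤ ordS (Bs.Qb i) (rhoB Bs Pt b) := by
  obtain ⟨n, hn⟩ := Bsharp_le_Sloc Bs Pt i b.2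
  -- the numerator `c = b * den ^ n`
  have hτ := (Bs.X i).ord_τ
  rw [← LocExpN.rhoC_apply] at hτ
  have hτ0 := (Bs.X i).neAt_tau
  have hc : (Bs.X i).rhoC ⟨_, hn⟩ = rhoB Bs Pt b * ((Bs.X i).rhoC (den Bs Pt i)) ^ n := by
    have h1 : Subring.inclusion (Bs.X i).le_G ⟨_, hn⟩ =
        Subring.inclusion (Bsharp_le_G Bs Pt) b *
          (Subring.inclusion (Bs.X i).le_G (den Bs Pt i)) ^ n := Subtype.ext rfl
    show red (Subring.inclusion (Bs.X i).le_G ⟨_, hn⟩) = _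
    rw [h1, map_mul, map_pow]
    rfl
  rw [rhoC_den Bs Pt hϖ i] at hc
  have hττ : NeAt (Bs.Qb i) (((Bs.X i).rhoC (Bs.X i).τ * (Bs.X i).rhoC (Bs.X i).τ) ^ n) :=
    (hτ0.mul hτ0).pow n
  have hc0 : NeAt (Bs.Qb i) ((Bs.X i).rhoC ⟨_, hn⟩) := by
    rw [hc]
    exact hφ.mul hττ
  have hord : ordS (Bs.Qb i) ((Bs.X i).rhoC ⟨_, hn⟩) =
      ordS (Bs.Qb i) (rhoB Bs Pt b) + 2 * n := by
    rw [hc, ordS_mul hφ hττ, ordS_pow, ordS_mul hτ0 hτ0, hτ]
    ring
  -- the coefficients of `tay c` below `2 n - 1` vanish modulo the maximal ideal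
  have key := ExpR_mul_pow Bs Pt i ⟨(b : F), Bsharp_le_Sloc Bs Pt i b.2⟩ n hn
  have key' := congrArg (ModularCurve.coeffMap (resR Bs Pt hϖ)) key
  rw [map_mul, map_pow, coeffMap_phi_den, single_pow, one_pow, phi_apply, coeffMap_ofPS] at key'
  have hco : ∀ j : ℕ, j < 2 * n - 1 →
      π (PowerSeries.coeff j ((Bs.X i).tay ⟨_, hn⟩)) = 0 := by
    intro j hj
    have h1 := congrArg (fun y : LaurentSeries k => y.coeff ((j : ℤ) - 2 * n + n • (2 : ℤ))) key'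
    simp only [] at h1
    rw [coeff_mul_single_add, mul_one, ModularCurve.coeffMap_coeff] at h1
    have h2 : ((j : ℤ) - 2 * n + n • (2 : ℤ)) = (j : ℤ) := by
      rw [nsmul_eq_mul]; ring
    rw [h2, ofPowerSeries_apply_coeff, PowerSeries.coeff_map, PowerSeries.coeff_map, resR_mk] at h1
    rw [← h1]
    exact hpol _ (by omega)
  have h3 := (Bs.X i).ord_le ⟨_, hn⟩ (2 * n - 1) hco hc0
  rw [← LocExpN.rhoC_apply, hord] at h3
  have h4 : (2 * (n : ℤ)) - 1 ≤ ((2 * n - 1 : ℕ) : ℤ) := by omega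
  omega

/-- the places reducing to a point which is not one of the `Q̄_i` are not poles of `b ∈ B^♯`. -/
theorem ord_nonneg_of_red_ne (b : ↥(Bsharp Bs Pt)) (P : Place L F)
    (hP : ∀ i, r P ≠ Sum.inl (Bs.Qb i)) : 0 ≤ P.ord (b : F) := by
  refine ord_nonneg_of_mem P (b.2.2 P fun l => ⟨?_, ?_⟩)
  · intro hl
    exact hP l (by rw [hl]; exact Bs.hP0 l)
  · intro hl
    exact hP l (by rw [hl]; exact Pt.hP1 l)

/-- (r1) + gluing + `L_C(Ē₀) = k`: if the polar coefficients of order `≥ 2` of `Exp^R b` vanish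
modulo the maximal ideal then `b̄` is a constant pair. -/
theorem const_Bsharp (hϖ : ¬ IsUnit Pt.ϖ) (b : ↥(Bsharp Bs Pt))
    (hpol : ∀ (i : Fin g) (m : ℤ), m < -1 → resR Bs Pt hϖ ((ExpRB Bs Pt b i).coeff m) = 0) :
    ∃ x : k, rhoB Bs Pt b = cpair x := by
  by_cases hb0 : b = 0
  · exact ⟨0, by rw [hb0, map_zero, cpair_zero]⟩
  have hbF : (b : F) ≠ 0 := fun h => hb0 (Subtype.ext h)
  apply Bs.hbar
  have hglue : ∀ j, N.GluedAt (rhoB Bs Pt b) j := fun j =>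
    Bs.C.glue ⟨(b : F), Bsharp_le_G Bs Pt b.2⟩ j fun P hP =>
      ord_nonneg_of_red_ne Bs Pt b P fun i h => by rw [hP] at h; cases h
  refine ⟨?_, ?_, hglue⟩
  · -- the first component
    by_cases hφ : (rhoB Bs Pt b).1 = 0
    · rw [hφ]; exact Submodule.zero_mem _
    rw [mem_L_iff hφ]
    intro Q
    have hE : SDiv.comp₁ Bs.Ebar Q = Bs.Ebar (Sum.inl Q) := Finsupp.comapDomain_apply _ _ _ _
    rw [hE]
    by_cases hQ : ∃ i, Bs.Qb i = Sum.inl Q
    · obtain ⟨i, hi⟩ := hQ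
      have h1 := ord_rhoB_ge Bs Pt hϖ b i (by rw [hi]; exact hφ) (hpol i)
      have h2 := Bs.Ebar_Qb i
      rw [hi] at h1 h2
      have h3 : ordS (Sum.inl Q) (rhoB Bs Pt b) = Q.ord (rhoB Bs Pt b).1 := rfl
      omega
    · have hQ' : ∀ i, Bs.Qb i ≠ Sum.inl Q := fun i h => hQ ⟨i, h⟩
      have h3 := Bs.Ebar_nonneg (Sum.inl Q)
      by_cases hsm : N.IsSmooth (Sum.inl Q)
      · have h1 := Bs.C.r1₁ ⟨(b : F), Bsharp_le_G Bs Pt b.2⟩ hφ (divOf Bs.HL hbF)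
          (fun P => divOf_apply Bs.HL hbF P) Q hsm
        have h2 : 0 ≤ Finsupp.mapDomain r (divOf Bs.HL hbF) (Sum.inl (Sum.inl Q)) := by
          apply mapDomain_apply_nonneg
          intro P hP
          rw [divOf_apply]
          exact ord_nonneg_of_red_ne Bs Pt b P fun i h => by
            rw [hP] at h
            exact hQ' i (Sum.inl.inj h).symm
        have h4 : Q.ord (rhoB Bs Pt b).1 =
            Finsupp.mapDomain r (divOf Bs.HL hbF) (Sum.inl (Sum.inl Q)) := h1.symm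
        omega
      · have hj : ∃ j, Q = N.ν₁ j := by
          by_contra hno
          exact hsm fun j hj => hno ⟨j, hj⟩
        obtain ⟨j, rfl⟩ := hj
        obtain ⟨c, hc1, -⟩ := hglue j
        have h1 := ord_nonneg_of_valAt hc1
        omega
  · -- the second component
    by_cases hφ : (rhoB Bs Pt b).2 = 0
    · rw [hφ]; exact Submodule.zero_mem _
    rw [mem_L_iff hφ]
    intro Q
    have hE : SDiv.comp₂ Bs.Ebar Q = Bs.Ebar (Sum.inr Q) := Finsupp.comapDomain_apply _ _ _ _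
    rw [hE]
    by_cases hQ : ∃ i, Bs.Qb i = Sum.inr Q
    · obtain ⟨i, hi⟩ := hQ
      have h1 := ord_rhoB_ge Bs Pt hϖ b i (by rw [hi]; exact hφ) (hpol i)
      have h2 := Bs.Ebar_Qb i
      rw [hi] at h1 h2
      have h3 : ordS (Sum.inr Q) (rhoB Bs Pt b) = Q.ord (rhoB Bs Pt b).2 := rfl
      omega
    · have hQ' : ∀ i, Bs.Qb i ≠ Sum.inr Q := fun i h => hQ ⟨i, h⟩
      have h3 := Bs.Ebar_nonneg (Sum.inr Q)
      by_cases hsm : N.IsSmooth (Sum.inr Q)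
      · have h1 := Bs.C.r1₂ ⟨(b : F), Bsharp_le_G Bs Pt b.2⟩ hφ (divOf Bs.HL hbF)
          (fun P => divOf_apply Bs.HL hbF P) Q hsm
        have h2 : 0 ≤ Finsupp.mapDomain r (divOf Bs.HL hbF) (Sum.inl (Sum.inr Q)) := by
          apply mapDomain_apply_nonneg
          intro P hP
          rw [divOf_apply]
          exact ord_nonneg_of_red_ne Bs Pt b P fun i h => by
            rw [hP] at h
            exact hQ' i (Sum.inl.inj h).symm
        have h4 : Q.ord (rhoB Bs Pt b).2 =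
            Finsupp.mapDomain r (divOf Bs.HL hbF) (Sum.inl (Sum.inr Q)) := h1.symm
        omega
      · have hj : ∃ j, Q = N.ν₂ j := by
          by_contra hno
          exact hsm fun j hj => hno ⟨j, hj⟩
        obtain ⟨j, rfl⟩ := hj
        obtain ⟨c, -, hc2⟩ := hglue j
        have h1 := ord_nonneg_of_valAt hc2
        omega


/-! ### The integral basis inside `B^♯` -/

theorem bb_mem_Bsharp (i : Fin g) (n : ℕ) : Bs.bbF i n ∈ Bsharp Bs Pt :=
  ⟨Bs.bb_gauss i n, fun P hne => Bs.bb_pole i n P fun l => (hne l).1⟩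

/-- the integral basis, in `B^♯`. -/
def bbB (i : Fin g) (n : ℕ) : ↥(Bsharp Bs Pt) := ⟨Bs.bbF i n, bb_mem_Bsharp Bs Pt i n⟩

theorem ExpRB_bb (i : Fin g) (n : ℕ) :
    ExpRB Bs Pt (bbB Bs Pt i n) = genR D (Rq Pt.ϖ) (some (i, n)) := by
  funext l
  obtain ⟨m, h, hexp⟩ := Bs.bb_exp i n l
  have hmem : Bs.bbF i n ∈ Sloc Bs Pt l := Bsharp_le_Sloc Bs Pt l (bb_mem_Bsharp Bs Pt i n)
  have h1 : ExpR Bs Pt l ⟨Bs.bbF i n, hmem⟩ *
      (ExpR Bs Pt l ⟨(((Bs.X l).τ : ↥(Bs.X l).CQ) : F), CQ_le_Sloc Bs Pt l (Bs.X l).τ.2⟩) ^ m =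
      ExpR Bs Pt l ⟨_, CQ_le_Sloc Bs Pt l h⟩ := by
    rw [← map_pow, ← map_mul]
    rfl
  rw [ExpR_tau, ExpR_of_mem Bs Pt l ⟨_, h⟩, ← coeffMap_ofPS, hexp, map_mul, map_pow,
    ModularCurve.coeffMap_single, RingHom.map_one] at h1
  have h2 := (isUnit_single_one (R := Rq Pt.ϖ)).pow m |>.mul_left_injective h1
  show ExpR Bs Pt l ⟨Bs.bbF i n, hmem⟩ = _
  rw [h2]
  show ModularCurve.coeffMap (Ideal.Quotient.mk (Ideal.span {Pt.ϖ}))
    (ModularCurve.coeffMap (algebraMap O ↥A) (D.bb i n l)) =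
      ModularCurve.coeffMap (algebraMap O (Rq Pt.ϖ)) (D.bb i n l)
  rw [ModularCurve.coeffMap_coeffMap]
  rfl

theorem ExpRB_constB_mul (a : ↥A) (b : ↥(Bsharp Bs Pt)) :
    ExpRB Bs Pt (constB Bs Pt a * b) =
      (Ideal.Quotient.mk (Ideal.span {Pt.ϖ}) a) • ExpRB Bs Pt b := by
  rw [map_mul]
  ext l d
  rw [Fermat.Agent.ES.V19.LaurentMap19.mul_apply, Fermat.Agent.ES.V19.LaurentMap19.smul_apply_coeff]
  have h1 : ExpRB Bs Pt (constB Bs Pt a) l =
      HahnSeries.C (Ideal.Quotient.mk (Ideal.span {Pt.ϖ}) a) := ExpR_const Bs Pt l a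
  rw [h1, C_mul_eq_smul, HahnSeries.coeff_smul, smul_eq_mul]

/-- **the hypotheses of the abstract core hold** (with `Ft := Ft₁ × Ft₂`). -/
theorem densHyp (hϖ : ¬ IsUnit Pt.ϖ) :
    letI := algB Bs Pt
    DensHyp D Pt.ϖ (resR Bs Pt hϖ) (ExpRB Bs Pt) (rhoB Bs Pt) (evS Bs Pt) (bbB Bs Pt) := by
  letI := algB Bs Pt
  refine ⟨fun a b => ValuationRing.dvd_total a b, ?_, ?_, ExpRB_bb Bs Pt, ?_, ?_, ?_⟩
  · intro a ha
    rw [resR_mk]
    exact Bs.C.pi_nonunit a ha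
  · intro a b
    exact ExpRB_constB_mul Bs Pt a b
  · intro b hb
    obtain ⟨a, b', ha, hb', e⟩ := scale_Bsharp Bs Pt b hb
    exact ⟨a, b', ha, hb', e⟩
  · intro b hb
    exact const_Bsharp Bs Pt hϖ b hb
  · intro b x hx
    rw [resR_mk]
    exact value_Bsharp Bs Pt b x hx

/-- **(Le) on the nodal model**: the truncated Laurent expansions of every `f ∈ B^♯` lie in
`AR D (A ⧸ (ϖ))`. -/
theorem ExpRB_mem_AR (f : ↥(Bsharp Bs Pt)) : ExpRB Bs Pt f ∈ AR D (Rq Pt.ϖ) := by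
  by_cases hϖ : IsUnit Pt.ϖ
  · have hsub : Subsingleton (Rq Pt.ϖ) :=
      Ideal.Quotient.subsingleton_iff.2 (Ideal.span_singleton_eq_top.2 hϖ)
    have h0 : ExpRB Bs Pt f = 0 := Fermat.Agent.ES.V19.LaurentMap19.Lam.ext fun i d => Subsingleton.elim _ _
    rw [h0]
    exact (AR D (Rq Pt.ϖ)).zero_mem
  · letI := algB Bs Pt
    exact E_mem_AR (densHyp Bs Pt hϖ) f

/-- **(Le) on the nodal model, consumer form.** -/
theorem dens_mem_AR (f : F) (hf : f ∈ Bsharp Bs Pt) (e : Lam g (Rq Pt.ϖ))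
    (he : ∀ i, ∃ hfi : f ∈ Sloc Bs Pt i, e i = ExpR Bs Pt i ⟨f, hfi⟩) : e ∈ AR D (Rq Pt.ϖ) := by
  have h : e = ExpRB Bs Pt ⟨f, hf⟩ := by
    funext i
    obtain ⟨hfi, hi⟩ := he i
    rw [hi]
    rfl
  rw [h]
  exact ExpRB_mem_AR Bs Pt ⟨f, hf⟩

end Fermat.Agent.ES.W33.DensityInstN21
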