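/-
Programme W (S33 by hand, route `S33_ROUTE8.md`), chapter (Gb), group B3′/B5′/G4′, helper21:
**from ONE COMPONENT to the NODAL local expansion datum** — the abstract half of the nodal port of
`V19/LocExpInst10`.

The disc lemmas of (B3′) are proved on ONE chart of ONE component of the nodal fibre (helper22's ports
`DiscChartP22`, `DiscExitP22`, … on helper3's `ContractP3.ChartSpecP`): the chart ring `S.B` with its
reduction into the function field `Ft` of the component, inside the Gauss valuation ring `G₁ = O_j` of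
that component (`gred = ρ_j`).  The local ring `C_Q = locAt S Q` of such a chart is NOT contained in
`G = O₁ ⊓ O₂` (it contains `1 / e`, `e` vanishing on the other component).  This file isolates the
step from the one-component datum to `DensityInstN21.LocExpN G red r π (Sum.inl Q)` /
`(Sum.inr Q)`: intersect the local ring with `G`.

* `LocExp1 G₁ gred disc π Q` : the ONE-COMPONENT local expansion datum (`V19/DensityInst28.LocExp` with
  the disc an arbitrary predicate `disc : Place L F → Prop` on places and `CQ ≤ G₁`), TOGETHER with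
  Taylor's formula with remainder (E4) in the local ring;
* `LocExp1.toN₁ X hG hred hconst hτ : LocExpN G red r π (Sum.inl Q)` for
  `X : LocExp1 G₁ gred (fun P => r P = Sum.inl (Sum.inl Q)) π Q`, `hG : G ≤ G₁`,
  `hred : (red g).1 = gred g`, with `CQ := X.CQ ⊓ G`, `τ := X.τ`, `tay := X.tay` restricted
  (`toN₁_CQ`, `coe_toN₁_τ`, `toN₁_tay_apply` by `rfl`); `LocExp1.toN₂` : the twin on the second
  component;
* `taylor_toN₁`, `taylor_toN₂` : (E4) — Taylor's formula with remainder — in `X.CQ ⊓ G`, from (E4) in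
  `X.CQ` and `τ⁻¹ ∈ G` (the remainder is `τ⁻ⁿ · (c - ∑ …) ∈ G`).
-/
import Mathlib
import Fermat.Agent.ES.W33.DensityInstN21

set_option autoImplicit false
set_option linter.style.haveILetI false

open AlgebraicCurve

noncomputable section

namespace Fermat.Agent.ES.W33.LocExpOneN21

open scoped BigOperators
open Fermat.Agent.X0.FF
open Fermat.Agent.ES.W33.XiIfaceN29 Fermat.Agent.ES.W33.DensityInstN21

variable {L F k Ft Ft₁ Ft₂ : Type*} [Field L] [Field F] [Algebra L F] [Field k]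
  [Field Ft] [Algebra k Ft] [Field Ft₁] [Algebra k Ft₁] [Field Ft₂] [Algebra k Ft₂]
variable {A : ValuationSubring L}

/-! ### The one-component datum -/

/-- **The local expansion datum at a point `Q` of ONE component** (function field `Ft`), for the
Gauss valuation ring `G₁` of that component with its reduction `gred`, the disc of `Q` being the
places `P` with `disc P`. -/
structure LocExp1 (G₁ : Subring F) (gred : ↥G₁ →+* Ft) (disc : Place L F → Prop)
    (π : ↥A →+* k) (Q : Place k Ft) where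
  /-- the local ring of the disc of `Q` -/
  CQ : Subring F
  le_G : CQ ≤ G₁
  const_mem : ∀ a : ↥A, algebraMap L F (a : L) ∈ CQ
  /-- the parameter -/
  τ : ↥CQ
  /-- the Taylor expansion in `τ` -/
  tay : ↥CQ →+* PowerSeries ↥A
  tay_const : ∀ a : ↥A, tay ⟨algebraMap L F (a : L), const_mem a⟩ = PowerSeries.C a
  tay_τ : tay τ = PowerSeries.X
  /-- (Db) -/
  mem_of_reg : ∀ f : F, f ∈ G₁ → (∀ P : Place L F, disc P → 0 ≤ P.ord f) → f ∈ CQ
  reg : ∀ f : F, f ∈ CQ → ∀ P : Place L F, disc P → 0 ≤ P.ord f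
  /-- compatibility of the Taylor expansion with the reduction (one inequality) -/
  ord_le : ∀ (f : ↥CQ) (n : ℕ), (∀ m < n, π (PowerSeries.coeff m (tay f)) = 0) →
    gred ⟨(f : F), le_G f.2⟩ ≠ 0 → (n : ℤ) ≤ Q.ord (gred ⟨(f : F), le_G f.2⟩)
  /-- `Q` is GOOD: the reduction of `τ` is a uniformiser at `Q` -/
  ord_τ : Q.ord (gred ⟨(τ : F), le_G τ.2⟩) = 1
  /-- (E4) Taylor's formula with remainder in the local ring -/
  taylor : ∀ (n : ℕ) (c : ↥CQ), ∃ b : ↥CQ,
    (c : F) = ∑ j ∈ Finset.range n,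
        algebraMap L F ((PowerSeries.coeff j (tay c) : ↥A) : L) * (τ : F) ^ j + (τ : F) ^ n * (b : F)

namespace LocExp1

variable {G₁ : Subring F} {gred : ↥G₁ →+* Ft} {disc : Place L F → Prop} {π : ↥A →+* k}
  {Q : Place k Ft} (X : LocExp1 (A := A) G₁ gred disc π Q)

/-- the reduction of the parameter is not zero. -/
theorem gred_tau_ne_zero : gred ⟨(X.τ : F), X.le_G X.τ.2⟩ ≠ 0 := by
  intro h
  have := X.ord_τ
  rw [h, Place.ord_zero] at this
  exact zero_ne_one this

/-- the parameter is not zero. -/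
theorem tau_ne_zero : ((X.τ : ↥X.CQ) : F) ≠ 0 := by
  intro h
  apply X.gred_tau_ne_zero
  have e : (⟨(X.τ : F), X.le_G X.τ.2⟩ : ↥G₁) = 0 := Subtype.ext h
  rw [e, map_zero]

end LocExp1

/-! ### Taylor's formula in the intersection with a subring containing `τ⁻¹` -/

/-- the remainder of Taylor's formula lies in any subring `G` containing the constants, `c`, `τ` and
`τ⁻¹`. -/
theorem remainder_mem {G : Subring F} (hconst : ∀ a : ↥A, algebraMap L F (a : L) ∈ G)
    {τ c b : F} (hτ0 : τ ≠ 0) (hτ : τ ∈ G) (hτi : τ⁻¹ ∈ G) (hc : c ∈ G) (n : ℕ) (co : ℕ → ↥A)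
    (e : c = ∑ j ∈ Finset.range n, algebraMap L F ((co j : ↥A) : L) * τ ^ j + τ ^ n * b) :
    b ∈ G := by
  have hS : ∑ j ∈ Finset.range n, algebraMap L F ((co j : ↥A) : L) * τ ^ j ∈ G :=
    G.sum_mem fun j _ => G.mul_mem (hconst (co j)) (G.pow_mem hτ j)
  have h1 : c - ∑ j ∈ Finset.range n, algebraMap L F ((co j : ↥A) : L) * τ ^ j = τ ^ n * b := by
    rw [e]; ring
  have hb : b = (τ⁻¹) ^ n *
      (c - ∑ j ∈ Finset.range n, algebraMap L F ((co j : ↥A) : L) * τ ^ j) := by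
    rw [h1, ← mul_assoc, ← mul_pow, inv_mul_cancel₀ hτ0, one_pow, one_mul]
  rw [hb]
  exact G.mul_mem (G.pow_mem hτi n) (G.sub_mem hc hS)

/-! ### The nodal datum on the first component -/

section Nodal

variable {sn : ℕ} {G : Subring F} {red : ↥G →+* Ft₁ × Ft₂}
  {r : Place L F → SPt k Ft₁ Ft₂ ⊕ Fin sn} {π : ↥A →+* k}

section First

variable {G₁ : Subring F} {gred : ↥G₁ →+* Ft₁} {Q : Place k Ft₁}
  (X : LocExp1 (A := A) G₁ gred (fun P => r P = Sum.inl (Sum.inl Q)) π Q)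
  (hG : G ≤ G₁) (hred : ∀ g : ↥G, (red g).1 = gred ⟨(g : F), hG g.2⟩)
  (hconst : ∀ a : ↥A, algebraMap L F (a : L) ∈ G) (hτ : ((X.τ : ↥X.CQ) : F) ∈ G)

/-- **The nodal local expansion datum at a point of the FIRST component**: the local ring is
`X.CQ ⊓ G`. -/
def LocExp1.toN₁ : LocExpN (A := A) G red r π (Sum.inl Q) where
  CQ := X.CQ ⊓ G
  le_G := inf_le_right
  const_mem := fun a => ⟨X.const_mem a, hconst a⟩
  τ := ⟨(X.τ : F), X.τ.2, hτ⟩
  tay := X.tay.comp (Subring.inclusion inf_le_left)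
  tay_const := fun a => X.tay_const a
  tay_τ := X.tay_τ
  mem_of_reg := fun f hf hreg => ⟨X.mem_of_reg f (hG hf) hreg, hf⟩
  reg := fun f hf P hP => X.reg f hf.1 P hP
  ord_le := by
    intro f n h hne
    have hne' : (red ⟨(f : F), f.2.2⟩).1 ≠ 0 := hne
    show (n : ℤ) ≤ Q.ord (red ⟨(f : F), f.2.2⟩).1
    rw [hred] at hne' ⊢
    exact X.ord_le ⟨(f : F), f.2.1⟩ n h hne'
  ord_τ := by
    show Q.ord (red ⟨(X.τ : F), hτ⟩).1 = 1
    rw [hred]
    exact X.ord_τ

@[simp] theorem toN₁_CQ : (X.toN₁ hG hred hconst hτ).CQ = X.CQ ⊓ G := rfl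

@[simp] theorem coe_toN₁_τ :
    (((X.toN₁ hG hred hconst hτ).τ : ↥(X.toN₁ hG hred hconst hτ).CQ) : F) = (X.τ : F) := rfl

theorem toN₁_tay_apply (f : ↥(X.toN₁ hG hred hconst hτ).CQ) :
    (X.toN₁ hG hred hconst hτ).tay f = X.tay ⟨(f : F), f.2.1⟩ := rfl

/-- **(E4)** Taylor's formula with remainder in `X.CQ ⊓ G`, in the shape of
`DensBaseInstN9.GoodExp.taylor`. -/
theorem taylor_toN₁ (hτi : ((X.τ : ↥X.CQ) : F)⁻¹ ∈ G) (n : ℕ)
    (c : ↥(X.toN₁ hG hred hconst hτ).CQ) : ∃ b : ↥(X.toN₁ hG hred hconst hτ).CQ,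
      c = ∑ j ∈ Finset.range n,
          (X.toN₁ hG hred hconst hτ).constC
            (PowerSeries.coeff j ((X.toN₁ hG hred hconst hτ).tay c)) *
            (X.toN₁ hG hred hconst hτ).τ ^ j + (X.toN₁ hG hred hconst hτ).τ ^ n * b := by
  obtain ⟨b, e⟩ := X.taylor n ⟨(c : F), c.2.1⟩
  have hbG : (b : F) ∈ G :=
    remainder_mem hconst X.tau_ne_zero hτ hτi c.2.2 n
      (fun j => PowerSeries.coeff j (X.tay ⟨(c : F), c.2.1⟩)) e
  refine ⟨⟨(b : F), b.2, hbG⟩, Subtype.ext ?_⟩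
  rw [e]
  simp only [Subring.coe_add, Subring.coe_mul, Subring.coe_pow, AddSubmonoidClass.coe_finsetSum,
    LocExpN.coe_constC, coe_toN₁_τ, toN₁_tay_apply]

end First

/-! ### The nodal datum on the second component -/

section Second

variable {G₂ : Subring F} {gred : ↥G₂ →+* Ft₂} {Q : Place k Ft₂}
  (X : LocExp1 (A := A) G₂ gred (fun P => r P = Sum.inl (Sum.inr Q)) π Q)
  (hG : G ≤ G₂) (hred : ∀ g : ↥G, (red g).2 = gred ⟨(g : F), hG g.2⟩)
  (hconst : ∀ a : ↥A, algebraMap L F (a : L) ∈ G) (hτ : ((X.τ : ↥X.CQ) : F) ∈ G)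

/-- **The nodal local expansion datum at a point of the SECOND component**: the local ring is
`X.CQ ⊓ G`. -/
def LocExp1.toN₂ : LocExpN (A := A) G red r π (Sum.inr Q) where
  CQ := X.CQ ⊓ G
  le_G := inf_le_right
  const_mem := fun a => ⟨X.const_mem a, hconst a⟩
  τ := ⟨(X.τ : F), X.τ.2, hτ⟩
  tay := X.tay.comp (Subring.inclusion inf_le_left)
  tay_const := fun a => X.tay_const a
  tay_τ := X.tay_τ
  mem_of_reg := fun f hf hreg => ⟨X.mem_of_reg f (hG hf) hreg, hf⟩
  reg := fun f hf P hP => X.reg f hf.1 P hP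
  ord_le := by
    intro f n h hne
    have hne' : (red ⟨(f : F), f.2.2⟩).2 ≠ 0 := hne
    show (n : ℤ) ≤ Q.ord (red ⟨(f : F), f.2.2⟩).2
    rw [hred] at hne' ⊢
    exact X.ord_le ⟨(f : F), f.2.1⟩ n h hne'
  ord_τ := by
    show Q.ord (red ⟨(X.τ : F), hτ⟩).2 = 1
    rw [hred]
    exact X.ord_τ

@[simp] theorem toN₂_CQ : (X.toN₂ hG hred hconst hτ).CQ = X.CQ ⊓ G := rfl

@[simp] theorem coe_toN₂_τ :
    (((X.toN₂ hG hred hconst hτ).τ : ↥(X.toN₂ hG hred hconst hτ).CQ) : F) = (X.τ : F) := rfl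

theorem toN₂_tay_apply (f : ↥(X.toN₂ hG hred hconst hτ).CQ) :
    (X.toN₂ hG hred hconst hτ).tay f = X.tay ⟨(f : F), f.2.1⟩ := rfl

/-- **(E4)** Taylor's formula with remainder in `X.CQ ⊓ G`, second component. -/
theorem taylor_toN₂ (hτi : ((X.τ : ↥X.CQ) : F)⁻¹ ∈ G) (n : ℕ)
    (c : ↥(X.toN₂ hG hred hconst hτ).CQ) : ∃ b : ↥(X.toN₂ hG hred hconst hτ).CQ,
      c = ∑ j ∈ Finset.range n,
          (X.toN₂ hG hred hconst hτ).constC
            (PowerSeries.coeff j ((X.toN₂ hG hred hconst hτ).tay c)) *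
            (X.toN₂ hG hred hconst hτ).τ ^ j + (X.toN₂ hG hred hconst hτ).τ ^ n * b := by
  obtain ⟨b, e⟩ := X.taylor n ⟨(c : F), c.2.1⟩
  have hbG : (b : F) ∈ G :=
    remainder_mem hconst X.tau_ne_zero hτ hτi c.2.2 n
      (fun j => PowerSeries.coeff j (X.tay ⟨(c : F), c.2.1⟩)) e
  refine ⟨⟨(b : F), b.2, hbG⟩, Subtype.ext ?_⟩
  rw [e]
  simp only [Subring.coe_add, Subring.coe_mul, Subring.coe_pow, AddSubmonoidClass.coe_finsetSum,
    LocExpN.coe_constC, coe_toN₂_τ, toN₂_tay_apply]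

end Second

end Nodal

end Fermat.Agent.ES.W33.LocExpOneN21
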