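/-
Programme W (S33 by hand, route `S33_ROUTE8.md`), chapter (Gb), group B3′/G4′, helper21:
**the ONE-COMPONENT local expansion datum `LocExpOneN21.LocExp1` AT A GOOD POINT OF ONE CHART** — the
nodal port of `V19/LocExpInst10` (with `V19/DiscLocal3`, `DiscTaylor3` folded in and `DiscRed3`
AVOIDED), on helper3's one-chart contract `ContractP3.ChartSpecP` and helper22's disc lemmas
`DiscChartP22`, `DiscExitP22`.

Setting = `DiscExitP22`: `S : ChartSpecP A hx Ft` (a localised chart of ONE component), `r : Place L F → β`,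
the point `b₀ : β` with its place `Q` on the component, the inputs `hdisc`, (R1) `hR1`, (PEEL-a) `hpeel`,
`hfin`, (R2) `hR2`; `c : ↥A` the centre, `DiscExitP22.Good S Q c`.  `(G₁, gred)` is the Gauss valuation ring of the
component with its reduction: `hBG : S.B ≤ G₁`, `hredG` (`gred` extends `S.red`), `hinv` (chart
functions of nonzero reduction are units of `G₁`), `hDb : Db S r b₀ G₁ Q` (= `DiscExitP22.db`).

* `ord_le_of_taylor` : GENERIC — the order inequality `ord_le` of a local expansion datum follows from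
  Taylor's formula with remainder (E4), the regularity at `Q` of the reductions of the local ring, and
  `ord_Q τ̄ = 1` (this replaces the 440 lines of `V19/DiscRed3`);
* `locAt_le` : `locAt S Q ≤ G₁`; `constLoc`, `algLoc` (constants), `tauL` (the parameter `τ = t - c`);
* `ZeroPt S r b₀ c` : a zero `P₀` of `τ` in the disc; `nonempty_zeroPt` (from (Da));
* `ev₀`, `secDatum`, **`taylorQ : ↥(locAt S Q) →+* A⟦X⟧`** (`TaylorSec3.taylor`), `taylorQ_tau`,
  `taylorQ_const`, `taylorQ_sub_trunc` (E4);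
* **`locExp1 … : LocExp1 G₁ gred (fun P => r P = b₀) (resA A) Q`** with `CQ := locAt S Q`,
  `τ := tauL S Q c`, `tay := taylorQ …` (`locExp1_CQ`, `coe_locExp1_τ` by `rfl`).
-/
import Mathlib
import Fermat.Agent.ES.V19.TaylorSec3
import Fermat.Agent.ES.W33.DiscExitP22
import Fermat.Agent.ES.W33.LocExpOneN21

set_option autoImplicit false
set_option linter.unusedSectionVars false
set_option linter.style.haveILetI false

noncomputable section

open AlgebraicCurve

namespace Fermat.Agent.ES.W33.LocExpInstN21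

open scoped BigOperators
open PowerSeries
open Fermat.Agent.X0.FF Fermat.Agent.ES.RED.PlaceValue13 Fermat.Agent.ES.RED.Contract8
open Fermat.Agent.ES.W33.ContractP3
open Fermat.Agent.ES.RED.R2Abstract14 Fermat.Agent.ES.W33.R2AdapterP22
open Fermat.Agent.ES.W33.DiscChartP22 Fermat.Agent.ES.W33.DiscExitP22
open Fermat.Agent.ES.V19.TaylorSec3
open Fermat.Agent.ES.W33.LocExpOneN21

/-! ### The order inequality from Taylor's formula -/

section Generic

variable {L F k Ft : Type*} [Field L] [Field F] [Algebra L F] [Field k] [Field Ft] [Algebra k Ft]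
variable {A : ValuationSubring L}

/-- **`ord_le` from (E4)**: if the first `n` Taylor coefficients of `f` die in the residue field and
`f̄ ≠ 0`, then `n ≤ ord_Q f̄` — because `f = ∑_{j<n} a_j τ^j + τ^n b` reduces to `f̄ = τ̄^n b̄` with `b̄`
regular at `Q` and `ord_Q τ̄ = 1`. -/
theorem ord_le_of_taylor {G₁ : Subring F} {gred : ↥G₁ →+* Ft} {π : ↥A →+* k} {Q : Place k Ft}
    {CQ : Subring F} (le_G : CQ ≤ G₁) (const_mem : ∀ a : ↥A, algebraMap L F (a : L) ∈ CQ)
    (hconst : ∀ a : ↥A, gred ⟨algebraMap L F (a : L), le_G (const_mem a)⟩ = algebraMap k Ft (π a))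
    (τ : ↥CQ) (hτ : Q.ord (gred ⟨(τ : F), le_G τ.2⟩) = 1)
    (hreg : ∀ f : ↥CQ, 0 ≤ Q.ord (gred ⟨(f : F), le_G f.2⟩))
    (f : ↥CQ) (n : ℕ) (co : ℕ → ↥A) (hco : ∀ m < n, π (co m) = 0) (b : ↥CQ)
    (e : (f : F) = ∑ j ∈ Finset.range n, algebraMap L F ((co j : ↥A) : L) * (τ : F) ^ j
      + (τ : F) ^ n * (b : F))
    (hne : gred ⟨(f : F), le_G f.2⟩ ≠ 0) :
    (n : ℤ) ≤ Q.ord (gred ⟨(f : F), le_G f.2⟩) := by
  -- the identity in `G₁`
  have eG : (⟨(f : F), le_G f.2⟩ : ↥G₁) =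
      ∑ j ∈ Finset.range n, (⟨algebraMap L F ((co j : ↥A) : L), le_G (const_mem (co j))⟩ : ↥G₁) *
        (⟨(τ : F), le_G τ.2⟩ : ↥G₁) ^ j +
        (⟨(τ : F), le_G τ.2⟩ : ↥G₁) ^ n * ⟨(b : F), le_G b.2⟩ := by
    apply Subtype.ext
    rw [e]
    simp only [Subring.coe_add, Subring.coe_mul, Subring.coe_pow, AddSubmonoidClass.coe_finsetSum]
  have ered : gred ⟨(f : F), le_G f.2⟩ =
      gred ⟨(τ : F), le_G τ.2⟩ ^ n * gred ⟨(b : F), le_G b.2⟩ := by
    rw [eG, map_add, map_sum, map_mul, map_pow]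
    rw [Finset.sum_eq_zero, zero_add]
    intro j hj
    rw [map_mul, hconst, hco j (Finset.mem_range.mp hj), map_zero, zero_mul]
  have hτ0 : gred ⟨(τ : F), le_G τ.2⟩ ≠ 0 := by
    intro h
    rw [h, Place.ord_zero] at hτ
    exact zero_ne_one hτ
  have hb0 : gred ⟨(b : F), le_G b.2⟩ ≠ 0 := by
    intro h
    apply hne
    rw [ered, h, mul_zero]
  rw [ered, Place.ord_mul Q (pow_ne_zero n hτ0) hb0, ord_pow, hτ, mul_one]
  have := hreg b
  omega

end Generic

/-! ### The instance on one chart -/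

variable {L : Type*} [Field L] [IsAlgClosed L] {A : ValuationSubring L}
variable {F : Type*} [Field F] [Algebra L F] {x : F} {hx : IsGen L x}
variable {Ft : Type*} [Field Ft] [Algebra (kA A) Ft]

section Basic

variable [IsAlgClosed (kA A)] (S : ChartSpecP A hx Ft) (Q : Place (kA A) Ft) (c : ↥A)

/-- the local ring lies in the Gauss valuation ring of the component. -/
theorem locAt_le {G₁ : Subring F} (hBG : S.B ≤ G₁)
    (hinv : ∀ d : ↥S.B, S.red d ≠ 0 → ((d : F))⁻¹ ∈ G₁) : locAt S Q ≤ G₁ := by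
  rintro f ⟨a, d, hd, -, e⟩
  have hd0 : (d : F) ≠ 0 := coe_ne_zero S (fun h => hd (by rw [h, map_zero]))
  have hf : f = (a : F) * ((d : F))⁻¹ := by
    rw [← e, mul_assoc, mul_inv_cancel₀ hd0, mul_one]
  rw [hf]
  exact G₁.mul_mem (hBG a.2) (hinv d hd)

/-- constants of `A` in the local ring. -/
def constLoc : ↥A →+* ↥(locAt S Q) where
  toFun a := ⟨((S.const a : ↥S.B) : F), coe_mem_locAt S Q (S.const a)⟩
  map_one' := Subtype.ext (by simp)
  map_mul' a b := Subtype.ext (by simp)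
  map_zero' := Subtype.ext (by simp)
  map_add' a b := Subtype.ext (by simp)

@[simp] theorem coe_constLoc (a : ↥A) :
    ((constLoc S Q a : ↥(locAt S Q)) : F) = algebraMap L F (a : L) := rfl

/-- the `A`-algebra structure of the local ring (constants). NOT an instance: use `letI`. -/
@[reducible] def algLoc : Algebra ↥A ↥(locAt S Q) := (constLoc S Q).toAlgebra

/-- the parameter `τ = t - c` in the local ring. -/
def tauL : ↥(locAt S Q) := ⟨((tauB S c : ↥S.B) : F), coe_mem_locAt S Q (tauB S c)⟩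

@[simp] theorem coe_tauL : ((tauL S Q c : ↥(locAt S Q)) : F) = ((tauB S c : ↥S.B) : F) := rfl

theorem coe_tauB : ((tauB S c : ↥S.B) : F) = S.s - algebraMap L F (c : L) := rfl

theorem tauSub_zero : tauSub S c 0 = ((tauB S c : ↥S.B) : F) := by
  unfold tauSub
  rw [ZeroMemClass.coe_zero, add_zero]
  rfl

theorem tauB_ne_zero (hgood : DiscExitP22.Good S Q c) : ((tauB S c : ↥S.B) : F) ≠ 0 := by
  intro h1
  have h2 : tauB S c = 0 := Subtype.ext h1
  unfold DiscExitP22.Good at hgood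
  rw [h2, map_zero, Place.ord_zero] at hgood
  exact zero_ne_one hgood

end Basic

section Inst

variable [IsAlgClosed (kA A)] {xt : Ft} (hxt : IsGen (kA A) xt)
variable (S : ChartSpecP A hx Ft)
variable {β : Type*} (r : Place L F → β) (b₀ : β) (Q : Place (kA A) Ft)
variable (hdisc : ∀ P, r P = b₀ → S.InChart P)
variable (hR1 : ∀ (P : Place L F) (hP : S.InChart P), r P = b₀ → ∀ b : ↥S.B,
  ∃ hmem : S.red b ∈ Q.toValuationSubring,
    valueHom hxt Q ⟨S.red b, hmem⟩ = S.chi P hP b)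
variable (hpeel : ∀ (P : Place L F) (hP : S.InChart P), r P = b₀ → S.PeelA P hP)
variable (hfin : FinDiv L F)
variable (hR2 : ∀ b : ↥S.B, S.red b ≠ 0 → push hfin r (b : F) b₀ = Q.ord (S.red b))
variable (c : ↥A)

/-- **A zero of `τ = t - c` in the disc of `b₀`.** -/
structure ZeroPt where
  /-- the zero of `τ` -/
  P₀ : Place L F
  hQ : r P₀ = b₀
  hpos : 0 < P₀.ord ((tauB S c : ↥S.B) : F)

/-- (Da) produces a zero of `τ` in the disc. -/
theorem nonempty_zeroPt (hDa : Da S r b₀ c) : Nonempty (ZeroPt S r b₀ c) := by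
  obtain ⟨P, hQ, hord, -⟩ := hDa.2 0 (Ideal.zero_mem _)
  refine ⟨⟨P, hQ, ?_⟩⟩
  rw [← tauSub_zero, hord]
  exact one_pos

variable {S r b₀ c}
variable (Z : ZeroPt S r b₀ c)

/-- the value at the zero `P₀` of `τ`, as an `A`-algebra homomorphism. -/
def ev₀ : letI := algLoc S Q; ↥(locAt S Q) →ₐ[↥A] ↥A :=
  letI := algLoc S Q
  { evLoc S hxt r b₀ Q hdisc hR1 Z.hQ with
    commutes' := fun a => by
      show evLoc S hxt r b₀ Q hdisc hR1 Z.hQ
        ⟨((S.const a : ↥S.B) : F), coe_mem_locAt S Q (S.const a)⟩ = a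
      rw [evLoc_coe, S.ev_const] }

theorem ev₀_apply (f : ↥(locAt S Q)) :
    letI := algLoc S Q
    ev₀ hxt Q hdisc hR1 Z f = evLoc S hxt r b₀ Q hdisc hR1 Z.hQ f := rfl

include hpeel hR2 in
/-- **the `SecDatum` of the disc**: `τ` is a regular generator of the kernel of the value at `P₀`. -/
theorem secDatum (hgood : DiscExitP22.Good S Q c) :
    letI := algLoc S Q; SecDatum (ev₀ hxt Q hdisc hR1 Z) (tauL S Q c) := by
  letI := algLoc S Q
  refine ⟨?_, ?_, ?_⟩
  · show evLoc S hxt r b₀ Q hdisc hR1 Z.hQ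
      ⟨((tauB S c : ↥S.B) : F), coe_mem_locAt S Q (tauB S c)⟩ = 0
    rw [evLoc_coe]
    exact ev_eq_zero_of_ord_pos S Z.P₀ (hdisc _ Z.hQ) Z.hpos
  · intro f hf
    obtain ⟨g, hg, e⟩ := exists_eq_mul_of_evLoc_eq_zero S hxt r b₀ Q hdisc hR1 hpeel hfin hR2
      (tauB S c) hgood Z.hQ Z.hpos f hf
    exact ⟨⟨g, hg⟩, Subtype.ext e⟩
  · intro f hf
    have h1 : ((tauB S c : ↥S.B) : F) * (f : F) = 0 := congrArg Subtype.val hf
    exact Subtype.ext ((mul_eq_zero.mp h1).resolve_left (tauB_ne_zero S Q c hgood))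

/-- **The Taylor expansion at `Q`** in the parameter `τ = t - c`, centred at the zero `P₀` of `τ`. -/
def taylorQ (hgood : DiscExitP22.Good S Q c) : ↥(locAt S Q) →+* PowerSeries ↥A :=
  letI := algLoc S Q
  (taylor (secDatum hxt Q hdisc hR1 hpeel hfin hR2 Z hgood) : ↥(locAt S Q) →+* PowerSeries ↥A)

theorem taylorQ_apply (hgood : DiscExitP22.Good S Q c) (f : ↥(locAt S Q)) :
    letI := algLoc S Q
    taylorQ hxt Q hdisc hR1 hpeel hfin hR2 Z hgood f =
      taylor (secDatum hxt Q hdisc hR1 hpeel hfin hR2 Z hgood) f := rfl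

theorem taylorQ_tau (hgood : DiscExitP22.Good S Q c) :
    taylorQ hxt Q hdisc hR1 hpeel hfin hR2 Z hgood (tauL S Q c) = X := by
  letI := algLoc S Q
  rw [taylorQ_apply, taylor_tau]

theorem taylorQ_const (hgood : DiscExitP22.Good S Q c) (a : ↥A) :
    taylorQ hxt Q hdisc hR1 hpeel hfin hR2 Z hgood (constLoc S Q a) = C a := by
  letI := algLoc S Q
  rw [taylorQ_apply]
  exact (taylor (secDatum hxt Q hdisc hR1 hpeel hfin hR2 Z hgood)).commutes a

/-- **(E4)** Taylor's formula with remainder in the local ring. -/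
theorem taylorQ_sub_trunc (hgood : DiscExitP22.Good S Q c) (n : ℕ) (f : ↥(locAt S Q)) :
    ∃ b : ↥(locAt S Q), (f : F) = ∑ j ∈ Finset.range n,
        algebraMap L F ((coeff j (taylorQ hxt Q hdisc hR1 hpeel hfin hR2 Z hgood f) : ↥A) : L) *
          ((tauL S Q c : ↥(locAt S Q)) : F) ^ j +
        ((tauL S Q c : ↥(locAt S Q)) : F) ^ n * (b : F) := by
  letI := algLoc S Q
  have h := sub_trunc (secDatum hxt Q hdisc hR1 hpeel hfin hR2 Z hgood) n f
  refine ⟨(shift (secDatum hxt Q hdisc hR1 hpeel hfin hR2 Z hgood))^[n] f, ?_⟩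
  have h1 : f = ∑ i ∈ Finset.range n,
      algebraMap ↥A ↥(locAt S Q)
        (coeff i (taylor (secDatum hxt Q hdisc hR1 hpeel hfin hR2 Z hgood) f)) * tauL S Q c ^ i +
      tauL S Q c ^ n * (shift (secDatum hxt Q hdisc hR1 hpeel hfin hR2 Z hgood))^[n] f := by
    rw [← h]; ring
  have h2 := congrArg (Subtype.val) h1
  rw [h2]
  simp only [Subring.coe_add, Subring.coe_mul, Subring.coe_pow, AddSubmonoidClass.coe_finsetSum]
  rfl

/-! ### the datum -/

variable {G₁ : Subring F} {gred : ↥G₁ →+* Ft} (hBG : S.B ≤ G₁)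
  (hredG : ∀ (b : F) (hb : b ∈ S.B), gred ⟨b, hBG hb⟩ = S.red ⟨b, hb⟩)
  (hinv : ∀ d : ↥S.B, S.red d ≠ 0 → ((d : F))⁻¹ ∈ G₁)

include hxt hdisc hR1 hredG Z in
/-- reductions of the elements of the local ring are regular at `Q`. -/
theorem ord_gred_nonneg (f : ↥(locAt S Q)) :
    0 ≤ Q.ord (gred ⟨(f : F), locAt_le S Q hBG hinv f.2⟩) := by
  obtain ⟨hmem, -⟩ := value_redG_eq S hxt r b₀ Q hdisc hR1 G₁ hBG gred hredG
    ⟨(f : F), locAt_le S Q hBG hinv f.2⟩ f.2 Z.hQ
  exact (ffp_mem_iff_ord_nonneg Q).1 hmem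

/-- **The one-component local expansion datum at a GOOD `(b₀, Q, c)` of one chart**, on a zero `Z`
of `τ` in the disc. -/
def locExp1 (hgood : DiscExitP22.Good S Q c) (hDb : Db S r b₀ G₁ Q) :
    LocExp1 (A := A) G₁ gred (fun P => r P = b₀) (resA A) Q where
  CQ := locAt S Q
  le_G := locAt_le S Q hBG hinv
  const_mem := fun a => (constLoc S Q a).2
  τ := tauL S Q c
  tay := taylorQ hxt Q hdisc hR1 hpeel hfin hR2 Z hgood
  tay_const := fun a => taylorQ_const hxt Q hdisc hR1 hpeel hfin hR2 Z hgood a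
  tay_τ := taylorQ_tau hxt Q hdisc hR1 hpeel hfin hR2 Z hgood
  mem_of_reg := hDb
  reg := fun f hf P hP =>
    (ffp_mem_iff_ord_nonneg P).1 (mem_place_of_mem_locAt S hxt r b₀ Q hdisc hR1 hf hP)
  ord_le := by
    intro f n h hne
    obtain ⟨b, e⟩ := taylorQ_sub_trunc hxt Q hdisc hR1 hpeel hfin hR2 Z hgood n f
    refine ord_le_of_taylor (π := resA A) (locAt_le S Q hBG hinv)
      (fun a => (constLoc S Q a).2) ?_ (tauL S Q c) ?_
      (ord_gred_nonneg hxt Q hdisc hR1 Z hBG hredG hinv) f n _ h b e hne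
    · intro a
      rw [hredG _ (S.const_mem a)]
      exact S.red_const a
    · show Q.ord (gred ⟨((tauB S c : ↥S.B) : F), _⟩) = 1
      rw [hredG _ (tauB S c).2]
      exact hgood
  ord_τ := by
    show Q.ord (gred ⟨((tauB S c : ↥S.B) : F), _⟩) = 1
    rw [hredG _ (tauB S c).2]
    exact hgood
  taylor := taylorQ_sub_trunc hxt Q hdisc hR1 hpeel hfin hR2 Z hgood

@[simp] theorem locExp1_CQ (hgood : DiscExitP22.Good S Q c) (hDb : Db S r b₀ G₁ Q) :
    (locExp1 hxt Q hdisc hR1 hpeel hfin hR2 Z hBG hredG hinv hgood hDb).CQ = locAt S Q := rfl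

@[simp] theorem coe_locExp1_τ (hgood : DiscExitP22.Good S Q c) (hDb : Db S r b₀ G₁ Q) :
    (((locExp1 hxt Q hdisc hR1 hpeel hfin hR2 Z hBG hredG hinv hgood hDb).τ :
      ↥(locExp1 hxt Q hdisc hR1 hpeel hfin hR2 Z hBG hredG hinv hgood hDb).CQ) : F) =
      S.s - algebraMap L F (c : L) := rfl

/-! ### the datum for a Gauss valuation ring `gaussInt G g` -/

/-- **The same for `(G₁, gred) := (gaussInt G g, rho G g)`**, `(G, g)` ANY pair extending the chart
`(S.B, S.red)` (instance: the Gauss valuation ring of the component): `hinv` and (Db) are discharged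
(`GaussFrac15.inv_mem_gaussInt_of_isGU`, `DiscExitP22.db`). -/
def locExp1Gauss (G : Subring F) (g : ↥G →+* Ft) (hBG : S.B ≤ G)
    (hredG : ∀ (b : F) (hb : b ∈ S.B), g ⟨b, hBG hb⟩ = S.red ⟨b, hb⟩)
    (hgood : DiscExitP22.Good S Q c) :
    LocExp1 (A := A) (Fermat.Agent.ES.V19.GaussFrac15.gaussInt G g)
      (Fermat.Agent.ES.V19.GaussFrac15.rho G g) (fun P => r P = b₀) (resA A) Q :=
  locExp1 hxt Q hdisc hR1 hpeel hfin hR2 Z
    (hBG.trans (Fermat.Agent.ES.V19.GaussFrac15.le_gaussInt G g))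
    (fun b hb => by
      rw [← hredG b hb]
      exact Fermat.Agent.ES.V19.GaussFrac15.rho_of_mem ⟨b, hBG hb⟩)
    (fun d hd => Fermat.Agent.ES.V19.GaussFrac15.inv_mem_gaussInt_of_isGU
      ⟨⟨(d : F), hBG d.2⟩, 1, by rw [hredG _ d.2]; exact hd, by rw [map_one]; exact one_ne_zero,
        by rw [show ((1 : ↥G) : F) = 1 from rfl, mul_one]⟩)
    hgood (db hxt S r b₀ Q hdisc hR1 hpeel hfin hR2 G g hBG hredG)

end Inst

end Fermat.Agent.ES.W33.LocExpInstN21
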