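/-
Programme W (S33 by hand, route `S33_ROUTE8.md`), chapter (Gb), group B3′, helper21:
**THE DISC PACKAGE AT ONE GOOD POINT** — everything the later chapters ask at a good point `(b₀, Q)` of
one component, from ONE bundle of chart data.

`DiscPkg hxt hfin r b₀ Q` bundles a one-chart contract `S : ContractP3.ChartSpecP A hx Ft`, a centre
`c : ↥A`, the five inputs of helper22's disc lemmas (`hdisc`, (R1) `hR1`, (PEEL-a) `hpeel`, (R2) `hR2`)
and `good : DiscExitP22.Good S Q c`.  For `D : DiscPkg …`: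

* `D.coord := S.s - c` (the coordinate), `D.da : Da S r b₀ c`, `D.zero : ZeroPt …` (a choice),
  `D.centre` (THE zero of the coordinate in the disc);
* the four (Da) fields of `GeoNames23.NodalInstHyp` at the point: `centre_red`, `centre_zero`,
  `val_mem`, `val_unique`; `centre_ord : ord_{centre} coord = 1`;
* `da'` : the literal `DensBaseInstN9.GoodExp.da` / `ExpPkgOfDensN21.DiscHypN.da`;
* `D.locExp1 G g hBG hredG : LocExp1 (gaussInt G g) (rho G g) (fun P => r P = b₀) (resA A) Q` with
  parameter `D.coord` (`coe_locExp1_τ`), for ANY `(G, g)` extending `(S.B, S.red)`.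
-/
import Mathlib
import Fermat.Agent.ES.W33.LocExpInstN21

set_option autoImplicit false
set_option linter.unusedSectionVars false
set_option linter.style.haveILetI false

noncomputable section

open AlgebraicCurve

namespace Fermat.Agent.ES.W33.DiscPkgN21

open Fermat.Agent.X0.FF Fermat.Agent.ES.RED.PlaceValue13 Fermat.Agent.ES.RED.Contract8
open Fermat.Agent.ES.W33.ContractP3
open Fermat.Agent.ES.RED.R2Abstract14 Fermat.Agent.ES.W33.R2AdapterP22
open Fermat.Agent.ES.W33.DiscChartP22 Fermat.Agent.ES.W33.DiscExitP22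
open Fermat.Agent.ES.W33.LocExpOneN21 Fermat.Agent.ES.W33.LocExpInstN21

variable {L : Type*} [Field L] [IsAlgClosed L] {A : ValuationSubring L}
variable {F : Type*} [Field F] [Algebra L F] {x : F} {hx : IsGen L x}
variable {Ft : Type*} [Field Ft] [Algebra (kA A) Ft]
variable [IsAlgClosed (kA A)] {xt : Ft}

/-- **The disc package at one point `(b₀, Q)` of one component.** -/
structure DiscPkg (hxt : IsGen (kA A) xt) (hfin : FinDiv L F) {β : Type*} (r : Place L F → β)
    (b₀ : β) (Q : Place (kA A) Ft) where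
  /-- the (localised) chart of the component through the point -/
  S : ChartSpecP A hx Ft
  /-- the centre: a lift of the value of the coordinate at the point -/
  c : ↥A
  hdisc : ∀ P, r P = b₀ → S.InChart P
  hR1 : ∀ (P : Place L F) (hP : S.InChart P), r P = b₀ → ∀ b : ↥S.B,
    ∃ hmem : S.red b ∈ Q.toValuationSubring, valueHom hxt Q ⟨S.red b, hmem⟩ = S.chi P hP b
  hpeel : ∀ (P : Place L F) (hP : S.InChart P), r P = b₀ → S.PeelA P hP
  hR2 : ∀ b : ↥S.B, S.red b ≠ 0 → push hfin r (b : F) b₀ = Q.ord (S.red b)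
  good : DiscExitP22.Good S Q c

namespace DiscPkg

variable {hxt : IsGen (kA A) xt} {hfin : FinDiv L F} {β : Type*} {r : Place L F → β} {b₀ : β}
  {Q : Place (kA A) Ft} (D : DiscPkg (A := A) (hx := hx) hxt hfin r b₀ Q)

/-- the coordinate `t - c`. -/
def coord : F := D.S.s - algebraMap L F (D.c : L)

theorem coord_eq : D.coord = ((tauB D.S D.c : ↥D.S.B) : F) := rfl

/-- (Da) at the point. -/
theorem da : Da D.S r b₀ D.c :=
  DiscExitP22.da hxt D.S r b₀ Q D.hdisc D.hR1 hfin D.hR2 D.c D.good

/-- `coord - s = tauSub S c s`. -/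
theorem coord_sub (s : ↥A) :
    D.coord - algebraMap L F (s : L) = tauSub D.S D.c s := by
  unfold coord tauSub
  rw [map_add]
  ring

/-- **the literal `GoodExp.da` / `DiscHypN.da` at the point.** -/
theorem da' (s : ↥A) (hs : s ∈ IsLocalRing.maximalIdeal ↥A) :
    ∃ P : Place L F, r P = b₀ ∧ P.ord (D.coord - algebraMap L F (s : L)) = 1 ∧
      ∀ P' : Place L F, r P' = b₀ → 0 < P'.ord (D.coord - algebraMap L F (s : L)) → P' = P := by
  obtain ⟨P, hP, h1, huniq⟩ := D.da.2 s hs
  refine ⟨P, hP, ?_, ?_⟩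
  · rw [coord_sub]; exact h1
  · intro P' hP' hpos
    rw [coord_sub] at hpos
    exact huniq P' hP' hpos

/-- a zero of the coordinate in the disc (a choice). -/
def zero : ZeroPt D.S r b₀ D.c := (nonempty_zeroPt D.S r b₀ D.c D.da).some

/-- THE centre of the disc: the zero of the coordinate. -/
def centre : Place L F := D.zero.P₀

theorem centre_red : r D.centre = b₀ := D.zero.hQ

theorem centre_zero : 0 < D.centre.ord D.coord := D.zero.hpos

theorem centre_ord : D.centre.ord D.coord = 1 := by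
  obtain ⟨P, -, h1, huniq⟩ := D.da' 0 (Ideal.zero_mem _)
  rw [ZeroMemClass.coe_zero, map_zero, sub_zero] at h1 huniq
  rw [huniq D.centre D.centre_red D.centre_zero]
  exact h1

/-- the coordinate takes its values on the disc in `𝔪_A` (the literal `NodalInstHyp.val_mem`). -/
theorem val_mem (P : Place L F) (hP : r P = b₀) :
    ∃ a ∈ A.nonunits, 0 < P.ord (D.coord - algebraMap L F a) := by
  have hPc := D.hdisc P hP
  have hχ : D.S.chi P hPc (tauB D.S D.c) = 0 := D.da.1 P hP hPc
  set a : ↥A := D.S.ev P hPc (tauB D.S D.c) with ha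
  have ham : a ∈ IsLocalRing.maximalIdeal ↥A := by
    rw [← IsLocalRing.residue_eq_zero_iff]
    exact hχ
  refine ⟨(a : L), ValuationSubring.mem_nonunits_iff_exists_mem_maximalIdeal.mpr ⟨a.2, ham⟩, ?_⟩
  -- `coord - a = tauB - const a` vanishes at `P` and is not zero
  have e : D.coord - algebraMap L F (a : L) = ((tauB D.S D.c - D.S.const a : ↥D.S.B) : F) := rfl
  rw [e]
  have hne : tauB D.S D.c - D.S.const a ≠ 0 := by
    intro h0
    have h1 : D.S.red (subConst D.S (D.c + a)) = D.S.red (tauB D.S D.c) :=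
      red_subConst_add D.S D.c a ham
    have h2 : subConst D.S (D.c + a) = tauB D.S D.c - D.S.const a := by
      apply Subtype.ext
      show D.S.s - algebraMap L F ((D.c : L) + (a : L)) =
        D.S.s - algebraMap L F (D.c : L) - algebraMap L F (a : L)
      rw [map_add]; ring
    rw [h2, h0, map_zero] at h1
    have hg : Q.ord (D.S.red (tauB D.S D.c)) = 1 := D.good
    rw [← h1, Place.ord_zero] at hg
    exact zero_ne_one hg
  exact ord_pos_of_ev_eq_zero D.S P hPc hne (D.S.ev_sub_const P hPc (tauB D.S D.c))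

/-- every value in `𝔪_A` is taken exactly once on the disc (the literal
`NodalInstHyp.val_unique`). -/
theorem val_unique (a : L) (ha : a ∈ A.nonunits) :
    ∃! P : Place L F, r P = b₀ ∧ 0 < P.ord (D.coord - algebraMap L F a) := by
  obtain ⟨haA, ham⟩ := ValuationSubring.mem_nonunits_iff_exists_mem_maximalIdeal.mp ha
  obtain ⟨P, hP, h1, huniq⟩ := D.da' ⟨a, haA⟩ ham
  refine ⟨P, ⟨hP, ?_⟩, fun P' hP' => huniq P' hP'.1 hP'.2⟩
  show 0 < P.ord (D.coord - algebraMap L F a)
  have : P.ord (D.coord - algebraMap L F a) = 1 := h1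
  rw [this]
  exact one_pos

/-- **the one-component local expansion datum at the point**, for any `(G, g)` extending the chart. -/
def locExp1 (G : Subring F) (g : ↥G →+* Ft) (hBG : D.S.B ≤ G)
    (hredG : ∀ (b : F) (hb : b ∈ D.S.B), g ⟨b, hBG hb⟩ = D.S.red ⟨b, hb⟩) :
    LocExp1 (A := A) (Fermat.Agent.ES.V19.GaussFrac15.gaussInt G g)
      (Fermat.Agent.ES.V19.GaussFrac15.rho G g) (fun P => r P = b₀) (resA A) Q :=
  locExp1Gauss hxt Q D.hdisc D.hR1 D.hpeel hfin D.hR2 D.zero G g hBG hredG D.good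

@[simp] theorem coe_locExp1_τ (G : Subring F) (g : ↥G →+* Ft) (hBG : D.S.B ≤ G)
    (hredG : ∀ (b : F) (hb : b ∈ D.S.B), g ⟨b, hBG hb⟩ = D.S.red ⟨b, hb⟩) :
    (((D.locExp1 G g hBG hredG).τ : ↥(D.locExp1 G g hBG hredG).CQ) : F) = D.coord := rfl

@[simp] theorem locExp1_CQ (G : Subring F) (g : ↥G →+* Ft) (hBG : D.S.B ≤ G)
    (hredG : ∀ (b : F) (hb : b ∈ D.S.B), g ⟨b, hBG hb⟩ = D.S.red ⟨b, hb⟩) :
    (D.locExp1 G g hBG hredG).CQ = locAt D.S Q := rfl

end DiscPkg

end Fermat.Agent.ES.W33.DiscPkgN21
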