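/-
Programme W (S33, SPINE v1.1), THE GEO JOIN, part 6b (helper23): **how B3′ builds the per-point
package `GoodPts23.PtPkg`** from the exits that exist:

* `val_of_Da`, `da_of_Da` (model-free): helper22's `DiscExitP22.Da S r b₀ c` (exit `DiscExitP22.da` at a
  GOOD `(Q, c)` of ONE chart `S`) gives the two (Da) fields of the package for
  **`coord := S.s - c`** (`S.s` = the coordinate of the chart: `tN^{±1}` on component 1, `yN^{±1}` on
  component 2 — JOIN FLAG F1);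
* `PtPkg.ofOne₁`, `PtPkg.ofOne₂` : the package at a point of component 1 / 2 from helper21's
  one-component datum `LocExpOneN21.LocExp1` (`coord := X.τ`; (E1) `X.toN₁ / X.toN₂`, (E4)
  `taylor_toN₁ / taylor_toN₂`) + the four per-point facts `val`, `da`, `tau_unit`, `fix`.
-/
import Mathlib
import Fermat.Agent.ES.W33.GoodPts23
import Fermat.Agent.ES.W33.LocExpOneN21
import Fermat.Agent.ES.W33.DiscExitP22

set_option autoImplicit false
set_option linter.unusedSectionVars false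
set_option synthInstance.maxHeartbeats 400000

noncomputable section

open AlgebraicCurve ModularCurve

namespace Fermat.Agent.ES.W33.GoodPtsOne23

/-! ### from `DiscExitP22.Da` to the two (Da) fields -/

section FromDa

open Fermat.Agent.X0.FF Fermat.Agent.ES.RED.PlaceValue13 Fermat.Agent.ES.RED.Contract8
  Fermat.Agent.ES.W33.ContractP3 Fermat.Agent.ES.W33.R2AdapterP22 Fermat.Agent.ES.W33.DiscExitP22

variable {L : Type*} [Field L] [IsAlgClosed L] {A : ValuationSubring L}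
variable {F : Type*} [Field F] [Algebra L F] {x : F} {hx : IsGen L x}
variable {Ft : Type*} [Field Ft] [Algebra (kA A) Ft]
variable (S : ChartSpecP A hx Ft) {β : Type*} (r : Place L F → β) (b₀ : β) (c : ↥A)

/-- `S.s - c - a = S.s - (c + a)`. -/
theorem sub_sub_eq_tauSub (a : ↥A) :
    S.s - algebraMap L F (c : L) - algebraMap L F (a : L) = tauSub S c a := by
  show _ = S.s - algebraMap L F ((c : L) + (a : L))
  rw [map_add]; ring

/-- **(Da), first half**: the values of `coord := S.s - c` on the disc lie in `𝔪_A`. -/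
theorem val_of_Da (hsne : ∀ a : ↥A, S.s ≠ algebraMap L F (a : L))
    (hdisc : ∀ P, r P = b₀ → S.InChart P) (H : Da S r b₀ c)
    (P : Place L F) (hP : r P = b₀) :
    ∃ a ∈ A.nonunits, 0 < P.ord (S.s - algebraMap L F (c : L) - algebraMap L F a) := by
  have hIn := hdisc P hP
  have hχ := H.1 P hP hIn
  set v : ↥A := S.ev P hIn (tauB S c) with hv
  have hvm : v ∈ IsLocalRing.maximalIdeal ↥A := by
    rw [← IsLocalRing.residue_eq_zero_iff]
    exact hχ
  have hvn : (v : L) ∈ A.nonunits := by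
    rw [IsLocalRing.mem_maximalIdeal, mem_nonunits_iff] at hvm
    exact (A.coe_mem_nonunits_iff).2 hvm
  refine ⟨(v : L), hvn, ?_⟩
  have hne : tauB S c - S.const v ≠ 0 := by
    intro h
    have h1 : ((tauB S c - S.const v : ↥S.B) : F) = 0 := by rw [h]; rfl
    have h2 : S.s = algebraMap L F (((c + v : ↥A) : ↥A) : L) := by
      have : S.s - algebraMap L F (c : L) - algebraMap L F (v : L) = 0 := h1
      have e : ((c + v : ↥A) : L) = (c : L) + (v : L) := rfl
      rw [e, map_add]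
      linear_combination this
    exact hsne _ h2
  have := ord_pos_of_ev_eq_zero S P hIn hne (S.ev_sub_const P hIn (tauB S c))
  exact this

/-- **(Da), second half**: for `s ∈ 𝔪_A`, `coord - s` has exactly one zero in the disc, a simple one. -/
theorem da_of_Da (H : Da S r b₀ c) (s : ↥A) (hs : s ∈ IsLocalRing.maximalIdeal ↥A) :
    ∃ P : Place L F, r P = b₀ ∧
      P.ord (S.s - algebraMap L F (c : L) - algebraMap L F (s : L)) = 1 ∧
      ∀ P' : Place L F, r P' = b₀ →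
        0 < P'.ord (S.s - algebraMap L F (c : L) - algebraMap L F (s : L)) → P' = P := by
  rw [sub_sub_eq_tauSub]
  exact H.2 s hs

end FromDa

/-! ### the package from helper21's one-component datum -/

section Pkg

open Fermat.Agent.X0.FF Fermat.Agent.ES.V19.GammaF16 Fermat.Agent.ES.V19.TraceDescent26
  Fermat.Agent.ES.V19.XiEqvInst29
  Fermat.Agent.ES.W33.XiIfaceN29 Fermat.Agent.ES.W33.DensityInstN21 Fermat.Agent.ES.W33.GeoNames23
  Fermat.Agent.ES.W33.LocExpOneN21 Fermat.Agent.ES.W33.GoodPts23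

attribute [local instance 5000] HahnSeries.powerSeriesAlgebra SubalgebraClass.toAlgebra

local notation "Qb" => AlgebraicClosure ℚ

variable {p M' : ℕ} {A : ValuationSubring Qb} {I₀ : NodalInst p M' A}

/-- **the package at a point of component 1**, `coord := X.τ`. -/
def ofOne₁ {G₁ : Subring (FW p M')} {ρ₁ : ↥G₁ →+* FtW M' A} {Q : Place (kW A) (FtW M' A)}
    (X : LocExp1 (A := A) G₁ ρ₁ (fun P => I₀.r P = Sum.inl (Sum.inl Q))
      (IsLocalRing.residue ↥A) Q)
    (hG : I₀.G ≤ G₁) (hred : ∀ g : ↥I₀.G, (I₀.red g).1 = ρ₁ ⟨(g : FW p M'), hG g.2⟩)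
    (hconst : ∀ a : ↥A, algebraMap Qb (FW p M') (a : Qb) ∈ I₀.G)
    (hτ : ((X.τ : ↥X.CQ) : FW p M') ∈ I₀.G)
    (val : ∀ P : Place Qb (FW p M'), I₀.r P = Sum.inl (Sum.inl Q) →
      ∃ a ∈ A.nonunits, 0 < P.ord (((X.τ : ↥X.CQ) : FW p M') - algebraMap Qb (FW p M') a))
    (da : ∀ s : ↥A, s ∈ IsLocalRing.maximalIdeal ↥A →
      ∃ P : Place Qb (FW p M'), I₀.r P = Sum.inl (Sum.inl Q) ∧
        P.ord (((X.τ : ↥X.CQ) : FW p M') - algebraMap Qb (FW p M') (s : Qb)) = 1 ∧
        ∀ P' : Place Qb (FW p M'), I₀.r P' = Sum.inl (Sum.inl Q) →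
          0 < P'.ord (((X.τ : ↥X.CQ) : FW p M') - algebraMap Qb (FW p M') (s : Qb)) → P' = P)
    (tau_unit : ∀ s : ↥A, s ∈ IsLocalRing.maximalIdeal ↥A →
      (((X.τ : ↥X.CQ) : FW p M') - algebraMap Qb (FW p M') (s : Qb))⁻¹ ∈ I₀.G)
    (fix : ∃ f₀ : ℕ, 0 < f₀ ∧ ∀ σ : ↥(gammaF A p f₀),
      rho (A := A) (M := M' * p) p f₀ σ • ((X.τ : ↥X.CQ) : FW p M') = ((X.τ : ↥X.CQ) : FW p M')) :
    PtPkg I₀ (Sum.inl Q) where
  coord := ((X.τ : ↥X.CQ) : FW p M')
  val := val
  da := da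
  tau_unit := tau_unit
  fix := fix
  X := X.toN₁ hG hred hconst hτ
  tau_eq := rfl
  taylor := by
    have hτi : ((X.τ : ↥X.CQ) : FW p M')⁻¹ ∈ I₀.G := by
      have := tau_unit 0 (Ideal.zero_mem _)
      rwa [ZeroMemClass.coe_zero, map_zero, sub_zero] at this
    exact taylor_toN₁ X hG hred hconst hτ hτi

/-- **the package at a point of component 2**, `coord := X.τ`. -/
def ofOne₂ {G₂ : Subring (FW p M')} {ρ₂ : ↥G₂ →+* FtW M' A} {Q : Place (kW A) (FtW M' A)}
    (X : LocExp1 (A := A) G₂ ρ₂ (fun P => I₀.r P = Sum.inl (Sum.inr Q))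
      (IsLocalRing.residue ↥A) Q)
    (hG : I₀.G ≤ G₂) (hred : ∀ g : ↥I₀.G, (I₀.red g).2 = ρ₂ ⟨(g : FW p M'), hG g.2⟩)
    (hconst : ∀ a : ↥A, algebraMap Qb (FW p M') (a : Qb) ∈ I₀.G)
    (hτ : ((X.τ : ↥X.CQ) : FW p M') ∈ I₀.G)
    (val : ∀ P : Place Qb (FW p M'), I₀.r P = Sum.inl (Sum.inr Q) →
      ∃ a ∈ A.nonunits, 0 < P.ord (((X.τ : ↥X.CQ) : FW p M') - algebraMap Qb (FW p M') a))
    (da : ∀ s : ↥A, s ∈ IsLocalRing.maximalIdeal ↥A →
      ∃ P : Place Qb (FW p M'), I₀.r P = Sum.inl (Sum.inr Q) ∧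
        P.ord (((X.τ : ↥X.CQ) : FW p M') - algebraMap Qb (FW p M') (s : Qb)) = 1 ∧
        ∀ P' : Place Qb (FW p M'), I₀.r P' = Sum.inl (Sum.inr Q) →
          0 < P'.ord (((X.τ : ↥X.CQ) : FW p M') - algebraMap Qb (FW p M') (s : Qb)) → P' = P)
    (tau_unit : ∀ s : ↥A, s ∈ IsLocalRing.maximalIdeal ↥A →
      (((X.τ : ↥X.CQ) : FW p M') - algebraMap Qb (FW p M') (s : Qb))⁻¹ ∈ I₀.G)
    (fix : ∃ f₀ : ℕ, 0 < f₀ ∧ ∀ σ : ↥(gammaF A p f₀),
      rho (A := A) (M := M' * p) p f₀ σ • ((X.τ : ↥X.CQ) : FW p M') = ((X.τ : ↥X.CQ) : FW p M')) :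
    PtPkg I₀ (Sum.inr Q) where
  coord := ((X.τ : ↥X.CQ) : FW p M')
  val := val
  da := da
  tau_unit := tau_unit
  fix := fix
  X := X.toN₂ hG hred hconst hτ
  tau_eq := rfl
  taylor := by
    have hτi : ((X.τ : ↥X.CQ) : FW p M')⁻¹ ∈ I₀.G := by
      have := tau_unit 0 (Ideal.zero_mem _)
      rwa [ZeroMemClass.coe_zero, map_zero, sub_zero] at this
    exact taylor_toN₂ X hG hred hconst hτ hτi

end Pkg

end Fermat.Agent.ES.W33.GoodPtsOne23
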