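/-
Programme W (S33 by hand, route `S33_ROUTE8.md`), chapter (B3′), per-point leaves `coord_mem` and
`tau_unit` (U) of `GoodExpOfOneN21.GoodOne` / `DensBaseInstN9.GoodExp`, helper21: **units of
`GN = O₁ ⊓ O₂`** at the function-level objects of `NodalDefs3` (unchanged between v1 and v2).

* `inv_mem_O1`, `inv_mem_O2` : an element of a Gauss valuation ring with nonzero reduction is a unit;
* `inv_mem_GN` : `f ∈ GN` with BOTH components of `redN f` nonzero has `f⁻¹ ∈ GN`;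
* `redN_sub_const` : `redN (t - a) = redN t - (ā, ā)` for a constant `a ∈ A` (from the two literals
  `const_mem`, `red_const` of `RedCtxN`, proved at the instance by `ScaleN1`);
* **`coord_mem_of`** : `t ∈ GN → t - c ∈ GN`;
* **`tau_unit_of`** : if `t ∈ GN` and NEITHER component of `redN t` is a constant, then
  `(t - c - s)⁻¹ ∈ GN` for all `c, s ∈ A` — the literal (U) for `coord := t - c`;
* `redN_inv_fst/snd`, `nonconst_inv` : the same inputs for the coordinate `t⁻¹` of the chart at `∞`.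
-/
import Mathlib
import Fermat.Agent.ES.W33.NodalDefs3

set_option autoImplicit false
set_option synthInstance.maxHeartbeats 400000
set_option linter.unusedSectionVars false

open HahnSeries ModularCurve AlgebraicCurve

noncomputable section

namespace Fermat.Agent.ES.W33.TauUnitN21

open Fermat.Agent.RED.Interface4 Fermat.Agent.ES.RED.Contract8 Fermat.Agent.ES.RED.ModelInst4
  Fermat.Agent.X0 Fermat.Agent.X0.FF
  Fermat.Agent.ES.V19.GaussFrac15 Fermat.Agent.ES.V19.InstNames3 Fermat.Agent.ES.W33.NodalDefs3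

attribute [local instance 5000] HahnSeries.powerSeriesAlgebra SubalgebraClass.toAlgebra

variable (M' : ℕ) [NeZero M'] (p : ℕ) [Fact p.Prime] (A : ValuationSubring Qbar)

/-! ### units of the two Gauss valuation rings -/

theorem inv_mem_O1 {f : ↥(Fbar (M' * p))} (hf : f ∈ O1 M' p A) (h : rho1 M' p A ⟨f, hf⟩ ≠ 0) :
    f⁻¹ ∈ O1 M' p A :=
  inv_mem_gaussInt_of_isGU
    ((isGU_iff_rho_ne_zero (G := Gq1 M' p A) (red := redq1 M' p A) ⟨f, hf⟩).2 h)

theorem inv_mem_O2 {f : ↥(Fbar (M' * p))} (hf : f ∈ O2 M' p A) (h : rho2 M' p A ⟨f, hf⟩ ≠ 0) :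
    f⁻¹ ∈ O2 M' p A := by
  rw [mem_O2_iff, map_inv₀]
  rw [rho2_apply] at h
  exact inv_mem_O1 M' p A ((mem_O2_iff M' p A f).1 hf) h

/-- **units of `GN`**: both components of the reduction are nonzero. -/
theorem inv_mem_GN {f : ↥(Fbar (M' * p))} (hf : f ∈ GN M' p A)
    (h1 : (redN M' p A ⟨f, hf⟩).1 ≠ 0) (h2 : (redN M' p A ⟨f, hf⟩).2 ≠ 0) :
    f⁻¹ ∈ GN M' p A := by
  rw [redN_fst] at h1
  rw [redN_snd] at h2
  exact ⟨inv_mem_O1 M' p A (GN_le_O1 M' p A hf) h1, inv_mem_O2 M' p A (GN_le_O2 M' p A hf) h2⟩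

/-! ### the coordinate minus a constant -/

section Coord

variable (hC : ∀ a : ↥A, algebraMap Qbar ↥(Fbar (M' * p)) (a : Qbar) ∈ GN M' p A)
  (hR : ∀ a : ↥A, redN M' p A ⟨algebraMap Qbar ↥(Fbar (M' * p)) (a : Qbar), hC a⟩ =
    (algebraMap (kA A) (Ft M' A) (resA A a), algebraMap (kA A) (Ft M' A) (resA A a)))

include hC in
/-- **`coord_mem`**: `t - c ∈ GN`. -/
theorem coord_mem_of {t : ↥(Fbar (M' * p))} (ht : t ∈ GN M' p A) (c : ↥A) :
    t - algebraMap Qbar ↥(Fbar (M' * p)) (c : Qbar) ∈ GN M' p A :=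
  (GN M' p A).sub_mem ht (hC c)

include hR in
/-- the reduction of `t - a`. -/
theorem redN_sub_const {t : ↥(Fbar (M' * p))} (ht : t ∈ GN M' p A) (a : ↥A) :
    redN M' p A ⟨t - algebraMap Qbar ↥(Fbar (M' * p)) (a : Qbar),
        coord_mem_of M' p A hC ht a⟩ =
      redN M' p A ⟨t, ht⟩ -
        (algebraMap (kA A) (Ft M' A) (resA A a), algebraMap (kA A) (Ft M' A) (resA A a)) := by
  have e : (⟨t - algebraMap Qbar ↥(Fbar (M' * p)) (a : Qbar), coord_mem_of M' p A hC ht a⟩ :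
      ↥(GN M' p A)) = ⟨t, ht⟩ - ⟨algebraMap Qbar ↥(Fbar (M' * p)) (a : Qbar), hC a⟩ :=
    Subtype.ext rfl
  rw [e, map_sub, hR]

include hR in
/-- **(U)**: if neither component of `redN t` is a constant, then `t - c - s` is a unit of `GN`, for
all constants `c, s ∈ A`. -/
theorem tau_unit_of {t : ↥(Fbar (M' * p))} (ht : t ∈ GN M' p A)
    (h1 : ∀ z : kA A, (redN M' p A ⟨t, ht⟩).1 ≠ algebraMap (kA A) (Ft M' A) z)
    (h2 : ∀ z : kA A, (redN M' p A ⟨t, ht⟩).2 ≠ algebraMap (kA A) (Ft M' A) z) (c s : ↥A) :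
    (t - algebraMap Qbar ↥(Fbar (M' * p)) (c : Qbar) -
      algebraMap Qbar ↥(Fbar (M' * p)) (s : Qbar))⁻¹ ∈ GN M' p A := by
  have e : t - algebraMap Qbar ↥(Fbar (M' * p)) (c : Qbar) -
      algebraMap Qbar ↥(Fbar (M' * p)) (s : Qbar) =
      t - algebraMap Qbar ↥(Fbar (M' * p)) ((c + s : ↥A) : Qbar) := by
    rw [AddMemClass.coe_add, map_add]; ring
  rw [e]
  have hred := redN_sub_const M' p A hC hR ht (c + s)
  refine inv_mem_GN M' p A (coord_mem_of M' p A hC ht (c + s)) ?_ ?_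
  · rw [hred]
    show (redN M' p A ⟨t, ht⟩).1 - algebraMap (kA A) (Ft M' A) (resA A (c + s)) ≠ 0
    exact sub_ne_zero.mpr (h1 _)
  · rw [hred]
    show (redN M' p A ⟨t, ht⟩).2 - algebraMap (kA A) (Ft M' A) (resA A (c + s)) ≠ 0
    exact sub_ne_zero.mpr (h2 _)

end Coord

/-! ### the coordinate `t⁻¹` -/

theorem redN_inv_fst {t : ↥(Fbar (M' * p))} (ht : t ∈ GN M' p A) (hti : t⁻¹ ∈ GN M' p A)
    (ht0 : t ≠ 0) : (redN M' p A ⟨t⁻¹, hti⟩).1 = ((redN M' p A ⟨t, ht⟩).1)⁻¹ := by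
  have e : (⟨t⁻¹, hti⟩ : ↥(GN M' p A)) * ⟨t, ht⟩ = 1 := Subtype.ext (inv_mul_cancel₀ ht0)
  have h := congrArg (fun z => (redN M' p A z).1) e
  simp only [map_mul, map_one, Prod.fst_mul, Prod.fst_one] at h
  exact eq_inv_of_mul_eq_one_left h

theorem redN_inv_snd {t : ↥(Fbar (M' * p))} (ht : t ∈ GN M' p A) (hti : t⁻¹ ∈ GN M' p A)
    (ht0 : t ≠ 0) : (redN M' p A ⟨t⁻¹, hti⟩).2 = ((redN M' p A ⟨t, ht⟩).2)⁻¹ := by
  have e : (⟨t⁻¹, hti⟩ : ↥(GN M' p A)) * ⟨t, ht⟩ = 1 := Subtype.ext (inv_mul_cancel₀ ht0)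
  have h := congrArg (fun z => (redN M' p A z).2) e
  simp only [map_mul, map_one, Prod.snd_mul, Prod.snd_one] at h
  exact eq_inv_of_mul_eq_one_left h

/-- the inverse of a non-constant function is not a constant. -/
theorem nonconst_inv {φ : Ft M' A} (h : ∀ z : kA A, φ ≠ algebraMap (kA A) (Ft M' A) z)
    (z : kA A) : φ⁻¹ ≠ algebraMap (kA A) (Ft M' A) z := by
  intro e
  apply h z⁻¹
  rw [map_inv₀, ← e, inv_inv]

end Fermat.Agent.ES.W33.TauUnitN21
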