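/-
Programme W (S33 by hand, route `S33_ROUTE8.md`), chapter (B3′), THE PER-POINT ASSEMBLY, helper21:
**helper23's package `GoodPts23.PtPkg I₀ Q̄` at a point of component 1 / 2 from ONE disc package
`DiscPkgN21.DiscPkg` on a localised chart**, at the function-level objects of `NodalDefs3`
(`O1, rho1, O2, rho2, GN, redN`; unchanged between v1 and v2, independent of the reduction map of
places `I₀.r`).

Inputs at a point `Q` of component `j`:
* `hI : InstCompat I₀` — `I₀.G = GN`, `I₀.red = redN` (cast-free: `Iff.rfl` / `rfl` at any instance built on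
  `NodalDefs3`), and the two literals `const_mem`, `red_const` of `RedCtxN` (= `ScaleN1`);
* `D : DiscPkg hxt hfin I₀.r (Sum.inl (Sum.inl Q)) Q` (resp. `Sum.inr`) — chart, centre, helper22's block,
  `Good`;
* `hBG : D.S.B ≤ O_j`, `hredG : rho_j b = D.S.red b` — the chart lies in the Gauss valuation ring of its
  component, with the right reduction;
* `ht : D.S.s ∈ GN`, `h1`, `h2` — the coordinate function of the chart is integral for BOTH Gauss
  valuations and NEITHER of its two reductions is a constant (leaf 5 `tr₁/tr₂`, w49);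
* `fix` — the coordinate is fixed by some `Γ_f` (coordinate half of `level`).
Output: `ptPkg₁ … : PtPkg I₀ (Sum.inl Q)`, `ptPkg₂ … : PtPkg I₀ (Sum.inr Q)` with
`coord = D.S.s - c` (`ptPkg₁_coord`, `ptPkg₂_coord`).
-/
import Mathlib
import Fermat.Agent.ES.W33.GoodPtsOne23
import Fermat.Agent.ES.W33.DiscPkgN21
import Fermat.Agent.ES.W33.TauUnitN21

set_option autoImplicit false
set_option linter.unusedSectionVars false
set_option linter.style.haveILetI false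
set_option synthInstance.maxHeartbeats 400000

noncomputable section

open AlgebraicCurve ModularCurve

namespace Fermat.Agent.ES.W33.PtPkgOfDiscN21

open Fermat.Agent.X0 Fermat.Agent.X0.FF Fermat.Agent.RED.Interface4
  Fermat.Agent.ES.RED.PlaceValue13 Fermat.Agent.ES.RED.Contract8 Fermat.Agent.ES.RED.ModelInst4
  Fermat.Agent.ES.RED.R2Abstract14
  Fermat.Agent.ES.V19.GaussFrac15 Fermat.Agent.ES.V19.InstNames3
  Fermat.Agent.ES.V19.GammaF16 Fermat.Agent.ES.V19.XiEqvInst29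
  Fermat.Agent.ES.W33.ContractP3 Fermat.Agent.ES.W33.DiscChartP22 Fermat.Agent.ES.W33.DiscExitP22
  Fermat.Agent.ES.W33.XiIfaceN29 Fermat.Agent.ES.W33.DensityInstN21 Fermat.Agent.ES.W33.GeoNames23
  Fermat.Agent.ES.W33.NodalDefs3 Fermat.Agent.ES.W33.LocExpOneN21 Fermat.Agent.ES.W33.LocExpInstN21
  Fermat.Agent.ES.W33.DiscPkgN21 Fermat.Agent.ES.W33.TauUnitN21
  Fermat.Agent.ES.W33.GoodPts23 Fermat.Agent.ES.W33.GoodPtsOne23

attribute [local instance 5000] HahnSeries.powerSeriesAlgebra SubalgebraClass.toAlgebra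

/-! ### the one-component datum for an arbitrary pair `(G₁, gred)` -/

section Generic

variable {L : Type*} [Field L] [IsAlgClosed L] {A : ValuationSubring L}
variable {F : Type*} [Field F] [Algebra L F] {x : F} {hx : IsGen L x}
variable {Ft : Type*} [Field Ft] [Algebra (kA A) Ft]
variable [IsAlgClosed (kA A)] {xt : Ft}
variable {hxt : IsGen (kA A) xt} {hfin : FinDiv L F} {β : Type*} {r : Place L F → β} {b₀ : β}
  {Q : Place (kA A) Ft}

/-- **the one-component datum of a disc package for ANY `(G₁, gred)` extending the chart in which the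
chart functions of nonzero reduction are units** ((Db) is `DiscExitP22.db` restricted along
`G₁ ≤ gaussInt G₁ gred`). -/
def locExp1Of (D : DiscPkg (A := A) (hx := hx) hxt hfin r b₀ Q) (G₁ : Subring F) (gred : ↥G₁ →+* Ft)
    (hBG : D.S.B ≤ G₁)
    (hredG : ∀ (b : F) (hb : b ∈ D.S.B), gred ⟨b, hBG hb⟩ = D.S.red ⟨b, hb⟩)
    (hinv : ∀ d : ↥D.S.B, D.S.red d ≠ 0 → ((d : F))⁻¹ ∈ G₁) :
    LocExp1 (A := A) G₁ gred (fun P => r P = b₀) (resA A) Q :=
  locExp1 hxt Q D.hdisc D.hR1 D.hpeel hfin D.hR2 D.zero hBG hredG hinv D.good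
    (fun f hf hreg =>
      db hxt D.S r b₀ Q D.hdisc D.hR1 D.hpeel hfin D.hR2 G₁ gred hBG hredG f
        (le_gaussInt G₁ gred hf) hreg)

@[simp] theorem coe_locExp1Of_τ (D : DiscPkg (A := A) (hx := hx) hxt hfin r b₀ Q) (G₁ : Subring F)
    (gred : ↥G₁ →+* Ft) (hBG : D.S.B ≤ G₁)
    (hredG : ∀ (b : F) (hb : b ∈ D.S.B), gred ⟨b, hBG hb⟩ = D.S.red ⟨b, hb⟩)
    (hinv : ∀ d : ↥D.S.B, D.S.red d ≠ 0 → ((d : F))⁻¹ ∈ G₁) :
    (((locExp1Of D G₁ gred hBG hredG hinv).τ : ↥(locExp1Of D G₁ gred hBG hredG hinv).CQ) : F) =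
      D.coord := rfl

end Generic

/-! ### the package at the instance -/

variable {M' : ℕ} [NeZero M'] {p : ℕ} [Fact p.Prime] {A : ValuationSubring Qbar}

/-- **`I₀` is built on the function-level objects of `NodalDefs3`** (cast-free), with the two
constant literals of `RedCtxN`. -/
structure InstCompat (I₀ : NodalInst p M' A) : Prop where
  hG : ∀ f : ↥(Fbar (M' * p)), f ∈ I₀.G ↔ f ∈ GN M' p A
  hred : ∀ (f : ↥(Fbar (M' * p))) (h : f ∈ I₀.G) (h' : f ∈ GN M' p A),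
    I₀.red ⟨f, h⟩ = redN M' p A ⟨f, h'⟩
  const_mem : ∀ a : ↥A, algebraMap Qbar ↥(Fbar (M' * p)) (a : Qbar) ∈ GN M' p A
  red_const : ∀ a : ↥A, redN M' p A ⟨algebraMap Qbar ↥(Fbar (M' * p)) (a : Qbar), const_mem a⟩ =
    (algebraMap (kA A) (Ft M' A) (resA A a), algebraMap (kA A) (Ft M' A) (resA A a))

variable {I₀ : NodalInst p M' A} [IsAlgClosed (kA A)]
variable {x : ↥(Fbar (M' * p))} {hx : IsGen Qbar x} {xt : Ft M' A} {hxt : IsGen (kA A) xt}
  {hfin : FinDiv Qbar ↥(Fbar (M' * p))}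

/-- **the package at a point of component 1.** -/
def ptPkg₁ (hI : InstCompat I₀) {Q : Place (kA A) (Ft M' A)}
    (D : DiscPkg (A := A) (hx := hx) hxt hfin I₀.r (Sum.inl (Sum.inl Q)) Q)
    (hBG : D.S.B ≤ O1 M' p A)
    (hredG : ∀ (b : ↥(Fbar (M' * p))) (hb : b ∈ D.S.B),
      rho1 M' p A ⟨b, hBG hb⟩ = D.S.red ⟨b, hb⟩)
    (ht : D.S.s ∈ GN M' p A)
    (h1 : ∀ z : kA A, (redN M' p A ⟨D.S.s, ht⟩).1 ≠ algebraMap (kA A) (Ft M' A) z)
    (h2 : ∀ z : kA A, (redN M' p A ⟨D.S.s, ht⟩).2 ≠ algebraMap (kA A) (Ft M' A) z)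
    (fix : ∃ f₀ : ℕ, 0 < f₀ ∧ ∀ σ : ↥(gammaF A p f₀),
      rho (A := A) (M := M' * p) p f₀ σ • D.coord = D.coord) :
    PtPkg I₀ (Sum.inl Q) :=
  ofOne₁ (I₀ := I₀)
    (locExp1Of D (O1 M' p A) (rho1 M' p A) hBG hredG
      (fun d hd => inv_mem_O1 M' p A (hBG d.2) (by rw [hredG _ d.2]; exact hd)))
    (fun f hf => GN_le_O1 M' p A ((hI.hG f).1 hf))
    (fun g => by rw [hI.hred (g : ↥(Fbar (M' * p))) g.2 ((hI.hG _).1 g.2), redN_fst])
    (fun a => (hI.hG _).2 (hI.const_mem a))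
    ((hI.hG _).2 (coord_mem_of M' p A hI.const_mem ht D.c))
    D.val_mem D.da'
    (fun s _ => (hI.hG _).2 (tau_unit_of M' p A hI.const_mem hI.red_const ht h1 h2 D.c s))
    fix

@[simp] theorem ptPkg₁_coord (hI : InstCompat I₀) {Q : Place (kA A) (Ft M' A)}
    (D : DiscPkg (A := A) (hx := hx) hxt hfin I₀.r (Sum.inl (Sum.inl Q)) Q)
    (hBG : D.S.B ≤ O1 M' p A)
    (hredG : ∀ (b : ↥(Fbar (M' * p))) (hb : b ∈ D.S.B),
      rho1 M' p A ⟨b, hBG hb⟩ = D.S.red ⟨b, hb⟩)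
    (ht : D.S.s ∈ GN M' p A)
    (h1 : ∀ z : kA A, (redN M' p A ⟨D.S.s, ht⟩).1 ≠ algebraMap (kA A) (Ft M' A) z)
    (h2 : ∀ z : kA A, (redN M' p A ⟨D.S.s, ht⟩).2 ≠ algebraMap (kA A) (Ft M' A) z)
    (fix : ∃ f₀ : ℕ, 0 < f₀ ∧ ∀ σ : ↥(gammaF A p f₀),
      rho (A := A) (M := M' * p) p f₀ σ • D.coord = D.coord) :
    (ptPkg₁ hI D hBG hredG ht h1 h2 fix).coord = D.coord := rfl

/-- **the package at a point of component 2.** -/
def ptPkg₂ (hI : InstCompat I₀) {Q : Place (kA A) (Ft M' A)}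
    (D : DiscPkg (A := A) (hx := hx) hxt hfin I₀.r (Sum.inl (Sum.inr Q)) Q)
    (hBG : D.S.B ≤ O2 M' p A)
    (hredG : ∀ (b : ↥(Fbar (M' * p))) (hb : b ∈ D.S.B),
      rho2 M' p A ⟨b, hBG hb⟩ = D.S.red ⟨b, hb⟩)
    (ht : D.S.s ∈ GN M' p A)
    (h1 : ∀ z : kA A, (redN M' p A ⟨D.S.s, ht⟩).1 ≠ algebraMap (kA A) (Ft M' A) z)
    (h2 : ∀ z : kA A, (redN M' p A ⟨D.S.s, ht⟩).2 ≠ algebraMap (kA A) (Ft M' A) z)
    (fix : ∃ f₀ : ℕ, 0 < f₀ ∧ ∀ σ : ↥(gammaF A p f₀),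
      rho (A := A) (M := M' * p) p f₀ σ • D.coord = D.coord) :
    PtPkg I₀ (Sum.inr Q) :=
  ofOne₂ (I₀ := I₀)
    (locExp1Of D (O2 M' p A) (rho2 M' p A) hBG hredG
      (fun d hd => inv_mem_O2 M' p A (hBG d.2) (by rw [hredG _ d.2]; exact hd)))
    (fun f hf => GN_le_O2 M' p A ((hI.hG f).1 hf))
    (fun g => by rw [hI.hred (g : ↥(Fbar (M' * p))) g.2 ((hI.hG _).1 g.2), redN_snd])
    (fun a => (hI.hG _).2 (hI.const_mem a))
    ((hI.hG _).2 (coord_mem_of M' p A hI.const_mem ht D.c))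
    D.val_mem D.da'
    (fun s _ => (hI.hG _).2 (tau_unit_of M' p A hI.const_mem hI.red_const ht h1 h2 D.c s))
    fix

@[simp] theorem ptPkg₂_coord (hI : InstCompat I₀) {Q : Place (kA A) (Ft M' A)}
    (D : DiscPkg (A := A) (hx := hx) hxt hfin I₀.r (Sum.inl (Sum.inr Q)) Q)
    (hBG : D.S.B ≤ O2 M' p A)
    (hredG : ∀ (b : ↥(Fbar (M' * p))) (hb : b ∈ D.S.B),
      rho2 M' p A ⟨b, hBG hb⟩ = D.S.red ⟨b, hb⟩)
    (ht : D.S.s ∈ GN M' p A)
    (h1 : ∀ z : kA A, (redN M' p A ⟨D.S.s, ht⟩).1 ≠ algebraMap (kA A) (Ft M' A) z)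
    (h2 : ∀ z : kA A, (redN M' p A ⟨D.S.s, ht⟩).2 ≠ algebraMap (kA A) (Ft M' A) z)
    (fix : ∃ f₀ : ℕ, 0 < f₀ ∧ ∀ σ : ↥(gammaF A p f₀),
      rho (A := A) (M := M' * p) p f₀ σ • D.coord = D.coord) :
    (ptPkg₂ hI D hBG hredG ht h1 h2 fix).coord = D.coord := rfl

end Fermat.Agent.ES.W33.PtPkgOfDiscN21
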