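/-
Programme W (S33), chapter (B3′), leaf (Q5) of ruling w55 — helper9:
**GOOD points are cofinite, WITH TEICHMUELLER CENTRES, and the finiteness input `hfin` of
`GoodPts23.nodalInstHyp_goodInst`.**

JOIN FLAG (F3).  The centre `c` of a disc must be fixed by some `Γ_f` (the field `fix` of
`GoodPts23.PtPkg`, the coordinate half of `NodalInstHyp.level`).  `Γ_f ⊇` inertia, so an ARBITRARY
lift `c ∈ A` of the residue value is NOT fixed by any `Γ_f`: the centre must be the Teichmueller lift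
`teich (c̄)` (as in `V19/BasePointInst11.exists_good_inertia_fixed`, `V19/BasisLevel9`).  `Good S Q c`
only depends on the residue class of `c` (`good_of_resA_eq`), so this costs nothing.

ONE CHART (model-free, `S : ContractP3.ChartSpecP A hx Ft`):
* `red_tauB`, `good_iff` : `Good S Q c ↔ ord_Q (s̃ - c̄) = 1`, `s̃ := S.red S.sB`;
* `good_of_resA_eq` : `Good S Q c` only depends on `resA A c`;
* `finite_not_good` : for a separating transcendental generator `xt'` of the special fibre, all but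
  finitely many `Q` have `ord_Q (xt' - y) = 1` for some `y` (main's `V19/GoodCofinite16`).
TEICHMUELLER CENTRES (`A ≤ ℚ̄` over `p`):
* `teichC hp hA y : ↥A`, `resA_teichC`, `exists_level_teichC` (`Γ_f` fixes it, `f ≫ 0`);
* `good_teichC` : `ord_Q (s̃ - y) = 1 → Good S Q (teichC y)`;
* `fix_of` : (`Γ_{f₁}` fixes `S.s`) ⇒ (some `Γ_f` fixes `S.s - teichC y`) — the literal `PtPkg.fix`.
THE INSTANCE:
* `discPkg C y h`, `nonempty_ptPkg₁`, `nonempty_ptPkg₂` : the package `GoodPts23.PtPkg I₀ (inl Q)` /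
  `(inr Q)` at a point `Q` with `ord_Q (xt_j - y) = 1` from ONE chart through the disc of `Q`
  (`ChartAt₁` / `ChartAt₂`: a `ChartSpecP` with `S.red S.sB = xt_j`, helper22's block
  `hdisc, hR1, hpeel, hR2`, `S.B ≤ O_j`, `rho_j | S.B = S.red`, `S.s ∈ GN` with both reductions
  non-constant, `S.s` fixed by some `Γ_f`) — through helper21's `PtPkgOfDiscN21.ptPkg₁/ptPkg₂`;
* `finite_sum` ; **`hfin_of_charts`** : `{Q | IsEmpty (PtPkg I₀ Q)}.Finite` as soon as, on each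
  component `j`, all `Q` outside a finite set `E_j` carry such a chart.
-/
import Mathlib
import Fermat.Agent.ES.W33.PtPkgOfDiscN21
import Fermat.Agent.ES.V19.GoodCofinite16
import Fermat.Agent.ES.V19.Teich16

set_option autoImplicit false
set_option linter.unusedSectionVars false
set_option linter.style.haveILetI false
set_option synthInstance.maxHeartbeats 400000

noncomputable section

open AlgebraicCurve ModularCurve IntermediateField

namespace Fermat.Agent.ES.W33.GoodCofiniteN9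

open Fermat.Agent.X0 Fermat.Agent.X0.FF Fermat.Agent.RED.Interface4
  Fermat.Agent.ES.RED.PlaceValue13 Fermat.Agent.ES.RED.Contract8 Fermat.Agent.ES.RED.ModelInst4
  Fermat.Agent.ES.RED.R2Abstract14
  Fermat.Agent.ES.V19.InstNames3 Fermat.Agent.ES.V19.GammaF16 Fermat.Agent.ES.V19.XiEqvInst29
  Fermat.Agent.ES.V19.TraceDescent26
  Fermat.Agent.ES.W33.ContractP3 Fermat.Agent.ES.W33.DiscExitP22
  Fermat.Agent.ES.W33.GeoNames23 Fermat.Agent.ES.W33.NodalDefs3
  Fermat.Agent.ES.W33.DiscPkgN21 Fermat.Agent.ES.W33.GoodPts23 Fermat.Agent.ES.W33.PtPkgOfDiscN21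

attribute [local instance 5000] HahnSeries.powerSeriesAlgebra SubalgebraClass.toAlgebra

/-! ### one chart, model-free -/

section OneChart

variable {L : Type*} [Field L] [IsAlgClosed L] {A : ValuationSubring L}
variable {F : Type*} [Field F] [Algebra L F] {x : F} {hx : IsGen L x}
variable {Ft : Type*} [Field Ft] [Algebra (kA A) Ft]
variable (S : ChartSpecP A hx Ft)

/-- the reduction of `τ = s - c`. -/
theorem red_tauB (c : ↥A) :
    S.red (tauB S c) = S.red S.sB - algebraMap (kA A) Ft (resA A c) := by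
  show S.red (S.sB - S.const c) = _
  rw [map_sub, ChartSpecP.red_const']

/-- `Good S Q c` says that `s̃ - c̄` has a simple zero at `Q`. -/
theorem good_iff (Q : Place (kA A) Ft) (c : ↥A) :
    Good S Q c ↔ Q.ord (S.red S.sB - algebraMap (kA A) Ft (resA A c)) = 1 := by
  show Q.ord (S.red (tauB S c)) = 1 ↔ _
  rw [red_tauB]

/-- `Good S Q c` only depends on the residue class of `c`. -/
theorem good_of_resA_eq {Q : Place (kA A) Ft} {c c' : ↥A} (h : resA A c' = resA A c)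
    (hc : Good S Q c) : Good S Q c' := by
  rw [good_iff] at hc ⊢
  rw [h]
  exact hc

/-- **All but finitely many places of the special fibre are GOOD** for a separating transcendental
generator `xt'` (`ord_Q (xt' - y) = 1` for some constant `y`). -/
theorem finite_not_good [IsAlgClosed (kA A)] {xt' : Ft} (hgent : IsGen (kA A) xt')
    (hsep : Algebra.IsSeparable (kA A)⟮xt'⟯ Ft) :
    {Q : Place (kA A) Ft | ¬ ∃ y : kA A, Q.ord (xt' - algebraMap (kA A) Ft y) = 1}.Finite :=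
  Fermat.Agent.ES.V19.GoodCofinite16.finite_not_good hgent hsep

/-- a property which holds at the good points outside a finite set fails at finitely many points
only. -/
theorem finite_not_of_good [IsAlgClosed (kA A)] {xt' : Ft} (hgent : IsGen (kA A) xt')
    (hsep : Algebra.IsSeparable (kA A)⟮xt'⟯ Ft) (Pk : Place (kA A) Ft → Prop)
    {E : Set (Place (kA A) Ft)} (hE : E.Finite)
    (h : ∀ Q, Q ∉ E → ∀ y : kA A, Q.ord (xt' - algebraMap (kA A) Ft y) = 1 → Pk Q) :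
    {Q : Place (kA A) Ft | ¬ Pk Q}.Finite := by
  refine ((finite_not_good hgent hsep).union hE).subset fun Q hQ => ?_
  by_contra hcon
  rw [Set.mem_union, not_or] at hcon
  obtain ⟨y, hy⟩ := not_not.mp hcon.1
  exact hQ (h Q hcon.2 y hy)

end OneChart

/-! ### Teichmueller centres -/

section Teich

variable {A : ValuationSubring Qbar} {p : ℕ} (hp : p.Prime) (hA : A.LiesOverPrime p)

/-- the Teichmueller lift as an element of `A`. -/
def teichC (y : kA A) : ↥A :=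
  ⟨Fermat.Agent.ES.V19.Teich16.teich hp hA y, Fermat.Agent.ES.V19.Teich16.teich_mem hp hA y⟩

theorem resA_teichC (y : kA A) : resA A (teichC hp hA y) = y :=
  Fermat.Agent.ES.V19.Teich16.residue_teich hp hA y

/-- the Teichmueller lift is fixed by `Γ_f` for `f ≫ 0`. -/
theorem exists_level_teichC (y : kA A) :
    ∃ f : ℕ, 0 < f ∧ ∀ σ ∈ gammaF A p f, σ ((teichC hp hA y : ↥A) : Qbar) = (teichC hp hA y : ↥A) := by
  obtain ⟨f, hf, hy⟩ := Fermat.Agent.ES.V19.Teich16.exists_pow_card_eq hp hA y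
  exact ⟨f, hf, (Fermat.Agent.ES.V19.Teich16.teich_mem_fixRing hp hA hf hy).2⟩

variable {F : Type*} [Field F] [Algebra Qbar F] {x : F} {hx : IsGen Qbar x}
variable {Ft : Type*} [Field Ft] [Algebra (kA A) Ft] (S : ChartSpecP A hx Ft)

/-- a place at which `s̃ - y` has a simple zero is GOOD with the Teichmueller centre of `y`. -/
theorem good_teichC (Q : Place (kA A) Ft) (y : kA A)
    (h : Q.ord (S.red S.sB - algebraMap (kA A) Ft y) = 1) : Good S Q (teichC hp hA y) := by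
  rw [good_iff, resA_teichC]
  exact h

end Teich

/-! ### the instance -/

section Inst

variable {M' : ℕ} [NeZero M'] {p : ℕ} [Fact p.Prime] {A : ValuationSubring Qbar}

/-- **the coordinate half of `level`**: if `Γ_{f₁}` fixes the chart coordinate `s`, some `Γ_f` fixes
`s - teich y`. -/
theorem fix_of (hp : p.Prime) (hA : A.LiesOverPrime p) (s : ↥(Fbar (M' * p)))
    (hs : ∃ f₁ : ℕ, 0 < f₁ ∧ ∀ σ : ↥(gammaF A p f₁),
      rho (A := A) (M := M' * p) p f₁ σ • s = s) (y : kA A) :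
    ∃ f₀ : ℕ, 0 < f₀ ∧ ∀ σ : ↥(gammaF A p f₀),
      rho (A := A) (M := M' * p) p f₀ σ •
        (s - algebraMap Qbar ↥(Fbar (M' * p)) ((teichC hp hA y : ↥A) : Qbar)) =
        s - algebraMap Qbar ↥(Fbar (M' * p)) ((teichC hp hA y : ↥A) : Qbar) := by
  obtain ⟨f₁, hf₁, h₁⟩ := hs
  obtain ⟨f₂, hf₂, h₂⟩ := exists_level_teichC hp hA y
  refine ⟨f₁ * f₂, Nat.mul_pos hf₁ hf₂, fun σ => ?_⟩
  have hle₁ : gammaF A p (f₁ * f₂) ≤ gammaF A p f₁ := gammaF_anti (Dvd.intro _ rfl)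
  have hle₂ : gammaF A p (f₁ * f₂) ≤ gammaF A p f₂ := gammaF_anti (Dvd.intro_left _ rfl)
  have e₁ : rho (A := A) (M := M' * p) p (f₁ * f₂) σ • s = s :=
    h₁ ⟨(σ : Qbar ≃ₐ[ℚ] Qbar), hle₁ σ.2⟩
  rw [smul_sub, e₁]
  congr 1
  show arithmeticGalois (modularFunctionFieldFull (M' * p)) (σ : Qbar ≃ₐ[ℚ] Qbar) •
      algebraMap Qbar ↥(Fbar (M' * p)) ((teichC hp hA y : ↥A) : Qbar) = _
  rw [SemilinearAut.smul_algebraMap]
  congr 1
  exact h₂ _ (hle₂ σ.2)

variable [IsAlgClosed (kA A)]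
variable {x : ↥(Fbar (M' * p))} {hx : IsGen Qbar x} {xt : Ft M' A}

/-- **a chart of component 1 through the disc of `Q`**: everything `PtPkgOfDiscN21.ptPkg₁` asks,
except the centre. `xt₁` is the reduction of the chart coordinate. -/
structure ChartAt₁ (I₀ : NodalInst p M' A) (hx : IsGen Qbar x) (hxt : IsGen (kA A) xt)
    (hfin : FinDiv Qbar ↥(Fbar (M' * p))) (xt₁ : Ft M' A) (Q : Place (kA A) (Ft M' A)) where
  /-- the (localised) chart -/
  S : ChartSpecP A hx (Ft M' A)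
  red_s : S.red S.sB = xt₁
  hdisc : ∀ P, I₀.r P = Sum.inl (Sum.inl Q) → S.InChart P
  hR1 : ∀ (P : Place Qbar ↥(Fbar (M' * p))) (hP : S.InChart P), I₀.r P = Sum.inl (Sum.inl Q) →
    ∀ b : ↥S.B, ∃ hmem : S.red b ∈ Q.toValuationSubring,
      valueHom hxt Q ⟨S.red b, hmem⟩ = S.chi P hP b
  hpeel : ∀ (P : Place Qbar ↥(Fbar (M' * p))) (hP : S.InChart P),
    I₀.r P = Sum.inl (Sum.inl Q) → S.PeelA P hP
  hR2 : ∀ b : ↥S.B, S.red b ≠ 0 →
    push hfin I₀.r (b : ↥(Fbar (M' * p))) (Sum.inl (Sum.inl Q)) = Q.ord (S.red b)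
  hBG : S.B ≤ O1 M' p A
  hredG : ∀ (b : ↥(Fbar (M' * p))) (hb : b ∈ S.B), rho1 M' p A ⟨b, hBG hb⟩ = S.red ⟨b, hb⟩
  ht : S.s ∈ GN M' p A
  h1 : ∀ z : kA A, (redN M' p A ⟨S.s, ht⟩).1 ≠ algebraMap (kA A) (Ft M' A) z
  h2 : ∀ z : kA A, (redN M' p A ⟨S.s, ht⟩).2 ≠ algebraMap (kA A) (Ft M' A) z
  fix_s : ∃ f₁ : ℕ, 0 < f₁ ∧ ∀ σ : ↥(gammaF A p f₁),
    rho (A := A) (M := M' * p) p f₁ σ • S.s = S.s

/-- **a chart of component 2 through the disc of `Q`** (JOIN FLAG F1: its coordinate is `yN^{±1}`). -/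
structure ChartAt₂ (I₀ : NodalInst p M' A) (hx : IsGen Qbar x) (hxt : IsGen (kA A) xt)
    (hfin : FinDiv Qbar ↥(Fbar (M' * p))) (xt₂ : Ft M' A) (Q : Place (kA A) (Ft M' A)) where
  /-- the (localised) chart -/
  S : ChartSpecP A hx (Ft M' A)
  red_s : S.red S.sB = xt₂
  hdisc : ∀ P, I₀.r P = Sum.inl (Sum.inr Q) → S.InChart P
  hR1 : ∀ (P : Place Qbar ↥(Fbar (M' * p))) (hP : S.InChart P), I₀.r P = Sum.inl (Sum.inr Q) →
    ∀ b : ↥S.B, ∃ hmem : S.red b ∈ Q.toValuationSubring,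
      valueHom hxt Q ⟨S.red b, hmem⟩ = S.chi P hP b
  hpeel : ∀ (P : Place Qbar ↥(Fbar (M' * p))) (hP : S.InChart P),
    I₀.r P = Sum.inl (Sum.inr Q) → S.PeelA P hP
  hR2 : ∀ b : ↥S.B, S.red b ≠ 0 →
    push hfin I₀.r (b : ↥(Fbar (M' * p))) (Sum.inl (Sum.inr Q)) = Q.ord (S.red b)
  hBG : S.B ≤ O2 M' p A
  hredG : ∀ (b : ↥(Fbar (M' * p))) (hb : b ∈ S.B), rho2 M' p A ⟨b, hBG hb⟩ = S.red ⟨b, hb⟩
  ht : S.s ∈ GN M' p A
  h1 : ∀ z : kA A, (redN M' p A ⟨S.s, ht⟩).1 ≠ algebraMap (kA A) (Ft M' A) z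
  h2 : ∀ z : kA A, (redN M' p A ⟨S.s, ht⟩).2 ≠ algebraMap (kA A) (Ft M' A) z
  fix_s : ∃ f₁ : ℕ, 0 < f₁ ∧ ∀ σ : ↥(gammaF A p f₁),
    rho (A := A) (M := M' * p) p f₁ σ • S.s = S.s

variable {I₀ : NodalInst p M' A} {hxt : IsGen (kA A) xt} {hfin : FinDiv Qbar ↥(Fbar (M' * p))}

/-- **the package at a point of component 1** with `ord_Q (xt₁ - y) = 1`, centre `teich y`. -/
theorem nonempty_ptPkg₁ (hI : InstCompat I₀) (hp : p.Prime) (hA : A.LiesOverPrime p)
    {xt₁ : Ft M' A} {Q : Place (kA A) (Ft M' A)} (C : ChartAt₁ I₀ hx hxt hfin xt₁ Q) (y : kA A)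
    (h : Q.ord (xt₁ - algebraMap (kA A) (Ft M' A) y) = 1) : Nonempty (PtPkg I₀ (Sum.inl Q)) := by
  have hgood : Good C.S Q (teichC hp hA y) := good_teichC hp hA C.S Q y (by rw [C.red_s]; exact h)
  let D : DiscPkg (A := A) (hx := hx) hxt hfin I₀.r (Sum.inl (Sum.inl Q)) Q :=
    ⟨C.S, teichC hp hA y, C.hdisc, C.hR1, C.hpeel, C.hR2, hgood⟩
  exact ⟨ptPkg₁ hI D C.hBG C.hredG C.ht C.h1 C.h2 (fix_of hp hA C.S.s C.fix_s y)⟩

/-- **the package at a point of component 2** with `ord_Q (xt₂ - y) = 1`, centre `teich y`. -/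
theorem nonempty_ptPkg₂ (hI : InstCompat I₀) (hp : p.Prime) (hA : A.LiesOverPrime p)
    {xt₂ : Ft M' A} {Q : Place (kA A) (Ft M' A)} (C : ChartAt₂ I₀ hx hxt hfin xt₂ Q) (y : kA A)
    (h : Q.ord (xt₂ - algebraMap (kA A) (Ft M' A) y) = 1) : Nonempty (PtPkg I₀ (Sum.inr Q)) := by
  have hgood : Good C.S Q (teichC hp hA y) := good_teichC hp hA C.S Q y (by rw [C.red_s]; exact h)
  let D : DiscPkg (A := A) (hx := hx) hxt hfin I₀.r (Sum.inl (Sum.inr Q)) Q :=
    ⟨C.S, teichC hp hA y, C.hdisc, C.hR1, C.hpeel, C.hR2, hgood⟩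
  exact ⟨ptPkg₂ hI D C.hBG C.hredG C.ht C.h1 C.h2 (fix_of hp hA C.S.s C.fix_s y)⟩

/-- finiteness on a sum, component by component. -/
theorem finite_sum {α β : Type*} (Pk : α ⊕ β → Prop) (h₁ : {a : α | Pk (Sum.inl a)}.Finite)
    (h₂ : {b : β | Pk (Sum.inr b)}.Finite) : {q : α ⊕ β | Pk q}.Finite := by
  refine ((h₁.image Sum.inl).union (h₂.image Sum.inr)).subset ?_
  rintro (a | b) hq
  · exact Or.inl ⟨a, hq, rfl⟩
  · exact Or.inr ⟨b, hq, rfl⟩

/-- **(Q5): the finiteness input `hfin` of `GoodPts23.nodalInstHyp_goodInst`.**  On each component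
`j`, `xt_j` is a separating transcendental generator of the special fibre (`t̃` on component 1,
`ρ₂(yN)` on component 2) and every `Q` outside a finite set `E_j` carries a chart with coordinate
reducing to `xt_j`. -/
theorem hfin_of_charts (hI : InstCompat I₀) (hp : p.Prime) (hA : A.LiesOverPrime p)
    {xt₁ xt₂ : Ft M' A} (hg₁ : IsGen (kA A) xt₁)
    (hs₁ : Algebra.IsSeparable (kA A)⟮xt₁⟯ (Ft M' A)) (hg₂ : IsGen (kA A) xt₂)
    (hs₂ : Algebra.IsSeparable (kA A)⟮xt₂⟯ (Ft M' A))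
    {E₁ E₂ : Set (Place (kA A) (Ft M' A))} (hE₁ : E₁.Finite) (hE₂ : E₂.Finite)
    (hC₁ : ∀ Q, Q ∉ E₁ → Nonempty (ChartAt₁ I₀ hx hxt hfin xt₁ Q))
    (hC₂ : ∀ Q, Q ∉ E₂ → Nonempty (ChartAt₂ I₀ hx hxt hfin xt₂ Q)) :
    {Q : SPtW M' A | IsEmpty (PtPkg I₀ Q)}.Finite := by
  refine finite_sum (fun Q => IsEmpty (PtPkg I₀ Q)) ?_ ?_
  · have := finite_not_of_good hg₁ hs₁ (fun Q => Nonempty (PtPkg I₀ (Sum.inl Q))) hE₁
      (fun Q hQ y hy => nonempty_ptPkg₁ hI hp hA (hC₁ Q hQ).some y hy)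
    refine this.subset fun Q hQ => ?_
    exact not_nonempty_iff.2 hQ
  · have := finite_not_of_good hg₂ hs₂ (fun Q => Nonempty (PtPkg I₀ (Sum.inr Q))) hE₂
      (fun Q hQ y hy => nonempty_ptPkg₂ hI hp hA (hC₂ Q hQ).some y hy)
    refine this.subset fun Q hQ => ?_
    exact not_nonempty_iff.2 hQ

end Inst

end Fermat.Agent.ES.W33.GoodCofiniteN9
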