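/-
Programme W (S33), chapter (B3′), leaf (Q5) of ruling w55/w63, the instance inputs — helper9:
**the two separating generators `xt₁ = t̃`, `xt₂ = wBar t̃` of the special fibre, and `hfin` at the
instance.**

GENERIC (any field extension `F / K`, `σ : F ≃ₐ[K] F`):
* `map_adjoin_simple`, `adjoinEquivMap σ x : K⟮x⟯ ≃ₐ[K] K⟮σ x⟯`;
* `isSeparable_map`, `finiteDimensional_map`, `isGen_map` : `x` a (separating) transcendental
  generator ⇒ so is `σ x`.
INSTANCE (good level `M'`, `p ∤ M'`, main's names of `V19/InstNames3`):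
* `isGen_tRes`, `isSeparable_tRes` : `t̃ = tResV …` is a separating transcendental generator of
  `Ft M' A / k̄` (main's `hxtV`, `inputs0V.sep`, `red_sB_V`);
* `isGen_wBar`, `isSeparable_wBar` : the same for `w t̃`, `w` ANY `k̄`-automorphism of `Ft M' A`
  (instance: helper25's `wBar`, the reduction of the Fricke involution at the good level, w49);
* **`hfin_inst`** : `GoodCofiniteN9.hfin_of_charts` at `xt₁ := t̃`, `xt₂ := w t̃`: the input `hfin` of
  `GoodPts23.nodalInstHyp_goodInst` from the two chart families ALONE.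
-/
import Mathlib
import Fermat.Agent.ES.W33.GoodCofiniteN9
import Fermat.Agent.ES.V19.InstNames3

set_option autoImplicit false
set_option linter.unusedSectionVars false
set_option linter.style.haveILetI false
set_option synthInstance.maxHeartbeats 400000

noncomputable section

open AlgebraicCurve ModularCurve IntermediateField

namespace Fermat.Agent.ES.W33.GoodGenN9

open Fermat.Agent.X0 Fermat.Agent.X0.FF Fermat.Agent.RED.Interface4
  Fermat.Agent.RED.BASE.Interface12 Fermat.Agent.RED.BASE.Hauptmodul12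
  Fermat.Agent.ES.RED.PlaceValue13 Fermat.Agent.ES.RED.Contract8 Fermat.Agent.ES.RED.ModelInst4
  Fermat.Agent.ES.RED.R2Abstract14
  Fermat.Agent.ES.V19.InstNames3
  Fermat.Agent.ES.W33.GeoNames23 Fermat.Agent.ES.W33.GoodPts23 Fermat.Agent.ES.W33.PtPkgOfDiscN21
  Fermat.Agent.ES.W33.GoodCofiniteN9

attribute [local instance 5000] HahnSeries.powerSeriesAlgebra SubalgebraClass.toAlgebra

/-! ### transport of a separating generator along an automorphism -/

section Generic

variable {K F : Type*} [Field K] [Field F] [Algebra K F]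

/-- the image of `K⟮x⟯` under a `K`-automorphism is `K⟮σ x⟯`. -/
theorem map_adjoin_simple (σ : F ≃ₐ[K] F) (x : F) :
    (K⟮x⟯).map (σ : F →ₐ[K] F) = K⟮σ x⟯ := by
  rw [IntermediateField.adjoin_map, Set.image_singleton]
  rfl

/-- `σ` restricted to `K⟮x⟯ ≃ K⟮σ x⟯`. -/
def adjoinEquivMap (σ : F ≃ₐ[K] F) (x : F) : K⟮x⟯ ≃ₐ[K] K⟮σ x⟯ :=
  ((K⟮x⟯).equivMap (σ : F →ₐ[K] F)).trans (IntermediateField.equivOfEq (map_adjoin_simple σ x))

theorem coe_adjoinEquivMap (σ : F ≃ₐ[K] F) (x : F) (y : K⟮x⟯) :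
    ((adjoinEquivMap σ x y : K⟮σ x⟯) : F) = σ (y : F) := rfl

theorem isSeparable_map (σ : F ≃ₐ[K] F) {x : F} (hs : Algebra.IsSeparable K⟮x⟯ F) :
    Algebra.IsSeparable K⟮σ x⟯ F := by
  refine Algebra.IsSeparable.of_equiv_equiv (adjoinEquivMap σ x).toRingEquiv σ.toRingEquiv ?_
  ext y
  rfl

theorem finiteDimensional_map (σ : F ≃ₐ[K] F) {x : F} (hf : FiniteDimensional K⟮x⟯ F) :
    FiniteDimensional K⟮σ x⟯ F := by
  haveI := hf
  refine Module.Finite.of_equiv_equiv (adjoinEquivMap σ x).toRingEquiv σ.toRingEquiv ?_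
  ext y
  rfl

/-- the image of a transcendental generator under an automorphism is a transcendental generator. -/
theorem isGen_map (σ : F ≃ₐ[K] F) {x : F} (hx : IsGen K x) : IsGen K (σ x) := by
  refine ⟨?_, finiteDimensional_map σ hx.finite⟩
  intro h
  exact hx.transcendental ((isAlgebraic_algHom_iff (σ : F →ₐ[K] F) σ.injective).mp h)

end Generic

/-! ### the instance -/

section Inst

variable (n e M' : ℕ) [NeZero n] [NeZero M'] (p : ℕ) [Fact p.Prime] (hpM : ¬ p ∣ M')
  (hb : BaseHyp n e) (hnM : n ∣ M') (A : ValuationSubring Qbar) (hA : A.LiesOverPrime p)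

/-- `t̃` is a transcendental generator of the special fibre of the good level. -/
theorem isGen_tRes : IsGen (kA A) (tResV n e M' p hpM hb hnM A hA) :=
  hxtV n e M' p hpM hb hnM A hA

/-- `t̃` is a SEPARATING generator. -/
theorem isSeparable_tRes :
    Algebra.IsSeparable (kA A)⟮tResV n e M' p hpM hb hnM A hA⟯ (Ft M' A) := by
  have h := (inputs0V n e M' p hpM hb hnM A hA).sep
  rw [red_sB_V] at h
  exact h

/-- `w t̃` is a transcendental generator, for any `k̄`-automorphism `w` of `Ft M' A`. -/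
theorem isGen_wBar (w : Ft M' A ≃ₐ[kA A] Ft M' A) :
    IsGen (kA A) (w (tResV n e M' p hpM hb hnM A hA)) :=
  isGen_map w (isGen_tRes n e M' p hpM hb hnM A hA)

/-- `w t̃` is a SEPARATING generator. -/
theorem isSeparable_wBar (w : Ft M' A ≃ₐ[kA A] Ft M' A) :
    Algebra.IsSeparable (kA A)⟮w (tResV n e M' p hpM hb hnM A hA)⟯ (Ft M' A) :=
  isSeparable_map w (isSeparable_tRes n e M' p hpM hb hnM A hA)

variable [IsAlgClosed (kA A)]
variable {x : ↥(Fbar (M' * p))} {hx : IsGen Qbar x} {xt : Ft M' A} {hxt : IsGen (kA A) xt}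
  {hfin : FinDiv Qbar ↥(Fbar (M' * p))} {I₀ : NodalInst p M' A}

/-- **`hfin` at the instance**: all but finitely many smooth points of the nodal fibre carry a package,
as soon as all points outside a finite set `E_j` of component `j` carry a chart whose coordinate
reduces to `t̃` (component 1) resp. `w t̃` (component 2). -/
theorem hfin_inst (hI : InstCompat I₀) (w : Ft M' A ≃ₐ[kA A] Ft M' A)
    {E₁ E₂ : Set (Place (kA A) (Ft M' A))} (hE₁ : E₁.Finite) (hE₂ : E₂.Finite)
    (hC₁ : ∀ Q, Q ∉ E₁ →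
      Nonempty (ChartAt₁ I₀ hx hxt hfin (tResV n e M' p hpM hb hnM A hA) Q))
    (hC₂ : ∀ Q, Q ∉ E₂ →
      Nonempty (ChartAt₂ I₀ hx hxt hfin (w (tResV n e M' p hpM hb hnM A hA)) Q)) :
    {Q : SPtW M' A | IsEmpty (PtPkg I₀ Q)}.Finite :=
  hfin_of_charts hI (Fact.out : p.Prime) hA (isGen_tRes n e M' p hpM hb hnM A hA)
    (isSeparable_tRes n e M' p hpM hb hnM A hA) (isGen_wBar n e M' p hpM hb hnM A hA w)
    (isSeparable_wBar n e M' p hpM hb hnM A hA w) hE₁ hE₂ hC₁ hC₂

end Inst

end Fermat.Agent.ES.W33.GoodGenN9
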