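/-
Programme W (S33), chapter (B3′) — helper3: **the map `P ↦ r(P)` computed in ONE chart `S : ChartSpecP`**,
a statement-for-statement port of §1 ("one chart") of main's `ES/RED/TwoCharts8` (helper8, Program I):
`HasPlaces`, `HasPlaces.val`, `HasPlaces.pir`, `sSub`, `chi_sSub`, `red_sSub_ne_zero`, `rVS_ne_top`,
`rAt`, `mem_rAt_iff`, `red_mem_rAt`, (R1) `valueHom_rAt`, (R1u) `eq_rAt`.  No `TwoCharts` structure.
-/
import Mathlib
import Fermat.Agent.ES.W33.ContractP3

set_option autoImplicit false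

noncomputable section

open AlgebraicCurve

namespace Fermat.Agent.ES.W33.PlacesP3

open Fermat.Agent.ES.W33.ContractP3

open Fermat.Agent.X0.FF Fermat.Agent.ES.RED.PlaceValue13 Fermat.Agent.ES.RED.Contract8

variable {L : Type*} [Field L] [IsAlgClosed L] {A : ValuationSubring L}
variable {F : Type*} [Field F] [Algebra L F] {x : F} {hx : IsGen L x}
variable {Ft : Type*} [Field Ft] [Algebra (kA A) Ft]

/-! ### one chart: the map `P ↦ r(P)` -/

section OneChart

variable (S : ChartSpecP A hx Ft)

/-- (VAL) and the principal ideal property at every place of the chart. -/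
def HasPlaces : Prop :=
  ∀ (P : Place L F) (hP : S.InChart P),
    ∃ hval : S.Val P hP, IsPrincipalIdealRing ↥(S.rVS P hP hval)

variable {S}

theorem HasPlaces.val (hS : HasPlaces S) (P : Place L F) (hP : S.InChart P) : S.Val P hP :=
  (hS P hP).choose

theorem HasPlaces.pir (hS : HasPlaces S) (P : Place L F) (hP : S.InChart P) :
    IsPrincipalIdealRing ↥(S.rVS P hP (hS.val P hP)) :=
  (hS P hP).choose_spec

/-- the element `s - s(P)` of the chart ring. -/
def sSub (S : ChartSpecP A hx Ft) (P : Place L F) (hP : S.InChart P) : ↥S.B :=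
  S.sB - S.const (S.ev P hP S.sB)

theorem chi_sSub (P : Place L F) (hP : S.InChart P) : S.chi P hP (sSub S P hP) = 0 := by
  rw [ChartSpecP.chi_apply, sSub, S.ev_sub_const P hP, map_zero]

theorem red_sSub_ne_zero (htr : Transcendental (kA A) (S.red S.sB)) (P : Place L F)
    (hP : S.InChart P) : S.red (sSub S P hP) ≠ 0 := by
  intro h
  apply htr
  rw [sSub, map_sub, ChartSpecP.red_const', sub_eq_zero] at h
  rw [h]
  exact isAlgebraic_algebraMap _

theorem rVS_ne_top (hS : HasPlaces S) (htr : Transcendental (kA A) (S.red S.sB))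
    (P : Place L F) (hP : S.InChart P) : S.rVS P hP (hS.val P hP) ≠ ⊤ :=
  S.rVS_ne_top P hP (hS.val P hP) (chi_sSub P hP) (red_sSub_ne_zero htr P hP)

/-- **`r(P)` computed in the chart `S`.** -/
def rAt (hS : HasPlaces S) (htr : Transcendental (kA A) (S.red S.sB))
    (P : Place L F) (hP : S.InChart P) : Place (kA A) Ft :=
  S.rPlace P hP (hS.val P hP) (rVS_ne_top hS htr P hP) (hS.pir P hP)

theorem mem_rAt_iff (hS : HasPlaces S) (htr : Transcendental (kA A) (S.red S.sB))
    (P : Place L F) (hP : S.InChart P) (y : Ft) :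
    y ∈ (rAt hS htr P hP).toValuationSubring ↔
      ∃ a d : ↥S.B, S.chi P hP d ≠ 0 ∧ y * S.red d = S.red a := Iff.rfl

theorem red_mem_rAt (hS : HasPlaces S) (htr : Transcendental (kA A) (S.red S.sB))
    (P : Place L F) (hP : S.InChart P) (b : ↥S.B) :
    S.red b ∈ (rAt hS htr P hP).toValuationSubring :=
  S.red_mem_rSubring P hP b

section Values

variable [IsAlgClosed (kA A)] {xt : Ft} (hxt : IsGen (kA A) xt)

/-- (R1) in the chart. -/
theorem valueHom_rAt (hS : HasPlaces S) (htr : Transcendental (kA A) (S.red S.sB))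
    (P : Place L F) (hP : S.InChart P) (b : ↥S.B) :
    valueHom hxt (rAt hS htr P hP) ⟨S.red b, red_mem_rAt hS htr P hP b⟩ = S.chi P hP b :=
  S.valueHom_red hxt P hP _ _ _ b

/-- (R1u) in the chart. -/
theorem eq_rAt (hS : HasPlaces S) (htr : Transcendental (kA A) (S.red S.sB))
    (P : Place L F) (hP : S.InChart P) (Q : Place (kA A) Ft)
    (hQ : ∀ b : ↥S.B, S.red b ∈ Q.toValuationSubring)
    (hQv : ∀ b : ↥S.B, valueHom hxt Q ⟨S.red b, hQ b⟩ = S.chi P hP b) :
    Q = rAt hS htr P hP :=
  S.eq_rPlace hxt P hP _ _ _ Q hQ hQv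

end Values

end OneChart

end Fermat.Agent.ES.W33.PlacesP3
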