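/-
Programme W (S33), chapter B3′ (helper20): THE BRIDGE between helper3's LOCALISED one-component
charts (`ContractP3.ChartSpecP`: the ring `B_j[1/e]`, `e` vanishing on the other component, with
`red` into the FIELD of one component, `In P := s(P) ∈ A ∧ e(P) ∈ Aˣ`) and the UN-LOCALISED
two-component chart `NodalChart20.NodalChart` (`red` into `Ft₁ × Ft₂`).

`IsLoc₁ S S'` : `S'` is a localisation of `S` off the second component:
`S.B ≤ S'.B`, `S'.red` extends `S.ρ₁`, the places of `S'` are places of `S`, every element of `S'.B`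
becomes an element of `S.B` after multiplication by some `e ∈ S.B` which is a unit at every place
of `S'` (`cover`), and some `e ∈ S.B` vanishing on the second component is a unit at every place of
`S'` (`off`).  `IsLoc₂` : the same for the second component.

For a place `P` of `S'`:
* `chi_eq` : the centres agree on `S.B`;  `on₁`, `not_on₂` : the centre of `P` lies on the first
  component only;
* `cSubring_eq` : `S'.rSubring P = cSubring (S.chi P) S.ρ₁` (the two local rings coincide);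
* `val`, `pir` : (VAL) and (PIR) transfer;
* **`hasPlaces₁_of_loc`** : if every one-component centre of `S` on the first component lies in a
  localised chart with `PlacesP3.HasPlaces` (the exit of `LevelsGenP3.hasPlaces_of_levels`), then
  `S.HasPlaces₁` — the input of `TwoChartsN20.TwoChartsN`.
-/
import Mathlib
import Fermat.Agent.ES.W33.NodalChart20
import Fermat.Agent.ES.W33.PlacesP3

set_option autoImplicit false

noncomputable section

open AlgebraicCurve

namespace Fermat.Agent.ES.W33.LocBridge20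

open Fermat.Agent.X0.FF Fermat.Agent.ES.RED.PlaceValue13 Fermat.Agent.ES.RED.Contract8
open Fermat.Agent.ES.W33.CentreN20 Fermat.Agent.ES.W33.NodalChart20
open Fermat.Agent.ES.W33.ContractP3 Fermat.Agent.ES.W33.PlacesP3

variable {L : Type*} [Field L] [IsAlgClosed L] {A : ValuationSubring L}
variable {F : Type*} [Field F] [Algebra L F] {x : F} {hx : IsGen L x}
variable {Ft₁ Ft₂ : Type*} [Field Ft₁] [Algebra (kA A) Ft₁] [Field Ft₂] [Algebra (kA A) Ft₂]

/-! ### the generic comparison of local rings -/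

section Generic

variable {k : Type*} [Field k] {B B' : Type*} [CommRing B] [CommRing B'] {Ft : Type*} [Field Ft]
variable {χ : B →+* k} {ρ : B →+* Ft} {χ' : B' →+* k} {ρ' : B' →+* Ft}

/-- If `B → B'` is compatible with `(χ, ρ)` and `(χ', ρ')`, the local ring computed with `B` is
contained in the one computed with `B'`. -/
theorem cSubring_le_of_hom (ι : B →+* B') (hχ : ∀ b, χ' (ι b) = χ b) (hρ : ∀ b, ρ' (ι b) = ρ b) :
    cSubring χ ρ ≤ cSubring χ' ρ' := by
  rintro y ⟨a, d, hd, he⟩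
  exact ⟨ι a, ι d, by rw [hχ]; exact hd, by rw [hρ, hρ]; exact he⟩

end Generic

/-! ### localisation off the second component -/

/-- `S'` is a localisation of the chart `S` off the second component. -/
structure IsLoc₁ (S : NodalChart A hx Ft₁ Ft₂) (S' : ChartSpecP A hx Ft₁) : Prop where
  le : S.B ≤ S'.B
  red_eq : ∀ b : ↥S.B, S'.red ⟨(b : F), le b.2⟩ = S.ρ₁ b
  in_chart : ∀ P : Place L F, S'.In P → S.InChart P
  cover : ∀ b' : ↥S'.B, ∃ e b : ↥S.B, (b : F) = (e : F) * (b' : F) ∧
    ∀ (P : Place L F) (hP : S'.In P), S.chi P (in_chart P hP) e ≠ 0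
  off : ∃ e : ↥S.B, S.ρ₂ e = 0 ∧ ∀ (P : Place L F) (hP : S'.In P), S.chi P (in_chart P hP) e ≠ 0

/-- `S'` is a localisation of the chart `S` off the first component. -/
structure IsLoc₂ (S : NodalChart A hx Ft₁ Ft₂) (S' : ChartSpecP A hx Ft₂) : Prop where
  le : S.B ≤ S'.B
  red_eq : ∀ b : ↥S.B, S'.red ⟨(b : F), le b.2⟩ = S.ρ₂ b
  in_chart : ∀ P : Place L F, S'.In P → S.InChart P
  cover : ∀ b' : ↥S'.B, ∃ e b : ↥S.B, (b : F) = (e : F) * (b' : F) ∧
    ∀ (P : Place L F) (hP : S'.In P), S.chi P (in_chart P hP) e ≠ 0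
  off : ∃ e : ↥S.B, S.ρ₁ e = 0 ∧ ∀ (P : Place L F) (hP : S'.In P), S.chi P (in_chart P hP) e ≠ 0

namespace IsLoc₁

variable {S : NodalChart A hx Ft₁ Ft₂} {S' : ChartSpecP A hx Ft₁} (h : IsLoc₁ S S')

/-- the inclusion of the chart rings. -/
def incl : ↥S.B →+* ↥S'.B := Subring.inclusion h.le

@[simp] theorem coe_incl (b : ↥S.B) : ((h.incl b : ↥S'.B) : F) = (b : F) := rfl

theorem red_incl (b : ↥S.B) : S'.red (h.incl b) = S.ρ₁ b := h.red_eq b

variable (P : Place L F) (hP : S'.In P)

/-- the value maps agree on `S.B`. -/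
theorem ev_eq (b : ↥S.B) : S'.ev P hP (h.incl b) = S.ev P (h.in_chart P hP) b := by
  apply Subtype.ext
  rw [ChartSpecP.coe_ev, NodalChart.coe_ev]
  rfl

/-- the centres agree on `S.B`. -/
theorem chi_eq (b : ↥S.B) : S'.chi P hP (h.incl b) = S.chi P (h.in_chart P hP) b := by
  rw [ChartSpecP.chi_apply, NodalChart.chi_apply, h.ev_eq P hP b]

/-- the centre of a place of `S'` lies on the first component. -/
theorem on₁ : S.On₁ P (h.in_chart P hP) := by
  intro b hb
  rw [← h.chi_eq P hP b]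
  apply S'.chi_eq_zero_of_red_eq_zero P hP
  rw [h.red_incl, hb]

/-- the centre of a place of `S'` does not lie on the second component. -/
theorem not_on₂ : ¬ S.On₂ P (h.in_chart P hP) := by
  intro h2
  obtain ⟨e, he, hne⟩ := h.off
  exact hne P hP (h2 e he)

/-- **the two local rings coincide.** -/
theorem cSubring_eq :
    S'.rSubring P hP = cSubring (S.chi P (h.in_chart P hP)) S.ρ₁ := by
  apply le_antisymm
  · rintro y ⟨a', d', hd', he⟩
    obtain ⟨e₁, a, ha, hu₁⟩ := h.cover a'
    obtain ⟨e₂, d, hd, hu₂⟩ := h.cover d'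
    have haI : h.incl a = h.incl e₁ * a' := Subtype.ext ha
    have hdI : h.incl d = h.incl e₂ * d' := Subtype.ext hd
    have hρa : S.ρ₁ a = S.ρ₁ e₁ * S'.red a' := by
      rw [← h.red_incl a, haI, map_mul, h.red_incl]
    have hρd : S.ρ₁ d = S.ρ₁ e₂ * S'.red d' := by
      rw [← h.red_incl d, hdI, map_mul, h.red_incl]
    have hχd : S.chi P (h.in_chart P hP) d = S.chi P (h.in_chart P hP) e₂ * S'.chi P hP d' := by
      rw [← h.chi_eq P hP d, hdI, map_mul, h.chi_eq]
    refine ⟨a * e₂, d * e₁, ?_, ?_⟩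
    · rw [map_mul, hχd]
      exact mul_ne_zero (mul_ne_zero (hu₂ P hP) hd') (hu₁ P hP)
    · rw [map_mul, map_mul, hρa, hρd, ← he]
      ring
  · rintro y ⟨a, d, hd, he⟩
    refine ⟨h.incl a, h.incl d, ?_, ?_⟩
    · rw [h.chi_eq]; exact hd
    · rw [h.red_incl, h.red_incl]; exact he

theorem mem_iff (y : Ft₁) :
    y ∈ S'.rSubring P hP ↔ y ∈ cSubring (S.chi P (h.in_chart P hP)) S.ρ₁ := by
  rw [h.cSubring_eq P hP]

/-- (VAL) transfers. -/
theorem val (hval : S'.Val P hP) : Val (S.chi P (h.in_chart P hP)) S.ρ₁ := by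
  intro y
  rcases hval y with h1 | h1
  · exact Or.inl ((h.mem_iff P hP y).1 h1)
  · exact Or.inr ((h.mem_iff P hP _).1 h1)

/-- the two valuation subrings coincide. -/
theorem cVS_eq (hval : S'.Val P hP) :
    cVS (S.chi P (h.in_chart P hP)) S.ρ₁ (h.val P hP hval) = S'.rVS P hP hval := by
  ext y
  exact ((h.mem_iff P hP y)).symm

/-- (PIR) transfers. -/
theorem pir (hval : S'.Val P hP) (hpir : IsPrincipalIdealRing ↥(S'.rVS P hP hval)) :
    IsPrincipalIdealRing ↥(cVS (S.chi P (h.in_chart P hP)) S.ρ₁ (h.val P hP hval)) := by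
  rw [h.cVS_eq P hP hval]
  exact hpir

end IsLoc₁

namespace IsLoc₂

variable {S : NodalChart A hx Ft₁ Ft₂} {S' : ChartSpecP A hx Ft₂} (h : IsLoc₂ S S')

/-- the inclusion of the chart rings. -/
def incl : ↥S.B →+* ↥S'.B := Subring.inclusion h.le

@[simp] theorem coe_incl (b : ↥S.B) : ((h.incl b : ↥S'.B) : F) = (b : F) := rfl

theorem red_incl (b : ↥S.B) : S'.red (h.incl b) = S.ρ₂ b := h.red_eq b

variable (P : Place L F) (hP : S'.In P)

/-- the value maps agree on `S.B`. -/
theorem ev_eq (b : ↥S.B) : S'.ev P hP (h.incl b) = S.ev P (h.in_chart P hP) b := by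
  apply Subtype.ext
  rw [ChartSpecP.coe_ev, NodalChart.coe_ev]
  rfl

/-- the centres agree on `S.B`. -/
theorem chi_eq (b : ↥S.B) : S'.chi P hP (h.incl b) = S.chi P (h.in_chart P hP) b := by
  rw [ChartSpecP.chi_apply, NodalChart.chi_apply, h.ev_eq P hP b]

/-- the centre of a place of `S'` lies on the second component. -/
theorem on₂ : S.On₂ P (h.in_chart P hP) := by
  intro b hb
  rw [← h.chi_eq P hP b]
  apply S'.chi_eq_zero_of_red_eq_zero P hP
  rw [h.red_incl, hb]

/-- the centre of a place of `S'` does not lie on the first component. -/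
theorem not_on₁ : ¬ S.On₁ P (h.in_chart P hP) := by
  intro h1
  obtain ⟨e, he, hne⟩ := h.off
  exact hne P hP (h1 e he)

/-- **the two local rings coincide.** -/
theorem cSubring_eq :
    S'.rSubring P hP = cSubring (S.chi P (h.in_chart P hP)) S.ρ₂ := by
  apply le_antisymm
  · rintro y ⟨a', d', hd', he⟩
    obtain ⟨e₁, a, ha, hu₁⟩ := h.cover a'
    obtain ⟨e₂, d, hd, hu₂⟩ := h.cover d'
    have haI : h.incl a = h.incl e₁ * a' := Subtype.ext ha
    have hdI : h.incl d = h.incl e₂ * d' := Subtype.ext hd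
    have hρa : S.ρ₂ a = S.ρ₂ e₁ * S'.red a' := by
      rw [← h.red_incl a, haI, map_mul, h.red_incl]
    have hρd : S.ρ₂ d = S.ρ₂ e₂ * S'.red d' := by
      rw [← h.red_incl d, hdI, map_mul, h.red_incl]
    have hχd : S.chi P (h.in_chart P hP) d = S.chi P (h.in_chart P hP) e₂ * S'.chi P hP d' := by
      rw [← h.chi_eq P hP d, hdI, map_mul, h.chi_eq]
    refine ⟨a * e₂, d * e₁, ?_, ?_⟩
    · rw [map_mul, hχd]
      exact mul_ne_zero (mul_ne_zero (hu₂ P hP) hd') (hu₁ P hP)
    · rw [map_mul, map_mul, hρa, hρd, ← he]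
      ring
  · rintro y ⟨a, d, hd, he⟩
    refine ⟨h.incl a, h.incl d, ?_, ?_⟩
    · rw [h.chi_eq]; exact hd
    · rw [h.red_incl, h.red_incl]; exact he

theorem mem_iff (y : Ft₂) :
    y ∈ S'.rSubring P hP ↔ y ∈ cSubring (S.chi P (h.in_chart P hP)) S.ρ₂ := by
  rw [h.cSubring_eq P hP]

/-- (VAL) transfers. -/
theorem val (hval : S'.Val P hP) : Val (S.chi P (h.in_chart P hP)) S.ρ₂ := by
  intro y
  rcases hval y with h1 | h1
  · exact Or.inl ((h.mem_iff P hP y).1 h1)
  · exact Or.inr ((h.mem_iff P hP _).1 h1)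

/-- the two valuation subrings coincide. -/
theorem cVS_eq (hval : S'.Val P hP) :
    cVS (S.chi P (h.in_chart P hP)) S.ρ₂ (h.val P hP hval) = S'.rVS P hP hval := by
  ext y
  exact ((h.mem_iff P hP y)).symm

/-- (PIR) transfers. -/
theorem pir (hval : S'.Val P hP) (hpir : IsPrincipalIdealRing ↥(S'.rVS P hP hval)) :
    IsPrincipalIdealRing ↥(cVS (S.chi P (h.in_chart P hP)) S.ρ₂ (h.val P hP hval)) := by
  rw [h.cVS_eq P hP hval]
  exact hpir

end IsLoc₂

/-! ### `HasPlaces` of the un-localised chart -/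

variable (S : NodalChart A hx Ft₁ Ft₂)

/-- **`HasPlaces₁` from localised charts**: if every centre of `S` lying on the first component
only belongs to a localisation off the second component with (VAL) + (PIR), then `S.HasPlaces₁`. -/
theorem hasPlaces₁_of_loc
    (hcov : ∀ (P : Place L F) (hP : S.InChart P), S.On₁ P hP → ¬ S.On₂ P hP →
      ∃ S' : ChartSpecP A hx Ft₁, IsLoc₁ S S' ∧ S'.In P ∧ HasPlaces S') :
    S.HasPlaces₁ := by
  intro P hP h1 h2
  obtain ⟨S', hloc, hP', hS'⟩ := hcov P hP h1 h2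
  exact ⟨hloc.val P hP' (hS'.val P hP'), hloc.pir P hP' (hS'.val P hP') (hS'.pir P hP')⟩

/-- **`HasPlaces₂` from localised charts.** -/
theorem hasPlaces₂_of_loc
    (hcov : ∀ (P : Place L F) (hP : S.InChart P), S.On₂ P hP → ¬ S.On₁ P hP →
      ∃ S' : ChartSpecP A hx Ft₂, IsLoc₂ S S' ∧ S'.In P ∧ HasPlaces S') :
    S.HasPlaces₂ := by
  intro P hP h2 h1
  obtain ⟨S', hloc, hP', hS'⟩ := hcov P hP h2 h1
  exact ⟨hloc.val P hP' (hS'.val P hP'), hloc.pir P hP' (hS'.val P hP') (hS'.pir P hP')⟩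

end Fermat.Agent.ES.W33.LocBridge20
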