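/-
Programme W (S33), chapter (B3′), leaf (Q2) of ruling w55/w63, GENERIC HALF — helper9:
**the localisation `B[1/e]` of an un-localised two-component chart `S₀ : NodalChart20.NodalChart`
off one component, as a one-component chart `ContractP3.ChartSpecP`, with helper20's relation
`LocBridge20.IsLoc₁ / IsLoc₂`.**

`S₀ : NodalChart A hx Ft₁ Ft₂`, `e : ↥S₀.B`; `ρ : ↥S₀.B →+* Ft` ANY ring homomorphism into a field
which is the residue map on constants (`hc`; instance: `ρ := S₀.ρ₁`, `S₀.ρ₂`), with `ρ e ≠ 0`.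
* `locRing S₀ e := {f | ∃ k, e ^ k * f ∈ S₀.B}` (a subring of `F`), `le_locRing`, `inv_mem_locRing`,
  `isUnit_e` (`e` is a unit of `locRing`), `exists_pow_mul_mem`;
* `locRed S₀ e ρ hρ : ↥(locRing S₀ e) →+* Ft` (restriction of `GaussFrac15.rho S₀.B ρ`),
  `locRed_coe`, `locRed_mul_pow : locRed f * ρ e ^ k = ρ ⟨e ^ k * f, _⟩`;
* **`locChart S₀ e ρ hc hρ hsat : ChartSpecP A hx Ft`** with `B := locRing S₀ e`, `red := locRed …`,
  `s := S₀.s`, **`In P := ∃ hP : S₀.InChart P, S₀.chi P hP e ≠ 0`**; ALL fields proved; the only input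
  besides `hc`, `hρ` is the `e`-saturation
  `hsat : ∀ b ≠ 0 in S₀.B, ∃ k c b', e ^ k * b = c * b' ∧ ρ b' ≠ 0`
  (instance: the two Gauss valuations, `e ∈ 𝔪_A · O_other` — see `LocSatN9`);
* **`isLoc₁`, `isLoc₂`** : `LocBridge20.IsLoc₁ S₀ (locChart S₀ e S₀.ρ₁ …)` when `S₀.ρ₂ e = 0`, and the
  twin.
-/
import Mathlib
import Fermat.Agent.ES.W33.LocBridge20
import Fermat.Agent.ES.V19.GaussFrac15

set_option autoImplicit false
set_option linter.unusedSectionVars false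

noncomputable section

open AlgebraicCurve

namespace Fermat.Agent.ES.W33.LocChartGenN9

open Fermat.Agent.X0.FF Fermat.Agent.ES.RED.PlaceValue13 Fermat.Agent.ES.RED.Contract8
open Fermat.Agent.ES.W33.NodalChart20 Fermat.Agent.ES.W33.ContractP3
open Fermat.Agent.ES.W33.LocBridge20 Fermat.Agent.ES.V19.GaussFrac15

variable {L : Type*} [Field L] [IsAlgClosed L] {A : ValuationSubring L}
variable {F : Type*} [Field F] [Algebra L F] {x : F} {hx : IsGen L x}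
variable {Ft₁ Ft₂ : Type*} [Field Ft₁] [Algebra (kA A) Ft₁] [Field Ft₂] [Algebra (kA A) Ft₂]
variable (S₀ : NodalChart A hx Ft₁ Ft₂) (e : ↥S₀.B)

/-! ### the ring `B[1/e]` -/

/-- **`B[1/e]`** inside `F`. -/
def locRing : Subring F where
  carrier := {f | ∃ k : ℕ, (e : F) ^ k * f ∈ S₀.B}
  mul_mem' := by
    rintro f g ⟨k, hk⟩ ⟨l, hl⟩
    refine ⟨k + l, ?_⟩
    have h : (e : F) ^ (k + l) * (f * g) = ((e : F) ^ k * f) * ((e : F) ^ l * g) := by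
      rw [pow_add]; ring
    rw [h]
    exact S₀.B.mul_mem hk hl
  one_mem' := ⟨0, by rw [pow_zero, one_mul]; exact S₀.B.one_mem⟩
  add_mem' := by
    rintro f g ⟨k, hk⟩ ⟨l, hl⟩
    refine ⟨k + l, ?_⟩
    have h : (e : F) ^ (k + l) * (f + g) =
        (e : F) ^ l * ((e : F) ^ k * f) + (e : F) ^ k * ((e : F) ^ l * g) := by
      rw [pow_add]; ring
    rw [h]
    exact S₀.B.add_mem (S₀.B.mul_mem (S₀.B.pow_mem e.2 l) hk)
      (S₀.B.mul_mem (S₀.B.pow_mem e.2 k) hl)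
  zero_mem' := ⟨0, by rw [mul_zero]; exact S₀.B.zero_mem⟩
  neg_mem' := by
    rintro f ⟨k, hk⟩
    exact ⟨k, by rw [mul_neg]; exact S₀.B.neg_mem hk⟩

theorem mem_locRing_iff (f : F) : f ∈ locRing S₀ e ↔ ∃ k : ℕ, (e : F) ^ k * f ∈ S₀.B := Iff.rfl

/-- every element of `B[1/e]` comes into `B` after multiplication by a power of `e`. -/
theorem exists_pow_mul_mem (f : ↥(locRing S₀ e)) : ∃ k : ℕ, (e : F) ^ k * (f : F) ∈ S₀.B := f.2

theorem le_locRing : S₀.B ≤ locRing S₀ e := fun b hb =>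
  ⟨0, by rw [pow_zero, one_mul]; exact hb⟩

theorem inv_mem_locRing (he0 : (e : F) ≠ 0) : ((e : F))⁻¹ ∈ locRing S₀ e :=
  ⟨1, by rw [pow_one, mul_inv_cancel₀ he0]; exact S₀.B.one_mem⟩

/-- `e` is a unit of `B[1/e]`. -/
theorem isUnit_e (he0 : (e : F) ≠ 0) :
    IsUnit (⟨(e : F), le_locRing S₀ e e.2⟩ : ↥(locRing S₀ e)) :=
  IsUnit.of_mul_eq_one ⟨((e : F))⁻¹, inv_mem_locRing S₀ e he0⟩
    (Subtype.ext (mul_inv_cancel₀ he0))

/-! ### the reduction -/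

section Red

variable {Ft : Type*} [Field Ft] (ρ : ↥S₀.B →+* Ft) (hρ : ρ e ≠ 0)

include hρ in
theorem coe_e_ne_zero : (e : F) ≠ 0 := coe_ne_zero_of_red_ne_zero hρ

include hρ in
theorem locRing_le_gaussInt : locRing S₀ e ≤ gaussInt S₀.B ρ := by
  rintro f ⟨k, hk⟩
  refine ⟨⟨_, hk⟩, e ^ k, ?_, ?_⟩
  · rw [map_pow]; exact pow_ne_zero k hρ
  · show f * ((e ^ k : ↥S₀.B) : F) = (e : F) ^ k * f
    rw [Subring.coe_pow, mul_comm]

/-- **the reduction of `B[1/e]`**. -/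
def locRed : ↥(locRing S₀ e) →+* Ft :=
  (rho S₀.B ρ).comp (Subring.inclusion (locRing_le_gaussInt S₀ e ρ hρ))

theorem locRed_coe (b : ↥S₀.B) :
    locRed S₀ e ρ hρ ⟨(b : F), le_locRing S₀ e b.2⟩ = ρ b :=
  rho_of_mem b

theorem isRedOf_locRed (f : ↥(locRing S₀ e)) : IsRedOf S₀.B ρ (f : F) (locRed S₀ e ρ hρ f) :=
  isRedOf_rho S₀.B ρ ⟨(f : F), locRing_le_gaussInt S₀ e ρ hρ f.2⟩

/-- `locRed f * ρ e ^ k = ρ (e ^ k f)`. -/
theorem locRed_mul_pow (f : ↥(locRing S₀ e)) (k : ℕ) (hk : (e : F) ^ k * (f : F) ∈ S₀.B) :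
    locRed S₀ e ρ hρ f * ρ e ^ k = ρ ⟨(e : F) ^ k * (f : F), hk⟩ := by
  have h1 : IsRedOf S₀.B ρ (f : F) (ρ ⟨(e : F) ^ k * (f : F), hk⟩ / ρ e ^ k) := by
    refine ⟨⟨_, hk⟩, e ^ k, ?_, ?_, ?_⟩
    · rw [map_pow]; exact pow_ne_zero k hρ
    · show (f : F) * ((e ^ k : ↥S₀.B) : F) = (e : F) ^ k * (f : F)
      rw [Subring.coe_pow, mul_comm]
    · rw [map_pow, div_mul_cancel₀ _ (pow_ne_zero k hρ)]
  rw [(isRedOf_locRed S₀ e ρ hρ f).unique h1, div_mul_cancel₀ _ (pow_ne_zero k hρ)]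

end Red

/-! ### units at the places of the localised chart -/

section AtPlace

variable (P : Place L F) (hP : S₀.InChart P) (hχ : S₀.chi P hP e ≠ 0)

include hχ in
theorem ev_e_isUnit : IsUnit (S₀.ev P hP e) := by
  by_contra h
  apply hχ
  rw [NodalChart.chi_apply]
  exact (IsLocalRing.residue_eq_zero_iff _).2 ((IsLocalRing.mem_maximalIdeal _).2 h)

include hχ in
theorem ev_e_ne_zero : ((S₀.ev P hP e : ↥A) : L) ≠ 0 := by
  intro h
  have h0 : S₀.ev P hP e = 0 := Subtype.ext h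
  exact (ev_e_isUnit S₀ e P hP hχ).ne_zero h0

include hχ in
/-- `e` is a unit of the valuation ring of a place of the localised chart. -/
theorem isUnit_toPlace_e : IsUnit (S₀.toPlace P hP e) := by
  rw [← valueHom_ne_zero_iff hx P]
  exact ev_e_ne_zero S₀ e P hP hχ

include hχ in
theorem inv_e_mem_place : ((e : F))⁻¹ ∈ P.toValuationSubring := by
  obtain ⟨u, hu⟩ := isUnit_toPlace_e S₀ e P hP hχ
  have h1 : ((u : ↥P.toValuationSubring) : F) = (e : F) := by rw [hu]; rfl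
  have h2 : ((u : ↥P.toValuationSubring) : F) * ((↑u⁻¹ : ↥P.toValuationSubring) : F) = 1 := by
    have := congrArg (Subtype.val) (Units.mul_inv u)
    exact this
  have h3 : ((↑u⁻¹ : ↥P.toValuationSubring) : F) = ((e : F))⁻¹ := by
    rw [h1] at h2
    exact eq_inv_of_mul_eq_one_right h2
  rw [← h3]
  exact (↑u⁻¹ : ↥P.toValuationSubring).2

include hχ in
theorem e_ne_zero_of_chi : (e : F) ≠ 0 := by
  intro h
  have h0 : e = 0 := Subtype.ext h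
  apply hχ
  rw [h0, map_zero]

include hχ in
/-- a place of the localised chart contains `B[1/e]`. -/
theorem mem_place_loc (b : F) (hb : b ∈ locRing S₀ e) : b ∈ P.toValuationSubring := by
  obtain ⟨k, hk⟩ := hb
  have he0 := e_ne_zero_of_chi S₀ e P hP hχ
  have h : b = ((e : F))⁻¹ ^ k * ((e : F) ^ k * b) := by
    rw [← mul_assoc, ← mul_pow, inv_mul_cancel₀ he0, one_pow, one_mul]
  rw [h]
  exact P.toValuationSubring.mul_mem _ _
    (pow_mem (inv_e_mem_place S₀ e P hP hχ) k) (S₀.mem_place P hP _ hk)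

include hχ in
/-- the value of `e⁻¹` lies in `A`. -/
theorem valueHom_inv_e_mem :
    valueHom hx P ⟨((e : F))⁻¹, inv_e_mem_place S₀ e P hP hχ⟩ ∈ A := by
  have he0 := e_ne_zero_of_chi S₀ e P hP hχ
  have h1 : (⟨((e : F))⁻¹, inv_e_mem_place S₀ e P hP hχ⟩ : ↥P.toValuationSubring) *
      S₀.toPlace P hP e = 1 := Subtype.ext (inv_mul_cancel₀ he0)
  have h2 := congrArg (valueHom hx P) h1
  rw [map_mul, map_one] at h2
  have h3 : valueHom hx P (S₀.toPlace P hP e) = ((S₀.ev P hP e : ↥A) : L) := rfl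
  rw [h3] at h2
  obtain ⟨u, hu⟩ := ev_e_isUnit S₀ e P hP hχ
  have h4 : ((S₀.ev P hP e : ↥A) : L) * (((↑u⁻¹ : ↥A)) : L) = 1 := by
    rw [← hu]
    exact congrArg Subtype.val (Units.mul_inv u)
  have h5 : valueHom hx P ⟨((e : F))⁻¹, inv_e_mem_place S₀ e P hP hχ⟩ = (((↑u⁻¹ : ↥A)) : L) := by
    have := eq_inv_of_mul_eq_one_left h2
    rw [this]
    exact (eq_inv_of_mul_eq_one_right h4).symm
  rw [h5]
  exact (↑u⁻¹ : ↥A).2

include hχ in
/-- the values of `B[1/e]` at a place of the localised chart lie in `A`. -/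
theorem val_mem_loc (b : F) (hb : b ∈ locRing S₀ e) :
    valueHom hx P ⟨b, mem_place_loc S₀ e P hP hχ b hb⟩ ∈ A := by
  obtain ⟨k, hk⟩ := hb
  have he0 := e_ne_zero_of_chi S₀ e P hP hχ
  have h : (⟨b, mem_place_loc S₀ e P hP hχ b ⟨k, hk⟩⟩ : ↥P.toValuationSubring) =
      (⟨((e : F))⁻¹, inv_e_mem_place S₀ e P hP hχ⟩ : ↥P.toValuationSubring) ^ k *
        ⟨(e : F) ^ k * b, S₀.mem_place P hP _ hk⟩ := by
    apply Subtype.ext
    show b = ((e : F))⁻¹ ^ k * ((e : F) ^ k * b)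
    rw [← mul_assoc, ← mul_pow, inv_mul_cancel₀ he0, one_pow, one_mul]
  rw [h, map_mul, map_pow]
  exact A.mul_mem _ _ (pow_mem (valueHom_inv_e_mem S₀ e P hP hχ) k) (S₀.val_mem P hP _ hk)

end AtPlace

/-! ### the localised chart -/

section Chart

variable {Ft : Type*} [Field Ft] [Algebra (kA A) Ft] (ρ : ↥S₀.B →+* Ft)
  (hc : ∀ a : ↥A, ρ (S₀.const a) = algebraMap (kA A) Ft (resA A a)) (hρ : ρ e ≠ 0)
  (hsat : ∀ b : ↥S₀.B, b ≠ 0 → ∃ (k : ℕ) (c : ↥A) (b' : ↥S₀.B),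
    (e : F) ^ k * (b : F) = algebraMap L F (c : L) * (b' : F) ∧ ρ b' ≠ 0)

include hsat in
theorem sat_loc (b : ↥(locRing S₀ e)) (hb : b ≠ 0) :
    ∃ (c : ↥A) (b' : ↥(locRing S₀ e)),
      (b : F) = algebraMap L F (c : L) * (b' : F) ∧ locRed S₀ e ρ hρ b' ≠ 0 := by
  have he0 : (e : F) ≠ 0 := coe_e_ne_zero S₀ e ρ hρ
  obtain ⟨k, hk⟩ := b.2
  have hb0 : (⟨(e : F) ^ k * (b : F), hk⟩ : ↥S₀.B) ≠ 0 := by
    intro h
    have h1 : (e : F) ^ k * (b : F) = 0 := congrArg Subtype.val h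
    rcases mul_eq_zero.mp h1 with h2 | h2
    · exact pow_ne_zero k he0 h2
    · exact hb (Subtype.ext h2)
  obtain ⟨k', c, b'', h, hb''⟩ := hsat _ hb0
  have hmem : ((e : F))⁻¹ ^ (k' + k) * (b'' : F) ∈ locRing S₀ e :=
    ⟨k' + k, by
      rw [← mul_assoc, ← mul_pow, mul_inv_cancel₀ he0, one_pow, one_mul]; exact b''.2⟩
  refine ⟨c, ⟨_, hmem⟩, ?_, ?_⟩
  · show (b : F) = algebraMap L F (c : L) * (((e : F))⁻¹ ^ (k' + k) * (b'' : F))
    have h' : (e : F) ^ (k' + k) * (b : F) = algebraMap L F (c : L) * (b'' : F) := by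
      rw [pow_add, mul_assoc]; exact h
    have h2 : (b : F) = ((e : F))⁻¹ ^ (k' + k) * ((e : F) ^ (k' + k) * (b : F)) := by
      rw [← mul_assoc, ← mul_pow, inv_mul_cancel₀ he0, one_pow, one_mul]
    rw [h2, h']
    ring
  · intro h0
    have hk2 : (e : F) ^ (k' + k) * (((e : F))⁻¹ ^ (k' + k) * (b'' : F)) ∈ S₀.B := by
      rw [← mul_assoc, ← mul_pow, mul_inv_cancel₀ he0, one_pow, one_mul]; exact b''.2
    have h1 := locRed_mul_pow S₀ e ρ hρ ⟨_, hmem⟩ (k' + k) hk2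
    rw [h0, zero_mul] at h1
    apply hb''
    have h2 : (⟨(e : F) ^ (k' + k) * (((e : F))⁻¹ ^ (k' + k) * (b'' : F)), hk2⟩ : ↥S₀.B) = b'' := by
      apply Subtype.ext
      show (e : F) ^ (k' + k) * (((e : F))⁻¹ ^ (k' + k) * (b'' : F)) = (b'' : F)
      rw [← mul_assoc, ← mul_pow, mul_inv_cancel₀ he0, one_pow, one_mul]
    rw [← h2]
    exact h1.symm

/-- **THE LOCALISED CHART `(B[1/e], ρ)`**, places `In P := P ∈ S₀ ∧ χ_P(e) ≠ 0`. -/
def locChart : ChartSpecP A hx Ft where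
  B := locRing S₀ e
  red := locRed S₀ e ρ hρ
  s := S₀.s
  s_mem := le_locRing S₀ e S₀.s_mem
  const_mem := fun a => le_locRing S₀ e (S₀.const_mem a)
  red_const := fun a => (locRed_coe S₀ e ρ hρ (S₀.const a)).trans (hc a)
  In := fun P => ∃ hP : S₀.InChart P, S₀.chi P hP e ≠ 0
  mem_place := fun P h b hb => by
    obtain ⟨hP, hχ⟩ := h
    exact mem_place_loc S₀ e P hP hχ b hb
  val_mem := fun P h b hb => by
    obtain ⟨hP, hχ⟩ := h
    exact val_mem_loc S₀ e P hP hχ b hb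
  sat := fun b hb => sat_loc S₀ e ρ hρ hsat b hb
  frac := fun y => by
    obtain ⟨a, b, hb, hab⟩ := S₀.frac y
    refine ⟨⟨(a : F), le_locRing S₀ e a.2⟩, ⟨(b : F), le_locRing S₀ e b.2⟩, ?_, hab⟩
    intro h
    apply hb
    have h1 : (b : F) = 0 := congrArg Subtype.val h
    exact Subtype.ext h1

@[simp] theorem locChart_B : (locChart S₀ e ρ hc hρ hsat).B = locRing S₀ e := rfl

@[simp] theorem locChart_s : (locChart S₀ e ρ hc hρ hsat).s = S₀.s := rfl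

theorem locChart_red : (locChart S₀ e ρ hc hρ hsat).red = locRed S₀ e ρ hρ := rfl

theorem locChart_In (P : Place L F) :
    (locChart S₀ e ρ hc hρ hsat).In P ↔ ∃ hP : S₀.InChart P, S₀.chi P hP e ≠ 0 := Iff.rfl

theorem inChart_of_In {P : Place L F} (h : (locChart S₀ e ρ hc hρ hsat).In P) :
    S₀.InChart P := by
  obtain ⟨hP, -⟩ := h
  exact hP

theorem chi_e_ne_zero {P : Place L F} (h : (locChart S₀ e ρ hc hρ hsat).In P) :
    S₀.chi P (inChart_of_In S₀ e ρ hc hρ hsat h) e ≠ 0 := by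
  obtain ⟨hP, hχ⟩ := h
  exact hχ

end Chart

/-! ### helper20's relation `IsLoc` -/

section IsLoc

/-- **`IsLoc₁`**: the localisation off the second component. -/
theorem isLoc₁ (hρ : S₀.ρ₁ e ≠ 0) (he₂ : S₀.ρ₂ e = 0)
    (hsat : ∀ b : ↥S₀.B, b ≠ 0 → ∃ (k : ℕ) (c : ↥A) (b' : ↥S₀.B),
      (e : F) ^ k * (b : F) = algebraMap L F (c : L) * (b' : F) ∧ S₀.ρ₁ b' ≠ 0) :
    IsLoc₁ S₀ (locChart S₀ e S₀.ρ₁ S₀.ρ₁_const hρ hsat) where
  le := le_locRing S₀ e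
  red_eq := fun b => locRed_coe S₀ e S₀.ρ₁ hρ b
  in_chart := fun P h => inChart_of_In S₀ e S₀.ρ₁ S₀.ρ₁_const hρ hsat h
  cover := fun b' => by
    obtain ⟨k, hk⟩ := b'.2
    refine ⟨e ^ k, ⟨_, hk⟩, ?_, fun P hP => ?_⟩
    · show (e : F) ^ k * (b' : F) = ((e ^ k : ↥S₀.B) : F) * (b' : F)
      rw [Subring.coe_pow]
    · rw [map_pow]
      exact pow_ne_zero k (chi_e_ne_zero S₀ e S₀.ρ₁ S₀.ρ₁_const hρ hsat hP)
  off := ⟨e, he₂, fun P hP => chi_e_ne_zero S₀ e S₀.ρ₁ S₀.ρ₁_const hρ hsat hP⟩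

/-- **`IsLoc₂`**: the localisation off the first component. -/
theorem isLoc₂ (hρ : S₀.ρ₂ e ≠ 0) (he₁ : S₀.ρ₁ e = 0)
    (hsat : ∀ b : ↥S₀.B, b ≠ 0 → ∃ (k : ℕ) (c : ↥A) (b' : ↥S₀.B),
      (e : F) ^ k * (b : F) = algebraMap L F (c : L) * (b' : F) ∧ S₀.ρ₂ b' ≠ 0) :
    IsLoc₂ S₀ (locChart S₀ e S₀.ρ₂ S₀.ρ₂_const hρ hsat) where
  le := le_locRing S₀ e
  red_eq := fun b => locRed_coe S₀ e S₀.ρ₂ hρ b
  in_chart := fun P h => inChart_of_In S₀ e S₀.ρ₂ S₀.ρ₂_const hρ hsat h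
  cover := fun b' => by
    obtain ⟨k, hk⟩ := b'.2
    refine ⟨e ^ k, ⟨_, hk⟩, ?_, fun P hP => ?_⟩
    · show (e : F) ^ k * (b' : F) = ((e ^ k : ↥S₀.B) : F) * (b' : F)
      rw [Subring.coe_pow]
    · rw [map_pow]
      exact pow_ne_zero k (chi_e_ne_zero S₀ e S₀.ρ₂ S₀.ρ₂_const hρ hsat hP)
  off := ⟨e, he₁, fun P hP => chi_e_ne_zero S₀ e S₀.ρ₂ S₀.ρ₂_const hρ hsat hP⟩

end IsLoc

end Fermat.Agent.ES.W33.LocChartGenN9
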