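/-
Programme W (S33), chapter B3′ (helper20): THE NODE FIELDS `smooth`, `glue`, `glue_unit` OF
`XiIfaceN29.RedCtxN` for the total reduction map `TwoChartsN20.TwoChartsN.r` of a nodal two-chart
model.

Inputs, besides `T : TwoChartsN A hx Ft₁ Ft₂ nn`:
* `NodePlaces T N` : the node places `N.ν₁ j`, `N.ν₂ j` of `XiIfaceN29.Nodes` are the two branches
  of the node `j`: for every `b` in the ring of chart 0, `ρ₁ b` has the value `nodeChi j b` at
  `ν₁ j` and `ρ₂ b` has the value `nodeChi j b` at `ν₂ j`;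
* `GaussExt T G red` : the ring `G` of functions integral for both Gauss valuations with its pair
  reduction `red : G →+* Ft₁ × Ft₂` contains the ring of chart 0 compatibly, contains the inverses
  of its elements with both reductions nonzero, and satisfies
  **(HARTOGS_j)** : `g ∈ G` with `0 ≤ ord_P g` at every place `P` through the node `j` is a fraction
  `a / d`, `a d ∈ B0`, `nodeChi j d ≠ 0` (normality of the model at the node).

Exits (the literal shapes of the fields of `RedCtxN`, with `r := T.r`):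
* `smooth`    : `T.r P = Sum.inl Q → N.IsSmooth Q`;
* `glue`      : `(∀ P, T.r P = Sum.inr j → 0 ≤ P.ord g) → N.GluedAt (red g) j`;
* `glue_unit` : `(∀ P, T.r P = Sum.inr j → P.ord g = 0) → (red g).1 ≠ 0 → (red g).2 ≠ 0 →
                  ∃ c ≠ 0, ValAt (ν₁ j) (red g).1 c ∧ ValAt (ν₂ j) (red g).2 c`;
* `valAt_of_redTo₁/₂` : **(R1)** in the `ValAt` form: if `P` is centred at the one-component point
  `Q`, every chart function `b` has `ValAt Q (ρᵢ b) (χ_P b)`.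
-/
import Mathlib
import Fermat.Agent.ES.W33.TwoChartsN20
import Fermat.Agent.ES.W33.ValAt29

set_option autoImplicit false

noncomputable section

open AlgebraicCurve

namespace Fermat.Agent.ES.W33.NodalGlue20

open Fermat.Agent.X0.FF Fermat.Agent.ES.RED.PlaceValue13 Fermat.Agent.ES.RED.Contract8
open Fermat.Agent.ES.W33.CentreN20 Fermat.Agent.ES.W33.NodalChart20
open Fermat.Agent.ES.W33.TwoChartsN20 Fermat.Agent.ES.W33.XiIfaceN29 Fermat.Agent.ES.W33.ValAt29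

/-! ### values at the place of a centre, `ValAt` form -/

section Centre

variable {k : Type*} [Field k] {B : Type*} [CommRing B] {Ft : Type*} [Field Ft] [Algebra k Ft]
variable {χ : B →+* k} {ρ : B →+* Ft}

/-- a non-unit of the valuation ring of a place lies in its maximal ideal. -/
theorem inMax_of_inv_notMem (Q : Place k Ft) {y : Ft} (hy : y ∈ Q.toValuationSubring)
    (hinv : y⁻¹ ∉ Q.toValuationSubring ∨ y = 0) : InMax Q y := by
  rcases hinv with hinv | h0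
  · by_cases hy0 : y = 0
    · exact Or.inl hy0
    · right
      have h1 : 0 ≤ Q.ord y := (ffp_mem_iff_ord_nonneg Q).1 hy
      by_contra hpos
      have h2 : Q.ord y = 0 := le_antisymm (not_lt.mp hpos) h1
      apply hinv
      apply (ffp_mem_iff_ord_nonneg Q).2
      rw [Place.ord_inv, h2, neg_zero]
  · exact Or.inl h0

/-- **(R1), `ValAt` form**: if `O_Q` is the local ring of the component at the centre `χ`, the
value of `ρ b` at `Q` is `χ b`. -/
theorem valAt_of_isCentre (h : IsCentre χ ρ) (Q : Place k Ft)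
    (hQ : ∀ y : Ft, y ∈ Q.toValuationSubring ↔ y ∈ cSubring χ ρ) (b : B) :
    ValAt Q (ρ b) (χ b) := by
  obtain ⟨b₀, hb₀χ, hb₀ρ⟩ := h.const (χ b)
  have hχ : χ (b - b₀) = 0 := by rw [map_sub, hb₀χ, sub_self]
  have hρ : ρ (b - b₀) = ρ b - algebraMap k Ft (χ b) := by rw [map_sub, hb₀ρ]
  rw [valAt_iff, ← hρ]
  apply inMax_of_inv_notMem Q ((hQ _).2 (rho_mem_cSubring χ ρ _))
  rcases h.inv_rho_notMem_cSubring hχ with h1 | h1
  · exact Or.inl fun hmem => h1 ((hQ _).1 hmem)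
  · exact Or.inr h1

end Centre

variable {L : Type*} [Field L] [IsAlgClosed L] {A : ValuationSubring L}
variable {F : Type*} [Field F] [Algebra L F] {x : F} {hx : IsGen L x}
variable {Ft₁ Ft₂ : Type*} [Field Ft₁] [Algebra (kA A) Ft₁] [Field Ft₂] [Algebra (kA A) Ft₂]
variable {nn : ℕ} (T : TwoChartsN A hx Ft₁ Ft₂ nn)

/-- The node places are the two branches of the nodes. -/
structure NodePlaces (N : Nodes (kA A) Ft₁ Ft₂ nn) : Prop where
  val₁ : ∀ (j : Fin nn) (b : ↥T.S0.B), ValAt (N.ν₁ j) (T.S0.ρ₁ b) (T.nodeChi j b)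
  val₂ : ∀ (j : Fin nn) (b : ↥T.S0.B), ValAt (N.ν₂ j) (T.S0.ρ₂ b) (T.nodeChi j b)

/-- The ring `G` of functions integral for both Gauss valuations, with its pair reduction. -/
structure GaussExt (G : Subring F) (red : ↥G →+* Ft₁ × Ft₂) : Prop where
  B0_le : T.S0.B ≤ G
  red_ext : ∀ b : ↥T.S0.B, red ⟨(b : F), B0_le b.2⟩ = T.S0.red b
  inv_mem : ∀ g : ↥G, (red g).1 ≠ 0 → (red g).2 ≠ 0 → (g : F)⁻¹ ∈ G
  /-- **(HARTOGS_j)** -/
  hartogs : ∀ (j : Fin nn) (g : ↥G), (∀ P : Place L F, T.r P = Sum.inr j → 0 ≤ P.ord (g : F)) →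
    ∃ a d : ↥T.S0.B, T.nodeChi j d ≠ 0 ∧ (g : F) * (d : F) = (a : F)

/-! ### places outside chart 0 -/

/-- if `P` is not in chart 0 then `s⁻¹(P) ∈ 𝔪_A`. -/
theorem chi1_s_eq_zero (P : Place L F) (h0 : ¬ T.S0.InChart P) (h1 : T.S1.InChart P) :
    T.S1.chi P h1 T.S1.sB = 0 := by
  by_contra hne
  apply h0
  have hunit : IsUnit (T.S1.ev P h1 T.S1.sB) := by
    rw [← IsLocalRing.residue_ne_zero_iff_isUnit]
    exact hne
  have hval0 : valueHom hx P ⟨T.S1.s, T.S1.mem_place P h1 _ T.S1.s_mem⟩ ≠ 0 := by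
    intro h
    have : T.S1.ev P h1 T.S1.sB = 0 := Subtype.ext (by rw [NodalChart.coe_ev]; exact h)
    rw [this] at hunit
    exact not_isUnit_zero hunit
  obtain ⟨hinv, hval⟩ := Fermat.Agent.ES.RED.TwoCharts8.TwoCharts.inv_mem_and_value (hx := hx)
    (T.S1.mem_place P h1 _ T.S1.s_mem) hval0
  have hs : T.S1.s⁻¹ = T.S0.s := by rw [T.s_inv, inv_inv]
  have hmem : T.S0.s ∈ P.toValuationSubring := by rw [← hs]; exact hinv
  refine ⟨hmem, ?_⟩
  have h2 : (⟨T.S0.s, hmem⟩ : ↥P.toValuationSubring) = ⟨T.S1.s⁻¹, hinv⟩ := Subtype.ext hs.symm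
  rw [h2, hval]
  obtain ⟨w, hw⟩ := hunit.exists_right_inv
  have hw' : ((T.S1.ev P h1 T.S1.sB : ↥A) : L) * (w : L) = 1 :=
    congrArg Subtype.val hw
  rw [NodalChart.coe_ev] at hw'
  have h3 : (valueHom hx P ⟨T.S1.s, T.S1.mem_place P h1 _ T.S1.s_mem⟩)⁻¹ = (w : L) :=
    inv_eq_of_mul_eq_one_right hw'
  rw [h3]
  exact w.2

/-! ### (R1) in the `ValAt` form -/

variable {T}

/-- (R1), first component, chart 0. -/
theorem valAt_of_redTo₁_0 {P : Place L F} {Q : Place (kA A) Ft₁} (h0 : T.S0.InChart P)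
    (h1 : T.S0.On₁ P h0)
    (hQ : ∀ y, y ∈ Q.toValuationSubring ↔ y ∈ cSubring (T.S0.chi P h0) T.S0.ρ₁) (b : ↥T.S0.B) :
    ValAt Q (T.S0.ρ₁ b) (T.S0.chi P h0 b) :=
  valAt_of_isCentre (T.S0.isCentre₁ P h0 h1) Q hQ b

/-- (R1), second component, chart 0. -/
theorem valAt_of_redTo₂_0 {P : Place L F} {Q : Place (kA A) Ft₂} (h0 : T.S0.InChart P)
    (h2 : T.S0.On₂ P h0)
    (hQ : ∀ y, y ∈ Q.toValuationSubring ↔ y ∈ cSubring (T.S0.chi P h0) T.S0.ρ₂) (b : ↥T.S0.B) :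
    ValAt Q (T.S0.ρ₂ b) (T.S0.chi P h0 b) :=
  valAt_of_isCentre (T.S0.isCentre₂ P h0 h2) Q hQ b

/-- (R1), first component, chart 1. -/
theorem valAt_of_redTo₁_1 {P : Place L F} {Q : Place (kA A) Ft₁} (h1c : T.S1.InChart P)
    (h1 : T.S1.On₁ P h1c)
    (hQ : ∀ y, y ∈ Q.toValuationSubring ↔ y ∈ cSubring (T.S1.chi P h1c) T.S1.ρ₁) (b : ↥T.S1.B) :
    ValAt Q (T.S1.ρ₁ b) (T.S1.chi P h1c b) :=
  valAt_of_isCentre (T.S1.isCentre₁ P h1c h1) Q hQ b

/-- (R1), second component, chart 1. -/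
theorem valAt_of_redTo₂_1 {P : Place L F} {Q : Place (kA A) Ft₂} (h1c : T.S1.InChart P)
    (h2 : T.S1.On₂ P h1c)
    (hQ : ∀ y, y ∈ Q.toValuationSubring ↔ y ∈ cSubring (T.S1.chi P h1c) T.S1.ρ₂) (b : ↥T.S1.B) :
    ValAt Q (T.S1.ρ₂ b) (T.S1.chi P h1c b) :=
  valAt_of_isCentre (T.S1.isCentre₂ P h1c h2) Q hQ b

/-! ### `smooth` -/

variable {N : Nodes (kA A) Ft₁ Ft₂ nn}

/-- a one-component centre of chart 0 on the first component is not at a node place. -/
theorem ne_node₁_0 (hN : NodePlaces T N) {P : Place L F} (h0 : T.S0.InChart P)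
    (h1 : T.S0.On₁ P h0) (h2 : ¬ T.S0.On₂ P h0) {Q : Place (kA A) Ft₁}
    (hQ : ∀ y, y ∈ Q.toValuationSubring ↔ y ∈ cSubring (T.S0.chi P h0) T.S0.ρ₁) (j : Fin nn) :
    Q ≠ N.ν₁ j := by
  rintro rfl
  apply h2
  have hχ : T.S0.chi P h0 = T.nodeChi j := by
    ext b
    exact ValAt.unique (valAt_of_redTo₁_0 h0 h1 hQ b) (hN.val₁ j b)
  exact T.on₂_of_chi_eq_nodeChi hχ

/-- a one-component centre of chart 0 on the second component is not at a node place. -/
theorem ne_node₂_0 (hN : NodePlaces T N) {P : Place L F} (h0 : T.S0.InChart P)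
    (h2 : T.S0.On₂ P h0) (h1 : ¬ T.S0.On₁ P h0) {Q : Place (kA A) Ft₂}
    (hQ : ∀ y, y ∈ Q.toValuationSubring ↔ y ∈ cSubring (T.S0.chi P h0) T.S0.ρ₂) (j : Fin nn) :
    Q ≠ N.ν₂ j := by
  rintro rfl
  apply h1
  have hχ : T.S0.chi P h0 = T.nodeChi j := by
    ext b
    exact ValAt.unique (valAt_of_redTo₂_0 h0 h2 hQ b) (hN.val₂ j b)
  exact T.on₁_of_chi_eq_nodeChi hχ

/-- a centre outside chart 0 on the first component is not at a node place. -/
theorem ne_node₁_1 (hN : NodePlaces T N) {P : Place L F} (h0 : ¬ T.S0.InChart P)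
    (h1c : T.S1.InChart P) (h1 : T.S1.On₁ P h1c) {Q : Place (kA A) Ft₁}
    (hQ : ∀ y, y ∈ Q.toValuationSubring ↔ y ∈ cSubring (T.S1.chi P h1c) T.S1.ρ₁) (j : Fin nn) :
    Q ≠ N.ν₁ j := by
  rintro rfl
  have hχ := chi1_s_eq_zero T P h0 h1c
  rcases (T.S1.isCentre₁ P h1c h1).inv_rho_notMem_cSubring hχ with hn | hn
  · apply hn
    rw [← hQ, T.ρ₁_s1_eq, inv_inv]
    exact ValAt.mem (hN.val₁ j T.S0.sB)
  · exact T.ρ₁_s1_ne_zero hn

/-- a centre outside chart 0 on the second component is not at a node place. -/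
theorem ne_node₂_1 (hN : NodePlaces T N) {P : Place L F} (h0 : ¬ T.S0.InChart P)
    (h1c : T.S1.InChart P) (h2 : T.S1.On₂ P h1c) {Q : Place (kA A) Ft₂}
    (hQ : ∀ y, y ∈ Q.toValuationSubring ↔ y ∈ cSubring (T.S1.chi P h1c) T.S1.ρ₂) (j : Fin nn) :
    Q ≠ N.ν₂ j := by
  rintro rfl
  have hχ := chi1_s_eq_zero T P h0 h1c
  rcases (T.S1.isCentre₂ P h1c h2).inv_rho_notMem_cSubring hχ with hn | hn
  · apply hn
    rw [← hQ, T.ρ₂_s1_eq, inv_inv]
    exact ValAt.mem (hN.val₂ j T.S0.sB)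
  · exact T.ρ₂_s1_ne_zero hn

theorem ne_node₁ (hN : NodePlaces T N) {P : Place L F} {Q : Place (kA A) Ft₁}
    (h : T.RedTo₁ P Q) (j : Fin nn) : Q ≠ N.ν₁ j := by
  rcases h with ⟨h0, h1, h2, hQ⟩ | ⟨h1c, h1, h2, hQ⟩
  · exact ne_node₁_0 hN h0 h1 h2 hQ j
  · by_cases h0 : T.S0.InChart P
    · refine ne_node₁_0 hN h0 ((T.on₁_iff P h0 h1c).2 h1)
        (fun h => h2 ((T.on₂_iff P h0 h1c).1 h)) ?_ j
      intro y
      rw [hQ, T.cSubring₁_eq P h0 h1c]
    · exact ne_node₁_1 hN h0 h1c h1 hQ j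

theorem ne_node₂ (hN : NodePlaces T N) {P : Place L F} {Q : Place (kA A) Ft₂}
    (h : T.RedTo₂ P Q) (j : Fin nn) : Q ≠ N.ν₂ j := by
  rcases h with ⟨h0, h2, h1, hQ⟩ | ⟨h1c, h2, h1, hQ⟩
  · exact ne_node₂_0 hN h0 h2 h1 hQ j
  · by_cases h0 : T.S0.InChart P
    · refine ne_node₂_0 hN h0 ((T.on₂_iff P h0 h1c).2 h2)
        (fun h => h1 ((T.on₁_iff P h0 h1c).1 h)) ?_ j
      intro y
      rw [hQ, T.cSubring₂_eq P h0 h1c]
    · exact ne_node₂_1 hN h0 h1c h2 hQ j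

/-- **`RedCtxN.smooth`**: reductions land on smooth points. -/
theorem smooth (hN : NodePlaces T N) (P : Place L F) (Q : SPt (kA A) Ft₁ Ft₂)
    (h : T.r P = Sum.inl Q) : N.IsSmooth Q := by
  rcases Q with Q | Q
  · exact fun j => ne_node₁ hN ((T.r_eq_inl_inl_iff P Q).1 h) j
  · exact fun j => ne_node₂ hN ((T.r_eq_inl_inr_iff P Q).1 h) j

/-! ### `glue`, `glue_unit` -/

variable {G : Subring F} {red : ↥G →+* Ft₁ × Ft₂}

/-- the chart-0 functions as elements of `G`. -/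
def GaussExt.incl (hG : GaussExt T G red) (b : ↥T.S0.B) : ↥G := ⟨(b : F), hG.B0_le b.2⟩

theorem GaussExt.red_incl (hG : GaussExt T G red) (b : ↥T.S0.B) :
    red (hG.incl b) = T.S0.red b := hG.red_ext b

/-- an element of the local ring of the model at the node `j` has equal values on the two
branches. -/
theorem valAt_of_frac (hN : NodePlaces T N) (hG : GaussExt T G red) (j : Fin nn) (g : ↥G)
    {a d : ↥T.S0.B} (hd : T.nodeChi j d ≠ 0) (he : (g : F) * (d : F) = (a : F)) :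
    ValAt (N.ν₁ j) (red g).1 (T.nodeChi j a * (T.nodeChi j d)⁻¹) ∧
      ValAt (N.ν₂ j) (red g).2 (T.nodeChi j a * (T.nodeChi j d)⁻¹) := by
  have he' : g * hG.incl d = hG.incl a := Subtype.ext he
  have hred : red g * T.S0.red d = T.S0.red a := by
    rw [← hG.red_incl d, ← hG.red_incl a, ← map_mul, he']
  have h1 : (red g).1 * T.S0.ρ₁ d = T.S0.ρ₁ a := by
    have := congrArg Prod.fst hred
    simpa [NodalChart.ρ₁_apply] using this
  have h2 : (red g).2 * T.S0.ρ₂ d = T.S0.ρ₂ a := by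
    have := congrArg Prod.snd hred
    simpa [NodalChart.ρ₂_apply] using this
  have hd₁ : T.S0.ρ₁ d ≠ 0 := ValAt.ne_zero (hN.val₁ j d) hd
  have hd₂ : T.S0.ρ₂ d ≠ 0 := ValAt.ne_zero (hN.val₂ j d) hd
  have e1 : (red g).1 = T.S0.ρ₁ a * (T.S0.ρ₁ d)⁻¹ := by
    rw [← h1, mul_assoc, mul_inv_cancel₀ hd₁, mul_one]
  have e2 : (red g).2 = T.S0.ρ₂ a * (T.S0.ρ₂ d)⁻¹ := by
    rw [← h2, mul_assoc, mul_inv_cancel₀ hd₂, mul_one]
  refine ⟨?_, ?_⟩
  · rw [e1]
    exact ValAt.mul (hN.val₁ j a) (ValAt.inv (hN.val₁ j d) hd)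
  · rw [e2]
    exact ValAt.mul (hN.val₂ j a) (ValAt.inv (hN.val₂ j d) hd)

/-- **`RedCtxN.glue`**: at a node through which no pole of `g` passes, the two branch values
agree. -/
theorem glue (hN : NodePlaces T N) (hG : GaussExt T G red) (g : ↥G) (j : Fin nn)
    (h : ∀ P : Place L F, T.r P = Sum.inr j → 0 ≤ P.ord (g : F)) : N.GluedAt (red g) j := by
  obtain ⟨a, d, hd, he⟩ := hG.hartogs j g h
  obtain ⟨h1, h2⟩ := valAt_of_frac hN hG j g hd he
  exact ⟨_, h1, h2⟩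

/-- **`RedCtxN.glue_unit`**: if moreover no zero passes and both components of the reduction are
nonzero, the common value is nonzero. -/
theorem glue_unit (hN : NodePlaces T N) (hG : GaussExt T G red) (g : ↥G) (j : Fin nn)
    (h : ∀ P : Place L F, T.r P = Sum.inr j → P.ord (g : F) = 0)
    (h1 : (red g).1 ≠ 0) (h2 : (red g).2 ≠ 0) :
    ∃ c : kA A, c ≠ 0 ∧ ValAt (N.ν₁ j) (red g).1 c ∧ ValAt (N.ν₂ j) (red g).2 c := by
  obtain ⟨a, d, hd, he⟩ := hG.hartogs j g (fun P hP => (h P hP).ge)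
  obtain ⟨v1, v2⟩ := valAt_of_frac hN hG j g hd he
  -- the inverse
  set g' : ↥G := ⟨(g : F)⁻¹, hG.inv_mem g h1 h2⟩ with hg'
  have hg0 : (g : F) ≠ 0 := by
    intro h0
    apply h1
    have : g = 0 := Subtype.ext h0
    rw [this, map_zero]
    rfl
  have hmul : g * g' = 1 := Subtype.ext (mul_inv_cancel₀ hg0)
  obtain ⟨a', d', hd', he'⟩ := hG.hartogs j g' (fun P hP => by
    show 0 ≤ P.ord ((g : F)⁻¹)
    rw [Place.ord_inv, h P hP, neg_zero])
  obtain ⟨v1', -⟩ := valAt_of_frac hN hG j g' hd' he'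
  have hred : red g * red g' = 1 := by rw [← map_mul, hmul, map_one]
  have hprod : (red g).1 * (red g').1 = 1 := by
    have := congrArg Prod.fst hred
    simpa using this
  have hval := ValAt.mul v1 v1'
  rw [hprod] at hval
  have hc := ValAt.unique hval valAt_one
  refine ⟨_, ?_, v1, v2⟩
  intro h0
  rw [h0, zero_mul] at hc
  exact zero_ne_one hc

end Fermat.Agent.ES.W33.NodalGlue20
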