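/-
Programme W (S33), chapter (B3′) "reduction of places on the nodal model" — helper22:
**`R2PointP22.PointHyp` AT A SMOOTH POINT `Q` OF A TWO-CHART NODAL MODEL (`TwoChartsN20.TwoChartsN`)
FROM ONE LOCALISED ONE-COMPONENT CHART** — generic: no instance name occurs.

SETTING.  `S : NodalChart A hx Ft₁ Ft₂` a two-component chart (instance: `chart ↥A tN^{±1}` with the
pair reduction `redN`), `e₀ ∈ S.B` vanishing identically on the OTHER component, and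
`S' : ChartSpecP A hx Ft_i` the one-component chart "`S.B[1/e₀]` with `ρ_i`":
`LocAt₁ S S' e₀` (six fields: `le`, `red_eq`, `s_eq`, `off`, `pow`, `in_iff`) and its twin `LocAt₂`.
`LocAt_i → LocBridge20.IsLoc_i` (`LocAt₁.isLoc`).

AT A POINT.  `Q` a place of the component with `0 ≤ ord_Q (ρ_i s)` (the point lies in the chart),
`ρ_i e₀ ≠ 0`, `ord_Q (ρ_i e₀) = 0` (the point lies in the localised chart), and the chart description
of the disc `hD : r P = b₀ → ∃ hP : S.InChart P, S.On_i P hP ∧ O_Q = cSubring (S.chi P hP) S.ρ_i`.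
EXITS (the inputs of `R2AdapterP22.pointHyp` for `S'`):
* `hdisc`   : the disc `{P | r P = b₀}` lies in the localised chart;
* `hR1`     : (R1), value form, on the disc;
* `hredint` : `S'.red S'.B ⊆ O_Q`  (main's `ChartFacts9.ord_red_nonneg_of_mem_chart` for `S.B = chart ↥A s`);
* `hnorm`   : the weak norm property (main's `NormFrac18.norm_chart`);
* `hBG`, `hredG` : `S'.B ≤ G_i`, `red_i` extends `S'.red`, for a ring `G_i ⊇ S.B` in which every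
  element of nonzero reduction is invertible (the Gauss valuation ring of the component);
* **`LocAt₁.pointHyp`, `LocAt₂.pointHyp`** : `PointHyp A (resA A) G_i red_i r b₀ Q S'.B ⟨S.s, _⟩`;
  remaining inputs: `hpeel` (PEEL-a on the disc), non-constancy of `s` and of `ρ_i s`.
THE DISC for `r := T.r` (`T : TwoChartsN`): `disc₁_0`, `disc₁_1`, `disc₂_0`, `disc₂_1` give `hD` at
`b₀ := inl (inl Q)` / `inl (inr Q)` for `S := T.S0` / `T.S1` from `0 ≤ ord_Q (ρ_i s^{±1})`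
(`chi0_s_eq_zero` : a place outside chart 1 has `s(P) ∈ 𝔪_A`).
**THE FOUR EXITS: `pointHyp₁_0`, `pointHyp₁_1`, `pointHyp₂_0`, `pointHyp₂_1`** =
`PointHyp A (resA A) G_i red_i T.r (inl (inl Q) | inl (inr Q)) Q S'.B ⟨T.S_j.s, _⟩`.
-/
import Mathlib
import Fermat.Agent.ES.W33.LocBridge20
import Fermat.Agent.ES.W33.NodalGlue20
import Fermat.Agent.ES.W33.R2AdapterP22
import Fermat.Agent.ES.RED.ChartFacts9
import Fermat.Agent.ES.RED.NormFrac18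

set_option autoImplicit false
set_option linter.unusedSectionVars false

noncomputable section

open AlgebraicCurve Polynomial

namespace Fermat.Agent.ES.W33.LocPointN22

open Fermat.Agent.RED.PUR.ChartGeneric22
open Fermat.Agent.X0.FF Fermat.Agent.ES.RED.PlaceValue13 Fermat.Agent.ES.RED.Contract8
open Fermat.Agent.ES.W33.CentreN20 Fermat.Agent.ES.W33.NodalChart20 Fermat.Agent.ES.W33.TwoChartsN20
open Fermat.Agent.ES.W33.ContractP3 Fermat.Agent.ES.W33.LocBridge20 Fermat.Agent.ES.W33.NodalGlue20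
open Fermat.Agent.ES.W33.XiIfaceN29 Fermat.Agent.ES.W33.ValAt29
open Fermat.Agent.ES.RED.R2Abstract14 Fermat.Agent.ES.W33.R2PointP22

variable {L : Type*} [Field L] [IsAlgClosed L] {A : ValuationSubring L}
variable {F : Type*} [Field F] [Algebra L F] {x : F} {hx : IsGen L x}
variable {Ft₁ Ft₂ : Type*} [Field Ft₁] [Algebra (kA A) Ft₁] [Field Ft₂] [Algebra (kA A) Ft₂]

/-! ### localisation off the second component -/

/-- `S'` is the chart `S.B[1/e₀]` with the reduction `ρ₁`, `e₀` vanishing on the second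
component. -/
structure LocAt₁ (S : NodalChart A hx Ft₁ Ft₂) (S' : ChartSpecP A hx Ft₁) (e₀ : ↥S.B) : Prop where
  le : S.B ≤ S'.B
  red_eq : ∀ b : ↥S.B, S'.red ⟨(b : F), le b.2⟩ = S.ρ₁ b
  s_eq : S'.s = S.s
  off : S.ρ₂ e₀ = 0
  pow : ∀ b' : ↥S'.B, ∃ (n : ℕ) (b : ↥S.B), (b : F) = (e₀ : F) ^ n * (b' : F)
  in_iff : ∀ P : Place L F, S'.In P ↔ ∃ hP : S.InChart P, S.chi P hP e₀ ≠ 0

namespace LocAt₁

variable {S : NodalChart A hx Ft₁ Ft₂} {S' : ChartSpecP A hx Ft₁} {e₀ : ↥S.B}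
  (H : LocAt₁ S S' e₀)

include H in
theorem in_chart (P : Place L F) (hP : S'.In P) : S.InChart P := by
  obtain ⟨hP0, -⟩ := (H.in_iff P).1 hP
  exact hP0

include H in
theorem chi_e₀_ne_zero (P : Place L F) (hP : S'.In P) : S.chi P (H.in_chart P hP) e₀ ≠ 0 := by
  obtain ⟨hP0, hne⟩ := (H.in_iff P).1 hP
  exact hne

include H in
/-- **the bridge to helper20's `IsLoc₁`.** -/
theorem isLoc : IsLoc₁ S S' where
  le := H.le
  red_eq := H.red_eq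
  in_chart := H.in_chart
  cover b' := by
    obtain ⟨n, b, hb⟩ := H.pow b'
    refine ⟨e₀ ^ n, b, hb, fun P hP => ?_⟩
    rw [map_pow]
    exact pow_ne_zero _ (H.chi_e₀_ne_zero P hP)
  off := ⟨e₀, H.off, fun P hP => H.chi_e₀_ne_zero P hP⟩

include H in
/-- reduction of `b = e₀ ^ n * b'`. -/
theorem red_pow {b' : ↥S'.B} {n : ℕ} {b : ↥S.B} (hb : (b : F) = (e₀ : F) ^ n * (b' : F)) :
    S.ρ₁ b = S.ρ₁ e₀ ^ n * S'.red b' := by
  have h1 : H.isLoc.incl b = H.isLoc.incl e₀ ^ n * b' := Subtype.ext hb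
  rw [← H.isLoc.red_incl b, h1, map_mul, map_pow, H.isLoc.red_incl]

theorem coe_ne_zero_of_ρ₁ {b : ↥S.B} (hb : S.ρ₁ b ≠ 0) : (b : F) ≠ 0 := by
  intro h0
  apply hb
  have : b = 0 := Subtype.ext h0
  rw [this, map_zero]

/-! #### integrality downstairs and the weak norm property -/

section Chart

variable (hchart : ∀ z : F, z ∈ S.B ↔ z ∈ chart ↥A S.s) (Q : Place (kA A) Ft₁)

include hchart in
/-- `ρ₁ S.B ⊆ O_Q` when `ρ₁ s ∈ O_Q` (main's (G1~)). -/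
theorem ord_ρ₁_nonneg (hQs : 0 ≤ Q.ord (S.ρ₁ S.sB)) (b : ↥S.B) : 0 ≤ Q.ord (S.ρ₁ b) := by
  refine Fermat.Agent.ES.RED.ChartFacts9.ord_red_nonneg_of_mem_chart A (resA A) S.B S.ρ₁ S.sB
    ?_ ?_ Q hQs b ((hchart _).1 b.2)
  · intro c hc
    exact (hchart c).2 (adjoin_le_chart S.s hc)
  · intro a h
    exact S.ρ₁_const a

include H hchart in
/-- **`hredint`**: `S'.red S'.B ⊆ O_Q`. -/
theorem hredint (hQs : 0 ≤ Q.ord (S.ρ₁ S.sB)) (he₀ : S.ρ₁ e₀ ≠ 0) (hQe : Q.ord (S.ρ₁ e₀) = 0)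
    (b' : ↥S'.B) : S'.red b' ∈ Q.toValuationSubring := by
  obtain ⟨n, b, hb⟩ := H.pow b'
  have h1 := H.red_pow hb
  have hinv : (S.ρ₁ e₀)⁻¹ ∈ Q.toValuationSubring := by
    rw [ffp_mem_iff_ord_nonneg, Place.ord_inv, hQe, neg_zero]
  have h2 : S'.red b' = S.ρ₁ b * (S.ρ₁ e₀)⁻¹ ^ n := by
    rw [h1]
    calc S'.red b' = S'.red b' * (S.ρ₁ e₀ * (S.ρ₁ e₀)⁻¹) ^ n := by
          rw [mul_inv_cancel₀ he₀, one_pow, mul_one]
      _ = S.ρ₁ e₀ ^ n * S'.red b' * (S.ρ₁ e₀)⁻¹ ^ n := by rw [mul_pow]; ring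
  rw [h2]
  exact Q.toValuationSubring.mul_mem _ _
    ((ffp_mem_iff_ord_nonneg Q).2 (ord_ρ₁_nonneg hchart Q hQs b))
    (pow_mem hinv n)

include H hchart in
/-- **`hnorm`**: the weak norm property of the localised chart. -/
theorem hnorm (hs : Transcendental L S.s) (he₀ : S.ρ₁ e₀ ≠ 0) :
    ∀ z : ↥S'.B, z ≠ 0 → ∃ z' : ↥S'.B, z' ≠ 0 ∧
      ∃ p : L[X], (z : F) * (z' : F) = aeval S'.s p := by
  intro z hz0
  have hzF : (z : F) ≠ 0 := fun h0 => hz0 (Subtype.ext h0)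
  have he₀F : (e₀ : F) ≠ 0 := coe_ne_zero_of_ρ₁ he₀
  obtain ⟨n, b, hb⟩ := H.pow z
  have hbF : (b : F) ≠ 0 := by
    rw [hb]
    exact mul_ne_zero (pow_ne_zero _ he₀F) hzF
  obtain ⟨w, hw, hw0, p, e⟩ :=
    Fermat.Agent.ES.RED.NormFrac18.norm_chart A hs ((hchart _).1 b.2) hbF
  have hwB : w ∈ S.B := (hchart _).2 hw
  refine ⟨⟨(e₀ : F) ^ n * w, H.le (S.B.mul_mem (S.B.pow_mem e₀.2 n) hwB)⟩, ?_, p, ?_⟩
  · intro h0
    have h1 : (e₀ : F) ^ n * w = 0 := congrArg (fun g : ↥S'.B => (g : F)) h0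
    exact mul_ne_zero (pow_ne_zero _ he₀F) hw0 h1
  · show (z : F) * ((e₀ : F) ^ n * w) = aeval S'.s p
    rw [H.s_eq, ← e, hb]
    ring

end Chart

/-! #### the Gauss ring of the component -/

section Gauss

variable (G : Subring F) (redG : ↥G →+* Ft₁) (hSG : S.B ≤ G)
  (hredS : ∀ b : ↥S.B, redG ⟨(b : F), hSG b.2⟩ = S.ρ₁ b)
  (hinv : ∀ g : ↥G, redG g ≠ 0 → ((g : F))⁻¹ ∈ G)

include H hredS hinv in
/-- **`hBG`**: the localised chart ring lies in the Gauss ring of the component. -/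
theorem hBG (he₀ : S.ρ₁ e₀ ≠ 0) : S'.B ≤ G := by
  intro f hf
  obtain ⟨n, b, hb⟩ := H.pow ⟨f, hf⟩
  have hb' : (b : F) = (e₀ : F) ^ n * f := hb
  have he₀G : redG ⟨(e₀ : F), hSG e₀.2⟩ ≠ 0 := by
    rw [hredS]
    exact he₀
  have hi : ((e₀ : F))⁻¹ ∈ G := hinv _ he₀G
  have he₀F : (e₀ : F) ≠ 0 := coe_ne_zero_of_ρ₁ he₀
  have h1 : f = (b : F) * ((e₀ : F))⁻¹ ^ n := by
    rw [hb']
    calc f = f * ((e₀ : F) * ((e₀ : F))⁻¹) ^ n := by
          rw [mul_inv_cancel₀ he₀F, one_pow, mul_one]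
      _ = (e₀ : F) ^ n * f * ((e₀ : F))⁻¹ ^ n := by rw [mul_pow]; ring
  rw [h1]
  exact G.mul_mem (hSG b.2) (G.pow_mem hi n)

include H hredS hinv in
/-- **`hredG`**: the reduction of the Gauss ring extends the reduction of the localised chart. -/
theorem hredG (he₀ : S.ρ₁ e₀ ≠ 0) (f : F) (hf : f ∈ S'.B) :
    redG ⟨f, H.hBG G redG hSG hredS hinv he₀ hf⟩ = S'.red ⟨f, hf⟩ := by
  obtain ⟨n, b, hb⟩ := H.pow ⟨f, hf⟩
  have h1 : (⟨(b : F), hSG b.2⟩ : ↥G) =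
      ⟨(e₀ : F), hSG e₀.2⟩ ^ n * ⟨f, H.hBG G redG hSG hredS hinv he₀ hf⟩ := Subtype.ext hb
  have h2 := congrArg redG h1
  rw [map_mul, map_pow, hredS, hredS, H.red_pow hb] at h2
  exact (mul_left_cancel₀ (pow_ne_zero n he₀) h2).symm

end Gauss

/-! #### the disc -/

section Disc

variable (Q : Place (kA A) Ft₁) {β : Type*} (r : Place L F → β) (b₀ : β)
variable (hD : ∀ P : Place L F, r P = b₀ → ∃ hP : S.InChart P, S.On₁ P hP ∧
  ∀ y, y ∈ Q.toValuationSubring ↔ y ∈ cSubring (S.chi P hP) S.ρ₁)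

omit H in
/-- an element of the chart ring whose reduction is a unit at `Q` does not vanish at the centre of
a place reducing to `Q`. -/
theorem chi_ne_zero_of_ord_eq_zero {P : Place L F} (hP : S.InChart P) (h1 : S.On₁ P hP)
    (hQ : ∀ y, y ∈ Q.toValuationSubring ↔ y ∈ cSubring (S.chi P hP) S.ρ₁) {b : ↥S.B}
    (hb0 : S.ρ₁ b ≠ 0) (hb : Q.ord (S.ρ₁ b) = 0) : S.chi P hP b ≠ 0 := by
  intro h0
  have hv := valAt_of_isCentre (S.isCentre₁ P hP h1) Q hQ b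
  rw [h0] at hv
  rcases hv with hv | hv
  · rw [map_zero] at hv
    exact hb0 hv
  · rw [map_zero, sub_zero, hb] at hv
    exact lt_irrefl _ hv

include H hD in
/-- **`hdisc`**: the disc of `Q` lies in the localised chart. -/
theorem hdisc (he₀ : S.ρ₁ e₀ ≠ 0) (hQe : Q.ord (S.ρ₁ e₀) = 0) :
    ∀ P : Place L F, r P = b₀ → S'.InChart P := by
  intro P hP
  obtain ⟨hP0, h1, hQ⟩ := hD P hP
  exact (H.in_iff P).2 ⟨hP0, chi_ne_zero_of_ord_eq_zero Q hP0 h1 hQ he₀ hQe⟩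

variable [IsAlgClosed (kA A)] {xt : Ft₁} (hxt : IsGen (kA A) xt)

include H hD in
/-- **`hR1`**: (R1), value form, on the disc of `Q`. -/
theorem hR1 : ∀ (P : Place L F) (hP : S'.InChart P), r P = b₀ → ∀ b : ↥S'.B,
    ∃ hmem : S'.red b ∈ Q.toValuationSubring,
      valueHom hxt Q ⟨S'.red b, hmem⟩ = S'.chi P hP b := by
  intro P hP hPb b
  obtain ⟨hP0, h1, hQ⟩ := hD P hPb
  have hQ' : ∀ y, y ∈ Q.toValuationSubring ↔ y ∈ S'.rSubring P hP := fun y => by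
    rw [hQ y]
    exact (H.isLoc.mem_iff P hP y).symm
  exact ⟨(hQ' _).2 (S'.red_mem_rSubring P hP b), S'.valueHom_red_of_eq hxt P hP Q hQ' b⟩

/-! #### the exit -/

variable (hchart : ∀ z : F, z ∈ S.B ↔ z ∈ chart ↥A S.s)
variable (G : Subring F) (redG : ↥G →+* Ft₁) (hSG : S.B ≤ G)
  (hredS : ∀ b : ↥S.B, redG ⟨(b : F), hSG b.2⟩ = S.ρ₁ b)
  (hinv : ∀ g : ↥G, redG g ≠ 0 → ((g : F))⁻¹ ∈ G)

include H hD hchart hredS hinv hxt in
/-- **`PointHyp` at the smooth point `Q` of the first component**, from the localised chart. -/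
theorem pointHyp (hs : Transcendental L S.s)
    (hsne : ∀ a : ↥A, S.s ≠ algebraMap L F (a : L))
    (hrne : ∀ c : kA A, S.ρ₁ S.sB ≠ algebraMap (kA A) Ft₁ c)
    (hQs : 0 ≤ Q.ord (S.ρ₁ S.sB)) (he₀ : S.ρ₁ e₀ ≠ 0) (hQe : Q.ord (S.ρ₁ e₀) = 0)
    (hpeel : ∀ (P : Place L F) (hP : S'.InChart P), r P = b₀ → S'.PeelA P hP) :
    PointHyp A (resA A) G redG r b₀ Q S'.B ⟨S.s, hSG S.s_mem⟩ := by
  have hsne' : ∀ a : ↥A, S'.s ≠ algebraMap L F (a : L) := fun a => by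
    rw [H.s_eq]
    exact hsne a
  have hsB : S'.sB = H.isLoc.incl S.sB := Subtype.ext H.s_eq
  have hrne' : ∀ c : kA A, S'.red S'.sB ≠ algebraMap (kA A) Ft₁ c := fun c => by
    rw [hsB, H.isLoc.red_incl]
    exact hrne c
  have key := Fermat.Agent.ES.W33.R2AdapterP22.pointHyp S' hxt hsne' hrne' G
    (H.hBG G redG hSG hredS hinv he₀) redG (H.hredG G redG hSG hredS hinv he₀) r b₀ Q
    (H.hdisc Q r b₀ hD he₀ hQe) (H.hR1 Q r b₀ hD hxt) hpeel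
    (H.hredint hchart Q hQs he₀ hQe) (H.hnorm hchart hs he₀)
  have hx' : (⟨S'.s, H.hBG G redG hSG hredS hinv he₀ S'.s_mem⟩ : ↥G) = ⟨S.s, hSG S.s_mem⟩ :=
    Subtype.ext H.s_eq
  rw [hx'] at key
  exact key

end Disc

end LocAt₁

/-! ### localisation off the first component -/

/-- `S'` is the chart `S.B[1/e₀]` with the reduction `ρ₂`, `e₀` vanishing on the first
component. -/
structure LocAt₂ (S : NodalChart A hx Ft₁ Ft₂) (S' : ChartSpecP A hx Ft₂) (e₀ : ↥S.B) : Prop where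
  le : S.B ≤ S'.B
  red_eq : ∀ b : ↥S.B, S'.red ⟨(b : F), le b.2⟩ = S.ρ₂ b
  s_eq : S'.s = S.s
  off : S.ρ₁ e₀ = 0
  pow : ∀ b' : ↥S'.B, ∃ (n : ℕ) (b : ↥S.B), (b : F) = (e₀ : F) ^ n * (b' : F)
  in_iff : ∀ P : Place L F, S'.In P ↔ ∃ hP : S.InChart P, S.chi P hP e₀ ≠ 0

namespace LocAt₂

variable {S : NodalChart A hx Ft₁ Ft₂} {S' : ChartSpecP A hx Ft₂} {e₀ : ↥S.B}
  (H : LocAt₂ S S' e₀)

include H in
theorem in_chart (P : Place L F) (hP : S'.In P) : S.InChart P := by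
  obtain ⟨hP0, -⟩ := (H.in_iff P).1 hP
  exact hP0

include H in
theorem chi_e₀_ne_zero (P : Place L F) (hP : S'.In P) : S.chi P (H.in_chart P hP) e₀ ≠ 0 := by
  obtain ⟨hP0, hne⟩ := (H.in_iff P).1 hP
  exact hne

include H in
/-- **the bridge to helper20's `IsLoc₂`.** -/
theorem isLoc : IsLoc₂ S S' where
  le := H.le
  red_eq := H.red_eq
  in_chart := H.in_chart
  cover b' := by
    obtain ⟨n, b, hb⟩ := H.pow b'
    refine ⟨e₀ ^ n, b, hb, fun P hP => ?_⟩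
    rw [map_pow]
    exact pow_ne_zero _ (H.chi_e₀_ne_zero P hP)
  off := ⟨e₀, H.off, fun P hP => H.chi_e₀_ne_zero P hP⟩

include H in
/-- reduction of `b = e₀ ^ n * b'`. -/
theorem red_pow {b' : ↥S'.B} {n : ℕ} {b : ↥S.B} (hb : (b : F) = (e₀ : F) ^ n * (b' : F)) :
    S.ρ₂ b = S.ρ₂ e₀ ^ n * S'.red b' := by
  have h1 : H.isLoc.incl b = H.isLoc.incl e₀ ^ n * b' := Subtype.ext hb
  rw [← H.isLoc.red_incl b, h1, map_mul, map_pow, H.isLoc.red_incl]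

theorem coe_ne_zero_of_ρ₂ {b : ↥S.B} (hb : S.ρ₂ b ≠ 0) : (b : F) ≠ 0 := by
  intro h0
  apply hb
  have : b = 0 := Subtype.ext h0
  rw [this, map_zero]

/-! #### integrality downstairs and the weak norm property -/

section Chart

variable (hchart : ∀ z : F, z ∈ S.B ↔ z ∈ chart ↥A S.s) (Q : Place (kA A) Ft₂)

include hchart in
/-- `ρ₂ S.B ⊆ O_Q` when `ρ₂ s ∈ O_Q` (main's (G1~)). -/
theorem ord_ρ₂_nonneg (hQs : 0 ≤ Q.ord (S.ρ₂ S.sB)) (b : ↥S.B) : 0 ≤ Q.ord (S.ρ₂ b) := by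
  refine Fermat.Agent.ES.RED.ChartFacts9.ord_red_nonneg_of_mem_chart A (resA A) S.B S.ρ₂ S.sB
    ?_ ?_ Q hQs b ((hchart _).1 b.2)
  · intro c hc
    exact (hchart c).2 (adjoin_le_chart S.s hc)
  · intro a h
    exact S.ρ₂_const a

include H hchart in
/-- **`hredint`**: `S'.red S'.B ⊆ O_Q`. -/
theorem hredint (hQs : 0 ≤ Q.ord (S.ρ₂ S.sB)) (he₀ : S.ρ₂ e₀ ≠ 0) (hQe : Q.ord (S.ρ₂ e₀) = 0)
    (b' : ↥S'.B) : S'.red b' ∈ Q.toValuationSubring := by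
  obtain ⟨n, b, hb⟩ := H.pow b'
  have h1 := H.red_pow hb
  have hinv : (S.ρ₂ e₀)⁻¹ ∈ Q.toValuationSubring := by
    rw [ffp_mem_iff_ord_nonneg, Place.ord_inv, hQe, neg_zero]
  have h2 : S'.red b' = S.ρ₂ b * (S.ρ₂ e₀)⁻¹ ^ n := by
    rw [h1]
    calc S'.red b' = S'.red b' * (S.ρ₂ e₀ * (S.ρ₂ e₀)⁻¹) ^ n := by
          rw [mul_inv_cancel₀ he₀, one_pow, mul_one]
      _ = S.ρ₂ e₀ ^ n * S'.red b' * (S.ρ₂ e₀)⁻¹ ^ n := by rw [mul_pow]; ring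
  rw [h2]
  exact Q.toValuationSubring.mul_mem _ _
    ((ffp_mem_iff_ord_nonneg Q).2 (ord_ρ₂_nonneg hchart Q hQs b))
    (pow_mem hinv n)

include H hchart in
/-- **`hnorm`**: the weak norm property of the localised chart. -/
theorem hnorm (hs : Transcendental L S.s) (he₀ : S.ρ₂ e₀ ≠ 0) :
    ∀ z : ↥S'.B, z ≠ 0 → ∃ z' : ↥S'.B, z' ≠ 0 ∧
      ∃ p : L[X], (z : F) * (z' : F) = aeval S'.s p := by
  intro z hz0
  have hzF : (z : F) ≠ 0 := fun h0 => hz0 (Subtype.ext h0)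
  have he₀F : (e₀ : F) ≠ 0 := coe_ne_zero_of_ρ₂ he₀
  obtain ⟨n, b, hb⟩ := H.pow z
  have hbF : (b : F) ≠ 0 := by
    rw [hb]
    exact mul_ne_zero (pow_ne_zero _ he₀F) hzF
  obtain ⟨w, hw, hw0, p, e⟩ :=
    Fermat.Agent.ES.RED.NormFrac18.norm_chart A hs ((hchart _).1 b.2) hbF
  have hwB : w ∈ S.B := (hchart _).2 hw
  refine ⟨⟨(e₀ : F) ^ n * w, H.le (S.B.mul_mem (S.B.pow_mem e₀.2 n) hwB)⟩, ?_, p, ?_⟩
  · intro h0
    have h1 : (e₀ : F) ^ n * w = 0 := congrArg (fun g : ↥S'.B => (g : F)) h0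
    exact mul_ne_zero (pow_ne_zero _ he₀F) hw0 h1
  · show (z : F) * ((e₀ : F) ^ n * w) = aeval S'.s p
    rw [H.s_eq, ← e, hb]
    ring

end Chart

/-! #### the Gauss ring of the component -/

section Gauss

variable (G : Subring F) (redG : ↥G →+* Ft₂) (hSG : S.B ≤ G)
  (hredS : ∀ b : ↥S.B, redG ⟨(b : F), hSG b.2⟩ = S.ρ₂ b)
  (hinv : ∀ g : ↥G, redG g ≠ 0 → ((g : F))⁻¹ ∈ G)

include H hredS hinv in
/-- **`hBG`**: the localised chart ring lies in the Gauss ring of the component. -/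
theorem hBG (he₀ : S.ρ₂ e₀ ≠ 0) : S'.B ≤ G := by
  intro f hf
  obtain ⟨n, b, hb⟩ := H.pow ⟨f, hf⟩
  have hb' : (b : F) = (e₀ : F) ^ n * f := hb
  have he₀G : redG ⟨(e₀ : F), hSG e₀.2⟩ ≠ 0 := by
    rw [hredS]
    exact he₀
  have hi : ((e₀ : F))⁻¹ ∈ G := hinv _ he₀G
  have he₀F : (e₀ : F) ≠ 0 := coe_ne_zero_of_ρ₂ he₀
  have h1 : f = (b : F) * ((e₀ : F))⁻¹ ^ n := by
    rw [hb']
    calc f = f * ((e₀ : F) * ((e₀ : F))⁻¹) ^ n := by
          rw [mul_inv_cancel₀ he₀F, one_pow, mul_one]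
      _ = (e₀ : F) ^ n * f * ((e₀ : F))⁻¹ ^ n := by rw [mul_pow]; ring
  rw [h1]
  exact G.mul_mem (hSG b.2) (G.pow_mem hi n)

include H hredS hinv in
/-- **`hredG`**: the reduction of the Gauss ring extends the reduction of the localised chart. -/
theorem hredG (he₀ : S.ρ₂ e₀ ≠ 0) (f : F) (hf : f ∈ S'.B) :
    redG ⟨f, H.hBG G redG hSG hredS hinv he₀ hf⟩ = S'.red ⟨f, hf⟩ := by
  obtain ⟨n, b, hb⟩ := H.pow ⟨f, hf⟩
  have h1 : (⟨(b : F), hSG b.2⟩ : ↥G) =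
      ⟨(e₀ : F), hSG e₀.2⟩ ^ n * ⟨f, H.hBG G redG hSG hredS hinv he₀ hf⟩ := Subtype.ext hb
  have h2 := congrArg redG h1
  rw [map_mul, map_pow, hredS, hredS, H.red_pow hb] at h2
  exact (mul_left_cancel₀ (pow_ne_zero n he₀) h2).symm

end Gauss

/-! #### the disc -/

section Disc

variable (Q : Place (kA A) Ft₂) {β : Type*} (r : Place L F → β) (b₀ : β)
variable (hD : ∀ P : Place L F, r P = b₀ → ∃ hP : S.InChart P, S.On₂ P hP ∧
  ∀ y, y ∈ Q.toValuationSubring ↔ y ∈ cSubring (S.chi P hP) S.ρ₂)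

omit H in
/-- an element of the chart ring whose reduction is a unit at `Q` does not vanish at the centre of
a place reducing to `Q`. -/
theorem chi_ne_zero_of_ord_eq_zero {P : Place L F} (hP : S.InChart P) (h1 : S.On₂ P hP)
    (hQ : ∀ y, y ∈ Q.toValuationSubring ↔ y ∈ cSubring (S.chi P hP) S.ρ₂) {b : ↥S.B}
    (hb0 : S.ρ₂ b ≠ 0) (hb : Q.ord (S.ρ₂ b) = 0) : S.chi P hP b ≠ 0 := by
  intro h0
  have hv := valAt_of_isCentre (S.isCentre₂ P hP h1) Q hQ b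
  rw [h0] at hv
  rcases hv with hv | hv
  · rw [map_zero] at hv
    exact hb0 hv
  · rw [map_zero, sub_zero, hb] at hv
    exact lt_irrefl _ hv

include H hD in
/-- **`hdisc`**: the disc of `Q` lies in the localised chart. -/
theorem hdisc (he₀ : S.ρ₂ e₀ ≠ 0) (hQe : Q.ord (S.ρ₂ e₀) = 0) :
    ∀ P : Place L F, r P = b₀ → S'.InChart P := by
  intro P hP
  obtain ⟨hP0, h1, hQ⟩ := hD P hP
  exact (H.in_iff P).2 ⟨hP0, chi_ne_zero_of_ord_eq_zero Q hP0 h1 hQ he₀ hQe⟩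

variable [IsAlgClosed (kA A)] {xt : Ft₂} (hxt : IsGen (kA A) xt)

include H hD in
/-- **`hR1`**: (R1), value form, on the disc of `Q`. -/
theorem hR1 : ∀ (P : Place L F) (hP : S'.InChart P), r P = b₀ → ∀ b : ↥S'.B,
    ∃ hmem : S'.red b ∈ Q.toValuationSubring,
      valueHom hxt Q ⟨S'.red b, hmem⟩ = S'.chi P hP b := by
  intro P hP hPb b
  obtain ⟨hP0, h1, hQ⟩ := hD P hPb
  have hQ' : ∀ y, y ∈ Q.toValuationSubring ↔ y ∈ S'.rSubring P hP := fun y => by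
    rw [hQ y]
    exact (H.isLoc.mem_iff P hP y).symm
  exact ⟨(hQ' _).2 (S'.red_mem_rSubring P hP b), S'.valueHom_red_of_eq hxt P hP Q hQ' b⟩

/-! #### the exit -/

variable (hchart : ∀ z : F, z ∈ S.B ↔ z ∈ chart ↥A S.s)
variable (G : Subring F) (redG : ↥G →+* Ft₂) (hSG : S.B ≤ G)
  (hredS : ∀ b : ↥S.B, redG ⟨(b : F), hSG b.2⟩ = S.ρ₂ b)
  (hinv : ∀ g : ↥G, redG g ≠ 0 → ((g : F))⁻¹ ∈ G)

include H hD hchart hredS hinv hxt in
/-- **`PointHyp` at the smooth point `Q` of the second component**, from the localised chart. -/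
theorem pointHyp (hs : Transcendental L S.s)
    (hsne : ∀ a : ↥A, S.s ≠ algebraMap L F (a : L))
    (hrne : ∀ c : kA A, S.ρ₂ S.sB ≠ algebraMap (kA A) Ft₂ c)
    (hQs : 0 ≤ Q.ord (S.ρ₂ S.sB)) (he₀ : S.ρ₂ e₀ ≠ 0) (hQe : Q.ord (S.ρ₂ e₀) = 0)
    (hpeel : ∀ (P : Place L F) (hP : S'.InChart P), r P = b₀ → S'.PeelA P hP) :
    PointHyp A (resA A) G redG r b₀ Q S'.B ⟨S.s, hSG S.s_mem⟩ := by
  have hsne' : ∀ a : ↥A, S'.s ≠ algebraMap L F (a : L) := fun a => by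
    rw [H.s_eq]
    exact hsne a
  have hsB : S'.sB = H.isLoc.incl S.sB := Subtype.ext H.s_eq
  have hrne' : ∀ c : kA A, S'.red S'.sB ≠ algebraMap (kA A) Ft₂ c := fun c => by
    rw [hsB, H.isLoc.red_incl]
    exact hrne c
  have key := Fermat.Agent.ES.W33.R2AdapterP22.pointHyp S' hxt hsne' hrne' G
    (H.hBG G redG hSG hredS hinv he₀) redG (H.hredG G redG hSG hredS hinv he₀) r b₀ Q
    (H.hdisc Q r b₀ hD he₀ hQe) (H.hR1 Q r b₀ hD hxt) hpeel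
    (H.hredint hchart Q hQs he₀ hQe) (H.hnorm hchart hs he₀)
  have hx' : (⟨S'.s, H.hBG G redG hSG hredS hinv he₀ S'.s_mem⟩ : ↥G) = ⟨S.s, hSG S.s_mem⟩ :=
    Subtype.ext H.s_eq
  rw [hx'] at key
  exact key

end Disc

end LocAt₂

/-! ### places outside chart 1 -/

section Outside

variable {nn : ℕ} (T : TwoChartsN A hx Ft₁ Ft₂ nn)

/-- if `P` is not in chart 1 then `s(P) ∈ 𝔪_A` (the twin of `NodalGlue20.chi1_s_eq_zero`). -/
theorem chi0_s_eq_zero (P : Place L F) (h0 : T.S0.InChart P) (h1 : ¬ T.S1.InChart P) :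
    T.S0.chi P h0 T.S0.sB = 0 := by
  by_contra hne
  apply h1
  have hunit : IsUnit (T.S0.ev P h0 T.S0.sB) := by
    rw [← IsLocalRing.residue_ne_zero_iff_isUnit]
    exact hne
  have hval0 : valueHom hx P ⟨T.S0.s, T.S0.mem_place P h0 _ T.S0.s_mem⟩ ≠ 0 := by
    intro h
    have : T.S0.ev P h0 T.S0.sB = 0 := Subtype.ext (by rw [NodalChart.coe_ev]; exact h)
    rw [this] at hunit
    exact not_isUnit_zero hunit
  obtain ⟨hinv, hval⟩ := Fermat.Agent.ES.RED.TwoCharts8.TwoCharts.inv_mem_and_value (hx := hx)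
    (T.S0.mem_place P h0 _ T.S0.s_mem) hval0
  have hs : T.S0.s⁻¹ = T.S1.s := T.s_inv.symm
  have hmem : T.S1.s ∈ P.toValuationSubring := by rw [← hs]; exact hinv
  refine ⟨hmem, ?_⟩
  have h2 : (⟨T.S1.s, hmem⟩ : ↥P.toValuationSubring) = ⟨T.S0.s⁻¹, hinv⟩ := Subtype.ext hs.symm
  rw [h2, hval]
  obtain ⟨w, hw⟩ := hunit.exists_right_inv
  have hw' : ((T.S0.ev P h0 T.S0.sB : ↥A) : L) * (w : L) = 1 :=
    congrArg Subtype.val hw
  rw [NodalChart.coe_ev] at hw'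
  have h3 : (valueHom hx P ⟨T.S0.s, T.S0.mem_place P h0 _ T.S0.s_mem⟩)⁻¹ = (w : L) :=
    inv_eq_of_mul_eq_one_right hw'
  rw [h3]
  exact w.2

end Outside

/-! ### the discs of the first component for `T.r` -/

section TwoCharts₁

variable {nn : ℕ} (T : TwoChartsN A hx Ft₁ Ft₂ nn)

/-- **the disc of a point of the first component in chart 0**, chart description. -/
theorem disc₁_0 (Q : Place (kA A) Ft₁) (hQs : 0 ≤ Q.ord (T.S0.ρ₁ T.S0.sB)) :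
    ∀ P : Place L F, T.r P = Sum.inl (Sum.inl Q) → ∃ hP : T.S0.InChart P, T.S0.On₁ P hP ∧
      ∀ y, y ∈ Q.toValuationSubring ↔ y ∈ cSubring (T.S0.chi P hP) T.S0.ρ₁ := by
  intro P hP
  rcases (T.r_eq_inl_inl_iff P Q).1 hP with ⟨h0, h1, -, hQ⟩ | ⟨h1c, h1, -, hQ⟩
  · exact ⟨h0, h1, hQ⟩
  · by_cases h0 : T.S0.InChart P
    · refine ⟨h0, (T.on₁_iff P h0 h1c).2 h1, fun y => ?_⟩
      rw [hQ y, T.cSubring₁_eq P h0 h1c]
    · exfalso
      have hχ := chi1_s_eq_zero T P h0 h1c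
      have hv := valAt_of_redTo₁_1 h1c h1 hQ T.S1.sB
      rw [hχ] at hv
      rcases hv with hv | hv
      · rw [map_zero] at hv
        exact T.ρ₁_s1_ne_zero hv
      · rw [map_zero, sub_zero, T.ρ₁_s1_eq, Place.ord_inv] at hv
        omega

/-- **the disc of a point of the first component in chart 1**, chart description. -/
theorem disc₁_1 (Q : Place (kA A) Ft₁) (hQs : 0 ≤ Q.ord (T.S1.ρ₁ T.S1.sB)) :
    ∀ P : Place L F, T.r P = Sum.inl (Sum.inl Q) → ∃ hP : T.S1.InChart P, T.S1.On₁ P hP ∧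
      ∀ y, y ∈ Q.toValuationSubring ↔ y ∈ cSubring (T.S1.chi P hP) T.S1.ρ₁ := by
  intro P hP
  rcases (T.r_eq_inl_inl_iff P Q).1 hP with ⟨h0, h1, -, hQ⟩ | ⟨h1c, h1, -, hQ⟩
  · by_cases h1c : T.S1.InChart P
    · refine ⟨h1c, (T.on₁_iff P h0 h1c).1 h1, fun y => ?_⟩
      rw [hQ y, T.cSubring₁_eq P h0 h1c]
    · exfalso
      have hχ := chi0_s_eq_zero T P h0 h1c
      have hv := valAt_of_redTo₁_0 h0 h1 hQ T.S0.sB
      rw [hχ] at hv
      have hinv : T.S0.ρ₁ T.S0.sB = (T.S1.ρ₁ T.S1.sB)⁻¹ := by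
        rw [T.ρ₁_s1_eq, inv_inv]
      rcases hv with hv | hv
      · rw [map_zero] at hv
        exact T.ρ₁_s0_ne_zero hv
      · rw [map_zero, sub_zero, hinv, Place.ord_inv] at hv
        omega
  · exact ⟨h1c, h1, hQ⟩

end TwoCharts₁

/-! ### the discs of the second component for `T.r` -/

section TwoCharts₂

variable {nn : ℕ} (T : TwoChartsN A hx Ft₁ Ft₂ nn)

/-- **the disc of a point of the second component in chart 0**, chart description. -/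
theorem disc₂_0 (Q : Place (kA A) Ft₂) (hQs : 0 ≤ Q.ord (T.S0.ρ₂ T.S0.sB)) :
    ∀ P : Place L F, T.r P = Sum.inl (Sum.inr Q) → ∃ hP : T.S0.InChart P, T.S0.On₂ P hP ∧
      ∀ y, y ∈ Q.toValuationSubring ↔ y ∈ cSubring (T.S0.chi P hP) T.S0.ρ₂ := by
  intro P hP
  rcases (T.r_eq_inl_inr_iff P Q).1 hP with ⟨h0, h1, -, hQ⟩ | ⟨h1c, h1, -, hQ⟩
  · exact ⟨h0, h1, hQ⟩
  · by_cases h0 : T.S0.InChart P
    · refine ⟨h0, (T.on₂_iff P h0 h1c).2 h1, fun y => ?_⟩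
      rw [hQ y, T.cSubring₂_eq P h0 h1c]
    · exfalso
      have hχ := chi1_s_eq_zero T P h0 h1c
      have hv := valAt_of_redTo₂_1 h1c h1 hQ T.S1.sB
      rw [hχ] at hv
      rcases hv with hv | hv
      · rw [map_zero] at hv
        exact T.ρ₂_s1_ne_zero hv
      · rw [map_zero, sub_zero, T.ρ₂_s1_eq, Place.ord_inv] at hv
        omega

/-- **the disc of a point of the second component in chart 1**, chart description. -/
theorem disc₂_1 (Q : Place (kA A) Ft₂) (hQs : 0 ≤ Q.ord (T.S1.ρ₂ T.S1.sB)) :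
    ∀ P : Place L F, T.r P = Sum.inl (Sum.inr Q) → ∃ hP : T.S1.InChart P, T.S1.On₂ P hP ∧
      ∀ y, y ∈ Q.toValuationSubring ↔ y ∈ cSubring (T.S1.chi P hP) T.S1.ρ₂ := by
  intro P hP
  rcases (T.r_eq_inl_inr_iff P Q).1 hP with ⟨h0, h1, -, hQ⟩ | ⟨h1c, h1, -, hQ⟩
  · by_cases h1c : T.S1.InChart P
    · refine ⟨h1c, (T.on₂_iff P h0 h1c).1 h1, fun y => ?_⟩
      rw [hQ y, T.cSubring₂_eq P h0 h1c]
    · exfalso
      have hχ := chi0_s_eq_zero T P h0 h1c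
      have hv := valAt_of_redTo₂_0 h0 h1 hQ T.S0.sB
      rw [hχ] at hv
      have hinv : T.S0.ρ₂ T.S0.sB = (T.S1.ρ₂ T.S1.sB)⁻¹ := by
        rw [T.ρ₂_s1_eq, inv_inv]
      rcases hv with hv | hv
      · rw [map_zero] at hv
        exact T.ρ₂_s0_ne_zero hv
      · rw [map_zero, sub_zero, hinv, Place.ord_inv] at hv
        omega
  · exact ⟨h1c, h1, hQ⟩

end TwoCharts₂

/-! ### the four exits for `T.r` -/

section Exits

variable {nn : ℕ} (T : TwoChartsN A hx Ft₁ Ft₂ nn) [IsAlgClosed (kA A)]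

/-- **`PointHyp` at a point of the first component lying in chart 0.** -/
theorem pointHyp₁_0 {S' : ChartSpecP A hx Ft₁} {e₀ : ↥T.S0.B} (H : LocAt₁ T.S0 S' e₀)
    (Q : Place (kA A) Ft₁) {xt : Ft₁} (hxt : IsGen (kA A) xt)
    (hchart : ∀ z : F, z ∈ T.S0.B ↔ z ∈ chart ↥A T.S0.s)
    (G : Subring F) (redG : ↥G →+* Ft₁) (hSG : T.S0.B ≤ G)
    (hredS : ∀ b : ↥T.S0.B, redG ⟨(b : F), hSG b.2⟩ = T.S0.ρ₁ b)
    (hinv : ∀ g : ↥G, redG g ≠ 0 → ((g : F))⁻¹ ∈ G)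
    (hs : Transcendental L T.S0.s)
    (hsne : ∀ a : ↥A, T.S0.s ≠ algebraMap L F (a : L))
    (hrne : ∀ c : kA A, T.S0.ρ₁ T.S0.sB ≠ algebraMap (kA A) Ft₁ c)
    (hQs : 0 ≤ Q.ord (T.S0.ρ₁ T.S0.sB)) (he₀ : T.S0.ρ₁ e₀ ≠ 0) (hQe : Q.ord (T.S0.ρ₁ e₀) = 0)
    (hpeel : ∀ (P : Place L F) (hP : S'.InChart P), T.r P = Sum.inl (Sum.inl Q) → S'.PeelA P hP) :
    PointHyp A (resA A) G redG T.r (Sum.inl (Sum.inl Q)) Q S'.B ⟨T.S0.s, hSG T.S0.s_mem⟩ :=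
  H.pointHyp Q T.r _ (disc₁_0 T Q hQs) hxt hchart G redG hSG hredS hinv hs hsne hrne hQs he₀ hQe
    hpeel

/-- **`PointHyp` at a point of the first component lying in chart 1.** -/
theorem pointHyp₁_1 {S' : ChartSpecP A hx Ft₁} {e₀ : ↥T.S1.B} (H : LocAt₁ T.S1 S' e₀)
    (Q : Place (kA A) Ft₁) {xt : Ft₁} (hxt : IsGen (kA A) xt)
    (hchart : ∀ z : F, z ∈ T.S1.B ↔ z ∈ chart ↥A T.S1.s)
    (G : Subring F) (redG : ↥G →+* Ft₁) (hSG : T.S1.B ≤ G)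
    (hredS : ∀ b : ↥T.S1.B, redG ⟨(b : F), hSG b.2⟩ = T.S1.ρ₁ b)
    (hinv : ∀ g : ↥G, redG g ≠ 0 → ((g : F))⁻¹ ∈ G)
    (hs : Transcendental L T.S1.s)
    (hsne : ∀ a : ↥A, T.S1.s ≠ algebraMap L F (a : L))
    (hrne : ∀ c : kA A, T.S1.ρ₁ T.S1.sB ≠ algebraMap (kA A) Ft₁ c)
    (hQs : 0 ≤ Q.ord (T.S1.ρ₁ T.S1.sB)) (he₀ : T.S1.ρ₁ e₀ ≠ 0) (hQe : Q.ord (T.S1.ρ₁ e₀) = 0)
    (hpeel : ∀ (P : Place L F) (hP : S'.InChart P), T.r P = Sum.inl (Sum.inl Q) → S'.PeelA P hP) :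
    PointHyp A (resA A) G redG T.r (Sum.inl (Sum.inl Q)) Q S'.B ⟨T.S1.s, hSG T.S1.s_mem⟩ :=
  H.pointHyp Q T.r _ (disc₁_1 T Q hQs) hxt hchart G redG hSG hredS hinv hs hsne hrne hQs he₀ hQe
    hpeel

/-- **`PointHyp` at a point of the second component lying in chart 0.** -/
theorem pointHyp₂_0 {S' : ChartSpecP A hx Ft₂} {e₀ : ↥T.S0.B} (H : LocAt₂ T.S0 S' e₀)
    (Q : Place (kA A) Ft₂) {xt : Ft₂} (hxt : IsGen (kA A) xt)
    (hchart : ∀ z : F, z ∈ T.S0.B ↔ z ∈ chart ↥A T.S0.s)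
    (G : Subring F) (redG : ↥G →+* Ft₂) (hSG : T.S0.B ≤ G)
    (hredS : ∀ b : ↥T.S0.B, redG ⟨(b : F), hSG b.2⟩ = T.S0.ρ₂ b)
    (hinv : ∀ g : ↥G, redG g ≠ 0 → ((g : F))⁻¹ ∈ G)
    (hs : Transcendental L T.S0.s)
    (hsne : ∀ a : ↥A, T.S0.s ≠ algebraMap L F (a : L))
    (hrne : ∀ c : kA A, T.S0.ρ₂ T.S0.sB ≠ algebraMap (kA A) Ft₂ c)
    (hQs : 0 ≤ Q.ord (T.S0.ρ₂ T.S0.sB)) (he₀ : T.S0.ρ₂ e₀ ≠ 0) (hQe : Q.ord (T.S0.ρ₂ e₀) = 0)
    (hpeel : ∀ (P : Place L F) (hP : S'.InChart P), T.r P = Sum.inl (Sum.inr Q) → S'.PeelA P hP) :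
    PointHyp A (resA A) G redG T.r (Sum.inl (Sum.inr Q)) Q S'.B ⟨T.S0.s, hSG T.S0.s_mem⟩ :=
  H.pointHyp Q T.r _ (disc₂_0 T Q hQs) hxt hchart G redG hSG hredS hinv hs hsne hrne hQs he₀ hQe
    hpeel

/-- **`PointHyp` at a point of the second component lying in chart 1.** -/
theorem pointHyp₂_1 {S' : ChartSpecP A hx Ft₂} {e₀ : ↥T.S1.B} (H : LocAt₂ T.S1 S' e₀)
    (Q : Place (kA A) Ft₂) {xt : Ft₂} (hxt : IsGen (kA A) xt)
    (hchart : ∀ z : F, z ∈ T.S1.B ↔ z ∈ chart ↥A T.S1.s)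
    (G : Subring F) (redG : ↥G →+* Ft₂) (hSG : T.S1.B ≤ G)
    (hredS : ∀ b : ↥T.S1.B, redG ⟨(b : F), hSG b.2⟩ = T.S1.ρ₂ b)
    (hinv : ∀ g : ↥G, redG g ≠ 0 → ((g : F))⁻¹ ∈ G)
    (hs : Transcendental L T.S1.s)
    (hsne : ∀ a : ↥A, T.S1.s ≠ algebraMap L F (a : L))
    (hrne : ∀ c : kA A, T.S1.ρ₂ T.S1.sB ≠ algebraMap (kA A) Ft₂ c)
    (hQs : 0 ≤ Q.ord (T.S1.ρ₂ T.S1.sB)) (he₀ : T.S1.ρ₂ e₀ ≠ 0) (hQe : Q.ord (T.S1.ρ₂ e₀) = 0)
    (hpeel : ∀ (P : Place L F) (hP : S'.InChart P), T.r P = Sum.inl (Sum.inr Q) → S'.PeelA P hP) :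
    PointHyp A (resA A) G redG T.r (Sum.inl (Sum.inr Q)) Q S'.B ⟨T.S1.s, hSG T.S1.s_mem⟩ :=
  H.pointHyp Q T.r _ (disc₂_1 T Q hQs) hxt hchart G redG hSG hredS hinv hs hsne hrne hQs he₀ hQe
    hpeel

end Exits

end Fermat.Agent.ES.W33.LocPointN22
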