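/-
Programme W (S33), chapter (B3′), helper29: **the field `scale` of `XiIfaceN29.RedCtxN` for `G = O₁ ⊓ O₂`
from the two one-component scalings** ("scale by the MINIMUM of the two Gauss valuations").

ABSTRACT FORM (`scale_inf`): `A ≤ K` a valuation ring, `O₁ O₂ ≤ F` two subrings containing the constants of
`A`, with reductions `ρ₁ : O₁ →+* Ft₁`, `ρ₂ : O₂ →+* Ft₂`; if every `f ≠ 0` is `c₁ · u₁` with `u₁ ∈ O₁`,
`ρ₁ u₁ ≠ 0` (scale₁) and `c₂ · u₂` with `u₂ ∈ O₂`, `ρ₂ u₂ ≠ 0` (scale₂), then every `f ≠ 0` is `c · u` with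
`u ∈ O₁ ⊓ O₂` and `(ρ₁ u, ρ₂ u) ≠ 0`: take for `c` the one of `c₁, c₂` which divides the other in `A`.

INSTANCE FORM (`scaleN`): at helper3's `NodalDefs3` (`GN = O1 ⊓ O2`, `redN = (rho1, rho1 ∘ W)`), from
* `hs₁` : scale₁ in the form of helper25's `ScaleOne25.exists_scale_bad`
  (`∀ f ≠ 0, ∃ c ≠ 0, IsGU Gq1 redq1 (c⁻¹ f)`), and
* `hc`  : the constants of `A` lie in `O1`
(scale₂ is scale₁ transported by the Fricke involution `W`, which is `ℚ̄`-linear), the LITERAL field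
`RedCtxN.scale` for `(GN, redN)`; `scaleN_of_scale_one` : the same from `hs₁` alone.

CONSTANT FIELDS of `RedCtxN` at the instance (literal shapes): `const_mem_GN` (`const_mem`), `redN_const`
(`red_const`), `resA_nonunit` (`pi_nonunit`).  So FOUR of the nine fields of `NodalDefs3.NodalRedCtx`
(`const_mem`, `red_const`, `pi_nonunit`, `scale`) are reduced to scale₁ = `ScaleOne25.exists_scale_bad`.
-/
import Mathlib
import Fermat.Agent.ES.V19.GaussFrac15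
import Fermat.Agent.ES.W33.NodalDefs3

set_option autoImplicit false
set_option synthInstance.maxHeartbeats 400000
set_option linter.unusedSectionVars false

noncomputable section

namespace Fermat.Agent.ES.W33.ScaleTwoN29

/-! ### The abstract form -/

section Abstract

variable {K F Ft₁ Ft₂ : Type*} [Field K] [Field F] [Algebra K F] [Field Ft₁] [Field Ft₂]

/-- **scaling by the minimum of two valuations.** -/
theorem scale_inf (A : ValuationSubring K) (O₁ O₂ : Subring F) (ρ₁ : ↥O₁ →+* Ft₁)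
    (ρ₂ : ↥O₂ →+* Ft₂)
    (hc₁ : ∀ a : ↥A, algebraMap K F (a : K) ∈ O₁) (hc₂ : ∀ a : ↥A, algebraMap K F (a : K) ∈ O₂)
    (s₁ : ∀ f : F, f ≠ 0 → ∃ c : K, c ≠ 0 ∧ ∃ h : (algebraMap K F c)⁻¹ * f ∈ O₁, ρ₁ ⟨_, h⟩ ≠ 0)
    (s₂ : ∀ f : F, f ≠ 0 → ∃ c : K, c ≠ 0 ∧ ∃ h : (algebraMap K F c)⁻¹ * f ∈ O₂, ρ₂ ⟨_, h⟩ ≠ 0)
    (f : F) (hf : f ≠ 0) :
    ∃ c : K, c ≠ 0 ∧ ∃ (h₁ : (algebraMap K F c)⁻¹ * f ∈ O₁) (h₂ : (algebraMap K F c)⁻¹ * f ∈ O₂),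
      ρ₁ ⟨_, h₁⟩ ≠ 0 ∨ ρ₂ ⟨_, h₂⟩ ≠ 0 := by
  obtain ⟨c₁, hc₁0, hu₁, hρ₁⟩ := s₁ f hf
  obtain ⟨c₂, hc₂0, hu₂, hρ₂⟩ := s₂ f hf
  have key : ∀ c c' : K, c ≠ 0 → c' ≠ 0 →
      (algebraMap K F c)⁻¹ * f = algebraMap K F (c' / c) * ((algebraMap K F c')⁻¹ * f) := by
    intro c c' h0 h0'
    have e1 : algebraMap K F c ≠ 0 := (map_ne_zero _).mpr h0
    have e2 : algebraMap K F c' ≠ 0 := (map_ne_zero _).mpr h0'
    rw [map_div₀]
    field_simp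
  rcases A.mem_or_inv_mem (c₂ / c₁) with h | h
  · -- `c₂ / c₁ ∈ A`: scale by `c₁`
    refine ⟨c₁, hc₁0, hu₁, ?_, Or.inl hρ₁⟩
    rw [key c₁ c₂ hc₁0 hc₂0]
    exact O₂.mul_mem (hc₂ ⟨_, h⟩) hu₂
  · -- `c₁ / c₂ ∈ A`: scale by `c₂`
    have h' : c₁ / c₂ ∈ A := by
      rwa [inv_div] at h
    refine ⟨c₂, hc₂0, ?_, hu₂, Or.inr hρ₂⟩
    rw [key c₂ c₁ hc₂0 hc₁0]
    exact O₁.mul_mem (hc₁ ⟨_, h'⟩) hu₁

end Abstract

/-! ### The instance form, in the names of `NodalDefs3` -/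

section Instance

open HahnSeries ModularCurve AlgebraicCurve
open Fermat.Agent.RED.Interface4 Fermat.Agent.RED.BASE.Interface12 Fermat.Agent.RED.BASE.Hauptmodul12
  Fermat.Agent.ES.RED.Contract8 Fermat.Agent.ES.RED.ModelInst4 Fermat.Agent.ES.RED.GaussRing15
  Fermat.Agent.ES.RED.SpecialInv25 Fermat.Agent.ES.HECKE.LevelPullback12 Fermat.Agent.ES.N34.FrickeFK8
  Fermat.Agent.ES.V19.GaussFrac15 Fermat.Agent.ES.V19.InstNames3 Fermat.Agent.ES.W33.NodalDefs3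

attribute [local instance 5000] HahnSeries.powerSeriesAlgebra SubalgebraClass.toAlgebra

variable (M' : ℕ) [NeZero M'] (p : ℕ) [Fact p.Prime] (A : ValuationSubring Qbar)

/-- the constants of `A` lie in `O2` as soon as they lie in `O1` (`W` is `ℚ̄`-linear). -/
theorem const_mem_O2 (hc : ∀ a : ↥A, algebraMap Qbar ↥(Fbar (M' * p)) (a : Qbar) ∈ O1 M' p A)
    (a : ↥A) : algebraMap Qbar ↥(Fbar (M' * p)) (a : Qbar) ∈ O2 M' p A := by
  rw [mem_O2_iff, AlgEquiv.commutes]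
  exact hc a

/-- scale₁ in membership form. -/
theorem scale_O1
    (hs₁ : ∀ f : ↥(Fbar (M' * p)), f ≠ 0 → ∃ c : Qbar, c ≠ 0 ∧
      IsGU (Gq1 M' p A) (redq1 M' p A) ((algebraMap Qbar ↥(Fbar (M' * p)) c)⁻¹ * f))
    (f : ↥(Fbar (M' * p))) (hf : f ≠ 0) :
    ∃ c : Qbar, c ≠ 0 ∧ ∃ h : (algebraMap Qbar ↥(Fbar (M' * p)) c)⁻¹ * f ∈ O1 M' p A,
      rho1 M' p A ⟨_, h⟩ ≠ 0 := by
  obtain ⟨c, hc0, hu⟩ := hs₁ f hf
  refine ⟨c, hc0, hu.isGI, ?_⟩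
  exact (isGU_iff_rho_ne_zero (G := Gq1 M' p A) (red := redq1 M' p A) ⟨_, hu.isGI⟩).mp hu

/-- `W (c⁻¹ f) = c⁻¹ W f`. -/
theorem fricke_scale (c : Qbar) (f : ↥(Fbar (M' * p))) :
    frickeN M' p ((algebraMap Qbar ↥(Fbar (M' * p)) c)⁻¹ * f) =
      (algebraMap Qbar ↥(Fbar (M' * p)) c)⁻¹ * frickeN M' p f := by
  rw [map_mul, map_inv₀, AlgEquiv.commutes]

/-- `rho2 g = rho1 (W g)`, for any proof of membership. -/
theorem rho2_eq (g : ↥(Fbar (M' * p))) (h2 : g ∈ O2 M' p A) (y : ↥(Fbar (M' * p)))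
    (hy : frickeN M' p g = y) (h1 : y ∈ O1 M' p A) :
    rho2 M' p A ⟨g, h2⟩ = rho1 M' p A ⟨y, h1⟩ := by
  subst hy
  exact rho2_apply M' p A ⟨g, h2⟩

/-- scale₂ = scale₁ transported by `W`. -/
theorem scale_O2
    (hs₁ : ∀ f : ↥(Fbar (M' * p)), f ≠ 0 → ∃ c : Qbar, c ≠ 0 ∧
      IsGU (Gq1 M' p A) (redq1 M' p A) ((algebraMap Qbar ↥(Fbar (M' * p)) c)⁻¹ * f))
    (f : ↥(Fbar (M' * p))) (hf : f ≠ 0) :
    ∃ c : Qbar, c ≠ 0 ∧ ∃ h : (algebraMap Qbar ↥(Fbar (M' * p)) c)⁻¹ * f ∈ O2 M' p A,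
      rho2 M' p A ⟨_, h⟩ ≠ 0 := by
  have hWf : frickeN M' p f ≠ 0 := (map_ne_zero_iff _ (frickeN M' p).injective).mpr hf
  obtain ⟨c, hc0, h, hρ⟩ := scale_O1 M' p A hs₁ (frickeN M' p f) hWf
  have e := fricke_scale M' p c f
  have h2 : (algebraMap Qbar ↥(Fbar (M' * p)) c)⁻¹ * f ∈ O2 M' p A := by
    have h' : frickeN M' p ((algebraMap Qbar ↥(Fbar (M' * p)) c)⁻¹ * f) ∈ O1 M' p A := by
      rw [e]
      exact h
    exact (mem_O2_iff M' p A _).mpr h'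
  refine ⟨c, hc0, h2, ?_⟩
  rw [rho2_eq M' p A _ h2 _ e h]
  exact hρ

/-- **`RedCtxN.scale` at the instance**, literally. -/
theorem scaleN (hc : ∀ a : ↥A, algebraMap Qbar ↥(Fbar (M' * p)) (a : Qbar) ∈ O1 M' p A)
    (hs₁ : ∀ f : ↥(Fbar (M' * p)), f ≠ 0 → ∃ c : Qbar, c ≠ 0 ∧
      IsGU (Gq1 M' p A) (redq1 M' p A) ((algebraMap Qbar ↥(Fbar (M' * p)) c)⁻¹ * f)) :
    ∀ f : ↥(Fbar (M' * p)), f ≠ 0 → ∃ c : Qbar, c ≠ 0 ∧
      ∃ h : (algebraMap Qbar ↥(Fbar (M' * p)) c)⁻¹ * f ∈ GN M' p A, redN M' p A ⟨_, h⟩ ≠ 0 := by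
  intro f hf
  obtain ⟨c, hc0, h₁, h₂, hρ⟩ := scale_inf A (O1 M' p A) (O2 M' p A) (rho1 M' p A) (rho2 M' p A)
    hc (const_mem_O2 M' p A hc) (scale_O1 M' p A hs₁) (scale_O2 M' p A hs₁) f hf
  refine ⟨c, hc0, ⟨h₁, h₂⟩, fun h0 => ?_⟩
  rcases hρ with hρ | hρ
  · apply hρ
    have := congrArg Prod.fst h0
    rwa [redN_fst] at this
  · apply hρ
    have := congrArg Prod.snd h0
    rwa [redN_snd] at this

/-! ### The constant fields of `RedCtxN` at the instance -/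

/-- the constants of `A` lie in `O1`. -/
theorem const_mem_O1 (a : ↥A) : algebraMap Qbar ↥(Fbar (M' * p)) (a : Qbar) ∈ O1 M' p A :=
  le_gaussInt (G := Gq1 M' p A) (red := redq1 M' p A)
    (algebraMap_mem_gaussRing A (resA A) (Fbar (M' * p)) (modularFunctionFieldFullC (kA A) M') a)

/-- **`RedCtxN.const_mem` at the instance.** -/
theorem const_mem_GN (a : ↥A) : algebraMap Qbar ↥(Fbar (M' * p)) (a : Qbar) ∈ GN M' p A :=
  ⟨const_mem_O1 M' p A a, const_mem_O2 M' p A (const_mem_O1 M' p A) a⟩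

/-- the first reduction of a constant. -/
theorem rho1_const (a : ↥A) (h : algebraMap Qbar ↥(Fbar (M' * p)) (a : Qbar) ∈ O1 M' p A) :
    rho1 M' p A ⟨_, h⟩ = algebraMap (kA A) (Ft M' A) (resA A a) := by
  have h1 := rho_of_mem (G := Gq1 M' p A) (red := redq1 M' p A)
    ⟨algebraMap Qbar ↥(Fbar (M' * p)) (a : Qbar),
      algebraMap_mem_gaussRing A (resA A) (Fbar (M' * p)) (modularFunctionFieldFullC (kA A) M') a⟩
  have h2 := gaussRed_algebraMap A (resA A) (Fbar (M' * p))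
    (modularFunctionFieldFullC (kA A) M') a
  exact h1.trans h2

/-- **`RedCtxN.red_const` at the instance.** -/
theorem redN_const (a : ↥A) :
    redN M' p A ⟨algebraMap Qbar ↥(Fbar (M' * p)) (a : Qbar), const_mem_GN M' p A a⟩ =
      (algebraMap (kA A) (Ft M' A) (resA A a), algebraMap (kA A) (Ft M' A) (resA A a)) := by
  refine Prod.ext ?_ ?_
  · rw [redN_fst]
    exact rho1_const M' p A a _
  · rw [redN_snd]
    have e : frickeN M' p (algebraMap Qbar ↥(Fbar (M' * p)) (a : Qbar)) =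
        algebraMap Qbar ↥(Fbar (M' * p)) (a : Qbar) := AlgEquiv.commutes _ _
    rw [rho2_eq M' p A _ _ _ e (const_mem_O1 M' p A a)]
    exact rho1_const M' p A a _

/-- **`RedCtxN.pi_nonunit` at the instance.** -/
theorem resA_nonunit (a : ↥A) (ha : ¬ IsUnit a) : resA A a = 0 :=
  (IsLocalRing.residue_eq_zero_iff a).mpr ((IsLocalRing.mem_maximalIdeal a).mpr ha)

/-- **`RedCtxN.scale` at the instance, from scale₁ alone.** -/
theorem scaleN_of_scale_one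
    (hs₁ : ∀ f : ↥(Fbar (M' * p)), f ≠ 0 → ∃ c : Qbar, c ≠ 0 ∧
      IsGU (Gq1 M' p A) (redq1 M' p A) ((algebraMap Qbar ↥(Fbar (M' * p)) c)⁻¹ * f)) :
    ∀ f : ↥(Fbar (M' * p)), f ≠ 0 → ∃ c : Qbar, c ≠ 0 ∧
      ∃ h : (algebraMap Qbar ↥(Fbar (M' * p)) c)⁻¹ * f ∈ GN M' p A, redN M' p A ⟨_, h⟩ ≠ 0 :=
  scaleN M' p A (const_mem_O1 M' p A) hs₁

end Instance

end Fermat.Agent.ES.W33.ScaleTwoN29
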