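/-
Programme W (S33), chapter (B3′), leaf (Q2) at the INSTANCE — helper9:
**the `e`-saturation `hsat` of `LocChartGenN9.locChart` at the nodal instance of `NodalDefs3`, and the
two localised charts `locChart₁`, `locChart₂` with their Gauss fields `hBG`, `hredG`.**

`S₀ : NodalChart A (hxN …) (Ft M' A) (Ft M' A)` ANY nodal chart whose ring lies in `GN` (`hG`) and whose
two reductions are `rho1`, `rho2` (`hρ₁`, `hρ₂`; for `S0N L`, `S1N L` of `TwoChartsNInst20` both are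
`rfl`).  Standing hypotheses `hp2 : p ≠ 2`, `hpM : ¬ p ∣ M'`, `hM : 4 ∣ M'`, `hA : A.LiesOverPrime p`.

* `scale₁`, `scale₂` : the two scalings (`NodalGauss3.exists_scale1` through `ScaleTwoN29.scale_O1/O2`);
  `arch` : rank one (`ArchVal14.exists_dvd_pow`);
* **`hsat₁_of`, `hsat₂_of`** : the literal `hsat` of `locChart S₀ e₀ S₀.ρ₁ …` (`ρ₁ e₀ ≠ 0`, `ρ₂ e₀ = 0`)
  resp. `… S₀.ρ₂ …` (`ρ₂ e₀ ≠ 0`, `ρ₁ e₀ = 0`);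
* **`locChart₁`, `locChart₂`** : the localised charts `ChartSpecP A (hxN …) (Ft M' A)`;
  `isLoc₁`, `isLoc₂` (helper20's `LocBridge20.IsLoc_i`);
* **`hBG₁ : (locChart₁ …).B ≤ O1`, `hredG₁ : rho1 ⟨b, _⟩ = (locChart₁ …).red ⟨b, hb⟩`** and the twins
  `hBG₂`, `hredG₂` with `O2`, `rho2` — the fields `hBG`, `hredG` of `GoodCofiniteN9.ChartAt₁/₂`.
-/
import Mathlib
import Fermat.Agent.ES.W33.LocSatN9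
import Fermat.Agent.ES.W33.TwoChartsNInst20
import Fermat.Agent.ES.W33.NodalGauss3
import Fermat.Agent.ES.W33.ScaleTwoN29
import Fermat.Agent.ES.W33.TauUnitN21
import Fermat.Agent.ES.V19.ArchVal14

set_option autoImplicit false
set_option synthInstance.maxHeartbeats 400000
set_option linter.unusedSectionVars false

open HahnSeries ModularCurve AlgebraicCurve

noncomputable section

namespace Fermat.Agent.ES.W33.LocSatInstN9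

open Fermat.Agent.RED.Interface4 Fermat.Agent.RED.BASE.Interface12 Fermat.Agent.RED.BASE.Hauptmodul12
  Fermat.Agent.ES.RED.Contract8 Fermat.Agent.ES.RED.ModelInst4
  Fermat.Agent.X0 Fermat.Agent.X0.FF
  Fermat.Agent.ES.V19.GaussFrac15 Fermat.Agent.ES.V19.InstNames3
  Fermat.Agent.ES.W33.NodalDefs3 Fermat.Agent.ES.W33.NodalChart20 Fermat.Agent.ES.W33.ContractP3
  Fermat.Agent.ES.W33.LocChartGenN9 Fermat.Agent.ES.W33.TwoChartsNInst20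

attribute [local instance 5000] HahnSeries.powerSeriesAlgebra SubalgebraClass.toAlgebra

variable (n e M' : ℕ) [NeZero n] [NeZero M'] (p : ℕ) [Fact p.Prime]
  (hb : BaseHyp n e) (hnM : n ∣ M') (A : ValuationSubring Qbar)

/-! ### the three Gauss inputs -/

/-- scaling for the first Gauss valuation. -/
theorem scale₁ (hp2 : p ≠ 2) (hpM : ¬ p ∣ M') (hM : 4 ∣ M') (hA : A.LiesOverPrime p) :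
    ∀ f : ↥(Fbar (M' * p)), f ≠ 0 → ∃ c : Qbar, c ≠ 0 ∧
      ∃ h : (algebraMap Qbar ↥(Fbar (M' * p)) c)⁻¹ * f ∈ O1 M' p A, rho1 M' p A ⟨_, h⟩ ≠ 0 :=
  Fermat.Agent.ES.W33.ScaleTwoN29.scale_O1 M' p A
    (Fermat.Agent.ES.W33.NodalGauss3.exists_scale1 M' p A hp2 hpM hM hA)

/-- scaling for the second Gauss valuation. -/
theorem scale₂ (hp2 : p ≠ 2) (hpM : ¬ p ∣ M') (hM : 4 ∣ M') (hA : A.LiesOverPrime p) :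
    ∀ f : ↥(Fbar (M' * p)), f ≠ 0 → ∃ c : Qbar, c ≠ 0 ∧
      ∃ h : (algebraMap Qbar ↥(Fbar (M' * p)) c)⁻¹ * f ∈ O2 M' p A, rho2 M' p A ⟨_, h⟩ ≠ 0 :=
  Fermat.Agent.ES.W33.ScaleTwoN29.scale_O2 M' p A
    (Fermat.Agent.ES.W33.NodalGauss3.exists_scale1 M' p A hp2 hpM hM hA)

/-- rank one. -/
theorem arch (hA : A.LiesOverPrime p) :
    ∀ m : ↥A, ¬ IsUnit m → ∀ d : ↥A, d ≠ 0 → ∃ N : ℕ, d ∣ m ^ N := fun m hm _ hd =>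
  Fermat.Agent.ES.V19.ArchVal14.exists_dvd_pow (Fact.out : p.Prime) hA
    ((IsLocalRing.mem_maximalIdeal m).2 hm) hd

/-! ### `hsat` for a nodal chart inside `GN` -/

section Of

variable {n e M' p hb hnM A}
variable (S₀ : NodalChart A (hxN n e M' p hb hnM) (Ft M' A) (Ft M' A))
  (hG : ∀ b ∈ S₀.B, b ∈ GN M' p A)
  (hρ₁ : ∀ b : ↥S₀.B, S₀.ρ₁ b = rho1 M' p A ⟨(b : ↥(Fbar (M' * p))), GN_le_O1 M' p A (hG _ b.2)⟩)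
  (hρ₂ : ∀ b : ↥S₀.B, S₀.ρ₂ b = rho2 M' p A ⟨(b : ↥(Fbar (M' * p))), GN_le_O2 M' p A (hG _ b.2)⟩)
  (hp2 : p ≠ 2) (hpM : ¬ p ∣ M') (hM : 4 ∣ M') (hA : A.LiesOverPrime p)

include hρ₁ hρ₂ hp2 hpM hM hA in
/-- **`hsat` off the second component.** -/
theorem hsat₁_of (e₀ : ↥S₀.B) (he : S₀.ρ₁ e₀ ≠ 0) (he' : S₀.ρ₂ e₀ = 0) :
    ∀ b : ↥S₀.B, b ≠ 0 → ∃ (k : ℕ) (c : ↥A) (b' : ↥S₀.B),
      (e₀ : ↥(Fbar (M' * p))) ^ k * (b : ↥(Fbar (M' * p))) =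
        algebraMap Qbar ↥(Fbar (M' * p)) (c : Qbar) * (b' : ↥(Fbar (M' * p))) ∧ S₀.ρ₁ b' ≠ 0 :=
  Fermat.Agent.ES.W33.LocSatN9.hsat₁ S₀ (O1 M' p A) (O2 M' p A) (rho1 M' p A) (rho2 M' p A)
    (fun _ hb' => GN_le_O1 M' p A (hG _ hb')) (fun _ hb' => GN_le_O2 M' p A (hG _ hb'))
    (fun b => (hρ₁ b).symm) (fun b => (hρ₂ b).symm)
    (scale₁ M' p A hp2 hpM hM hA) (scale₂ M' p A hp2 hpM hM hA) (arch p A hA) e₀ he he'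

include hρ₁ hρ₂ hp2 hpM hM hA in
/-- **`hsat` off the first component.** -/
theorem hsat₂_of (e₀ : ↥S₀.B) (he : S₀.ρ₂ e₀ ≠ 0) (he' : S₀.ρ₁ e₀ = 0) :
    ∀ b : ↥S₀.B, b ≠ 0 → ∃ (k : ℕ) (c : ↥A) (b' : ↥S₀.B),
      (e₀ : ↥(Fbar (M' * p))) ^ k * (b : ↥(Fbar (M' * p))) =
        algebraMap Qbar ↥(Fbar (M' * p)) (c : Qbar) * (b' : ↥(Fbar (M' * p))) ∧ S₀.ρ₂ b' ≠ 0 :=
  Fermat.Agent.ES.W33.LocSatN9.hsat₂ S₀ (O1 M' p A) (O2 M' p A) (rho1 M' p A) (rho2 M' p A)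
    (fun _ hb' => GN_le_O1 M' p A (hG _ hb')) (fun _ hb' => GN_le_O2 M' p A (hG _ hb'))
    (fun b => (hρ₁ b).symm) (fun b => (hρ₂ b).symm)
    (scale₁ M' p A hp2 hpM hM hA) (scale₂ M' p A hp2 hpM hM hA) (arch p A hA) e₀ he he'

/-- **the chart localised off the second component.** -/
def locChart₁ (e₀ : ↥S₀.B) (he : S₀.ρ₁ e₀ ≠ 0) (he' : S₀.ρ₂ e₀ = 0) :
    ChartSpecP A (hxN n e M' p hb hnM) (Ft M' A) :=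
  locChart S₀ e₀ S₀.ρ₁ S₀.ρ₁_const he (hsat₁_of S₀ hG hρ₁ hρ₂ hp2 hpM hM hA e₀ he he')

/-- **the chart localised off the first component.** -/
def locChart₂ (e₀ : ↥S₀.B) (he : S₀.ρ₂ e₀ ≠ 0) (he' : S₀.ρ₁ e₀ = 0) :
    ChartSpecP A (hxN n e M' p hb hnM) (Ft M' A) :=
  locChart S₀ e₀ S₀.ρ₂ S₀.ρ₂_const he (hsat₂_of S₀ hG hρ₁ hρ₂ hp2 hpM hM hA e₀ he he')

theorem isLoc₁ (e₀ : ↥S₀.B) (he : S₀.ρ₁ e₀ ≠ 0) (he' : S₀.ρ₂ e₀ = 0) :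
    Fermat.Agent.ES.W33.LocBridge20.IsLoc₁ S₀
      (locChart₁ S₀ hG hρ₁ hρ₂ hp2 hpM hM hA e₀ he he') :=
  Fermat.Agent.ES.W33.LocChartGenN9.isLoc₁ S₀ e₀ he he' _

theorem isLoc₂ (e₀ : ↥S₀.B) (he : S₀.ρ₂ e₀ ≠ 0) (he' : S₀.ρ₁ e₀ = 0) :
    Fermat.Agent.ES.W33.LocBridge20.IsLoc₂ S₀
      (locChart₂ S₀ hG hρ₁ hρ₂ hp2 hpM hM hA e₀ he he') :=
  Fermat.Agent.ES.W33.LocChartGenN9.isLoc₂ S₀ e₀ he he' _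

/-! ### the Gauss fields `hBG`, `hredG` -/

include hρ₁ in
/-- `B[1/e₀] ≤ O1` when `ρ₁ e₀ ≠ 0`. -/
theorem locRing_le_O1 (e₀ : ↥S₀.B) (he : S₀.ρ₁ e₀ ≠ 0) : locRing S₀ e₀ ≤ O1 M' p A := by
  intro f hf
  obtain ⟨k, hk⟩ := hf
  have heO : (e₀ : ↥(Fbar (M' * p))) ∈ O1 M' p A := GN_le_O1 M' p A (hG _ e₀.2)
  have hre : rho1 M' p A ⟨(e₀ : ↥(Fbar (M' * p))), heO⟩ ≠ 0 := by
    rw [← hρ₁ e₀]; exact he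
  have hinv : ((e₀ : ↥(Fbar (M' * p))))⁻¹ ∈ O1 M' p A :=
    Fermat.Agent.ES.W33.TauUnitN21.inv_mem_O1 M' p A heO hre
  have he0 : (e₀ : ↥(Fbar (M' * p))) ≠ 0 := by
    intro h0
    apply hre
    have : (⟨(e₀ : ↥(Fbar (M' * p))), heO⟩ : ↥(O1 M' p A)) = 0 := Subtype.ext h0
    rw [this, map_zero]
  have h1 : f = ((e₀ : ↥(Fbar (M' * p))))⁻¹ ^ k * ((e₀ : ↥(Fbar (M' * p))) ^ k * f) := by
    rw [← mul_assoc, ← mul_pow, inv_mul_cancel₀ he0, one_pow, one_mul]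
  rw [h1]
  exact (O1 M' p A).mul_mem ((O1 M' p A).pow_mem hinv k) (GN_le_O1 M' p A (hG _ hk))

include hρ₂ in
/-- `B[1/e₀] ≤ O2` when `ρ₂ e₀ ≠ 0`. -/
theorem locRing_le_O2 (e₀ : ↥S₀.B) (he : S₀.ρ₂ e₀ ≠ 0) : locRing S₀ e₀ ≤ O2 M' p A := by
  intro f hf
  obtain ⟨k, hk⟩ := hf
  have heO : (e₀ : ↥(Fbar (M' * p))) ∈ O2 M' p A := GN_le_O2 M' p A (hG _ e₀.2)
  have hre : rho2 M' p A ⟨(e₀ : ↥(Fbar (M' * p))), heO⟩ ≠ 0 := by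
    rw [← hρ₂ e₀]; exact he
  have hinv : ((e₀ : ↥(Fbar (M' * p))))⁻¹ ∈ O2 M' p A :=
    Fermat.Agent.ES.W33.TauUnitN21.inv_mem_O2 M' p A heO hre
  have he0 : (e₀ : ↥(Fbar (M' * p))) ≠ 0 := by
    intro h0
    apply hre
    have : (⟨(e₀ : ↥(Fbar (M' * p))), heO⟩ : ↥(O2 M' p A)) = 0 := Subtype.ext h0
    rw [this, map_zero]
  have h1 : f = ((e₀ : ↥(Fbar (M' * p))))⁻¹ ^ k * ((e₀ : ↥(Fbar (M' * p))) ^ k * f) := by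
    rw [← mul_assoc, ← mul_pow, inv_mul_cancel₀ he0, one_pow, one_mul]
  rw [h1]
  exact (O2 M' p A).mul_mem ((O2 M' p A).pow_mem hinv k) (GN_le_O2 M' p A (hG _ hk))

/-- **`hBG` of `ChartAt₁`.** -/
theorem hBG₁ (e₀ : ↥S₀.B) (he : S₀.ρ₁ e₀ ≠ 0) (he' : S₀.ρ₂ e₀ = 0) :
    (locChart₁ S₀ hG hρ₁ hρ₂ hp2 hpM hM hA e₀ he he').B ≤ O1 M' p A :=
  locRing_le_O1 S₀ hG hρ₁ e₀ he

/-- **`hBG` of `ChartAt₂`.** -/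
theorem hBG₂ (e₀ : ↥S₀.B) (he : S₀.ρ₂ e₀ ≠ 0) (he' : S₀.ρ₁ e₀ = 0) :
    (locChart₂ S₀ hG hρ₁ hρ₂ hp2 hpM hM hA e₀ he he').B ≤ O2 M' p A :=
  locRing_le_O2 S₀ hG hρ₂ e₀ he

include hρ₁ in
/-- `rho1` restricted to `B[1/e₀]` is `locRed`. -/
theorem rho1_eq_locRed (e₀ : ↥S₀.B) (he : S₀.ρ₁ e₀ ≠ 0) (f : ↥(Fbar (M' * p)))
    (hf : f ∈ locRing S₀ e₀) (hfO : f ∈ O1 M' p A) :
    rho1 M' p A ⟨f, hfO⟩ = locRed S₀ e₀ S₀.ρ₁ he ⟨f, hf⟩ := by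
  obtain ⟨k, hk⟩ := hf
  have heO : (e₀ : ↥(Fbar (M' * p))) ∈ O1 M' p A := GN_le_O1 M' p A (hG _ e₀.2)
  have hkO : (e₀ : ↥(Fbar (M' * p))) ^ k * f ∈ O1 M' p A := GN_le_O1 M' p A (hG _ hk)
  have h1 := locRed_mul_pow S₀ e₀ S₀.ρ₁ he ⟨f, ⟨k, hk⟩⟩ k hk
  have h2 : (⟨(e₀ : ↥(Fbar (M' * p))) ^ k * f, hkO⟩ : ↥(O1 M' p A)) =
      ⟨(e₀ : ↥(Fbar (M' * p))), heO⟩ ^ k * ⟨f, hfO⟩ := Subtype.ext rfl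
  have h3 : S₀.ρ₁ ⟨(e₀ : ↥(Fbar (M' * p))) ^ k * f, hk⟩ =
      rho1 M' p A ⟨(e₀ : ↥(Fbar (M' * p))), heO⟩ ^ k * rho1 M' p A ⟨f, hfO⟩ := by
    rw [hρ₁, ← map_pow, ← map_mul, ← h2]
  have h4 : rho1 M' p A ⟨(e₀ : ↥(Fbar (M' * p))), heO⟩ = S₀.ρ₁ e₀ := (hρ₁ e₀).symm
  rw [h3, h4] at h1
  have h5 : S₀.ρ₁ e₀ ^ k ≠ 0 := pow_ne_zero k he
  have h6 : locRed S₀ e₀ S₀.ρ₁ he ⟨f, ⟨k, hk⟩⟩ * S₀.ρ₁ e₀ ^ k =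
      rho1 M' p A ⟨f, hfO⟩ * S₀.ρ₁ e₀ ^ k := by rw [h1]; ring
  exact (mul_right_cancel₀ h5 h6).symm

include hρ₂ in
/-- `rho2` restricted to `B[1/e₀]` is `locRed`. -/
theorem rho2_eq_locRed (e₀ : ↥S₀.B) (he : S₀.ρ₂ e₀ ≠ 0) (f : ↥(Fbar (M' * p)))
    (hf : f ∈ locRing S₀ e₀) (hfO : f ∈ O2 M' p A) :
    rho2 M' p A ⟨f, hfO⟩ = locRed S₀ e₀ S₀.ρ₂ he ⟨f, hf⟩ := by
  obtain ⟨k, hk⟩ := hf
  have heO : (e₀ : ↥(Fbar (M' * p))) ∈ O2 M' p A := GN_le_O2 M' p A (hG _ e₀.2)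
  have hkO : (e₀ : ↥(Fbar (M' * p))) ^ k * f ∈ O2 M' p A := GN_le_O2 M' p A (hG _ hk)
  have h1 := locRed_mul_pow S₀ e₀ S₀.ρ₂ he ⟨f, ⟨k, hk⟩⟩ k hk
  have h2 : (⟨(e₀ : ↥(Fbar (M' * p))) ^ k * f, hkO⟩ : ↥(O2 M' p A)) =
      ⟨(e₀ : ↥(Fbar (M' * p))), heO⟩ ^ k * ⟨f, hfO⟩ := Subtype.ext rfl
  have h3 : S₀.ρ₂ ⟨(e₀ : ↥(Fbar (M' * p))) ^ k * f, hk⟩ =
      rho2 M' p A ⟨(e₀ : ↥(Fbar (M' * p))), heO⟩ ^ k * rho2 M' p A ⟨f, hfO⟩ := by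
    rw [hρ₂, ← map_pow, ← map_mul, ← h2]
  have h4 : rho2 M' p A ⟨(e₀ : ↥(Fbar (M' * p))), heO⟩ = S₀.ρ₂ e₀ := (hρ₂ e₀).symm
  rw [h3, h4] at h1
  have h5 : S₀.ρ₂ e₀ ^ k ≠ 0 := pow_ne_zero k he
  have h6 : locRed S₀ e₀ S₀.ρ₂ he ⟨f, ⟨k, hk⟩⟩ * S₀.ρ₂ e₀ ^ k =
      rho2 M' p A ⟨f, hfO⟩ * S₀.ρ₂ e₀ ^ k := by rw [h1]; ring
  exact (mul_right_cancel₀ h5 h6).symm

/-- **`hredG` of `ChartAt₁`.** -/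
theorem hredG₁ (e₀ : ↥S₀.B) (he : S₀.ρ₁ e₀ ≠ 0) (he' : S₀.ρ₂ e₀ = 0)
    (b : ↥(Fbar (M' * p))) (hb' : b ∈ (locChart₁ S₀ hG hρ₁ hρ₂ hp2 hpM hM hA e₀ he he').B) :
    rho1 M' p A ⟨b, hBG₁ S₀ hG hρ₁ hρ₂ hp2 hpM hM hA e₀ he he' hb'⟩ =
      (locChart₁ S₀ hG hρ₁ hρ₂ hp2 hpM hM hA e₀ he he').red ⟨b, hb'⟩ :=
  rho1_eq_locRed S₀ hG hρ₁ e₀ he b hb' _

/-- **`hredG` of `ChartAt₂`.** -/
theorem hredG₂ (e₀ : ↥S₀.B) (he : S₀.ρ₂ e₀ ≠ 0) (he' : S₀.ρ₁ e₀ = 0)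
    (b : ↥(Fbar (M' * p))) (hb' : b ∈ (locChart₂ S₀ hG hρ₁ hρ₂ hp2 hpM hM hA e₀ he he').B) :
    rho2 M' p A ⟨b, hBG₂ S₀ hG hρ₁ hρ₂ hp2 hpM hM hA e₀ he he' hb'⟩ =
      (locChart₂ S₀ hG hρ₁ hρ₂ hp2 hpM hM hA e₀ he he').red ⟨b, hb'⟩ :=
  rho2_eq_locRed S₀ hG hρ₂ e₀ he b hb' _

end Of

end Fermat.Agent.ES.W33.LocSatInstN9
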