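/-
Programme W (S33), chapter (B3′), ruling w67 (3) — helper9:
**re-marking the coordinate of a one-component chart** (`ContractP3.ChartSpecP` puts no condition on
`s` beyond `s ∈ B`).

* `reMark S s hs : ChartSpecP A hx Ft` — the same `B`, `red`, `In`, with the coordinate `s`;
* `reMark_B`, `reMark_red`, `reMark_In`, `reMark_s`, `reMark_sB`, `reMark_inChart`, `reMark_ev`,
  `reMark_chi`, `reMark_peelA` — all `rfl` / `Iff.rfl`.

USE (JOIN FLAG F1): the disc chart of the SECOND component is the localised `tN`-chart re-marked
with `s := yN`.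
-/
import Mathlib
import Fermat.Agent.ES.W33.ContractP3

set_option autoImplicit false
set_option linter.unusedSectionVars false

noncomputable section

open AlgebraicCurve

namespace Fermat.Agent.ES.W33.ReMarkN9

open Fermat.Agent.X0.FF Fermat.Agent.ES.RED.PlaceValue13 Fermat.Agent.ES.RED.Contract8
open Fermat.Agent.ES.W33.ContractP3

variable {L : Type*} [Field L] [IsAlgClosed L] {A : ValuationSubring L}
variable {F : Type*} [Field F] [Algebra L F] {x : F} {hx : IsGen L x}
variable {Ft : Type*} [Field Ft] [Algebra (kA A) Ft]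

/-- **the chart `S` with the coordinate `s`.** -/
def reMark (S : ChartSpecP A hx Ft) (s : F) (hs : s ∈ S.B) : ChartSpecP A hx Ft where
  B := S.B
  red := S.red
  s := s
  s_mem := hs
  const_mem := S.const_mem
  red_const := S.red_const
  In := S.In
  mem_place := S.mem_place
  val_mem := S.val_mem
  sat := S.sat
  frac := S.frac

variable (S : ChartSpecP A hx Ft) (s : F) (hs : s ∈ S.B)

@[simp] theorem reMark_B : (reMark S s hs).B = S.B := rfl

@[simp] theorem reMark_red : (reMark S s hs).red = S.red := rfl

@[simp] theorem reMark_s : (reMark S s hs).s = s := rfl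

theorem reMark_In (P : Place L F) : (reMark S s hs).In P ↔ S.In P := Iff.rfl

theorem reMark_inChart (P : Place L F) : (reMark S s hs).InChart P ↔ S.InChart P := Iff.rfl

theorem reMark_sB : (reMark S s hs).sB = (⟨s, hs⟩ : ↥S.B) := rfl

theorem reMark_red_sB : (reMark S s hs).red (reMark S s hs).sB = S.red ⟨s, hs⟩ := rfl

theorem reMark_ev (P : Place L F) (hP : S.InChart P) (b : ↥S.B) :
    (reMark S s hs).ev P hP b = S.ev P hP b := rfl

theorem reMark_chi (P : Place L F) (hP : S.InChart P) (b : ↥S.B) :
    (reMark S s hs).chi P hP b = S.chi P hP b := rfl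

theorem reMark_peelA (P : Place L F) (hP : S.InChart P) :
    (reMark S s hs).PeelA P hP ↔ S.PeelA P hP := Iff.rfl

end Fermat.Agent.ES.W33.ReMarkN9
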