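/-
Programme W (S33), chapter (B3′), THE INSTANCE, leaf 5 of helper3's list (helper4):
**THE COORDINATE `t = tN` IS NON-CONSTANT ON BOTH COMPONENTS OF THE NODAL FIBRE** —
`rho1 tN` and `rho2 tN` are transcendental over `k̄ = kA A`.

Vocabulary of `W33/NodalDefs3` (function level only: `tN`, `O1`, `rho1`, `O2`, `rho2`, `GN`, `redN`) and
of helper20's `TwoChartsNInst20` (`ChartLeaves`, `S0N`).  Level `N' = M' * p`, `p ∤ M'`, `A ≤ ℚ̄` over `p`.

* `eq_C_of_isAlgebraic` : a Laurent series algebraic over its field of constants IS a constant;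
  `transcendental_coeffMap` : transcendence over the constants survives ANY extension of the coefficient
  field (`κ((q)) → k'((q))` coefficientwise);
* `coe_rho1_bc` : for `x` of level `K` whose expansion lies in the Gauss ring of `A ∩ K` and whose base
  change lies in `O1`, `rho1 (bc x)` is the coefficientwise inclusion of the level-`K` Gauss reduction
  (= `LevelCompare3.bc_mem_O1` WITHOUT the hypotheses `p ≠ 2`, `4 ∣ M'`: membership is given);
* `coe_rho1_tN` : `rho1 tN = t̃` (the Hauptmodul series `tq k̄ n e`), **`transcendental_rho1_tN`**;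
* `exists_tr2_K` : Programme N at a number field `K` (`GaussVTwoInst25.s1_tM`: the reduction of the
  Fricke expansion of `t_{M'}` is transcendental — `v ∘ W_{M'} = v` at the GOOD level;
  `FrickeV11.iota2_alpha`: the expansion of `W_{N'} tN` is `V_p` of it); `bc_tN`, `bc_wN_tN`;
  `transcendental_rho1_fricke_tN` (transfer to `ℚ̄`), `transcendental_rho2_of` (`rho2 = rho1 ∘ W`, stated
  for a VARIABLE function: the kernel must never compare `f ∈ O2` with `W f ∈ O1` at the concrete `tN`);
  **`transcendental_rho2_tN`**;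
* `transcendental_redN_fst/snd` : the same for the two components of `redN ⟨tN, _⟩` (helper12's TRANS2);
* **`tr₁`, `tr₂`** : the two fields of `TwoChartsNInst20.PlaceLeaves` in their literal shape.
-/
import Mathlib
import Fermat.Agent.ES.W33.NodalGauss3
import Fermat.Agent.ES.W33.TwoChartsNInst20
import Fermat.Agent.ES.N34.GaussVTwoInst25
import Fermat.Agent.ES.RED.Tr0Inst18
import Fermat.Agent.RED.ModelFinal4

set_option autoImplicit false
set_option synthInstance.maxHeartbeats 400000
set_option linter.unusedSectionVars false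
set_option linter.style.haveILetI false

open HahnSeries ModularCurve AlgebraicCurve

noncomputable section

namespace Fermat.Agent.ES.W33.TransN4

/-! ### Laurent series algebraic over the constants -/

section Laurent

open Fermat.Agent.RED.BASE.TBridge15

variable {κ : Type*} [Field κ]

theorem C_eq_algebraMap (c : κ) :
    (HahnSeries.C c : LaurentSeries κ) = algebraMap κ (LaurentSeries κ) c := by
  rw [HahnSeries.algebraMap_apply']
  simp

/-- **a Laurent series algebraic over the constants is a constant.** -/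
theorem eq_C_of_isAlgebraic {y : LaurentSeries κ} (hy : IsAlgebraic κ y) :
    y = HahnSeries.C (y.coeff 0) := by
  by_contra hne
  set z : LaurentSeries κ := y - HahnSeries.C (y.coeff 0) with hz
  have hzalg : IsAlgebraic κ z := by
    refine hy.sub ?_
    rw [C_eq_algebraMap]
    exact isAlgebraic_algebraMap _
  have hz0 : z ≠ 0 := fun h => hne (sub_eq_zero.mp h)
  have hcoeff : ∀ k : ℤ, k ≤ 0 → z.coeff k = 0 := by
    intro k hk
    rcases hk.lt_or_eq with h | h
    · exact coeff_eq_zero_of_isAlgebraic hzalg h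
    · subst h
      rw [hz, HahnSeries.coeff_sub, HahnSeries.C_apply, HahnSeries.coeff_single_same, sub_self]
  have hord : 0 < z.order := by
    by_contra h
    exact hz0 (HahnSeries.coeff_order_eq_zero.mp (hcoeff _ (not_lt.mp h)))
  have hinv : IsAlgebraic κ z⁻¹ := hzalg.inv
  have hz0' : z⁻¹ ≠ 0 := inv_ne_zero hz0
  have hmul : z.order + z⁻¹.order = 0 := by
    rw [← HahnSeries.order_mul hz0 hz0', mul_inv_cancel₀ hz0, HahnSeries.order_one]
  have hneg : z⁻¹.order < 0 := by omega
  exact hz0' (HahnSeries.coeff_order_eq_zero.mp (coeff_eq_zero_of_isAlgebraic hinv hneg))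

/-- **transcendence over the constants is preserved by an extension of the coefficient field.** -/
theorem transcendental_coeffMap {k' : Type*} [Field k'] (φ : κ →+* k') {y : LaurentSeries κ}
    (hy : Transcendental κ y) : Transcendental k' (coeffMap φ y) := by
  intro halg
  have h1 := eq_C_of_isAlgebraic halg
  apply hy
  have h2 : y = HahnSeries.C (y.coeff 0) := by
    ext k
    have hk := congrArg (fun s : LaurentSeries k' => s.coeff k) h1
    simp only [coeffMap_coeff, HahnSeries.C_apply, HahnSeries.coeff_single] at hk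
    rw [HahnSeries.C_apply, HahnSeries.coeff_single]
    by_cases hk0 : k = 0
    · subst hk0; rw [if_pos rfl]
    · rw [if_neg hk0] at hk ⊢
      exact (map_eq_zero φ).mp hk
  rw [h2, C_eq_algebraMap]
  exact isAlgebraic_algebraMap _

end Laurent

open Fermat.Agent.RED.Interface4 Fermat.Agent.RED.DESC Fermat.Agent.RED.DESC.NumberFieldDVR27
  Fermat.Agent.RED.DESC.PlaceExtend27
  Fermat.Agent.RED.PUR.GaussGen8
  Fermat.Agent.RED.BASE.Interface12 Fermat.Agent.RED.BASE.Hauptmodul12 Fermat.Agent.RED.BASE.EtaQuot12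
  Fermat.Agent.ES.RED.Contract8 Fermat.Agent.ES.RED.GaussUnit25
  Fermat.Agent.ES.RED.ModelInst4 Fermat.Agent.ES.N34.FrickeFK8
  Fermat.Agent.ES.V19.GaussFrac15 Fermat.Agent.ES.V19.InstNames3
  Fermat.Agent.ES.W33.NodalDefs3 Fermat.Agent.ES.W33.NodalGauss3

attribute [local instance 5000] HahnSeries.powerSeriesAlgebra SubalgebraClass.toAlgebra

/-! ### comparison with a number-field level, membership given -/

section Compare

variable (M' : ℕ) [NeZero M'] (p : ℕ) [Fact p.Prime] (A : ValuationSubring Qbar)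
  {K : IntermediateField ℚ Qbar}

/-- **`rho1` of a base change** is the coefficientwise inclusion of the level-`K` Gauss reduction
(`LevelCompare3.bc_mem_O1` with the membership in `O1` GIVEN, hence without `p ≠ 2`, `4 ∣ M'`). -/
theorem coe_rho1_bc (x : FK (M' * p) K) (hx : (x : LaurentSeries K) ∈ gaussRing (AK A K))
    (hX : baseChangeHom (M' * p) K x ∈ O1 M' p A) :
    ((rho1 M' p A ⟨baseChangeHom (M' * p) K x, hX⟩ : Ft M' A) : LaurentSeries (kA A)) =
      coeffMap (resMap A K) (gaussRed (AK A K) ⟨(x : LaurentSeries K), hx⟩) := by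
  obtain ⟨a, s, hrep⟩ := hx
  have hS : coeffMap (resA A) (coeffMap (incl A K) s) ≠ 0 :=
    Fermat.Agent.ES.V19.ScaleQbar8.coeffMap_residue_ne_zero A K s hrep.1
  have hrel : ((baseChangeHom (M' * p) K x : Fbar (M' * p)) : LaurentSeries Qbar) *
      coeffMap A.subtype (coeffMap (incl A K) s) = coeffMap A.subtype (coeffMap (incl A K) a) := by
    rw [coe_baseChangeHom, coeffMap_subtype_incl, coeffMap_subtype_incl, ← map_mul, hrep.2]
  have hρ := isRedOf_series M' p A
    (isRedOf_rho (Gq1 M' p A) (redq1 M' p A) ⟨baseChangeHom (M' * p) K x, hX⟩) _ _ hrel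
  rw [gaussRed_eq (AK A K) (f := ⟨(x : LaurentSeries K), ⟨a, s, hrep⟩⟩) hrep, map_div₀,
    ← coeffMap_residue_incl, ← coeffMap_residue_incl]
  exact eq_div_of_mul_eq hS hρ

end Compare

/-! ### the first component -/

variable (n e M' : ℕ) [NeZero n] [NeZero M'] (p : ℕ) [Fact p.Prime]
  (hb : BaseHyp n e) (hnM : n ∣ M') (A : ValuationSubring Qbar)

/-- **`rho1 tN = t̃`**: the reduction of the coordinate on the first component is the Hauptmodul
series over `k̄`. -/
theorem coe_rho1_tN (h : tN n e M' p hb hnM ∈ O1 M' p A) :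
    ((rho1 M' p A ⟨tN n e M' p hb hnM, h⟩ : Ft M' A) : LaurentSeries (kA A)) = tq (kA A) n e := by
  have hrel : ((tN n e M' p hb hnM : Fbar (M' * p)) : LaurentSeries Qbar) *
      coeffMap A.subtype (1 : LaurentSeries ↥A) = coeffMap A.subtype (tq ↥A n e) := by
    rw [map_one, mul_one, coeffMap_tq]
    rfl
  have hρ := isRedOf_series M' p A
    (isRedOf_rho (Gq1 M' p A) (redq1 M' p A) ⟨tN n e M' p hb hnM, h⟩) _ _ hrel
  rw [map_one, mul_one, coeffMap_tq] at hρ
  exact hρ

/-- **(tr₁)** `rho1 tN` is transcendental over `k̄`. -/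
theorem transcendental_rho1_tN (h : tN n e M' p hb hnM ∈ O1 M' p A) :
    Transcendental (kA A) (rho1 M' p A ⟨tN n e M' p hb hnM, h⟩) :=
  Fermat.Agent.ES.RED.Tr0Inst18.transcendental_of_coe_eq_tq n e _ _
    (coe_rho1_tN n e M' p hb hnM A h)


section Second

open Fermat.Agent.ES.N34 Fermat.Agent.ES.N34.ModelGlue22 Fermat.Agent.ES.N34.IsoM25

/-- level `K`: the Fricke expansion of `tN` is Gauss-integral with transcendental reduction. -/
theorem exists_tr2_K {K : IntermediateField ℚ Qbar} [NeZero p] [IsDiscreteValuationRing ↥(AK A K)]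
    [CharP (Res (AK A K)) p] {π : ↥(AK A K)} (hπ : Irreducible π) (hpM : ¬ p ∣ M')
    (ht : tq (↥K) n e ∈ FK M' K) :
    ∃ htN : ((ModelDefs9.wN K M' p (ModelDefs9.tN p ht) : FK (M' * p) K) : LaurentSeries K) ∈
        gaussRing (AK A K),
      Transcendental (Res (AK A K)) (gaussRed (AK A K) ⟨_, htN⟩) := by
  obtain ⟨ht₂M, htr₂M⟩ := GaussVTwoInst25.s1_tM (A := A) M' p hπ hpM ht
  have hα : ((ModelDefs9.wN K M' p (ModelDefs9.tN p ht) : FK (M' * p) K) : LaurentSeries K) =
      qExpand (↥K) p (iotaAlg M' K (ModelDefs9.tM ht)) :=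
    FrickeV11.iota2_alpha K M' p (ModelDefs9.tM ht)
  have htN : ((ModelDefs9.wN K M' p (ModelDefs9.tN p ht) : FK (M' * p) K) : LaurentSeries K) ∈
      gaussRing (AK A K) := by
    rw [hα]; exact GaussVTwoFam25.qExpand_mem_gaussRing p ht₂M
  refine ⟨htN, ?_⟩
  have h1 : (⟨((ModelDefs9.wN K M' p (ModelDefs9.tN p ht) : FK (M' * p) K) : LaurentSeries K), htN⟩ :
      ↥(gaussRing (AK A K))) =
      ⟨qExpand (↥K) p
        ((⟨iotaAlg M' K (ModelDefs9.tM ht), ht₂M⟩ : ↥(gaussRing (AK A K))) : LaurentSeries K),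
        GaussVTwoFam25.qExpand_mem_gaussRing p ht₂M⟩ := Subtype.ext hα
  rw [h1, GaussVTwoFam25.gaussRed_qExpand]
  exact GaussVTwoFam25.transcendental_qExpand p htr₂M


/-- the base change of the level-`K` coordinate is `tN`. -/
theorem bc_tN {K : IntermediateField ℚ Qbar} [NeZero p] (ht : tq (↥K) n e ∈ FK M' K) :
    baseChangeHom (M' * p) K (ModelDefs9.tN p ht) = tN n e M' p hb hnM := by
  apply Subtype.ext
  rw [coe_baseChangeHom, ModelDefs9.coe_tN, coeffMap_tq]
  rfl

/-- `W` of the base change. -/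
theorem bc_wN_tN {K : IntermediateField ℚ Qbar} [NeZero p] (ht : tq (↥K) n e ∈ FK M' K) :
    baseChangeHom (M' * p) K (ModelDefs9.wN K M' p (ModelDefs9.tN p ht)) =
      frickeN M' p (tN n e M' p hb hnM) := by
  rw [← bc_tN n e M' p hb hnM ht]
  exact baseChangeHom_frickeFK (M' * p) K _


/-- transfer step: from the level-`K` statement to `rho1 (W tN)`. -/
theorem transcendental_rho1_fricke_tN {K : IntermediateField ℚ Qbar} [NeZero p]
    (ht : tq (↥K) n e ∈ FK M' K)
    (htN : ((ModelDefs9.wN K M' p (ModelDefs9.tN p ht) : FK (M' * p) K) : LaurentSeries K) ∈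
        gaussRing (AK A K))
    (htrN : Transcendental (Res (AK A K)) (gaussRed (AK A K) ⟨_, htN⟩))
    (h : frickeN M' p (tN n e M' p hb hnM) ∈ O1 M' p A) :
    Transcendental (kA A) (rho1 M' p A ⟨frickeN M' p (tN n e M' p hb hnM), h⟩) := by
  have hW := bc_wN_tN n e M' p hb hnM ht
  have hX : baseChangeHom (M' * p) K (ModelDefs9.wN K M' p (ModelDefs9.tN p ht)) ∈ O1 M' p A := by
    rw [hW]; exact h
  have hcmp := coe_rho1_bc M' p A (ModelDefs9.wN K M' p (ModelDefs9.tN p ht)) htN hX
  have htr : Transcendental (kA A)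
      ((rho1 M' p A ⟨baseChangeHom (M' * p) K (ModelDefs9.wN K M' p (ModelDefs9.tN p ht)), hX⟩ :
        Ft M' A) : LaurentSeries (kA A)) := by
    rw [hcmp]
    exact transcendental_coeffMap (resMap A K) htrN
  have h2 : (⟨frickeN M' p (tN n e M' p hb hnM), h⟩ : ↥(O1 M' p A)) =
      ⟨baseChangeHom (M' * p) K (ModelDefs9.wN K M' p (ModelDefs9.tN p ht)), hX⟩ :=
    Subtype.ext hW.symm
  rw [h2]
  exact Fermat.Agent.ES.RED.SpecialGen16.transcendental_coe _ _ htr


/-- `rho2 f = rho1 (W f)`, for a VARIABLE `f` (so that the kernel never compares `f ∈ O2` with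
`W f ∈ O1` at a concrete `f`). -/
theorem transcendental_rho2_of {f : ↥(Fbar (M' * p))} (h : f ∈ O2 M' p A)
    (h' : frickeN M' p f ∈ O1 M' p A)
    (htr : Transcendental (kA A) (rho1 M' p A ⟨frickeN M' p f, h'⟩)) :
    Transcendental (kA A) (rho2 M' p A ⟨f, h⟩) := by
  rw [rho2_apply]
  exact htr

/-- **(tr₂)** `rho2 tN = rho1 (W tN)` is transcendental over `k̄`. -/
theorem transcendental_rho2_tN (hpM : ¬ p ∣ M') (hA : A.LiesOverPrime p)
    (h : tN n e M' p hb hnM ∈ O2 M' p A) :
    Transcendental (kA A) (rho2 M' p A ⟨tN n e M' p hb hnM, h⟩) := by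
  haveI : NeZero p := ⟨(Fact.out : p.Prime).ne_zero⟩
  obtain ⟨K, hK, hT⟩ := Fermat.Agent.RED.ModelFinal4.tTarget M' (tMem_of_dvd hb hnM)
  haveI := hK
  have ht : tq (↥K) n e ∈ FK M' K := hT K hK le_rfl
  haveI : IsDiscreteValuationRing ↥(AK A K) :=
    isDiscreteValuationRing_AK A K (Fact.out : p.Prime).ne_zero hA
  haveI : CharP (Res (AK A K)) p := charP_residueField_AK A K (Fact.out : p.Prime) hA
  obtain ⟨π, hπ⟩ := IsDiscreteValuationRing.exists_irreducible ↥(AK A K)
  obtain ⟨htN, htrN⟩ := exists_tr2_K n e M' p A hπ hpM ht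
  have h' : frickeN M' p (tN n e M' p hb hnM) ∈ O1 M' p A := (mem_O2_iff M' p A _).mp h
  exact transcendental_rho2_of M' p A h h'
    (transcendental_rho1_fricke_tN n e M' p hb hnM A ht htN htrN h')

end Second

/-! ### the `redN` form (helper12's TRANS1 / TRANS2) -/

/-- the first component of `redN tN` is transcendental over `k̄`. -/
theorem transcendental_redN_fst (h : tN n e M' p hb hnM ∈ GN M' p A) :
    Transcendental (kA A) (redN M' p A ⟨tN n e M' p hb hnM, h⟩).1 := by
  rw [redN_fst]
  exact transcendental_rho1_tN n e M' p hb hnM A _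

/-- the second component of `redN tN` is transcendental over `k̄`. -/
theorem transcendental_redN_snd (hpM : ¬ p ∣ M') (hA : A.LiesOverPrime p)
    (h : tN n e M' p hb hnM ∈ GN M' p A) :
    Transcendental (kA A) (redN M' p A ⟨tN n e M' p hb hnM, h⟩).2 := by
  rw [redN_snd]
  exact transcendental_rho2_tN n e M' p hb hnM A hpM hA _

/-! ### the two fields of `TwoChartsNInst20.PlaceLeaves` -/

open Fermat.Agent.ES.W33.NodalChart20 Fermat.Agent.ES.W33.TwoChartsNInst20

variable {n e M' p hb hnM A}

/-- **`PlaceLeaves.tr₁`** in helper20's literal. -/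
theorem tr₁ (L : ChartLeaves n e M' p hb hnM A) :
    Transcendental (kA A) ((S0N L).ρ₁ (S0N L).sB) := by
  rw [S0N_ρ₁]
  exact transcendental_rho1_tN n e M' p hb hnM A _

/-- **`PlaceLeaves.tr₂`** in helper20's literal. -/
theorem tr₂ (L : ChartLeaves n e M' p hb hnM A) (hpM : ¬ p ∣ M') (hA : A.LiesOverPrime p) :
    Transcendental (kA A) ((S0N L).ρ₂ (S0N L).sB) := by
  rw [S0N_ρ₂]
  exact transcendental_rho2_tN n e M' p hb hnM A hpM hA _

end Fermat.Agent.ES.W33.TransN4
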