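/-
Programme W (S33, SPINE v1.1), chapter (B3′ discs), THE ASSEMBLY OF `GeoLeaves23.Leaves.charts`
(helper26, rulings w67 (3), w68 (4)): **the two families of localised one-component charts
`GoodCofiniteN9.ChartAt₁ I₀ … t̃ Q` (`Q ∉ E₁`) and `ChartAt₂ I₀ … (w t̃) Q` (`Q ∉ E₂`), `E₁`, `E₂` finite,
at the nodal instance of `NodalDefs3`, from the NAMED exits of the owners.**

GENERIC PART (model-free):
* `locAt₁`, `locAt₂` : helper22's `LocPointN22.LocAt₁ / LocAt₂ S₀ (locChart S₀ e ρ_j …) e` for helper9's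
  `LocChartGenN9.locChart`.
  (Re-marking of the coordinate of a chart: helper9's `ReMarkN9.reMark`.)

INSTANCE PART (`H : NodalCtxRN20.RNLeaves …`, chart 0 only, `S₀ := S0N H.L`, `I₀ := nodalInst …`):
* `chartAt₁` : `ChartAt₁ I₀ hxN hxt hfin xt₁ Q` from `S := locChart S₀ e₁ S₀.ρ₁ …` (coordinate `tN`);
* `chartAt₂` : `ChartAt₂ I₀ hxN hxt hfin xt₂ Q` from `S := reMark (locChart S₀ e₂ S₀.ρ₂ …) s₂ hs₂`;
  in both: `hdisc`, `hR1`, `hBG`, `hredG` are helper22's `LocPointN22.LocAt_j.*` at `r := H.T.r`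
  (`disc₁_0`, `disc₂_0`, `H.T_r`), with `G := O_j`, `redG := rho_j`, `hinv := TauUnitN21.inv_mem_O_j`;
  `hpeel`, `hR2` and the coordinate facts are hypotheses;
* **`charts_of`** : the literal body of `Leaves.charts` (any base `(n, e)`, any `w`) from
  `ctx : NodalCtxAsm26.CtxLeaves …` and the named hypotheses; `hR2` is DERIVED from `ctx.rel` by helper22's
  `R2RelCtxN22.r2_rel₁ / r2_rel₂` (every `y ∈ O_j`), `hfin := NodalCtxAsm26.finDivBad`;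
  `E₁ := {ord_Q t̃ ≠ 0} ∪ {ord_Q (ρ₁ e₁) ≠ 0} ∪ {Q not smooth}`, `E₂` likewise with `ρ₂ tN`, `ρ₂ e₂`.

THE BASE `(4, 8)` (`p ≠ 2`), everything substituted except (PEEL-a):
* `chart₁ L hp2 hpM hA`, `chart₂ L hp2 hpM hA` : helper9's `LocSatInstN9.locChart₁ / locChart₂` at chart 0
  `S0N L` and helper1's localising elements `LocElemN1.e1N = tN - yN^p`, `e2N = yN - tN^p`;
* **`charts_four hp2 ctx hpeel₁ hpeel₂`** : LITERALLY the field `GeoLeaves23.Leaves.charts` (v4, `w := wBar`),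
  from `ctx : CtxLeaves 4 8 …` and (PEEL-a) at every place of `chart₁`, `chart₂` (owner: helper9's
  `LocLevelsInstN9.peelA_loc₁/₂`).  Substituted: `LocElemN1` (`e1N`, `e2N`, `yN_mem_B`, the four `ρ` facts),
  `LocSatInstN9.hsat₁_of/hsat₂_of`, `CoordRedTwoN9.yN_mem_GN/redN_yN_fst_ne/redN_yN_snd_ne`,
  `CoordFixN9.fix_s_yN`, `FrickeBar8.rho2_beta ∘ isRedOf_tV`, `TransN4.transcendental_redN_snd`.
-/
import Mathlib
import Fermat.Agent.ES.W33.NodalCtxAsm26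
import Fermat.Agent.ES.W33.LocPointN22
import Fermat.Agent.ES.W33.LocChartGenN9
import Fermat.Agent.ES.W33.GoodCofiniteN9
import Fermat.Agent.ES.W33.GeoInst23
import Fermat.Agent.ES.W33.TauUnitN21
import Fermat.Agent.ES.W33.GoodGenN9
import Fermat.Agent.ES.W33.AlphaRedN9
import Fermat.Agent.ES.W33.CoordFixN9
import Fermat.Agent.ES.KRON.FinDiv18
import Fermat.Agent.ES.W33.ReMarkN9
import Fermat.Agent.ES.W33.LocSatInstN9
import Fermat.Agent.ES.W33.LocElemN1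
import Fermat.Agent.ES.W33.CoordRedTwoN9
import Fermat.Agent.ES.W33.FrickeBar8
import Fermat.Agent.ES.W33.TransN4
import Fermat.Agent.ES.W33.GeoInput23

set_option autoImplicit false
set_option linter.unusedSectionVars false
set_option linter.style.haveILetI false
set_option synthInstance.maxHeartbeats 400000

open HahnSeries ModularCurve AlgebraicCurve
open scoped MatrixGroups

noncomputable section

namespace Fermat.Agent.ES.W33.ChartAtInstN26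

/-! ### generic: `LocAt` for the localised chart `locChart` -/

section Generic

open Fermat.Agent.X0.FF Fermat.Agent.ES.RED.PlaceValue13 Fermat.Agent.ES.RED.Contract8
open Fermat.Agent.ES.W33.NodalChart20 Fermat.Agent.ES.W33.ContractP3
open Fermat.Agent.ES.W33.LocChartGenN9 Fermat.Agent.ES.W33.LocPointN22

variable {L : Type*} [Field L] [IsAlgClosed L] {A : ValuationSubring L}
variable {F : Type*} [Field F] [Algebra L F] {x : F} {hx : IsGen L x}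

section LocAt

variable {Ft₁ Ft₂ : Type*} [Field Ft₁] [Algebra (kA A) Ft₁] [Field Ft₂] [Algebra (kA A) Ft₂]
variable (S₀ : NodalChart A hx Ft₁ Ft₂) (e : ↥S₀.B)

/-- **`LocAt₁`** for `locChart S₀ e S₀.ρ₁ …` (`e` vanishing on the second component). -/
theorem locAt₁ (hρ : S₀.ρ₁ e ≠ 0) (he₂ : S₀.ρ₂ e = 0)
    (hsat : ∀ b : ↥S₀.B, b ≠ 0 → ∃ (k : ℕ) (c : ↥A) (b' : ↥S₀.B),
      (e : F) ^ k * (b : F) = algebraMap L F (c : L) * (b' : F) ∧ S₀.ρ₁ b' ≠ 0) :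
    LocAt₁ S₀ (locChart S₀ e S₀.ρ₁ S₀.ρ₁_const hρ hsat) e where
  le := le_locRing S₀ e
  red_eq := fun b => locRed_coe S₀ e S₀.ρ₁ hρ b
  s_eq := rfl
  off := he₂
  pow := fun b' => by
    obtain ⟨k, hk⟩ := b'.2
    exact ⟨k, ⟨_, hk⟩, rfl⟩
  in_iff := fun _ => Iff.rfl

/-- **`LocAt₂`** for `locChart S₀ e S₀.ρ₂ …` (`e` vanishing on the first component). -/
theorem locAt₂ (hρ : S₀.ρ₂ e ≠ 0) (he₁ : S₀.ρ₁ e = 0)
    (hsat : ∀ b : ↥S₀.B, b ≠ 0 → ∃ (k : ℕ) (c : ↥A) (b' : ↥S₀.B),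
      (e : F) ^ k * (b : F) = algebraMap L F (c : L) * (b' : F) ∧ S₀.ρ₂ b' ≠ 0) :
    LocAt₂ S₀ (locChart S₀ e S₀.ρ₂ S₀.ρ₂_const hρ hsat) e where
  le := le_locRing S₀ e
  red_eq := fun b => locRed_coe S₀ e S₀.ρ₂ hρ b
  s_eq := rfl
  off := he₁
  pow := fun b' => by
    obtain ⟨k, hk⟩ := b'.2
    exact ⟨k, ⟨_, hk⟩, rfl⟩
  in_iff := fun _ => Iff.rfl

end LocAt

end Generic

/-! ### the instance: one chart through the disc of a point -/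

section Inst

open Fermat.Agent.RED.Interface4 Fermat.Agent.RED.BASE.Interface12 Fermat.Agent.RED.BASE.Hauptmodul12
  Fermat.Agent.ES.RED.Contract8 Fermat.Agent.ES.RED.ModelInst4 Fermat.Agent.ES.RED.PlaceValue13
  Fermat.Agent.ES.RED.R2Abstract14
  Fermat.Agent.X0 Fermat.Agent.X0.FF
  Fermat.Agent.ES.V19.InstNames3 Fermat.Agent.ES.V19.GammaF16 Fermat.Agent.ES.V19.XiEqvInst29
  Fermat.Agent.ES.W33.XiIfaceN29 Fermat.Agent.ES.W33.GeoNames23 Fermat.Agent.ES.W33.GeoInst23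
  Fermat.Agent.ES.W33.NodalDefs3 Fermat.Agent.ES.W33.ValAt29
  Fermat.Agent.ES.W33.CentreN20 Fermat.Agent.ES.W33.NodalChart20 Fermat.Agent.ES.W33.TwoChartsN20
  Fermat.Agent.ES.W33.TwoChartsNInst20 Fermat.Agent.ES.W33.TwoChartsNRN20
  Fermat.Agent.ES.W33.NodalCtxRN20 Fermat.Agent.ES.W33.ContractP3
  Fermat.Agent.ES.W33.LocChartGenN9 Fermat.Agent.ES.W33.LocPointN22
  Fermat.Agent.ES.W33.GoodCofiniteN9

attribute [local instance 5000] HahnSeries.powerSeriesAlgebra SubalgebraClass.toAlgebra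

variable {n e M' : ℕ} [NeZero n] [NeZero M'] {p : ℕ} [Fact p.Prime] {hpM : ¬ p ∣ M'}
  {hb : BaseHyp n e} {hnM : n ∣ M'} {A : ValuationSubring Qbar} {hA : A.LiesOverPrime p}
variable (H : RNLeaves n e M' p hpM hb hnM A hA)
variable (Good : SPtW M' A → Prop) (coord : SPtW M' A → FW p M')
  (centre : SPtW M' A → Place Qbar (FW p M'))
variable [IsAlgClosed (kA A)] {xt : Ft M' A} (hxt : IsGen (kA A) xt)
  (hfin : FinDiv Qbar ↥(Fbar (M' * p)))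

/-- chart 0 lies in the first Gauss ring. -/
theorem le_O1 : (S0N H.L).B ≤ O1 M' p A := fun b hb => GN_le_O1 M' p A (H.L.h0 b hb)

/-- chart 0 lies in the second Gauss ring. -/
theorem le_O2 : (S0N H.L).B ≤ O2 M' p A := fun b hb => GN_le_O2 M' p A (H.L.h0 b hb)

/-- the chart description of the disc of a point of the first component lying in chart 0, at `rN`. -/
theorem disc₁ (Q : Place (kA A) (Ft M' A)) (hQs : 0 ≤ Q.ord ((S0N H.L).ρ₁ (S0N H.L).sB)) :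
    ∀ P : Place Qbar ↥(Fbar (M' * p)), rN n e M' p hpM hb hnM A hA P = Sum.inl (Sum.inl Q) →
      ∃ hP : (S0N H.L).InChart P, (S0N H.L).On₁ P hP ∧
        ∀ y, y ∈ Q.toValuationSubring ↔ y ∈ cSubring ((S0N H.L).chi P hP) (S0N H.L).ρ₁ :=
  fun P hP => disc₁_0 H.T Q hQs P ((H.T_r P).trans hP)

/-- the chart description of the disc of a point of the second component lying in chart 0, at
`rN`. -/
theorem disc₂ (Q : Place (kA A) (Ft M' A)) (hQs : 0 ≤ Q.ord ((S0N H.L).ρ₂ (S0N H.L).sB)) :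
    ∀ P : Place Qbar ↥(Fbar (M' * p)), rN n e M' p hpM hb hnM A hA P = Sum.inl (Sum.inr Q) →
      ∃ hP : (S0N H.L).InChart P, (S0N H.L).On₂ P hP ∧
        ∀ y, y ∈ Q.toValuationSubring ↔ y ∈ cSubring ((S0N H.L).chi P hP) (S0N H.L).ρ₂ :=
  fun P hP => disc₂_0 H.T Q hQs P ((H.T_r P).trans hP)

/-- **a chart of component 1 through the disc of `Q`**: the localisation of chart 0 off the second
component, coordinate `tN`. -/
def chartAt₁ (e₁ : ↥(S0N H.L).B) (hρ : (S0N H.L).ρ₁ e₁ ≠ 0) (he : (S0N H.L).ρ₂ e₁ = 0)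
    (hsat : ∀ b : ↥(S0N H.L).B, b ≠ 0 → ∃ (k : ℕ) (c : ↥A) (b' : ↥(S0N H.L).B),
      (e₁ : ↥(Fbar (M' * p))) ^ k * (b : ↥(Fbar (M' * p))) =
        algebraMap Qbar ↥(Fbar (M' * p)) (c : Qbar) * (b' : ↥(Fbar (M' * p))) ∧
          (S0N H.L).ρ₁ b' ≠ 0)
    (hpeel : ∀ (P : Place Qbar ↥(Fbar (M' * p)))
      (hP : (locChart (S0N H.L) e₁ (S0N H.L).ρ₁ (S0N H.L).ρ₁_const hρ hsat).InChart P),
      (locChart (S0N H.L) e₁ (S0N H.L).ρ₁ (S0N H.L).ρ₁_const hρ hsat).PeelA P hP)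
    (Q : Place (kA A) (Ft M' A)) (hQs : 0 ≤ Q.ord ((S0N H.L).ρ₁ (S0N H.L).sB))
    (hQe : Q.ord ((S0N H.L).ρ₁ e₁) = 0)
    (hR2 : ∀ y : ↥(O1 M' p A), rho1 M' p A y ≠ 0 →
      push hfin (rN n e M' p hpM hb hnM A hA) (y : ↥(Fbar (M' * p))) (Sum.inl (Sum.inl Q)) =
        Q.ord (rho1 M' p A y))
    {xt₁ : Ft M' A} (hred : (S0N H.L).ρ₁ (S0N H.L).sB = xt₁)
    (ht : tN n e M' p hb hnM ∈ GN M' p A)
    (h1 : ∀ z : kA A, (redN M' p A ⟨tN n e M' p hb hnM, ht⟩).1 ≠ algebraMap (kA A) (Ft M' A) z)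
    (h2 : ∀ z : kA A, (redN M' p A ⟨tN n e M' p hb hnM, ht⟩).2 ≠ algebraMap (kA A) (Ft M' A) z)
    (fix_s : ∃ f₁ : ℕ, 0 < f₁ ∧ ∀ σ : ↥(gammaF A p f₁),
      rho (A := A) (M := M' * p) p f₁ σ • tN n e M' p hb hnM = tN n e M' p hb hnM) :
    ChartAt₁ (nodalInst n e M' p hpM hb hnM A hA Good coord centre) (hxN n e M' p hb hnM) hxt hfin
      xt₁ Q :=
  have HL := locAt₁ (S0N H.L) e₁ hρ he hsat
  have hinv : ∀ g : ↥(O1 M' p A), rho1 M' p A g ≠ 0 →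
      ((g : ↥(Fbar (M' * p))))⁻¹ ∈ O1 M' p A :=
    fun g hg => Fermat.Agent.ES.W33.TauUnitN21.inv_mem_O1 M' p A g.2 hg
  have hBG := HL.hBG (O1 M' p A) (rho1 M' p A) (le_O1 H) (fun _ => rfl) hinv hρ
  have hredG := HL.hredG (O1 M' p A) (rho1 M' p A) (le_O1 H) (fun _ => rfl) hinv hρ
  { S := locChart (S0N H.L) e₁ (S0N H.L).ρ₁ (S0N H.L).ρ₁_const hρ hsat
    red_s := (locRed_coe (S0N H.L) e₁ (S0N H.L).ρ₁ hρ (S0N H.L).sB).trans hred
    hdisc := HL.hdisc Q (rN n e M' p hpM hb hnM A hA) _ (disc₁ H Q hQs) hρ hQe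
    hR1 := HL.hR1 Q (rN n e M' p hpM hb hnM A hA) _ (disc₁ H Q hQs) hxt
    hpeel := fun P hP _ => hpeel P hP
    hR2 := fun b hb0 => by
      have h := hR2 ⟨(b : ↥(Fbar (M' * p))), hBG b.2⟩ (by rw [hredG _ b.2]; exact hb0)
      rw [hredG _ b.2] at h
      exact h
    hBG := hBG
    hredG := hredG
    ht := ht
    h1 := h1
    h2 := h2
    fix_s := fix_s }

/-- **a chart of component 2 through the disc of `Q`**: the localisation of chart 0 off the first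
component, RE-MARKED with the coordinate `s₂` (instance: `yN`, JOIN FLAG F1). -/
def chartAt₂ (e₂ : ↥(S0N H.L).B) (hρ : (S0N H.L).ρ₂ e₂ ≠ 0) (he : (S0N H.L).ρ₁ e₂ = 0)
    (hsat : ∀ b : ↥(S0N H.L).B, b ≠ 0 → ∃ (k : ℕ) (c : ↥A) (b' : ↥(S0N H.L).B),
      (e₂ : ↥(Fbar (M' * p))) ^ k * (b : ↥(Fbar (M' * p))) =
        algebraMap Qbar ↥(Fbar (M' * p)) (c : Qbar) * (b' : ↥(Fbar (M' * p))) ∧
          (S0N H.L).ρ₂ b' ≠ 0)
    (hpeel : ∀ (P : Place Qbar ↥(Fbar (M' * p)))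
      (hP : (locChart (S0N H.L) e₂ (S0N H.L).ρ₂ (S0N H.L).ρ₂_const hρ hsat).InChart P),
      (locChart (S0N H.L) e₂ (S0N H.L).ρ₂ (S0N H.L).ρ₂_const hρ hsat).PeelA P hP)
    (Q : Place (kA A) (Ft M' A)) (hQs : 0 ≤ Q.ord ((S0N H.L).ρ₂ (S0N H.L).sB))
    (hQe : Q.ord ((S0N H.L).ρ₂ e₂) = 0)
    (hR2 : ∀ y : ↥(O2 M' p A), rho2 M' p A y ≠ 0 →
      push hfin (rN n e M' p hpM hb hnM A hA) (y : ↥(Fbar (M' * p))) (Sum.inl (Sum.inr Q)) =
        Q.ord (rho2 M' p A y))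
    (s₂ : ↥(Fbar (M' * p))) (hs₂ : s₂ ∈ locRing (S0N H.L) e₂)
    (ht : s₂ ∈ GN M' p A)
    {xt₂ : Ft M' A} (hred : rho2 M' p A ⟨s₂, GN_le_O2 M' p A ht⟩ = xt₂)
    (h1 : ∀ z : kA A, (redN M' p A ⟨s₂, ht⟩).1 ≠ algebraMap (kA A) (Ft M' A) z)
    (h2 : ∀ z : kA A, (redN M' p A ⟨s₂, ht⟩).2 ≠ algebraMap (kA A) (Ft M' A) z)
    (fix_s : ∃ f₁ : ℕ, 0 < f₁ ∧ ∀ σ : ↥(gammaF A p f₁),
      rho (A := A) (M := M' * p) p f₁ σ • s₂ = s₂) :
    ChartAt₂ (nodalInst n e M' p hpM hb hnM A hA Good coord centre) (hxN n e M' p hb hnM) hxt hfin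
      xt₂ Q :=
  have HL := locAt₂ (S0N H.L) e₂ hρ he hsat
  have hinv : ∀ g : ↥(O2 M' p A), rho2 M' p A g ≠ 0 →
      ((g : ↥(Fbar (M' * p))))⁻¹ ∈ O2 M' p A :=
    fun g hg => Fermat.Agent.ES.W33.TauUnitN21.inv_mem_O2 M' p A g.2 hg
  have hBG := HL.hBG (O2 M' p A) (rho2 M' p A) (le_O2 H) (fun _ => rfl) hinv hρ
  have hredG := HL.hredG (O2 M' p A) (rho2 M' p A) (le_O2 H) (fun _ => rfl) hinv hρ
  { S := Fermat.Agent.ES.W33.ReMarkN9.reMark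
      (locChart (S0N H.L) e₂ (S0N H.L).ρ₂ (S0N H.L).ρ₂_const hρ hsat) s₂ hs₂
    red_s := (hredG s₂ hs₂).symm.trans hred
    hdisc := HL.hdisc Q (rN n e M' p hpM hb hnM A hA) _ (disc₂ H Q hQs) hρ hQe
    hR1 := HL.hR1 Q (rN n e M' p hpM hb hnM A hA) _ (disc₂ H Q hQs) hxt
    hpeel := fun P hP _ => hpeel P hP
    hR2 := fun b hb0 => by
      have h := hR2 ⟨(b : ↥(Fbar (M' * p))), hBG b.2⟩ (by rw [hredG _ b.2]; exact hb0)
      rw [hredG _ b.2] at h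
      exact h
    hBG := hBG
    hredG := hredG
    ht := ht
    h1 := h1
    h2 := h2
    fix_s := fix_s }

end Inst

/-! ### the two chart families: `GeoLeaves23.Leaves.charts` -/

section Charts

open Fermat.Agent.RED.Interface4 Fermat.Agent.RED.BASE.Interface12 Fermat.Agent.RED.BASE.Hauptmodul12
  Fermat.Agent.ES.RED.Contract8 Fermat.Agent.ES.RED.ModelInst4 Fermat.Agent.ES.RED.PlaceValue13
  Fermat.Agent.ES.RED.R2Abstract14
  Fermat.Agent.X0 Fermat.Agent.X0.FF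
  Fermat.Agent.ES.V19.InstNames3 Fermat.Agent.ES.V19.GammaF16 Fermat.Agent.ES.V19.XiEqvInst29
  Fermat.Agent.ES.W33.XiIfaceN29 Fermat.Agent.ES.W33.GeoNames23 Fermat.Agent.ES.W33.GeoInst23
  Fermat.Agent.ES.W33.NodalDefs3 Fermat.Agent.ES.W33.ValAt29
  Fermat.Agent.ES.W33.CentreN20 Fermat.Agent.ES.W33.NodalChart20 Fermat.Agent.ES.W33.TwoChartsN20
  Fermat.Agent.ES.W33.TwoChartsNInst20 Fermat.Agent.ES.W33.TwoChartsNRN20
  Fermat.Agent.ES.W33.NodalCtxRN20 Fermat.Agent.ES.W33.ContractP3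
  Fermat.Agent.ES.W33.LocChartGenN9 Fermat.Agent.ES.W33.LocPointN22
  Fermat.Agent.ES.W33.GoodCofiniteN9 Fermat.Agent.ES.W33.NodalCtxAsm26
  Fermat.Agent.ES.W33.R2RelCtxN22

attribute [local instance 5000] HahnSeries.powerSeriesAlgebra SubalgebraClass.toAlgebra

variable {n e M' : ℕ} [NeZero n] [NeZero M'] {p : ℕ} [Fact p.Prime] {hpM : ¬ p ∣ M'}
  {hb : BaseHyp n e} {hnM : n ∣ M'} {A : ValuationSubring Qbar} {hA : A.LiesOverPrime p}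

/-- the places of the first component which are node places are finite in number. -/
theorem finite_not_smooth₁ {k Ft₁ Ft₂ : Type*} [Field k] [Field Ft₁] [Algebra k Ft₁] [Field Ft₂]
    [Algebra k Ft₂] {s : ℕ} (N : Nodes k Ft₁ Ft₂ s) :
    {Q : Place k Ft₁ | ¬ N.IsSmooth (Sum.inl Q)}.Finite := by
  refine (Set.finite_range N.ν₁).subset fun Q hQ => ?_
  by_contra hcon
  exact hQ fun j hj => hcon ⟨j, hj.symm⟩

/-- the places of the second component which are node places are finite in number. -/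
theorem finite_not_smooth₂ {k Ft₁ Ft₂ : Type*} [Field k] [Field Ft₁] [Algebra k Ft₁] [Field Ft₂]
    [Algebra k Ft₂] {s : ℕ} (N : Nodes k Ft₁ Ft₂ s) :
    {Q : Place k Ft₂ | ¬ N.IsSmooth (Sum.inr Q)}.Finite := by
  refine (Set.finite_range N.ν₂).subset fun Q hQ => ?_
  by_contra hcon
  exact hQ fun j hj => hcon ⟨j, hj.symm⟩

variable (ctx : CtxLeaves n e M' p hpM hb hnM A hA)

include ctx in
/-- **(R2) at every smooth point of the first component, for every `y ∈ O1`** (helper22's relative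
count, from `ctx.rel`). -/
theorem hR2₁ (Q : Place (kA A) (Ft M' A))
    (hQ : (nodesN n e M' p hpM hb hnM A hA).IsSmooth (Sum.inl Q)) (y : ↥(O1 M' p A))
    (hy : rho1 M' p A y ≠ 0) :
    push (finDivBad M' p) (rN n e M' p hpM hb hnM A hA) (y : ↥(Fbar (M' * p)))
      (Sum.inl (Sum.inl Q)) = Q.ord (rho1 M' p A y) := by
  haveI := Fermat.Agent.RED.TOP.FbarFacts20.hasPrincipalDivisors_bar (M' * p)
  obtain ⟨Φ, c2, cN, hpts⟩ := ctx.rel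
  exact r2_rel₁ (alphaN M' p) (alphaN_isIntegral M' p) (nodesN n e M' p hpM hb hnM A hA)
    (rN n e M' p hpM hb hnM A hA) (rV n e M' p hpM hb hnM A hA) Φ
    (c1_rN n e M' p hpM hb hnM A hA) c2 (c3_rN n e M' p hpM hb hnM A hA)
    (finDivGood M') (finDivBad M' p) (degAlpha M' p) (hsumN M' p) hQ (hpts Q hQ) y hy

include ctx in
/-- **(R2) at every smooth point of the second component, for every `y ∈ O2`.** -/
theorem hR2₂ (Q : Place (kA A) (Ft M' A))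
    (hQ : (nodesN n e M' p hpM hb hnM A hA).IsSmooth (Sum.inr Q)) (y : ↥(O2 M' p A))
    (hy : rho2 M' p A y ≠ 0) :
    push (finDivBad M' p) (rN n e M' p hpM hb hnM A hA) (y : ↥(Fbar (M' * p)))
      (Sum.inl (Sum.inr Q)) = Q.ord (rho2 M' p A y) := by
  haveI := Fermat.Agent.RED.TOP.FbarFacts20.hasPrincipalDivisors_bar (M' * p)
  obtain ⟨Φ, c2, cN, hpts⟩ := ctx.rel
  exact r2_rel₂ (alphaN M' p) (alphaN_isIntegral M' p) (nodesN n e M' p hpM hb hnM A hA)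
    (rN n e M' p hpM hb hnM A hA) (rV n e M' p hpM hb hnM A hA) Φ
    (c1_rN n e M' p hpM hb hnM A hA) c2 (c3_rN n e M' p hpM hb hnM A hA) cN
    (finDivGood M') (finDivBad M' p) (degAlpha M' p) (hsumN M' p) hpts hQ y hy

include ctx in
/-- `tN ∈ GN` (chart 0 lies in `GN`). -/
theorem tN_mem_GN : tN n e M' p hb hnM ∈ GN M' p A := ctx.H.L.h0 _ (S0N ctx.H.L).s_mem

variable (Good : SPtW M' A → Prop) (coord : SPtW M' A → FW p M')
  (centre : SPtW M' A → Place Qbar (FW p M'))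

/-- **THE TWO CHART FAMILIES** (= the body of `GeoLeaves23.Leaves.charts` after `∃ w`): from
`ctx : CtxLeaves …`, the two localising elements `e₁`, `e₂` of chart 0, the second coordinate `s₂`, and
the named exits of the owners (see the file header). -/
theorem charts_of [IsAlgClosed (kA A)] (w : Ft M' A ≃ₐ[kA A] Ft M' A)
    (e₁ e₂ : ↥(S0N ctx.H.L).B)
    (hρ₁ : (S0N ctx.H.L).ρ₁ e₁ ≠ 0) (he₁ : (S0N ctx.H.L).ρ₂ e₁ = 0)
    (hρ₂ : (S0N ctx.H.L).ρ₂ e₂ ≠ 0) (he₂ : (S0N ctx.H.L).ρ₁ e₂ = 0)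
    (hsat₁ : ∀ b : ↥(S0N ctx.H.L).B, b ≠ 0 → ∃ (k : ℕ) (c : ↥A) (b' : ↥(S0N ctx.H.L).B),
      (e₁ : ↥(Fbar (M' * p))) ^ k * (b : ↥(Fbar (M' * p))) =
        algebraMap Qbar ↥(Fbar (M' * p)) (c : Qbar) * (b' : ↥(Fbar (M' * p))) ∧
          (S0N ctx.H.L).ρ₁ b' ≠ 0)
    (hsat₂ : ∀ b : ↥(S0N ctx.H.L).B, b ≠ 0 → ∃ (k : ℕ) (c : ↥A) (b' : ↥(S0N ctx.H.L).B),
      (e₂ : ↥(Fbar (M' * p))) ^ k * (b : ↥(Fbar (M' * p))) =
        algebraMap Qbar ↥(Fbar (M' * p)) (c : Qbar) * (b' : ↥(Fbar (M' * p))) ∧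
          (S0N ctx.H.L).ρ₂ b' ≠ 0)
    (hpeel₁ : ∀ (P : Place Qbar ↥(Fbar (M' * p)))
      (hP : (locChart (S0N ctx.H.L) e₁ (S0N ctx.H.L).ρ₁ (S0N ctx.H.L).ρ₁_const hρ₁ hsat₁).InChart P),
      (locChart (S0N ctx.H.L) e₁ (S0N ctx.H.L).ρ₁ (S0N ctx.H.L).ρ₁_const hρ₁ hsat₁).PeelA P hP)
    (hpeel₂ : ∀ (P : Place Qbar ↥(Fbar (M' * p)))
      (hP : (locChart (S0N ctx.H.L) e₂ (S0N ctx.H.L).ρ₂ (S0N ctx.H.L).ρ₂_const hρ₂ hsat₂).InChart P),
      (locChart (S0N ctx.H.L) e₂ (S0N ctx.H.L).ρ₂ (S0N ctx.H.L).ρ₂_const hρ₂ hsat₂).PeelA P hP)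
    (htr₂ : ∀ htG : tN n e M' p hb hnM ∈ GN M' p A,
      Transcendental (kA A) (redN M' p A ⟨_, htG⟩).2)
    (s₂ : ↥(Fbar (M' * p))) (hs₂ : s₂ ∈ locRing (S0N ctx.H.L) e₂) (ht₂ : s₂ ∈ GN M' p A)
    (hred₂ : rho2 M' p A ⟨s₂, GN_le_O2 M' p A ht₂⟩ =
      w (tResV n e M' p hpM hb hnM A hA))
    (h1₂ : ∀ z : kA A, (redN M' p A ⟨s₂, ht₂⟩).1 ≠ algebraMap (kA A) (Ft M' A) z)
    (h2₂ : ∀ z : kA A, (redN M' p A ⟨s₂, ht₂⟩).2 ≠ algebraMap (kA A) (Ft M' A) z)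
    (fix_s₂ : ∃ f₁ : ℕ, 0 < f₁ ∧ ∀ σ : ↥(gammaF A p f₁),
      rho (A := A) (M := M' * p) p f₁ σ • s₂ = s₂) :
    ∃ (x : ↥(Fbar (M' * p))) (hx : IsGen Qbar x) (xt : Ft M' A) (hxt : IsGen (kA A) xt)
      (hfin : FinDiv Qbar ↥(Fbar (M' * p))) (E₁ E₂ : Set (Place (kA A) (Ft M' A))),
      E₁.Finite ∧ E₂.Finite ∧
      (∀ Q, Q ∉ E₁ → Nonempty (ChartAt₁ (nodalInst n e M' p hpM hb hnM A hA Good coord centre)
        hx hxt hfin (tResV n e M' p hpM hb hnM A hA) Q)) ∧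
      ∀ Q, Q ∉ E₂ → Nonempty (ChartAt₂ (nodalInst n e M' p hpM hb hnM A hA Good coord centre)
        hx hxt hfin (w (tResV n e M' p hpM hb hnM A hA)) Q) := by
  have hxt := Fermat.Agent.ES.W33.GoodGenN9.isGen_tRes n e M' p hpM hb hnM A hA
  haveI hsep := Fermat.Agent.ES.W33.GoodGenN9.isSeparable_tRes n e M' p hpM hb hnM A hA
  have htG := tN_mem_GN ctx
  -- the first reduction of `tN` is `t̃`
  have hred₁ : (S0N ctx.H.L).ρ₁ (S0N ctx.H.L).sB = tResV n e M' p hpM hb hnM A hA :=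
    Fermat.Agent.ES.W33.AlphaRedN9.rho1_tN M' p A n e hpM hb hnM hA _
  have hρs₁ : (S0N ctx.H.L).ρ₁ (S0N ctx.H.L).sB ≠ 0 := by
    rw [hred₁]
    intro h0
    exact hxt.transcendental (by rw [h0]; exact isAlgebraic_zero)
  -- the second reduction of `tN` is transcendental
  have htr : Transcendental (kA A) ((S0N ctx.H.L).ρ₂ (S0N ctx.H.L).sB) := htr₂ htG
  have hρs₂ : (S0N ctx.H.L).ρ₂ (S0N ctx.H.L).sB ≠ 0 := by
    intro h0
    exact htr (by rw [h0]; exact isAlgebraic_zero)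
  refine ⟨tN n e M' p hb hnM, hxN n e M' p hb hnM, _, hxt, finDivBad M' p,
    {Q | Q.ord ((S0N ctx.H.L).ρ₁ (S0N ctx.H.L).sB) ≠ 0} ∪
      {Q | Q.ord ((S0N ctx.H.L).ρ₁ e₁) ≠ 0} ∪
      {Q | ¬ (nodesN n e M' p hpM hb hnM A hA).IsSmooth (Sum.inl Q)},
    {Q | Q.ord ((S0N ctx.H.L).ρ₂ (S0N ctx.H.L).sB) ≠ 0} ∪
      {Q | Q.ord ((S0N ctx.H.L).ρ₂ e₂) ≠ 0} ∪
      {Q | ¬ (nodesN n e M' p hpM hb hnM A hA).IsSmooth (Sum.inr Q)}, ?_, ?_, ?_, ?_⟩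
  · exact ((Fermat.Agent.ES.KRON.FinDiv18.finite_ord_ne_zero hxt hρs₁).union
      (Fermat.Agent.ES.KRON.FinDiv18.finite_ord_ne_zero hxt hρ₁)).union (finite_not_smooth₁ _)
  · exact ((Fermat.Agent.ES.KRON.FinDiv18.finite_ord_ne_zero hxt hρs₂).union
      (Fermat.Agent.ES.KRON.FinDiv18.finite_ord_ne_zero hxt hρ₂)).union (finite_not_smooth₂ _)
  · intro Q hQ
    rw [Set.mem_union, Set.mem_union, not_or, not_or] at hQ
    obtain ⟨⟨hQ1, hQ2⟩, hQ3⟩ := hQ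
    have hQs : Q.ord ((S0N ctx.H.L).ρ₁ (S0N ctx.H.L).sB) = 0 := not_not.mp hQ1
    have hQe : Q.ord ((S0N ctx.H.L).ρ₁ e₁) = 0 := not_not.mp hQ2
    have hQsm : (nodesN n e M' p hpM hb hnM A hA).IsSmooth (Sum.inl Q) := not_not.mp hQ3
    exact ⟨chartAt₁ ctx.H Good coord centre hxt (finDivBad M' p) e₁ hρ₁ he₁ hsat₁ hpeel₁ Q
      hQs.ge hQe (hR2₁ ctx Q hQsm) hred₁ htG
      (fun z => by
        rw [redN_fst]
        exact Fermat.Agent.ES.W33.AlphaRedN9.rho1_tN_ne_algebraMap M' p A n e hpM hb hnM hA _ z)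
      (fun z => Fermat.Agent.ES.W33.AlphaRedN9.ne_algebraMap_of_transcendental (htr₂ htG) z)
      (Fermat.Agent.ES.W33.CoordFixN9.fix_s_tN n e M' p hb hnM A)⟩
  · intro Q hQ
    rw [Set.mem_union, Set.mem_union, not_or, not_or] at hQ
    obtain ⟨⟨hQ1, hQ2⟩, hQ3⟩ := hQ
    have hQs : Q.ord ((S0N ctx.H.L).ρ₂ (S0N ctx.H.L).sB) = 0 := not_not.mp hQ1
    have hQe : Q.ord ((S0N ctx.H.L).ρ₂ e₂) = 0 := not_not.mp hQ2
    have hQsm : (nodesN n e M' p hpM hb hnM A hA).IsSmooth (Sum.inr Q) := not_not.mp hQ3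
    exact ⟨chartAt₂ ctx.H Good coord centre hxt (finDivBad M' p) e₂ hρ₂ he₂ hsat₂ hpeel₂ Q
      hQs.ge hQe (hR2₂ ctx Q hQsm) s₂ hs₂ ht₂ hred₂ h1₂ h2₂ fix_s₂⟩

end Charts

/-! ### the base `(4, 8)`: `GeoLeaves23.Leaves.charts` modulo (PEEL-a) -/

section Four

open Fermat.Agent.RED.Interface4 Fermat.Agent.RED.BASE Fermat.Agent.RED.BASE.Interface12
  Fermat.Agent.RED.BASE.Hauptmodul12 Fermat.Agent.RED.BASE.EtaQuot12
  Fermat.Agent.ES.RED.Contract8 Fermat.Agent.ES.RED.ModelInst4 Fermat.Agent.ES.RED.PlaceValue13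
  Fermat.Agent.ES.RED.R2Abstract14
  Fermat.Agent.X0 Fermat.Agent.X0.FF
  Fermat.Agent.ES.V19.InstNames3 Fermat.Agent.ES.V19.GammaF16 Fermat.Agent.ES.V19.XiEqvInst29
  Fermat.Agent.ES.W33.XiIfaceN29 Fermat.Agent.ES.W33.GeoNames23 Fermat.Agent.ES.W33.GeoInst23
  Fermat.Agent.ES.W33.NodalDefs3 Fermat.Agent.ES.W33.ValAt29
  Fermat.Agent.ES.W33.CentreN20 Fermat.Agent.ES.W33.NodalChart20 Fermat.Agent.ES.W33.TwoChartsN20
  Fermat.Agent.ES.W33.TwoChartsNInst20 Fermat.Agent.ES.W33.TwoChartsNRN20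
  Fermat.Agent.ES.W33.NodalCtxRN20 Fermat.Agent.ES.W33.ContractP3
  Fermat.Agent.ES.W33.LocChartGenN9 Fermat.Agent.ES.W33.LocPointN22
  Fermat.Agent.ES.W33.GoodCofiniteN9 Fermat.Agent.ES.W33.NodalCtxAsm26
  Fermat.Agent.ES.W33.GeoInput23 Fermat.Agent.ES.W33.LocElemN1

attribute [local instance 5000] HahnSeries.powerSeriesAlgebra SubalgebraClass.toAlgebra

variable {M' : ℕ} [NeZero M'] {p : ℕ} [Fact p.Prime] {hb : BaseHyp 4 8} {hnM : 4 ∣ M'}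
  {A : ValuationSubring Qbar}

/-- **the chart of component 1 at the base `(4, 8)`**: chart 0 localised at helper1's
`e₁ = tN - yN^p` (helper9's `LocSatInstN9.locChart₁`). -/
def chart₁ (L : ChartLeaves 4 8 M' p hb hnM A) (hp2 : p ≠ 2) (hpM : ¬ p ∣ M')
    (hA : A.LiesOverPrime p) : ChartSpecP A (hxN 4 8 M' p hb hnM) (Ft M' A) :=
  Fermat.Agent.ES.W33.LocSatInstN9.locChart₁ (S0N L) L.h0 (fun _ => rfl) (fun _ => rfl) hp2 hpM hnM hA
    (e1N L hp2 hpM hA) (ρ₁_e1N_ne_zero L hp2 hpM hA) (ρ₂_e1N L hp2 hpM hA)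

/-- **the chart of component 2 at the base `(4, 8)`** (before re-marking with `yN`): chart 0
localised at helper1's `e₂ = yN - tN^p` (helper9's `LocSatInstN9.locChart₂`). -/
def chart₂ (L : ChartLeaves 4 8 M' p hb hnM A) (hp2 : p ≠ 2) (hpM : ¬ p ∣ M')
    (hA : A.LiesOverPrime p) : ChartSpecP A (hxN 4 8 M' p hb hnM) (Ft M' A) :=
  Fermat.Agent.ES.W33.LocSatInstN9.locChart₂ (S0N L) L.h0 (fun _ => rfl) (fun _ => rfl) hp2 hpM hnM hA
    (e2N L hp2 hpM hA) (ρ₂_e2N_ne_zero L hp2 hpM hA) (ρ₁_e2N L hp2 hpM hA)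

variable (M' p) (hpM : ¬ p ∣ M') (h4M : 4 ∣ M') (A) (hA : A.LiesOverPrime p)

set_option maxHeartbeats 2000000 in
/-- **THE FIELD `GeoLeaves23.Leaves.charts`** (v4 literal, `w := FrickeBar8.wBar`) from
`ctx : CtxLeaves 4 8 …` and (PEEL-a) at every place of the two localised charts `chart₁`, `chart₂`. -/
theorem charts_four (hp2 : p ≠ 2)
    (ctx : haveI := neZero_four
      CtxLeaves 4 8 M' p hpM baseHyp_four h4M A hA)
    (hpeel₁ : haveI := neZero_four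
      ∀ (P : Place Qbar ↥(Fbar (M' * p))) (hP : (chart₁ ctx.H.L hp2 hpM hA).InChart P),
        (chart₁ ctx.H.L hp2 hpM hA).PeelA P hP)
    (hpeel₂ : haveI := neZero_four
      ∀ (P : Place Qbar ↥(Fbar (M' * p))) (hP : (chart₂ ctx.H.L hp2 hpM hA).InChart P),
        (chart₂ ctx.H.L hp2 hpM hA).PeelA P hP) :
    haveI := neZero_four
    haveI : IsAlgClosed (kA A) := isAlgClosed_kA A
    ∃ (x : ↥(Fbar (M' * p))) (hx : IsGen Qbar x) (xt : Ft M' A)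
      (hxt : IsGen (kA A) xt) (hfin : FinDiv Qbar ↥(Fbar (M' * p)))
      (E₁ E₂ : Set (Place (kA A) (Ft M' A))), E₁.Finite ∧ E₂.Finite ∧
      (∀ Q, Q ∉ E₁ → Nonempty (ChartAt₁ (base48 M' p hpM h4M A hA) hx hxt hfin
        (tResV 4 8 M' p hpM baseHyp_four h4M A hA) Q)) ∧
      ∀ Q, Q ∉ E₂ → Nonempty (ChartAt₂ (base48 M' p hpM h4M A hA) hx hxt hfin
        (Fermat.Agent.ES.W33.FrickeBar8.wBar M' p A hA hpM
          (tResV 4 8 M' p hpM baseHyp_four h4M A hA)) Q) := by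
  haveI := neZero_four
  haveI : IsAlgClosed (kA A) := isAlgClosed_kA A
  have L := ctx.H.L
  have htG : tN 4 8 M' p baseHyp_four h4M ∈ GN M' p A := tN_mem_GN ctx
  have htr₂ : ∀ htG : tN 4 8 M' p baseHyp_four h4M ∈ GN M' p A,
      Transcendental (kA A) (redN M' p A ⟨_, htG⟩).2 := fun h =>
    Fermat.Agent.ES.W33.TransN4.transcendental_redN_snd 4 8 M' p baseHyp_four h4M A hpM hA h
  have hne : rho2 M' p A ⟨tN 4 8 M' p baseHyp_four h4M, GN_le_O2 M' p A htG⟩ ≠ 0 := by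
    intro h0
    apply htr₂ htG
    rw [redN_snd, h0]
    exact isAlgebraic_zero
  have ht₂ : heckeBetaBar Qbar M' p (tV 4 8 M' baseHyp_four h4M) ∈ GN M' p A :=
    Fermat.Agent.ES.W33.CoordRedTwoN9.yN_mem_GN M' p A 4 8 hpM baseHyp_four h4M hA
      (GN_le_O2 M' p A htG) hne
  have hred₂ : rho2 M' p A ⟨heckeBetaBar Qbar M' p (tV 4 8 M' baseHyp_four h4M),
      GN_le_O2 M' p A ht₂⟩ = Fermat.Agent.ES.W33.FrickeBar8.wBar M' p A hA hpM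
        (tResV 4 8 M' p hpM baseHyp_four h4M A hA) := by
    obtain ⟨h2, e⟩ := Fermat.Agent.ES.W33.FrickeBar8.rho2_beta M' p A hA hpM
      (Fermat.Agent.ES.W33.FrickeBar8.isRedOf_tV M' p A hA hpM 4 8 baseHyp_four h4M)
    exact e
  exact charts_of ctx _ _ _ (Fermat.Agent.ES.W33.FrickeBar8.wBar M' p A hA hpM)
    (e1N ctx.H.L hp2 hpM hA) (e2N ctx.H.L hp2 hpM hA)
    (ρ₁_e1N_ne_zero ctx.H.L hp2 hpM hA) (ρ₂_e1N ctx.H.L hp2 hpM hA)
    (ρ₂_e2N_ne_zero ctx.H.L hp2 hpM hA) (ρ₁_e2N ctx.H.L hp2 hpM hA)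
    (Fermat.Agent.ES.W33.LocSatInstN9.hsat₁_of (S0N ctx.H.L) ctx.H.L.h0 (fun _ => rfl) (fun _ => rfl)
      hp2 hpM h4M hA _ (ρ₁_e1N_ne_zero ctx.H.L hp2 hpM hA) (ρ₂_e1N ctx.H.L hp2 hpM hA))
    (Fermat.Agent.ES.W33.LocSatInstN9.hsat₂_of (S0N ctx.H.L) ctx.H.L.h0 (fun _ => rfl) (fun _ => rfl)
      hp2 hpM h4M hA _ (ρ₂_e2N_ne_zero ctx.H.L hp2 hpM hA) (ρ₁_e2N ctx.H.L hp2 hpM hA))
    hpeel₁ hpeel₂ htr₂
    (heckeBetaBar Qbar M' p (tV 4 8 M' baseHyp_four h4M))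
    (le_locRing (S0N ctx.H.L) _ (yN_mem_B ctx.H.L hp2 hpM hA)) ht₂ hred₂
    (fun z => Fermat.Agent.ES.W33.CoordRedTwoN9.redN_yN_fst_ne M' p A 4 8 hpM baseHyp_four h4M hA
      ht₂ z)
    (fun z => Fermat.Agent.ES.W33.CoordRedTwoN9.redN_yN_snd_ne M' p A 4 8 hpM baseHyp_four h4M hA
      htG (htr₂ htG) ht₂ z)
    (Fermat.Agent.ES.W33.CoordFixN9.fix_s_yN 4 8 M' p baseHyp_four h4M A)

end Four

end Fermat.Agent.ES.W33.ChartAtInstN26
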