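/-
Programme W (S33), chapter (B3′), instance layer (helper16): **the chart rings `chart ↥A t^{±1}` of the
bad level inside `GN = O1 ⊓ O2`, `h01 : M01 ≤ GN`, and PAIR SATURATION** — at the objects of
`W33/NodalDefs3` (function-level names only: `O1`, `O2`, `rho1`, `rho2`, `GN`, `redN`, `tN`).

`p` odd, `p ∤ M'`, `4 ∣ M'`, `A ≤ ℚ̄` over `p`; `hMI : ModelInput n e p M' A` is Programme N's level-`K`
nodal model (`ModelEnd4.modelInput_four` for `(n, e) = (4, 8)`).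

LEVEL COMPARISON (level `K` ⟶ `ℚ̄`, `bc := baseChangeHom (M' * p) K`; membership + `rho`-compatibility are
helper3's `W33/LevelCompare3`):
* `rho1_bc_ne_zero`, `rho2_bc_ne_zero` : a unit of `O_{j,K}` (`ModelDefs9.O1/O2`) has nonzero reduction
  `rho_j` after base change;  `bc_tN` : `bc (ModelDefs9.tN) = NodalDefs3.tN`.
PURE ALGEBRA
* `exists_primitive` : in a chart `B ⊆ O1 ⊓ O2`, `π`-saturated in `O1 ⊓ O2`, every nonzero element is
  `π ^ i * x'` with `x' ∈ B ∖ π (O1 ⊓ O2)`;  `inv_mem_or_of_not_piO` : such an `x'` is a unit of `O1` or `O2`.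
CHARTS (`s` a chart coordinate: `s = t` or `s = t⁻¹`)
* `chart_le_Gq1`, `chart_le_O2`, **`chart_le_GN`** : `chart ↥A s ≤ GN`;  `tN_mem_GN`, `tN_inv_mem_GN`;
* `exists_model_descent` : a chart element comes from Programme N's chart `B0_K` / `B1_K` at a large
  normal number field `K`, together with the whole `NodalTwoChartModel`;
* **`exists_content_pair`** : PAIR SATURATION — every nonzero `b ∈ chart ↥A s` is `c · b'` with
  `c ∈ A`, `b' ∈ chart ↥A s` and `redN b' ≠ 0`;  `sat_chart` : the same in the literal form of the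
  field `sat` of `NodalChart20.NodalChart` / `TwoChartsNOf20.nodalChartOfChart`;
  `exists_nonunit_mul_of_redN_eq_zero` : `ker (redN | chart ↥A s) = 𝔪_A · chart ↥A s`;
* **`h01`** : `∀ f ∈ M01 A (M' * p) K tK, f ∈ GN` (helper13's named input of `Reg01PropN13`; `K`, `tK`
  arbitrary with `bc tK = tN`), and the twins `h0 : M0 ≤ GN`, `h1 : M1 m ≤ GN`;
* `*_four` : everything at `(n, e) = (4, 8)`, `p` odd, with NO hypothesis left
  (`ModelEnd4.modelInput_four`).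
-/
import Mathlib
import Fermat.Agent.ES.W33.NodalDefs3
import Fermat.Agent.ES.W33.RedMemN16
import Fermat.Agent.ES.W33.LevelCompare3
import Fermat.Agent.ES.RED.ChartUnion1
import Fermat.Agent.ES.RED.TqIntF5
import Fermat.Agent.ES.V19.Reg01Prop13

set_option autoImplicit false
set_option synthInstance.maxHeartbeats 400000
set_option linter.unusedSectionVars false
set_option linter.style.haveILetI false

noncomputable section

open HahnSeries ModularCurve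

namespace Fermat.Agent.ES.W33.ChartGN16

open Fermat.Agent.RED.Interface4 Fermat.Agent.RED.DESC Fermat.Agent.RED.DESC.NumberFieldDVR27
open Fermat.Agent.RED.DESC.PlaceExtend27
open Fermat.Agent.RED.PUR.GaussGen8 Fermat.Agent.RED.PUR.GaussBridge10
open Fermat.Agent.RED.PUR.ChartGeneric22
open Fermat.Agent.RED.BASE.EtaQuot12 Fermat.Agent.RED.BASE.Hauptmodul12
  Fermat.Agent.RED.BASE.Interface12
open Fermat.Agent.ES.RED.Contract8 Fermat.Agent.ES.RED.GaussUnit25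
open Fermat.Agent.ES.V19.GaussFrac15
open Fermat.Agent.ES.N34.FrickeFK8

attribute [local instance 5000] HahnSeries.powerSeriesAlgebra SubalgebraClass.toAlgebra

/-! ### level comparison: units of `O_{j,K}` have nonzero reduction `rho_j`
(on top of helper3's `W33/LevelCompare3`) -/

section Compare

variable (A : ValuationSubring Qbar) {p M' : ℕ} [NeZero M'] [Fact p.Prime]
  (K : IntermediateField ℚ Qbar)

/-- a unit of `O_{1,K}` has nonzero first reduction. -/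
theorem rho1_bc_ne_zero (hp2 : p ≠ 2) (hpM : ¬ p ∣ M') (hM : 4 ∣ M') (hA : A.LiesOverPrime p)
    {π : ↥(AK A K)} (hπ : IsUnif (AK A K) π) (hE : FK (M' * p) K ≤ fracField (AK A K))
    (x : FK (M' * p) K) (hx0 : x ≠ 0)
    (hxi : x⁻¹ ∈ Fermat.Agent.ES.N34.ModelDefs9.O1 M' p hπ hE)
    (h : baseChangeHom (M' * p) K x ∈ NodalDefs3.O1 M' p A) :
    NodalDefs3.rho1 M' p A ⟨baseChangeHom (M' * p) K x, h⟩ ≠ 0 := by
  obtain ⟨hi, -⟩ :=
    Fermat.Agent.ES.W33.LevelCompare3.bc_mem_O1 M' p A hp2 hpM hM hA hπ hE x⁻¹ hxi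
  intro h0
  have h1 : NodalDefs3.rho1 M' p A ⟨baseChangeHom (M' * p) K x, h⟩ *
      NodalDefs3.rho1 M' p A ⟨baseChangeHom (M' * p) K x⁻¹, hi⟩ = 1 := by
    rw [← map_mul, ← map_one (NodalDefs3.rho1 M' p A)]
    congr 1
    apply Subtype.ext
    show baseChangeHom (M' * p) K x * baseChangeHom (M' * p) K x⁻¹ = 1
    rw [← map_mul, mul_inv_cancel₀ hx0, map_one]
  rw [h0, zero_mul] at h1
  exact zero_ne_one h1

/-- a unit of `O_{2,K}` has nonzero second reduction. -/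
theorem rho2_bc_ne_zero (hp2 : p ≠ 2) (hpM : ¬ p ∣ M') (hM : 4 ∣ M') (hA : A.LiesOverPrime p)
    {π : ↥(AK A K)} (hπ : IsUnif (AK A K) π) (hE : FK (M' * p) K ≤ fracField (AK A K))
    (x : FK (M' * p) K) (hx0 : x ≠ 0)
    (hxi : x⁻¹ ∈ Fermat.Agent.ES.N34.ModelDefs9.O2 M' p hπ hE)
    (h : baseChangeHom (M' * p) K x ∈ NodalDefs3.O2 M' p A) :
    NodalDefs3.rho2 M' p A ⟨baseChangeHom (M' * p) K x, h⟩ ≠ 0 := by
  rw [NodalDefs3.rho2_apply]
  have hw0 : Fermat.Agent.ES.N34.ModelDefs9.wN K M' p x ≠ 0 := by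
    intro h'
    apply hx0
    have := congrArg (Fermat.Agent.ES.N34.ModelDefs9.wN K M' p) h'
    rwa [Fermat.Agent.ES.N34.ModelDefs9.wN_wN, map_zero] at this
  have hxi' : (Fermat.Agent.ES.N34.ModelDefs9.wN K M' p x)⁻¹ ∈
      Fermat.Agent.ES.N34.ModelDefs9.O1 M' p hπ hE := by
    rw [← map_inv₀]; exact hxi
  have hmem : baseChangeHom (M' * p) K (Fermat.Agent.ES.N34.ModelDefs9.wN K M' p x) ∈
      NodalDefs3.O1 M' p A := by
    rw [Fermat.Agent.ES.W33.LevelCompare3.bc_wN]; exact h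
  have h1 := rho1_bc_ne_zero A K hp2 hpM hM hA hπ hE _ hw0 hxi' hmem
  intro h0
  apply h1
  rw [← h0]
  congr 1
  exact Subtype.ext (Fermat.Agent.ES.W33.LevelCompare3.bc_wN M' p x)

end Compare

/-! ### the `π`-adic primitive part in a saturated chart (pure algebra) -/

section Primitive

variable {R F : Type*} [CommRing R] [Field F] [Algebra R F]

/-- In a chart `B ⊆ O1 ⊓ O2` which is `π`-saturated in `O1 ⊓ O2`, every nonzero element is a power
of `π` times an element of `B` which does not lie in `π (O1 ⊓ O2)`. -/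
theorem exists_primitive (π : R) (B : Subalgebra R F) (O1 O2 : ValuationSubring F)
    (pi_ne : algebraMap R F π ≠ 0) (pi_nonunit1 : (algebraMap R F π)⁻¹ ∉ O1)
    (arch1 : ∀ x : F, ∃ k : ℕ, algebraMap R F π ^ k * x ∈ O1)
    (sat : ∀ b ∈ B, ∀ c : F, c ∈ O1 → c ∈ O2 → b = algebraMap R F π * c → c ∈ B)
    (x : F) (hx : x ∈ B) (hx0 : x ≠ 0) :
    ∃ (i : ℕ) (x' : F), x' ∈ B ∧ x = algebraMap R F π ^ i * x' ∧
      ¬ ∃ c : F, c ∈ O1 ∧ c ∈ O2 ∧ x' = algebraMap R F π * c := by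
  obtain ⟨k, hk⟩ := arch1 x⁻¹
  induction k generalizing x with
  | zero =>
    refine ⟨0, x, hx, by rw [pow_zero, one_mul], ?_⟩
    rintro ⟨c, hc1, -, hxc⟩
    apply pi_nonunit1
    rw [pow_zero, one_mul] at hk
    have : (algebraMap R F π)⁻¹ = c * x⁻¹ := by
      rw [hxc, mul_inv, mul_comm c, mul_assoc]
      have hc0 : c ≠ 0 := by
        rintro rfl
        rw [mul_zero] at hxc
        exact hx0 hxc
      rw [inv_mul_cancel₀ hc0, mul_one]
    rw [this]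
    exact O1.mul_mem _ _ hc1 hk
  | succ k ih =>
    by_cases hP : ∃ c : F, c ∈ O1 ∧ c ∈ O2 ∧ x = algebraMap R F π * c
    · obtain ⟨c, hc1, hc2, hxc⟩ := hP
      have hcB : c ∈ B := sat x hx c hc1 hc2 hxc
      have hc0 : c ≠ 0 := by
        rintro rfl
        rw [mul_zero] at hxc
        exact hx0 hxc
      have hk' : algebraMap R F π ^ k * c⁻¹ ∈ O1 := by
        have : algebraMap R F π ^ k * c⁻¹ = algebraMap R F π ^ (k + 1) * x⁻¹ := by
          rw [hxc, mul_inv, pow_succ]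
          field_simp
        rw [this]; exact hk
      obtain ⟨i, x', hx'B, hcx', hnot⟩ := ih c hcB hc0 hk'
      refine ⟨i + 1, x', hx'B, ?_, hnot⟩
      rw [hxc, hcx', pow_succ]
      ring
    · exact ⟨0, x, hx, by rw [pow_zero, one_mul], hP⟩

/-- an element of `O1 ⊓ O2` outside `π (O1 ⊓ O2)` is a unit of `O1` or of `O2`. -/
theorem inv_mem_or_of_not_piO (π : R) (O1 O2 : ValuationSubring F)
    (pi_ne : algebraMap R F π ≠ 0)
    (unif1 : ∀ x ∈ O1, x⁻¹ ∉ O1 → ∃ c ∈ O1, x = algebraMap R F π * c)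
    (unif2 : ∀ x ∈ O2, x⁻¹ ∉ O2 → ∃ c ∈ O2, x = algebraMap R F π * c)
    (x : F) (hx1 : x ∈ O1) (hx2 : x ∈ O2)
    (hnot : ¬ ∃ c : F, c ∈ O1 ∧ c ∈ O2 ∧ x = algebraMap R F π * c) :
    x⁻¹ ∈ O1 ∨ x⁻¹ ∈ O2 := by
  by_contra hcon
  rw [not_or] at hcon
  obtain ⟨c1, hc1, e1⟩ := unif1 x hx1 hcon.1
  obtain ⟨c2, hc2, e2⟩ := unif2 x hx2 hcon.2
  have : c1 = c2 := mul_left_cancel₀ pi_ne (e1.symm.trans e2)
  exact hnot ⟨c1, hc1, this ▸ hc2, e1⟩

end Primitive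

/-! ### the charts of the bad level at the `ℚ̄`-level -/

section Charts

open Fermat.Agent.ES.N34.ModelDefs9 Fermat.Agent.ES.N34.NodalCore13
  Fermat.Agent.ES.N34.NumData13 Fermat.Agent.ES.N34.ModelInput13
  Fermat.Agent.ES.RED.ChartIntegralA1 Fermat.Agent.ES.V19.CechIface12

variable (n e M' : ℕ) [NeZero n] [NeZero M'] (p : ℕ) [Fact p.Prime] (hpM : ¬ p ∣ M')
  (hb : BaseHyp n e) (hnM : n ∣ M') (A : ValuationSubring Qbar) (hA : A.LiesOverPrime p)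

/-- `bc (t_K) = t`. -/
theorem bc_tN (K : IntermediateField ℚ Qbar) (ht : tq (↥K) n e ∈ FK M' K) :
    baseChangeHom (M' * p) K (Fermat.Agent.ES.N34.ModelDefs9.tN p ht) =
      NodalDefs3.tN n e M' p hb hnM := by
  apply Subtype.ext
  rw [coe_baseChangeHom, Fermat.Agent.ES.N34.ModelDefs9.coe_tN, coeffMap_tq]
  rfl

/-- a chart coordinate has an `A`-integral `q`-expansion. -/
theorem chartCoord_mem_intF {s : ↥(Fbar (M' * p))}
    (hs : NodalDefs3.IsChartCoord n e M' p hb hnM s) : s ∈ intF A (M' * p) := by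
  rcases hs with rfl | rfl
  · exact Fermat.Agent.ES.RED.TqIntF5.tF_mem_intF A (M' * p) _
  · exact Fermat.Agent.ES.RED.TqIntF5.tF_inv_mem_intF A (M' * p) _

include hpM hA in
/-- `chart ↥A s ≤ Gq1 ≤ O1`. -/
theorem chart_le_Gq1 (hp2 : p ≠ 2) (hM : 4 ∣ M') {s : ↥(Fbar (M' * p))}
    (hs : NodalDefs3.IsChartCoord n e M' p hb hnM s) {b : ↥(Fbar (M' * p))}
    (hbs : b ∈ chart ↥A s) : b ∈ NodalDefs3.Gq1 M' p A := by
  obtain ⟨Y, hY⟩ := (mem_intF_iff A (M' * p)).mp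
    (chart_le_intF A (M' * p) p hA (chartCoord_mem_intF n e M' p hb hnM A hs) hbs)
  exact Fermat.Agent.ES.W33.RedMemN16.mem_gaussRing_bad A hp2 hpM hM hA b Y hY

include hA in
/-- **Descent of a chart element to Programme N's level-`K` model.** -/
theorem exists_model_descent (hMI : ModelInput n e p M' A) {s : ↥(Fbar (M' * p))}
    (hs : NodalDefs3.IsChartCoord n e M' p hb hnM s) {b : ↥(Fbar (M' * p))}
    (hbs : b ∈ chart ↥A s) :
    ∃ (K : IntermediateField ℚ Qbar) (ht : tq (↥K) n e ∈ FK M' K)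
      (hE : FK (M' * p) K ≤ fracField (AK A K)) (π : ↥(AK A K)) (hπ : IsUnif (AK A K) π)
      (B : Subalgebra ↥(AK A K) ↥(FK (M' * p) K)) (x : FK (M' * p) K),
      NodalTwoChartModel ↥(AK A K) ↥(FK (M' * p) K) π (Fermat.Agent.ES.N34.ModelDefs9.tN p ht)
        (B0 A p ht) (B1 A p ht) (O1 M' p hπ hE) (O2 M' p hπ hE) ∧
      (B = B0 A p ht ∨ B = B1 A p ht) ∧ x ∈ B ∧ baseChangeHom (M' * p) K x = b ∧
      ∀ y ∈ B, baseChangeHom (M' * p) K y ∈ chart ↥A s := by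
  have hp : p.Prime := Fact.out
  obtain ⟨K₁, hK₁, hmodel⟩ := hMI
  haveI := hK₁
  obtain ⟨K₂, hfin₂, hle₂, H⟩ :=
    Fermat.Agent.ES.RED.ChartUnion1.exists_chart_descent A (M' * p) K₁ s b hbs
  haveI := hfin₂
  have hgal : IsGalois ℚ Qbar := Fermat.Agent.Lib.FrobeniusExists.isGalois_Qbar
  haveI hnorQ : Normal ℚ Qbar := hgal.to_normal
  haveI halgQ : Algebra.IsAlgebraic ℚ Qbar := isAlgebraic_Qbar
  let K : IntermediateField ℚ Qbar := IntermediateField.normalClosure ℚ K₂ Qbar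
  have hK₂K : K₂ ≤ K := IntermediateField.le_normalClosure K₂
  haveI hfinK : FiniteDimensional ℚ K := normalClosure.is_finiteDimensional ℚ K₂ Qbar
  haveI hnorK : Normal ℚ K := normalClosure.normal ℚ K₂ Qbar
  have hK₁K : K₁ ≤ K := le_trans hle₂ hK₂K
  obtain ⟨ht, hE, hD⟩ := @hmodel K (normalClosure.normal ℚ K₂ Qbar) hfinK hK₁K
  haveI hdvr : IsDiscreteValuationRing ↥(AK A K) := isDiscreteValuationRing_AK A K hp.ne_zero hA
  obtain ⟨ϖ, hϖ⟩ := IsDiscreteValuationRing.exists_irreducible ↥(AK A K)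
  have hπ : IsUnif (AK A K) ϖ := isUnif_of_irreducible (AK A K) hϖ
  haveI := Fermat.Agent.RED.NumInst4.isScalarTower_OE (AK A K) (FK (M' * p) K)
  have hMod := ((nodalDataAt_iff (AK A K) (FK (M' * p) K) ϖ
    (Fermat.Agent.ES.N34.ModelDefs9.tN p ht) (B0 A p ht) (B1 A p ht) (O1 M' p hπ hE)
    (O2 M' p hπ hE)).mp (hD ϖ hπ)).model
  have hbct := bc_tN n e M' p hb hnM K ht
  rcases hs with rfl | rfl
  · obtain ⟨x, hx, hxb⟩ := H K hK₂K (Fermat.Agent.ES.N34.ModelDefs9.tN p ht) hbct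
    refine ⟨K, ht, hE, ϖ, hπ, B0 A p ht, x, hMod, Or.inl rfl, hx, hxb, fun y hy => ?_⟩
    rw [← hbct]
    exact Fermat.Agent.ES.RED.ChartUnion1.baseChangeHom_mem_chart A (M' * p) K _ y hy
  · have hbct' : baseChangeHom (M' * p) K (Fermat.Agent.ES.N34.ModelDefs9.tN p ht)⁻¹ =
        (NodalDefs3.tN n e M' p hb hnM)⁻¹ := by rw [map_inv₀, hbct]
    obtain ⟨x, hx, hxb⟩ := H K hK₂K (Fermat.Agent.ES.N34.ModelDefs9.tN p ht)⁻¹ hbct'
    refine ⟨K, ht, hE, ϖ, hπ, B1 A p ht, x, hMod, Or.inr rfl, hx, hxb, fun y hy => ?_⟩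
    rw [← hbct']
    exact Fermat.Agent.ES.RED.ChartUnion1.baseChangeHom_mem_chart A (M' * p) K _ y hy

include hpM hA in
/-- `chart ↥A s ≤ O2`. -/
theorem chart_le_O2 (hp2 : p ≠ 2) (hM : 4 ∣ M') (hMI : ModelInput n e p M' A)
    {s : ↥(Fbar (M' * p))} (hs : NodalDefs3.IsChartCoord n e M' p hb hnM s)
    {b : ↥(Fbar (M' * p))} (hbs : b ∈ chart ↥A s) : b ∈ NodalDefs3.O2 M' p A := by
  obtain ⟨K, ht, hE, π, hπ, B, x, hMod, hB, hxB, rfl, -⟩ :=
    exists_model_descent n e M' p hb hnM A hA hMI hs hbs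
  have hx2 : x ∈ O2 M' p hπ hE := by
    rcases hB with rfl | rfl
    · exact hMod.le_O2_0 x hxB
    · exact hMod.le_O2_1 x hxB
  exact (Fermat.Agent.ES.W33.LevelCompare3.bc_mem_O2 M' p A hp2 hpM hM hA hπ hE x hx2).1

include hpM hA in
/-- **`chart ↥A s ≤ GN`** for the chart coordinates `s = t`, `s = t⁻¹`. -/
theorem chart_le_GN (hp2 : p ≠ 2) (hM : 4 ∣ M') (hMI : ModelInput n e p M' A)
    {s : ↥(Fbar (M' * p))} (hs : NodalDefs3.IsChartCoord n e M' p hb hnM s)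
    {b : ↥(Fbar (M' * p))} (hbs : b ∈ chart ↥A s) : b ∈ NodalDefs3.GN M' p A :=
  Subring.mem_inf.mpr
    ⟨le_gaussInt (NodalDefs3.Gq1 M' p A) (NodalDefs3.redq1 M' p A)
      (chart_le_Gq1 n e M' p hpM hb hnM A hA hp2 hM hs hbs),
     chart_le_O2 n e M' p hpM hb hnM A hA hp2 hM hMI hs hbs⟩

include hpM hA in
/-- `t ∈ GN`. -/
theorem tN_mem_GN (hp2 : p ≠ 2) (hM : 4 ∣ M') (hMI : ModelInput n e p M' A) :
    NodalDefs3.tN n e M' p hb hnM ∈ NodalDefs3.GN M' p A :=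
  chart_le_GN n e M' p hpM hb hnM A hA hp2 hM hMI (Or.inl rfl) (self_mem_chart _)

include hpM hA in
/-- `t⁻¹ ∈ GN`. -/
theorem tN_inv_mem_GN (hp2 : p ≠ 2) (hM : 4 ∣ M') (hMI : ModelInput n e p M' A) :
    (NodalDefs3.tN n e M' p hb hnM)⁻¹ ∈ NodalDefs3.GN M' p A :=
  chart_le_GN n e M' p hpM hb hnM A hA hp2 hM hMI (Or.inr rfl) (self_mem_chart _)

include hpM hA in
/-- **PAIR SATURATION**: every nonzero element of the chart ring `chart ↥A s` (`s = t^{±1}`) is a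
constant of `A` times an element of the chart ring whose PAIR reduction `redN` is nonzero. -/
theorem exists_content_pair (hp2 : p ≠ 2) (hM : 4 ∣ M') (hMI : ModelInput n e p M' A)
    {s : ↥(Fbar (M' * p))} (hs : NodalDefs3.IsChartCoord n e M' p hb hnM s)
    {b : ↥(Fbar (M' * p))} (hbs : b ∈ chart ↥A s) (hb0 : b ≠ 0) :
    ∃ (c : ↥A) (b' : ↥(Fbar (M' * p))) (hb' : b' ∈ chart ↥A s),
      b = algebraMap Qbar ↥(Fbar (M' * p)) (c : Qbar) * b' ∧
      NodalDefs3.redN M' p A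
        ⟨b', chart_le_GN n e M' p hpM hb hnM A hA hp2 hM hMI hs hb'⟩ ≠ 0 := by
  obtain ⟨K, ht, hE, π, hπ, B, x, hMod, hB, hxB, rfl, hBc⟩ :=
    exists_model_descent n e M' p hb hnM A hA hMI hs hbs
  have hx0 : x ≠ 0 := by
    rintro rfl
    exact hb0 (map_zero _)
  have hle1 : ∀ y ∈ B, y ∈ O1 M' p hπ hE := by
    rcases hB with rfl | rfl
    · exact hMod.le_O1_0
    · exact hMod.le_O1_1
  have hle2 : ∀ y ∈ B, y ∈ O2 M' p hπ hE := by
    rcases hB with rfl | rfl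
    · exact hMod.le_O2_0
    · exact hMod.le_O2_1
  have hsat : ∀ y ∈ B, ∀ c : FK (M' * p) K, c ∈ O1 M' p hπ hE → c ∈ O2 M' p hπ hE →
      y = algebraMap ↥(AK A K) ↥(FK (M' * p) K) π * c → c ∈ B := by
    rcases hB with rfl | rfl
    · exact hMod.sat0
    · exact hMod.sat1
  obtain ⟨i, x', hx'B, hxx', hnot⟩ := exists_primitive π B (O1 M' p hπ hE) (O2 M' p hπ hE)
    hMod.pi_ne hMod.pi_nonunit1 hMod.arch1 hsat x hxB hx0
  have hx'0 : x' ≠ 0 := by
    rintro rfl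
    rw [mul_zero] at hxx'
    exact hx0 hxx'
  have hx'1 := hle1 x' hx'B
  have hx'2 := hle2 x' hx'B
  refine ⟨incl A K (π ^ i), baseChangeHom (M' * p) K x', hBc x' hx'B, ?_, ?_⟩
  · rw [hxx', map_mul, ← map_pow,
      Fermat.Agent.ES.RED.ChartUnion1.baseChangeHom_algebraMap_AK A (M' * p) K (π ^ i)]
    rfl
  · intro h0
    rcases inv_mem_or_of_not_piO π (O1 M' p hπ hE) (O2 M' p hπ hE) hMod.pi_ne hMod.unif1
      hMod.unif2 x' hx'1 hx'2 hnot with h1 | h2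
    · have := congrArg Prod.fst h0
      rw [NodalDefs3.redN_fst] at this
      exact rho1_bc_ne_zero A K hp2 hpM hM hA hπ hE x' hx'0 h1 _ this
    · have := congrArg Prod.snd h0
      rw [NodalDefs3.redN_snd] at this
      exact rho2_bc_ne_zero A K hp2 hpM hM hA hπ hE x' hx'0 h2 _ this

include hpM hA in
/-- pair saturation in the literal form of the field `sat` of `NodalChart20.NodalChart` /
`TwoChartsNOf20.nodalChartOfChart` (with `red := redOf A GN redN s (chart_le_GN …)`). -/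
theorem sat_chart (hp2 : p ≠ 2) (hM : 4 ∣ M') (hMI : ModelInput n e p M' A)
    {s : ↥(Fbar (M' * p))} (hs : NodalDefs3.IsChartCoord n e M' p hb hnM s)
    (b : ↥(chart ↥A s).toSubring) (hb0 : b ≠ 0) :
    ∃ (c : ↥A) (b' : ↥(chart ↥A s).toSubring),
      (b : ↥(Fbar (M' * p))) = algebraMap Qbar ↥(Fbar (M' * p)) (c : Qbar) * (b' : ↥(Fbar (M' * p))) ∧
      NodalDefs3.redN M' p A
        ⟨(b' : ↥(Fbar (M' * p))), chart_le_GN n e M' p hpM hb hnM A hA hp2 hM hMI hs b'.2⟩ ≠ 0 := by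
  have hb0' : (b : ↥(Fbar (M' * p))) ≠ 0 := fun h => hb0 (Subtype.ext h)
  obtain ⟨c, b', hb', hbc, hred⟩ :=
    exists_content_pair n e M' p hpM hb hnM A hA hp2 hM hMI hs b.2 hb0'
  exact ⟨c, ⟨b', hb'⟩, hbc, hred⟩

include hpM hA in
/-- **`ker (redN | chart ↥A s) = 𝔪_A · chart ↥A s`**. -/
theorem exists_nonunit_mul_of_redN_eq_zero (hp2 : p ≠ 2) (hM : 4 ∣ M')
    (hMI : ModelInput n e p M' A)
    {s : ↥(Fbar (M' * p))} (hs : NodalDefs3.IsChartCoord n e M' p hb hnM s)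
    {b : ↥(Fbar (M' * p))} (hbs : b ∈ chart ↥A s)
    (h0 : NodalDefs3.redN M' p A
      ⟨b, chart_le_GN n e M' p hpM hb hnM A hA hp2 hM hMI hs hbs⟩ = 0) :
    ∃ (c : ↥A) (b' : ↥(Fbar (M' * p))), ¬ IsUnit c ∧ b' ∈ chart ↥A s ∧
      b = algebraMap Qbar ↥(Fbar (M' * p)) (c : Qbar) * b' := by
  rcases eq_or_ne b 0 with rfl | hb0
  · exact ⟨0, 0, not_isUnit_zero, zero_mem _, by simp⟩
  obtain ⟨c, b', hb', hbc, hred⟩ :=
    exists_content_pair n e M' p hpM hb hnM A hA hp2 hM hMI hs hbs hb0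
  refine ⟨c, b', fun hu => hred ?_, hb', hbc⟩
  -- `redN b = (res c, res c) * redN b'` and `res c ≠ 0`
  have hcne : resA A c ≠ 0 := by
    rw [Ne, IsLocalRing.residue_eq_zero_iff, IsLocalRing.mem_maximalIdeal, mem_nonunits_iff,
      not_not]
    exact hu
  have hmul : (⟨b, chart_le_GN n e M' p hpM hb hnM A hA hp2 hM hMI hs hbs⟩ :
      ↥(NodalDefs3.GN M' p A)) =
      ⟨_, Fermat.Agent.ES.W33.NodalGauss3.const_mem_GN M' p A c⟩ *
        ⟨b', chart_le_GN n e M' p hpM hb hnM A hA hp2 hM hMI hs hb'⟩ := Subtype.ext hbc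
  rw [hmul, map_mul, Fermat.Agent.ES.W33.NodalGauss3.redN_const] at h0
  have hu₁ : algebraMap (Fermat.Agent.ES.RED.Contract8.kA A)
      (Fermat.Agent.ES.RED.ModelInst4.Ft M' A) (resA A c) ≠ 0 := by
    rwa [Ne, map_eq_zero]
  have e1 := congrArg Prod.fst h0
  have e2 := congrArg Prod.snd h0
  simp only [Prod.fst_mul, Prod.snd_mul, Prod.fst_zero, Prod.snd_zero] at e1 e2
  exact Prod.ext ((mul_eq_zero.mp e1).resolve_left hu₁) ((mul_eq_zero.mp e2).resolve_left hu₁)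

/-! ### the `A`-spans of the level-`K` charts lie in `GN` -/

section Spans

variable (K : IntermediateField ℚ Qbar) (tK : ↥(FK (M' * p) K))

omit [NeZero n] in
/-- a sub-`A`-module of `Fbar (M' * p)` spanned by elements of `GN` lies in `GN`. -/
theorem span_le_GN (S : Set ↥(Fbar (M' * p))) (hS : ∀ f ∈ S, f ∈ NodalDefs3.GN M' p A) :
    ∀ f ∈ Submodule.span ↥A S, f ∈ NodalDefs3.GN M' p A := by
  intro f hf
  refine Submodule.span_induction (p := fun f _ => f ∈ NodalDefs3.GN M' p A) ?_ ?_ ?_ ?_ hf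
  · exact fun f hf => hS f hf
  · exact zero_mem _
  · exact fun f g _ _ hf hg => add_mem hf hg
  · intro a f _ hf
    rw [Algebra.smul_def]
    exact mul_mem (Fermat.Agent.ES.W33.NodalGauss3.const_mem_GN M' p A a) hf

include hpM hA in
/-- **`h01 : M01 ≤ GN`** (the named input of `Reg01PropN13.reg01PropN`, (M2), (M3)). -/
theorem h01 (hp2 : p ≠ 2) (hM : 4 ∣ M') (hMI : ModelInput n e p M' A)
    (hbc : baseChangeHom (M' * p) K tK = NodalDefs3.tN n e M' p hb hnM) :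
    ∀ f ∈ M01 A (M' * p) K tK, f ∈ NodalDefs3.GN M' p A := by
  intro f hf
  obtain ⟨k, hk⟩ := Fermat.Agent.ES.V19.Reg01Prop13.exists_pow_mul_mem_chart A (M' * p) K tK hf
  rw [hbc] at hk
  have ht0 : NodalDefs3.tN n e M' p hb hnM ≠ 0 := (NodalDefs3.hxN n e M' p hb hnM).ne_zero
  have h2 : f = (NodalDefs3.tN n e M' p hb hnM)⁻¹ ^ k *
      (NodalDefs3.tN n e M' p hb hnM ^ k * f) := by
    rw [← mul_assoc, ← mul_pow, inv_mul_cancel₀ ht0, one_pow, one_mul]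
  rw [h2]
  exact mul_mem (pow_mem (tN_inv_mem_GN n e M' p hpM hb hnM A hA hp2 hM hMI) k)
    (chart_le_GN n e M' p hpM hb hnM A hA hp2 hM hMI (Or.inl rfl) hk)

include hpM hA in
/-- **`h0 : M0 ≤ GN`**. -/
theorem h0 (hp2 : p ≠ 2) (hM : 4 ∣ M') (hMI : ModelInput n e p M' A)
    (hbc : baseChangeHom (M' * p) K tK = NodalDefs3.tN n e M' p hb hnM) :
    ∀ f ∈ M0 A (M' * p) K tK, f ∈ NodalDefs3.GN M' p A := by
  refine span_le_GN M' p A _ ?_
  rintro _ ⟨x, hx, rfl⟩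
  refine chart_le_GN n e M' p hpM hb hnM A hA hp2 hM hMI (Or.inl rfl) ?_
  rw [← hbc]
  exact Fermat.Agent.ES.RED.ChartUnion1.baseChangeHom_mem_chart A (M' * p) K tK x hx

include hpM hA in
/-- **`h1 : M1 m ≤ GN`**. -/
theorem h1 (hp2 : p ≠ 2) (hM : 4 ∣ M') (hMI : ModelInput n e p M' A)
    (hbc : baseChangeHom (M' * p) K tK = NodalDefs3.tN n e M' p hb hnM) (m : ℕ) :
    ∀ f ∈ M1 A (M' * p) K tK m, f ∈ NodalDefs3.GN M' p A := by
  refine span_le_GN M' p A _ ?_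
  rintro _ ⟨x, hx, rfl⟩
  have hx' : tK⁻¹ ^ m * x ∈ chart ↥(AK A K) tK⁻¹ := hx
  have hc := Fermat.Agent.ES.RED.ChartUnion1.baseChangeHom_mem_chart A (M' * p) K tK⁻¹ _ hx'
  rw [map_inv₀, hbc, map_mul, map_pow, map_inv₀, hbc] at hc
  have ht0 : NodalDefs3.tN n e M' p hb hnM ≠ 0 := (NodalDefs3.hxN n e M' p hb hnM).ne_zero
  have h2 : baseChangeHom (M' * p) K x = NodalDefs3.tN n e M' p hb hnM ^ m *
      ((NodalDefs3.tN n e M' p hb hnM)⁻¹ ^ m * baseChangeHom (M' * p) K x) := by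
    rw [← mul_assoc, ← mul_pow, mul_inv_cancel₀ ht0, one_pow, one_mul]
  rw [h2]
  exact mul_mem (pow_mem (tN_mem_GN n e M' p hpM hb hnM A hA hp2 hM hMI) m)
    (chart_le_GN n e M' p hpM hb hnM A hA hp2 hM hMI (Or.inr rfl) hc)

end Spans

end Charts

/-! ### `(n, e) = (4, 8)`, `p` odd: no hypothesis left -/

section Four

open Fermat.Agent.ES.N34.ModelInput13 Fermat.Agent.ES.V19.CechIface12

variable (M' : ℕ) [NeZero M'] (p : ℕ) [Fact p.Prime] (hpM : ¬ p ∣ M')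
  (hb : BaseHyp 4 8) (hnM : 4 ∣ M') (A : ValuationSubring Qbar) (hA : A.LiesOverPrime p)

include hpM hnM hA in
/-- Programme N's level-`K` nodal model, `p` odd. -/
theorem modelInput_four (hp2 : p ≠ 2) : ModelInput 4 8 p M' A :=
  Fermat.Agent.ES.N34.ModelEnd4.modelInput_four p M' A Fact.out hpM hp2 hnM hA

include hpM hA in
theorem chart_le_GN_four (hp2 : p ≠ 2) {s : ↥(Fbar (M' * p))}
    (hs : NodalDefs3.IsChartCoord 4 8 M' p hb hnM s) {b : ↥(Fbar (M' * p))}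
    (hbs : b ∈ chart ↥A s) : b ∈ NodalDefs3.GN M' p A :=
  chart_le_GN 4 8 M' p hpM hb hnM A hA hp2 hnM (modelInput_four M' p hpM hnM A hA hp2) hs hbs

include hpM hA in
theorem tN_mem_GN_four (hp2 : p ≠ 2) :
    NodalDefs3.tN 4 8 M' p hb hnM ∈ NodalDefs3.GN M' p A :=
  tN_mem_GN 4 8 M' p hpM hb hnM A hA hp2 hnM (modelInput_four M' p hpM hnM A hA hp2)

include hpM hA in
theorem tN_inv_mem_GN_four (hp2 : p ≠ 2) :
    (NodalDefs3.tN 4 8 M' p hb hnM)⁻¹ ∈ NodalDefs3.GN M' p A :=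
  tN_inv_mem_GN 4 8 M' p hpM hb hnM A hA hp2 hnM (modelInput_four M' p hpM hnM A hA hp2)

include hpM hA in
/-- **PAIR SATURATION**, `(4, 8)`. -/
theorem exists_content_pair_four (hp2 : p ≠ 2) {s : ↥(Fbar (M' * p))}
    (hs : NodalDefs3.IsChartCoord 4 8 M' p hb hnM s) {b : ↥(Fbar (M' * p))}
    (hbs : b ∈ chart ↥A s) (hb0 : b ≠ 0) :
    ∃ (c : ↥A) (b' : ↥(Fbar (M' * p))) (hb' : b' ∈ chart ↥A s),
      b = algebraMap Qbar ↥(Fbar (M' * p)) (c : Qbar) * b' ∧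
      NodalDefs3.redN M' p A ⟨b', chart_le_GN_four M' p hpM hb hnM A hA hp2 hs hb'⟩ ≠ 0 :=
  exists_content_pair 4 8 M' p hpM hb hnM A hA hp2 hnM (modelInput_four M' p hpM hnM A hA hp2)
    hs hbs hb0

include hpM hA in
/-- the field `sat` of `NodalChart20.NodalChart`, `(4, 8)`. -/
theorem sat_chart_four (hp2 : p ≠ 2) {s : ↥(Fbar (M' * p))}
    (hs : NodalDefs3.IsChartCoord 4 8 M' p hb hnM s)
    (b : ↥(chart ↥A s).toSubring) (hb0 : b ≠ 0) :
    ∃ (c : ↥A) (b' : ↥(chart ↥A s).toSubring),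
      (b : ↥(Fbar (M' * p))) = algebraMap Qbar ↥(Fbar (M' * p)) (c : Qbar) * (b' : ↥(Fbar (M' * p))) ∧
      NodalDefs3.redN M' p A
        ⟨(b' : ↥(Fbar (M' * p))), chart_le_GN_four M' p hpM hb hnM A hA hp2 hs b'.2⟩ ≠ 0 :=
  sat_chart 4 8 M' p hpM hb hnM A hA hp2 hnM (modelInput_four M' p hpM hnM A hA hp2) hs b hb0

include hpM hA in
/-- `ker (redN | chart ↥A s) = 𝔪_A · chart ↥A s`, `(4, 8)`. -/
theorem exists_nonunit_mul_of_redN_eq_zero_four (hp2 : p ≠ 2) {s : ↥(Fbar (M' * p))}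
    (hs : NodalDefs3.IsChartCoord 4 8 M' p hb hnM s) {b : ↥(Fbar (M' * p))}
    (hbs : b ∈ chart ↥A s)
    (h0 : NodalDefs3.redN M' p A ⟨b, chart_le_GN_four M' p hpM hb hnM A hA hp2 hs hbs⟩ = 0) :
    ∃ (c : ↥A) (b' : ↥(Fbar (M' * p))), ¬ IsUnit c ∧ b' ∈ chart ↥A s ∧
      b = algebraMap Qbar ↥(Fbar (M' * p)) (c : Qbar) * b' :=
  exists_nonunit_mul_of_redN_eq_zero 4 8 M' p hpM hb hnM A hA hp2 hnM
    (modelInput_four M' p hpM hnM A hA hp2) hs hbs h0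

variable (K : IntermediateField ℚ Qbar) (tK : ↥(FK (M' * p) K))

include hpM hA in
/-- **`h01 : M01 ≤ GN`**, `(4, 8)`. -/
theorem h01_four (hp2 : p ≠ 2)
    (hbc : baseChangeHom (M' * p) K tK = NodalDefs3.tN 4 8 M' p hb hnM) :
    ∀ f ∈ M01 A (M' * p) K tK, f ∈ NodalDefs3.GN M' p A :=
  h01 4 8 M' p hpM hb hnM A hA K tK hp2 hnM (modelInput_four M' p hpM hnM A hA hp2) hbc

include hpM hA in
/-- **`h0 : M0 ≤ GN`**, `(4, 8)`. -/
theorem h0_four (hp2 : p ≠ 2)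
    (hbc : baseChangeHom (M' * p) K tK = NodalDefs3.tN 4 8 M' p hb hnM) :
    ∀ f ∈ M0 A (M' * p) K tK, f ∈ NodalDefs3.GN M' p A :=
  h0 4 8 M' p hpM hb hnM A hA K tK hp2 hnM (modelInput_four M' p hpM hnM A hA hp2) hbc

include hpM hA in
/-- **`h1 : M1 m ≤ GN`**, `(4, 8)`. -/
theorem h1_four (hp2 : p ≠ 2)
    (hbc : baseChangeHom (M' * p) K tK = NodalDefs3.tN 4 8 M' p hb hnM) (m : ℕ) :
    ∀ f ∈ M1 A (M' * p) K tK m, f ∈ NodalDefs3.GN M' p A :=
  h1 4 8 M' p hpM hb hnM A hA K tK hp2 hnM (modelInput_four M' p hpM hnM A hA hp2) hbc m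

end Four

end Fermat.Agent.ES.W33.ChartGN16
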