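/-
Programme W (S33), chapter (B3′), instance layer (helper16): **helper20's `ChartLeaves` AT THE INSTANCE**
(leaves 1, 2, 3 of helper3's list): the term `chartLeaves_four : ChartLeaves 4 8 M' p hb hnM A`
of `W33/TwoChartsNInst20`, for `p` odd, `p ∤ M'`, `4 ∣ M'`, `A ≤ ℚ̄` over `p` — NO hypothesis left.

* `h0`, `h1`   : `chart ↥A tN^{±1} ≤ GN`           (`ChartGN16.chart_le_GN_four`);
* `red_const`  : `redN (a) = (ā, ā)`                 (helper3's `NodalGauss3.redN_const`);
* `sat0`, `sat1` : PAIR SATURATION of both chart rings (`ChartGN16.sat_chart_four`).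
Hence the two nodal charts `S0N`, `S1N` of the instance exist.
-/
import Mathlib
import Fermat.Agent.ES.W33.ChartGN16
import Fermat.Agent.ES.W33.TwoChartsNInst20

set_option autoImplicit false
set_option synthInstance.maxHeartbeats 400000
set_option linter.unusedSectionVars false

noncomputable section

open HahnSeries ModularCurve

namespace Fermat.Agent.ES.W33.ChartLeavesN16

open Fermat.Agent.RED.Interface4 Fermat.Agent.RED.BASE.Hauptmodul12
  Fermat.Agent.ES.W33.TwoChartsNInst20

attribute [local instance 5000] HahnSeries.powerSeriesAlgebra SubalgebraClass.toAlgebra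

variable (M' : ℕ) [NeZero M'] (p : ℕ) [Fact p.Prime] (hpM : ¬ p ∣ M')
  (hb : BaseHyp 4 8) (hnM : 4 ∣ M') (A : ValuationSubring Qbar) (hA : A.LiesOverPrime p)

include hpM hA in
/-- **`ChartLeaves` at the instance**, `(n, e) = (4, 8)`, `p` odd. -/
theorem chartLeaves_four (hp2 : p ≠ 2) : ChartLeaves 4 8 M' p hb hnM A where
  h0 := fun _ hb' =>
    Fermat.Agent.ES.W33.ChartGN16.chart_le_GN_four M' p hpM hb hnM A hA hp2 (Or.inl rfl) hb'
  h1 := fun _ hb' =>
    Fermat.Agent.ES.W33.ChartGN16.chart_le_GN_four M' p hpM hb hnM A hA hp2 (Or.inr rfl) hb'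
  red_const := fun a _ => Fermat.Agent.ES.W33.NodalGauss3.redN_const M' p A a
  sat0 := fun b hb0 =>
    Fermat.Agent.ES.W33.ChartGN16.sat_chart_four M' p hpM hb hnM A hA hp2 (Or.inl rfl) b hb0
  sat1 := fun b hb0 =>
    Fermat.Agent.ES.W33.ChartGN16.sat_chart_four M' p hpM hb hnM A hA hp2 (Or.inr rfl) b hb0

end Fermat.Agent.ES.W33.ChartLeavesN16
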