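/-
Programme W (S33), chapter (B3′), THE INSTANCE (helper3): **the two `t`-charts of the bad level over
`ℚ̄` lie in `GN`** — leaves 1, 2, 9 of the instance list (`TwoChartsNInst20.ChartLeaves.h0/h1/red_const`,
`GaussLeaves.inv_mem`).

* `bc_tN` : `baseChangeHom (tN_K) = tN` (Programme N's Hauptmodul of level `N' = M' * p` over a number
  field `K` is the `ℚ̄`-level one);
* `exists_chart_level0/1` : THE DESCENT PACKAGE — an element of `chart ↥A tN` (resp. `chart ↥A tN⁻¹`)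
  comes from Programme N's chart `B0` (resp. `B1`) at some normal number field `K ⊇ K₀` at which the
  nodal two-chart model (`ModelInput13.NodalDataAt`) holds;
* `chart0_le_GN`, `chart1_le_GN` : `chart ↥A tN^{±1} ≤ GN` (through `NodalTwoChartModel.le_O*_*` and
  `LevelCompare3.bc_mem_GN`);
* `redN_const_any` : `redN` of a constant, for ANY membership proof;
* `inv_mem_GN` : `g ∈ GN` with both component reductions nonzero is a unit of `GN`;
* `chartLeaves_of_sat` : `ChartLeaves` from the two pair saturations.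
-/
import Mathlib
import Fermat.Agent.ES.W33.LevelCompare3
import Fermat.Agent.ES.W33.TwoChartsNInst20
import Fermat.Agent.ES.RED.ChartUnion1
import Fermat.Agent.ES.N34.ModelEnd4

set_option autoImplicit false
set_option synthInstance.maxHeartbeats 400000
set_option linter.unusedSectionVars false
set_option linter.style.haveILetI false

open HahnSeries ModularCurve AlgebraicCurve

noncomputable section

namespace Fermat.Agent.ES.W33.ChartQbar3

open Fermat.Agent.RED.Interface4 Fermat.Agent.RED.BASE.Interface12 Fermat.Agent.RED.BASE.Hauptmodul12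
  Fermat.Agent.RED.BASE.EtaQuot12
  Fermat.Agent.RED.DESC Fermat.Agent.RED.DESC.NumberFieldDVR27 Fermat.Agent.RED.DESC.PlaceExtend27
  Fermat.Agent.RED.PUR.GaussGen8 Fermat.Agent.RED.PUR.ChartGeneric22
  Fermat.Agent.ES.RED.Contract8 Fermat.Agent.ES.RED.GaussUnit25
  Fermat.Agent.ES.RED.ModelInst4 Fermat.Agent.ES.N34.FrickeFK8
  Fermat.Agent.ES.V19.GaussFrac15 Fermat.Agent.ES.V19.InstNames3
  Fermat.Agent.ES.W33.NodalDefs3 Fermat.Agent.ES.W33.NodalGauss3 Fermat.Agent.ES.W33.LevelCompare3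

variable (n e M' : ℕ) [NeZero n] [NeZero M'] (p : ℕ) [Fact p.Prime] [NeZero p]
  (hb : BaseHyp n e) (hnM : n ∣ M') (A : ValuationSubring Qbar)

/-- Programme N's Hauptmodul of level `N'` over `K` is the `ℚ̄`-level one. -/
theorem bc_tN {K : IntermediateField ℚ Qbar} (ht : tq ↥K n e ∈ FK M' K) :
    baseChangeHom (M' * p) K (Fermat.Agent.ES.N34.ModelDefs9.tN p ht) = tN n e M' p hb hnM := by
  apply Subtype.ext
  rw [coe_baseChangeHom, Fermat.Agent.ES.N34.ModelDefs9.coe_tN, coeffMap_tq]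
  rfl

theorem bc_tN_inv {K : IntermediateField ℚ Qbar} (ht : tq ↥K n e ∈ FK M' K) :
    baseChangeHom (M' * p) K (Fermat.Agent.ES.N34.ModelDefs9.tN p ht)⁻¹ =
      (tN n e M' p hb hnM)⁻¹ := by
  rw [map_inv₀, bc_tN]

/-! ### the descent package -/

open Fermat.Agent.ES.N34.ModelDefs9 Fermat.Agent.ES.N34.ModelInput13 in
/-- **THE DESCENT PACKAGE** (both charts): elements `y₀ ∈ chart ↥A tN`, `y₁ ∈ chart ↥A tN⁻¹` come from
Programme N's charts `B0`, `B1` at some normal number field `K ⊇ K₀` at which the nodal two-chart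
model holds. -/
theorem exists_chart_level (hmodel : ModelInput n e p M' A)
    (K₀ : IntermediateField ℚ Qbar) [FiniteDimensional ℚ K₀] (y₀ y₁ : ↥(Fbar (M' * p)))
    (hy₀ : y₀ ∈ chart ↥A (tN n e M' p hb hnM)) (hy₁ : y₁ ∈ chart ↥A (tN n e M' p hb hnM)⁻¹) :
    ∃ (K : IntermediateField ℚ Qbar) (_ : Normal ℚ K) (_ : FiniteDimensional ℚ K), K₀ ≤ K ∧
      ∃ (ht : tq ↥K n e ∈ FK M' K) (hE : FK (M' * p) K ≤ fracField (AK A K)),
        (∀ (π : ↥(AK A K)) (hπ : IsUnif (AK A K) π),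
          NodalDataAt (AK A K) (FK (M' * p) K) π (Fermat.Agent.ES.N34.ModelDefs9.tN p ht)
            (B0 A p ht) (B1 A p ht)
            (Fermat.Agent.ES.N34.ModelDefs9.O1 M' p hπ hE)
            (Fermat.Agent.ES.N34.ModelDefs9.O2 M' p hπ hE)) ∧
        (∃ x ∈ B0 A p ht, baseChangeHom (M' * p) K x = y₀) ∧
        ∃ x ∈ B1 A p ht, baseChangeHom (M' * p) K x = y₁ := by
  obtain ⟨K₁, hK₁, hmod⟩ := hmodel
  haveI := hK₁
  obtain ⟨K₂, hfd₂, hle₂, H₀⟩ :=
    Fermat.Agent.ES.RED.ChartUnion1.exists_chart_descent A (M' * p) (K₀ ⊔ K₁) _ y₀ hy₀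
  haveI := hfd₂
  obtain ⟨K₃, hfd₃, hle₃, H₁⟩ :=
    Fermat.Agent.ES.RED.ChartUnion1.exists_chart_descent A (M' * p) K₂ _ y₁ hy₁
  haveI := hfd₃
  have hgal : IsGalois ℚ Qbar := Fermat.Agent.Lib.FrobeniusExists.isGalois_Qbar
  haveI hnorQ : Normal ℚ Qbar := hgal.to_normal
  haveI halgQ : Algebra.IsAlgebraic ℚ Qbar := isAlgebraic_Qbar
  obtain ⟨K, hK₃K, hfinK, hnorK⟩ : ∃ K : IntermediateField ℚ Qbar,
      K₃ ≤ K ∧ FiniteDimensional ℚ K ∧ Normal ℚ K :=
    ⟨IntermediateField.normalClosure ℚ K₃ Qbar, IntermediateField.le_normalClosure K₃,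
      normalClosure.is_finiteDimensional ℚ K₃ Qbar, normalClosure.normal ℚ K₃ Qbar⟩
  haveI := hfinK
  haveI := hnorK
  have hK₂K : K₂ ≤ K := hle₃.trans hK₃K
  have hK₀K : K₀ ≤ K := (le_sup_left.trans hle₂).trans hK₂K
  have hK₁K : K₁ ≤ K := (le_sup_right.trans hle₂).trans hK₂K
  obtain ⟨ht, hE, hD⟩ := hmod K hfinK hK₁K
  refine ⟨K, hnorK, hfinK, hK₀K, ht, hE, hD, ?_, ?_⟩
  · exact H₀ K hK₂K _ (bc_tN n e M' p hb hnM ht)
  · exact H₁ K hK₃K _ (bc_tN_inv n e M' p hb hnM ht)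

section Leaves

attribute [local instance 5000] HahnSeries.powerSeriesAlgebra SubalgebraClass.toAlgebra

open Fermat.Agent.ES.N34.ModelInput13 Fermat.Agent.ES.W33.TwoChartsNInst20

/-- **leaf 1, chart 0**: `chart ↥A tN ≤ GN`. -/
theorem chart0_le_GN (hp2 : p ≠ 2) (hpM : ¬ p ∣ M') (hM4 : 4 ∣ M') (hA : A.LiesOverPrime p)
    (hmodel : ModelInput n e p M' A) :
    ∀ b ∈ chart ↥A (tN n e M' p hb hnM), b ∈ GN M' p A := by
  intro b hb'
  obtain ⟨K, hnor, hfd, -, ht, hE, hD, ⟨x, hx, rfl⟩, -⟩ :=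
    exists_chart_level n e M' p hb hnM A hmodel ⊥ b 1 hb' (one_mem _)
  haveI := hfd
  haveI hdvr : IsDiscreteValuationRing ↥(AK A K) :=
    isDiscreteValuationRing_AK A K (Fact.out : p.Prime).ne_zero hA
  obtain ⟨ϖ, hϖ⟩ := IsDiscreteValuationRing.exists_irreducible ↥(AK A K)
  have hπ := isUnif_of_irreducible (AK A K) hϖ
  have hMod := (hD ϖ hπ).model
  obtain ⟨hX, -⟩ := bc_mem_GN M' p A hp2 hpM hM4 hA hπ hE x (hMod.le_O1_0 x hx)
    (hMod.le_O2_0 x hx)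
  exact hX

/-- **leaf 1, chart 1**: `chart ↥A tN⁻¹ ≤ GN`. -/
theorem chart1_le_GN (hp2 : p ≠ 2) (hpM : ¬ p ∣ M') (hM4 : 4 ∣ M') (hA : A.LiesOverPrime p)
    (hmodel : ModelInput n e p M' A) :
    ∀ b ∈ chart ↥A (tN n e M' p hb hnM)⁻¹, b ∈ GN M' p A := by
  intro b hb'
  obtain ⟨K, hnor, hfd, -, ht, hE, hD, -, ⟨x, hx, rfl⟩⟩ :=
    exists_chart_level n e M' p hb hnM A hmodel ⊥ 1 b (one_mem _) hb'
  haveI := hfd
  haveI hdvr : IsDiscreteValuationRing ↥(AK A K) :=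
    isDiscreteValuationRing_AK A K (Fact.out : p.Prime).ne_zero hA
  obtain ⟨ϖ, hϖ⟩ := IsDiscreteValuationRing.exists_irreducible ↥(AK A K)
  have hπ := isUnif_of_irreducible (AK A K) hϖ
  have hMod := (hD ϖ hπ).model
  obtain ⟨hX, -⟩ := bc_mem_GN M' p A hp2 hpM hM4 hA hπ hE x (hMod.le_O1_1 x hx)
    (hMod.le_O2_1 x hx)
  exact hX

/-- **leaf 2**: `redN` of a constant, for any membership proof. -/
theorem redN_const_any (a : ↥A)
    (h : algebraMap Qbar ↥(Fbar (M' * p)) (a : Qbar) ∈ GN M' p A) :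
    redN M' p A ⟨_, h⟩ =
      (algebraMap (kA A) (Ft M' A) (resA A a), algebraMap (kA A) (Ft M' A) (resA A a)) :=
  redN_const M' p A a

/-- **leaf 9**: an element of `GN` whose two component reductions are nonzero is a unit of `GN`. -/
theorem inv_mem_GN (g : ↥(GN M' p A)) (h1 : (redN M' p A g).1 ≠ 0) (h2 : (redN M' p A g).2 ≠ 0) :
    (g : ↥(Fbar (M' * p)))⁻¹ ∈ GN M' p A := by
  rw [redN_fst] at h1
  rw [redN_snd, rho2_apply] at h2
  have hu1 : IsGU (Gq1 M' p A) (redq1 M' p A) (g : ↥(Fbar (M' * p))) :=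
    (isGU_iff_rho_ne_zero (G := Gq1 M' p A) (red := redq1 M' p A)
      ⟨(g : ↥(Fbar (M' * p))), GN_le_O1 M' p A g.2⟩).mpr h1
  have hu2 : IsGU (Gq1 M' p A) (redq1 M' p A) (frickeN M' p (g : ↥(Fbar (M' * p)))) :=
    (isGU_iff_rho_ne_zero (G := Gq1 M' p A) (red := redq1 M' p A)
      ⟨frickeN M' p (g : ↥(Fbar (M' * p))), GN_le_O2 M' p A g.2⟩).mpr h2
  refine ⟨inv_mem_gaussInt_of_isGU hu1, ?_⟩
  show (g : ↥(Fbar (M' * p)))⁻¹ ∈ O2 M' p A
  rw [mem_O2_iff, map_inv₀]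
  exact inv_mem_gaussInt_of_isGU hu2

/-- **`ChartLeaves` from the two pair saturations** (leaves 1, 2 plugged in). -/
theorem chartLeaves_of_sat (hp2 : p ≠ 2) (hpM : ¬ p ∣ M') (hM4 : 4 ∣ M') (hA : A.LiesOverPrime p)
    (hmodel : ModelInput n e p M' A)
    (sat0 : ∀ b : ↥(chart ↥A (tN n e M' p hb hnM)).toSubring, b ≠ 0 →
      ∃ (c : ↥A) (b' : ↥(chart ↥A (tN n e M' p hb hnM)).toSubring),
        (b : ↥(Fbar (M' * p))) =
          algebraMap Qbar ↥(Fbar (M' * p)) (c : Qbar) * (b' : ↥(Fbar (M' * p))) ∧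
        Fermat.Agent.ES.W33.TwoChartsNOf20.redOf A (GN M' p A) (redN M' p A)
          (tN n e M' p hb hnM) (chart0_le_GN n e M' p hb hnM A hp2 hpM hM4 hA hmodel) b' ≠ 0)
    (sat1 : ∀ b : ↥(chart ↥A (tN n e M' p hb hnM)⁻¹).toSubring, b ≠ 0 →
      ∃ (c : ↥A) (b' : ↥(chart ↥A (tN n e M' p hb hnM)⁻¹).toSubring),
        (b : ↥(Fbar (M' * p))) =
          algebraMap Qbar ↥(Fbar (M' * p)) (c : Qbar) * (b' : ↥(Fbar (M' * p))) ∧
        Fermat.Agent.ES.W33.TwoChartsNOf20.redOf A (GN M' p A) (redN M' p A)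
          (tN n e M' p hb hnM)⁻¹ (chart1_le_GN n e M' p hb hnM A hp2 hpM hM4 hA hmodel) b' ≠ 0) :
    ChartLeaves n e M' p hb hnM A where
  h0 := chart0_le_GN n e M' p hb hnM A hp2 hpM hM4 hA hmodel
  h1 := chart1_le_GN n e M' p hb hnM A hp2 hpM hM4 hA hmodel
  red_const := fun a h => redN_const_any M' p A a h
  sat0 := sat0
  sat1 := sat1

end Leaves

end Fermat.Agent.ES.W33.ChartQbar3
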