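/-
Programme W (S33), chapter (B3′), instance layer (helper16): **the two components of the nodal model
at number-field level, as SURJECTIVE reductions of the charts with explicit kernels.**

Programme N proved, inside `CompHyp16.branchPrincipal_of_data`, the statement

  (C)  `B = φ(B⁰) + (B ∩ π O_j)`   (`CompHyp16.surj_of_data`)

for the chart `B ∈ {B0, B1}` of the bad level `M' q`, the level-`M'` chart `B⁰ ∈ {B0M, B1M}`,
`(φ, O_j) ∈ {(alpha, O1), (beta, O2)}`, but exported only its consequence (C-prin).  Programme W needs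
(C) itself: it says that `B / (B ∩ π O_j) ≅ B⁰ / π B⁰`, i.e. the `j`-th component of the special fibre of
the nodal chart IS the special fibre of the good level (coefficientwise reduction of `q`-expansions at `∞`
for `alpha`, through Fricke for `beta`), and it is the input of the level systems of the localised
charts `B[1/e]`.

* `SurjVia φ π B Oj`  : `∀ y ∈ B, ∃ b, ∃ c ∈ O_j, y - φ b = π c`;
* `KerVia φ π BM Oj`  : `φ b ∈ π O_j → b ∈ π B⁰` (kernel of `B⁰ → B / (B ∩ π O_j)`);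
* `surjVia_of_gauss`, `kerVia_of_gauss` : generic Gauss layer (same hypotheses as
  `CompInstB12.branchPrincipalVia_of_gauss`);
* `SurjItems n e q M' A K` : the four `SurjVia` + four `KerVia` statements at the `ModelDefs9` data;
* `surjItems_at` : at one normal number field `K` (same inputs as `PrinItems12.prinItems_at`);
* `surjItems_four` : `Large (SurjItems 4 8 q M' A)` for `q` odd, `4 ∣ M'`, NO hypotheses left.
-/
import Mathlib
import Fermat.Agent.ES.N34.PrinItems12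
import Fermat.Agent.ES.N34.ModelEnd4

set_option autoImplicit false
set_option synthInstance.maxHeartbeats 400000
set_option linter.unusedSectionVars false

noncomputable section

open HahnSeries ModularCurve IntermediateField

namespace Fermat.Agent.ES.W33.CompRedN16

/-! ### The two literals -/

section Literals

variable {R F : Type*} [CommRing R] [Field F] [Algebra R F]

/-- **(C), surjectivity**: `B = φ(B⁰) + (B ∩ π O_j)`. -/
def SurjVia {B₀ : Type*} (φ : B₀ → F) (π : R) (B : Subalgebra R F) (Oj : ValuationSubring F) :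
    Prop :=
  ∀ y ∈ B, ∃ b : B₀, ∃ c ∈ Oj, y - φ b = algebraMap R F π * c

/-- **(C), kernel**: `φ b ∈ π O_j → b ∈ π B⁰`. -/
def KerVia {FM : Type*} [Field FM] [Algebra R FM] (BM : Subalgebra R FM) (φ : ↥BM → F) (π : R)
    (Oj : ValuationSubring F) : Prop :=
  ∀ b : ↥BM, (∃ c ∈ Oj, φ b = algebraMap R F π * c) →
    ∃ b' : ↥BM, (b : FM) = algebraMap R FM π * (b' : FM)

end Literals

/-! ### Generic Gauss layer -/

section Gauss

open Fermat.Agent.RED.PUR.GaussGen8 Fermat.Agent.RED.PUR.KtGauss8 Fermat.Agent.RED.PUR.G1Package8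
  Fermat.Agent.RED.PUR.ChartGeneric22 Fermat.Agent.RED.ModelAsm4
  Fermat.Agent.ES.RED.FibreSurj17
  Fermat.Agent.ES.N34.CompHyp16 Fermat.Agent.ES.N34.CompGauss16 Fermat.Agent.ES.N34.GaussEmb22

variable {K : Type*} [Field K] [CharZero K] {O : ValuationSubring K} [IsDiscreteValuationRing ↥O]
  {π : ↥O} {EM E : IntermediateField K (LaurentSeries K)}

/-- **(C), surjectivity, Gauss level** (hypotheses of `CompInstB12.branchPrincipalVia_of_gauss`). -/
theorem surjVia_of_gauss (hπ : Irreducible π) (hEM : EM ≤ fracField O)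
    (s : ↥EM) (hs : (s : LaurentSeries K) ∈ gaussRing O)
    (htrs : Transcendental (Res O) (gaussRed O ⟨(s : LaurentSeries K), hs⟩))
    {n' : ℕ} (hn' : relfinrank (Kt O ⟨(s : LaurentSeries K), hs⟩) EM ≠ 0)
    (hdegM : DegLe O EM ⟨(s : LaurentSeries K), hs⟩ n')
    (hirrM : Irr O EM ⟨(s : LaurentSeries K), hs⟩ n')
    (hsm : SmoothChart O EM π s)
    (φ : ↥EM →ₐ[K] ↥E) (t : ↥E) {ι : ↥E →ₐ[K] LaurentSeries K} {Oj : ValuationSubring ↥E}
    (hOj : IsGaussPullback O ι Oj)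
    (leO : ∀ x ∈ chart ↥O t, x ∈ Oj)
    (hφO : ∀ z : ↥EM, φ z ∈ Oj ↔ z ∈ OvE O hπ EM hEM)
    (hy : φ s ∈ chart ↥O t)
    (htw : ∃ w : ↥(chart ↥O s), ∃ o ∈ Oj, t - φ (w : ↥EM) = algebraMap ↥O ↥E π * o)
    (hcomb : ∀ x ∈ Oj, ∃ z ∈ OvE O hπ EM hEM, ∃ c ∈ Oj, x - φ z = algebraMap ↥O ↥E π * c) :
    SurjVia (fun x : ↥(chart ↥O s) => φ (x : ↥EM)) π (chart ↥O t) Oj := by
  have : IsScalarTower ↥O K ↥E := Fermat.Agent.RED.NumInst4.isScalarTower_OE O E
  have : IsScalarTower ↥O K ↥EM := Fermat.Agent.RED.NumInst4.isScalarTower_OE O EM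
  have hpi : (algebraMap ↥O ↥E π)⁻¹ ∉ Oj := by
    rw [algebraMap_O_eq]; exact pi_inv_not_mem hOj hπ
  have hunif : ∀ x ∈ Oj, x⁻¹ ∉ Oj → ∃ c ∈ Oj, x = algebraMap ↥O ↥E π * c := by
    intro x hx hxi
    rw [algebraMap_O_eq]; exact unif hOj hπ x hx hxi
  have hφB : ∀ b : ↥(chart ↥O s), chartHom (restrictO (O := O) φ) (chart ↥O s) b ∈ chart ↥O t :=
    hφB_of_chart (restrictO (O := O) φ) (chart ↥O s) (chart ↥O t) s t (fun _ hb => hb)
      (fun _ hy => hy) hy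
  have hint := hint_of_chart (chartHom (restrictO (O := O) φ) (chart ↥O s)) π Oj (chart ↥O t) leO t
    (self_mem_chart t) (fun _ hy => hy) (fun b => leO _ (hφB b))
    (by obtain ⟨w, o, ho, hw⟩ := htw; exact ⟨w, o, ho, hw⟩)
  have hD := isDedekindDomain_quotient hπ hEM s hs htrs hn' hdegM hirrM hsm
  have hprime := isPrime_span_pi hπ hEM s hs htrs hdegM hirrM
  have hdom : IsDomain (↥(chart ↥O s) ⧸
      (Ideal.span {algebraMap ↥O ↥(chart ↥O s) π} : Ideal ↥(chart ↥O s))) :=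
    Ideal.Quotient.isDomain _
  have hic : IsIntegrallyClosed (↥(chart ↥O s) ⧸
      (Ideal.span {algebraMap ↥O ↥(chart ↥O s) π} : Ideal ↥(chart ↥O s))) :=
    inferInstance
  intro y hy'
  exact surj_of_data π (restrictO (O := O) φ) (chart ↥O s) (OvE O hπ EM hEM)
    (chart ↥O t) Oj leO hpi hunif hφB hint (fun z hz => (hφO z).mp hz)
    (fun z hz => (hφO z).mpr hz) (levelM_le hπ hEM s hs)
    (levelM_sat hπ hEM s hs htrs hdegM hirrM) (levelM_loc hπ hEM s hs htrs hdegM hirrM)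
    hcomb y hy'

/-- **(C), kernel, Gauss level.** -/
theorem kerVia_of_gauss (hπ : Irreducible π) (hEM : EM ≤ fracField O)
    (s : ↥EM) (hs : (s : LaurentSeries K) ∈ gaussRing O)
    (htrs : Transcendental (Res O) (gaussRed O ⟨(s : LaurentSeries K), hs⟩))
    {n' : ℕ} (hdegM : DegLe O EM ⟨(s : LaurentSeries K), hs⟩ n')
    (hirrM : Irr O EM ⟨(s : LaurentSeries K), hs⟩ n')
    (φ : ↥EM →ₐ[K] ↥E) {Oj : ValuationSubring ↥E}
    (hφO : ∀ z : ↥EM, φ z ∈ Oj ↔ z ∈ OvE O hπ EM hEM) :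
    KerVia (chart ↥O s) (fun x : ↥(chart ↥O s) => φ (x : ↥EM)) π Oj := by
  have : IsScalarTower ↥O K ↥E := Fermat.Agent.RED.NumInst4.isScalarTower_OE O E
  have : IsScalarTower ↥O K ↥EM := Fermat.Agent.RED.NumInst4.isScalarTower_OE O EM
  intro b hb
  have h := hker_of_sat π (restrictO (O := O) φ) (chart ↥O s) (OvE O hπ EM hEM) Oj
    (fun z hz => (hφO z).mp hz) (levelM_sat hπ hEM s hs htrs hdegM hirrM) b hb
  obtain ⟨b', hb'⟩ := Ideal.mem_span_singleton'.mp h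
  refine ⟨b', ?_⟩
  have h2 : ((b' * algebraMap ↥O ↥(chart ↥O s) π : ↥(chart ↥O s)) : ↥EM) = (b : ↥EM) :=
    congrArg (fun x : ↥(chart ↥O s) => (x : ↥EM)) hb'
  rw [← h2]
  show (b' : ↥EM) * algebraMap ↥O ↥EM π = _
  exact mul_comm _ _

end Gauss

/-! ### The `ModelDefs9` data -/

section Items

open Fermat.Agent.RED.Interface4 Fermat.Agent.RED.PUR.GaussGen8 Fermat.Agent.RED.PUR.KtGauss8
  Fermat.Agent.RED.PUR.G1Package8 Fermat.Agent.RED.BASE.EtaQuot12
  Fermat.Agent.RED.PUR.ChartGeneric22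
  Fermat.Agent.ES.N34.ModelDefs9 Fermat.Agent.ES.N34.ModelN4 Fermat.Agent.ES.N34.SmoothN5
  Fermat.Agent.ES.N34.LevelM20 Fermat.Agent.ES.N34.PrinItems12

variable (n e q M' : ℕ) [NeZero n] [NeZero M'] [NeZero q] (A : ValuationSubring Qbar)

/-- **(C) ×4 at `K`**: surjectivity and kernel for `(B0, alpha, O1)`, `(B0, beta, O2)`,
`(B1, alpha, O1)`, `(B1, beta, O2)`. -/
def SurjItems (K : IntermediateField ℚ Qbar) : Prop :=
  ∀ (ht : tq (↥K) n e ∈ FK M' K) (hE : FK (M' * q) K ≤ fracField (AK A K))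
    (π : ↥(AK A K)) (hπ : IsUnif (AK A K) π),
    (SurjVia (fun x : ↥(B0M A ht) => alpha K M' q (x : ↥(FK M' K))) π (B0 A q ht)
        (O1 M' q hπ hE) ∧
      SurjVia (fun x : ↥(B0M A ht) => beta K M' q (x : ↥(FK M' K))) π (B0 A q ht)
        (O2 M' q hπ hE) ∧
      SurjVia (fun x : ↥(B1M A ht) => alpha K M' q (x : ↥(FK M' K))) π (B1 A q ht)
        (O1 M' q hπ hE) ∧
      SurjVia (fun x : ↥(B1M A ht) => beta K M' q (x : ↥(FK M' K))) π (B1 A q ht)
        (O2 M' q hπ hE)) ∧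
    (KerVia (B0M A ht) (fun x : ↥(B0M A ht) => alpha K M' q (x : ↥(FK M' K))) π
        (O1 M' q hπ hE) ∧
      KerVia (B0M A ht) (fun x : ↥(B0M A ht) => beta K M' q (x : ↥(FK M' K))) π
        (O2 M' q hπ hE) ∧
      KerVia (B1M A ht) (fun x : ↥(B1M A ht) => alpha K M' q (x : ↥(FK M' K))) π
        (O1 M' q hπ hE) ∧
      KerVia (B1M A ht) (fun x : ↥(B1M A ht) => beta K M' q (x : ↥(FK M' K))) π
        (O2 M' q hπ hE))

variable {n e q M' A}

set_option maxHeartbeats 4000000 in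
/-- **(C) ×4 at one `K`** (inputs of `PrinItems12.prinItems_at`). -/
theorem surjItems_at (hq : q.Prime) (hqM : ¬ q ∣ M') (hA : A.LiesOverPrime q)
    (K : IntermediateField ℚ Qbar) [Normal ℚ K] [FiniteDimensional ℚ K]
    (hL : LevelItems n e M' A K) (hG : GlueItems n e q M' A K) (hS2 : ModEqItems n e q M' A K)
    (hC : HcombItems n e q M' A K) : SurjItems n e q M' A K := by
  intro ht hE π hπ
  have hdvr : IsDiscreteValuationRing ↥(AK A K) :=
    Fermat.Agent.RED.DESC.NumberFieldDVR27.isDiscreteValuationRing_AK A K hq.ne_zero hA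
  have hirr : Irreducible π := (IsDiscreteValuationRing.irreducible_iff_uniformizer π).mpr hπ.max_eq
  have : Fact q.Prime := ⟨hq⟩
  have : CharP (Res (AK A K)) q :=
    Fermat.Agent.RED.DESC.NumberFieldDVR27.charP_residueField_AK A K hq hA
  obtain ⟨_, _, hLM⟩ := hL
  obtain ⟨L0, L1⟩ := hLM π hirr
  have L0' : LevelM (AK A K) (FK M' K) π (tM ht) := L0
  have L1' : LevelM (AK A K) (FK M' K) π (tM ht)⁻¹ := L1
  obtain ⟨n0, hd0, hi0⟩ := L0'.deg_irr
  obtain ⟨n1, hd1, hi1⟩ := L1'.deg_irr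
  have glue := hG ht hE π hπ
  obtain ⟨hy0, hy1⟩ := hS2 ht
  -- the isometry
  have hiso : ∀ x : FK M' K, (x : LaurentSeries ↥K) ∈ gaussRing (AK A K) ↔
      ((Fermat.Agent.ES.N34.FrickeFK8.frickeFK M' K x : FK M' K) : LaurentSeries ↥K) ∈
        gaussRing (AK A K) :=
    fun x => Fermat.Agent.ES.N34.IsoM25.isoM A K M' q hirr hqM x
  -- `hφO`
  have haO : ∀ z : ↥(FK M' K), alpha K M' q z ∈ O1 M' q hπ hE ↔
      z ∈ OvE (AK A K) hirr (FK M' K) L0'.hEM := fun z =>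
    (Fermat.Agent.ES.N34.BranchInt5.alpha_mem_O1_iff M' q hπ hE z).trans
      (mem_OvE_iff (AK A K) hirr (FK M' K) L0'.hEM z).symm
  have hbO : ∀ z : ↥(FK M' K), beta K M' q z ∈ O2 M' q hπ hE ↔
      z ∈ OvE (AK A K) hirr (FK M' K) L0'.hEM := fun z =>
    (Fermat.Agent.ES.N34.BranchInt5.beta_mem_O2_iff M' q hπ hE hiso z).trans
      (mem_OvE_iff (AK A K) hirr (FK M' K) L0'.hEM z).symm
  -- `hcomb`
  have hc1' := hC ht hE π hπ
  have hc2' := Fermat.Agent.ES.N34.CombW5.hcomb_O2_of_O1 M' q hπ hE hiso hc1'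
  have hc1 : ∀ x ∈ O1 M' q hπ hE, ∃ z ∈ OvE (AK A K) hirr (FK M' K) L0'.hEM,
      ∃ c ∈ O1 M' q hπ hE,
        x - alpha K M' q z = algebraMap ↥(AK A K) ↥(FK (M' * q) K) π * c := by
    intro x hx
    obtain ⟨z, hz, c, hc, h⟩ := hc1' x hx
    exact ⟨z, (mem_OvE_iff (AK A K) hirr (FK M' K) L0'.hEM z).mpr hz, c, hc, h⟩
  have hc2 : ∀ x ∈ O2 M' q hπ hE, ∃ z ∈ OvE (AK A K) hirr (FK M' K) L0'.hEM,
      ∃ c ∈ O2 M' q hπ hE,
        x - beta K M' q z = algebraMap ↥(AK A K) ↥(FK (M' * q) K) π * c := by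
    intro x hx
    obtain ⟨z, hz, c, hc, h⟩ := hc2' x hx
    exact ⟨z, (mem_OvE_iff (AK A K) hirr (FK M' K) L0'.hEM z).mpr hz, c, hc, h⟩
  -- (K) at the single elements `tM`, `tM⁻¹`
  obtain ⟨ψ, hψO, hψ⟩ := Fermat.Agent.ES.N34.KronChart15.exists_frobInv A K q hq hA
  have hb0 : ((Fermat.Agent.ES.N34.FrickeFK8.frickeFK M' K (tM ht) : FK M' K) : LaurentSeries ↥K) ∈
      gaussRing (AK A K) := (hiso (tM ht)).mp L0'.htM
  have hb1 : ((Fermat.Agent.ES.N34.FrickeFK8.frickeFK M' K (tM ht)⁻¹ : FK M' K) :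
      LaurentSeries ↥K) ∈ gaussRing (AK A K) := (hiso (tM ht)⁻¹).mp L1'.htM
  have k0 := Fermat.Agent.ES.N34.KronChart15.hK0 M' q hπ hE ψ hψO hψ ht hb0
  have k1 := Fermat.Agent.ES.N34.KronChart15.hK1 M' q hπ hE ψ hψO hψ ht hb1
  -- Gauss pull-backs
  have hO1 := Fermat.Agent.ES.N34.ModelGlue22.isGaussPullback_O1 (A := A) (K := K) M' q hπ hE
  have hO2 := Fermat.Agent.ES.N34.ModelGlue22.isGaussPullback_O2 (A := A) (K := K) M' q hπ hE
  refine ⟨⟨?_, ?_, ?_, ?_⟩, ⟨?_, ?_, ?_, ?_⟩⟩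
  · exact surjVia_of_gauss hirr L0'.hEM (tM ht) L0'.htM L0'.htrM L0'.hn' hd0 hi0 L0'.hsm
      (alpha K M' q) (alpha K M' q (tM ht)) hO1 glue.le_O1_0 haO (self_mem_chart _)
      ⟨⟨tM ht, self_mem_chart _⟩, 0, (O1 M' q hπ hE).zero_mem, by rw [sub_self, mul_zero]⟩ hc1
  · exact surjVia_of_gauss hirr L0'.hEM (tM ht) L0'.htM L0'.htrM L0'.hn' hd0 hi0 L0'.hsm
      (beta K M' q) (alpha K M' q (tM ht)) hO2 glue.le_O2_0 hbO hy0 k0 hc2
  · exact surjVia_of_gauss hirr L0'.hEM (tM ht)⁻¹ L1'.htM L1'.htrM L1'.hn' hd1 hi1 L1'.hsm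
      (alpha K M' q) (alpha K M' q (tM ht))⁻¹ hO1 glue.le_O1_1 haO
      (by rw [map_inv₀]; exact self_mem_chart _)
      ⟨⟨(tM ht)⁻¹, self_mem_chart _⟩, 0, (O1 M' q hπ hE).zero_mem, by
        rw [map_inv₀, sub_self, mul_zero]⟩ hc1
  · exact surjVia_of_gauss hirr L0'.hEM (tM ht)⁻¹ L1'.htM L1'.htrM L1'.hn' hd1 hi1 L1'.hsm
      (beta K M' q) (alpha K M' q (tM ht))⁻¹ hO2 glue.le_O2_1 hbO
      (by rw [map_inv₀]; exact hy1) k1 hc2
  · exact kerVia_of_gauss hirr L0'.hEM (tM ht) L0'.htM L0'.htrM hd0 hi0 (alpha K M' q) haO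
  · exact kerVia_of_gauss hirr L0'.hEM (tM ht) L0'.htM L0'.htrM hd0 hi0 (beta K M' q) hbO
  · exact kerVia_of_gauss hirr L0'.hEM (tM ht)⁻¹ L1'.htM L1'.htrM hd1 hi1 (alpha K M' q) haO
  · exact kerVia_of_gauss hirr L0'.hEM (tM ht)⁻¹ L1'.htM L1'.htrM hd1 hi1 (beta K M' q) hbO

/-- **(C) ×4 for all large `K`**, abstract form. -/
theorem surjItems_of (hq : q.Prime) (hqM : ¬ q ∣ M') (hA : A.LiesOverPrime q)
    (hL : Large (LevelItems n e M' A)) (hG : Large (GlueItems n e q M' A))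
    (hS2 : Large (ModEqItems n e q M' A)) (hC : Large (HcombItems n e q M' A)) :
    Large (SurjItems n e q M' A) := by
  obtain ⟨K₀, hK₀, h⟩ := ((hL.and hG).and hS2).and hC
  refine ⟨K₀, hK₀, fun K _ hfd hle => ?_⟩
  obtain ⟨⟨⟨a1, a2⟩, a3⟩, a4⟩ := h K hfd hle
  have := hfd
  exact surjItems_at hq hqM hA K a1 a2 a3 a4

/-- **(C) ×4, `q` odd (`4 ∣ M'`, Hauptmodul `tq · 4 8`), no hypotheses left.** -/
theorem surjItems_four (hq : q.Prime) (hqM : ¬ q ∣ M') (hq2 : q ≠ 2) (hM : 4 ∣ M')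
    (hA : A.LiesOverPrime q) : Large (SurjItems 4 8 q M' A) := by
  have hJ := Fermat.Agent.RED.ModelFinal4.jTarget
    (Fermat.Agent.RED.BASE.MainCusp12.base_four M' hM).1.genBase
  have hG : Large (GlueItems 4 8 q M' A) := Fermat.Agent.ES.N34.ModelEnd4.glueItems hq hqM hA hJ
  have hS2 : Large (ModEqItems 4 8 q M' A) :=
    Fermat.Agent.ES.N34.ItemsAd6.modEqItems_four hq hq2 hqM hA
      (Fermat.Agent.ES.N34.ModelTop4.chartItems_four hM hq hA) hG
  exact surjItems_of hq hqM hA (levelItems_four hq hqM hM hA) hG hS2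
    (Fermat.Agent.ES.N34.CombA26.hcomb_four hq hqM hM hA)

end Items

end Fermat.Agent.ES.W33.CompRedN16
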