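/-
Programme W (S33 by hand), chapter (B2′)/(B3′) support, helper14: **Zariski connectedness of the
special fibre of a two-chart model, by hand** (pure commutative algebra; no model, no valuation).

WHY.  `XiIfaceN29.ChartHypN.const_E0bar` forces `0 < s` (at least one node); so the instance has to
PROVE that the two components of the nodal fibre meet.  Geometrically this is the connectedness of
the special fibre of a proper flat model `𝒳 / R` with `H⁰(𝒳, O) = R`.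

SETTING.  `R` a local ring whose maximal ideal is generated by `π`; `F` any commutative `R`-algebra;
`B0, B1 ≤ B01` subalgebras of `F` (the two chart rings and the ring of the overlap), with
* (H0)  `B0 ⊓ B1 = R`      (global functions are constants),
* (TOR) the `π`-power torsion of the Čech `H¹(𝒳, O) = B01 / (B0 + B1)` is bounded: there is `N` with
        `π^(N+1) c ∈ B0 + B1 → π^N c ∈ B0 + B1` for `c ∈ B01`
        (`exists_bound_of_fg`: true when `H¹` is a finitely generated module over a Noetherian `R`),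
* `π` is not a unit of `B0`.

RESULT `idem_trivial`.  An idempotent of the special fibre, i.e. `e₀ ∈ B0`, `e₁ ∈ B1` with
`e₀² - e₀ ∈ π B0`, `e₁² - e₁ ∈ π B1`, `e₀ - e₁ ∈ π B01`, is trivial: `e₀ ∈ π B0` or `1 - e₀ ∈ π B0`.

PROOF.  Lift by `h(x) = 3x² - 2x³` to `(a_n, b_n)`, idempotent modulo `π^(n+1)` on the two charts,
equal modulo `π^(n+1)` on the overlap (polynomial identities only); at `n = N` (TOR) yields
`a_N - π u = b_N + π v ∈ B0 ⊓ B1 = R`, and a constant idempotent modulo `π` is `≡ 0` or `≡ 1`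
because `R` is local.

VALUATION FORM `no_split` / `exists_node_ideal`.  If `O₁, O₂` are two valuation subrings of a field
`F` whose maximal ideals are generated by `π` and the three rings are `π`-saturated in `O₁ ⊓ O₂`,
then there are no `e₀ ∈ B0`, `e₁ ∈ B1` with `e_i ∈ 𝔪_{O₁}`, `1 - e_i ∈ 𝔪_{O₂}`; hence in one of the
two charts the two fibre components `𝔭₁ = B ∩ 𝔪_{O₁}` and `𝔭₂ = B ∩ 𝔪_{O₂}` lie in a common maximal
ideal — a NODE.
-/
import Mathlib

set_option autoImplicit false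

namespace Fermat.Agent.ES.W33.ConnFibre14

/-! ### The lifting polynomial `h(x) = 3x² - 2x³` -/

section Lift

variable {B : Type*} [CommRing B]

/-- `h(x) = 3x² - 2x³`: Newton's lifting of idempotents. -/
def hLift (x : B) : B := 3 * x ^ 2 - 2 * x ^ 3

theorem hLift_sq_sub (x : B) :
    hLift x ^ 2 - hLift x = (x ^ 2 - x) ^ 2 * (4 * (x ^ 2 - x) - 3) := by
  unfold hLift; ring

theorem hLift_sub_self (x : B) : hLift x - x = (1 - 2 * x) * (x ^ 2 - x) := by
  unfold hLift; ring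

theorem hLift_sub_hLift (a b : B) :
    hLift a - hLift b =
      (a - b) * (-6 * (a ^ 2 - a) - 3 * (a - b) + 6 * a * (a - b) - 2 * (a - b) ^ 2) := by
  unfold hLift; ring

end Lift

/-! ### The abstract connectedness theorem -/

section Abstract

variable {R F : Type*} [CommRing R] [CommRing F] [Algebra R F]

/-- `x ∈ π^n · B`. -/
def InPow (π : R) (B : Subalgebra R F) (n : ℕ) (x : F) : Prop :=
  ∃ b ∈ B, x = algebraMap R F π ^ n * b

theorem InPow.mem {π : R} {B : Subalgebra R F} {n : ℕ} {x : F} (h : InPow π B n x) : x ∈ B := by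
  obtain ⟨b, hb, rfl⟩ := h
  exact B.mul_mem (B.pow_mem (B.algebraMap_mem π) n) hb

theorem InPow.mono {π : R} {B B' : Subalgebra R F} (hBB : B ≤ B') {n : ℕ} {x : F}
    (h : InPow π B n x) : InPow π B' n x := by
  obtain ⟨b, hb, rfl⟩ := h
  exact ⟨b, hBB hb, rfl⟩

theorem InPow.mul_left {π : R} {B : Subalgebra R F} {n : ℕ} {x : F} (h : InPow π B n x) {y : F}
    (hy : y ∈ B) : InPow π B n (y * x) := by
  obtain ⟨b, hb, rfl⟩ := h
  exact ⟨y * b, B.mul_mem hy hb, by ring⟩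

theorem InPow.mul {π : R} {B : Subalgebra R F} {n m : ℕ} {x y : F} (hx : InPow π B n x)
    (hy : InPow π B m y) : InPow π B (n + m) (x * y) := by
  obtain ⟨b, hb, rfl⟩ := hx
  obtain ⟨c, hc, rfl⟩ := hy
  exact ⟨b * c, B.mul_mem hb hc, by ring⟩

theorem InPow.add {π : R} {B : Subalgebra R F} {n : ℕ} {x y : F} (hx : InPow π B n x)
    (hy : InPow π B n y) : InPow π B n (x + y) := by
  obtain ⟨b, hb, rfl⟩ := hx
  obtain ⟨c, hc, rfl⟩ := hy
  exact ⟨b + c, B.add_mem hb hc, by ring⟩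

theorem InPow.of_le {π : R} {B : Subalgebra R F} {n m : ℕ} (hnm : n ≤ m) {x : F}
    (h : InPow π B m x) : InPow π B n x := by
  obtain ⟨b, hb, rfl⟩ := h
  obtain ⟨k, rfl⟩ := Nat.exists_eq_add_of_le hnm
  exact ⟨algebraMap R F π ^ k * b, B.mul_mem (B.pow_mem (B.algebraMap_mem π) k) hb, by ring⟩

/-- One Newton step on a chart: idempotent mod `π^(n+1)` ⟹ `h(x)` idempotent mod `π^(n+2)`. -/
theorem inPow_hLift_sq_sub {π : R} {B : Subalgebra R F} {n : ℕ} {x : F} (hx : x ∈ B)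
    (h : InPow π B (n + 1) (x ^ 2 - x)) : InPow π B (n + 2) (hLift x ^ 2 - hLift x) := by
  rw [hLift_sq_sub]
  have hmem : x ^ 2 - x ∈ B := B.sub_mem (B.pow_mem hx 2) hx
  have h2 : InPow π B (n + 1 + (n + 1)) ((x ^ 2 - x) ^ 2) := by
    rw [pow_two]; exact h.mul h
  have h3 : InPow π B (n + 2) ((x ^ 2 - x) ^ 2) := h2.of_le (by omega)
  have hc : 4 * (x ^ 2 - x) - 3 ∈ B := by
    refine B.sub_mem (B.mul_mem ?_ hmem) ?_
    · exact_mod_cast B.natCast_mem 4
    · exact_mod_cast B.natCast_mem 3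
  rw [mul_comm]
  exact h3.mul_left hc

theorem hLift_mem {B : Subalgebra R F} {x : F} (hx : x ∈ B) : hLift x ∈ B := by
  unfold hLift
  refine B.sub_mem (B.mul_mem ?_ (B.pow_mem hx 2)) (B.mul_mem ?_ (B.pow_mem hx 3))
  · exact_mod_cast B.natCast_mem 3
  · exact_mod_cast B.natCast_mem 2

/-- `h(x) ≡ x` modulo `π^(n+1)` when `x` is idempotent modulo `π^(n+1)`. -/
theorem inPow_hLift_sub_self {π : R} {B : Subalgebra R F} {n : ℕ} {x : F} (hx : x ∈ B)
    (h : InPow π B (n + 1) (x ^ 2 - x)) : InPow π B (n + 1) (hLift x - x) := by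
  rw [hLift_sub_self]
  refine h.mul_left ?_
  refine B.sub_mem B.one_mem (B.mul_mem ?_ hx)
  exact_mod_cast B.natCast_mem 2

/-- One Newton step on the overlap. -/
theorem inPow_hLift_sub_hLift {π : R} {B : Subalgebra R F} {n : ℕ} {a b : F} (ha : a ∈ B)
    (hb : b ∈ B) (hid : InPow π B (n + 1) (a ^ 2 - a)) (hab : InPow π B (n + 1) (a - b)) :
    InPow π B (n + 2) (hLift a - hLift b) := by
  rw [hLift_sub_hLift]
  have hd : a - b ∈ B := B.sub_mem ha hb
  have h6 : (-6 : F) ∈ B := by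
    have : ((6 : ℕ) : F) ∈ B := B.natCast_mem 6
    have := B.neg_mem this
    exact_mod_cast this
  have h3 : (3 : F) ∈ B := by exact_mod_cast B.natCast_mem 3
  have h6' : (6 : F) ∈ B := by exact_mod_cast B.natCast_mem 6
  have h2 : (2 : F) ∈ B := by exact_mod_cast B.natCast_mem 2
  have hfac : InPow π B (n + 1)
      (-6 * (a ^ 2 - a) - 3 * (a - b) + 6 * a * (a - b) - 2 * (a - b) ^ 2) := by
    have e1 : InPow π B (n + 1) (-6 * (a ^ 2 - a)) := hid.mul_left h6
    have e2 : InPow π B (n + 1) (-3 * (a - b)) := by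
      refine hab.mul_left ?_
      have := B.neg_mem h3
      exact_mod_cast this
    have e3 : InPow π B (n + 1) (6 * a * (a - b)) := hab.mul_left (B.mul_mem h6' ha)
    have e4 : InPow π B (n + 1) (-2 * (a - b) * (a - b)) := by
      refine hab.mul_left (B.mul_mem ?_ hd)
      have := B.neg_mem h2
      exact_mod_cast this
    have := ((e1.add e2).add e3).add e4
    convert this using 1
    ring
  exact (hab.mul hfac).of_le (by omega)

variable (π : R) (B0 B1 B01 : Subalgebra R F)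

/-- The Newton tower: `(a_n, b_n)` idempotent modulo `π^(n+1)` on the charts, equal modulo
`π^(n+1)` on the overlap, and `a_n ≡ e₀` modulo `π`. -/
theorem exists_tower (h0 : B0 ≤ B01) (h1 : B1 ≤ B01) {e₀ e₁ : F} (he₀ : e₀ ∈ B0) (he₁ : e₁ ∈ B1)
    (hid₀ : InPow π B0 1 (e₀ ^ 2 - e₀)) (hid₁ : InPow π B1 1 (e₁ ^ 2 - e₁))
    (h01 : InPow π B01 1 (e₀ - e₁)) (n : ℕ) :
    ∃ a ∈ B0, ∃ b ∈ B1, InPow π B0 (n + 1) (a ^ 2 - a) ∧ InPow π B1 (n + 1) (b ^ 2 - b) ∧
      InPow π B01 (n + 1) (a - b) ∧ InPow π B0 1 (a - e₀) := by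
  induction n with
  | zero =>
    exact ⟨e₀, he₀, e₁, he₁, hid₀, hid₁, h01, ⟨0, B0.zero_mem, by simp⟩⟩
  | succ n ih =>
    obtain ⟨a, ha, b, hb, hia, hib, hab, hae⟩ := ih
    refine ⟨hLift a, hLift_mem ha, hLift b, hLift_mem hb, inPow_hLift_sq_sub ha hia,
      inPow_hLift_sq_sub hb hib, ?_, ?_⟩
    · exact inPow_hLift_sub_hLift (h0 ha) (h1 hb) (hia.mono h0) hab
    · have h := (inPow_hLift_sub_self ha hia).of_le (Nat.succ_le_succ (Nat.zero_le n))
      have := h.add hae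
      convert this using 1
      ring

/-- **Connectedness of the special fibre (abstract form).**  Under (H0) `B0 ⊓ B1 = R`, (TOR) and
`π ∉ B0ˣ`, an idempotent of the special fibre is `0` or `1`. -/
theorem idem_trivial [IsLocalRing R] (hπ : ∀ r : R, ¬ IsUnit r → π ∣ r)
    (h0 : B0 ≤ B01) (h1 : B1 ≤ B01)
    (hconst : ∀ x : F, x ∈ B0 → x ∈ B1 → ∃ r : R, algebraMap R F r = x)
    (hunit : ∀ b ∈ B0, algebraMap R F π * b ≠ 1)
    (N : ℕ)
    (htor : ∀ c ∈ B01, (∃ u ∈ B0, ∃ v ∈ B1, algebraMap R F π ^ (N + 1) * c = u + v) →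
      ∃ u ∈ B0, ∃ v ∈ B1, algebraMap R F π ^ N * c = u + v)
    {e₀ e₁ : F} (he₀ : e₀ ∈ B0) (he₁ : e₁ ∈ B1)
    (hid₀ : InPow π B0 1 (e₀ ^ 2 - e₀)) (hid₁ : InPow π B1 1 (e₁ ^ 2 - e₁))
    (h01 : InPow π B01 1 (e₀ - e₁)) :
    InPow π B0 1 e₀ ∨ InPow π B0 1 (1 - e₀) := by
  obtain ⟨a, ha, b, hb, -, -, hab, hae⟩ := exists_tower π B0 B1 B01 h0 h1 he₀ he₁ hid₀ hid₁ h01 N
  obtain ⟨c, hc, hcab⟩ := hab
  obtain ⟨u, hu, v, hv, huv⟩ := htor c hc ⟨a, ha, -b, B1.neg_mem hb, by rw [← hcab]; ring⟩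
  set p : F := algebraMap R F π with hp
  -- the global function `a - π u = b + π v`
  have hx0 : a - p * u ∈ B0 := B0.sub_mem ha (B0.mul_mem (B0.algebraMap_mem π) hu)
  have hx1 : a - p * u ∈ B1 := by
    have : a - p * u = b + p * v := by
      have : a - b = p * u + p * v := by
        rw [hcab, pow_succ, mul_assoc, mul_comm, mul_assoc]
        rw [show c * p ^ N = p ^ N * c by ring, huv]; ring
      linear_combination this
    rw [this]
    exact B1.add_mem hb (B1.mul_mem (B1.algebraMap_mem π) hv)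
  obtain ⟨r, hr⟩ := hconst _ hx0 hx1
  -- `e₀ = r + π z` with `z ∈ B0`
  obtain ⟨w, hw, hwe⟩ := hae
  rw [pow_one] at hwe
  have hz : u - w ∈ B0 := B0.sub_mem hu hw
  have he₀r : e₀ = algebraMap R F r + p * (u - w) := by
    rw [hr]
    linear_combination (-1 : F) * hwe
  -- `r² - r ∈ π B0`
  obtain ⟨d, hd, hde⟩ := hid₀
  rw [pow_one] at hde
  have hrr : algebraMap R F (r ^ 2 - r) =
      p * (d - 2 * (u - w) * e₀ + p * (u - w) ^ 2 + (u - w)) := by
    have h1' : algebraMap R F r = e₀ - p * (u - w) := by rw [he₀r]; ring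
    rw [map_sub, map_pow, h1']
    linear_combination hde
  have hmem : d - 2 * (u - w) * e₀ + p * (u - w) ^ 2 + (u - w) ∈ B0 := by
    have h2 : (2 : F) ∈ B0 := by exact_mod_cast B0.natCast_mem 2
    exact B0.add_mem (B0.add_mem (B0.sub_mem hd (B0.mul_mem (B0.mul_mem h2 hz) he₀))
      (B0.mul_mem (B0.algebraMap_mem π) (B0.pow_mem hz 2))) hz
  have hnu : ¬ IsUnit (r ^ 2 - r) := by
    intro hu'
    obtain ⟨ρ, hρ⟩ := hu'.exists_left_inv
    refine hunit (algebraMap R F ρ * (d - 2 * (u - w) * e₀ + p * (u - w) ^ 2 + (u - w)))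
      (B0.mul_mem (B0.algebraMap_mem ρ) hmem) ?_
    have : algebraMap R F ρ * algebraMap R F (r ^ 2 - r) = 1 := by
      rw [← map_mul, hρ, map_one]
    rw [hrr] at this
    rw [← this]; ring
  -- `r` or `1 - r` is a non-unit
  have hor : ¬ IsUnit r ∨ ¬ IsUnit (1 - r) := by
    by_contra hcon
    push Not at hcon
    apply hnu
    have : r ^ 2 - r = -(r * (1 - r)) := by ring
    rw [this]
    exact (hcon.1.mul hcon.2).neg
  rcases hor with h | h
  · left
    obtain ⟨r', hr'⟩ := hπ r h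
    refine ⟨algebraMap R F r' + (u - w), B0.add_mem (B0.algebraMap_mem r') hz, ?_⟩
    rw [pow_one, he₀r, hr', map_mul]; ring
  · right
    obtain ⟨r', hr'⟩ := hπ (1 - r) h
    refine ⟨algebraMap R F r' - (u - w), B0.sub_mem (B0.algebraMap_mem r') hz, ?_⟩
    have : (1 : F) - algebraMap R F r = algebraMap R F π * algebraMap R F r' := by
      rw [← map_one (algebraMap R F), ← map_sub, hr', map_mul]
    rw [pow_one, he₀r]
    linear_combination this

end Abstract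

/-! ### (TOR) from finite generation of the Čech `H¹` over a Noetherian base -/

section Torsion

variable {R F : Type*} [CommRing R] [CommRing F] [Algebra R F]

/-- **(TOR)**: if `B01 / (B0 + B1)` is a finitely generated module over the Noetherian ring `R`
(literal shape of `CechIface12.FGProp`), then its `π`-power torsion is bounded. -/
theorem exists_bound_of_fg [IsNoetherianRing R] (π : R) (B0 B1 B01 : Subalgebra R F)
    (G : Finset F) (hG : ∀ g ∈ G, g ∈ B01)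
    (hfg : Subalgebra.toSubmodule B01 ≤
      Submodule.span R (G : Set F) ⊔ (Subalgebra.toSubmodule B0 ⊔ Subalgebra.toSubmodule B1)) :
    ∃ N : ℕ, ∀ c ∈ B01, (∃ u ∈ B0, ∃ v ∈ B1, algebraMap R F π ^ (N + 1) * c = u + v) →
      ∃ u ∈ B0, ∃ v ∈ B1, algebraMap R F π ^ N * c = u + v := by
  classical
  set S : Submodule R F := Subalgebra.toSubmodule B0 ⊔ Subalgebra.toSubmodule B1 with hS
  set mk : F →ₗ[R] F ⧸ S := S.mkQ with hmk
  set Mb : Submodule R (F ⧸ S) := (Subalgebra.toSubmodule B01).map mk with hMb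
  -- `Mb` is finitely generated
  have hMbfg : Mb.FG := by
    have h1 : Mb = (Submodule.span R (G : Set F)).map mk := by
      apply le_antisymm
      · calc Mb ≤ (Submodule.span R (G : Set F) ⊔ S).map mk := Submodule.map_mono hfg
          _ = (Submodule.span R (G : Set F)).map mk ⊔ S.map mk := Submodule.map_sup _ _ _
          _ = (Submodule.span R (G : Set F)).map mk := by
              rw [hmk, Submodule.mkQ_map_self, sup_bot_eq]
      · apply Submodule.map_mono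
        rw [Submodule.span_le]
        intro g hg
        exact hG g (Finset.mem_coe.mp hg)
    rw [h1]
    exact (Submodule.fg_span (Finset.finite_toSet G)).map mk
  have hnoeth : IsNoetherian R Mb := isNoetherian_of_fg_of_noetherian Mb hMbfg
  -- the ascending chain of `π^n`-torsion
  let T : ℕ →o Submodule R Mb :=
    { toFun := fun n => LinearMap.ker (LinearMap.lsmul R Mb (π ^ n))
      monotone' := by
        intro n m hnm x hx
        rw [LinearMap.mem_ker, LinearMap.lsmul_apply] at hx ⊢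
        obtain ⟨k, rfl⟩ := Nat.exists_eq_add_of_le hnm
        rw [pow_add, mul_comm, mul_smul, hx, smul_zero] }
  obtain ⟨N, hN⟩ := monotone_stabilizes_iff_noetherian.mpr hnoeth T
  refine ⟨N, fun c hc hcN => ?_⟩
  have hmkc : mk c ∈ Mb := Submodule.mem_map_of_mem hc
  have hsm : ∀ n : ℕ, algebraMap R F π ^ n * c = π ^ n • c := by
    intro n; rw [Algebra.smul_def, map_pow]
  have hker : (⟨mk c, hmkc⟩ : Mb) ∈ T (N + 1) := by
    change _ ∈ LinearMap.ker _
    rw [LinearMap.mem_ker, LinearMap.lsmul_apply]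
    apply Subtype.ext
    change π ^ (N + 1) • mk c = 0
    rw [← map_smul, hmk, Submodule.mkQ_apply, Submodule.Quotient.mk_eq_zero, ← hsm]
    obtain ⟨u, hu, v, hv, huv⟩ := hcN
    rw [huv]
    exact Submodule.add_mem_sup hu hv
  rw [← hN (N + 1) (Nat.le_succ N)] at hker
  change _ ∈ LinearMap.ker _ at hker
  rw [LinearMap.mem_ker, LinearMap.lsmul_apply] at hker
  have h0 : π ^ N • mk c = 0 := congrArg Subtype.val hker
  rw [← map_smul, hmk, Submodule.mkQ_apply, Submodule.Quotient.mk_eq_zero, ← hsm] at h0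
  obtain ⟨u, hu, v, hv, huv⟩ := Submodule.mem_sup.mp h0
  exact ⟨u, hu, v, hv, huv.symm⟩

end Torsion

/-! ### The valuation form -/

section Valuation

variable {R F : Type*} [CommRing R] [Field F] [Algebra R F]

/-- `𝔪_O = π O`, stated elementwise. -/
def GenMax (π : R) (O : ValuationSubring F) : Prop :=
  algebraMap R F π ∈ O.nonunits ∧ ∀ x ∈ O.nonunits, (algebraMap R F π)⁻¹ * x ∈ O

/-- `B` is `π`-saturated in `O₁ ⊓ O₂`. -/
def Sat (π : R) (O₁ O₂ : ValuationSubring F) (B : Subalgebra R F) : Prop :=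
  ∀ x : F, algebraMap R F π * x ∈ B → x ∈ O₁ → x ∈ O₂ → x ∈ B

theorem nonunits_mul_mem {O : ValuationSubring F} {x y : F} (hx : x ∈ O.nonunits) (hy : y ∈ O) :
    x * y ∈ O.nonunits := by
  rw [ValuationSubring.mem_nonunits_iff] at hx ⊢
  rw [map_mul]
  have hy' : O.valuation y ≤ 1 := (ValuationSubring.valuation_le_one_iff O y).mpr hy
  calc O.valuation x * O.valuation y ≤ O.valuation x * 1 := by gcongr
    _ = O.valuation x := mul_one _
    _ < 1 := hx

theorem nonunits_mem {O : ValuationSubring F} {x : F} (hx : x ∈ O.nonunits) : x ∈ O :=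
  O.nonunits_subset hx

theorem nonunits_sub {O : ValuationSubring F} {x y : F} (hx : x ∈ O.nonunits)
    (hy : y ∈ O.nonunits) : x - y ∈ O.nonunits := by
  rw [ValuationSubring.mem_nonunits_iff] at hx hy ⊢
  exact lt_of_le_of_lt (Valuation.map_sub _ x y) (max_lt hx hy)

theorem one_not_mem_nonunits (O : ValuationSubring F) : (1 : F) ∉ O.nonunits := by
  rw [ValuationSubring.mem_nonunits_iff, map_one]
  exact lt_irrefl _

theorem nonunits_add {O : ValuationSubring F} {x y : F} (hx : x ∈ O.nonunits)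
    (hy : y ∈ O.nonunits) : x + y ∈ O.nonunits := by
  rw [ValuationSubring.mem_nonunits_iff] at hx hy ⊢
  exact lt_of_le_of_lt (Valuation.map_add _ x y) (max_lt hx hy)

/-- division by `π` of an element of `𝔪_{O₁} ∩ 𝔪_{O₂}` lying in a saturated ring. -/
theorem inPow_one_of_sat {π : R} (hp0 : algebraMap R F π ≠ 0) {O₁ O₂ : ValuationSubring F}
    (hO₁ : GenMax π O₁) (hO₂ : GenMax π O₂) {B : Subalgebra R F} (hs : Sat π O₁ O₂ B) {x : F}
    (hxB : x ∈ B) (hx₁ : x ∈ O₁.nonunits) (hx₂ : x ∈ O₂.nonunits) : InPow π B 1 x := by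
  refine ⟨(algebraMap R F π)⁻¹ * x, hs _ ?_ (hO₁.2 x hx₁) (hO₂.2 x hx₂), ?_⟩
  · rw [mul_inv_cancel_left₀ hp0]; exact hxB
  · rw [pow_one, mul_inv_cancel_left₀ hp0]

/-- **Connectedness, valuation form.**  The special fibre of the two-chart model does not split
along its two components `O₁`, `O₂`. -/
theorem no_split [IsLocalRing R] (π : R) (hπ : ∀ r : R, ¬ IsUnit r → π ∣ r)
    (hp0 : algebraMap R F π ≠ 0)
    (O₁ O₂ : ValuationSubring F) (hO₁ : GenMax π O₁) (hO₂ : GenMax π O₂)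
    (B0 B1 B01 : Subalgebra R F) (h0 : B0 ≤ B01) (h1 : B1 ≤ B01)
    (hB0₁ : ∀ b ∈ B0, b ∈ O₁) (hB0₂ : ∀ b ∈ B0, b ∈ O₂)
    (hconst : ∀ x : F, x ∈ B0 → x ∈ B1 → ∃ r : R, algebraMap R F r = x)
    (hs0 : Sat π O₁ O₂ B0) (hs1 : Sat π O₁ O₂ B1) (hs01 : Sat π O₁ O₂ B01)
    (N : ℕ)
    (htor : ∀ c ∈ B01, (∃ u ∈ B0, ∃ v ∈ B1, algebraMap R F π ^ (N + 1) * c = u + v) →
      ∃ u ∈ B0, ∃ v ∈ B1, algebraMap R F π ^ N * c = u + v)
    {e₀ e₁ : F} (he₀ : e₀ ∈ B0) (he₁ : e₁ ∈ B1)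
    (he₀₁ : e₀ ∈ O₁.nonunits) (he₁₁ : e₁ ∈ O₁.nonunits)
    (he₀₂ : 1 - e₀ ∈ O₂.nonunits) (he₁₂ : 1 - e₁ ∈ O₂.nonunits) : False := by
  -- `e ∈ 𝔪_{O₁}`, `1 - e ∈ 𝔪_{O₂}` ⟹ `e² - e ∈ 𝔪_{O₁} ∩ 𝔪_{O₂}`
  have key : ∀ e : F, e ∈ O₁.nonunits → 1 - e ∈ O₂.nonunits →
      e ^ 2 - e ∈ O₁.nonunits ∧ e ^ 2 - e ∈ O₂.nonunits := by
    intro e h₁ h₂
    constructor
    · have : e ^ 2 - e = e * (e - 1) := by ring
      rw [this]
      exact nonunits_mul_mem h₁ (O₁.sub_mem (nonunits_mem h₁) O₁.one_mem)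
    · have : e ^ 2 - e = (1 - e) * (-e) := by ring
      rw [this]
      refine nonunits_mul_mem h₂ ?_
      have : -e = (1 - e) - 1 := by ring
      rw [this]
      exact O₂.sub_mem (nonunits_mem h₂) O₂.one_mem
  have hid₀ : InPow π B0 1 (e₀ ^ 2 - e₀) :=
    inPow_one_of_sat hp0 hO₁ hO₂ hs0 (B0.sub_mem (B0.pow_mem he₀ 2) he₀)
      (key e₀ he₀₁ he₀₂).1 (key e₀ he₀₁ he₀₂).2
  have hid₁ : InPow π B1 1 (e₁ ^ 2 - e₁) :=
    inPow_one_of_sat hp0 hO₁ hO₂ hs1 (B1.sub_mem (B1.pow_mem he₁ 2) he₁)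
      (key e₁ he₁₁ he₁₂).1 (key e₁ he₁₁ he₁₂).2
  have h01 : InPow π B01 1 (e₀ - e₁) := by
    refine inPow_one_of_sat hp0 hO₁ hO₂ hs01 (B01.sub_mem (h0 he₀) (h1 he₁))
      (nonunits_sub he₀₁ he₁₁) ?_
    have : e₀ - e₁ = (1 - e₁) - (1 - e₀) := by ring
    rw [this]
    exact nonunits_sub he₁₂ he₀₂
  have hunit : ∀ b ∈ B0, algebraMap R F π * b ≠ 1 := by
    intro b hb h
    apply one_not_mem_nonunits O₁
    rw [← h]
    exact nonunits_mul_mem hO₁.1 (hB0₁ b hb)
  rcases idem_trivial π B0 B1 B01 hπ h0 h1 hconst hunit N htor he₀ he₁ hid₀ hid₁ h01 with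
    ⟨b, hb, hbe⟩ | ⟨b, hb, hbe⟩
  · apply one_not_mem_nonunits O₂
    have h2 : e₀ ∈ O₂.nonunits := by
      rw [hbe, pow_one]
      exact nonunits_mul_mem hO₂.1 (hB0₂ b hb)
    have : (1 : F) = e₀ + (1 - e₀) := by ring
    rw [this]
    exact nonunits_add h2 he₀₂
  · apply one_not_mem_nonunits O₁
    have h2 : 1 - e₀ ∈ O₁.nonunits := by
      rw [hbe, pow_one]
      exact nonunits_mul_mem hO₁.1 (hB0₁ b hb)
    have : (1 : F) = e₀ + (1 - e₀) := by ring
    rw [this]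
    exact nonunits_add he₀₁ h2

/-- the component ideal `B ∩ 𝔪_O` of a chart ring `B ⊆ O`. -/
def compIdeal (O : ValuationSubring F) (B : Subalgebra R F) (hB : ∀ b ∈ B, b ∈ O) : Ideal ↥B where
  carrier := {b | (b : F) ∈ O.nonunits}
  add_mem' := fun {a b} ha hb => by
    change ((a + b : ↥B) : F) ∈ O.nonunits
    rw [Subalgebra.coe_add]
    exact nonunits_add ha hb
  zero_mem' := by
    change ((0 : ↥B) : F) ∈ O.nonunits
    rw [Subalgebra.coe_zero, ValuationSubring.mem_nonunits_iff, map_zero]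
    exact zero_lt_one
  smul_mem' := fun c x hx => by
    change ((c • x : ↥B) : F) ∈ O.nonunits
    rw [smul_eq_mul, Subalgebra.coe_mul, mul_comm]
    exact nonunits_mul_mem hx (hB c c.2)

theorem mem_compIdeal {O : ValuationSubring F} {B : Subalgebra R F} {hB : ∀ b ∈ B, b ∈ O}
    {b : ↥B} : b ∈ compIdeal O B hB ↔ (b : F) ∈ O.nonunits := Iff.rfl

/-- **Existence of a node.**  In one of the two charts, the two components `B ∩ 𝔪_{O₁}` and
`B ∩ 𝔪_{O₂}` of the special fibre lie in a common maximal ideal. -/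
theorem exists_node_ideal [IsLocalRing R] (π : R) (hπ : ∀ r : R, ¬ IsUnit r → π ∣ r)
    (hp0 : algebraMap R F π ≠ 0)
    (O₁ O₂ : ValuationSubring F) (hO₁ : GenMax π O₁) (hO₂ : GenMax π O₂)
    (B0 B1 B01 : Subalgebra R F) (h0 : B0 ≤ B01) (h1 : B1 ≤ B01)
    (hB0₁ : ∀ b ∈ B0, b ∈ O₁) (hB0₂ : ∀ b ∈ B0, b ∈ O₂)
    (hB1₁ : ∀ b ∈ B1, b ∈ O₁) (hB1₂ : ∀ b ∈ B1, b ∈ O₂)
    (hconst : ∀ x : F, x ∈ B0 → x ∈ B1 → ∃ r : R, algebraMap R F r = x)
    (hs0 : Sat π O₁ O₂ B0) (hs1 : Sat π O₁ O₂ B1) (hs01 : Sat π O₁ O₂ B01)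
    (N : ℕ)
    (htor : ∀ c ∈ B01, (∃ u ∈ B0, ∃ v ∈ B1, algebraMap R F π ^ (N + 1) * c = u + v) →
      ∃ u ∈ B0, ∃ v ∈ B1, algebraMap R F π ^ N * c = u + v) :
    (∃ m : Ideal ↥B0, m.IsMaximal ∧ compIdeal O₁ B0 hB0₁ ≤ m ∧ compIdeal O₂ B0 hB0₂ ≤ m) ∨
      ∃ m : Ideal ↥B1, m.IsMaximal ∧ compIdeal O₁ B1 hB1₁ ≤ m ∧ compIdeal O₂ B1 hB1₂ ≤ m := by
  by_contra hcon
  push Not at hcon
  -- in each chart the two component ideals are comaximal
  have htop0 : compIdeal O₁ B0 hB0₁ ⊔ compIdeal O₂ B0 hB0₂ = ⊤ := by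
    by_contra hne
    obtain ⟨m, hm, hle⟩ := Ideal.exists_le_maximal _ hne
    exact hcon.1 m hm (le_sup_left.trans hle) (le_sup_right.trans hle)
  have htop1 : compIdeal O₁ B1 hB1₁ ⊔ compIdeal O₂ B1 hB1₂ = ⊤ := by
    by_contra hne
    obtain ⟨m, hm, hle⟩ := Ideal.exists_le_maximal _ hne
    exact hcon.2 m hm (le_sup_left.trans hle) (le_sup_right.trans hle)
  obtain ⟨x₀, hx₀, y₀, hy₀, hxy₀⟩ :=
    Submodule.mem_sup.mp (htop0 ▸ (Submodule.mem_top : (1 : ↥B0) ∈ ⊤))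
  obtain ⟨x₁, hx₁, y₁, hy₁, hxy₁⟩ :=
    Submodule.mem_sup.mp (htop1 ▸ (Submodule.mem_top : (1 : ↥B1) ∈ ⊤))
  have e0 : (1 : F) - (x₀ : F) = (y₀ : F) := by
    have := congrArg (Subtype.val : ↥B0 → F) hxy₀
    rw [Subalgebra.coe_add, Subalgebra.coe_one] at this
    rw [← this]; ring
  have e1 : (1 : F) - (x₁ : F) = (y₁ : F) := by
    have := congrArg (Subtype.val : ↥B1 → F) hxy₁
    rw [Subalgebra.coe_add, Subalgebra.coe_one] at this
    rw [← this]; ring
  exact no_split π hπ hp0 O₁ O₂ hO₁ hO₂ B0 B1 B01 h0 h1 hB0₁ hB0₂ hconst hs0 hs1 hs01 N htor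
    x₀.2 x₁.2 hx₀ hx₁ (e0 ▸ hy₀) (e1 ▸ hy₁)

end Valuation

end Fermat.Agent.ES.W33.ConnFibre14
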