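/-
Programme W (S33 by hand), chapter (B3′) support, helper14: **THE NODAL MODEL HAS A NODE** —
`ConnFibre14.exists_node_ideal` in the vocabulary of Programme N's contract
`N34/NodalCore13.NodalTwoChartModel R F π t B0 B1 O1 O2` (shape requested by helper3, the (B3′)
cutter: "∃ j, ∃ 𝔪 maximal in B_j, π ∈ 𝔪, ¬ OffBranch π B_j O1 𝔪 ∧ ¬ OffBranch π B_j O2 𝔪").

INPUT on top of the contract: `R` local with `𝔪_R = (π)` and (H0) `B0 ⊓ B1 = R` (global functions
are constants).  Everything else is read off the fields of the contract: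
* `GenMax π O_j` from `le_O*_0`, `pi_nonunit*`, `unif*`, `pi_ne`;
* `Sat` for `B0`, `B1` = `sat0`, `sat1`; for the overlap `B01 = B0[1/t]` (`CoreB24.overlap`) from
  `sat0`;
* (TOR) from `fin0`, `ov1` through main's `CechConnected14.cech_h1_span` (the Čech `H¹` is a
  finitely generated `R`-module) and `ConnFibre14.exists_bound_of_fg` (`noethR`).
-/
import Mathlib
import Fermat.Agent.ES.N34.NodalCore13
import Fermat.Agent.RED.CORE.CechConnected14
import Fermat.Agent.ES.W33.ConnFibre14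

set_option autoImplicit false

namespace Fermat.Agent.ES.W33.ConnNodal14

open Polynomial Fermat.Agent.RED.CORE Fermat.Agent.ES.N34.NodalCore13
  Fermat.Agent.ES.W33.ConnFibre14

variable {R F : Type*} [CommRing R] [Field F] [Algebra R F]

/-- `x ∈ 𝔪_O ↔ x = 0 ∨ x⁻¹ ∉ O` (for `x ∈ O`). -/
theorem mem_nonunits_of_inv_not_mem {O : ValuationSubring F} {x : F} (hx : x ∈ O)
    (hinv : x⁻¹ ∉ O) : x ∈ O.nonunits := by
  rw [ValuationSubring.mem_nonunits_iff]
  have h1 : O.valuation x ≤ 1 := (ValuationSubring.valuation_le_one_iff O x).mpr hx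
  rcases lt_or_eq_of_le h1 with h | h
  · exact h
  · exfalso
    apply hinv
    rw [← ValuationSubring.valuation_le_one_iff, map_inv₀, h, inv_one]

theorem inv_not_mem_of_mem_nonunits {O : ValuationSubring F} {x : F} (hx : x ∈ O.nonunits)
    (hx0 : x ≠ 0) : x⁻¹ ∉ O := by
  rw [ValuationSubring.mem_nonunits_iff] at hx
  rw [← ValuationSubring.valuation_le_one_iff, map_inv₀, not_le]
  have hv0 : O.valuation x ≠ 0 := (Valuation.ne_zero_iff _).mpr hx0
  exact (one_lt_inv₀ (zero_lt_iff.mpr hv0)).mpr hx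

/-- `𝔪_O = π O` from the contract fields. -/
theorem genMax_of_fields {π : R} {O : ValuationSubring F} (hπO : algebraMap R F π ∈ O)
    (hnu : (algebraMap R F π)⁻¹ ∉ O) (hp0 : algebraMap R F π ≠ 0)
    (hunif : ∀ x ∈ O, x⁻¹ ∉ O → ∃ c ∈ O, x = algebraMap R F π * c) : GenMax π O := by
  refine ⟨mem_nonunits_of_inv_not_mem hπO hnu, fun x hx => ?_⟩
  by_cases hx0 : x = 0
  · rw [hx0, mul_zero]; exact O.zero_mem
  · obtain ⟨c, hc, hxc⟩ := hunif x (O.nonunits_subset hx) (inv_not_mem_of_mem_nonunits hx hx0)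
    rw [hxc, inv_mul_cancel_left₀ hp0]
    exact hc

/-- **A NODE EXISTS** in one of the two charts of Programme N's nodal two-chart model. -/
theorem exists_node_offBranch [IsLocalRing R] (π : R) (hπ : ∀ r : R, ¬ IsUnit r → π ∣ r) (t : F)
    (B0 B1 : Subalgebra R F) (O1 O2 : ValuationSubring F)
    (M : NodalTwoChartModel R F π t B0 B1 O1 O2)
    (hconst : ∀ x : F, x ∈ B0 → x ∈ B1 → ∃ r : R, algebraMap R F r = x) :
    (∃ 𝔪 : Ideal B0, 𝔪.IsMaximal ∧ algebraMap R B0 π ∈ 𝔪 ∧ ¬ OffBranch π B0 O1 𝔪 ∧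
        ¬ OffBranch π B0 O2 𝔪) ∨
      ∃ 𝔪 : Ideal B1, 𝔪.IsMaximal ∧ algebraMap R B1 π ∈ 𝔪 ∧ ¬ OffBranch π B1 O1 𝔪 ∧
        ¬ OffBranch π B1 O2 𝔪 := by
  classical
  have := M.noethR
  set p : F := algebraMap R F π with hp
  have ht0 := M.t_ne
  have htu : t * t⁻¹ = 1 := mul_inv_cancel₀ ht0
  have hpB0 : p ∈ B0 := B0.algebraMap_mem π
  have hO₁ : GenMax π O1 := genMax_of_fields (M.le_O1_0 _ hpB0) M.pi_nonunit1 M.pi_ne M.unif1
  have hO₂ : GenMax π O2 := genMax_of_fields (M.le_O2_0 _ hpB0) M.pi_nonunit2 M.pi_ne M.unif2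
  -- the overlap
  set B01 := CoreB24.overlap t B0 M.t_mem with hB01
  have h0le : B0 ≤ B01 := fun x hx => ⟨0, by simpa using hx⟩
  have h1le : B1 ≤ B01 := fun x hx => M.ov0 x hx
  have hs0 : Sat π O1 O2 B0 := fun x hx h1 h2 => M.sat0 _ hx x h1 h2 rfl
  have hs1 : Sat π O1 O2 B1 := fun x hx h1 h2 => M.sat1 _ hx x h1 h2 rfl
  have hs01 : Sat π O1 O2 B01 := by
    rintro x ⟨k, hk⟩ h1 h2
    refine ⟨k, M.sat0 _ hk (t ^ k * x) ?_ ?_ (by ring)⟩
    · exact O1.mul_mem _ _ (pow_mem (M.le_O1_0 _ M.t_mem) k) h1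
    · exact O2.mul_mem _ _ (pow_mem (M.le_O2_0 _ M.t_mem) k) h2
  -- finite generation of the Čech `H¹`
  obtain ⟨r, e, he, hgen⟩ := M.fin0
  have hov : ∀ i : Fin r, ∃ k : ℕ, t⁻¹ ^ k * e i ∈ B1 := fun i => M.ov1 _ (he i)
  choose k hk using hov
  set N : ℕ := ∑ i, k i with hN
  have hNe : ∀ i, t⁻¹ ^ N * e i ∈ B1 := by
    intro i
    have hle : k i ≤ N := Finset.single_le_sum (f := k) (fun _ _ => Nat.zero_le _)
      (Finset.mem_univ i)
    obtain ⟨d, hd⟩ := Nat.exists_eq_add_of_le hle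
    rw [hd, pow_add, mul_comm (t⁻¹ ^ k i), mul_assoc]
    exact B1.mul_mem (B1.pow_mem M.tinv_mem d) (hk i)
  have hfg := CechConnected14.cech_h1_span t t⁻¹ htu B0 B1 B01 M.t_mem M.tinv_mem e he hgen
    (fun x hx => hx) N hNe
  have hGfin := CechConnected14.gens_finite t⁻¹ e N
  have hGmem : ∀ g ∈ hGfin.toFinset, g ∈ B01 := by
    intro g hg
    rw [Set.Finite.mem_toFinset] at hg
    obtain ⟨⟨i, a⟩, rfl⟩ := hg
    refine ⟨(a : ℕ), ?_⟩
    have : t ^ (a : ℕ) * (t⁻¹ ^ (a : ℕ) * e i) = e i := by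
      rw [← mul_assoc, ← mul_pow, htu, one_pow, one_mul]
    change t ^ (a : ℕ) * (t⁻¹ ^ (a : ℕ) * e i) ∈ B0
    rw [this]
    exact he i
  obtain ⟨N', htor⟩ := exists_bound_of_fg π B0 B1 B01 hGfin.toFinset hGmem
    (by rw [Set.Finite.coe_toFinset]; exact hfg)
  -- a node ideal
  rcases exists_node_ideal π hπ M.pi_ne O1 O2 hO₁ hO₂ B0 B1 B01 h0le h1le M.le_O1_0 M.le_O2_0
    M.le_O1_1 M.le_O2_1 hconst hs0 hs1 hs01 N' htor with ⟨m, hm, h1, h2⟩ | ⟨m, hm, h1, h2⟩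
  · left
    refine ⟨m, hm, h1 ?_, ?_, ?_⟩
    · exact hO₁.1
    · rintro ⟨x, hxm, c, hc, hxc⟩
      apply hxm
      apply h1
      change (x : F) ∈ O1.nonunits
      rw [hxc]
      exact nonunits_mul_mem hO₁.1 hc
    · rintro ⟨x, hxm, c, hc, hxc⟩
      apply hxm
      apply h2
      change (x : F) ∈ O2.nonunits
      rw [hxc]
      exact nonunits_mul_mem hO₂.1 hc
  · right
    refine ⟨m, hm, h1 ?_, ?_, ?_⟩
    · exact hO₁.1
    · rintro ⟨x, hxm, c, hc, hxc⟩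
      apply hxm
      apply h1
      change (x : F) ∈ O1.nonunits
      rw [hxc]
      exact nonunits_mul_mem hO₁.1 hc
    · rintro ⟨x, hxm, c, hc, hxc⟩
      apply hxm
      apply h2
      change (x : F) ∈ O2.nonunits
      rw [hxc]
      exact nonunits_mul_mem hO₂.1 hc

end Fermat.Agent.ES.W33.ConnNodal14
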