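/-
S33, chapter (Alg), helper26: **a cyclic faithful quotient of `V` is free of rank one.**

`T` local, `V` a finite `T`-module, `C ≤ V`.
* `top_le_span_sup` (Nakayama) : if `V` is generated by `v₀` modulo `C + 𝔪 V` then it is generated by `v₀`
  modulo `C`;
* `exists_surjective_ker_eq` : if `V = T v₀ + C` and `V ⧸ C` is faithful (`t V ⊆ C → t = 0`) then
  `C = ker φ` for a surjective `φ : V →ₗ[T] T`.
-/
import Mathlib

set_option autoImplicit false
set_option linter.unusedSectionVars false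

namespace Fermat.Agent.ES.W33.CyclicFaithful26

variable {T : Type*} [CommRing T] {V : Type*} [AddCommGroup V] [Module T V]

/-- **Nakayama**: generated by `v₀` modulo `C + 𝔪 V` ⇒ generated by `v₀` modulo `C`. -/
theorem top_le_span_sup [IsLocalRing T] [Module.Finite T V] (C : Submodule T V) (v₀ : V)
    (h : (⊤ : Submodule T V) ≤
      (Submodule.span T {v₀} ⊔ C) ⊔ IsLocalRing.maximalIdeal T • (⊤ : Submodule T V)) :
    (⊤ : Submodule T V) ≤ Submodule.span T {v₀} ⊔ C :=
  Submodule.le_of_le_smul_of_le_jacobson_bot Module.Finite.fg_top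
    (IsLocalRing.maximalIdeal_le_jacobson ⊥) h

/-- the map `T → V ⧸ C`, `a ↦ [a • v₀]`. -/
def toQuot (C : Submodule T V) (v₀ : V) : T →ₗ[T] V ⧸ C :=
  C.mkQ.comp (LinearMap.toSpanSingleton T V v₀)

theorem toQuot_apply (C : Submodule T V) (v₀ : V) (a : T) :
    toQuot C v₀ a = C.mkQ (a • v₀) := rfl

theorem toQuot_surjective (C : Submodule T V) (v₀ : V)
    (hgen : (⊤ : Submodule T V) ≤ Submodule.span T {v₀} ⊔ C) :
    Function.Surjective (toQuot C v₀) := by
  intro w
  obtain ⟨v, rfl⟩ := C.mkQ_surjective w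
  have hv : v ∈ Submodule.span T {v₀} ⊔ C := hgen Submodule.mem_top
  obtain ⟨x, hx, c, hc, rfl⟩ := Submodule.mem_sup.mp hv
  obtain ⟨a, rfl⟩ := Submodule.mem_span_singleton.mp hx
  refine ⟨a, ?_⟩
  have hc0 : C.mkQ c = 0 := (Submodule.Quotient.mk_eq_zero C).mpr hc
  rw [toQuot_apply, map_add, hc0, add_zero]

theorem toQuot_injective (C : Submodule T V) (v₀ : V)
    (hgen : (⊤ : Submodule T V) ≤ Submodule.span T {v₀} ⊔ C)
    (hfaith : ∀ t : T, (∀ v : V, t • v ∈ C) → t = 0) :
    Function.Injective (toQuot C v₀) := by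
  rw [← LinearMap.ker_eq_bot, LinearMap.ker_eq_bot']
  intro a ha
  rw [toQuot_apply] at ha
  have ha' : a • v₀ ∈ C := (Submodule.Quotient.mk_eq_zero C).mp ha
  apply hfaith
  intro v
  have hv : v ∈ Submodule.span T {v₀} ⊔ C := hgen Submodule.mem_top
  obtain ⟨x, hx, c, hc, rfl⟩ := Submodule.mem_sup.mp hv
  obtain ⟨b, rfl⟩ := Submodule.mem_span_singleton.mp hx
  rw [smul_add, smul_comm]
  exact C.add_mem (C.smul_mem _ ha') (C.smul_mem _ hc)

/-- **a cyclic faithful quotient is free of rank one**: `C` is the kernel of a surjection onto `T`. -/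
theorem exists_surjective_ker_eq (C : Submodule T V) (v₀ : V)
    (hgen : (⊤ : Submodule T V) ≤ Submodule.span T {v₀} ⊔ C)
    (hfaith : ∀ t : T, (∀ v : V, t • v ∈ C) → t = 0) :
    ∃ φ : V →ₗ[T] T, Function.Surjective φ ∧ LinearMap.ker φ = C := by
  let e : T ≃ₗ[T] V ⧸ C := LinearEquiv.ofBijective (toQuot C v₀)
    ⟨toQuot_injective C v₀ hgen hfaith, toQuot_surjective C v₀ hgen⟩
  refine ⟨e.symm.toLinearMap.comp C.mkQ, ?_, ?_⟩
  · exact e.symm.surjective.comp C.mkQ_surjective
  · rw [LinearMap.ker_comp, LinearEquiv.ker, Submodule.comap_bot, Submodule.ker_mkQ]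

end Fermat.Agent.ES.W33.CyclicFaithful26
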