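/-
Programme W (S33), chapter B1′, leaf (M5) "degree inequality", part (a) (helper12).
Pure curve theory over a field `K` (main's `RR/Riemann` + `RR/LSpace`), NO separability:

for ANY `x ≠ 0` of a function field `F / K` (`LHyp K F`), `x` transcendental over `K`, and any
`K⟮x⟯`-linearly independent family `b : Fin m → F`,

  `card_le_degree_poleDiv`      : `m ≤ deg (x)_∞`;
  `finiteDimensional_adjoin`    : `F` is finite-dimensional over `K⟮x⟯`;
  `finrank_le_degree_poleDiv`   : `[F : K(x)] ≤ deg (x)_∞`.

(Variant of `Riemann.exists_lower_bound` for an independent family instead of a basis, combined with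
`LSpace.finrank_L_le : dim L(D) ≤ deg D + 1`.)  This is the "easy half" of the fundamental equality,
valid for inseparable `x` (e.g. the second coordinate `t̃₂ = c̄ ũ^p` of the Hauptmodul on the nodal
fibre).
-/
import Mathlib
import Fermat.Agent.RR.Riemann

set_option autoImplicit false
set_option linter.unusedSectionVars false

open AlgebraicCurve Polynomial IntermediateField

noncomputable section

namespace Fermat.Agent.ES.W33.DegLowerN12

open Fermat.Agent.X0.FF Fermat.Agent.RR.LSpace Fermat.Agent.RR.Riemann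

variable {K F : Type*} [Field K] [Field F] [Algebra K F] (H : LHyp K F) {x : F}

/-- `(l + 1) m ≤ dim L(l (x)_∞ + C)` for an independent family of size `m`. -/
theorem exists_lower_bound_of_indep (hx : Transcendental K x) (hx0 : x ≠ 0) {m : ℕ}
    (b : Fin m → F) (hb : LinearIndependent K⟮x⟯ b) :
    ∃ C : Divisor K F, 0 ≤ C ∧ ∀ l : ℕ,
      (l + 1) * m ≤ Module.finrank K (riemannRochSpace (l • poleDiv H hx0 + C)) := by
  classical
  have hb0 : ∀ j, b j ≠ 0 := fun j => hb.ne_zero j
  let C : Divisor K F := ∑ j, poleDiv H (hb0 j)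
  have hCapply : ∀ v, C v = ∑ j, poleDiv H (hb0 j) v := fun v => by
    simp only [C, Finsupp.coe_finsetSum, Finset.sum_apply]
  have hC0 : 0 ≤ C := by
    intro v
    rw [hCapply]
    exact Finset.sum_nonneg fun j _ => poleDiv_nonneg H (hb0 j) v
  have hbC : ∀ j, b j ∈ riemannRochSpace C := by
    intro j
    refine L_mono ?_ (mem_L_poleDiv H (hb0 j))
    intro v
    rw [hCapply]
    exact Finset.single_le_sum (f := fun j => poleDiv H (hb0 j) v)
      (fun i _ => poleDiv_nonneg H (hb0 i) v) (Finset.mem_univ j)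
  refine ⟨C, hC0, fun l => ?_⟩
  let Φ : (Fin m → degreeLT K (l + 1)) →ₗ[K] F :=
    ∑ j, (LinearMap.mulRight K (b j)).comp ((aeval x).toLinearMap.comp
      ((degreeLT K (l + 1)).subtype.comp (LinearMap.proj j)))
  have hΦ : ∀ p, Φ p = ∑ j, aeval x (p j : K[X]) * b j := by
    intro p
    simp [Φ, LinearMap.sum_apply]
  have hΦmem : ∀ p, Φ p ∈ riemannRochSpace (l • poleDiv H hx0 + C) := by
    intro p
    rw [hΦ]
    exact Submodule.sum_mem _ fun j _ =>
      mul_mem_L_add (aeval_mem_L_nsmul_poleDiv H hx0 (p j).2) (hbC j)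
  have hΦinj : Function.Injective Φ := by
    rw [← LinearMap.ker_eq_bot, LinearMap.ker_eq_bot']
    intro p hp
    rw [hΦ] at hp
    have hlin := Fintype.linearIndependent_iff.mp hb
      (fun j => (⟨aeval x (p j : K[X]), aeval_mem_adjoin _⟩ : K⟮x⟯)) (by
        rw [← hp]
        refine Finset.sum_congr rfl fun j _ => ?_
        rw [Algebra.smul_def]
        rfl)
    funext j
    have h1 : aeval x (p j : K[X]) = 0 := by
      have := congrArg (fun z : K⟮x⟯ => (z : F)) (hlin j)
      simpa using this
    have h2 : (p j : K[X]) = 0 := by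
      have hinj := transcendental_iff_injective.mp hx
      exact hinj (by rw [h1, map_zero])
    exact Subtype.ext h2
  let Ψ : (Fin m → degreeLT K (l + 1)) →ₗ[K] riemannRochSpace (l • poleDiv H hx0 + C) :=
    Φ.codRestrict _ hΦmem
  have hΨinj : Function.Injective Ψ := fun p q hpq => hΦinj (congrArg Subtype.val hpq)
  have := finiteDimensional_L H (l • poleDiv H hx0 + C)
  have hle := LinearMap.finrank_le_finrank_of_injective hΨinj
  have hdim : Module.finrank K (Fin m → degreeLT K (l + 1)) = (l + 1) * m := by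
    have hdl : Module.finrank K (degreeLT K (l + 1)) = l + 1 := by
      rw [LinearEquiv.finrank_eq (degreeLTEquiv K (l + 1)), Module.finrank_fin_fun]
    rw [Module.finrank_pi_fintype]
    simp only [hdl, Finset.sum_const, Finset.card_univ, Fintype.card_fin, smul_eq_mul]
    ring
  rw [hdim] at hle
  exact hle

/-- **An independent family over `K(x)` has at most `deg (x)_∞` elements.** -/
theorem card_le_degree_poleDiv (hx : Transcendental K x) (hx0 : x ≠ 0) {m : ℕ}
    (b : Fin m → F) (hb : LinearIndependent K⟮x⟯ b) :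
    (m : ℤ) ≤ Divisor.degree (poleDiv H hx0) := by
  obtain ⟨C, hC0, hlow⟩ := exists_lower_bound_of_indep H hx hx0 b hb
  have hd0 : 0 ≤ Divisor.degree (poleDiv H hx0) := degree_nonneg H (poleDiv_nonneg H hx0)
  have hc0 : 0 ≤ Divisor.degree C := degree_nonneg H hC0
  by_contra hcon
  push Not at hcon
  -- `m ≥ deg + 1`; take `l := deg C + 1`
  set d : ℤ := Divisor.degree (poleDiv H hx0) with hd
  set c : ℤ := Divisor.degree C with hc
  set l : ℕ := (c + 1).toNat with hl
  have hlc : (l : ℤ) = c + 1 := Int.toNat_of_nonneg (by omega)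
  have h1 := hlow l
  have hdeg : Divisor.degree (l • poleDiv H hx0 + C) = (l : ℤ) * d + c := by
    rw [map_add, map_nsmul, nsmul_eq_mul]
  have hdeg0 : 0 ≤ Divisor.degree (l • poleDiv H hx0 + C) := by
    rw [hdeg]
    have : 0 ≤ (l : ℤ) * d := mul_nonneg (Int.natCast_nonneg l) hd0
    omega
  have h2 := finrank_L_le H (l • poleDiv H hx0 + C) hdeg0
  rw [hdeg] at h2
  have h3 : (((l + 1) * m : ℕ) : ℤ) ≤ (l : ℤ) * d + c + 1 := by
    have : (((l + 1) * m : ℕ) : ℤ) ≤
        (Module.finrank K (riemannRochSpace (l • poleDiv H hx0 + C)) : ℤ) := by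
      exact_mod_cast h1
    omega
  push_cast at h3
  -- `(l + 1) (d + 1) ≤ (l + 1) m ≤ l d + c + 1`, so `l + d + 1 ≤ c + 1 = l`: contradiction
  have h4 : ((l : ℤ) + 1) * (d + 1) ≤ ((l : ℤ) + 1) * (m : ℤ) :=
    mul_le_mul_of_nonneg_left (by omega) (by omega)
  nlinarith

include H in
/-- **`F` is finite over `K(x)`.** -/
theorem finiteDimensional_adjoin (hx : Transcendental K x) (hx0 : x ≠ 0) :
    FiniteDimensional K⟮x⟯ F := by
  classical
  set d : ℕ := (Divisor.degree (poleDiv H hx0)).toNat with hd
  have hd0 : 0 ≤ Divisor.degree (poleDiv H hx0) := degree_nonneg H (poleDiv_nonneg H hx0)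
  have hrank : Module.rank K⟮x⟯ F ≤ (d : Cardinal) := by
    apply rank_le
    intro s hs
    have hs' : LinearIndependent K⟮x⟯ (fun i : Fin s.card => ((s.equivFin.symm i : ↥s) : F)) :=
      hs.comp _ s.equivFin.symm.injective
    have := card_le_degree_poleDiv H hx hx0 _ hs'
    omega
  exact Module.rank_lt_aleph0_iff.mp (lt_of_le_of_lt hrank (Cardinal.natCast_lt_aleph0))

/-- **`[F : K(x)] ≤ deg (x)_∞`.** -/
theorem finrank_le_degree_poleDiv (hx : Transcendental K x) (hx0 : x ≠ 0) :
    (Module.finrank K⟮x⟯ F : ℤ) ≤ Divisor.degree (poleDiv H hx0) := by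
  have := finiteDimensional_adjoin H hx hx0
  let b := Module.finBasis K⟮x⟯ F
  exact card_le_degree_poleDiv H hx hx0 b b.linearIndependent

end Fermat.Agent.ES.W33.DegLowerN12
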