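/-
Programme W (S33), chapter B1′, leaf (M5) "degree inequality", part (b) (helper12).
**The Nakayama–determinant argument** (abstract, no modular curve):

`F / K` a field extension, `A ≤ K` a valuation subring with `res : A ↠ k`; `G ⊆ F` a subring with
`red : G →+* F₁ × F₂`, `red (const a) = (res a, res a)`; `t ∈ G`, `red t = (t₁, t₂)`, `t₁`
transcendental over `k`, `F_i / k(t_i)` finite; `N₀₁ ⊆ G` an `A`-submodule of `F`, stable under `t`,
with

* (I2) `x ∈ N₀₁`, `red x = 0 ⟹ x ∈ 𝔪_A • N₀₁`;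
* `N₀₁` generated by finitely many `e_l ∈ N₀₁` over a subring `R₀ ⊆ G ∩ K(t)` containing `A` and `t`
  (in the instance `R₀ = A[t, t⁻¹]`, `FinSpanN24.fin01_nodal`);
* the `K(t)`-span of `N₀₁` is `F`.

Then **`[F : K(t)] ≤ [F₁ : k(t₁)] + [F₂ : k(t₂)]`** (`finrank_le_add`).

Proof: choose `b_v ∈ N₀₁` whose first reductions are a `k(t₁)`-basis of the span of the first
reductions of `N₀₁`, and `c_u ∈ N₀₁` with first reduction `0` whose second reductions are a
`k(t₂)`-basis of the span of the second reductions of such elements.  Clearing denominators, every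
`x ∈ N₀₁` has `Q(t) x ∈ 𝔪 N₀₁ + ∑ A[t] b_v + ∑ A[t] c_u` with `Q ∈ A[X]`, `Q̄ ≠ 0`.  Applied to the
generators `e_l` this is a linear system `(diag Q_l − ε) e = w` over `R₀` with `red ε = 0`, whose
determinant reduces to `∏ Q̄_l(t₁) ≠ 0`; Cramer's rule gives `e_l ∈ ∑ K(t) b_v + ∑ K(t) c_u`.
-/
import Mathlib

set_option autoImplicit false
set_option linter.unusedSectionVars false
set_option linter.style.haveILetI false

open Polynomial IntermediateField

noncomputable section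

namespace Fermat.Agent.ES.W33.DegNakN12

open IsLocalRing

/-- **Clearing denominators** in `k(x)`: finitely many elements of `k⟮x⟯` become polynomials in `x`
after multiplication by one `q(x) ≠ 0`. -/
theorem exists_clear_denominators {k E : Type*} [Field k] [Field E] [Algebra k E] (x : E)
    {ι : Type*} [Fintype ι] (α : ι → ↥k⟮x⟯) :
    ∃ q : k[X], aeval x q ≠ 0 ∧ ∃ p : ι → k[X], ∀ i, aeval x q * (α i : E) = aeval x (p i) := by
  classical
  have h : ∀ i, ∃ r s : k[X], aeval x s ≠ 0 ∧ (α i : E) * aeval x s = aeval x r := by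
    intro i
    obtain ⟨r, s, hrs⟩ := (mem_adjoin_simple_iff k (α i : E)).mp (α i).2
    by_cases hs : aeval x s = 0
    · refine ⟨0, 1, by simp, ?_⟩
      rw [hrs, hs, div_zero, zero_mul, map_zero]
    · exact ⟨r, s, hs, by rw [hrs, div_mul_cancel₀ _ hs]⟩
  choose r s hs hrs using h
  refine ⟨∏ i, s i, ?_, fun i => r i * ∏ j ∈ Finset.univ.erase i, s j, fun i => ?_⟩
  · rw [map_prod]
    exact Finset.prod_ne_zero_iff.mpr fun i _ => hs i
  · rw [← Finset.mul_prod_erase Finset.univ s (Finset.mem_univ i), map_mul, map_mul, ← hrs i]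
    ring

variable {K F k F₁ F₂ : Type*} [Field K] [Field F] [Algebra K F] [Field k]
  [Field F₁] [Algebra k F₁] [Field F₂] [Algebra k F₂]

set_option maxHeartbeats 1600000 in
/-- **`[F : K(t)] ≤ [F₁ : k(t₁)] + [F₂ : k(t₂)]`** from the kernel property (I2) of the reduction
on a finitely generated, generically spanning module `N₀₁`. -/
theorem finrank_le_add (A : ValuationSubring K) (res : ↥A →+* k)
    (hsurj : Function.Surjective res)
    (hres : ∀ c : ↥A, c ∈ maximalIdeal ↥A → res c = 0)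
    (G : Subring F) (hconst : ∀ a : ↥A, algebraMap K F (a : K) ∈ G)
    (red : ↥G →+* F₁ × F₂)
    (hredc : ∀ a : ↥A, red ⟨algebraMap K F (a : K), hconst a⟩ =
      (algebraMap k F₁ (res a), algebraMap k F₂ (res a)))
    (t : F) (t₁ : F₁) (t₂ : F₂)
    (htG : ∃ h : t ∈ G, red ⟨t, h⟩ = (t₁, t₂))
    (ht₁ : Transcendental k t₁)
    [FiniteDimensional ↥k⟮t₁⟯ F₁] [FiniteDimensional ↥k⟮t₂⟯ F₂]
    (N01 : Submodule ↥A F) (h01 : ∀ x ∈ N01, x ∈ G)
    (hstab : ∀ x ∈ N01, t * x ∈ N01)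
    (hKer : ∀ (x : F) (hx : x ∈ N01), red ⟨x, h01 x hx⟩ = 0 → x ∈ maximalIdeal ↥A • N01)
    (R₀ : Subring F) (hR₀G : R₀ ≤ G) (hR₀t : ∀ x ∈ R₀, x ∈ K⟮t⟯)
    (hR₀c : ∀ a : ↥A, algebraMap K F (a : K) ∈ R₀) (htR : t ∈ R₀)
    (r : ℕ) (e : Fin r → F) (he : ∀ i, e i ∈ N01)
    (hgen : ∀ x ∈ N01, ∃ ρ : Fin r → F, (∀ i, ρ i ∈ R₀) ∧ x = ∑ i, ρ i * e i)
    (hspan : ∀ x : F, x ∈ Submodule.span ↥K⟮t⟯ (N01 : Set F)) :
    Module.finrank ↥K⟮t⟯ F ≤ Module.finrank ↥k⟮t₁⟯ F₁ + Module.finrank ↥k⟮t₂⟯ F₂ := by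
  classical
  obtain ⟨htmem, htred⟩ := htG
  -- the ring homomorphisms `A → R₀ → G → F₁ × F₂`
  let cR : ↥A →+* ↥R₀ := ((algebraMap K F).comp A.subtype).codRestrict R₀ hR₀c
  let ι : ↥R₀ →+* ↥G := Subring.inclusion hR₀G
  let ψ : ↥R₀ →+* F₁ × F₂ := red.comp ι
  let tR : ↥R₀ := ⟨t, htR⟩
  let ev : (↥A)[X] →+* ↥R₀ := Polynomial.eval₂RingHom cR tR
  have hψc : ∀ a : ↥A, ψ (cR a) = (algebraMap k F₁ (res a), algebraMap k F₂ (res a)) :=
    fun a => hredc a
  have hψt : ψ tR = (t₁, t₂) := htred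
  have hψev : ∀ P : (↥A)[X], ψ (ev P) = (aeval t₁ (P.map res), aeval t₂ (P.map res)) := by
    intro P
    have h1 : ψ (ev P) = eval₂ (ψ.comp cR) (ψ tR) P := hom_eval₂ P cR ψ tR
    rw [h1, hψt]
    apply Prod.ext
    · have h2 := hom_eval₂ P (ψ.comp cR) (RingHom.fst F₁ F₂) (t₁, t₂)
      have h3 : (RingHom.fst F₁ F₂).comp (ψ.comp cR) = (algebraMap k F₁).comp res := by
        ext a
        show (ψ (cR a)).1 = _
        rw [hψc]
        rfl
      rw [h3] at h2
      show (RingHom.fst F₁ F₂) (eval₂ (ψ.comp cR) (t₁, t₂) P) = _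
      rw [h2]
      show eval₂ ((algebraMap k F₁).comp res) t₁ P = aeval t₁ (P.map res)
      rw [aeval_def, eval₂_map]
    · have h2 := hom_eval₂ P (ψ.comp cR) (RingHom.snd F₁ F₂) (t₁, t₂)
      have h3 : (RingHom.snd F₁ F₂).comp (ψ.comp cR) = (algebraMap k F₂).comp res := by
        ext a
        show (ψ (cR a)).2 = _
        rw [hψc]
        rfl
      rw [h3] at h2
      show (RingHom.snd F₁ F₂) (eval₂ (ψ.comp cR) (t₁, t₂) P) = _
      rw [h2]
      show eval₂ ((algebraMap k F₂).comp res) t₂ P = aeval t₂ (P.map res)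
      rw [aeval_def, eval₂_map]
  -- `N₀₁` is stable under `A[t]`
  have hstabpow : ∀ (n : ℕ) (x : F), x ∈ N01 → t ^ n * x ∈ N01 := by
    intro n
    induction n with
    | zero => intro x hx; rwa [pow_zero, one_mul]
    | succ n ih =>
      intro x hx
      rw [pow_succ', mul_assoc]
      exact hstab _ (ih x hx)
  have hstabP : ∀ (P : (↥A)[X]) (x : F), x ∈ N01 → ((ev P : ↥R₀) : F) * x ∈ N01 := by
    intro P
    induction P using Polynomial.induction_on' with
    | add p q hp hq =>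
      intro x hx
      rw [map_add, Subring.coe_add, add_mul]
      exact N01.add_mem (hp x hx) (hq x hx)
    | monomial n a =>
      intro x hx
      have h1 : ((ev (monomial n a) : ↥R₀) : F) = algebraMap K F (a : K) * t ^ n := by
        show ((eval₂ cR tR (monomial n a) : ↥R₀) : F) = _
        rw [eval₂_monomial]
        rfl
      rw [h1, mul_assoc, ← Algebra.smul_def]
      exact N01.smul_mem a (hstabpow n x hx)
  -- membership of `R₀`-elements in `K(t)`
  have hRK : ∀ z : ↥R₀, ((z : F)) ∈ K⟮t⟯ := fun z => hR₀t _ z.2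
  -- the first reductions of `N₀₁` and a basis `B₁` of their span
  let S₁ : Set F₁ := {y | ∃ g : ↥G, (g : F) ∈ N01 ∧ (red g).1 = y}
  obtain ⟨B₁, hB₁sub, hB₁span, hB₁li⟩ := exists_linearIndependent ↥k⟮t₁⟯ S₁
  haveI : Finite ↥B₁ := hB₁li.finite
  haveI : Fintype ↥B₁ := Fintype.ofFinite _
  have hcard₁ : Fintype.card ↥B₁ ≤ Module.finrank ↥k⟮t₁⟯ F₁ := hB₁li.fintype_card_le_finrank
  have hβ : ∀ v : ↥B₁, ∃ g : ↥G, (g : F) ∈ N01 ∧ (red g).1 = (v : F₁) := fun v => hB₁sub v.2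
  choose β hβN hβ1 using hβ
  -- the second reductions of the elements with first reduction `0`, and a basis `B₂`
  let S₂ : Set F₂ := {y | ∃ g : ↥G, (g : F) ∈ N01 ∧ (red g).1 = 0 ∧ (red g).2 = y}
  obtain ⟨B₂, hB₂sub, hB₂span, hB₂li⟩ := exists_linearIndependent ↥k⟮t₂⟯ S₂
  haveI : Finite ↥B₂ := hB₂li.finite
  haveI : Fintype ↥B₂ := Fintype.ofFinite _
  have hcard₂ : Fintype.card ↥B₂ ≤ Module.finrank ↥k⟮t₂⟯ F₂ := hB₂li.fintype_card_le_finrank
  have hγ : ∀ u : ↥B₂, ∃ g : ↥G, (g : F) ∈ N01 ∧ (red g).1 = 0 ∧ (red g).2 = (u : F₂) :=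
    fun u => hB₂sub u.2
  choose γ hγN hγ1 hγ2 using hγ
  -- the `K(t)`-span of the lifts
  let bc : ↥B₁ ⊕ ↥B₂ → F := Sum.elim (fun v => ((β v : ↥G) : F)) (fun u => ((γ u : ↥G) : F))
  let T : Submodule ↥K⟮t⟯ F := Submodule.span ↥K⟮t⟯ (Set.range bc)
  have hTmul : ∀ (z : F), z ∈ K⟮t⟯ → ∀ w ∈ T, z * w ∈ T := by
    intro z hz w hw
    exact T.smul_mem (⟨z, hz⟩ : ↥K⟮t⟯) hw
  have hβT : ∀ v : ↥B₁, ((β v : ↥G) : F) ∈ T := fun v =>
    Submodule.subset_span ⟨Sum.inl v, rfl⟩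
  have hγT : ∀ u : ↥B₂, ((γ u : ↥G) : F) ∈ T := fun u =>
    Submodule.subset_span ⟨Sum.inr u, rfl⟩
  -- coercions
  have hcoeι : ∀ z : ↥R₀, ((ι z : ↥G) : F) = (z : F) := fun _ => rfl
  have hredι : ∀ z : ↥R₀, red (ι z) = ψ z := fun _ => rfl
  -- **the reduction step**
  have hA : ∀ g : ↥G, (g : F) ∈ N01 → ∃ Q : (↥A)[X], aeval t₁ (Q.map res) ≠ 0 ∧
      ∃ y ∈ maximalIdeal ↥A • N01, ∃ w ∈ T, ((ev Q : ↥R₀) : F) * (g : F) = y + w := by
    intro g hg
    -- first component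
    have hy₁ : (red g).1 ∈ Submodule.span ↥k⟮t₁⟯ (Set.range (Subtype.val : ↥B₁ → F₁)) := by
      rw [Subtype.range_coe, hB₁span]
      exact Submodule.subset_span ⟨g, hg, rfl⟩
    obtain ⟨c, hc⟩ := (Submodule.mem_span_range_iff_exists_fun ↥k⟮t₁⟯).mp hy₁
    obtain ⟨qb, hqb, pb, hpb⟩ := exists_clear_denominators t₁ c
    obtain ⟨q, hq⟩ := Polynomial.map_surjective res hsurj qb
    have hp : ∀ v, ∃ P : (↥A)[X], P.map res = pb v := fun v =>
      Polynomial.map_surjective res hsurj (pb v)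
    choose p hp using hp
    let g' : ↥G := ι (ev q) * g - ∑ v, ι (ev (p v)) * β v
    have hg'coe : (g' : F) = ((ev q : ↥R₀) : F) * (g : F) -
        ∑ v, ((ev (p v) : ↥R₀) : F) * ((β v : ↥G) : F) := by
      show G.subtype g' = _
      rw [map_sub, map_mul, map_sum]
      rfl
    have hg'N : (g' : F) ∈ N01 := by
      rw [hg'coe]
      exact N01.sub_mem (hstabP q _ hg) (N01.sum_mem fun v _ => hstabP (p v) _ (hβN v))
    have hg'1 : (red g').1 = 0 := by
      show (red (ι (ev q) * g - ∑ v, ι (ev (p v)) * β v)).1 = 0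
      rw [map_sub, map_mul, map_sum, hredι, hψev, hq]
      show aeval t₁ qb * (red g).1 - (∑ v, red (ι (ev (p v)) * β v)).1 = 0
      rw [Prod.fst_sum, ← hc, Finset.mul_sum, ← Finset.sum_sub_distrib]
      refine Finset.sum_eq_zero fun v _ => ?_
      rw [map_mul, hredι, hψev, hp]
      show aeval t₁ qb * (c v • (v : F₁)) - aeval t₁ (pb v) * (red (β v)).1 = 0
      rw [hβ1, ← hpb v]
      show aeval t₁ qb * ((c v : F₁) * (v : F₁)) - _ = 0
      ring
    -- second component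
    have hy₂ : (red g').2 ∈ Submodule.span ↥k⟮t₂⟯ (Set.range (Subtype.val : ↥B₂ → F₂)) := by
      rw [Subtype.range_coe, hB₂span]
      exact Submodule.subset_span ⟨g', hg'N, hg'1, rfl⟩
    obtain ⟨c', hc'⟩ := (Submodule.mem_span_range_iff_exists_fun ↥k⟮t₂⟯).mp hy₂
    obtain ⟨qb', hqb', pb', hpb'⟩ := exists_clear_denominators t₂ c'
    obtain ⟨q', hq'⟩ := Polynomial.map_surjective res hsurj qb'
    have hp' : ∀ u, ∃ P : (↥A)[X], P.map res = pb' u := fun u =>
      Polynomial.map_surjective res hsurj (pb' u)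
    choose p' hp' using hp'
    let g'' : ↥G := ι (ev q') * g' - ∑ u, ι (ev (p' u)) * γ u
    have hg''coe : (g'' : F) = ((ev q' : ↥R₀) : F) * (g' : F) -
        ∑ u, ((ev (p' u) : ↥R₀) : F) * ((γ u : ↥G) : F) := by
      show G.subtype g'' = _
      rw [map_sub, map_mul, map_sum]
      rfl
    have hg''N : (g'' : F) ∈ N01 := by
      rw [hg''coe]
      exact N01.sub_mem (hstabP q' _ hg'N) (N01.sum_mem fun u _ => hstabP (p' u) _ (hγN u))
    have hg''red : red g'' = 0 := by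
      show red (ι (ev q') * g' - ∑ u, ι (ev (p' u)) * γ u) = 0
      rw [map_sub, map_mul, map_sum, hredι, hψev, hq']
      apply Prod.ext
      · show aeval t₁ qb' * (red g').1 - (∑ u, red (ι (ev (p' u)) * γ u)).1 = 0
        rw [Prod.fst_sum, hg'1, mul_zero, zero_sub, neg_eq_zero]
        refine Finset.sum_eq_zero fun u _ => ?_
        rw [map_mul]
        show (red (ι (ev (p' u)))).1 * (red (γ u)).1 = 0
        rw [hγ1, mul_zero]
      · show aeval t₂ qb' * (red g').2 - (∑ u, red (ι (ev (p' u)) * γ u)).2 = 0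
        rw [Prod.snd_sum, ← hc', Finset.mul_sum, ← Finset.sum_sub_distrib]
        refine Finset.sum_eq_zero fun u _ => ?_
        rw [map_mul, hredι, hψev, hp']
        show aeval t₂ qb' * (c' u • (u : F₂)) - aeval t₂ (pb' u) * (red (γ u)).2 = 0
        rw [hγ2, ← hpb' u]
        show aeval t₂ qb' * ((c' u : F₂) * (u : F₂)) - _ = 0
        ring
    have hg''m : (g'' : F) ∈ maximalIdeal ↥A • N01 := hKer _ hg''N hg''red
    have hqb'0 : aeval t₁ qb' ≠ 0 := by
      intro h0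
      have : qb' = 0 := transcendental_iff.mp ht₁ qb' h0
      exact hqb' (by rw [this, map_zero])
    refine ⟨q' * q, ?_, (g'' : F), hg''m,
      (∑ v, ((ev q' : ↥R₀) : F) * (((ev (p v) : ↥R₀) : F) * ((β v : ↥G) : F))) +
        ∑ u, ((ev (p' u) : ↥R₀) : F) * ((γ u : ↥G) : F), ?_, ?_⟩
    · rw [Polynomial.map_mul, map_mul, hq, hq']
      exact mul_ne_zero hqb'0 hqb
    · refine T.add_mem (T.sum_mem fun v _ => ?_) (T.sum_mem fun u _ => ?_)
      · exact hTmul _ (hRK _) _ (hTmul _ (hRK _) _ (hβT v))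
      · exact hTmul _ (hRK _) _ (hγT u)
    · rw [hg''coe, hg'coe, map_mul, Subring.coe_mul, mul_sub, Finset.mul_sum]
      ring
  -- elements of `𝔪 • N₀₁` in terms of the generators
  have hB : ∀ y ∈ maximalIdeal ↥A • N01, ∃ ε : Fin r → ↥R₀, (∀ l, ψ (ε l) = 0) ∧
      y = ∑ l, ((ε l : ↥R₀) : F) * e l := by
    intro y hy
    refine Submodule.smul_induction_on hy ?_ ?_
    · intro a ha x hx
      obtain ⟨ρ, hρ, hxρ⟩ := hgen x hx
      refine ⟨fun l => cR a * ⟨ρ l, hρ l⟩, fun l => ?_, ?_⟩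
      · rw [map_mul, hψc, hres a ha, map_zero, map_zero]
        exact zero_mul _
      · show (a : K) • x = _
        rw [Algebra.smul_def]
        conv_lhs => rw [hxρ]
        rw [Finset.mul_sum]
        refine Finset.sum_congr rfl fun l _ => ?_
        rw [← mul_assoc]
        rfl
    · intro x y hx hy
      obtain ⟨ε, hε, rfl⟩ := hx
      obtain ⟨ε', hε', rfl⟩ := hy
      refine ⟨fun l => ε l + ε' l, fun l => by rw [map_add, hε, hε', add_zero], ?_⟩
      rw [← Finset.sum_add_distrib]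
      exact Finset.sum_congr rfl fun l _ => by rw [Subring.coe_add, add_mul]
  -- the linear system for the generators
  have hsys : ∀ l : Fin r, ∃ Q : (↥A)[X], aeval t₁ (Q.map res) ≠ 0 ∧
      ∃ ε : Fin r → ↥R₀, (∀ l', ψ (ε l') = 0) ∧ ∃ w ∈ T,
        ((ev Q : ↥R₀) : F) * e l = (∑ l', ((ε l' : ↥R₀) : F) * e l') + w := by
    intro l
    obtain ⟨Q, hQ, y, hy, w, hw, hQe⟩ := hA ⟨e l, h01 _ (he l)⟩ (he l)
    obtain ⟨ε, hε, hyε⟩ := hB y hy
    exact ⟨Q, hQ, ε, hε, w, hw, by rw [← hyε]; exact hQe⟩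
  choose Q hQ ε hε w hw hQe using hsys
  -- the matrix of the system
  let M : Matrix (Fin r) (Fin r) ↥R₀ := Matrix.diagonal (fun l => ev (Q l)) - Matrix.of ε
  let φ : ↥R₀ →+* F₁ := (RingHom.fst F₁ F₂).comp ψ
  have hφM : φ.mapMatrix M = Matrix.diagonal (fun l => aeval t₁ ((Q l).map res)) := by
    ext i j
    show φ (M i j) = _
    show φ ((Matrix.diagonal (fun l => ev (Q l)) : Matrix (Fin r) (Fin r) ↥R₀) i j - ε i j) = _
    rw [map_sub]
    have h1 : φ (ε i j) = 0 := by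
      show (ψ (ε i j)).1 = 0
      rw [hε]; rfl
    rw [h1, sub_zero, Matrix.diagonal_apply, Matrix.diagonal_apply]
    split_ifs with hij
    · show (ψ (ev (Q i))).1 = _
      rw [hψev]
    · exact map_zero φ
  have hdet : M.det ≠ 0 := by
    intro h0
    have h1 : φ M.det = ∏ l, aeval t₁ ((Q l).map res) := by
      rw [RingHom.map_det, hφM, Matrix.det_diagonal]
    rw [h0, map_zero] at h1
    exact (Finset.prod_ne_zero_iff.mpr fun l _ => hQ l) h1.symm
  -- Cramer's rule in `F`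
  let M' : Matrix (Fin r) (Fin r) F := R₀.subtype.mapMatrix M
  have hM'e : M'.mulVec e = w := by
    funext l
    show ∑ l', M' l l' * e l' = w l
    have h1 : ∀ l', M' l l' * e l' =
        (((Matrix.diagonal (fun l => ev (Q l)) : Matrix (Fin r) (Fin r) ↥R₀) l l' : ↥R₀) : F)
          * e l' - ((ε l l' : ↥R₀) : F) * e l' := by
      intro l'
      show ((((Matrix.diagonal (fun l => ev (Q l)) : Matrix (Fin r) (Fin r) ↥R₀) l l' - ε l l'
        : ↥R₀)) : F) * e l' = _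
      rw [AddSubgroupClass.coe_sub, sub_mul]
    rw [Finset.sum_congr rfl fun l' _ => h1 l', Finset.sum_sub_distrib]
    have h2 : ∑ l', (((Matrix.diagonal (fun l => ev (Q l)) : Matrix (Fin r) (Fin r) ↥R₀) l l'
        : ↥R₀) : F) * e l' = ((ev (Q l) : ↥R₀) : F) * e l := by
      rw [Finset.sum_eq_single l]
      · rw [Matrix.diagonal_apply_eq]
      · intro l' _ hne
        rw [Matrix.diagonal_apply_ne _ (Ne.symm hne), Subring.coe_zero, zero_mul]
      · intro h; exact absurd (Finset.mem_univ l) h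
    rw [h2, hQe l]
    ring
  have hcr : M'.adjugate.mulVec w = M'.det • e := by
    rw [← hM'e, Matrix.mulVec_mulVec, Matrix.adjugate_mul, Matrix.smul_mulVec, Matrix.one_mulVec]
  have hdet' : M'.det = ((M.det : ↥R₀) : F) := (RingHom.map_det R₀.subtype M).symm
  have hadj' : ∀ i j, M'.adjugate i j = ((M.adjugate i j : ↥R₀) : F) := by
    intro i j
    have := RingHom.map_adjugate R₀.subtype M
    rw [← this]
    rfl
  have hdetF : ((M.det : ↥R₀) : F) ≠ 0 := fun h => hdet (Subtype.ext h)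
  have heT : ∀ l, e l ∈ T := by
    intro l
    have h1 : ((M.det : ↥R₀) : F) * e l = ∑ l', ((M.adjugate l l' : ↥R₀) : F) * w l' := by
      have := congrFun hcr l
      rw [hdet'] at this
      rw [← smul_eq_mul]
      show (((M.det : ↥R₀) : F) • e) l = _
      rw [← this]
      show ∑ l', M'.adjugate l l' * w l' = _
      exact Finset.sum_congr rfl fun l' _ => by rw [hadj']
    have h2 : e l = ((M.det : ↥R₀) : F)⁻¹ * ∑ l', ((M.adjugate l l' : ↥R₀) : F) * w l' := by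
      rw [← h1, inv_mul_cancel_left₀ hdetF]
    rw [h2]
    exact hTmul _ (K⟮t⟯.inv_mem (hRK _)) _ (T.sum_mem fun l' _ => hTmul _ (hRK _) _ (hw l'))
  -- conclusion
  have hN01T : ∀ x ∈ N01, x ∈ T := by
    intro x hx
    obtain ⟨ρ, hρ, rfl⟩ := hgen x hx
    exact T.sum_mem fun l _ => hTmul _ (hR₀t _ (hρ l)) _ (heT l)
  have hTtop : T = ⊤ := by
    rw [eq_top_iff]
    intro x _
    exact (Submodule.span_le.mpr fun y hy => hN01T y hy) (hspan x)
  calc Module.finrank ↥K⟮t⟯ F = Module.finrank ↥K⟮t⟯ ↥(⊤ : Submodule ↥K⟮t⟯ F) := (finrank_top ↥K⟮t⟯ F).symm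
    _ = Set.finrank ↥K⟮t⟯ (Set.range bc) := by rw [← hTtop]; rfl
    _ ≤ Fintype.card (↥B₁ ⊕ ↥B₂) := finrank_range_le_card bc
    _ = Fintype.card ↥B₁ + Fintype.card ↥B₂ := Fintype.card_sum
    _ ≤ _ := Nat.add_le_add hcard₁ hcard₂

end Fermat.Agent.ES.W33.DegNakN12
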