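/-
Programme W (S33), chapter B1′, leaf (M5) "degree inequality", part (c) (helper12).
**Generic spanning** (abstract, generic fibre only): `bc : F_K →+* F̄` a homomorphism of fields with
`F̄ = ℚ̄(bc F_K)`, `L ≤ F̄` an intermediate field of `F̄ / ℚ̄` over which `F̄` is algebraic, `B0 ⊆ F_K` a
subalgebra with `Frac B0 = F_K` (elementwise: `frac0` of `N34/NumData13.NodalNumData`).  Then
**the `L`-span of `bc B0` is all of `F̄`** (`mem_span_image`).

(The `L`-span of `bc B0` is the subalgebra `L[bc B0]`, which is a field since `F̄ / L` is algebraic;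
it contains `bc F_K = bc (Frac B0)` and `ℚ̄`.)
-/
import Mathlib

set_option autoImplicit false
set_option linter.unusedSectionVars false

open IntermediateField

noncomputable section

namespace Fermat.Agent.ES.W33.SpanGenN12

variable {Q Fb FK R : Type*} [Field Q] [Field Fb] [Algebra Q Fb] [Field FK] [CommRing R]
  [Algebra R FK]

/-- **The `L`-span of `bc B0` is everything.** -/
theorem mem_span_image (bc : FK →+* Fb) (L : IntermediateField Q Fb) [Algebra.IsAlgebraic ↥L Fb]
    (B0 : Subalgebra R FK) (frac0 : ∀ x : FK, ∃ a ∈ B0, ∃ b ∈ B0, b ≠ 0 ∧ x * b = a)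
    (hgen : IntermediateField.adjoin Q (Set.range bc) = ⊤) (x : Fb) :
    x ∈ Submodule.span ↥L (bc '' (B0 : Set FK)) := by
  set S : Set Fb := bc '' (B0 : Set FK) with hS
  -- the span is the subalgebra generated
  have h1 : Subalgebra.toSubmodule (Algebra.adjoin ↥L S) = Submodule.span ↥L S := by
    apply Algebra.adjoin_eq_span_of_subset
    have hcl : Submonoid.closure S ≤ Submonoid.map (bc : FK →* Fb) B0.toSubsemiring.toSubmonoid := by
      rw [Submonoid.closure_le]
      rintro _ ⟨y, hy, rfl⟩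
      exact ⟨y, hy, rfl⟩
    rintro z hz
    obtain ⟨y, hy, rfl⟩ := hcl hz
    exact Submodule.subset_span ⟨y, hy, rfl⟩
  have hinv : ∀ z ∈ Algebra.adjoin ↥L S, z⁻¹ ∈ Algebra.adjoin ↥L S := by
    intro z hz
    exact Subalgebra.inv_mem_of_algebraic (Algebra.adjoin ↥L S) (x := ⟨z, hz⟩)
      (Algebra.IsAlgebraic.isAlgebraic z)
  -- the image of `bc` lies in it
  have h2 : ∀ z ∈ Set.range bc, z ∈ Algebra.adjoin ↥L S := by
    rintro _ ⟨y, rfl⟩
    obtain ⟨a, ha, b, hb, hb0, hab⟩ := frac0 y
    have hbc0 : bc b ≠ 0 := (map_ne_zero bc).mpr hb0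
    have hy : bc y = bc a * (bc b)⁻¹ := by
      rw [← hab, map_mul, mul_assoc, mul_inv_cancel₀ hbc0, mul_one]
    rw [hy]
    exact Subalgebra.mul_mem _ (Algebra.subset_adjoin ⟨a, ha, rfl⟩)
      (hinv _ (Algebra.subset_adjoin ⟨b, hb, rfl⟩))
  -- hence everything
  have h3 : ∀ z ∈ IntermediateField.adjoin Q (Set.range bc), z ∈ Algebra.adjoin ↥L S := by
    intro z hz
    induction hz using IntermediateField.adjoin_induction with
    | mem z hz => exact h2 z hz
    | algebraMap c =>
      rw [IsScalarTower.algebraMap_apply Q ↥L Fb]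
      exact Subalgebra.algebraMap_mem _ _
    | add z w _ _ hz hw => exact Subalgebra.add_mem _ hz hw
    | inv z _ hz => exact hinv z hz
    | mul z w _ _ hz hw => exact Subalgebra.mul_mem _ hz hw
  have hx : x ∈ Algebra.adjoin ↥L S := h3 x (by rw [hgen]; exact IntermediateField.mem_top)
  rw [← h1]
  exact hx

end Fermat.Agent.ES.W33.SpanGenN12
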