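/-
Programme W (S33), chapter B1′, leaf **(M5) "degree inequality"** at the instance (helper12).

`finrank_tN_le` : at the nodal instance of `NodalDefs3` (bad level `M' p`, `t = tN`, pair reduction
`redN t = (t̃₁, t̃₂)`),

  `[F_{M'p} : ℚ̄(t)] ≤ [F̃_{M'} : k̄(t̃₁)] + [F̃_{M'} : k̄(t̃₂)]`,

from the NAMED inputs (function-level names of `NodalDefs3` only: `tN`, `GN`, `redN`)
  `hcm, hrc` : `RedCtxN.const_mem`, `RedCtxN.red_const`      (B3′, `ScaleN1`),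
  `hbc   : baseChangeHom (M' p) K tK = tN`                  (choice of `tK`),
  `hK`   : the literal of `CechIfaceN24.KerPropN M' p A K tK` ((M2), helper24),
  `hfin  : M₀₁` is a finite `A[t, t⁻¹]`-module              (`FinSpanN24.fin01_nodal` literal, helper24),
  `hfrac : Frac (chart (A ∩ K) tK) = K·F_{M'p}`             (`NodalNumData.frac0`, main N34),
  `ht₁   : t̃₁` transcendental over `k̄`, `F̃ / k̄(t̃_i)` finite.
Proof: `DegNakN12.finrank_le_add` (Nakayama–determinant) + `SpanGenN12.mem_span_image`.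

`degree_le` : the same as `deg (t)_∞ ≤ deg (t̃₁)_∞ + deg (t̃₂)_∞` for the pole divisors
(`DegLowerN12.finrank_le_degree_poleDiv`, no separability of `t̃₂`).
-/
import Mathlib
import Fermat.Agent.ES.W33.DegNakN12
import Fermat.Agent.ES.W33.SpanGenN12
import Fermat.Agent.ES.W33.DegLowerN12
import Fermat.Agent.ES.W33.NodalDefs3
import Fermat.Agent.ES.V19.CechTw13
import Fermat.Agent.ES.V19.CechIface12
import Fermat.Agent.ES.V19.CechFG24
import Fermat.Agent.RED.CUSP.RankConcrete16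

set_option autoImplicit false
set_option linter.unusedSectionVars false
set_option linter.style.haveILetI false
set_option synthInstance.maxHeartbeats 400000

open AlgebraicCurve ModularCurve IntermediateField HahnSeries

noncomputable section

namespace Fermat.Agent.ES.W33.DegLeN12

open Fermat.Agent.RED.Interface4 Fermat.Agent.RED.DESC.PlaceExtend27
  Fermat.Agent.RED.PUR.ChartGeneric22 Fermat.Agent.RED.BASE.Interface12
  Fermat.Agent.RED.BASE.Hauptmodul12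
  Fermat.Agent.ES.RED.Contract8 Fermat.Agent.ES.RED.ModelInst4
  Fermat.Agent.ES.V19.CechIface12
  Fermat.Agent.ES.W33.NodalDefs3 Fermat.Agent.X0.FF Fermat.Agent.RR.LSpace
  Fermat.Agent.RR.Riemann

variable (n e M' : ℕ) [NeZero n] [NeZero M'] (p : ℕ) [Fact p.Prime]
  (hb : BaseHyp n e) (hnM : n ∣ M') (A : ValuationSubring Qbar)
  (K : IntermediateField ℚ Qbar) (tK : ↥(FK (M' * p) K))

/-- `t · M₀₁ ⊆ M₀₁`. -/
theorem bc_mul_mem_M01 {x : ↥(Fbar (M' * p))} (hx : x ∈ M01 A (M' * p) K tK) :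
    baseChangeHom (M' * p) K tK * x ∈ M01 A (M' * p) K tK := by
  refine Fermat.Agent.ES.V19.CechFG24.bc_mul_mem_sp (O := ↥A) (baseChangeHom (M' * p) K) tK ?_ hx
  rintro f ⟨k, hk⟩
  refine ⟨k, ?_⟩
  have h : tK ^ k * (tK * f) = tK * (tK ^ k * f) := by ring
  rw [h]
  exact Subalgebra.mul_mem _ (self_mem_chart tK) hk

variable {n e M' p hb hnM A K tK}

set_option maxHeartbeats 1600000 in
/-- **(M5), field-degree form.** -/
theorem finrank_tN_le
    (hcm : ∀ a : ↥A, algebraMap Qbar ↥(Fbar (M' * p)) (a : Qbar) ∈ GN M' p A)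
    (hrc : ∀ a : ↥A, redN M' p A ⟨algebraMap Qbar ↥(Fbar (M' * p)) (a : Qbar), hcm a⟩ =
      (algebraMap (kA A) (Ft M' A) (resA A a), algebraMap (kA A) (Ft M' A) (resA A a)))
    (hbc : baseChangeHom (M' * p) K tK = tN n e M' p hb hnM)
    (hK : ∃ h01 : ∀ f ∈ M01 A (M' * p) K tK, f ∈ GN M' p A,
      ∀ (f : ↥(Fbar (M' * p))) (hf : f ∈ M01 A (M' * p) K tK),
        redN M' p A ⟨f, h01 f hf⟩ = 0 →
          f ∈ IsLocalRing.maximalIdeal ↥A • M01 A (M' * p) K tK)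
    (hfin : ∃ (r : ℕ) (e' : Fin r → ↥(Fbar (M' * p))), (∀ i, e' i ∈ M0 A (M' * p) K tK) ∧
      ∀ x ∈ M01 A (M' * p) K tK,
        ∃ ρ : Fin r → ↥(Algebra.adjoin ↥A
            ({baseChangeHom (M' * p) K tK, baseChangeHom (M' * p) K tK⁻¹} : Set ↥(Fbar (M' * p)))),
          x = ∑ i, ((ρ i : ↥(Algebra.adjoin ↥A
            ({baseChangeHom (M' * p) K tK, baseChangeHom (M' * p) K tK⁻¹} :
              Set ↥(Fbar (M' * p))))) : ↥(Fbar (M' * p))) * e' i)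
    (hfrac : ∀ x : ↥(FK (M' * p) K), ∃ a ∈ chart ↥(AK A K) tK, ∃ b ∈ chart ↥(AK A K) tK,
      b ≠ 0 ∧ x * b = a)
    (t₁ t₂ : Ft M' A)
    (htt : ∃ h : tN n e M' p hb hnM ∈ GN M' p A, redN M' p A ⟨_, h⟩ = (t₁, t₂))
    (ht₁ : Transcendental (kA A) t₁)
    [FiniteDimensional ↥(kA A)⟮t₁⟯ (Ft M' A)] [FiniteDimensional ↥(kA A)⟮t₂⟯ (Ft M' A)] :
    Module.finrank ↥Qbar⟮tN n e M' p hb hnM⟯ ↥(Fbar (M' * p)) ≤
      Module.finrank ↥(kA A)⟮t₁⟯ (Ft M' A) + Module.finrank ↥(kA A)⟮t₂⟯ (Ft M' A) := by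
  obtain ⟨h01, hker⟩ := hK
  obtain ⟨r, e', he', hgen⟩ := hfin
  have hxN' := hxN n e M' p hb hnM
  haveI : FiniteDimensional ↥Qbar⟮tN n e M' p hb hnM⟯ ↥(Fbar (M' * p)) := hxN'.finiteDimensional
  haveI : Algebra.IsAlgebraic ↥Qbar⟮tN n e M' p hb hnM⟯ ↥(Fbar (M' * p)) :=
    Algebra.IsAlgebraic.of_finite _ _
  have htG : tN n e M' p hb hnM ∈ GN M' p A := htt.1
  have hbci : baseChangeHom (M' * p) K tK⁻¹ = (tN n e M' p hb hnM)⁻¹ := by
    rw [map_inv₀, hbc]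
  have htK0 : tK ≠ 0 := by
    rintro rfl
    rw [map_zero] at hbc
    exact hxN'.ne_zero hbc.symm
  have htiG : (tN n e M' p hb hnM)⁻¹ ∈ GN M' p A := by
    rw [← hbci]
    refine h01 _ (Submodule.subset_span ⟨tK⁻¹, ⟨1, ?_⟩, rfl⟩)
    rw [pow_one, mul_inv_cancel₀ htK0]
    exact one_mem _
  -- the subring `R₀ = A[t, t⁻¹]`
  let R₀ : Subring ↥(Fbar (M' * p)) := (Algebra.adjoin ↥A
    ({baseChangeHom (M' * p) K tK, baseChangeHom (M' * p) K tK⁻¹} : Set ↥(Fbar (M' * p)))).toSubring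
  have hR₀G : R₀ ≤ GN M' p A := by
    intro x hx
    have hx' : x ∈ Algebra.adjoin ↥A
      ({baseChangeHom (M' * p) K tK, baseChangeHom (M' * p) K tK⁻¹} : Set ↥(Fbar (M' * p))) := hx
    induction hx' using Algebra.adjoin_induction with
    | mem y hy =>
      rcases hy with rfl | hy
      · rw [hbc]; exact htG
      · rw [Set.mem_singleton_iff] at hy
        rw [hy, hbci]; exact htiG
    | algebraMap a => exact hcm a
    | add y z _ _ hy hz => exact (GN M' p A).add_mem (hy ‹_›) (hz ‹_›)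
    | mul y z _ _ hy hz => exact (GN M' p A).mul_mem (hy ‹_›) (hz ‹_›)
  have hR₀t : ∀ x ∈ R₀, x ∈ Qbar⟮tN n e M' p hb hnM⟯ := by
    intro x hx
    have hx' : x ∈ Algebra.adjoin ↥A
      ({baseChangeHom (M' * p) K tK, baseChangeHom (M' * p) K tK⁻¹} : Set ↥(Fbar (M' * p))) := hx
    induction hx' using Algebra.adjoin_induction with
    | mem y hy =>
      rcases hy with rfl | hy
      · rw [hbc]; exact mem_adjoin_simple_self Qbar _
      · rw [Set.mem_singleton_iff] at hy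
        rw [hy, hbci]; exact inv_mem (mem_adjoin_simple_self Qbar _)
    | algebraMap a => exact IntermediateField.algebraMap_mem _ (a : Qbar)
    | add y z _ _ hy hz => exact add_mem (hy ‹_›) (hz ‹_›)
    | mul y z _ _ hy hz => exact mul_mem (hy ‹_›) (hz ‹_›)
  refine Fermat.Agent.ES.W33.DegNakN12.finrank_le_add A (resA A) IsLocalRing.residue_surjective
    (fun c hc => (IsLocalRing.residue_eq_zero_iff c).mpr hc) (GN M' p A) hcm
    (redN M' p A) hrc (tN n e M' p hb hnM) t₁ t₂ htt ht₁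
    (M01 A (M' * p) K tK) h01 ?_ hker R₀ hR₀G hR₀t ?_ ?_ r e'
    (fun i => Fermat.Agent.ES.V19.CechFG24.M0_le_M01 A (M' * p) K tK (he' i)) ?_ ?_
  · intro x hx
    rw [← hbc]
    exact bc_mul_mem_M01 M' p A K tK hx
  · intro a
    exact Subalgebra.algebraMap_mem _ a
  · show tN n e M' p hb hnM ∈ Algebra.adjoin ↥A _
    rw [← hbc]
    exact Algebra.subset_adjoin (Set.mem_insert _ _)
  · intro x hx
    obtain ⟨ρ, hρ⟩ := hgen x hx
    exact ⟨fun i => (ρ i : ↥(Fbar (M' * p))), fun i => (ρ i).2, hρ⟩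
  · intro x
    have h1 := Fermat.Agent.ES.W33.SpanGenN12.mem_span_image (baseChangeHom (M' * p) K)
      Qbar⟮tN n e M' p hb hnM⟯ (chart ↥(AK A K) tK) hfrac
      (Fermat.Agent.RED.CUSP.RankConcrete16.adjoin_range_baseChangeHom (M' * p) K) x
    refine Submodule.span_mono ?_ h1
    rintro _ ⟨y, hy, rfl⟩
    exact Fermat.Agent.ES.V19.CechFG24.M0_le_M01 A (M' * p) K tK
      (Submodule.subset_span ⟨y, hy, rfl⟩)

set_option maxHeartbeats 1600000 in
/-- **(M5), divisor form**: `deg (t)_∞ ≤ deg (t̃₁)_∞ + deg (t̃₂)_∞`. -/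
theorem degree_le
    (hcm : ∀ a : ↥A, algebraMap Qbar ↥(Fbar (M' * p)) (a : Qbar) ∈ GN M' p A)
    (hrc : ∀ a : ↥A, redN M' p A ⟨algebraMap Qbar ↥(Fbar (M' * p)) (a : Qbar), hcm a⟩ =
      (algebraMap (kA A) (Ft M' A) (resA A a), algebraMap (kA A) (Ft M' A) (resA A a)))
    (hbc : baseChangeHom (M' * p) K tK = tN n e M' p hb hnM)
    (hK : ∃ h01 : ∀ f ∈ M01 A (M' * p) K tK, f ∈ GN M' p A,
      ∀ (f : ↥(Fbar (M' * p))) (hf : f ∈ M01 A (M' * p) K tK),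
        redN M' p A ⟨f, h01 f hf⟩ = 0 →
          f ∈ IsLocalRing.maximalIdeal ↥A • M01 A (M' * p) K tK)
    (hfin : ∃ (r : ℕ) (e' : Fin r → ↥(Fbar (M' * p))), (∀ i, e' i ∈ M0 A (M' * p) K tK) ∧
      ∀ x ∈ M01 A (M' * p) K tK,
        ∃ ρ : Fin r → ↥(Algebra.adjoin ↥A
            ({baseChangeHom (M' * p) K tK, baseChangeHom (M' * p) K tK⁻¹} : Set ↥(Fbar (M' * p)))),
          x = ∑ i, ((ρ i : ↥(Algebra.adjoin ↥A
            ({baseChangeHom (M' * p) K tK, baseChangeHom (M' * p) K tK⁻¹} :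
              Set ↥(Fbar (M' * p))))) : ↥(Fbar (M' * p))) * e' i)
    (hfrac : ∀ x : ↥(FK (M' * p) K), ∃ a ∈ chart ↥(AK A K) tK, ∃ b ∈ chart ↥(AK A K) tK,
      b ≠ 0 ∧ x * b = a)
    (t₁ t₂ : Ft M' A)
    (htt : ∃ h : tN n e M' p hb hnM ∈ GN M' p A, redN M' p A ⟨_, h⟩ = (t₁, t₂))
    (ht₁ : Transcendental (kA A) t₁) (ht₂ : Transcendental (kA A) t₂)
    (HL : LHyp Qbar ↥(Fbar (M' * p))) (HLt : LHyp (kA A) (Ft M' A))
    (ht0 : tN n e M' p hb hnM ≠ 0) (ht₁0 : t₁ ≠ 0) (ht₂0 : t₂ ≠ 0) :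
    Divisor.degree (poleDiv HL ht0) ≤
      Divisor.degree (poleDiv HLt ht₁0) + Divisor.degree (poleDiv HLt ht₂0) := by
  haveI := Fermat.Agent.ES.W33.DegLowerN12.finiteDimensional_adjoin HLt ht₁ ht₁0
  haveI := Fermat.Agent.ES.W33.DegLowerN12.finiteDimensional_adjoin HLt ht₂ ht₂0
  have h := finrank_tN_le hcm hrc hbc hK hfin hfrac t₁ t₂ htt ht₁
  have h1 := Fermat.Agent.ES.W33.DegLowerN12.finrank_le_degree_poleDiv HLt ht₁ ht₁0
  have h2 := Fermat.Agent.ES.W33.DegLowerN12.finrank_le_degree_poleDiv HLt ht₂ ht₂0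
  have h0 : Divisor.degree (poleDiv HL ht0) =
      (Module.finrank ↥Qbar⟮tN n e M' p hb hnM⟯ ↥(Fbar (M' * p)) : ℤ) :=
    (Fermat.Agent.ES.V19.CechTw13.hasPoleDivisor_poleDiv HL ht0
      (sum_ord_poles (hxN n e M' p hb hnM))).1
  rw [h0]
  have h' : (Module.finrank ↥Qbar⟮tN n e M' p hb hnM⟯ ↥(Fbar (M' * p)) : ℤ) ≤
      (Module.finrank ↥(kA A)⟮t₁⟯ (Ft M' A) : ℤ) + (Module.finrank ↥(kA A)⟮t₂⟯ (Ft M' A) : ℤ) := by
    exact_mod_cast h
  linarith

end Fermat.Agent.ES.W33.DegLeN12
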