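/-
Programme W (S33), chapter (B3′) (helper4): **THE SECOND BRANCH AT EVERY CENTRE OF `C₂`** — the leaves
`ex₂0`, `ex₂1` of helper20's `NodalCtxRN20.RNLeaves.of_exists` (hence `places₂0`, `places₂1`, `node₂`).

For a place `P` of the bad level `F_{M'p}` whose centre on the chart `chart ↥A tN^{±1}` lies on the
second component (`On₂`), the local ring `cSubring χ_P ρ₂` of `C₂` at the centre is the valuation ring
of a place of `F̃`: the transport by `wBar` of the good-level reduction `rV (resBeta P)` of the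
restriction of `P` along `β`.

Proof = helper20's `cSubring₂_eq_of_section` with the SECTION THROUGH `β`:
* `a := β|chart ↥A tV^{±1} → chart ↥A tN^{±1}` (`yN = β tV ∈ chart ↥A tN`: Programme N's `ModEqItems`,
  lifted by `ChartUnion1.baseChangeHom_mem_chart`);
* `hρ : ρ₂ (β b') = wBar (red' b')` (helper8's `FrickeBar8.rho2_beta`);
* `hsurj` : helper16's `CompRedN16.SurjItems` (`B = β(B⁰) + (B ∩ π O₂)` at level `K`), descended by
  helper3's `ChartQbar3.exists_chart_level`, lifted by `LevelCompare3.bc_mem_O2`;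
* `hχ` : the value of `β b'` at `P` is the value of `b'` at `resBeta P` (`valueHom_restrictAlong`);
* the good level: `O_{rV Q} = cSubring χ_Q red'` is `TwoCharts8.mem_rAt_iff` (`Iff.rfl`).
-/
import Mathlib
import Fermat.Agent.ES.W33.TwoChartsNInst20
import Fermat.Agent.ES.W33.FrickeBar8
import Fermat.Agent.ES.W33.CompRedN16
import Fermat.Agent.ES.W33.ChartQbar3
import Fermat.Agent.ES.N35.NormBC1
import Fermat.Agent.ES.HECKE.AlongDegree25

set_option autoImplicit false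
set_option synthInstance.maxHeartbeats 400000
set_option linter.unusedSectionVars false
set_option linter.style.haveILetI false

open HahnSeries ModularCurve AlgebraicCurve
open scoped MatrixGroups

noncomputable section

namespace Fermat.Agent.ES.W33.ExTwoN4

open Fermat.Agent.RED.Interface4 Fermat.Agent.RED.BASE.Interface12 Fermat.Agent.RED.BASE.Hauptmodul12
  Fermat.Agent.RED.PUR.ChartGeneric22
  Fermat.Agent.ES.RED.Contract8 Fermat.Agent.ES.RED.ModelInst4 Fermat.Agent.ES.RED.GaussRing15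
  Fermat.Agent.ES.RED.PlaceValue13 Fermat.Agent.ES.RED.SpecialInv25
  Fermat.Agent.X0 Fermat.Agent.X0.FF
  Fermat.Agent.ES.V19.GaussFrac15 Fermat.Agent.ES.V19.InstNames3 Fermat.Agent.ES.W33.XiIfaceN29
  Fermat.Agent.ES.W33.NodalDefs3
open Fermat.Agent.ES.W33.CentreN20 Fermat.Agent.ES.W33.NodalChart20 Fermat.Agent.ES.W33.TwoChartsN20
  Fermat.Agent.ES.W33.TwoChartsNOf20 Fermat.Agent.ES.W33.TwoChartsNInst20

/-! ### §0 generic -/

section Generic

variable {k : Type*} [Field k] {B : Type*} [CommRing B] {Ft : Type*} [Field Ft] [Algebra k Ft]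

/-- the local ring for the reduction `σ ∘ ρ` is the image under `σ` of the local ring for `ρ`. -/
theorem mem_cSubring_comp_iff (χ : B →+* k) (ρ : B →+* Ft) (σ : Ft ≃ₐ[k] Ft) (y : Ft) :
    y ∈ cSubring χ ((σ : Ft →+* Ft).comp ρ) ↔ σ.symm y ∈ cSubring χ ρ := by
  constructor
  · rintro ⟨a, d, hd, he⟩
    refine ⟨a, d, hd, ?_⟩
    have := congrArg σ.symm he
    simpa using this
  · rintro ⟨a, d, hd, he⟩
    refine ⟨a, d, hd, ?_⟩
    have := congrArg σ he
    simpa using this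

variable {K F F' : Type*} [Field K] [IsAlgClosed K] [Field F] [Field F'] [Algebra K F] [Algebra K F']
  {x : F} (hx : IsGen K x) {x' : F'} (hx' : IsGen K x')

/-- **the value of `φ f` at `w` is the value of `f` at the restriction of `w` along `φ`.** -/
theorem valueHom_restrictAlong (φ : F →ₐ[K] F') (hφ : φ.toRingHom.IsIntegral) (w : Place K F')
    (f : F) (hf : φ f ∈ w.toValuationSubring)
    (hf' : f ∈ (w.restrictAlong φ hφ).toValuationSubring) :
    valueHom hx (w.restrictAlong φ hφ) ⟨f, hf'⟩ = valueHom hx' w ⟨φ f, hf⟩ := by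
  have h := (valueHom_eq_iff hx' w ⟨φ f, hf⟩ (valueHom hx' w ⟨φ f, hf⟩)).mp rfl
  rw [valueHom_eq_iff]
  rcases h with h | h
  · left
    apply φ.injective
    show φ f = φ (algebraMap K F _)
    rw [φ.commutes]
    exact h
  · right
    show 0 < (w.restrictAlong φ hφ).ord (f - algebraMap K F _)
    have h1 : φ f - algebraMap K F' (valueHom hx' w ⟨φ f, hf⟩) =
        φ (f - algebraMap K F (valueHom hx' w ⟨φ f, hf⟩)) := by
      rw [map_sub, φ.commutes]
    change 0 < w.ord (φ f - algebraMap K F' _) at h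
    rw [h1, Place.ord_restrictAlong φ hφ] at h
    have hpos : (0 : ℤ) ≤ (Place.ramificationIndexAlong φ w : ℤ) := Int.natCast_nonneg _
    by_contra hneg
    rw [not_lt] at hneg
    nlinarith

end Generic

/-! ### §0′ centres along a morphism of charts (generic) -/

section ChiGeneric

variable {L : Type*} [Field L] [IsAlgClosed L] {A : ValuationSubring L}
variable {F F' : Type*} [Field F] [Field F'] [Algebra L F] [Algebra L F']
  {x : F} {hx : IsGen L x} {x' : F'} {hx' : IsGen L x'}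
variable {Ft Ft₁ Ft₂ : Type*} [Field Ft] [Algebra (kA A) Ft] [Field Ft₁] [Algebra (kA A) Ft₁]
  [Field Ft₂] [Algebra (kA A) Ft₂]
variable (S' : ChartSpec A hx Ft) (S : NodalChart A hx' Ft₁ Ft₂) (φ : F →ₐ[L] F')
  (hφ : φ.toRingHom.IsIntegral) (a : ↥S'.B →+* ↥S.B)
  (ha : ∀ b : ↥S'.B, ((a b : ↥S.B) : F') = φ (b : F))

include ha in
/-- a place of the nodal chart restricts to a place of the chart below. -/
theorem inChart_restrictAlong (P : Place L F') (hP : S.InChart P) :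
    S'.InChart (P.restrictAlong φ hφ) := by
  have hmem : φ S'.s ∈ P.toValuationSubring := by
    have := S.mem_place P hP _ (a S'.sB).2
    rwa [ha] at this
  refine ⟨hmem, ?_⟩
  rw [valueHom_restrictAlong hx hx' φ hφ P S'.s hmem hmem]
  have h1 := S.val_mem P hP _ (a S'.sB).2
  have h2 : (⟨((a S'.sB : ↥S.B) : F'), S.mem_place P hP _ (a S'.sB).2⟩ :
      ↥P.toValuationSubring) = ⟨φ S'.s, hmem⟩ := Subtype.ext (ha S'.sB)
  rw [h2] at h1
  exact h1

include ha in
/-- **the centre of `P` on the image of the chart below is the centre of the restricted place.** -/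
theorem chi_comp_eq (P : Place L F') (hP : S.InChart P)
    (hQ : S'.InChart (P.restrictAlong φ hφ)) (b : ↥S'.B) :
    S.chi P hP (a b) = S'.chi (P.restrictAlong φ hφ) hQ b := by
  rw [NodalChart.chi_apply, ChartSpec.chi_apply]
  congr 1
  apply Subtype.ext
  rw [NodalChart.coe_ev, ChartSpec.coe_ev]
  have hmem : φ (b : F) ∈ P.toValuationSubring := by
    have := S.mem_place P hP _ (a b).2
    rwa [ha] at this
  rw [valueHom_restrictAlong hx hx' φ hφ P (b : F) hmem]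
  congr 1
  exact Subtype.ext (ha b)

end ChiGeneric

/-! ### §1 the section through `β` -/

section Inst

attribute [local instance 5000] HahnSeries.powerSeriesAlgebra SubalgebraClass.toAlgebra

variable (n e M' : ℕ) [NeZero n] [NeZero M'] (p : ℕ) [Fact p.Prime] (hpM : ¬ p ∣ M')
  (hb : BaseHyp n e) (hnM : n ∣ M') (A : ValuationSubring Qbar) (hA : A.LiesOverPrime p)

local notation "β" => heckeBetaBar Qbar M' p

include hpM in
theorem beta_isIntegral : (β).toRingHom.IsIntegral :=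
  Fermat.Agent.ES.HECKE.AlongDegree25.heckeBetaBarIntegral Qbar M' p (Fact.out : p.Prime) hpM

/-- the restriction of a place of the bad level to the good level along `β`. -/
def resBeta (P : Place Qbar ↥(Fbar (M' * p))) : Place Qbar ↥(Fbar M') :=
  P.restrictAlong β (beta_isIntegral M' p hpM)

/-- `β` is `A`-linear. -/
theorem beta_algebraMap (r : ↥A) :
    β (algebraMap ↥A ↥(Fbar M') r) = algebraMap ↥A ↥(Fbar (M' * p)) r :=
  (β).commutes (r : Qbar)

/-- **the coordinate hypotheses**: `y = β t` is integral over `A[t]` and `y⁻¹` over `A[t⁻¹]`. -/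
structure YLeaves : Prop where
  y0 : β (tV n e M' hb hnM) ∈ chart ↥A (tN n e M' p hb hnM)
  y1 : (β (tV n e M' hb hnM))⁻¹ ∈ chart ↥A (tN n e M' p hb hnM)⁻¹

variable {n e M' p hb hnM A}

theorem beta_mem_chart0 (Y : YLeaves n e M' p hb hnM A) {b : ↥(Fbar M')}
    (hb' : b ∈ chart ↥A (tV n e M' hb hnM)) : β b ∈ chart ↥A (tN n e M' p hb hnM) :=
  Fermat.Agent.ES.N34.ModelN4.map_mem_chart (β : ↥(Fbar M') →+* ↥(Fbar (M' * p)))
    (beta_algebraMap M' p A) Y.y0 hb'

theorem beta_mem_chart1 (Y : YLeaves n e M' p hb hnM A) {b : ↥(Fbar M')}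
    (hb' : b ∈ chart ↥A (tV n e M' hb hnM)⁻¹) : β b ∈ chart ↥A (tN n e M' p hb hnM)⁻¹ :=
  Fermat.Agent.ES.N34.ModelN4.map_mem_chart (β : ↥(Fbar M') →+* ↥(Fbar (M' * p)))
    (beta_algebraMap M' p A) (by rw [map_inv₀]; exact Y.y1) hb'


section Sec

variable {hpM hA}
variable (L : ChartLeaves n e M' p hb hnM A) (Y : YLeaves n e M' p hb hnM A)

/-- the section of chart 0 through `β`. -/
def sec0 : ↥(TV n e M' p hpM hb hnM A hA).S0.B →+* ↥(S0N L).B :=
  (β : ↥(Fbar M') →+* ↥(Fbar (M' * p))).restrict (TV n e M' p hpM hb hnM A hA).S0.B (S0N L).B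
    (fun _ h => beta_mem_chart0 Y h)

/-- the section of chart 1 through `β`. -/
def sec1 : ↥(TV n e M' p hpM hb hnM A hA).S1.B →+* ↥(S1N L).B :=
  (β : ↥(Fbar M') →+* ↥(Fbar (M' * p))).restrict (TV n e M' p hpM hb hnM A hA).S1.B (S1N L).B
    (fun _ h => beta_mem_chart1 Y h)

theorem coe_sec0 (b : ↥(TV n e M' p hpM hb hnM A hA).S0.B) :
    ((sec0 (hpM := hpM) (hA := hA) L Y b : ↥(S0N L).B) : ↥(Fbar (M' * p))) =
      β (b : ↥(Fbar M')) := rfl

theorem coe_sec1 (b : ↥(TV n e M' p hpM hb hnM A hA).S1.B) :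
    ((sec1 (hpM := hpM) (hA := hA) L Y b : ↥(S1N L).B) : ↥(Fbar (M' * p))) =
      β (b : ↥(Fbar M')) := rfl

end Sec

/-! ### §2 the reduction of the section -/

section Red

variable {hpM hA}
variable (L : ChartLeaves n e M' p hb hnM A) (Y : YLeaves n e M' p hb hnM A)

/-- **`ρ₂ (β b') = wBar (red' b')`**, chart 0. -/
theorem rho2_sec0 (b : ↥(TV n e M' p hpM hb hnM A hA).S0.B) :
    (S0N L).ρ₂ (sec0 (hpM := hpM) (hA := hA) L Y b) =
      Fermat.Agent.ES.W33.FrickeBar8.wBar M' p A hA hpM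
        ((TV n e M' p hpM hb hnM A hA).S0.red b) := by
  rw [S0N_ρ₂]
  have h := isRedOf_of_mem (G := GqV M' A) (red := redqV M' A)
    ⟨(b : ↥(Fbar M')), B0_le_GqV n e M' p hpM hb hnM A hA b.2⟩
  rw [redqV_eq] at h
  obtain ⟨h2, h3⟩ := Fermat.Agent.ES.W33.FrickeBar8.rho2_beta M' p A hA hpM h
  exact h3

/-- **`ρ₂ (β b') = wBar (red' b')`**, chart 1. -/
theorem rho2_sec1 (b : ↥(TV n e M' p hpM hb hnM A hA).S1.B) :
    (S1N L).ρ₂ (sec1 (hpM := hpM) (hA := hA) L Y b) =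
      Fermat.Agent.ES.W33.FrickeBar8.wBar M' p A hA hpM
        ((TV n e M' p hpM hb hnM A hA).S1.red b) := by
  rw [S1N_ρ₂]
  have hc := (inputs1V n e M' p hpM hb hnM A hA).compat
  have h := isRedOf_of_mem (G := GqV M' A) (red := redqV M' A)
    ⟨(b : ↥(Fbar M')), hc.le_gaussRingN b.2⟩
  have h1 : redqV M' A ⟨(b : ↥(Fbar M')), hc.le_gaussRingN b.2⟩ =
      (TV n e M' p hpM hb hnM A hA).S1.red b := hc.gaussRedN_eq (b : ↥(Fbar M')) b.2
  rw [h1] at h
  obtain ⟨h2, h3⟩ := Fermat.Agent.ES.W33.FrickeBar8.rho2_beta M' p A hA hpM h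
  exact h3

end Red

/-! ### §3 surjectivity: `ρ₂ B = ρ₂ (β B⁰)` -/

section Surj

open Fermat.Agent.RED.DESC Fermat.Agent.RED.DESC.NumberFieldDVR27 Fermat.Agent.RED.DESC.PlaceExtend27
  Fermat.Agent.RED.BASE.EtaQuot12
  Fermat.Agent.RED.PUR.GaussGen8 Fermat.Agent.ES.N34.ModelDefs9 Fermat.Agent.ES.N34.ModelInput13
  Fermat.Agent.ES.N34.ModelN4 Fermat.Agent.ES.W33.CompRedN16 Fermat.Agent.ES.W33.NodalGauss3

variable (n e M' p A) in
/-- **the level-`K` inputs** (Programme N's nodal model and helper16's (C) for all large `K`). -/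
structure KInputs : Prop where
  hp2 : p ≠ 2
  hM : 4 ∣ M'
  hmodel : ModelInput n e p M' A
  hsurj : Large (SurjItems n e p M' A)

/-- two elements of `O2` which differ by `π · O2` have the same second reduction. -/
theorem rho2_eq_of_sub {y z c : ↥(Fbar (M' * p))} (hy : y ∈ NodalDefs3.O2 M' p A)
    (hz : z ∈ NodalDefs3.O2 M' p A) (hc : c ∈ NodalDefs3.O2 M' p A) (a : ↥A) (ha : resA A a = 0)
    (h : y - z = algebraMap Qbar ↥(Fbar (M' * p)) (a : Qbar) * c) :
    rho2 M' p A ⟨y, hy⟩ = rho2 M' p A ⟨z, hz⟩ := by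
  have h1 : (⟨y, hy⟩ : ↥(NodalDefs3.O2 M' p A)) =
      ⟨z, hz⟩ + ⟨algebraMap Qbar ↥(Fbar (M' * p)) (a : Qbar), const_mem_O2 M' p A a⟩ * ⟨c, hc⟩ := by
    apply Subtype.ext
    show y = z + algebraMap Qbar ↥(Fbar (M' * p)) (a : Qbar) * c
    rw [← h]; ring
  rw [h1, map_add, map_mul, rho2_const, ha, map_zero, zero_mul, add_zero]

/-- Programme N's good-level Hauptmodul over `K` is the `ℚ̄`-level one. -/
theorem bc_tM {K : IntermediateField ℚ Qbar} (ht : tq ↥K n e ∈ FK M' K) :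
    baseChangeHom M' K (tM ht) = tV n e M' hb hnM := by
  apply Subtype.ext
  rw [coe_baseChangeHom, coe_tM, coeffMap_tq]
  rfl

variable {hpM hA}
variable (L : ChartLeaves n e M' p hb hnM A) (Y : YLeaves n e M' p hb hnM A)

include hA in
/-- the uniformiser of `A ∩ K` dies in `k̄`. -/
theorem resA_incl_irreducible {K : IntermediateField ℚ Qbar} {ϖ : ↥(AK A K)}
    (hϖ : Irreducible ϖ) : resA A (incl A K ϖ) = 0 := by
  have h1 : ϖ ∈ IsLocalRing.maximalIdeal ↥(AK A K) := by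
    rw [IsLocalRing.mem_maximalIdeal, mem_nonunits_iff]
    exact hϖ.not_isUnit
  rw [NumberFieldDVR27.mem_maximalIdeal_iff] at h1
  exact (IsLocalRing.residue_eq_zero_iff _).2 h1

/-- **surjectivity, chart 0**: every `ρ₂ b` is a `ρ₂ (β b')`. -/
theorem exists_sec0 (KI : KInputs n e M' p A) (b : ↥(S0N L).B) :
    ∃ b' : ↥(TV n e M' p hpM hb hnM A hA).S0.B,
      (S0N L).ρ₂ b = (S0N L).ρ₂ (sec0 (hpM := hpM) (hA := hA) L Y b') := by
  obtain ⟨K₀, hK₀, hSK⟩ := KI.hsurj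
  haveI := hK₀
  obtain ⟨K, hnor, hfd, hK₀K, ht, hE, -, ⟨x, hx, hxb⟩, -⟩ :=
    Fermat.Agent.ES.W33.ChartQbar3.exists_chart_level n e M' p hb hnM A KI.hmodel K₀
      (b : ↥(Fbar (M' * p))) 1 b.2 (one_mem _)
  haveI := hnor
  haveI := hfd
  haveI hdvr : IsDiscreteValuationRing ↥(AK A K) :=
    isDiscreteValuationRing_AK A K (Fact.out : p.Prime).ne_zero hA
  obtain ⟨ϖ, hϖ⟩ := IsDiscreteValuationRing.exists_irreducible ↥(AK A K)
  have hπ := isUnif_of_irreducible (AK A K) hϖ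
  obtain ⟨⟨-, hβ0, -, -⟩, -⟩ := hSK K hfd hK₀K ht hE ϖ hπ
  obtain ⟨b₀, c, hc, hxc⟩ := hβ0 x hx
  have hmem : baseChangeHom M' K (b₀ : ↥(FK M' K)) ∈ (TV n e M' p hpM hb hnM A hA).S0.B := by
    have := Fermat.Agent.ES.RED.ChartUnion1.baseChangeHom_mem_chart A M' K (tM ht) _ b₀.2
    rw [bc_tM (hb := hb) (hnM := hnM)] at this
    exact this
  refine ⟨⟨_, hmem⟩, ?_⟩
  rw [S0N_ρ₂, S0N_ρ₂]
  obtain ⟨hcO, -⟩ := Fermat.Agent.ES.W33.LevelCompare3.bc_mem_O2 M' p A KI.hp2 hpM KI.hM hA hπ hE c hc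
  refine rho2_eq_of_sub _ _ hcO (incl A K ϖ) (resA_incl_irreducible (hA := hA) hϖ) ?_
  have h1 := congrArg (baseChangeHom (M' * p) K) hxc
  rw [map_sub, map_mul, hxb, Fermat.Agent.ES.RED.ChartUnion1.baseChangeHom_algebraMap_AK] at h1
  rw [coe_sec0]
  have h2 : baseChangeHom (M' * p) K (beta K M' p (b₀ : ↥(FK M' K))) =
      β (baseChangeHom M' K (b₀ : ↥(FK M' K))) :=
    Fermat.Agent.ES.N35.NormBC1.baseChangeHom_beta K M' p (b₀ : ↥(FK M' K))
  rw [h2] at h1
  exact h1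

/-- **surjectivity, chart 1**: every `ρ₂ b` is a `ρ₂ (β b')`. -/
theorem exists_sec1 (KI : KInputs n e M' p A) (b : ↥(S1N L).B) :
    ∃ b' : ↥(TV n e M' p hpM hb hnM A hA).S1.B,
      (S1N L).ρ₂ b = (S1N L).ρ₂ (sec1 (hpM := hpM) (hA := hA) L Y b') := by
  obtain ⟨K₀, hK₀, hSK⟩ := KI.hsurj
  haveI := hK₀
  obtain ⟨K, hnor, hfd, hK₀K, ht, hE, -, -, ⟨x, hx, hxb⟩⟩ :=
    Fermat.Agent.ES.W33.ChartQbar3.exists_chart_level n e M' p hb hnM A KI.hmodel K₀
      1 (b : ↥(Fbar (M' * p))) (one_mem _) b.2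
  haveI := hnor
  haveI := hfd
  haveI hdvr : IsDiscreteValuationRing ↥(AK A K) :=
    isDiscreteValuationRing_AK A K (Fact.out : p.Prime).ne_zero hA
  obtain ⟨ϖ, hϖ⟩ := IsDiscreteValuationRing.exists_irreducible ↥(AK A K)
  have hπ := isUnif_of_irreducible (AK A K) hϖ
  obtain ⟨⟨-, -, -, hβ1⟩, -⟩ := hSK K hfd hK₀K ht hE ϖ hπ
  obtain ⟨b₀, c, hc, hxc⟩ := hβ1 x hx
  have hmem : baseChangeHom M' K (b₀ : ↥(FK M' K)) ∈ (TV n e M' p hpM hb hnM A hA).S1.B := by
    have := Fermat.Agent.ES.RED.ChartUnion1.baseChangeHom_mem_chart A M' K (tM ht)⁻¹ _ b₀.2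
    rw [map_inv₀, bc_tM (hb := hb) (hnM := hnM)] at this
    exact this
  refine ⟨⟨_, hmem⟩, ?_⟩
  rw [S1N_ρ₂, S1N_ρ₂]
  obtain ⟨hcO, -⟩ := Fermat.Agent.ES.W33.LevelCompare3.bc_mem_O2 M' p A KI.hp2 hpM KI.hM hA hπ hE c hc
  refine rho2_eq_of_sub _ _ hcO (incl A K ϖ) (resA_incl_irreducible (hA := hA) hϖ) ?_
  have h1 := congrArg (baseChangeHom (M' * p) K) hxc
  rw [map_sub, map_mul, hxb, Fermat.Agent.ES.RED.ChartUnion1.baseChangeHom_algebraMap_AK] at h1
  rw [coe_sec1]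
  have h2 : baseChangeHom (M' * p) K (beta K M' p (b₀ : ↥(FK M' K))) =
      β (baseChangeHom M' K (b₀ : ↥(FK M' K))) :=
    Fermat.Agent.ES.N35.NormBC1.baseChangeHom_beta K M' p (b₀ : ↥(FK M' K))
  rw [h2] at h1
  exact h1

end Surj

/-! ### §4 the branch-2 places -/

section Main

variable (L : ChartLeaves n e M' p hb hnM A) (Y : YLeaves n e M' p hb hnM A)

include hpM hA Y in
open Fermat.Agent.ES.RED.TwoCharts8 in
/-- **`ex₂0`**: at every centre of chart 0 on the second component, the local ring of `C₂` is the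
valuation ring of the place `wBar • rV (resBeta P)`. -/
theorem ex₂0 (KI : KInputs n e M' p A) (P : Place Qbar ↥(Fbar (M' * p)))
    (hP : (S0N L).InChart P) (h2 : (S0N L).On₂ P hP) :
    ∃ X : Place (kA A) (Ft M' A), ∀ y, y ∈ X.toValuationSubring ↔
      y ∈ cSubring ((S0N L).chi P hP) (S0N L).ρ₂ := by
  have hQ : (TV n e M' p hpM hb hnM A hA).S0.InChart (resBeta M' p hpM P) :=
    inChart_restrictAlong (TV n e M' p hpM hb hnM A hA).S0 (S0N L) β (beta_isIntegral M' p hpM)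
      (sec0 (hpM := hpM) (hA := hA) L Y) (coe_sec0 L Y) P hP
  refine ⟨Fermat.Agent.ES.W33.FrickeBar8.wBar M' p A hA hpM •
    rV n e M' p hpM hb hnM A hA (resBeta M' p hpM P), fun y => ?_⟩
  rw [cSubring₂_eq_of_section (S0N L) (sec0 (hpM := hpM) (hA := hA) L Y)
    (((Fermat.Agent.ES.W33.FrickeBar8.wBar M' p A hA hpM : Ft M' A ≃ₐ[kA A] Ft M' A) :
      Ft M' A →+* Ft M' A).comp (TV n e M' p hpM hb hnM A hA).S0.red)
    (fun b' => rho2_sec0 L Y b')
    (fun b => by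
      obtain ⟨b', hb'⟩ := exists_sec0 (hpM := hpM) (hA := hA) L Y KI b
      exact ⟨b', hb'.trans (rho2_sec0 L Y b')⟩) P hP h2]
  have hχ : ((S0N L).chi P hP).comp (sec0 (hpM := hpM) (hA := hA) L Y) =
      (TV n e M' p hpM hb hnM A hA).S0.chi (resBeta M' p hpM P) hQ :=
    RingHom.ext fun b => chi_comp_eq (TV n e M' p hpM hb hnM A hA).S0 (S0N L) β
      (beta_isIntegral M' p hpM) (sec0 (hpM := hpM) (hA := hA) L Y) (coe_sec0 L Y) P hP hQ b
  have hr : rV n e M' p hpM hb hnM A hA (resBeta M' p hpM P) =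
      rAt (TV n e M' p hpM hb hnM A hA).places0 (TV n e M' p hpM hb hnM A hA).tr0
        (resBeta M' p hpM P) hQ := (TV n e M' p hpM hb hnM A hA).r_eq0 _ hQ
  rw [hχ, mem_cSubring_comp_iff, Place.smul_toValuationSubring,
    ValuationSubring.mem_pointwise_smul_iff_inv_smul_mem, hr]
  exact Iff.rfl

include hpM hA Y in
open Fermat.Agent.ES.RED.TwoCharts8 in
/-- **`ex₂1`**: the same at every centre of chart 1 on the second component. -/
theorem ex₂1 (KI : KInputs n e M' p A) (P : Place Qbar ↥(Fbar (M' * p)))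
    (hP : (S1N L).InChart P) (h2 : (S1N L).On₂ P hP) :
    ∃ X : Place (kA A) (Ft M' A), ∀ y, y ∈ X.toValuationSubring ↔
      y ∈ cSubring ((S1N L).chi P hP) (S1N L).ρ₂ := by
  have hQ : (TV n e M' p hpM hb hnM A hA).S1.InChart (resBeta M' p hpM P) :=
    inChart_restrictAlong (TV n e M' p hpM hb hnM A hA).S1 (S1N L) β (beta_isIntegral M' p hpM)
      (sec1 (hpM := hpM) (hA := hA) L Y) (coe_sec1 L Y) P hP
  refine ⟨Fermat.Agent.ES.W33.FrickeBar8.wBar M' p A hA hpM •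
    rV n e M' p hpM hb hnM A hA (resBeta M' p hpM P), fun y => ?_⟩
  rw [cSubring₂_eq_of_section (S1N L) (sec1 (hpM := hpM) (hA := hA) L Y)
    (((Fermat.Agent.ES.W33.FrickeBar8.wBar M' p A hA hpM : Ft M' A ≃ₐ[kA A] Ft M' A) :
      Ft M' A →+* Ft M' A).comp (TV n e M' p hpM hb hnM A hA).S1.red)
    (fun b' => rho2_sec1 L Y b')
    (fun b => by
      obtain ⟨b', hb'⟩ := exists_sec1 (hpM := hpM) (hA := hA) L Y KI b
      exact ⟨b', hb'.trans (rho2_sec1 L Y b')⟩) P hP h2]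
  have hχ : ((S1N L).chi P hP).comp (sec1 (hpM := hpM) (hA := hA) L Y) =
      (TV n e M' p hpM hb hnM A hA).S1.chi (resBeta M' p hpM P) hQ :=
    RingHom.ext fun b => chi_comp_eq (TV n e M' p hpM hb hnM A hA).S1 (S1N L) β
      (beta_isIntegral M' p hpM) (sec1 (hpM := hpM) (hA := hA) L Y) (coe_sec1 L Y) P hP hQ b
  have hr : rV n e M' p hpM hb hnM A hA (resBeta M' p hpM P) =
      rAt (TV n e M' p hpM hb hnM A hA).places1 (TV n e M' p hpM hb hnM A hA).tr1
        (resBeta M' p hpM P) hQ := by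
    haveI : IsAlgClosed (kA A) := isAlgClosed_kA A
    exact (TV n e M' p hpM hb hnM A hA).r_eq1 (hxtV n e M' p hpM hb hnM A hA) _ hQ
  rw [hχ, mem_cSubring_comp_iff, Place.smul_toValuationSubring,
    ValuationSubring.mem_pointwise_smul_iff_inv_smul_mem, hr]
  exact Iff.rfl

end Main

/-! ### §5 the inputs: `YLeaves` from Programme N's `ModEqItems`; `(n, e) = (4, 8)`, `p` odd -/

section Inputs

open Fermat.Agent.RED.DESC Fermat.Agent.RED.DESC.NumberFieldDVR27 Fermat.Agent.RED.DESC.PlaceExtend27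
  Fermat.Agent.RED.BASE.EtaQuot12
  Fermat.Agent.RED.PUR.GaussGen8 Fermat.Agent.ES.N34.ModelDefs9 Fermat.Agent.ES.N34.ModelInput13
  Fermat.Agent.ES.N34.ModelN4 Fermat.Agent.ES.W33.CompRedN16

variable (hb hnM) in
/-- **`y = β t ∈ chart ↥A t`, `y⁻¹ ∈ chart ↥A t⁻¹`** from the level-`K` modular equation. -/
theorem yLeaves_of (hmodel : ModelInput n e p M' A) (hmodeq : Large (ModEqItems n e p M' A)) :
    YLeaves n e M' p hb hnM A := by
  obtain ⟨K₀, hK₀, hME⟩ := hmodeq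
  haveI := hK₀
  obtain ⟨K, hnor, hfd, hK₀K, ht, -, -, -, -⟩ :=
    Fermat.Agent.ES.W33.ChartQbar3.exists_chart_level n e M' p hb hnM A hmodel K₀ 1 1
      (one_mem _) (one_mem _)
  haveI := hnor
  obtain ⟨h0, h1⟩ := hME K hfd hK₀K ht
  have hy : baseChangeHom (M' * p) K (yN p ht) = β (tV n e M' hb hnM) := by
    have h2 : baseChangeHom (M' * p) K (beta K M' p (tM ht)) =
        β (baseChangeHom M' K (tM ht)) :=
      Fermat.Agent.ES.N35.NormBC1.baseChangeHom_beta K M' p (tM ht)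
    rw [bc_tM (hb := hb) (hnM := hnM)] at h2
    exact h2
  constructor
  · have := Fermat.Agent.ES.RED.ChartUnion1.baseChangeHom_mem_chart A (M' * p) K
      (Fermat.Agent.ES.N34.ModelDefs9.tN p ht) _ h0
    rw [Fermat.Agent.ES.W33.ChartQbar3.bc_tN n e M' p hb hnM, hy] at this
    exact this
  · have := Fermat.Agent.ES.RED.ChartUnion1.baseChangeHom_mem_chart A (M' * p) K
      (Fermat.Agent.ES.N34.ModelDefs9.tN p ht)⁻¹ _ h1
    rw [Fermat.Agent.ES.W33.ChartQbar3.bc_tN_inv n e M' p hb hnM, map_inv₀, hy] at this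
    exact this

end Inputs

end Inst

section Four

open Fermat.Agent.ES.N34.ModelInput13 Fermat.Agent.ES.N34.ModelN4 Fermat.Agent.ES.W33.CompRedN16

variable (M' : ℕ) [NeZero M'] (p : ℕ) [Fact p.Prime] (hpM : ¬ p ∣ M')
  (hb : BaseHyp 4 8) (hnM : 4 ∣ M') (A : ValuationSubring Qbar) (hA : A.LiesOverPrime p)

include hpM hnM hA in
/-- the level-`K` inputs at `(4, 8)`, `p` odd: no hypothesis left. -/
theorem kInputs_four (hp2 : p ≠ 2) : KInputs 4 8 M' p A where
  hp2 := hp2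
  hM := hnM
  hmodel := Fermat.Agent.ES.N34.ModelEnd4.modelInput_four p M' A Fact.out hpM hp2 hnM hA
  hsurj := surjItems_four (Fact.out : p.Prime) hpM hp2 hnM hA

include hpM hA in
/-- the coordinate hypotheses at `(4, 8)`, `p` odd: no hypothesis left. -/
theorem yLeaves_four (hp2 : p ≠ 2) : YLeaves 4 8 M' p hb hnM A := by
  have hq : p.Prime := Fact.out
  have hJ := Fermat.Agent.RED.ModelFinal4.jTarget
    (Fermat.Agent.RED.BASE.MainCusp12.base_four M' hnM).1.genBase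
  have hG : Large (GlueItems 4 8 p M' A) := Fermat.Agent.ES.N34.ModelEnd4.glueItems hq hpM hA hJ
  have hS2 : Large (ModEqItems 4 8 p M' A) :=
    Fermat.Agent.ES.N34.ItemsAd6.modEqItems_four hq hp2 hpM hA
      (Fermat.Agent.ES.N34.ModelTop4.chartItems_four hnM hq hA) hG
  exact yLeaves_of hb hnM
    (Fermat.Agent.ES.N34.ModelEnd4.modelInput_four p M' A Fact.out hpM hp2 hnM hA) hS2

variable {M' p hb hnM A}

include hpM hA in
/-- **`ex₂0` at `(4, 8)`, `p` odd** — helper20's literal (`NodalCtxRN20.RNLeaves.of_exists`). -/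
theorem ex₂0_four (hp2 : p ≠ 2) (L : ChartLeaves 4 8 M' p hb hnM A)
    (P : Place Qbar ↥(Fbar (M' * p))) (hP : (S0N L).InChart P) (h2 : (S0N L).On₂ P hP) :
    ∃ X : Place (kA A) (Ft M' A), ∀ y, y ∈ X.toValuationSubring ↔
      y ∈ cSubring ((S0N L).chi P hP) (S0N L).ρ₂ :=
  ex₂0 hpM hA L (yLeaves_four M' p hpM hb hnM A hA hp2) (kInputs_four M' p hpM hnM A hA hp2) P hP h2

include hpM hA in
/-- **`ex₂1` at `(4, 8)`, `p` odd** — helper20's literal. -/
theorem ex₂1_four (hp2 : p ≠ 2) (L : ChartLeaves 4 8 M' p hb hnM A)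
    (P : Place Qbar ↥(Fbar (M' * p))) (hP : (S1N L).InChart P) (h2 : (S1N L).On₂ P hP) :
    ∃ X : Place (kA A) (Ft M' A), ∀ y, y ∈ X.toValuationSubring ↔
      y ∈ cSubring ((S1N L).chi P hP) (S1N L).ρ₂ :=
  ex₂1 hpM hA L (yLeaves_four M' p hpM hb hnM A hA hp2) (kInputs_four M' p hpM hnM A hA hp2) P hP h2

end Four

end Fermat.Agent.ES.W33.ExTwoN4
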