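/-
Programme W (S33 by hand, route `S33_ROUTE8.md`), chapter (Gb), group B5′/G3′, helper21:
**the bridge (Le) ⇒ expansion package, on the NODAL model** — nodal port of helper5's
`V19/ExpPkgOfDens5`, in a MODEL-FREE, cast-free form: everything is stated with the objects of
`DensityInstN21.DensBaseN` itself (local rings `(Bs.X i).CQ`, parameters `τ_i := (Bs.X i).τ`, Taylor
expansions `(Bs.X i).tay`, discs `r P = Sum.inl (Bs.Qb i)`), so that the expansion package of the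
bridge (`XiBridgeA7.ExpPkgA`, helper7) is obtained field by field.

* `DiscHypN Bs` : the two disc inputs — (Da) "for `s ∈ 𝔪_A` the function `τ_i - s` has exactly one
  zero in the disc of `Q̄_i`, and it is simple" and the archimedean property of `A`;
* `eq_P0`, `eq_P1` : the centres / moving points are THE zeros;
* `mem_Bsharp_of_poles` : an integral function whose poles are among the zeros of the `τ_i`,
  `τ_i - s_i` lies in `B^♯`                                                        [`ExpPkg.mem_B`];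
* `ExpRB_const_eq`      : `Exp^R a = ā • 1`                                         [`ExpPkg.E_const`];
* `ExpRB_loc`           : `Exp^R f · X (X - s̄_i) = Taylor (f τ_i (τ_i - s_i))`      [`ExpPkg.E_loc`];
* (`DensityInstN21.ExpRB_mem_AR` is `ExpPkg.E_mem`);
* `exists_densPt`       : for `d ≠ 0` and `s'' i ∈ 𝔪_A` there is a `DensPtN` with modulus `d` and
  parameters `s''`.
-/
import Mathlib
import Fermat.Agent.ES.V19.XiAdd7
import Fermat.Agent.ES.W33.DensityInstN21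

set_option autoImplicit false
set_option linter.style.haveILetI false

open AlgebraicCurve

noncomputable section

namespace Fermat.Agent.ES.W33.ExpPkgOfDensN21

open scoped BigOperators
open HahnSeries
open Fermat.Agent.X0.FF
open Fermat.Agent.ES.V19.LaurentMap19 (Lam wLam mapLam)
open Fermat.Agent.ES.V19.NormalFormBasis14 Fermat.Agent.ES.V19.DensityCore28
open Fermat.Agent.ES.V19.XiAdd7 (LX Rd mkd)
open Fermat.Agent.ES.W33.XiIfaceN29 Fermat.Agent.ES.W33.DensityInstN21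

universe u

variable {L : Type u} {F k Ft₁ Ft₂ : Type*} [Field L] [Field F] [Algebra L F] [Field k]
  [Field Ft₁] [Algebra k Ft₁] [Field Ft₂] [Algebra k Ft₂]
variable {A : ValuationSubring L}
variable {sn : ℕ} {N : Nodes k Ft₁ Ft₂ sn} {G : Subring F} {red : ↥G →+* Ft₁ × Ft₂}
  {r : Place L F → SPt k Ft₁ Ft₂ ⊕ Fin sn} {π : ↥A →+* k}
variable {O : Type*} [CommRing O] [Algebra O ↥A] {g : ℕ} {D : BasisData O g}

/-- the function `τ_i - s`. -/
def tauS (Bs : DensBaseN (A := A) N G red r π D) (i : Fin g) (s : ↥A) : F :=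
  (((Bs.X i).τ : ↥(Bs.X i).CQ) : F) - algebraMap L F (s : L)

theorem tauS_zero (Bs : DensBaseN (A := A) N G red r π D) (i : Fin g) :
    tauS Bs i 0 = (((Bs.X i).τ : ↥(Bs.X i).CQ) : F) := by
  unfold tauS
  rw [ZeroMemClass.coe_zero, map_zero, sub_zero]

/-- **The disc inputs of the bridge**, in the vocabulary of `DensBaseN`. -/
structure DiscHypN (Bs : DensBaseN (A := A) N G red r π D) : Prop where
  /-- (Da): for `s ∈ 𝔪_A`, `τ_i - s` has exactly one zero in the disc of `Q̄_i`, a simple one -/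
  da : ∀ (i : Fin g) (s : ↥A), s ∈ IsLocalRing.maximalIdeal ↥A →
    ∃ P : Place L F, r P = Sum.inl (Bs.Qb i) ∧ P.ord (tauS Bs i s) = 1 ∧
      ∀ P' : Place L F, r P' = Sum.inl (Bs.Qb i) → 0 < P'.ord (tauS Bs i s) → P' = P
  /-- the archimedean property of the valuation ring -/
  arch : ∀ s : ↥A, s ∈ IsLocalRing.maximalIdeal ↥A → s ≠ 0 → ∀ d : ↥A, d ≠ 0 →
    ∃ n : ℕ, d ∣ s ^ n

section Pkg

variable {Bs : DensBaseN (A := A) N G red r π D}

/-- the denominator of (Le). -/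
theorem coe_den_eq (Pt : DensPtN Bs) (i : Fin g) :
    ((den Bs Pt i : ↥(Bs.X i).CQ) : F) = tauS Bs i 0 * tauS Bs i (Pt.s i) := by
  rw [coe_den, tauS_zero]
  rfl

/-- the centre `P0 i` is THE zero of `τ_i` in the disc of `Q̄_i`. -/
theorem eq_P0 (H : DiscHypN Bs) (i : Fin g) {P : Place L F} (hP : r P = Sum.inl (Bs.Qb i))
    (h0 : 0 < P.ord (tauS Bs i 0)) : P = Bs.P0 i := by
  obtain ⟨P₁, -, -, huniq⟩ := H.da i 0 (Ideal.zero_mem _)
  have e0 : Bs.P0 i = P₁ := by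
    refine huniq _ (Bs.hP0 i) ?_
    rw [tauS_zero]
    exact Bs.zero0 i
  rw [e0]
  exact huniq P hP h0

/-- the moving point `P1 i` is THE zero of `τ_i - s_i` in the disc of `Q̄_i`. -/
theorem eq_P1 (H : DiscHypN Bs) (Pt : DensPtN Bs)
    (hs : ∀ i, Pt.s i ∈ IsLocalRing.maximalIdeal ↥A) (i : Fin g)
    {P : Place L F} (hP : r P = Sum.inl (Bs.Qb i)) (h1 : 0 < P.ord (tauS Bs i (Pt.s i))) :
    P = Pt.P1 i := by
  obtain ⟨P₁, -, -, huniq⟩ := H.da i (Pt.s i) (hs i)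
  have e1 : Pt.P1 i = P₁ := huniq _ (Pt.hP1 i) (Pt.zero1 i)
  rw [e1]
  exact huniq P hP h1

/-- **`ExpPkg.mem_B`**: an integral function whose poles are among the zeros of the `τ_i` and of the
`τ_i - s_i` in the discs of the `Q̄_i` lies in `B^♯`. -/
theorem mem_Bsharp_of_poles (H : DiscHypN Bs) (Pt : DensPtN Bs)
    (hs : ∀ i, Pt.s i ∈ IsLocalRing.maximalIdeal ↥A) (f : F) (hf : f ∈ G)
    (hpole : ∀ P : Place L F, P.ord f < 0 → ∃ i, r P = Sum.inl (Bs.Qb i) ∧
      (0 < P.ord (tauS Bs i 0) ∨ 0 < P.ord (tauS Bs i (Pt.s i)))) :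
    f ∈ Bsharp Bs Pt := by
  refine ⟨hf, fun P hne => ?_⟩
  by_contra hmem
  have hlt : P.ord f < 0 := by
    by_contra hge
    exact hmem (mem_of_ord_nonneg P (not_lt.mp hge))
  obtain ⟨i, hi, h0 | h1⟩ := hpole P hlt
  · exact (hne i).1 (eq_P0 H i hi h0)
  · exact (hne i).2 (eq_P1 H Pt hs i hi h1)

/-- **`ExpPkg.E_const`**: constants. -/
theorem ExpRB_const_eq (Pt : DensPtN Bs) (a : ↥A) (ha : algebraMap L F (a : L) ∈ Bsharp Bs Pt) :
    ExpRB Bs Pt ⟨algebraMap L F (a : L), ha⟩ = (mkd Pt.ϖ a) • (1 : Lam g (Rd Pt.ϖ)) := by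
  refine Fermat.Agent.ES.V19.LaurentMap19.Lam.ext fun i m => ?_
  have h1 : ExpRB Bs Pt ⟨algebraMap L F (a : L), ha⟩ i =
      HahnSeries.C (Ideal.Quotient.mk (Ideal.span {Pt.ϖ}) a) := ExpR_const Bs Pt i a
  rw [h1, Fermat.Agent.ES.V19.LaurentMap19.smul_apply_coeff,
    Fermat.Agent.ES.V19.LaurentMap19.one_apply, HahnSeries.C_apply,
    HahnSeries.coeff_single, HahnSeries.coeff_one]
  split_ifs <;> simp

/-- **`ExpPkg.E_loc`**: the local shape of `Exp^R`. -/
theorem ExpRB_loc (Pt : DensPtN Bs) (f : ↥(Bsharp Bs Pt)) (i : Fin g) (v : ↥(Bs.X i).CQ)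
    (hv : (f : F) * (tauS Bs i 0 * tauS Bs i (Pt.s i)) = (v : F)) :
    ExpRB Bs Pt f i * (LX (Rd Pt.ϖ) * (LX (Rd Pt.ϖ) - HahnSeries.C (mkd Pt.ϖ (Pt.s i))))
      = HahnSeries.ofPowerSeries ℤ (Rd Pt.ϖ) (PowerSeries.map (mkd Pt.ϖ) ((Bs.X i).tay v)) := by
  have hfd : (f : F) * ((den Bs Pt i : ↥(Bs.X i).CQ) : F) ^ 1 = (v : F) := by
    rw [pow_one, coe_den_eq Pt i, hv]
  have hmem : (f : F) * ((den Bs Pt i : ↥(Bs.X i).CQ) : F) ^ 1 ∈ (Bs.X i).CQ := by
    rw [hfd]; exact v.2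
  have h1 := ExpR_mul_pow Bs Pt i ⟨(f : F), Bsharp_le_Sloc Bs Pt i f.2⟩ 1 hmem
  rw [pow_one, phi_den, phi_apply] at h1
  have h2 : (⟨_, hmem⟩ : ↥(Bs.X i).CQ) = v := Subtype.ext hfd
  rw [h2] at h1
  exact h1

end Pkg

/-! ### The varying data -/

section Pt

variable (Bs : DensBaseN (A := A) N G red r π D)

/-- for `d ≠ 0` and parameters `s'' i ∈ 𝔪_A` there is a `DensPtN` with modulus `d` and parameters
`s''`: the moving points are the zeros of the `τ_i - s''_i` (Da), the nilpotency exponent comes from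
the archimedean property of `A`. -/
theorem exists_densPt (H : DiscHypN Bs) {d : ↥A} (hd0 : d ≠ 0) {s'' : Fin g → ↥A}
    (hs'' : ∀ i, s'' i ∈ IsLocalRing.maximalIdeal ↥A) :
    ∃ Pt : DensPtN Bs, Pt.ϖ = d ∧ Pt.s = s'' := by
  -- the exponents
  have hN : ∀ i, ∃ n : ℕ, d ∣ s'' i ^ n := by
    intro i
    by_cases h0 : s'' i = 0
    · exact ⟨1, by rw [h0, pow_one]; exact dvd_zero d⟩
    · exact H.arch (s'' i) (hs'' i) h0 d hd0
  choose n hnd using hN
  -- the points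
  have hP : ∀ i, ∃ P : Place L F, r P = Sum.inl (Bs.Qb i) ∧ 0 < P.ord (tauS Bs i (s'' i)) := by
    intro i
    obtain ⟨P, hPQ, hP1, -⟩ := H.da i (s'' i) (hs'' i)
    exact ⟨P, hPQ, by rw [hP1]; exact one_pos⟩
  choose P hPQ hPpos using hP
  refine ⟨⟨d, s'', ∑ i, n i, fun i => ?_, P, hPQ, hPpos⟩, rfl, rfl⟩
  exact (hnd i).trans (pow_dvd_pow _ (Finset.single_le_sum (f := n)
    (fun j _ => Nat.zero_le _) (Finset.mem_univ i)))

end Pt

end Fermat.Agent.ES.W33.ExpPkgOfDensN21
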