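/-
Programme W (S33 by hand, route `S33_ROUTE8.md`), chapter (Gb), group B5′/G3′, helper21:
**the adaptor (Le) ⇒ helper7's MODEL-FREE bridge `XiBridgeA7`, on the NODAL model.**

From the fixed data of (Le) on the nodal model, `Bs : DensityInstN21.DensBaseN N G red r π D`, we build
helper7's abstract family of discs

  `discFam Bs : XiBridgeA7.DiscFam A F g`
    (`Gi := G`, `mem i P := r P = Sum.inl (Bs.Qb i)`, `CQ i := (Bs.X i).CQ`, `τ i := (Bs.X i).τ`)

with Taylor expansions `tayFam Bs i := (Bs.X i).tay`, and prove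

* `tauSub_eq`            : `(discFam Bs).tauSub i s = ExpPkgOfDensN21.tauS Bs i s` (`rfl`);
* `discFamHyp`           : `XiBridgeA7.DiscFamHyp (discFam Bs) (tayFam Bs)` from the two disc inputs
                           `ExpPkgOfDensN21.DiscHypN Bs` ((Da), `arch`) and ONE more named input
                           `hunit` : `(τ_i - s)⁻¹ ∈ G` for `s ∈ 𝔪_A` (every other field is a field of
                           `LocExpN` / `RedCtxN` / `DensBaseN`);
* `expPkgA`              : `XiBridgeA7.ExpPkgA (discFam Bs) (nfSystem D) (tayFam Bs) Pt.ϖ Pt.s`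
                           (`B := Bsharp Bs Pt`, `E := ExpRB Bs Pt`; the four fields are the four
                           theorems of `ExpPkgOfDensN21` and `DensityInstN21.ExpRB_mem_AR` = (Le));
* `nonempty_expPkgA`, `expPkgAAt` : the `pkg` argument of the two exits of `XiBridgeA7`;
* **`add_congr_of_dens`**, **`neg_congr_of_dens`** : the two exits of `XiBridgeA7`
  (`add_congr_of_discs`, `neg_congr_of_discs`) with `pkg` and `hBR` discharged by (Le).
-/
import Mathlib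
import Fermat.Agent.ES.V19.NFSystemOfBasis14
import Fermat.Agent.ES.W33.XiBridgeA7
import Fermat.Agent.ES.W33.ExpPkgOfDensN21

set_option autoImplicit false
set_option linter.style.haveILetI false

open AlgebraicCurve

noncomputable section

namespace Fermat.Agent.ES.W33.ExpPkgAOfDensN21

open scoped BigOperators
open Fermat.Agent.X0.FF
open Fermat.Agent.ES.V19.LaurentMap19 (Lam wLam mapLam)
open Fermat.Agent.ES.V19.NormalFormBasis14 Fermat.Agent.ES.V19.NFSystemOfBasis14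
open Fermat.Agent.ES.V19.XiAdd7 (LX Rd mkd)
open Fermat.Agent.ES.V19.OnePlaceRep9 (redDiv)
open Fermat.Agent.ES.W33.XiIfaceN29 Fermat.Agent.ES.W33.DensityInstN21
  Fermat.Agent.ES.W33.ExpPkgOfDensN21 Fermat.Agent.ES.W33.XiBridgeA7

universe u

variable {L : Type u} {F k Ft₁ Ft₂ : Type*} [Field L] [Field F] [Algebra L F] [Field k]
  [Field Ft₁] [Algebra k Ft₁] [Field Ft₂] [Algebra k Ft₂]
variable {A : ValuationSubring L}
variable {sn : ℕ} {N : Nodes k Ft₁ Ft₂ sn} {G : Subring F} {red : ↥G →+* Ft₁ × Ft₂}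
  {r : Place L F → SPt k Ft₁ Ft₂ ⊕ Fin sn} {π : ↥A →+* k}
variable {O : Type u} [CommRing O] [Algebra O ↥A] {g : ℕ} {D : BasisData O g}

/-! ### The family of discs of the (Le) data -/

/-- **helper7's family of discs, read off the fixed data of (Le).** -/
def discFam (Bs : DensBaseN (A := A) N G red r π D) : DiscFam A F g where
  Gi := G
  mem i P := r P = Sum.inl (Bs.Qb i)
  CQ i := (Bs.X i).CQ
  τ i := (((Bs.X i).τ : ↥(Bs.X i).CQ) : F)

/-- the Taylor expansions of the (Le) data. -/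
def tayFam (Bs : DensBaseN (A := A) N G red r π D) (i : Fin g) :
    ↥((discFam Bs).CQ i) →+* PowerSeries ↥A := (Bs.X i).tay

section Fam

variable (Bs : DensBaseN (A := A) N G red r π D)

@[simp] theorem discFam_Gi : (discFam Bs).Gi = G := rfl

theorem discFam_mem (i : Fin g) (P : Place L F) :
    (discFam Bs).mem i P ↔ r P = Sum.inl (Bs.Qb i) := Iff.rfl

theorem discFam_CQ (i : Fin g) : (discFam Bs).CQ i = (Bs.X i).CQ := rfl

theorem tayFam_apply (i : Fin g) (v : ↥(Bs.X i).CQ) : tayFam Bs i v = (Bs.X i).tay v := rfl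

/-- `τ_i - s` in the two vocabularies. -/
theorem tauSub_eq (i : Fin g) (s : ↥A) : (discFam Bs).tauSub i s = tauS Bs i s := rfl

/-- **The hypotheses of helper7's bridge** from the disc inputs (Da), `arch`, and the unit clause
`hunit` (`(τ_i - s)⁻¹` is integral for `s ∈ 𝔪_A`: its reduction `(τ̄_i, τ̄_i)` has two nonzero
components); everything else is carried by `DensBaseN`. -/
theorem discFamHyp (H : DiscHypN Bs)
    (hunit : ∀ (i : Fin g) (s : ↥A), s ∈ IsLocalRing.maximalIdeal ↥A → (tauS Bs i s)⁻¹ ∈ G) :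
    DiscFamHyp (discFam Bs) (tayFam Bs) where
  const_mem := Bs.C.const_mem
  disjoint := fun _ _ _ hi hj => Bs.Qb_inj (Sum.inl_injective (hi.symm.trans hj))
  tau_unit := fun i s hs =>
    ⟨G.sub_mem ((Bs.X i).le_G (Bs.X i).τ.2) (Bs.C.const_mem s), hunit i s hs⟩
  da := H.da
  const_mem_CQ := fun i a => (Bs.X i).const_mem a
  tau_mem_CQ := fun i => (Bs.X i).τ.2
  reg := fun i f hf P hP => (Bs.X i).reg f hf P hP
  db := fun i f hf hreg => (Bs.X i).mem_of_reg f hf hreg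
  arch := H.arch
  tay_tau := fun i => (Bs.X i).tay_τ
  tay_const := fun i a => (Bs.X i).tay_const a

end Fam

/-! ### The expansion package -/

section Pkg

variable {Bs : DensBaseN (A := A) N G red r π D}

/-- **The expansion package of `XiBridgeA7` from the density theorem (Le) on the nodal model.** -/
def expPkgA (H : DiscHypN Bs) (Pt : DensPtN Bs)
    (hs : ∀ i, Pt.s i ∈ IsLocalRing.maximalIdeal ↥A) :
    ExpPkgA (discFam Bs) (nfSystem D) (tayFam Bs) Pt.ϖ Pt.s where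
  B := Bsharp Bs Pt
  E := ExpRB Bs Pt
  mem_B := fun f hf hpole => mem_Bsharp_of_poles H Pt hs f hf hpole
  E_mem := fun f => ExpRB_mem_AR Bs Pt f
  E_const := fun a ha => ExpRB_const_eq Pt a ha
  E_loc := fun f i v hv => ExpRB_loc Pt f i v hv

end Pkg

section Pt

variable (Bs : DensBaseN (A := A) N G red r π D)

/-- **The `pkg` argument of `XiBridgeA7.add_congr_of_discs` / `neg_congr_of_discs`.** -/
theorem nonempty_expPkgA (H : DiscHypN Bs) {d : ↥A} (hd0 : d ≠ 0) {s'' : Fin g → ↥A}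
    (hs'' : ∀ i, s'' i ∈ IsLocalRing.maximalIdeal ↥A) :
    Nonempty (ExpPkgA (discFam Bs) (nfSystem D) (tayFam Bs) d s'') := by
  obtain ⟨Pt, rfl, rfl⟩ := exists_densPt Bs H hd0 hs''
  exact ⟨expPkgA H Pt hs''⟩

/-- the package itself (a choice). -/
def expPkgAAt (H : DiscHypN Bs) {d : ↥A} (hd0 : d ≠ 0) {s'' : Fin g → ↥A}
    (hs'' : ∀ i, s'' i ∈ IsLocalRing.maximalIdeal ↥A) :
    ExpPkgA (discFam Bs) (nfSystem D) (tayFam Bs) d s'' :=
  (nonempty_expPkgA Bs H hd0 hs'').some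

end Pt

/-- the hypothesis `hBR` of the two exits of `XiBridgeA7` for `Sys := nfSystem D`. -/
theorem hBR_nf {A' : Type u} [CommRing A'] [Algebra O A'] (D : BasisData O g) (d : A')
    (y : Lam g (Rd d)) (hy : ∀ i, ∀ m : ℤ, m < 0 → (y i).coeff m = 0) :
    y ∈ (nfSystem D).BR (Rd d) :=
  (mem_BR (g := g) (R := Rd d)).mpr fun i m hm => hy i m hm

/-! ### The two exits of `XiBridgeA7` with the (Le) package plugged in -/

section Exit

variable (Bs : DensBaseN (A := A) N G red r π D)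

/-- **(Ξc), addition, on the nodal model**: `XiBridgeA7.add_congr_of_discs` with `pkg`, `hBR`
discharged by (Le). -/
theorem add_congr_of_dens (H : DiscHypN Bs)
    (hunit : ∀ (i : Fin g) (s : ↥A), s ∈ IsLocalRing.maximalIdeal ↥A → (tauS Bs i s)⁻¹ ∈ G)
    {s s' s'' : Fin g → ↥A} (hs : ∀ i, s i ∈ IsLocalRing.maximalIdeal ↥A)
    (hs' : ∀ i, s' i ∈ IsLocalRing.maximalIdeal ↥A)
    (hs'' : ∀ i, s'' i ∈ IsLocalRing.maximalIdeal ↥A)
    {P P' P'' Q₀ : Fin g → Place L F}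
    (hP : ∀ i, r (P i) = Sum.inl (Bs.Qb i) ∧ 0 < (P i).ord (tauS Bs i (s i)))
    (hP' : ∀ i, r (P' i) = Sum.inl (Bs.Qb i) ∧ 0 < (P' i).ord (tauS Bs i (s' i)))
    (hP'' : ∀ i, r (P'' i) = Sum.inl (Bs.Qb i) ∧ 0 < (P'' i).ord (tauS Bs i (s'' i)))
    (hQ₀ : ∀ i, r (Q₀ i) = Sum.inl (Bs.Qb i) ∧ 0 < (Q₀ i).ord (tauS Bs i 0))
    {h : F} (hh : IsOne (discFam Bs) h) (hh0 : h ≠ 0)
    (hdiv : ∀ v : Place L F, v.ord h = (redDiv P + redDiv P' - redDiv P'' - redDiv Q₀) v)
    {d : ↥A} (hd0 : d ≠ 0) :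
    ∃ N₀ : ℕ, ∀ n : ℕ, N₀ ≤ n → ∀ i,
      d ∣ s'' i - MvPolynomial.aeval (Sum.elim s s')
        (Fermat.Agent.ES.V19.FGLUniv19.F (nfSystem D) n i) :=
  add_congr_of_discs (discFamHyp Bs H hunit) hs hs' hs'' hP hP' hP'' hQ₀ hh hh0 hdiv hd0
    (fun _ => expPkgAAt Bs H hd0 hs'') (hBR_nf D d)

/-- **(Ξc), inverse, on the nodal model**: `XiBridgeA7.neg_congr_of_discs` with `pkg`, `hBR`
discharged by (Le). -/
theorem neg_congr_of_dens (H : DiscHypN Bs)
    (hunit : ∀ (i : Fin g) (s : ↥A), s ∈ IsLocalRing.maximalIdeal ↥A → (tauS Bs i s)⁻¹ ∈ G)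
    {s t : Fin g → ↥A} (hs : ∀ i, s i ∈ IsLocalRing.maximalIdeal ↥A)
    (ht : ∀ i, t i ∈ IsLocalRing.maximalIdeal ↥A)
    {P P' Q₀ : Fin g → Place L F}
    (hP : ∀ i, r (P i) = Sum.inl (Bs.Qb i) ∧ 0 < (P i).ord (tauS Bs i (s i)))
    (hP' : ∀ i, r (P' i) = Sum.inl (Bs.Qb i) ∧ 0 < (P' i).ord (tauS Bs i (t i)))
    (hQ₀ : ∀ i, r (Q₀ i) = Sum.inl (Bs.Qb i) ∧ 0 < (Q₀ i).ord (tauS Bs i 0))
    {h : F} (hh : IsOne (discFam Bs) h) (hh0 : h ≠ 0)
    (hdiv : ∀ v : Place L F, v.ord h = (redDiv P + redDiv P' - redDiv Q₀ - redDiv Q₀) v)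
    {d : ↥A} (hd0 : d ≠ 0) :
    ∃ N₀ : ℕ, ∀ n : ℕ, N₀ ≤ n → ∀ i,
      d ∣ t i - MvPolynomial.aeval s (Fermat.Agent.ES.V19.FGLUniv19.G (nfSystem D) n i) :=
  neg_congr_of_discs (discFamHyp Bs H hunit) hs ht hP hP' hQ₀ hh hh0 hdiv hd0
    (fun _ => expPkgAAt Bs H hd0 (fun _ => Ideal.zero_mem _)) (hBR_nf D d)

end Exit

end Fermat.Agent.ES.W33.ExpPkgAOfDensN21
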