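/-
Programme W (S33), chapter (B3′), leaf "(R2) numerics on the second component" (helper15), part 2:
**Fricke versus the degeneracy maps at the `ℚ̄`-level** (the `ℚ̄`-form of `N34/FrickeV11.frickeFK_alpha`)
and **the degree of the Hauptmodul at the bad level**.

* `algHom_ext_jdF'`   : two `ℚ̄`-algebra homomorphisms `Fbar N → E` agreeing on the generators
  `x_d = j(q^d)`, `d ∣ N`, agree;
* `frickeBar_levelIncl` : `W_{N ℓ} (α x) = β_ℓ (W_N x)` for `x ∈ Fbar N`
  (`α = LevelPullback12.levelIncl`, `β_ℓ = heckeBetaBar` : `q ↦ q^ℓ`);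
* `degT_mul_prime`    : `degT n e (M ℓ) = degT n e M * (ℓ + 1)` for a prime `ℓ ∤ M`.
-/
import Mathlib
import Fermat.Agent.ES.N34.FrickeFK8
import Fermat.Agent.ES.HECKE.LevelPullback12
import Fermat.Agent.ES.HECKE.DegreeL25
import Fermat.Agent.ES.RED.SpecialInv25

set_option autoImplicit false
set_option linter.unusedSectionVars false
set_option synthInstance.maxHeartbeats 400000

open HahnSeries ModularCurve IntermediateField

noncomputable section

namespace Fermat.Agent.ES.W33.FrickeBeta15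

open Fermat.Agent.X0 Fermat.Agent.RED.Interface4 Fermat.Agent.ES.N34.FrickeFK8
  Fermat.Agent.ES.HECKE.LevelPullback12 Fermat.Agent.RED.BASE.EtaQuot12

attribute [local instance 5000] HahnSeries.powerSeriesAlgebra SubalgebraClass.toAlgebra

section Ext

variable (N : ℕ) [NeZero N]

/-- Two `ℚ̄`-algebra homomorphisms out of `Fbar N` that agree on the generators `x_d` agree. -/
theorem algHom_ext_jdF' {E : Type*} [Field E] [Algebra Kbar E] {φ ψ : FF N →ₐ[Kbar] E}
    (h : ∀ (d : ℕ) [NeZero d] (hd : d ∣ N), φ (jdF N d hd) = ψ (jdF N d hd)) : φ = ψ := by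
  have hR : ∀ u : Rsub N, φ (u : FF N) = ψ (u : FF N) := by
    intro u
    induction u using FracR.Rsub_induction with
    | hgen d hd => exact h d hd
    | hconst c =>
        show φ (algebraMap Kbar (FF N) c) = ψ (algebraMap Kbar (FF N) c)
        rw [φ.commutes, ψ.commutes]
    | hadd u v hu hv =>
        show φ ((u : FF N) + (v : FF N)) = ψ ((u : FF N) + (v : FF N))
        rw [map_add, map_add, hu, hv]
    | hmul u v hu hv =>
        show φ ((u : FF N) * (v : FF N)) = ψ ((u : FF N) * (v : FF N))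
        rw [map_mul, map_mul, hu, hv]
  apply AlgHom.ext
  intro y
  obtain ⟨r, s, rfl⟩ := FracR.exists_div N y
  rw [map_div₀, map_div₀, hR r, hR s]

end Ext

section Fricke

variable (N ℓ : ℕ) [NeZero N] [NeZero ℓ]

/-- the level inclusion maps generators to generators. -/
theorem levelIncl_jdF (d : ℕ) [NeZero d] (hd : d ∣ N) :
    levelIncl (Dvd.intro ℓ rfl : N ∣ N * ℓ) (jdF N d hd) =
      jdF (N * ℓ) d (hd.trans (Dvd.intro ℓ rfl)) :=
  Subtype.ext (by
    have h1 := coe_levelIncl (Dvd.intro ℓ rfl : N ∣ N * ℓ) (jdF N d hd)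
    have h2 := coe_jdF_eq_qExpand N d hd
    have h3 := coe_jdF_eq_qExpand (N * ℓ) d (hd.trans (Dvd.intro ℓ rfl))
    exact h1.trans (h2.trans h3.symm))

/-- **`W_{N ℓ} ∘ α = β_ℓ ∘ W_N`** on `Fbar N`. -/
theorem frickeBar_levelIncl (x : FF N) :
    frickeBar (N * ℓ) (levelIncl (Dvd.intro ℓ rfl : N ∣ N * ℓ) x) =
      heckeBetaBar Kbar N ℓ (frickeBar N x) := by
  have key : ((frickeBar (N * ℓ)).comp (levelIncl (Dvd.intro ℓ rfl : N ∣ N * ℓ))) =
      (heckeBetaBar Kbar N ℓ).comp (frickeBar N) := by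
    apply algHom_ext_jdF'
    intro d _ hd
    obtain ⟨e, hde⟩ := hd
    have he0 : e ≠ 0 := by
      rintro rfl
      exact NeZero.ne N (by rw [hde, mul_zero])
    have : NeZero e := ⟨he0⟩
    have : NeZero (e * ℓ) := ⟨Nat.mul_ne_zero he0 (NeZero.ne ℓ)⟩
    have hde' : d * (e * ℓ) = N * ℓ := by rw [← mul_assoc, ← hde]
    rw [AlgHom.comp_apply, AlgHom.comp_apply, levelIncl_jdF,
      frickeBar_jdF (N * ℓ) d (e * ℓ) hde', frickeBar_jdF N d e hde.symm]
    apply Subtype.ext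
    rw [coe_heckeBetaBar, coe_jdF_eq_qExpand, coe_jdF_eq_qExpand, qExpand_qExpand]
    have : NeZero (ℓ * e) := ⟨Nat.mul_ne_zero (NeZero.ne ℓ) he0⟩
    exact (qExpand_congr (R := Kbar) (mul_comm ℓ e) jqK).symm
  exact DFunLike.congr_fun key x

end Fricke

section Degree

open Fermat.Agent.ES.RED.SpecialInv25 Fermat.Agent.ES.RED.SpecialGen25 Fermat.Agent.RED.BASE

variable (n e M ℓ : ℕ) [NeZero n] [NeZero M] [NeZero ℓ] [NeZero (M * ℓ)]
  (hmem : Interface12.TMem n e M) (hmem' : Interface12.TMem n e (M * ℓ))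
  (hgen : Interface12.TGenBase n e)

include hgen in
/-- **`[Fbar (M ℓ) : ℚ̄(t)] = [Fbar M : ℚ̄(t)] · (ℓ + 1)`** for a prime `ℓ ∤ M`. -/
theorem degT_mul_prime (hℓ : ℓ.Prime) (hℓM : ¬ ℓ ∣ M) :
    degT n e (M * ℓ) hmem' = degT n e M hmem * (ℓ + 1) := by
  have hj : Qbar⟮jqModC Qbar⟯ ≤ Qbar⟮tq Qbar n e⟯ := by
    obtain ⟨K₂, hfin₂, hK₂⟩ := JInKt25.exists_j_mem_adjoin (n := n) (e := e) hgen
    have hjK := hK₂ K₂ le_rfl
    have := Fermat.Agent.RED.PUR.DegBaseChange25.map_mem_adjoin (algebraMap ↥K₂ Qbar)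
      (coeffMap (algebraMap ↥K₂ Qbar))
      (Fermat.Agent.RED.PUR.DegBaseChange25.coeffMap_algebraMap' (algebraMap ↥K₂ Qbar))
      {tq ↥K₂ n e} hjK
    rw [Set.image_singleton, coeffMap_jqModC, coeffMap_tq] at this
    exact adjoin_simple_le_iff.mpr this
  have hle : Qbar⟮tq Qbar n e⟯ ≤ Fbar M := adjoin_simple_le_iff.mpr hmem
  have hle' : Qbar⟮tq Qbar n e⟯ ≤ Fbar (M * ℓ) := adjoin_simple_le_iff.mpr hmem'
  have h1 := relfinrank_mul_relfinrank hj hle
  have h2 := relfinrank_mul_relfinrank hj hle'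
  rw [Fermat.Agent.RED.PUR.DegBaseChange25.relfinrank_laurentBaseChange_eq_psi Qbar M] at h1
  rw [Fermat.Agent.RED.PUR.DegBaseChange25.relfinrank_laurentBaseChange_eq_psi Qbar (M * ℓ),
    Fermat.Agent.ES.HECKE.DegreeL25.psi_mul_prime M ℓ hℓ hℓM, ← h1, mul_assoc] at h2
  have h0 : relfinrank Qbar⟮jqModC Qbar⟯ Qbar⟮tq Qbar n e⟯ ≠ 0 := by
    intro h0
    rw [h0, zero_mul] at h1
    exact (Fermat.Agent.X0.GNPsi.gnp_dedekindPsi_pos (NeZero.ne M)).ne h1
  have h3 := Nat.eq_of_mul_eq_mul_left (Nat.pos_of_ne_zero h0) h2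
  have e1 : degT n e (M * ℓ) hmem' = relfinrank Qbar⟮tq Qbar n e⟯ (Fbar (M * ℓ)) :=
    finrank_tF_eq_relfinrank n e (M * ℓ) hmem'
  have e2 : degT n e M hmem = relfinrank Qbar⟮tq Qbar n e⟯ (Fbar M) :=
    finrank_tF_eq_relfinrank n e M hmem
  rw [e1, e2]
  exact h3

end Degree

end Fermat.Agent.ES.W33.FrickeBeta15
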