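/-
Programme W (S33), chapter (Ga)/(I-c) + (B3′), brick (Ic-3) "NODE DICTIONARY", part 1 (helper11):
**THE CENTRE, ON A LEVEL-`K` CHART, OF A PLACE OF THE `ℚ̄`-LEVEL FUNCTION FIELD** — generic layer.

Setting (all abstract): `L` algebraically closed, `A ≤ L` a valuation subring, `k := kA A`;
`FL / L` a function field with generator `x` (the `ℚ̄`-level field), `P : Place L FL`;
`F / K` a field over a subfield-like `K` (the level-`K` field), `R` a ring with `R → K → F`
(`R = A ∩ K`), `ι : F →+* FL` (coefficient extension), `B : Subalgebra R F` (a level-`K` chart).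

* `RegAt A hx ι B P`  : every `b ∈ B` is regular at `P` with value in `A`;
* `evK h : B →+* A`, `chiK h : B →+* kA A`, `centreK h : Ideal B := ker (chiK h)`;
* `centreK_isPrime`, `centreK_isMaximal` (if every nonzero element of `kA A` is a root of unity),
  `algebraMap_mem_centreK` (`π ∈ centre`), `mem_centreK_iff`, `isUnit_evK_iff`;
* `thr_centreK` : **`NodeAsm6.Thr B (centreK h) w`** for every place `w` of `F / K` with
  `O_w = ι⁻¹ O_P` (e.g. `w = PlaceRestrict13.restrictK … P`);
* `not_offBranch_centreK`, `exists_of_offBranch_centreK` : `NodalCore13.OffBranch π B O_j (centreK h)`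
  in terms of values at `P`;
* `chiK_eq_of_surj` : **(T3)** — if `B = S + (B ∩ π O_j)` (`CompRedN16.SurjVia`), both centres lie on the
  branch `j`, and the values of `S` at `P`, `P'` agree mod `𝔪_A`, then `chiK h = chiK h'`.
-/
import Mathlib
import Fermat.Agent.ES.RED.Contract8
import Fermat.Agent.ES.N34.NodeAsm6

set_option autoImplicit false
set_option linter.unusedSectionVars false

noncomputable section

namespace Fermat.Agent.ES.W33.NodeCentre11

open AlgebraicCurve IsLocalRing
open Fermat.Agent.X0.FF Fermat.Agent.ES.RED.PlaceValue13 Fermat.Agent.ES.RED.Contract8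
open Fermat.Agent.ES.N34.NodalCore13 Fermat.Agent.ES.N34.NodeAsm6

variable {L : Type*} [Field L] [IsAlgClosed L] (A : ValuationSubring L)
  {FL : Type*} [Field FL] [Algebra L FL] {x : FL} (hx : IsGen L x)
  {R K F : Type*} [CommRing R] [Field K] [Field F] [Algebra R K] [Algebra K F] [Algebra R F]
  [IsScalarTower R K F]
  (ι : F →+* FL) (B : Subalgebra R F) (P : Place L FL)

/-- every element of the chart `B` is regular at `P`, with value in `A`. -/
def RegAt : Prop :=
  ∀ b ∈ B, ∃ h : ι b ∈ P.toValuationSubring, valueHom hx P ⟨ι b, h⟩ ∈ A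

variable {A hx ι B P}

/-- the value map `b ↦ (ι b)(P) ∈ A` on the level-`K` chart. -/
def evK (h : RegAt A hx ι B P) : ↥B →+* ↥A where
  toFun b := ⟨valueHom hx P ⟨ι (b : F), (h b b.2).1⟩, (h b b.2).2⟩
  map_one' := Subtype.ext (by
    show valueHom hx P ⟨ι ((1 : ↥B) : F), _⟩ = 1
    have : (⟨ι ((1 : ↥B) : F), (h 1 (1 : ↥B).2).1⟩ : ↥P.toValuationSubring) = 1 :=
      Subtype.ext (by simp)
    rw [this, map_one])
  map_mul' a b := Subtype.ext (by
    show valueHom hx P ⟨ι ((a * b : ↥B) : F), _⟩ =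
      valueHom hx P ⟨ι (a : F), (h a a.2).1⟩ * valueHom hx P ⟨ι (b : F), (h b b.2).1⟩
    rw [← map_mul]
    congr 1
    exact Subtype.ext (by simp))
  map_zero' := Subtype.ext (by
    show valueHom hx P ⟨ι ((0 : ↥B) : F), _⟩ = 0
    have : (⟨ι ((0 : ↥B) : F), (h 0 (0 : ↥B).2).1⟩ : ↥P.toValuationSubring) = 0 :=
      Subtype.ext (by simp)
    rw [this, map_zero])
  map_add' a b := Subtype.ext (by
    show valueHom hx P ⟨ι ((a + b : ↥B) : F), _⟩ =
      valueHom hx P ⟨ι (a : F), (h a a.2).1⟩ + valueHom hx P ⟨ι (b : F), (h b b.2).1⟩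
    rw [← map_add]
    congr 1
    exact Subtype.ext (by simp))

theorem coe_evK (h : RegAt A hx ι B P) (b : ↥B) :
    ((evK h b : ↥A) : L) = valueHom hx P ⟨ι (b : F), (h b b.2).1⟩ := rfl

/-- **the centre of `P` on the level-`K` chart**, as a homomorphism to the residue field. -/
def chiK (h : RegAt A hx ι B P) : ↥B →+* kA A := (resA A).comp (evK h)

theorem chiK_apply (h : RegAt A hx ι B P) (b : ↥B) : chiK h b = resA A (evK h b) := rfl

/-- **the centre of `P` on the level-`K` chart**, as an ideal. -/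
def centreK (h : RegAt A hx ι B P) : Ideal ↥B := RingHom.ker (chiK h)

theorem mem_centreK_iff (h : RegAt A hx ι B P) (b : ↥B) : b ∈ centreK h ↔ chiK h b = 0 :=
  RingHom.mem_ker

theorem mem_centreK_iff_not_isUnit (h : RegAt A hx ι B P) (b : ↥B) :
    b ∈ centreK h ↔ ¬ IsUnit (evK h b) := by
  rw [mem_centreK_iff, chiK_apply, residue_eq_zero_iff, mem_maximalIdeal, mem_nonunits_iff]

theorem not_mem_centreK_iff (h : RegAt A hx ι B P) (b : ↥B) :
    b ∉ centreK h ↔ IsUnit (evK h b) := by
  rw [mem_centreK_iff_not_isUnit, not_not]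

/-- a unit value: the value is nonzero and its inverse lies in `A`. -/
theorem isUnit_evK_iff (h : RegAt A hx ι B P) (b : ↥B) :
    IsUnit (evK h b) ↔ valueHom hx P ⟨ι (b : F), (h b b.2).1⟩ ≠ 0 ∧
      (valueHom hx P ⟨ι (b : F), (h b b.2).1⟩)⁻¹ ∈ A := by
  constructor
  · intro hu
    obtain ⟨w, hw⟩ := hu.exists_right_inv
    have hw' : ((evK h b : ↥A) : L) * (w : L) = 1 := by
      have := congrArg Subtype.val hw
      simpa using this
    rw [coe_evK] at hw'
    refine ⟨left_ne_zero_of_mul_eq_one hw', ?_⟩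
    rw [inv_eq_of_mul_eq_one_right hw']
    exact w.2
  · rintro ⟨h0, hinv⟩
    refine isUnit_iff_exists_inv.mpr ⟨⟨_, hinv⟩, ?_⟩
    apply Subtype.ext
    show ((evK h b : ↥A) : L) * _ = 1
    rw [coe_evK]
    exact mul_inv_cancel₀ h0

/-- the centre is a prime ideal. -/
theorem centreK_isPrime (h : RegAt A hx ι B P) : (centreK h).IsPrime :=
  RingHom.ker_isPrime (chiK h)

/-- **the centre is a maximal ideal**, if every nonzero element of the residue field of `A` is a
root of unity (residue fields of valuation rings of `ℚ̄` over a prime). -/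
theorem centreK_isMaximal (hk : ∀ c : kA A, c ≠ 0 → ∃ n : ℕ, 0 < n ∧ c ^ n = 1)
    (h : RegAt A hx ι B P) : (centreK h).IsMaximal := by
  rw [Ideal.isMaximal_iff]
  refine ⟨fun h1 => ?_, fun J b hJ hb hbJ => ?_⟩
  · rw [mem_centreK_iff, map_one] at h1
    exact one_ne_zero h1
  · rw [mem_centreK_iff] at hb
    obtain ⟨n, hn, hpow⟩ := hk _ hb
    have h1 : b ^ n - 1 ∈ centreK h := by
      rw [mem_centreK_iff, map_sub, map_pow, hpow, map_one, sub_self]
    have h2 : b ^ n ∈ J := by
      obtain ⟨m, rfl⟩ : ∃ m, n = m + 1 := ⟨n - 1, by omega⟩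
      rw [pow_succ]
      exact J.mul_mem_left _ hbJ
    have h3 : (1 : ↥B) = b ^ n - (b ^ n - 1) := by ring
    rw [h3]
    exact J.sub_mem h2 (hJ h1)

/-- a constant of `R` whose image in `L` is a non-unit of `A` lies in the centre. -/
theorem algebraMap_mem_centreK (h : RegAt A hx ι B P) (π : R) (c : L) (hc : c ∈ A.nonunits)
    (hπ : ι (algebraMap R F π) = algebraMap L FL c) : algebraMap R ↥B π ∈ centreK h := by
  have hcA : c ∈ A := A.nonunits_le hc
  have hval : ((evK h (algebraMap R ↥B π) : ↥A) : L) = c := by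
    rw [coe_evK]
    have : (⟨ι ((algebraMap R ↥B π : ↥B) : F), (h _ (algebraMap R ↥B π).2).1⟩ :
        ↥P.toValuationSubring) = algebraMap L ↥P.toValuationSubring c :=
      Subtype.ext (by
        show ι (algebraMap R F π) = algebraMap L FL c
        exact hπ)
    rw [this]
    exact (valueHom hx P).commutes c
  rw [mem_centreK_iff_not_isUnit]
  intro hu
  have h1 : evK h (algebraMap R ↥B π) = ⟨c, hcA⟩ := Subtype.ext hval
  rw [h1] at hu
  exact (A.mem_nonunits_iff_exists_mem_maximalIdeal.mp hc).2 |> fun hm => by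
    rw [mem_maximalIdeal, mem_nonunits_iff] at hm
    exact hm hu

/-- **`P|_K` passes through the centre of `P`**: for every place `w` of `F / K` with
`O_w = ι⁻¹ O_P`. -/
theorem thr_centreK (h : RegAt A hx ι B P) (w : Place K F)
    (hw : ∀ z : F, z ∈ w.toValuationSubring ↔ ι z ∈ P.toValuationSubring) :
    Thr B (centreK h) w := by
  refine ⟨fun b hb => (hw b).mpr (h b hb).1, fun b hb => ?_⟩
  have hinv : (ι (b : F))⁻¹ ∉ P.toValuationSubring := by
    rw [← map_inv₀]
    exact fun hmem => hb ((hw _).mpr hmem)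
  have hmem : (⟨ι (b : F), (h b b.2).1⟩ : ↥P.toValuationSubring) ∈
      maximalIdeal ↥P.toValuationSubring := by
    rw [mem_maximalIdeal, mem_nonunits_iff]
    intro hu
    apply hinv
    obtain ⟨u, hu'⟩ := hu
    have h1 : ((u⁻¹ : (↥P.toValuationSubring)ˣ) : ↥P.toValuationSubring) *
        ⟨ι (b : F), (h b b.2).1⟩ = 1 := by
      rw [← hu']; exact Units.inv_mul u
    have h2 : (((u⁻¹ : (↥P.toValuationSubring)ˣ) : ↥P.toValuationSubring) : FL) * ι (b : F) = 1 := by
      have := congrArg Subtype.val h1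
      simpa using this
    rw [← eq_inv_of_mul_eq_one_left h2]
    exact ((u⁻¹ : (↥P.toValuationSubring)ˣ) : ↥P.toValuationSubring).2
  have h0 : valueHom hx P ⟨ι (b : F), (h b b.2).1⟩ = 0 :=
    (valueHom_eq_zero_iff hx P _).mpr hmem
  rw [mem_centreK_iff, chiK_apply]
  have : evK h b = 0 := Subtype.ext (by rw [coe_evK, h0]; rfl)
  rw [this, map_zero]

/-- **the centre lies on the branch `j`** as soon as the functions of `B ∩ π O_j` have values in
`𝔪_A` at `P`. -/
theorem not_offBranch_centreK (h : RegAt A hx ι B P) (π : R) (Oj : ValuationSubring F)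
    (hvan : ∀ e : ↥B, (∃ c ∈ Oj, (e : F) = algebraMap R F π * c) → chiK h e = 0) :
    ¬ OffBranch π B Oj (centreK h) := by
  rintro ⟨e, he, hc⟩
  exact he ((mem_centreK_iff h e).mpr (hvan e hc))

/-- **the centre lies off the branch `j`**: a function of `B ∩ π O_j` with unit value at `P`. -/
theorem exists_of_offBranch_centreK (h : RegAt A hx ι B P) (π : R) (Oj : ValuationSubring F)
    (hoff : OffBranch π B Oj (centreK h)) :
    ∃ e : ↥B, (∃ c ∈ Oj, (e : F) = algebraMap R F π * c) ∧ IsUnit (evK h e) := by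
  obtain ⟨e, he, hc⟩ := hoff
  exact ⟨e, hc, (not_mem_centreK_iff h e).mp he⟩

theorem offBranch_centreK_iff (h : RegAt A hx ι B P) (π : R) (Oj : ValuationSubring F) :
    OffBranch π B Oj (centreK h) ↔
      ∃ e : ↥B, (∃ c ∈ Oj, (e : F) = algebraMap R F π * c) ∧ IsUnit (evK h e) := by
  refine ⟨exists_of_offBranch_centreK h π Oj, ?_⟩
  rintro ⟨e, hc, hu⟩
  exact ⟨e, (not_mem_centreK_iff h e).mpr hu, hc⟩

/-- two places with the same centre homomorphism have the same centre. -/
theorem centreK_eq_of_chiK_eq {P' : Place L FL} (h : RegAt A hx ι B P) (h' : RegAt A hx ι B P')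
    (heq : chiK h = chiK h') : centreK h = centreK h' := by
  unfold centreK
  rw [heq]

/-- **(T3)**: if `B = S + (B ∩ π O_j)`, both centres lie on the branch `j` and the values of the
elements of `S` at `P` and `P'` agree modulo `𝔪_A`, then `P` and `P'` have the same centre
homomorphism on `B`. -/
theorem chiK_eq_of_surj {P' : Place L FL} (h : RegAt A hx ι B P) (h' : RegAt A hx ι B P')
    (π : R) (Oj : ValuationSubring F) (S : Set F)
    (hS : ∀ y ∈ B, ∃ s ∈ S, ∃ _ : s ∈ B, ∃ c ∈ Oj, y - s = algebraMap R F π * c)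
    (hno : ¬ OffBranch π B Oj (centreK h)) (hno' : ¬ OffBranch π B Oj (centreK h'))
    (hagree : ∀ (s : F) (hs : s ∈ B), s ∈ S → chiK h ⟨s, hs⟩ = chiK h' ⟨s, hs⟩) :
    chiK h = chiK h' := by
  ext y
  obtain ⟨s, hsS, hsB, c, hc, hyc⟩ := hS y y.2
  set e : ↥B := y - ⟨s, hsB⟩ with he
  have hec : ∃ c ∈ Oj, (e : F) = algebraMap R F π * c := ⟨c, hc, hyc⟩
  have h1 : chiK h e = 0 := by
    by_contra hne
    exact hno ⟨e, fun hmem => hne ((mem_centreK_iff h e).mp hmem), hec⟩
  have h2 : chiK h' e = 0 := by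
    by_contra hne
    exact hno' ⟨e, fun hmem => hne ((mem_centreK_iff h' e).mp hmem), hec⟩
  have hy : y = e + ⟨s, hsB⟩ := by rw [he]; ring
  rw [hy, map_add, map_add, h1, h2, hagree s hsB hsS]

end Fermat.Agent.ES.W33.NodeCentre11
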