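/-
Programme W (S33), chapter (B1′), leaf (M4) "glued pairs lift", THE ABSTRACT CORE (helper19,
ruling w31; cut by helper17): **pure commutative algebra**.

`B` a commutative ring (the chart ring at a level `K`), `P₁ P₂` two ideals (the vertical primes
`𝔭_i = B ∩ π O_i` of the two components).  A NODE is a maximal ideal containing `P₁` and `P₂`.
TRANSVERSALITY at `𝔪` (`TransAt`): every `f ∈ 𝔪` has `d f ∈ P₁ + P₂` for some `d ∉ 𝔪` — this is what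
the chart form of (M3) on main delivers (`N34/NodeCoords29.exists_coords`, `nodeCoords_strong`:
`d f = a x + b y + π e`, `x ∈ P₂`, `y ∈ P₁`; `transAt_of_coords`).

* `mem_sup_of_forall_mem_node` : transversality at every node ⇒ an element lying in every node lies
  in `P₁ + P₂` (colon-ideal argument; no noetherian hypothesis, no finiteness of the set of nodes);
* `sup_eq_sInf_nodes`          : (TRANS) `P₁ + P₂ = ⋂ nodes`;
* `exists_glue`                : **`b₁ - b₂ ∈` every node ⇒ `∃ b, b - b₁ ∈ P₁ ∧ b - b₂ ∈ P₂`**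
                                 (glued pairs lift), with the converse `exists_glue_iff`;
* `exists_glue_hom`            : the same for two ring homomorphisms `ρ_i : B →+* C_i`
                                 (`P_i := ker ρ_i`): `∃ b, ρ₁ b = ρ₁ b₁ ∧ ρ₂ b = ρ₂ b₂`;
* `exists_glue_of_evals`       : nodes given by a family of evaluation maps `ev j : B →+* κ j`;
* `exists_glue_vert`           : the chart form in the vocabulary of `N34/NodeCoords29`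
                                 (`B : Subalgebra R F`, `P_i := vert π B O_i`), hypothesis = the
                                 conclusion literal of `nodeCoords_strong` at every node.
-/
import Mathlib
import Fermat.Agent.ES.N34.NodeCoords29

set_option autoImplicit false

namespace Fermat.Agent.ES.W33.GlueCRT19

section Pure

variable {B : Type*} [CommRing B]

/-- A node: a maximal ideal containing both vertical ideals. -/
def IsNode (P₁ P₂ 𝔪 : Ideal B) : Prop := 𝔪.IsMaximal ∧ P₁ ≤ 𝔪 ∧ P₂ ≤ 𝔪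

/-- Transversality at `𝔪`: `𝔪 ⊆ P₁ + P₂` up to denominators outside `𝔪`. -/
def TransAt (P₁ P₂ 𝔪 : Ideal B) : Prop := ∀ f ∈ 𝔪, ∃ d : B, d ∉ 𝔪 ∧ d * f ∈ P₁ ⊔ P₂

/-- Node coordinates (`x ∈ P₂`, `y ∈ P₁`, `π ∈ P₁ + P₂`, `𝔪 ⊆ (π, x, y)` up to denominators) give
transversality. -/
theorem transAt_of_coords {P₁ P₂ 𝔪 : Ideal B} (π : B) (hπ : π ∈ P₁ ⊔ P₂)
    (h : ∃ x y : B, x ∈ P₂ ∧ y ∈ P₁ ∧
      ∀ f ∈ 𝔪, ∃ d : B, d ∉ 𝔪 ∧ ∃ a b e : B, d * f = a * x + b * y + π * e) :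
    TransAt P₁ P₂ 𝔪 := by
  obtain ⟨x, y, hx, hy, hxy⟩ := h
  intro f hf
  obtain ⟨d, hd, a, b, e, hdf⟩ := hxy f hf
  refine ⟨d, hd, ?_⟩
  rw [hdf]
  have hx' : x ∈ P₁ ⊔ P₂ := Ideal.mem_sup_right hx
  have hy' : y ∈ P₁ ⊔ P₂ := Ideal.mem_sup_left hy
  exact Ideal.add_mem _ (Ideal.add_mem _ (Ideal.mul_mem_left _ a hx') (Ideal.mul_mem_left _ b hy'))
    (Ideal.mul_mem_right e _ hπ)

/-- The colon ideal `(I : z) = {d | d z ∈ I}`. -/
def colonIdeal (I : Ideal B) (z : B) : Ideal B where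
  carrier := {d | d * z ∈ I}
  zero_mem' := by
    show (0 : B) * z ∈ I
    rw [zero_mul]
    exact I.zero_mem
  add_mem' := by
    intro a b ha hb
    show (a + b) * z ∈ I
    rw [add_mul]
    exact I.add_mem ha hb
  smul_mem' := by
    intro c a ha
    show c • a * z ∈ I
    rw [smul_eq_mul, mul_assoc]
    exact I.mul_mem_left c ha

theorem mem_colonIdeal {I : Ideal B} {z d : B} : d ∈ colonIdeal I z ↔ d * z ∈ I := Iff.rfl

theorem le_colonIdeal (I : Ideal B) (z : B) : I ≤ colonIdeal I z := fun _ hd =>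
  I.mul_mem_right z hd

variable {P₁ P₂ : Ideal B}

/-- **Transversality at every node ⇒ what lies in every node lies in `P₁ + P₂`.** -/
theorem mem_sup_of_forall_mem_node (htrans : ∀ 𝔪 : Ideal B, IsNode P₁ P₂ 𝔪 → TransAt P₁ P₂ 𝔪)
    {z : B} (hz : ∀ 𝔪 : Ideal B, IsNode P₁ P₂ 𝔪 → z ∈ 𝔪) : z ∈ P₁ ⊔ P₂ := by
  by_contra hzI
  have hJ : colonIdeal (P₁ ⊔ P₂) z ≠ ⊤ := by
    intro htop
    have h1 : (1 : B) ∈ colonIdeal (P₁ ⊔ P₂) z := by rw [htop]; exact Submodule.mem_top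
    rw [mem_colonIdeal, one_mul] at h1
    exact hzI h1
  obtain ⟨M, hM, hJM⟩ := Ideal.exists_le_maximal _ hJ
  have hIM : P₁ ⊔ P₂ ≤ M := (le_colonIdeal _ z).trans hJM
  have hnode : IsNode P₁ P₂ M := ⟨hM, le_sup_left.trans hIM, le_sup_right.trans hIM⟩
  obtain ⟨d, hd, hdz⟩ := htrans M hnode z (hz M hnode)
  exact hd (hJM hdz)

/-- **(TRANS)**: `P₁ + P₂` is the intersection of the nodes. -/
theorem sup_eq_sInf_nodes (htrans : ∀ 𝔪 : Ideal B, IsNode P₁ P₂ 𝔪 → TransAt P₁ P₂ 𝔪) :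
    P₁ ⊔ P₂ = sInf {𝔪 : Ideal B | IsNode P₁ P₂ 𝔪} := by
  refine le_antisymm (le_sInf fun 𝔪 h𝔪 => sup_le h𝔪.2.1 h𝔪.2.2) fun z hz => ?_
  exact mem_sup_of_forall_mem_node htrans fun 𝔪 h𝔪 => (Submodule.mem_sInf.mp hz) 𝔪 h𝔪

/-- The elementary half: a difference in `P₁ + P₂` glues. -/
theorem exists_glue_of_mem_sup {b₁ b₂ : B} (h : b₁ - b₂ ∈ P₁ ⊔ P₂) :
    ∃ b : B, b - b₁ ∈ P₁ ∧ b - b₂ ∈ P₂ := by
  obtain ⟨u, hu, v, hv, huv⟩ := Submodule.mem_sup.mp h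
  refine ⟨b₁ - u, ?_, ?_⟩
  · have : b₁ - u - b₁ = -u := by ring
    rw [this]
    exact P₁.neg_mem hu
  · have : b₁ - u - b₂ = v := by linear_combination -huv
    rw [this]
    exact hv

/-- **(M4), abstract core: glued pairs lift.**  If the special fibre is transversal at every node and
`b₁`, `b₂` have the same value at every node, there is `b` congruent to `b₁` modulo `P₁` and to `b₂`
modulo `P₂`. -/
theorem exists_glue (htrans : ∀ 𝔪 : Ideal B, IsNode P₁ P₂ 𝔪 → TransAt P₁ P₂ 𝔪) (b₁ b₂ : B)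
    (hval : ∀ 𝔪 : Ideal B, IsNode P₁ P₂ 𝔪 → b₁ - b₂ ∈ 𝔪) :
    ∃ b : B, b - b₁ ∈ P₁ ∧ b - b₂ ∈ P₂ :=
  exists_glue_of_mem_sup (mem_sup_of_forall_mem_node htrans hval)

/-- The gluing condition is necessary and sufficient. -/
theorem exists_glue_iff (htrans : ∀ 𝔪 : Ideal B, IsNode P₁ P₂ 𝔪 → TransAt P₁ P₂ 𝔪) (b₁ b₂ : B) :
    (∃ b : B, b - b₁ ∈ P₁ ∧ b - b₂ ∈ P₂) ↔ ∀ 𝔪 : Ideal B, IsNode P₁ P₂ 𝔪 → b₁ - b₂ ∈ 𝔪 := by
  refine ⟨?_, exists_glue htrans b₁ b₂⟩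
  rintro ⟨b, h1, h2⟩ 𝔪 h𝔪
  have : b₁ - b₂ = (b - b₂) - (b - b₁) := by ring
  rw [this]
  exact 𝔪.sub_mem (h𝔪.2.2 h2) (h𝔪.2.1 h1)

/-- **(M4), abstract core, for two ring homomorphisms** (`P_i := ker ρ_i`, the two component
reductions of the chart ring). -/
theorem exists_glue_hom {C₁ C₂ : Type*} [CommRing C₁] [CommRing C₂] (ρ₁ : B →+* C₁)
    (ρ₂ : B →+* C₂)
    (htrans : ∀ 𝔪 : Ideal B, IsNode (RingHom.ker ρ₁) (RingHom.ker ρ₂) 𝔪 →
      TransAt (RingHom.ker ρ₁) (RingHom.ker ρ₂) 𝔪) (b₁ b₂ : B)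
    (hval : ∀ 𝔪 : Ideal B, IsNode (RingHom.ker ρ₁) (RingHom.ker ρ₂) 𝔪 → b₁ - b₂ ∈ 𝔪) :
    ∃ b : B, ρ₁ b = ρ₁ b₁ ∧ ρ₂ b = ρ₂ b₂ := by
  obtain ⟨b, h1, h2⟩ := exists_glue htrans b₁ b₂ hval
  refine ⟨b, ?_, ?_⟩
  · rw [RingHom.mem_ker, map_sub, sub_eq_zero] at h1
    exact h1
  · rw [RingHom.mem_ker, map_sub, sub_eq_zero] at h2
    exact h2

/-- **(M4), abstract core, nodes given by evaluation maps**: every node contains the kernel of one
of the evaluations `ev j` (the dictionary "maximal ideals over `P₁ + P₂` ↔ node places"), and `b₁`,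
`b₂` have equal values at every `j`. -/
theorem exists_glue_of_evals {ι : Type*} {κ : ι → Type*} [∀ j, CommRing (κ j)]
    (ev : ∀ j, B →+* κ j)
    (hcover : ∀ 𝔪 : Ideal B, IsNode P₁ P₂ 𝔪 → ∃ j, RingHom.ker (ev j) ≤ 𝔪)
    (htrans : ∀ 𝔪 : Ideal B, IsNode P₁ P₂ 𝔪 → TransAt P₁ P₂ 𝔪) (b₁ b₂ : B)
    (hval : ∀ j, ev j b₁ = ev j b₂) : ∃ b : B, b - b₁ ∈ P₁ ∧ b - b₂ ∈ P₂ := by
  refine exists_glue htrans b₁ b₂ fun 𝔪 h𝔪 => ?_
  obtain ⟨j, hj⟩ := hcover 𝔪 h𝔪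
  apply hj
  rw [RingHom.mem_ker, map_sub, hval j, sub_self]

end Pure

section Chart

open Fermat.Agent.ES.N34.NodeCoords29

variable {R F : Type*} [CommRing R] [Field F] [Algebra R F]

theorem algebraMap_pi_mem_vert (π : R) (B : Subalgebra R F) (O : ValuationSubring F)
    (leO : ∀ x ∈ B, x ∈ O) : algebraMap R B π ∈ vert π B O leO :=
  ⟨1, O.one_mem, by rw [mul_one]; rfl⟩

/-- **(M4), chart form** in the vocabulary of `N34/NodeCoords29`: if every maximal ideal of the chart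
`B` lying on both components has node coordinates (the conclusion literal of `nodeCoords_strong`),
then two elements of `B` with the same value at every such maximal ideal are glued by an element of
`B`: `b ≡ b₁ mod π O₁`, `b ≡ b₂ mod π O₂`. -/
theorem exists_glue_vert (π : R) (B : Subalgebra R F) (O1 O2 : ValuationSubring F)
    (leO1 : ∀ x ∈ B, x ∈ O1) (leO2 : ∀ x ∈ B, x ∈ O2)
    (hnode : ∀ 𝔪 : Ideal B, 𝔪.IsMaximal → vert π B O1 leO1 ≤ 𝔪 → vert π B O2 leO2 ≤ 𝔪 →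
      ∃ x y : B, (∃ o ∈ O2, (x : F) = algebraMap R F π * o) ∧
        (∃ o ∈ O1, (y : F) = algebraMap R F π * o) ∧
        (∃ e : B, x * y = algebraMap R B π * e) ∧
        ∀ f ∈ 𝔪, ∃ d : B, d ∉ 𝔪 ∧ ∃ a b e : B, d * f = a * x + b * y + algebraMap R B π * e)
    (b₁ b₂ : B)
    (hval : ∀ 𝔪 : Ideal B, 𝔪.IsMaximal → vert π B O1 leO1 ≤ 𝔪 → vert π B O2 leO2 ≤ 𝔪 →
      b₁ - b₂ ∈ 𝔪) :
    ∃ b : B, (∃ o ∈ O1, (b : F) - (b₁ : F) = algebraMap R F π * o) ∧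
      ∃ o ∈ O2, (b : F) - (b₂ : F) = algebraMap R F π * o := by
  have htrans : ∀ 𝔪 : Ideal B, IsNode (vert π B O1 leO1) (vert π B O2 leO2) 𝔪 →
      TransAt (vert π B O1 leO1) (vert π B O2 leO2) 𝔪 := by
    rintro 𝔪 ⟨hmax, h1, h2⟩
    obtain ⟨x, y, hx, hy, -, hxy⟩ := hnode 𝔪 hmax h1 h2
    exact transAt_of_coords (algebraMap R B π)
      (Ideal.mem_sup_left (algebraMap_pi_mem_vert π B O1 leO1)) ⟨x, y, hx, hy, hxy⟩
  obtain ⟨b, ⟨o1, ho1, h1⟩, ⟨o2, ho2, h2⟩⟩ :=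
    exists_glue htrans b₁ b₂ fun 𝔪 h𝔪 => hval 𝔪 h𝔪.1 h𝔪.2.1 h𝔪.2.2
  exact ⟨b, ⟨o1, ho1, by rw [← h1]; rfl⟩, ⟨o2, ho2, by rw [← h2]; rfl⟩⟩

end Chart

end Fermat.Agent.ES.W33.GlueCRT19
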