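/-
Programme W (S33), chapter (B1′), leaf (M4) `SurjPropN` — helper17.
**Piece B: base change `κ → k` of the glued lifting property** (pure linear algebra).

`R → κ` onto (the residue map of the DVR of level `K`), `κ ⊂ k` fields (`k` the residue field of
`A ≤ ℚ̄`), `B` an `R`-algebra (the chart of level `K`), `ρ₁ : B → F₁`, `ρ₂ : B → F₂` ring
homomorphisms into two function fields over `k`, semilinear along `R → κ → k` (the reductions to the
two components of the special fibre), `N` the nodes.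

* `hRV₁`, `hRV₂` : RATIONAL NODES — the node values of `ρ_i b` lie in `κ`;
* `hKL` : level-`K` glued pairs lift (Piece A, `Transv19.glued_lift_K`).

**`exists_common_span`** : if `f_i` is in the `k`-span of `ρ_i (B)` (`i = 1, 2`) and `(f₁, f₂)` is
glued at every node, then `f₁ = ∑ ω_l • ρ₁ b_l` and `f₂ = ∑ ω_l • ρ₂ b_l` with COMMON `ω_l ∈ k`,
`b_l ∈ B`.  (The instance then takes `f := ∑ a_l • bc (b_l)`, `a_l ∈ A` lifting `ω_l`.)

Proof: write both `f_i` over a common `κ`-basis `(e_l)` of the `κ`-span of all coefficients; the node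
values of the `ρ_i b` lie in `κ`, so the `κ`-independence of `(e_l)` splits the glue condition
termwise, and `hKL` applies to each term.
-/
import Mathlib
import Fermat.Agent.ES.W33.NodalCech17

set_option autoImplicit false
set_option linter.unusedSectionVars false
set_option linter.style.haveILetI false

open AlgebraicCurve

noncomputable section

namespace Fermat.Agent.ES.W33.GluedLift17

open Fermat.Agent.ES.W33.XiIfaceN29 Fermat.Agent.ES.W33.ValAt29 Fermat.Agent.ES.W33.NodalCech17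

variable {R B κ k : Type*} [CommRing R] [CommRing B] [Algebra R B] [Field κ] [Field k]
  [Algebra κ k]

/-! ### rewriting a `k`-combination over a `κ`-basis of the coefficients -/

section Rewrite

variable {F : Type*} [Field F] [Algebra k F] (res : R →+* κ) (hres : Function.Surjective res)
  (ρ : B →+* F) (hρ : ∀ (r : R) (b : B), ρ (r • b) = algebraMap κ k (res r) • ρ b)

include hres hρ in
/-- a `k`-combination of elements of `ρ (B)` whose coefficients lie in the `κ`-span of a family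
`e` is a combination of elements of `ρ (B)` with coefficients `e_l`. -/
theorem exists_rewrite {r : ℕ} (e : Fin r → k) {m : ℕ} (ω : Fin m → k) (b : Fin m → B)
    (hω : ∀ i, ω i ∈ Submodule.span κ (Set.range e)) :
    ∃ b' : Fin r → B, ∑ i, ω i • ρ (b i) = ∑ l, e l • ρ (b' l) := by
  classical
  have hc : ∀ i, ∃ c : Fin r → κ, ω i = ∑ l, c l • e l := fun i => by
    obtain ⟨c, hc⟩ := (Submodule.mem_span_range_iff_exists_fun κ).mp (hω i)
    exact ⟨c, hc.symm⟩
  choose c hc using hc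
  have hlift : ∀ (i : Fin m) (l : Fin r), ∃ a : R, res a = c i l := fun i l => hres (c i l)
  choose a ha using hlift
  refine ⟨fun l => ∑ i, a i l • b i, ?_⟩
  have h1 : ∀ l, ρ (∑ i, a i l • b i) = ∑ i, algebraMap κ k (c i l) • ρ (b i) := fun l => by
    rw [map_sum]
    exact Finset.sum_congr rfl fun i _ => by rw [hρ, ha]
  calc ∑ i, ω i • ρ (b i) = ∑ i, ∑ l, (e l * algebraMap κ k (c i l)) • ρ (b i) := by
        refine Finset.sum_congr rfl fun i _ => ?_
        rw [← Finset.sum_smul]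
        congr 1
        rw [hc i]
        exact Finset.sum_congr rfl fun l _ => by rw [Algebra.smul_def, mul_comm]
    _ = ∑ l, ∑ i, (e l * algebraMap κ k (c i l)) • ρ (b i) := Finset.sum_comm
    _ = ∑ l, e l • ρ (∑ i, a i l • b i) := by
        refine Finset.sum_congr rfl fun l _ => ?_
        rw [h1 l, Finset.smul_sum]
        exact Finset.sum_congr rfl fun i _ => by rw [smul_smul]

end Rewrite

/-! ### the base change -/

section Main

variable {F₁ F₂ : Type*} [Field F₁] [Algebra k F₁] [Field F₂] [Algebra k F₂] {s : ℕ}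
  (N : Nodes k F₁ F₂ s) (res : R →+* κ) (hres : Function.Surjective res)
  (ρ₁ : B →+* F₁) (ρ₂ : B →+* F₂)
  (hρ₁ : ∀ (r : R) (b : B), ρ₁ (r • b) = algebraMap κ k (res r) • ρ₁ b)
  (hρ₂ : ∀ (r : R) (b : B), ρ₂ (r • b) = algebraMap κ k (res r) • ρ₂ b)
  (hRV₁ : ∀ (b : B) (j : Fin s), ∃ c : κ, ValAt (N.ν₁ j) (ρ₁ b) (algebraMap κ k c))
  (hRV₂ : ∀ (b : B) (j : Fin s), ∃ c : κ, ValAt (N.ν₂ j) (ρ₂ b) (algebraMap κ k c))
  (hKL : ∀ b₁ b₂ : B, (∀ j, N.GluedAt (ρ₁ b₁, ρ₂ b₂) j) →
    ∃ b : B, ρ₁ b = ρ₁ b₁ ∧ ρ₂ b = ρ₂ b₂)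

include hres hρ₁ hρ₂ hRV₁ hRV₂ hKL in
/-- **glued pairs in the `k`-spans of `ρ₁ (B)`, `ρ₂ (B)` are COMMON `k`-combinations.** -/
theorem exists_common_span {f₁ : F₁} {f₂ : F₂}
    (h₁ : ∃ (m : ℕ) (ω : Fin m → k) (b : Fin m → B), f₁ = ∑ l, ω l • ρ₁ (b l))
    (h₂ : ∃ (m : ℕ) (ω : Fin m → k) (b : Fin m → B), f₂ = ∑ l, ω l • ρ₂ (b l))
    (hgl : ∀ j, N.GluedAt (f₁, f₂) j) :
    ∃ (m : ℕ) (ω : Fin m → k) (b : Fin m → B),
      f₁ = ∑ l, ω l • ρ₁ (b l) ∧ f₂ = ∑ l, ω l • ρ₂ (b l) := by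
  classical
  obtain ⟨m₁, ω₁, b₁, hf₁⟩ := h₁
  obtain ⟨m₂, ω₂, b₂, hf₂⟩ := h₂
  -- a common `κ`-basis of the coefficients
  set V : Submodule κ k := Submodule.span κ (Set.range ω₁ ∪ Set.range ω₂) with hV
  haveI : FiniteDimensional κ ↥V :=
    FiniteDimensional.span_of_finite κ ((Set.finite_range ω₁).union (Set.finite_range ω₂))
  set r := Module.finrank κ ↥V with hr
  let eb : Module.Basis (Fin r) κ ↥V := Module.finBasis κ ↥V
  set e : Fin r → k := fun l => ((eb l : ↥V) : k) with he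
  have hspan : Submodule.span κ (Set.range e) = V := by
    have h1 : Set.range e = V.subtype '' Set.range eb := by
      rw [← Set.range_comp]; rfl
    rw [h1, ← Submodule.map_span, eb.span_eq, Submodule.map_top, Submodule.range_subtype]
  have hli : LinearIndependent κ e :=
    eb.linearIndependent.map' V.subtype (Submodule.ker_subtype V)
  have hω₁ : ∀ i, ω₁ i ∈ Submodule.span κ (Set.range e) := fun i => by
    rw [hspan]; exact Submodule.subset_span (Or.inl ⟨i, rfl⟩)
  have hω₂ : ∀ i, ω₂ i ∈ Submodule.span κ (Set.range e) := fun i => by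
    rw [hspan]; exact Submodule.subset_span (Or.inr ⟨i, rfl⟩)
  obtain ⟨b₁', hb₁'⟩ := exists_rewrite res hres ρ₁ hρ₁ e ω₁ b₁ hω₁
  obtain ⟨b₂', hb₂'⟩ := exists_rewrite res hres ρ₂ hρ₂ e ω₂ b₂ hω₂
  rw [hb₁'] at hf₁
  rw [hb₂'] at hf₂
  -- the node values
  choose v₁ hv₁ using fun l j => hRV₁ (b₁' l) j
  choose v₂ hv₂ using fun l j => hRV₂ (b₂' l) j
  have hval₁ : ∀ j, ValAt (N.ν₁ j) f₁ (∑ l, e l * algebraMap κ k (v₁ l j)) := fun j => by
    rw [hf₁]
    exact valAt_sum _ _ _ fun l _ => valAt_smul (e l) (hv₁ l j)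
  have hval₂ : ∀ j, ValAt (N.ν₂ j) f₂ (∑ l, e l * algebraMap κ k (v₂ l j)) := fun j => by
    rw [hf₂]
    exact valAt_sum _ _ _ fun l _ => valAt_smul (e l) (hv₂ l j)
  have hveq : ∀ l j, v₁ l j = v₂ l j := by
    intro l j
    obtain ⟨c, hc1, hc2⟩ := hgl j
    have h1 : ∑ l, e l * algebraMap κ k (v₁ l j) = ∑ l, e l * algebraMap κ k (v₂ l j) :=
      (ValAt.unique (hval₁ j) hc1).trans (ValAt.unique (hval₂ j) hc2).symm
    have h2 : ∑ l, (v₁ l j - v₂ l j) • e l = 0 := by
      have h3 : ∀ l, (v₁ l j - v₂ l j) • e l =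
          e l * algebraMap κ k (v₁ l j) - e l * algebraMap κ k (v₂ l j) := fun l => by
        rw [Algebra.smul_def, map_sub]; ring
      rw [Finset.sum_congr rfl fun l _ => h3 l, Finset.sum_sub_distrib, h1, sub_self]
    have h4 := (Fintype.linearIndependent_iff.mp hli) (fun l => v₁ l j - v₂ l j) h2 l
    exact sub_eq_zero.mp h4
  -- lift termwise
  have hterm : ∀ l, ∃ b : B, ρ₁ b = ρ₁ (b₁' l) ∧ ρ₂ b = ρ₂ (b₂' l) := fun l =>
    hKL (b₁' l) (b₂' l) fun j => ⟨algebraMap κ k (v₁ l j), hv₁ l j, by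
      rw [hveq l j]; exact hv₂ l j⟩
  choose b hb using hterm
  refine ⟨r, e, b, ?_, ?_⟩
  · rw [hf₁]
    exact Finset.sum_congr rfl fun l _ => by rw [(hb l).1]
  · rw [hf₂]
    exact Finset.sum_congr rfl fun l _ => by rw [(hb l).2]

end Main

end Fermat.Agent.ES.W33.GluedLift17
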