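/-
Programme W (S33), chapter (B1′), leaf (M4) `SurjPropN` — helper17.
**The abstract form of `SurjPropN`: Piece A (`GlueCRT19`, ideal theory at level `K`) ∘ node
dictionary ∘ Piece B (`GluedLift17`, base change `κ → k`).**

`B` the chart ring of level `K`, `ρ₁ ρ₂ : B →+* F_i` the reductions to the two components,
`N` the nodes (places `ν₁ j`, `ν₂ j` of `F₁`, `F₂` over `k`).

* `hG`  : chart elements are glued at every node (`Reg01PropN13` / `RedCtxN.glue`);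
* `hD`  : NODE DICTIONARY — every maximal ideal of `B` containing `ker ρ₁` and `ker ρ₂` is the
          vanishing ideal of some node `j`: `ρ₁ b` vanishes at `ν₁ j` ⇒ `b ∈ 𝔪`;
* `htrans` : transversality at every such maximal ideal (`GlueCRT19.transAt_of_coords` applied to
          main's `NodeCoords29.nodeCoords_strong`);
* `hRV₁` : RATIONAL NODES — the value of `ρ₁ b` at `ν₁ j` lies in `κ`.

* `glued_lift_K` : level-`K` glued pairs lift: `(ρ₁ b₁, ρ₂ b₂)` glued ⇒ `∃ b, ρ₁ b = ρ₁ b₁ ∧ ρ₂ b = ρ₂ b₂`;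
* `rational_snd` : `hRV₂` from `hRV₁` and `hG`;
* **`exists_common_span_of_nodes`** : a glued pair `(f₁, f₂)` with `f_i` in the `k`-span of `ρ_i (B)`
  is a COMMON `k`-combination `f_i = ∑ ω_l • ρ_i (b_l)`.
-/
import Mathlib
import Fermat.Agent.ES.W33.GlueCRT19
import Fermat.Agent.ES.W33.GluedLift17

set_option autoImplicit false
set_option linter.unusedSectionVars false

open AlgebraicCurve

noncomputable section

namespace Fermat.Agent.ES.W33.GluedLiftK17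

open Fermat.Agent.ES.W33.XiIfaceN29 Fermat.Agent.ES.W33.ValAt29 Fermat.Agent.ES.W33.NodalCech17
  Fermat.Agent.ES.W33.GlueCRT19 Fermat.Agent.ES.W33.GluedLift17

variable {B k F₁ F₂ : Type*} [CommRing B] [Field k] [Field F₁] [Algebra k F₁] [Field F₂]
  [Algebra k F₂] {s : ℕ} (N : Nodes k F₁ F₂ s) (ρ₁ : B →+* F₁) (ρ₂ : B →+* F₂)
  (hG : ∀ (b : B) (j : Fin s), N.GluedAt (ρ₁ b, ρ₂ b) j)
  (hD : ∀ 𝔪 : Ideal B, IsNode (RingHom.ker ρ₁) (RingHom.ker ρ₂) 𝔪 →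
    ∃ j : Fin s, ∀ b : B, ValAt (N.ν₁ j) (ρ₁ b) 0 → b ∈ 𝔪)
  (htrans : ∀ 𝔪 : Ideal B, IsNode (RingHom.ker ρ₁) (RingHom.ker ρ₂) 𝔪 →
    TransAt (RingHom.ker ρ₁) (RingHom.ker ρ₂) 𝔪)

include hG hD htrans in
/-- **level-`K` glued pairs lift.** -/
theorem glued_lift_K (b₁ b₂ : B) (hgl : ∀ j, N.GluedAt (ρ₁ b₁, ρ₂ b₂) j) :
    ∃ b : B, ρ₁ b = ρ₁ b₁ ∧ ρ₂ b = ρ₂ b₂ := by
  refine exists_glue_hom ρ₁ ρ₂ htrans b₁ b₂ fun 𝔪 h𝔪 => ?_
  obtain ⟨j, hj⟩ := hD 𝔪 h𝔪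
  apply hj
  obtain ⟨c, hc1, hc2⟩ := hgl j
  obtain ⟨c', hc1', hc2'⟩ := hG b₂ j
  have hcc : c = c' := ValAt.unique hc2 hc2'
  have h := ValAt.sub' hc1 hc1'
  rw [hcc, sub_self] at h
  rw [map_sub]
  exact h

variable {R κ : Type*} [CommRing R] [Algebra R B] [Field κ] [Algebra κ k]

include hG in
/-- the node values on the second branch are rational if those on the first branch are. -/
theorem rational_snd
    (hRV₁ : ∀ (b : B) (j : Fin s), ∃ c : κ, ValAt (N.ν₁ j) (ρ₁ b) (algebraMap κ k c))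
    (b : B) (j : Fin s) : ∃ c : κ, ValAt (N.ν₂ j) (ρ₂ b) (algebraMap κ k c) := by
  obtain ⟨c, hc1, hc2⟩ := hG b j
  obtain ⟨c₀, hc₀⟩ := hRV₁ b j
  have : c = algebraMap κ k c₀ := ValAt.unique hc1 hc₀
  exact ⟨c₀, this ▸ hc2⟩

include hG hD htrans in
/-- **the abstract `SurjPropN`**: a glued pair in the `k`-spans of `ρ₁ (B)`, `ρ₂ (B)` is a COMMON
`k`-combination of `(ρ₁ b_l, ρ₂ b_l)`. -/
theorem exists_common_span_of_nodes (res : R →+* κ) (hres : Function.Surjective res)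
    (hρ₁ : ∀ (r : R) (b : B), ρ₁ (r • b) = algebraMap κ k (res r) • ρ₁ b)
    (hρ₂ : ∀ (r : R) (b : B), ρ₂ (r • b) = algebraMap κ k (res r) • ρ₂ b)
    (hRV₁ : ∀ (b : B) (j : Fin s), ∃ c : κ, ValAt (N.ν₁ j) (ρ₁ b) (algebraMap κ k c))
    {f₁ : F₁} {f₂ : F₂}
    (h₁ : ∃ (m : ℕ) (ω : Fin m → k) (b : Fin m → B), f₁ = ∑ l, ω l • ρ₁ (b l))
    (h₂ : ∃ (m : ℕ) (ω : Fin m → k) (b : Fin m → B), f₂ = ∑ l, ω l • ρ₂ (b l))
    (hgl : ∀ j, N.GluedAt (f₁, f₂) j) :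
    ∃ (m : ℕ) (ω : Fin m → k) (b : Fin m → B),
      f₁ = ∑ l, ω l • ρ₁ (b l) ∧ f₂ = ∑ l, ω l • ρ₂ (b l) :=
  exists_common_span N res hres ρ₁ ρ₂ hρ₁ hρ₂ hRV₁ (rational_snd N ρ₁ ρ₂ hG hRV₁)
    (glued_lift_K N ρ₁ ρ₂ hG hD htrans) h₁ h₂ hgl

end Fermat.Agent.ES.W33.GluedLiftK17
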