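/-
Programme W (S33), chapter B1' (`h¹` of the twisted Čech complex of the NODAL fibre), leaf (M4)
`SurjPropN`, piece **(C6) ASSEMBLY** (helper17's cut; ruling w42), helper24.

For a chart `Bc` of level `K` (a subalgebra of `K·F_{M' p}` over `R = A ∩ K` whose base change lies
in `GN`; `Bc = chart R tK` resp. `chart R tK⁻¹`):
* `bcG Bc hB : ↥Bc →+* ↥GN`, `rhoK1 Bc hB, rhoK2 Bc hB : ↥Bc →+* Ft M' A` : the two component
  reductions `b ↦ (redN (bc b)).i` as RING HOMOMORPHISMS — **the objects against which the named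
  inputs (C1) `htrans`, (C2) `hD`, (C4) `hRV₁`, (C5) `hspan` are stated**;
* `rhoK_smul₁/₂` : semilinearity along `R → κ → k̄`;
* `exists_lift_sum` : `∑ ω_l • (ρ₁ b_l, ρ₂ b_l) = redN f` with `f := ∑ â_l • bc (b_l)` in the
  `A`-span of `bc (Bc)`;
* **`exists_lift_of_glued`** : helper17's `GluedLiftK17.exists_common_span_of_nodes` + the lift:
  every glued pair whose components lie in the `k̄`-spans of `ρ_i (Bc)` is `redN f`,
  `f ∈ spanA (Bc) ∩ GN`;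
* **`surjPropN_of`** : `CechIfaceN24.SurjPropN N` from the named inputs at the two charts.
Everything is GENERIC in the nodes `{s} (N : Nodes k̄ Ft Ft s)`; only the function-level names of
`NodalDefs3` (`GN`, `redN`) and `NodalGauss3.const_mem_GN / redN_const` are used.
-/
import Mathlib
import Fermat.Agent.ES.W33.CechIfaceN24
import Fermat.Agent.ES.W33.GluedLiftK17
import Fermat.Agent.ES.W33.NodalGauss3

set_option autoImplicit false
set_option linter.unusedSectionVars false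
set_option linter.dupNamespace false
set_option linter.style.haveILetI false
set_option synthInstance.maxHeartbeats 400000
set_option maxHeartbeats 1000000

open AlgebraicCurve ModularCurve IntermediateField HahnSeries

noncomputable section

namespace Fermat.Agent.ES.W33.SurjAsmN24

open Fermat.Agent.RED.Interface4 Fermat.Agent.RED.DESC.PlaceExtend27
  Fermat.Agent.RED.DESC.NumberFieldDVR27
  Fermat.Agent.RED.PUR.ChartGeneric22 Fermat.Agent.RED.PUR.GaussGen8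
  Fermat.Agent.RED.BASE.Interface12 Fermat.Agent.RED.BASE.Hauptmodul12
  Fermat.Agent.ES.RED.Contract8 Fermat.Agent.ES.RED.ModelInst4
  Fermat.Agent.ES.V19.CechIface12
  Fermat.Agent.ES.W33.XiIfaceN29 Fermat.Agent.ES.W33.ValAt29 Fermat.Agent.ES.W33.NodalDefs3
  Fermat.Agent.ES.W33.NodalCech17 Fermat.Agent.ES.W33.GlueCRT19 Fermat.Agent.ES.W33.CechIfaceN24

variable (M' : ℕ) [NeZero M'] (p : ℕ) [Fact p.Prime] (A : ValuationSubring Qbar)
  (K : IntermediateField ℚ Qbar)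

/-! ### the component reductions of a chart of level `K` as ring homomorphisms -/

section Chart

variable (Bc : Subalgebra ↥(AK A K) ↥(FK (M' * p) K))
  (hB : ∀ b ∈ Bc, baseChangeHom (M' * p) K b ∈ GN M' p A)

/-- base change `Bc → GN`. -/
def bcG : ↥Bc →+* ↥(GN M' p A) :=
  ((baseChangeHom (M' * p) K).comp Bc.val.toRingHom).codRestrict (GN M' p A)
    fun b => hB (b : ↥(FK (M' * p) K)) b.2

theorem coe_bcG (b : ↥Bc) :
    ((bcG M' p A K Bc hB b : ↥(GN M' p A)) : ↥(Fbar (M' * p))) =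
      baseChangeHom (M' * p) K (b : ↥(FK (M' * p) K)) := rfl

/-- first component of the pair reduction on the chart. -/
def rhoK1 : ↥Bc →+* Ft M' A :=
  (RingHom.fst (Ft M' A) (Ft M' A)).comp ((redN M' p A).comp (bcG M' p A K Bc hB))

/-- second component of the pair reduction on the chart. -/
def rhoK2 : ↥Bc →+* Ft M' A :=
  (RingHom.snd (Ft M' A) (Ft M' A)).comp ((redN M' p A).comp (bcG M' p A K Bc hB))

theorem rhoK1_apply (b : ↥Bc) :
    rhoK1 M' p A K Bc hB b = (redN M' p A (bcG M' p A K Bc hB b)).1 := rfl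

theorem rhoK2_apply (b : ↥Bc) :
    rhoK2 M' p A K Bc hB b = (redN M' p A (bcG M' p A K Bc hB b)).2 := rfl

theorem redN_bcG (b : ↥Bc) :
    redN M' p A (bcG M' p A K Bc hB b) = (rhoK1 M' p A K Bc hB b, rhoK2 M' p A K Bc hB b) := rfl

variable {M' p A K}

/-- constants of `A` in `GN`. -/
def constGN (a : ↥A) : ↥(GN M' p A) :=
  ⟨algebraMap Qbar ↥(Fbar (M' * p)) (a : Qbar),
    Fermat.Agent.ES.W33.NodalGauss3.const_mem_GN M' p A a⟩

theorem redN_constGN (a : ↥A) :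
    redN M' p A (constGN (M' := M') (p := p) a) =
      (algebraMap (kA A) (Ft M' A) (resA A a), algebraMap (kA A) (Ft M' A) (resA A a)) :=
  Fermat.Agent.ES.W33.NodalGauss3.redN_const M' p A a

variable {Bc}

/-- `r • b` base changes to `const (incl r) * bc b`. -/
theorem bcG_smul (r : ↥(AK A K)) (b : ↥Bc) :
    bcG M' p A K Bc hB (r • b) = constGN (incl A K r) * bcG M' p A K Bc hB b := by
  apply Subtype.ext
  show baseChangeHom (M' * p) K ((r • b : ↥Bc) : ↥(FK (M' * p) K)) =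
    algebraMap Qbar ↥(Fbar (M' * p)) ((incl A K r : ↥A) : Qbar) *
      baseChangeHom (M' * p) K (b : ↥(FK (M' * p) K))
  have h1 : ((r • b : ↥Bc) : ↥(FK (M' * p) K)) =
      algebraMap ↥(AK A K) ↥(FK (M' * p) K) r * (b : ↥(FK (M' * p) K)) := by
    rw [← Algebra.smul_def]; rfl
  rw [h1, map_mul, Fermat.Agent.ES.RED.ChartUnion1.baseChangeHom_algebraMap_AK A (M' * p) K r]
  rfl

theorem rhoK_smul₁ (r : ↥(AK A K)) (b : ↥Bc) :
    rhoK1 M' p A K Bc hB (r • b) =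
      algebraMap (kA A) (Ft M' A) (resMap A K (res0 (AK A K) r)) * rhoK1 M' p A K Bc hB b := by
  rw [rhoK1_apply, bcG_smul hB, map_mul, redN_constGN, Prod.fst_mul, resMap_residue]
  rfl

theorem rhoK_smul₂ (r : ↥(AK A K)) (b : ↥Bc) :
    rhoK2 M' p A K Bc hB (r • b) =
      algebraMap (kA A) (Ft M' A) (resMap A K (res0 (AK A K) r)) * rhoK2 M' p A K Bc hB b := by
  rw [rhoK2_apply, bcG_smul hB, map_mul, redN_constGN, Prod.snd_mul, resMap_residue]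
  rfl

/-! ### lifting a `k̄`-combination -/

/-- a `k̄`-combination of pair reductions of chart elements is the pair reduction of an element of
the `A`-span of the chart. -/
theorem exists_lift_sum {m : ℕ} (ω : Fin m → kA A) (b : Fin m → ↥Bc) :
    ∃ f ∈ spanA A (M' * p) K (Bc : Set ↥(FK (M' * p) K)), ∃ hf : f ∈ GN M' p A,
      redN M' p A ⟨f, hf⟩ =
        (∑ l, ω l • rhoK1 M' p A K Bc hB (b l), ∑ l, ω l • rhoK2 M' p A K Bc hB (b l)) := by
  classical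
  have hlift : ∀ l, ∃ a : ↥A, resA A a = ω l := fun l => IsLocalRing.residue_surjective (ω l)
  choose a ha using hlift
  let g : Fin m → ↥(GN M' p A) := fun l => constGN (a l) * bcG M' p A K Bc hB (b l)
  refine ⟨((∑ l, g l : ↥(GN M' p A)) : ↥(Fbar (M' * p))), ?_, (∑ l, g l).2, ?_⟩
  · rw [AddSubmonoidClass.coe_finsetSum]
    refine Submodule.sum_mem _ fun l _ => ?_
    have h1 : ((g l : ↥(GN M' p A)) : ↥(Fbar (M' * p))) =
        a l • baseChangeHom (M' * p) K ((b l : ↥Bc) : ↥(FK (M' * p) K)) := rfl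
    rw [h1]
    exact Submodule.smul_mem _ _ (Submodule.subset_span ⟨((b l : ↥Bc) : ↥(FK (M' * p) K)),
      (b l).2, rfl⟩)
  · have h2 : (⟨((∑ l, g l : ↥(GN M' p A)) : ↥(Fbar (M' * p))), (∑ l, g l).2⟩ : ↥(GN M' p A)) =
        ∑ l, g l := rfl
    rw [h2, map_sum]
    have h3 : ∀ l, redN M' p A (g l) =
        (ω l • rhoK1 M' p A K Bc hB (b l), ω l • rhoK2 M' p A K Bc hB (b l)) := fun l => by
      show redN M' p A (constGN (a l) * bcG M' p A K Bc hB (b l)) = _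
      rw [map_mul, redN_constGN, redN_bcG, ha l, Prod.mk_mul_mk, Algebra.smul_def,
        Algebra.smul_def]
    rw [Finset.sum_congr rfl fun l _ => h3 l]
    exact Prod.ext (by rw [Prod.fst_sum]) (by rw [Prod.snd_sum])

/-! ### glued pairs lift -/

/-- **(M4), one chart.**  A glued pair whose components lie in the `k̄`-spans of `ρ₁ (Bc)`,
`ρ₂ (Bc)` is the pair reduction of an element of the `A`-span of `bc (Bc)`. -/
theorem exists_lift_of_glued {s : ℕ} (N : Nodes (kA A) (Ft M' A) (Ft M' A) s)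
    (hG : ∀ (b : ↥Bc) (j : Fin s),
      N.GluedAt (rhoK1 M' p A K Bc hB b, rhoK2 M' p A K Bc hB b) j)
    (hD : ∀ 𝔪 : Ideal ↥Bc,
      IsNode (RingHom.ker (rhoK1 M' p A K Bc hB)) (RingHom.ker (rhoK2 M' p A K Bc hB)) 𝔪 →
        ∃ j : Fin s, ∀ b : ↥Bc, ValAt (N.ν₁ j) (rhoK1 M' p A K Bc hB b) 0 → b ∈ 𝔪)
    (htrans : ∀ 𝔪 : Ideal ↥Bc,
      IsNode (RingHom.ker (rhoK1 M' p A K Bc hB)) (RingHom.ker (rhoK2 M' p A K Bc hB)) 𝔪 →
        TransAt (RingHom.ker (rhoK1 M' p A K Bc hB)) (RingHom.ker (rhoK2 M' p A K Bc hB)) 𝔪)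
    (hRV₁ : ∀ (b : ↥Bc) (j : Fin s), ∃ c : Res (AK A K),
      ValAt (N.ν₁ j) (rhoK1 M' p A K Bc hB b) (resMap A K c))
    {fb : Ft M' A × Ft M' A}
    (h₁ : ∃ (m : ℕ) (ω : Fin m → kA A) (b : Fin m → ↥Bc),
      fb.1 = ∑ l, ω l • rhoK1 M' p A K Bc hB (b l))
    (h₂ : ∃ (m : ℕ) (ω : Fin m → kA A) (b : Fin m → ↥Bc),
      fb.2 = ∑ l, ω l • rhoK2 M' p A K Bc hB (b l))
    (hgl : ∀ j, N.GluedAt fb j) :
    ∃ f ∈ spanA A (M' * p) K (Bc : Set ↥(FK (M' * p) K)), ∃ hf : f ∈ GN M' p A,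
      redN M' p A ⟨f, hf⟩ = fb := by
  letI : Algebra (Res (AK A K)) (kA A) := (resMap A K).toAlgebra
  obtain ⟨m, ω, b, hf₁, hf₂⟩ :=
    Fermat.Agent.ES.W33.GluedLiftK17.exists_common_span_of_nodes
      N (rhoK1 M' p A K Bc hB) (rhoK2 M' p A K Bc hB) hG hD htrans
      (res0 (AK A K)) IsLocalRing.residue_surjective
      (fun r b => by rw [rhoK_smul₁ hB r b, Algebra.smul_def]; rfl)
      (fun r b => by rw [rhoK_smul₂ hB r b, Algebra.smul_def]; rfl)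
      hRV₁ (f₁ := fb.1) (f₂ := fb.2) h₁ h₂ hgl
  obtain ⟨f, hfS, hfG, hred⟩ := exists_lift_sum hB ω b
  exact ⟨f, hfS, hfG, by rw [hred, ← hf₁, ← hf₂]⟩

end Chart

/-! ### (M4) `SurjPropN` -/

section Surj

variable {M' p A K}
variable {tK : ↥(FK (M' * p) K)} {s : ℕ} (N : Nodes (kA A) (Ft M' A) (Ft M' A) s)

/-- the base change of chart 0 lies in `GN`. -/
theorem hB0 (h01 : M01LeGN M' p A K tK) :
    ∀ b ∈ chart ↥(AK A K) tK, baseChangeHom (M' * p) K b ∈ GN M' p A := fun b hb =>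
  h01 _ (Submodule.subset_span ⟨b, ⟨0, by rw [pow_zero, one_mul]; exact hb⟩, rfl⟩)

/-- the base change of chart 1 lies in `GN`. -/
theorem hB1 (h01 : M01LeGN M' p A K tK)
    (h1le : M1 A (M' * p) K tK 0 ≤ M01 A (M' * p) K tK) :
    ∀ b ∈ chart ↥(AK A K) tK⁻¹, baseChangeHom (M' * p) K b ∈ GN M' p A := fun b hb =>
  h01 _ (h1le (Submodule.subset_span ⟨b, by
    show tK⁻¹ ^ 0 * b ∈ chart ↥(AK A K) tK⁻¹
    rw [pow_zero, one_mul]; exact hb, rfl⟩))

/-- **(M4) `SurjPropN`** from the named inputs (C1) `htrans`, (C2) `hD`, (C4) `hRV₁`, (C5) `hspan`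
at the two charts, (M3) `Reg01PropN N`, `M01 ⊆ GN` and `M₁(0) ⊆ M₀₁`. -/
theorem surjPropN_of (tt : Ft M' A × Ft M' A)
    (h01 : M01LeGN M' p A K tK) (h1le : M1 A (M' * p) K tK 0 ≤ M01 A (M' * p) K tK)
    (hReg : Reg01PropN M' p A K tK N tt)
    -- chart 0
    (hD0 : ∀ 𝔪 : Ideal ↥(chart ↥(AK A K) tK),
      IsNode (RingHom.ker (rhoK1 M' p A K _ (hB0 h01))) (RingHom.ker (rhoK2 M' p A K _ (hB0 h01))) 𝔪 →
        ∃ j : Fin s, ∀ b : ↥(chart ↥(AK A K) tK),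
          ValAt (N.ν₁ j) (rhoK1 M' p A K _ (hB0 h01) b) 0 → b ∈ 𝔪)
    (htrans0 : ∀ 𝔪 : Ideal ↥(chart ↥(AK A K) tK),
      IsNode (RingHom.ker (rhoK1 M' p A K _ (hB0 h01))) (RingHom.ker (rhoK2 M' p A K _ (hB0 h01))) 𝔪 →
        TransAt (RingHom.ker (rhoK1 M' p A K _ (hB0 h01)))
          (RingHom.ker (rhoK2 M' p A K _ (hB0 h01))) 𝔪)
    (hRV0 : ∀ (b : ↥(chart ↥(AK A K) tK)) (j : Fin s),
      ∃ c : Res (AK A K), ValAt (N.ν₁ j)
        (rhoK1 M' p A K _ (hB0 h01) b) (resMap A K c))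
    (hspan0₁ : ∀ f₁ : Ft M' A, Reg (kA A) tt.1 f₁ →
      ∃ (m : ℕ) (ω : Fin m → kA A) (b : Fin m → ↥(chart ↥(AK A K) tK)),
        f₁ = ∑ l, ω l • rhoK1 M' p A K _ (hB0 h01) (b l))
    (hspan0₂ : ∀ f₂ : Ft M' A, Reg (kA A) tt.2 f₂ →
      ∃ (m : ℕ) (ω : Fin m → kA A) (b : Fin m → ↥(chart ↥(AK A K) tK)),
        f₂ = ∑ l, ω l • rhoK2 M' p A K _ (hB0 h01) (b l))
    -- chart 1
    (hD1 : ∀ 𝔪 : Ideal ↥(chart ↥(AK A K) tK⁻¹),
      IsNode (RingHom.ker (rhoK1 M' p A K _ (hB1 h01 h1le)))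
        (RingHom.ker (rhoK2 M' p A K _ (hB1 h01 h1le))) 𝔪 →
        ∃ j : Fin s, ∀ b : ↥(chart ↥(AK A K) tK⁻¹),
          ValAt (N.ν₁ j) (rhoK1 M' p A K _ (hB1 h01 h1le) b) 0 →
            b ∈ 𝔪)
    (htrans1 : ∀ 𝔪 : Ideal ↥(chart ↥(AK A K) tK⁻¹),
      IsNode (RingHom.ker (rhoK1 M' p A K _ (hB1 h01 h1le)))
        (RingHom.ker (rhoK2 M' p A K _ (hB1 h01 h1le))) 𝔪 →
        TransAt (RingHom.ker (rhoK1 M' p A K _ (hB1 h01 h1le)))
          (RingHom.ker (rhoK2 M' p A K _ (hB1 h01 h1le))) 𝔪)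
    (hRV1 : ∀ (b : ↥(chart ↥(AK A K) tK⁻¹)) (j : Fin s),
      ∃ c : Res (AK A K), ValAt (N.ν₁ j)
        (rhoK1 M' p A K _ (hB1 h01 h1le) b) (resMap A K c))
    (hspan1₁ : ∀ f₁ : Ft M' A, Reg (kA A) tt.1⁻¹ f₁ →
      ∃ (m : ℕ) (ω : Fin m → kA A) (b : Fin m → ↥(chart ↥(AK A K) tK⁻¹)),
        f₁ = ∑ l, ω l • rhoK1 M' p A K _ (hB1 h01 h1le) (b l))
    (hspan1₂ : ∀ f₂ : Ft M' A, Reg (kA A) tt.2⁻¹ f₂ →
      ∃ (m : ℕ) (ω : Fin m → kA A) (b : Fin m → ↥(chart ↥(AK A K) tK⁻¹)),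
        f₂ = ∑ l, ω l • rhoK2 M' p A K _ (hB1 h01 h1le) (b l)) :
    SurjPropN M' p A K tK N tt := by
  refine ⟨fun fb hfb => ?_, fun fb hfb => ?_⟩
  · -- chart 0
    have hG : ∀ (b : ↥(chart ↥(AK A K) tK)) (j : Fin s),
        N.GluedAt
          (rhoK1 M' p A K _ (hB0 h01) b, rhoK2 M' p A K _ (hB0 h01) b) j := fun b j =>
      (hReg _ (Submodule.subset_span ⟨(b : ↥(FK (M' * p) K)),
        ⟨0, by rw [pow_zero, one_mul]; exact b.2⟩, rfl⟩) (hB0 h01 _ b.2)).2.2 j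
    exact exists_lift_of_glued (hB0 h01) N hG hD0 htrans0 hRV0 (hspan0₁ fb.1 hfb.1)
      (hspan0₂ fb.2 hfb.2.1) hfb.2.2
  · -- chart 1
    have hG : ∀ (b : ↥(chart ↥(AK A K) tK⁻¹)) (j : Fin s),
        N.GluedAt
          (rhoK1 M' p A K _ (hB1 h01 h1le) b, rhoK2 M' p A K _ (hB1 h01 h1le) b) j := fun b j =>
      (hReg _ (h1le (Submodule.subset_span ⟨(b : ↥(FK (M' * p) K)), by
        show tK⁻¹ ^ 0 * (b : ↥(FK (M' * p) K)) ∈ chart ↥(AK A K) tK⁻¹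
        rw [pow_zero, one_mul]; exact b.2, rfl⟩)) (hB1 h01 h1le _ b.2)).2.2 j
    obtain ⟨f, hfS, hfG, hred⟩ := exists_lift_of_glued (hB1 h01 h1le) N hG hD1 htrans1 hRV1
      (hspan1₁ fb.1 hfb.1) (hspan1₂ fb.2 hfb.2.1) hfb.2.2
    refine ⟨f, ?_, hfG, hred⟩
    refine Submodule.span_mono (Set.image_mono fun x hx => ?_) hfS
    show tK⁻¹ ^ 0 * x ∈ chart ↥(AK A K) tK⁻¹
    rw [pow_zero, one_mul]; exact hx

end Surj

end Fermat.Agent.ES.W33.SurjAsmN24
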