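/-
Programme W (S33), chapter B1′, leaf (M4) `SurjPropN`, piece **(C2) `hD`** (helper6, ruling w56):
THE NODE IDEALS OF A LEVEL-`K` CHART ARE NODE DISCS, in the literal of helper24's
`SurjAsmN24.exists_lift_of_glued` / `surjPropN_of` (hypotheses `hD`, `hD0`, `hD1`).

`Bc` a chart of the level-`K` model (`Bc = B0` or `B1` of a `NodalDataAt` bundle) whose base change lies
in `GN`; `rhoK1`, `rhoK2 : Bc →+* F̃` the two component reductions (`SurjAsmN24`).  For every maximal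
ideal `𝔪 ⊇ ker rhoK1 + ker rhoK2`:
 1. `𝔪` is a two-branch closed point of the model containing `π` (`hv1`, `hv2`: the vertical ideals
    `Bc ∩ π O_{i,K}` die under `rhoK_i` — helper3's `LevelCompare3`);
 2. `𝔪` is contained in neither vertical prime (`hsep12`, `hsep21`: one element of `ker rhoK2 ∖ ker rhoK1`
    and one of `ker rhoK1 ∖ ker rhoK2` — Kronecker: `tN - yN ^ p`, `yN - tN ^ p`);
 3. hence `𝔪 = centreK h` for a place `P` of `ℚ̄·F_{M'p}` regular on `Bc` (`CentreExists6`: Krull +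
    domination + conjugacy over `K`);
 4. `hR1` (NAMED INPUT = node dictionary + `NodePlaces`, helper11/helper20): a place regular on `Bc` whose
    centre contains both vertical ideals lies in a node disc `j`, and the value of `rhoK1 b` at `ν₁ j` is
    `chiK h b`;
 5. `ValAt (ν₁ j) (rhoK1 b) 0` ⇒ `chiK h b = 0` (`ValAt.unique`) ⇒ `b ∈ centreK h = 𝔪`.

* `centreK_eq_of_forall` : the `CentreLift6` conclusion is `centreK h = 𝔪`;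
* `hD_B0`, `hD_B1` : (C2) on the two charts.
-/
import Mathlib
import Fermat.Agent.ES.W33.CentreExists6
import Fermat.Agent.ES.W33.NodeCentre11
import Fermat.Agent.ES.W33.SurjAsmN24

set_option autoImplicit false
set_option synthInstance.maxHeartbeats 400000
set_option linter.unusedSectionVars false

open AlgebraicCurve ModularCurve HahnSeries

noncomputable section

namespace Fermat.Agent.ES.W33.HdNode6

open Fermat.Agent.X0 Fermat.Agent.X0.FF Fermat.Agent.ES.RED.PlaceValue13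
open Fermat.Agent.RED.Interface4 Fermat.Agent.RED.DESC Fermat.Agent.RED.DESC.PlaceExtend27
open Fermat.Agent.ES.RED.Contract8 Fermat.Agent.ES.RED.ModelInst4
open Fermat.Agent.ES.N34.NodalCore13 Fermat.Agent.ES.N34.NodeAsm6 Fermat.Agent.ES.N34.NumData13
  Fermat.Agent.ES.N34.ModelInput13
open Fermat.Agent.ES.W33.XiIfaceN29 Fermat.Agent.ES.W33.ValAt29 Fermat.Agent.ES.W33.NodalDefs3
  Fermat.Agent.ES.W33.GlueCRT19 Fermat.Agent.ES.W33.SurjAsmN24 Fermat.Agent.ES.W33.NodeCentre11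
  Fermat.Agent.ES.W33.CentreExists6

variable (M' : ℕ) [NeZero M'] (p : ℕ) [Fact p.Prime] (A : ValuationSubring Qbar)
  (K : IntermediateField ℚ Qbar)

section Centre

variable {M' p A K}
variable {x : Fbar (M' * p)} {hx : IsGen Qbar x}
  {Bc : Subalgebra ↥(AK A K) ↥(FK (M' * p) K)} {P : Place Qbar (Fbar (M' * p))}

/-- the conclusion of `CentreLift6` / `CentreExists6` is `RegAt` + `centreK h = 𝔪`. -/
theorem regAt_of_forall (𝔪 : Ideal ↥Bc)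
    (hP : ∀ b : ↥Bc, ∃ hb : baseChangeHom (M' * p) K (b : ↥(FK (M' * p) K)) ∈ P.toValuationSubring,
      valueHom hx P ⟨_, hb⟩ ∈ A ∧ (valueHom hx P ⟨_, hb⟩ ∈ A.nonunits ↔ b ∈ 𝔪)) :
    haveI := Fermat.Agent.RED.NumInst4.isScalarTower_OE (AK A K) (FK (M' * p) K)
    RegAt A hx (baseChangeHom (M' * p) K) Bc P := fun b hb => by
  obtain ⟨h1, h2, -⟩ := hP ⟨b, hb⟩
  exact ⟨h1, h2⟩

theorem centreK_eq_of_forall (𝔪 : Ideal ↥Bc)
    (hP : ∀ b : ↥Bc, ∃ hb : baseChangeHom (M' * p) K (b : ↥(FK (M' * p) K)) ∈ P.toValuationSubring,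
      valueHom hx P ⟨_, hb⟩ ∈ A ∧ (valueHom hx P ⟨_, hb⟩ ∈ A.nonunits ↔ b ∈ 𝔪)) :
    haveI := Fermat.Agent.RED.NumInst4.isScalarTower_OE (AK A K) (FK (M' * p) K)
    centreK (regAt_of_forall 𝔪 hP) = 𝔪 := by
  haveI := Fermat.Agent.RED.NumInst4.isScalarTower_OE (AK A K) (FK (M' * p) K)
  ext b
  obtain ⟨h1, h2, h3⟩ := hP b
  rw [mem_centreK_iff_not_isUnit, ← h3, ValuationSubring.mem_nonunits_iff_exists_mem_maximalIdeal]
  constructor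
  · intro hnu
    refine ⟨h2, ?_⟩
    rw [IsLocalRing.mem_maximalIdeal, mem_nonunits_iff]
    exact hnu
  · rintro ⟨h2', hmax⟩
    rw [IsLocalRing.mem_maximalIdeal, mem_nonunits_iff] at hmax
    exact hmax

end Centre

section Hd

variable {M' p A K}
variable {x : Fbar (M' * p)} (hx : IsGen Qbar x)
  {π : ↥(AK A K)} {tK : ↥(FK (M' * p) K)} {B0 B1 : Subalgebra ↥(AK A K) ↥(FK (M' * p) K)}
  {O1K O2K : ValuationSubring ↥(FK (M' * p) K)}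
  {s : ℕ} (N : Nodes (kA A) (Ft M' A) (Ft M' A) s)

/-- **(C2) `hD` on chart 0.** -/
theorem hD_B0 (hA : A.LiesOverPrime p)
    (D : NodalDataAt (AK A K) (FK (M' * p) K) π tK B0 B1 O1K O2K)
    (hB : ∀ b ∈ B0, baseChangeHom (M' * p) K b ∈ GN M' p A)
    (hv1 : ∀ e : ↥B0, (∃ c ∈ O1K, (e : ↥(FK (M' * p) K)) =
      algebraMap ↥(AK A K) ↥(FK (M' * p) K) π * c) → rhoK1 M' p A K B0 hB e = 0)
    (hv2 : ∀ e : ↥B0, (∃ c ∈ O2K, (e : ↥(FK (M' * p) K)) =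
      algebraMap ↥(AK A K) ↥(FK (M' * p) K) π * c) → rhoK2 M' p A K B0 hB e = 0)
    (hsep12 : ∃ b : ↥B0, rhoK2 M' p A K B0 hB b = 0 ∧ rhoK1 M' p A K B0 hB b ≠ 0)
    (hsep21 : ∃ b : ↥B0, rhoK1 M' p A K B0 hB b = 0 ∧ rhoK2 M' p A K B0 hB b ≠ 0)
    (hR1 : haveI := Fermat.Agent.RED.NumInst4.isScalarTower_OE (AK A K) (FK (M' * p) K)
      ∀ (P : Place Qbar (Fbar (M' * p))) (h : RegAt A hx (baseChangeHom (M' * p) K) B0 P),
        RingHom.ker (rhoK1 M' p A K B0 hB) ≤ centreK h →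
        RingHom.ker (rhoK2 M' p A K B0 hB) ≤ centreK h →
        ∃ j : Fin s, ∀ b : ↥B0, ValAt (N.ν₁ j) (rhoK1 M' p A K B0 hB b) (chiK h b)) :
    ∀ 𝔪 : Ideal ↥B0,
      IsNode (RingHom.ker (rhoK1 M' p A K B0 hB)) (RingHom.ker (rhoK2 M' p A K B0 hB)) 𝔪 →
        ∃ j : Fin s, ∀ b : ↥B0, ValAt (N.ν₁ j) (rhoK1 M' p A K B0 hB b) 0 → b ∈ 𝔪 := by
  haveI := Fermat.Agent.RED.NumInst4.isScalarTower_OE (AK A K) (FK (M' * p) K)
  rintro 𝔪 ⟨h𝔪, hk1, hk2⟩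
  have hp : p.Prime := Fact.out
  -- `π ∈ 𝔪`
  have hπ𝔪 : algebraMap ↥(AK A K) B0 π ∈ 𝔪 :=
    hk1 (RingHom.mem_ker.mpr (hv1 _ ⟨1, O1K.one_mem, by rw [mul_one]; rfl⟩))
  -- neither vertical prime contains `𝔪`
  have h1 : ∃ b ∈ 𝔪, ¬ ∃ c ∈ O1K, ((b : ↥B0) : ↥(FK (M' * p) K)) =
      algebraMap ↥(AK A K) ↥(FK (M' * p) K) π * c := by
    obtain ⟨b, hb2, hb1⟩ := hsep12
    exact ⟨b, hk2 (RingHom.mem_ker.mpr hb2), fun h => hb1 (hv1 b h)⟩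
  have h2 : ∃ b ∈ 𝔪, ¬ ∃ c ∈ O2K, ((b : ↥B0) : ↥(FK (M' * p) K)) =
      algebraMap ↥(AK A K) ↥(FK (M' * p) K) π * c := by
    obtain ⟨b, hb1, hb2⟩ := hsep21
    exact ⟨b, hk1 (RingHom.mem_ker.mpr hb1), fun h => hb2 (hv2 b h)⟩
  obtain ⟨P, hP⟩ := exists_place_centre_B0 (M' * p) K hp hA hx D 𝔪 h𝔪 hπ𝔪 h1 h2
  have hc : centreK (regAt_of_forall 𝔪 hP) = 𝔪 := centreK_eq_of_forall 𝔪 hP
  obtain ⟨j, hj⟩ := hR1 P (regAt_of_forall 𝔪 hP) (by rw [hc]; exact hk1) (by rw [hc]; exact hk2)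
  refine ⟨j, fun b hb => ?_⟩
  rw [← hc, mem_centreK_iff]
  exact ValAt.unique (hj b) hb

/-- **(C2) `hD` on chart 1.** -/
theorem hD_B1 (hA : A.LiesOverPrime p)
    (D : NodalDataAt (AK A K) (FK (M' * p) K) π tK B0 B1 O1K O2K)
    (hB : ∀ b ∈ B1, baseChangeHom (M' * p) K b ∈ GN M' p A)
    (hv1 : ∀ e : ↥B1, (∃ c ∈ O1K, (e : ↥(FK (M' * p) K)) =
      algebraMap ↥(AK A K) ↥(FK (M' * p) K) π * c) → rhoK1 M' p A K B1 hB e = 0)
    (hv2 : ∀ e : ↥B1, (∃ c ∈ O2K, (e : ↥(FK (M' * p) K)) =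
      algebraMap ↥(AK A K) ↥(FK (M' * p) K) π * c) → rhoK2 M' p A K B1 hB e = 0)
    (hsep12 : ∃ b : ↥B1, rhoK2 M' p A K B1 hB b = 0 ∧ rhoK1 M' p A K B1 hB b ≠ 0)
    (hsep21 : ∃ b : ↥B1, rhoK1 M' p A K B1 hB b = 0 ∧ rhoK2 M' p A K B1 hB b ≠ 0)
    (hR1 : haveI := Fermat.Agent.RED.NumInst4.isScalarTower_OE (AK A K) (FK (M' * p) K)
      ∀ (P : Place Qbar (Fbar (M' * p))) (h : RegAt A hx (baseChangeHom (M' * p) K) B1 P),
        RingHom.ker (rhoK1 M' p A K B1 hB) ≤ centreK h →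
        RingHom.ker (rhoK2 M' p A K B1 hB) ≤ centreK h →
        ∃ j : Fin s, ∀ b : ↥B1, ValAt (N.ν₁ j) (rhoK1 M' p A K B1 hB b) (chiK h b)) :
    ∀ 𝔪 : Ideal ↥B1,
      IsNode (RingHom.ker (rhoK1 M' p A K B1 hB)) (RingHom.ker (rhoK2 M' p A K B1 hB)) 𝔪 →
        ∃ j : Fin s, ∀ b : ↥B1, ValAt (N.ν₁ j) (rhoK1 M' p A K B1 hB b) 0 → b ∈ 𝔪 := by
  haveI := Fermat.Agent.RED.NumInst4.isScalarTower_OE (AK A K) (FK (M' * p) K)
  rintro 𝔪 ⟨h𝔪, hk1, hk2⟩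
  have hp : p.Prime := Fact.out
  have hπ𝔪 : algebraMap ↥(AK A K) B1 π ∈ 𝔪 :=
    hk1 (RingHom.mem_ker.mpr (hv1 _ ⟨1, O1K.one_mem, by rw [mul_one]; rfl⟩))
  have h1 : ∃ b ∈ 𝔪, ¬ ∃ c ∈ O1K, ((b : ↥B1) : ↥(FK (M' * p) K)) =
      algebraMap ↥(AK A K) ↥(FK (M' * p) K) π * c := by
    obtain ⟨b, hb2, hb1⟩ := hsep12
    exact ⟨b, hk2 (RingHom.mem_ker.mpr hb2), fun h => hb1 (hv1 b h)⟩
  have h2 : ∃ b ∈ 𝔪, ¬ ∃ c ∈ O2K, ((b : ↥B1) : ↥(FK (M' * p) K)) =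
      algebraMap ↥(AK A K) ↥(FK (M' * p) K) π * c := by
    obtain ⟨b, hb1, hb2⟩ := hsep21
    exact ⟨b, hk1 (RingHom.mem_ker.mpr hb1), fun h => hb2 (hv2 b h)⟩
  obtain ⟨P, hP⟩ := exists_place_centre_B1 (M' * p) K hp hA hx D 𝔪 h𝔪 hπ𝔪 h1 h2
  have hc : centreK (regAt_of_forall 𝔪 hP) = 𝔪 := centreK_eq_of_forall 𝔪 hP
  obtain ⟨j, hj⟩ := hR1 P (regAt_of_forall 𝔪 hP) (by rw [hc]; exact hk1) (by rw [hc]; exact hk2)
  refine ⟨j, fun b hb => ?_⟩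
  rw [← hc, mem_centreK_iff]
  exact ValAt.unique (hj b) hb

end Hd

end Fermat.Agent.ES.W33.HdNode6
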