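/-
Programme W (S33), chapter (B1′)(M4)(C2), input `hker` of helper6's `NodeConv6` (helper3):
**a function of the `ℚ̄`-chart ring with zero pair-reduction has a power divisible by any nonzero
constant of `A`** (route B: pair saturation of the `ℚ̄`-chart ring + rank one of `A`).

* `hker_of` : generic in the chart coordinate `s` (inputs: `chart ↥A s ≤ GN`, `red_const`, pair
  saturation — the fields of helper20's `ChartLeaves`);
* `hker0`, `hker1` : for a `ChartLeaves` bundle, `s = tN`, `s = tN⁻¹`;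
* `hkerS0`, `hkerS1` : the same in the form (c) of the (C2) core (helper8's w72 (3)), for the nodal
  charts `S0N L`, `S1N L`;
* `hker_four0`, `hker_four1` : at `(n, e) = (4, 8)`, `p` odd, `π : ↥(AK A K)`, `π ≠ 0`, any `K` —
  helper6's literal.
-/
import Mathlib
import Fermat.Agent.ES.W33.ChartLeavesN16
import Fermat.Agent.ES.V19.ArchVal14

set_option autoImplicit false
set_option synthInstance.maxHeartbeats 400000
set_option linter.unusedSectionVars false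

noncomputable section

open HahnSeries ModularCurve

namespace Fermat.Agent.ES.W33.HkerN3

open Fermat.Agent.RED.Interface4 Fermat.Agent.RED.BASE.Hauptmodul12
  Fermat.Agent.RED.PUR.ChartGeneric22 Fermat.Agent.RED.DESC.NumberFieldDVR27
  Fermat.Agent.ES.RED.Contract8 Fermat.Agent.ES.RED.ChartFacts9 Fermat.Agent.ES.RED.ModelInst4
  Fermat.Agent.X0.FF Fermat.Agent.ES.V19.InstNames3
  Fermat.Agent.ES.W33.NodalDefs3 Fermat.Agent.ES.W33.TwoChartsNOf20
  Fermat.Agent.ES.W33.TwoChartsNInst20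

attribute [local instance 5000] HahnSeries.powerSeriesAlgebra SubalgebraClass.toAlgebra

variable {M' : ℕ} [NeZero M'] {p : ℕ} [Fact p.Prime] {A : ValuationSubring Qbar}

/-- **`hker`, generic in the chart coordinate.** -/
theorem hker_of (hA : A.LiesOverPrime p) (s : ↥(Fbar (M' * p)))
    (hle : ∀ b ∈ chart ↥A s, b ∈ GN M' p A)
    (red_const : ∀ (a : ↥A) (h : algebraMap Qbar ↥(Fbar (M' * p)) (a : Qbar) ∈ GN M' p A),
      redN M' p A ⟨_, h⟩ =
        (algebraMap (kA A) (Ft M' A) (resA A a), algebraMap (kA A) (Ft M' A) (resA A a)))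
    (sat : ∀ b : ↥(chart ↥A s).toSubring, b ≠ 0 →
      ∃ (c : ↥A) (b' : ↥(chart ↥A s).toSubring),
        (b : ↥(Fbar (M' * p))) =
          algebraMap Qbar ↥(Fbar (M' * p)) (c : Qbar) * (b' : ↥(Fbar (M' * p))) ∧
        redOf A (GN M' p A) (redN M' p A) s hle b' ≠ 0)
    (π : ↥A) (hπ : π ≠ 0) (c : ↥(Fbar (M' * p))) (hc : c ∈ chart ↥A s)
    (hG : c ∈ GN M' p A) (h0 : redN M' p A ⟨c, hG⟩ = 0) :
    ∃ m : ℕ, ∃ d ∈ chart ↥A s, c ^ m = algebraMap ↥A ↥(Fbar (M' * p)) π * d := by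
  by_cases hc0 : c = 0
  · exact ⟨1, 0, zero_mem _, by rw [hc0, pow_one, mul_zero]⟩
  obtain ⟨a, g, hcg, hg⟩ := sat ⟨c, hc⟩ (fun h => hc0 (congrArg Subtype.val h))
  have hag : algebraMap Qbar ↥(Fbar (M' * p)) (a : Qbar) ∈ GN M' p A :=
    hle _ (const_mem_chart A s a)
  have hgG : (g : ↥(Fbar (M' * p))) ∈ GN M' p A := hle _ g.2
  have hg' : redN M' p A ⟨(g : ↥(Fbar (M' * p))), hgG⟩ ≠ 0 := hg
  have h1 : (⟨c, hG⟩ : ↥(GN M' p A)) = ⟨_, hag⟩ * ⟨(g : ↥(Fbar (M' * p))), hgG⟩ :=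
    Subtype.ext hcg
  rw [h1, map_mul, red_const a hag] at h0
  have ha0 : resA A a = 0 := by
    by_contra hne
    have hne' : algebraMap (kA A) (Ft M' A) (resA A a) ≠ 0 := (map_ne_zero _).mpr hne
    apply hg'
    have h2 := Prod.ext_iff.mp h0
    rw [Prod.fst_mul, Prod.snd_mul] at h2
    refine Prod.ext ?_ ?_
    · exact (mul_eq_zero.mp h2.1).resolve_left hne'
    · exact (mul_eq_zero.mp h2.2).resolve_left hne'
  have ham : a ∈ IsLocalRing.maximalIdeal ↥A := (IsLocalRing.residue_eq_zero_iff a).mp ha0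
  obtain ⟨N, a', ha'⟩ := Fermat.Agent.ES.V19.ArchVal14.exists_dvd_pow (Fact.out : p.Prime) hA ham hπ
  refine ⟨N, algebraMap Qbar ↥(Fbar (M' * p)) ((a' : ↥A) : Qbar) * (g : ↥(Fbar (M' * p))) ^ N,
    mul_mem (const_mem_chart A s a') (pow_mem g.2 N), ?_⟩
  have h3 : (algebraMap Qbar ↥(Fbar (M' * p)) (a : Qbar)) ^ N =
      algebraMap ↥A ↥(Fbar (M' * p)) π * algebraMap Qbar ↥(Fbar (M' * p)) ((a' : ↥A) : Qbar) := by
    have h4 : ((a : Qbar)) ^ N = (π : Qbar) * (a' : Qbar) := by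
      have := congrArg (fun z : ↥A => (z : Qbar)) ha'
      simpa using this
    rw [← map_pow, h4, map_mul]
    rfl
  have hcg' : c = algebraMap Qbar ↥(Fbar (M' * p)) (a : Qbar) * (g : ↥(Fbar (M' * p))) := hcg
  rw [hcg', mul_pow, h3, mul_assoc]

section Leaves

variable {n e : ℕ} [NeZero n] {hb : BaseHyp n e} {hnM : n ∣ M'}

/-- **`hker` in chart 0** for a `ChartLeaves` bundle. -/
theorem hker0 (hA : A.LiesOverPrime p) (L : ChartLeaves n e M' p hb hnM A) (π : ↥A) (hπ : π ≠ 0)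
    (c : ↥(Fbar (M' * p))) (hc : c ∈ chart ↥A (tN n e M' p hb hnM)) (hG : c ∈ GN M' p A)
    (h0 : redN M' p A ⟨c, hG⟩ = 0) :
    ∃ m : ℕ, ∃ d ∈ chart ↥A (tN n e M' p hb hnM),
      c ^ m = algebraMap ↥A ↥(Fbar (M' * p)) π * d :=
  hker_of hA _ L.h0 L.red_const L.sat0 π hπ c hc hG h0

/-- **`hker` in chart 1** for a `ChartLeaves` bundle. -/
theorem hker1 (hA : A.LiesOverPrime p) (L : ChartLeaves n e M' p hb hnM A) (π : ↥A) (hπ : π ≠ 0)
    (c : ↥(Fbar (M' * p))) (hc : c ∈ chart ↥A (tN n e M' p hb hnM)⁻¹) (hG : c ∈ GN M' p A)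
    (h0 : redN M' p A ⟨c, hG⟩ = 0) :
    ∃ m : ℕ, ∃ d ∈ chart ↥A (tN n e M' p hb hnM)⁻¹,
      c ^ m = algebraMap ↥A ↥(Fbar (M' * p)) π * d :=
  hker_of hA _ L.h1 L.red_const L.sat1 π hπ c hc hG h0

end Leaves

section Nodal

open Fermat.Agent.ES.W33.NodalChart20

variable {n e : ℕ} [NeZero n] {hb : BaseHyp n e} {hnM : n ∣ M'}

/-- **(c) of the (C2) core, chart 0**: the product of a function vanishing on the first component
and a function vanishing on the second has a power divisible by any nonzero constant. -/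
theorem hkerS0 (hA : A.LiesOverPrime p) (L : ChartLeaves n e M' p hb hnM A)
    (c c' : ↥(S0N L).B) (h1 : (S0N L).ρ₁ c = 0) (h2 : (S0N L).ρ₂ c' = 0) (a : ↥A) (ha : a ≠ 0) :
    ∃ (m : ℕ) (z : ↥(S0N L).B), (c * c') ^ m = (S0N L).const a * z := by
  have hred : (S0N L).red (c * c') = 0 := by
    have e1 : ((S0N L).red (c * c')).1 = 0 := by
      rw [map_mul, Prod.fst_mul, ← NodalChart.ρ₁_apply, h1, zero_mul]
    have e2 : ((S0N L).red (c * c')).2 = 0 := by
      rw [map_mul, Prod.snd_mul]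
      have : ((S0N L).red c').2 = 0 := h2
      rw [this, mul_zero]
    exact Prod.ext e1 e2
  rw [S0N_red] at hred
  obtain ⟨m, d, hd, hmd⟩ := hker0 hA L a ha _ (c * c').2 _ hred
  refine ⟨m, ⟨d, hd⟩, Subtype.ext ?_⟩
  exact hmd

/-- **(c) of the (C2) core, chart 1.** -/
theorem hkerS1 (hA : A.LiesOverPrime p) (L : ChartLeaves n e M' p hb hnM A)
    (c c' : ↥(S1N L).B) (h1 : (S1N L).ρ₁ c = 0) (h2 : (S1N L).ρ₂ c' = 0) (a : ↥A) (ha : a ≠ 0) :
    ∃ (m : ℕ) (z : ↥(S1N L).B), (c * c') ^ m = (S1N L).const a * z := by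
  have hred : (S1N L).red (c * c') = 0 := by
    have e1 : ((S1N L).red (c * c')).1 = 0 := by
      rw [map_mul, Prod.fst_mul, ← NodalChart.ρ₁_apply, h1, zero_mul]
    have e2 : ((S1N L).red (c * c')).2 = 0 := by
      rw [map_mul, Prod.snd_mul]
      have : ((S1N L).red c').2 = 0 := h2
      rw [this, mul_zero]
    exact Prod.ext e1 e2
  rw [S1N_red] at hred
  obtain ⟨m, d, hd, hmd⟩ := hker1 hA L a ha _ (c * c').2 _ hred
  refine ⟨m, ⟨d, hd⟩, Subtype.ext ?_⟩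
  exact hmd

end Nodal

section Four

variable (hpM : ¬ p ∣ M') (hb : BaseHyp 4 8) (hnM : 4 ∣ M') (hA : A.LiesOverPrime p)

include hpM hA in
/-- **helper6's literal `hker`, chart 0**: `(n, e) = (4, 8)`, `p` odd, any `K`, any `π ≠ 0` of
`A ∩ K`. -/
theorem hker_four0 (hp2 : p ≠ 2) (K : IntermediateField ℚ Qbar) (π : ↥(AK A K)) (hπ : π ≠ 0) :
    ∀ c ∈ chart ↥A (tN 4 8 M' p hb hnM), ∀ hG : c ∈ GN M' p A, redN M' p A ⟨c, hG⟩ = 0 →
      ∃ (m : ℕ), ∃ d ∈ chart ↥A (tN 4 8 M' p hb hnM),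
        c ^ m = algebraMap ↥A ↥(Fbar (M' * p)) (incl A K π) * d := fun c hc hG h0 =>
  hker0 hA (Fermat.Agent.ES.W33.ChartLeavesN16.chartLeaves_four M' p hpM hb hnM A hA hp2)
    (incl A K π) (fun h => hπ (incl_injective A K (h.trans (map_zero _).symm))) c hc hG h0

include hpM hA in
/-- **helper6's literal `hker`, chart 1.** -/
theorem hker_four1 (hp2 : p ≠ 2) (K : IntermediateField ℚ Qbar) (π : ↥(AK A K)) (hπ : π ≠ 0) :
    ∀ c ∈ chart ↥A (tN 4 8 M' p hb hnM)⁻¹, ∀ hG : c ∈ GN M' p A, redN M' p A ⟨c, hG⟩ = 0 →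
      ∃ (m : ℕ), ∃ d ∈ chart ↥A (tN 4 8 M' p hb hnM)⁻¹,
        c ^ m = algebraMap ↥A ↥(Fbar (M' * p)) (incl A K π) * d := fun c hc hG h0 =>
  hker1 hA (Fermat.Agent.ES.W33.ChartLeavesN16.chartLeaves_four M' p hpM hb hnM A hA hp2)
    (incl A K π) (fun h => hπ (incl_injective A K (h.trans (map_zero _).symm))) c hc hG h0

end Four

end Fermat.Agent.ES.W33.HkerN3
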