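/-
Programme W (S33), chapter (B1′), leaf (M4-inst) item (C1) (helper29, rulings w31 / w42):
**`hnode` / `htrans` — transversality of the special fibre at EVERY node of the two level-`K`
charts `B0 A p ht`, `B1 A p ht`, for all large Galois `K`, with NO residual hypothesis.**

Main already carries the STRONG node coordinates (the conclusion literal of
`N34/NodeCoords29.nodeCoords_strong`: `x ∈ π O₂`, `y ∈ π O₁`, `x y ∈ π B`,
`∀ f ∈ 𝔪, ∃ d ∉ 𝔪, d f = a x + b y + π e`) at every two-branch maximal ideal of both charts for all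
large normal `K`: `N35/NodeStrong4.strongItems_four` (helper4, Programme O).  This file is the
wiring to the consumer literals of (M4):

* `hnode_of_strong`   : one field of `NodeStrong4.StrongNodes` ⇒ the `hnode` hypothesis of
                        `GlueCRT19.exists_glue_vert`, VERBATIM;
* `transAt_vert`      : ⇒ `∀ 𝔪, IsNode (vert π B O1) (vert π B O2) 𝔪 → TransAt … 𝔪`;
* `transAt_ker`       : ⇒ the `htrans` hypothesis of `GluedLiftK17.glued_lift_K` /
                        `exists_common_span_of_nodes`, VERBATIM, for any two ring homomorphisms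
                        `ρ₁ ρ₂` out of the chart whose kernels are the vertical ideals
                        (`hk_i : ρ_i b = 0 ↔ b ∈ π O_i` — the level comparison);
* `exists_glue_ker`   : the level-`K` glued-pairs-lift for such `ρ₁ ρ₂` (values at the nodes);
* `strongNodesN`      : `strongItems_four` unfolded: `∃ K₀, ∀ K ⊇ K₀ Galois, ∀ ht hE π hπ,
                        StrongNodes π (B0 A p ht) (B1 A p ht) (O1 M' p hπ hE) (O2 M' p hπ hE)`;
* `TransVert`, `TransKer` : the two `htrans` shapes as generic predicates of `(π, B, O1, O2)`;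
* `transN`            : the same `K₀`-statement with conclusion `TransVert` and `TransKer` for BOTH
                        charts `B0 A p ht` and `B1 A p ht` (`leO_i` are universally quantified
                        proofs: take `NodalDataAt.model.le_O1_0` … of `LevelInstN24.levelInputsN` at
                        the same `K`).
-/
import Mathlib
import Fermat.Agent.ES.N35.NodeStrong4
import Fermat.Agent.ES.W33.GlueCRT19

set_option autoImplicit false
set_option linter.unusedSectionVars false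
set_option synthInstance.maxHeartbeats 400000

namespace Fermat.Agent.ES.W33.NodeCoordsN29

open Fermat.Agent.ES.N34.NodalCore13 Fermat.Agent.ES.N34.NodeCoords29
  Fermat.Agent.ES.N35.NodeStrong4 Fermat.Agent.ES.W33.GlueCRT19

section Generic

variable {R F : Type*} [CommRing R] [Field F] [Algebra R F]

/-- A maximal ideal containing the vertical ideal `B ∩ π O` is not off the branch `O`. -/
theorem not_offBranch_of_vert_le (π : R) (B : Subalgebra R F) (O : ValuationSubring F)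
    (leO : ∀ x ∈ B, x ∈ O) (𝔪 : Ideal B) (h : vert π B O leO ≤ 𝔪) : ¬ OffBranch π B O 𝔪 := by
  rintro ⟨e, he, c, hc, hec⟩
  exact he (h ⟨c, hc, hec⟩)

/-- **`hnode`**: the hypothesis of `GlueCRT19.exists_glue_vert`, verbatim, from one field of
`NodeStrong4.StrongNodes`. -/
theorem hnode_of_strong (π : R) (B : Subalgebra R F) (O1 O2 : ValuationSubring F)
    (leO1 : ∀ x ∈ B, x ∈ O1) (leO2 : ∀ x ∈ B, x ∈ O2)
    (hS : ∀ 𝔪 : Ideal B, 𝔪.IsMaximal → algebraMap R B π ∈ 𝔪 →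
      ¬ OffBranch π B O1 𝔪 → ¬ OffBranch π B O2 𝔪 → StrongCoords π B O1 O2 𝔪) :
    ∀ 𝔪 : Ideal B, 𝔪.IsMaximal → vert π B O1 leO1 ≤ 𝔪 → vert π B O2 leO2 ≤ 𝔪 →
      ∃ x y : B, (∃ o ∈ O2, (x : F) = algebraMap R F π * o) ∧
        (∃ o ∈ O1, (y : F) = algebraMap R F π * o) ∧
        (∃ e : B, x * y = algebraMap R B π * e) ∧
        ∀ f ∈ 𝔪, ∃ d : B, d ∉ 𝔪 ∧ ∃ a b e : B, d * f = a * x + b * y + algebraMap R B π * e :=
  fun 𝔪 hmax h1 h2 =>
    hS 𝔪 hmax (h1 (algebraMap_pi_mem_vert π B O1 leO1))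
      (not_offBranch_of_vert_le π B O1 leO1 𝔪 h1) (not_offBranch_of_vert_le π B O2 leO2 𝔪 h2)

/-- **`htrans`, vertical-ideal form**: transversality at every node of the chart. -/
theorem transAt_vert (π : R) (B : Subalgebra R F) (O1 O2 : ValuationSubring F)
    (leO1 : ∀ x ∈ B, x ∈ O1) (leO2 : ∀ x ∈ B, x ∈ O2)
    (hS : ∀ 𝔪 : Ideal B, 𝔪.IsMaximal → algebraMap R B π ∈ 𝔪 →
      ¬ OffBranch π B O1 𝔪 → ¬ OffBranch π B O2 𝔪 → StrongCoords π B O1 O2 𝔪) :
    ∀ 𝔪 : Ideal B, IsNode (vert π B O1 leO1) (vert π B O2 leO2) 𝔪 →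
      TransAt (vert π B O1 leO1) (vert π B O2 leO2) 𝔪 := by
  rintro 𝔪 ⟨hmax, h1, h2⟩
  obtain ⟨x, y, hx, hy, -, hxy⟩ := hnode_of_strong π B O1 O2 leO1 leO2 hS 𝔪 hmax h1 h2
  exact transAt_of_coords (algebraMap R B π)
    (Ideal.mem_sup_left (algebraMap_pi_mem_vert π B O1 leO1)) ⟨x, y, hx, hy, hxy⟩

/-- **`htrans`, kernel form** = the hypothesis `htrans` of `GluedLiftK17.glued_lift_K` /
`exists_common_span_of_nodes`, verbatim: `ρ₁ ρ₂` any two ring homomorphisms out of the chart whose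
kernels are the two vertical ideals (`hk_i`: the level comparison "`ρ_i b = 0 ↔ b ∈ π O_i`"). -/
theorem transAt_ker {C₁ C₂ : Type*} [CommRing C₁] [CommRing C₂]
    (π : R) (B : Subalgebra R F) (O1 O2 : ValuationSubring F)
    (ρ₁ : ↥B →+* C₁) (ρ₂ : ↥B →+* C₂)
    (hk₁ : ∀ b : B, ρ₁ b = 0 ↔ ∃ c ∈ O1, (b : F) = algebraMap R F π * c)
    (hk₂ : ∀ b : B, ρ₂ b = 0 ↔ ∃ c ∈ O2, (b : F) = algebraMap R F π * c)
    (hS : ∀ 𝔪 : Ideal B, 𝔪.IsMaximal → algebraMap R B π ∈ 𝔪 →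
      ¬ OffBranch π B O1 𝔪 → ¬ OffBranch π B O2 𝔪 → StrongCoords π B O1 O2 𝔪) :
    ∀ 𝔪 : Ideal B, IsNode (RingHom.ker ρ₁) (RingHom.ker ρ₂) 𝔪 →
      TransAt (RingHom.ker ρ₁) (RingHom.ker ρ₂) 𝔪 := by
  rintro 𝔪 ⟨hmax, h1, h2⟩
  have hπ1 : algebraMap R B π ∈ RingHom.ker ρ₁ := by
    rw [RingHom.mem_ker, hk₁]
    exact ⟨1, O1.one_mem, by rw [mul_one]; rfl⟩
  have hoff1 : ¬ OffBranch π B O1 𝔪 := by
    rintro ⟨e, he, hec⟩
    exact he (h1 ((RingHom.mem_ker).mpr ((hk₁ e).mpr hec)))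
  have hoff2 : ¬ OffBranch π B O2 𝔪 := by
    rintro ⟨e, he, hec⟩
    exact he (h2 ((RingHom.mem_ker).mpr ((hk₂ e).mpr hec)))
  obtain ⟨x, y, hx, hy, -, hxy⟩ := hS 𝔪 hmax (h1 hπ1) hoff1 hoff2
  exact transAt_of_coords (algebraMap R B π) (Ideal.mem_sup_left hπ1)
    ⟨x, y, (RingHom.mem_ker).mpr ((hk₂ x).mpr hx), (RingHom.mem_ker).mpr ((hk₁ y).mpr hy), hxy⟩

/-- **Level-`K` glued pairs lift** (`GlueCRT19.exists_glue_hom` with `htrans` discharged): two chart
elements with the same value at every node are glued by a chart element. -/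
theorem exists_glue_ker {C₁ C₂ : Type*} [CommRing C₁] [CommRing C₂]
    (π : R) (B : Subalgebra R F) (O1 O2 : ValuationSubring F)
    (ρ₁ : ↥B →+* C₁) (ρ₂ : ↥B →+* C₂)
    (hk₁ : ∀ b : B, ρ₁ b = 0 ↔ ∃ c ∈ O1, (b : F) = algebraMap R F π * c)
    (hk₂ : ∀ b : B, ρ₂ b = 0 ↔ ∃ c ∈ O2, (b : F) = algebraMap R F π * c)
    (hS : ∀ 𝔪 : Ideal B, 𝔪.IsMaximal → algebraMap R B π ∈ 𝔪 →
      ¬ OffBranch π B O1 𝔪 → ¬ OffBranch π B O2 𝔪 → StrongCoords π B O1 O2 𝔪)
    (b₁ b₂ : B)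
    (hval : ∀ 𝔪 : Ideal B, IsNode (RingHom.ker ρ₁) (RingHom.ker ρ₂) 𝔪 → b₁ - b₂ ∈ 𝔪) :
    ∃ b : B, ρ₁ b = ρ₁ b₁ ∧ ρ₂ b = ρ₂ b₂ :=
  exists_glue_hom ρ₁ ρ₂ (transAt_ker π B O1 O2 ρ₁ ρ₂ hk₁ hk₂ hS) b₁ b₂ hval

/-- The kernel of such a `ρ` IS the vertical ideal. -/
theorem ker_eq_vert {C : Type*} [CommRing C] (π : R) (B : Subalgebra R F)
    (O : ValuationSubring F) (leO : ∀ x ∈ B, x ∈ O) (ρ : ↥B →+* C)
    (hk : ∀ b : B, ρ b = 0 ↔ ∃ c ∈ O, (b : F) = algebraMap R F π * c) :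
    RingHom.ker ρ = vert π B O leO := by
  ext b
  rw [RingHom.mem_ker, hk b]
  exact (mem_vert π B O leO b).symm

/-- Transversality at every node of the chart `B`, vertical-ideal form (for any proofs `leO_i`). -/
def TransVert (π : R) (B : Subalgebra R F) (O1 O2 : ValuationSubring F) : Prop :=
  ∀ (leO1 : ∀ x ∈ B, x ∈ O1) (leO2 : ∀ x ∈ B, x ∈ O2) (𝔪 : Ideal B),
    IsNode (vert π B O1 leO1) (vert π B O2 leO2) 𝔪 →
      TransAt (vert π B O1 leO1) (vert π B O2 leO2) 𝔪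

/-- Transversality at every node of the chart `B`, kernel form: for ANY two ring homomorphisms out of
`B` whose kernels are the two vertical ideals, the `htrans` hypothesis of
`GluedLiftK17.exists_common_span_of_nodes`. -/
def TransKer (π : R) (B : Subalgebra R F) (O1 O2 : ValuationSubring F) : Prop :=
  ∀ {C₁ C₂ : Type} [CommRing C₁] [CommRing C₂] (ρ₁ : ↥B →+* C₁) (ρ₂ : ↥B →+* C₂),
    (∀ b : B, ρ₁ b = 0 ↔ ∃ c ∈ O1, (b : F) = algebraMap R F π * c) →
    (∀ b : B, ρ₂ b = 0 ↔ ∃ c ∈ O2, (b : F) = algebraMap R F π * c) →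
    ∀ 𝔪 : Ideal B, IsNode (RingHom.ker ρ₁) (RingHom.ker ρ₂) 𝔪 →
      TransAt (RingHom.ker ρ₁) (RingHom.ker ρ₂) 𝔪

theorem transVert_of_strong {π : R} {B : Subalgebra R F} {O1 O2 : ValuationSubring F}
    (hS : ∀ 𝔪 : Ideal B, 𝔪.IsMaximal → algebraMap R B π ∈ 𝔪 →
      ¬ OffBranch π B O1 𝔪 → ¬ OffBranch π B O2 𝔪 → StrongCoords π B O1 O2 𝔪) :
    TransVert π B O1 O2 :=
  fun leO1 leO2 => transAt_vert π B O1 O2 leO1 leO2 hS

theorem transKer_of_strong {π : R} {B : Subalgebra R F} {O1 O2 : ValuationSubring F}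
    (hS : ∀ 𝔪 : Ideal B, 𝔪.IsMaximal → algebraMap R B π ∈ 𝔪 →
      ¬ OffBranch π B O1 𝔪 → ¬ OffBranch π B O2 𝔪 → StrongCoords π B O1 O2 𝔪) :
    TransKer π B O1 O2 :=
  fun ρ₁ ρ₂ hk₁ hk₂ => transAt_ker π B O1 O2 ρ₁ ρ₂ hk₁ hk₂ hS

end Generic

noncomputable section Concrete

open HahnSeries ModularCurve
open Fermat.Agent.RED.Interface4 Fermat.Agent.RED.PUR.GaussGen8 Fermat.Agent.RED.BASE.EtaQuot12
  Fermat.Agent.ES.N34.ModelDefs9

variable (M' : ℕ) [NeZero M'] (p : ℕ) [Fact p.Prime] (A : ValuationSubring Qbar)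

/-- **(C1), raw**: `NodeStrong4.strongItems_four` unfolded — strong node coordinates at every
two-branch maximal ideal of both level-`K` charts, for all large Galois `K`, every `ht`, `hE`, and
every uniformiser `π` of `A ∩ K`.  (`p` odd, base `(4, 8)`, `4 ∣ M'`, `p ∤ M'`.) -/
theorem strongNodesN (hpM : ¬ p ∣ M') (hp2 : p ≠ 2) (hM : 4 ∣ M') (hA : A.LiesOverPrime p) :
    ∃ K₀ : IntermediateField ℚ Qbar, FiniteDimensional ℚ K₀ ∧
      ∀ (K : IntermediateField ℚ Qbar) [Normal ℚ K], FiniteDimensional ℚ K → K₀ ≤ K →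
        ∀ (ht : tq ↥K 4 8 ∈ FK M' K) (hE : FK (M' * p) K ≤ fracField (AK A K))
          (π : ↥(AK A K)) (hπ : IsUnif (AK A K) π),
          StrongNodes π (B0 A p ht) (B1 A p ht) (O1 M' p hπ hE) (O2 M' p hπ hE) := by
  have hp : p.Prime := Fact.out
  have : NeZero p := ⟨hp.ne_zero⟩
  obtain ⟨K₀, hK₀, H⟩ := strongItems_four p M' A hp hpM hp2 hM hA
  exact ⟨K₀, hK₀, fun K _ hK hle ht hE π hπ => H K hK hle ht hE π hπ⟩

set_option maxHeartbeats 1000000 in
/-- **(C1)**: for all large Galois `K` (same shape of `K₀`-statement as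
`LevelInstN24.levelInputsN`), every `ht`, `hE`, uniformiser `π`: transversality at every node, in the
vertical-ideal form (`TransVert`) and in the kernel form (`TransKer` = the `htrans` hypothesis of
`GluedLiftK17.exists_common_span_of_nodes` for any `ρ₁ ρ₂` with kernels the vertical ideals), for
BOTH charts `B0 A p ht` (coordinate `t`) and `B1 A p ht` (coordinate `t⁻¹`). -/
theorem transN (hpM : ¬ p ∣ M') (hp2 : p ≠ 2) (hM : 4 ∣ M') (hA : A.LiesOverPrime p) :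
    ∃ K₀ : IntermediateField ℚ Qbar, FiniteDimensional ℚ K₀ ∧
      ∀ (K : IntermediateField ℚ Qbar) [Normal ℚ K], FiniteDimensional ℚ K → K₀ ≤ K →
        ∀ (ht : tq ↥K 4 8 ∈ FK M' K) (hE : FK (M' * p) K ≤ fracField (AK A K))
          (π : ↥(AK A K)) (hπ : IsUnif (AK A K) π),
          TransVert π (B0 A p ht) (O1 M' p hπ hE) (O2 M' p hπ hE) ∧
            TransVert π (B1 A p ht) (O1 M' p hπ hE) (O2 M' p hπ hE) ∧
            TransKer π (B0 A p ht) (O1 M' p hπ hE) (O2 M' p hπ hE) ∧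
            TransKer π (B1 A p ht) (O1 M' p hπ hE) (O2 M' p hπ hE) := by
  obtain ⟨K₀, hK₀, H⟩ := strongNodesN M' p A hpM hp2 hM hA
  refine ⟨K₀, hK₀, fun K _ hK hle ht hE π hπ => ?_⟩
  have HH := H K hK hle ht hE π hπ
  have h0 := HH.1
  have h1 := HH.2
  have t0 : TransVert π (B0 A p ht) (O1 M' p hπ hE) (O2 M' p hπ hE) := transVert_of_strong h0
  have t1 : TransVert π (B1 A p ht) (O1 M' p hπ hE) (O2 M' p hπ hE) := transVert_of_strong h1
  have k0 : TransKer π (B0 A p ht) (O1 M' p hπ hE) (O2 M' p hπ hE) := transKer_of_strong h0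
  have k1 : TransKer π (B1 A p ht) (O1 M' p hπ hE) (O2 M' p hπ hE) := transKer_of_strong h1
  exact And.intro t0 (And.intro t1 (And.intro k0 k1))

end Concrete

end Fermat.Agent.ES.W33.NodeCoordsN29
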