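/-
Programme W (S33), chapter (B1′), leaf (M4-inst), item (C1) AT THE INSTANCE (helper29):
**the named input `htrans` of `SurjAsmN24.exists_lift_of_glued` / `surjPropN_of`, proved.**

For a chart `Bc` of level `K` contained in both Gauss valuation rings `O1_K`, `O2_K` of Programme N
and whose base change lies in `GN` (`hB`), the two component reductions of helper24
`rhoK1 Bc hB`, `rhoK2 Bc hB : ↥Bc →+* Ft M' A` have kernels the vertical ideals:

* `rhoK1_eq_zero_iff` : `rhoK1 b = 0 ↔ ∃ c ∈ O1_K, b = π * c`;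
* `rhoK2_eq_zero_iff` : `rhoK2 b = 0 ↔ ∃ c ∈ O2_K, b = π * c`
  (helper3's `LevelCompare3.bc_mem_GN`: `redN (bc x)` is the pair of the coefficientwise inclusions of
  the two level-`K` Gauss reductions; `coeffMap (resMap A K)` is injective;
  `GaussGen8.gaussRed_eq_zero_iff`: the kernel of the Gauss reduction is generated by `π`);
* `transAt_rhoK` : strong node coordinates at `Bc` ⇒ `htrans` for `rhoK1 Bc hB`, `rhoK2 Bc hB`
  (`NodeCoordsN29.transAt_ker`);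
* `TransRhoK Bc`  : the `htrans` hypothesis at the chart `Bc`, for every proof `hB`;
* **`htransN`** : UNCONDITIONAL — there is `K₀` (the sup of the `K₀`s of `NodeCoordsN29.strongNodesN`
  and of main's `ModelEnd4.modelInput_four`) such that for every Galois `K ⊇ K₀` and every `ht`:
  `TransRhoK (B0 A p ht) ∧ TransRhoK (B1 A p ht)`, i.e. the `htrans0` and `htrans1` hypotheses of
  `SurjAsmN24.surjPropN_of` VERBATIM (with `tK := ModelDefs9.tN p ht`,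
  `chart ↥(AK A K) tK = B0 A p ht`, `chart ↥(AK A K) tK⁻¹ = B1 A p ht` by `rfl`; apply `.1 (hB0 h01)`,
  `.2 (hB1 h01 h1le)`).
-/
import Mathlib
import Fermat.Agent.ES.W33.SurjAsmN24
import Fermat.Agent.ES.W33.LevelCompare3
import Fermat.Agent.ES.W33.NodeCoordsN29

set_option autoImplicit false
set_option linter.unusedSectionVars false
set_option linter.dupNamespace false
set_option linter.style.haveILetI false
set_option synthInstance.maxHeartbeats 400000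
set_option maxHeartbeats 1000000

open AlgebraicCurve ModularCurve IntermediateField HahnSeries

noncomputable section

namespace Fermat.Agent.ES.W33.TransInstN29

open Fermat.Agent.RED.Interface4 Fermat.Agent.RED.DESC.PlaceExtend27
  Fermat.Agent.RED.DESC.NumberFieldDVR27
  Fermat.Agent.RED.PUR.ChartGeneric22 Fermat.Agent.RED.PUR.GaussGen8
  Fermat.Agent.RED.BASE.EtaQuot12
  Fermat.Agent.ES.RED.Contract8 Fermat.Agent.ES.RED.ModelInst4
  Fermat.Agent.ES.N34.FrickeFK8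
  Fermat.Agent.ES.W33.NodalDefs3
  Fermat.Agent.ES.W33.GlueCRT19 Fermat.Agent.ES.W33.SurjAsmN24

variable (M' : ℕ) [NeZero M'] (p : ℕ) [Fact p.Prime] (A : ValuationSubring Qbar)
  {K : IntermediateField ℚ Qbar}

section Ker

variable {π : ↥(AK A K)} (hπ : IsUnif (AK A K) π) (hE : FK (M' * p) K ≤ fracField (AK A K))

include hπ in
theorem C_pi_ne_zero : (HahnSeries.C ((π : ↥(AK A K)) : ↥K) : LaurentSeries ↥K) ≠ 0 :=
  piK_ne_zero hπ

theorem coe_algebraMap_pi :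
    ((algebraMap ↥(AK A K) ↥(FK (M' * p) K) π : ↥(FK (M' * p) K)) : LaurentSeries ↥K) =
      HahnSeries.C ((π : ↥(AK A K)) : ↥K) := by
  show algebraMap ↥K (LaurentSeries ↥K) ((π : ↥(AK A K)) : ↥K) = _
  exact algebraMap_eq_C _

theorem iota2_algebraMap_pi :
    Fermat.Agent.ES.N34.ModelDefs9.iota2 K M' p (algebraMap ↥(AK A K) ↥(FK (M' * p) K) π) =
      HahnSeries.C ((π : ↥(AK A K)) : ↥K) := by
  have h4 : algebraMap ↥(AK A K) ↥(FK (M' * p) K) π =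
      algebraMap ↥K ↥(FK (M' * p) K) ((π : ↥(AK A K)) : ↥K) := rfl
  rw [h4]
  exact iotaTwo_algebraMap (M' * p) K _

/-- the kernel of the level-`K` Gauss reduction at `∞` is `π O1_K`. -/
theorem gaussRed1_eq_zero_iff (x : ↥(FK (M' * p) K))
    (hx : x ∈ Fermat.Agent.ES.N34.ModelDefs9.O1 M' p hπ hE) :
    gaussRed (AK A K) ⟨(x : LaurentSeries ↥K), hx⟩ = 0 ↔
      ∃ c ∈ Fermat.Agent.ES.N34.ModelDefs9.O1 M' p hπ hE,
        x = algebraMap ↥(AK A K) ↥(FK (M' * p) K) π * c := by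
  have hϖ0 : algebraMap ↥(AK A K) ↥(FK (M' * p) K) π ≠ 0 := by
    intro h0
    have h1 := coe_algebraMap_pi M' p A (π := π)
    rw [h0] at h1
    exact C_pi_ne_zero A hπ h1.symm
  constructor
  · intro h
    obtain ⟨g, hg⟩ := (gaussRed_eq_zero_iff hπ ⟨(x : LaurentSeries ↥K), hx⟩).mp h
    have hg' : (x : LaurentSeries ↥K) =
        HahnSeries.C ((π : ↥(AK A K)) : ↥K) * (g : LaurentSeries ↥K) := congrArg Subtype.val hg
    refine ⟨(algebraMap ↥(AK A K) ↥(FK (M' * p) K) π)⁻¹ * x, ?_, by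
      rw [mul_inv_cancel_left₀ hϖ0]⟩
    show (((algebraMap ↥(AK A K) ↥(FK (M' * p) K) π)⁻¹ * x : ↥(FK (M' * p) K)) :
      LaurentSeries ↥K) ∈ gaussRing (AK A K)
    have h5 : (((algebraMap ↥(AK A K) ↥(FK (M' * p) K) π)⁻¹ * x : ↥(FK (M' * p) K)) :
        LaurentSeries ↥K) = (g : LaurentSeries ↥K) := by
      apply mul_left_cancel₀ (C_pi_ne_zero A hπ)
      rw [← hg', ← coe_algebraMap_pi M' p A (π := π)]
      show ((algebraMap ↥(AK A K) ↥(FK (M' * p) K) π *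
        ((algebraMap ↥(AK A K) ↥(FK (M' * p) K) π)⁻¹ * x) : ↥(FK (M' * p) K)) :
          LaurentSeries ↥K) = _
      rw [mul_inv_cancel_left₀ hϖ0]
    rw [h5]
    exact g.2
  · rintro ⟨c, hc, hxc⟩
    refine (gaussRed_eq_zero_iff hπ ⟨(x : LaurentSeries ↥K), hx⟩).mpr
      ⟨⟨(c : LaurentSeries ↥K), hc⟩, Subtype.ext ?_⟩
    show (x : LaurentSeries ↥K) = HahnSeries.C ((π : ↥(AK A K)) : ↥K) * (c : LaurentSeries ↥K)
    rw [hxc, ← coe_algebraMap_pi M' p A (π := π)]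
    rfl

/-- the kernel of the level-`K` Gauss reduction at the cusp `0` is `π O2_K`. -/
theorem gaussRed2_eq_zero_iff (x : ↥(FK (M' * p) K))
    (hx : x ∈ Fermat.Agent.ES.N34.ModelDefs9.O2 M' p hπ hE) :
    gaussRed (AK A K) ⟨Fermat.Agent.ES.N34.ModelDefs9.iota2 K M' p x, hx⟩ = 0 ↔
      ∃ c ∈ Fermat.Agent.ES.N34.ModelDefs9.O2 M' p hπ hE,
        x = algebraMap ↥(AK A K) ↥(FK (M' * p) K) π * c := by
  have hϖ0 : algebraMap ↥(AK A K) ↥(FK (M' * p) K) π ≠ 0 := by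
    intro h0
    have h1 := coe_algebraMap_pi M' p A (π := π)
    rw [h0] at h1
    exact C_pi_ne_zero A hπ h1.symm
  constructor
  · intro h
    obtain ⟨g, hg⟩ := (gaussRed_eq_zero_iff hπ
      ⟨Fermat.Agent.ES.N34.ModelDefs9.iota2 K M' p x, hx⟩).mp h
    have hg' : Fermat.Agent.ES.N34.ModelDefs9.iota2 K M' p x =
        HahnSeries.C ((π : ↥(AK A K)) : ↥K) * (g : LaurentSeries ↥K) := congrArg Subtype.val hg
    refine ⟨(algebraMap ↥(AK A K) ↥(FK (M' * p) K) π)⁻¹ * x, ?_, by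
      rw [mul_inv_cancel_left₀ hϖ0]⟩
    show Fermat.Agent.ES.N34.ModelDefs9.iota2 K M' p
      ((algebraMap ↥(AK A K) ↥(FK (M' * p) K) π)⁻¹ * x) ∈ gaussRing (AK A K)
    have h5 : Fermat.Agent.ES.N34.ModelDefs9.iota2 K M' p
        ((algebraMap ↥(AK A K) ↥(FK (M' * p) K) π)⁻¹ * x) = (g : LaurentSeries ↥K) := by
      apply mul_left_cancel₀ (C_pi_ne_zero A hπ)
      rw [← hg', ← iota2_algebraMap_pi M' p A (π := π), ← map_mul, mul_inv_cancel_left₀ hϖ0]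
    rw [h5]
    exact g.2
  · rintro ⟨c, hc, hxc⟩
    refine (gaussRed_eq_zero_iff hπ ⟨Fermat.Agent.ES.N34.ModelDefs9.iota2 K M' p x, hx⟩).mpr
      ⟨⟨Fermat.Agent.ES.N34.ModelDefs9.iota2 K M' p c, hc⟩, Subtype.ext ?_⟩
    show Fermat.Agent.ES.N34.ModelDefs9.iota2 K M' p x =
      HahnSeries.C ((π : ↥(AK A K)) : ↥K) * Fermat.Agent.ES.N34.ModelDefs9.iota2 K M' p c
    rw [hxc, map_mul, iota2_algebraMap_pi M' p A (π := π)]

variable (hp2 : p ≠ 2) (hpM : ¬ p ∣ M') (hM : 4 ∣ M') (hA : A.LiesOverPrime p)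
  (Bc : Subalgebra ↥(AK A K) ↥(FK (M' * p) K))
  (hB : ∀ b ∈ Bc, baseChangeHom (M' * p) K b ∈ GN M' p A)
  (le1 : ∀ x ∈ Bc, x ∈ Fermat.Agent.ES.N34.ModelDefs9.O1 M' p hπ hE)
  (le2 : ∀ x ∈ Bc, x ∈ Fermat.Agent.ES.N34.ModelDefs9.O2 M' p hπ hE)

include hp2 hpM hM hA le1 le2 in
/-- **`ker rhoK1 = Bc ∩ π O1_K`.** -/
theorem rhoK1_eq_zero_iff (b : ↥Bc) :
    rhoK1 M' p A K Bc hB b = 0 ↔
      ∃ c ∈ Fermat.Agent.ES.N34.ModelDefs9.O1 M' p hπ hE,
        (b : ↥(FK (M' * p) K)) = algebraMap ↥(AK A K) ↥(FK (M' * p) K) π * c := by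
  have hp : p.Prime := Fact.out
  haveI : NeZero p := ⟨hp.ne_zero⟩
  obtain ⟨hX, h1, -⟩ := Fermat.Agent.ES.W33.LevelCompare3.bc_mem_GN M' p A hp2 hpM hM hA hπ hE
    (b : ↥(FK (M' * p) K)) (le1 _ b.2) (le2 _ b.2)
  rw [← gaussRed1_eq_zero_iff M' p A hπ hE (b : ↥(FK (M' * p) K)) (le1 _ b.2)]
  have h2 : ((rhoK1 M' p A K Bc hB b : Ft M' A) : LaurentSeries (kA A)) =
      coeffMap (resMap A K)
        (gaussRed (AK A K) ⟨((b : ↥(FK (M' * p) K)) : LaurentSeries ↥K), le1 _ b.2⟩) := h1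
  constructor
  · intro h0
    rw [h0] at h2
    have h3 : coeffMap (resMap A K)
        (gaussRed (AK A K) ⟨((b : ↥(FK (M' * p) K)) : LaurentSeries ↥K), le1 _ b.2⟩) =
        coeffMap (resMap A K) 0 := by
      rw [← h2, map_zero]; rfl
    exact Fermat.Agent.ES.RED.GaussRing15.coeffMap_injective (resMap A K)
      (resMap_injective A K) h3
  · intro h0
    rw [h0, map_zero] at h2
    exact Subtype.ext h2

include hp2 hpM hM hA le1 le2 in
/-- **`ker rhoK2 = Bc ∩ π O2_K`.** -/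
theorem rhoK2_eq_zero_iff (b : ↥Bc) :
    rhoK2 M' p A K Bc hB b = 0 ↔
      ∃ c ∈ Fermat.Agent.ES.N34.ModelDefs9.O2 M' p hπ hE,
        (b : ↥(FK (M' * p) K)) = algebraMap ↥(AK A K) ↥(FK (M' * p) K) π * c := by
  have hp : p.Prime := Fact.out
  haveI : NeZero p := ⟨hp.ne_zero⟩
  obtain ⟨hX, -, h1⟩ := Fermat.Agent.ES.W33.LevelCompare3.bc_mem_GN M' p A hp2 hpM hM hA hπ hE
    (b : ↥(FK (M' * p) K)) (le1 _ b.2) (le2 _ b.2)
  rw [← gaussRed2_eq_zero_iff M' p A hπ hE (b : ↥(FK (M' * p) K)) (le2 _ b.2)]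
  have h2 : ((rhoK2 M' p A K Bc hB b : Ft M' A) : LaurentSeries (kA A)) =
      coeffMap (resMap A K)
        (gaussRed (AK A K)
          ⟨Fermat.Agent.ES.N34.ModelDefs9.iota2 K M' p (b : ↥(FK (M' * p) K)), le2 _ b.2⟩) := h1
  constructor
  · intro h0
    rw [h0] at h2
    have h3 : coeffMap (resMap A K)
        (gaussRed (AK A K)
          ⟨Fermat.Agent.ES.N34.ModelDefs9.iota2 K M' p (b : ↥(FK (M' * p) K)), le2 _ b.2⟩) =
        coeffMap (resMap A K) 0 := by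
      rw [← h2, map_zero]; rfl
    exact Fermat.Agent.ES.RED.GaussRing15.coeffMap_injective (resMap A K)
      (resMap_injective A K) h3
  · intro h0
    rw [h0, map_zero] at h2
    exact Subtype.ext h2

include hp2 hpM hM hA le1 le2 in
/-- **(C1) at one chart**: strong node coordinates at `Bc` give the named input `htrans` of
`SurjAsmN24.exists_lift_of_glued`. -/
theorem transAt_rhoK
    (hS : ∀ 𝔪 : Ideal ↥Bc, 𝔪.IsMaximal → algebraMap ↥(AK A K) ↥Bc π ∈ 𝔪 →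
      ¬ Fermat.Agent.ES.N34.NodalCore13.OffBranch π Bc
          (Fermat.Agent.ES.N34.ModelDefs9.O1 M' p hπ hE) 𝔪 →
      ¬ Fermat.Agent.ES.N34.NodalCore13.OffBranch π Bc
          (Fermat.Agent.ES.N34.ModelDefs9.O2 M' p hπ hE) 𝔪 →
      Fermat.Agent.ES.N35.NodeStrong4.StrongCoords π Bc
        (Fermat.Agent.ES.N34.ModelDefs9.O1 M' p hπ hE)
        (Fermat.Agent.ES.N34.ModelDefs9.O2 M' p hπ hE) 𝔪) :
    ∀ 𝔪 : Ideal ↥Bc,
      IsNode (RingHom.ker (rhoK1 M' p A K Bc hB)) (RingHom.ker (rhoK2 M' p A K Bc hB)) 𝔪 →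
        TransAt (RingHom.ker (rhoK1 M' p A K Bc hB)) (RingHom.ker (rhoK2 M' p A K Bc hB)) 𝔪 :=
  Fermat.Agent.ES.W33.NodeCoordsN29.transAt_ker π Bc _ _ (rhoK1 M' p A K Bc hB)
    (rhoK2 M' p A K Bc hB)
    (rhoK1_eq_zero_iff M' p A hπ hE hp2 hpM hM hA Bc hB le1 le2)
    (rhoK2_eq_zero_iff M' p A hπ hE hp2 hpM hM hA Bc hB le1 le2) hS

end Ker

/-! ### all large Galois `K` -/

section Large

variable (K) in
/-- **the named input `htrans` of `SurjAsmN24.exists_lift_of_glued` at the chart `Bc`**, for every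
proof `hB` of `bc (Bc) ⊆ GN`. -/
def TransRhoK (Bc : Subalgebra ↥(AK A K) ↥(FK (M' * p) K)) : Prop :=
  ∀ (hB : ∀ b ∈ Bc, baseChangeHom (M' * p) K b ∈ GN M' p A) (𝔪 : Ideal ↥Bc),
    IsNode (RingHom.ker (rhoK1 M' p A K Bc hB)) (RingHom.ker (rhoK2 M' p A K Bc hB)) 𝔪 →
      TransAt (RingHom.ker (rhoK1 M' p A K Bc hB)) (RingHom.ker (rhoK2 M' p A K Bc hB)) 𝔪

/-- `TransRhoK` from the strong node coordinates and the inclusions in the two Gauss rings. -/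
theorem transRhoK_of_strong (hp2 : p ≠ 2) (hpM : ¬ p ∣ M') (hM : 4 ∣ M') (hA : A.LiesOverPrime p)
    {π : ↥(AK A K)} (hπ : IsUnif (AK A K) π) (hE : FK (M' * p) K ≤ fracField (AK A K))
    (Bc : Subalgebra ↥(AK A K) ↥(FK (M' * p) K))
    (le1 : ∀ x ∈ Bc, x ∈ Fermat.Agent.ES.N34.ModelDefs9.O1 M' p hπ hE)
    (le2 : ∀ x ∈ Bc, x ∈ Fermat.Agent.ES.N34.ModelDefs9.O2 M' p hπ hE)
    (hS : ∀ 𝔪 : Ideal ↥Bc, 𝔪.IsMaximal → algebraMap ↥(AK A K) ↥Bc π ∈ 𝔪 →
      ¬ Fermat.Agent.ES.N34.NodalCore13.OffBranch π Bc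
          (Fermat.Agent.ES.N34.ModelDefs9.O1 M' p hπ hE) 𝔪 →
      ¬ Fermat.Agent.ES.N34.NodalCore13.OffBranch π Bc
          (Fermat.Agent.ES.N34.ModelDefs9.O2 M' p hπ hE) 𝔪 →
      Fermat.Agent.ES.N35.NodeStrong4.StrongCoords π Bc
        (Fermat.Agent.ES.N34.ModelDefs9.O1 M' p hπ hE)
        (Fermat.Agent.ES.N34.ModelDefs9.O2 M' p hπ hE) 𝔪) :
    TransRhoK M' p A K Bc :=
  fun hB => transAt_rhoK M' p A hπ hE hp2 hpM hM hA Bc hB le1 le2 hS

/-- **(C1) + `hk_i`, FINAL, UNCONDITIONAL**: there is a number field `K₀` such that for every number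
field `K ⊇ K₀` normal over `ℚ`, every `ht` (with `tK := ModelDefs9.tN p ht`): the named inputs
`htrans0` (chart `chart ↥(AK A K) tK = B0 A p ht`) and `htrans1` (chart
`chart ↥(AK A K) tK⁻¹ = B1 A p ht`) of `SurjAsmN24.surjPropN_of` hold, for every proof `hB`. -/
theorem htransN (hpM : ¬ p ∣ M') (hp2 : p ≠ 2) (hM : 4 ∣ M') (hA : A.LiesOverPrime p) :
    ∃ K₀ : IntermediateField ℚ Qbar, FiniteDimensional ℚ K₀ ∧
      ∀ (K : IntermediateField ℚ Qbar) [Normal ℚ K], FiniteDimensional ℚ K → K₀ ≤ K →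
        ∀ (ht : tq ↥K 4 8 ∈ FK M' K),
          TransRhoK M' p A K (Fermat.Agent.ES.N34.ModelDefs9.B0 A p ht) ∧
            TransRhoK M' p A K (Fermat.Agent.ES.N34.ModelDefs9.B1 A p ht) := by
  have hp : p.Prime := Fact.out
  haveI : NeZero p := ⟨hp.ne_zero⟩
  obtain ⟨K₁, hK₁, H₁⟩ :=
    Fermat.Agent.ES.W33.NodeCoordsN29.strongNodesN M' p A hpM hp2 hM hA
  obtain ⟨K₂, hK₂, H₂⟩ :=
    Fermat.Agent.ES.N34.ModelEnd4.modelInput_four p M' A hp hpM hp2 hM hA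
  refine ⟨K₁ ⊔ K₂, inferInstance, fun K _ hK hle ht => ?_⟩
  obtain ⟨ht', hE, HK⟩ := H₂ K hK (le_sup_right.trans hle)
  have hdvr : IsDiscreteValuationRing ↥(AK A K) := isDiscreteValuationRing_AK A K hp.ne_zero hA
  obtain ⟨ϖ, hϖ⟩ := IsDiscreteValuationRing.exists_irreducible ↥(AK A K)
  have hu : IsUnif (AK A K) ϖ := isUnif_of_irreducible (AK A K) hϖ
  have hm : Fermat.Agent.ES.N34.NodalCore13.NodalTwoChartModel ↥(AK A K) ↥(FK (M' * p) K) ϖ
      (Fermat.Agent.ES.N34.ModelDefs9.tN p ht) (Fermat.Agent.ES.N34.ModelDefs9.B0 A p ht)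
      (Fermat.Agent.ES.N34.ModelDefs9.B1 A p ht)
      (Fermat.Agent.ES.N34.ModelDefs9.O1 M' p hu hE)
      (Fermat.Agent.ES.N34.ModelDefs9.O2 M' p hu hE) := (HK ϖ hu).model
  have HS := H₁ K hK (le_sup_left.trans hle) ht hE ϖ hu
  have h0 := HS.1
  have h1 := HS.2
  have t0 : TransRhoK M' p A K (Fermat.Agent.ES.N34.ModelDefs9.B0 A p ht) :=
    transRhoK_of_strong M' p A hp2 hpM hM hA hu hE _ hm.le_O1_0 hm.le_O2_0 h0
  have t1 : TransRhoK M' p A K (Fermat.Agent.ES.N34.ModelDefs9.B1 A p ht) :=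
    transRhoK_of_strong M' p A hp2 hpM hM hA hu hE _ hm.le_O1_1 hm.le_O2_1 h1
  exact And.intro t0 t1

end Large

end Fermat.Agent.ES.W33.TransInstN29
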