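/-
Programme W (S33), chapter B1′, leaf (M4) `SurjPropN`, piece (C2) `hD`, inputs **`hsep12` / `hsep21`**
of helper6's `HdNode6.hD_B0 / hD_B1` (helper12): on each of the two charts
`Bc = chart ↥(AK A K) (tN p ht)^{±1}` of level `K`, NEITHER VERTICAL KERNEL CONTAINS THE OTHER:

  `∃ b : ↥Bc, rhoK2 … b = 0 ∧ rhoK1 … b ≠ 0`   (`b := t - y^p`),
  `∃ b : ↥Bc, rhoK1 … b = 0 ∧ rhoK2 … b ≠ 0`   (`b := y - t^p`),

`t := tN_K^{±1}`, `y := yN_K^{±1}` (`yN = β (tM)`), for all large Galois `K`, every `ht` and every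
proof `hB0`, `hB1` of `bc (Bc) ⊆ GN`.

* `= 0` halves: helper1's `LocElemN1.locElem_four` (the four Kronecker congruences at level `K`,
  `yN ∈ B0`, `yN⁻¹ ∈ B1`) + helper29's `TransInstN29.rhoK1_eq_zero_iff / rhoK2_eq_zero_iff`;
* `≠ 0` halves: helper1's abstract `LocElemN1.pair_ne_zero` with `ρ_i t` transcendental — helper4's
  `TransN4.transcendental_redN_fst / _snd` (and `ρ_i (t⁻¹) = (ρ_i t)⁻¹` on chart 1).
-/
import Mathlib
import Fermat.Agent.ES.W33.LocElemN1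
import Fermat.Agent.ES.W33.TransInstN29
import Fermat.Agent.ES.W33.LevelInstN24

set_option autoImplicit false
set_option linter.unusedSectionVars false
set_option linter.dupNamespace false
set_option linter.style.haveILetI false
set_option synthInstance.maxHeartbeats 400000
set_option maxHeartbeats 1000000

open AlgebraicCurve ModularCurve IntermediateField HahnSeries

noncomputable section

namespace Fermat.Agent.ES.W33.HsepN12

open Fermat.Agent.RED.Interface4 Fermat.Agent.RED.DESC.PlaceExtend27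
  Fermat.Agent.RED.DESC.NumberFieldDVR27
  Fermat.Agent.RED.PUR.ChartGeneric22 Fermat.Agent.RED.PUR.GaussGen8
  Fermat.Agent.RED.BASE.EtaQuot12 Fermat.Agent.RED.BASE.Interface12
  Fermat.Agent.RED.BASE.Hauptmodul12
  Fermat.Agent.ES.RED.Contract8 Fermat.Agent.ES.RED.ModelInst4
  Fermat.Agent.ES.V19.CechIface12 Fermat.Agent.ES.N34.ModelDefs9
  Fermat.Agent.ES.W33.NodalDefs3 Fermat.Agent.ES.W33.SurjAsmN24

/-- an inverse of a transcendental element is transcendental. -/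
theorem transcendental_of_mul_eq_one {k F : Type*} [Field k] [Field F] [Algebra k F] {a b : F}
    (h : a * b = 1) (ha : Transcendental k a) : Transcendental k b := by
  intro hb
  apply ha
  have hab : a = b⁻¹ := eq_inv_of_mul_eq_one_left h
  rw [hab]
  exact hb.inv

variable (M' : ℕ) [NeZero M'] (p : ℕ) [Fact p.Prime] (A : ValuationSubring Qbar)

section Chart

variable {M' p A}
variable {K : IntermediateField ℚ Qbar}

/-- **`hsep12 ∧ hsep21` on one chart `Bc` of level `K`**, from two elements `t y : ↥Bc` with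
`y - t^p ∈ π O1`, `t - y^p ∈ π O2` and `ρ₁ t`, `ρ₂ t` transcendental. -/
theorem hsep_chart (hp2 : p ≠ 2) (hpM : ¬ p ∣ M') (hM : 4 ∣ M') (hA : A.LiesOverPrime p)
    {π : ↥(AK A K)} (hπ : IsUnif (AK A K) π) (hE : FK (M' * p) K ≤ fracField (AK A K))
    (Bc : Subalgebra ↥(AK A K) ↥(FK (M' * p) K))
    (hB : ∀ b ∈ Bc, baseChangeHom (M' * p) K b ∈ GN M' p A)
    (le1 : ∀ x ∈ Bc, x ∈ O1 M' p hπ hE) (le2 : ∀ x ∈ Bc, x ∈ O2 M' p hπ hE)
    (t y : ↥Bc)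
    (k1 : ∃ o ∈ O1 M' p hπ hE, (y : ↥(FK (M' * p) K)) - (t : ↥(FK (M' * p) K)) ^ p =
      algebraMap ↥(AK A K) ↥(FK (M' * p) K) π * o)
    (k2 : ∃ o ∈ O2 M' p hπ hE, (t : ↥(FK (M' * p) K)) - (y : ↥(FK (M' * p) K)) ^ p =
      algebraMap ↥(AK A K) ↥(FK (M' * p) K) π * o)
    (tr1 : Transcendental (kA A) (rhoK1 M' p A K Bc hB t))
    (tr2 : Transcendental (kA A) (rhoK2 M' p A K Bc hB t)) :
    (∃ b : ↥Bc, rhoK2 M' p A K Bc hB b = 0 ∧ rhoK1 M' p A K Bc hB b ≠ 0) ∧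
      ∃ b : ↥Bc, rhoK1 M' p A K Bc hB b = 0 ∧ rhoK2 M' p A K Bc hB b ≠ 0 := by
  have hp : p.Prime := Fact.out
  have h1 : rhoK1 M' p A K Bc hB (y - t ^ p) = 0 := by
    rw [Fermat.Agent.ES.W33.TransInstN29.rhoK1_eq_zero_iff M' p A hπ hE hp2 hpM hM hA Bc hB le1 le2]
    obtain ⟨o, ho, h⟩ := k1
    exact ⟨o, ho, h⟩
  have h2 : rhoK2 M' p A K Bc hB (t - y ^ p) = 0 := by
    rw [Fermat.Agent.ES.W33.TransInstN29.rhoK2_eq_zero_iff M' p A hπ hE hp2 hpM hM hA Bc hB le1 le2]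
    obtain ⟨o, ho, h⟩ := k2
    exact ⟨o, ho, h⟩
  obtain ⟨n1, n2⟩ := Fermat.Agent.ES.W33.LocElemN1.pair_ne_zero (k := kA A)
    (rhoK1 M' p A K Bc hB) (rhoK2 M' p A K Bc hB) t y hp.two_le h1 h2 tr1 tr2
  exact ⟨⟨t - y ^ p, h2, n1⟩, ⟨y - t ^ p, h1, n2⟩⟩

end Chart

/-- the two reductions of `t⁻¹` are transcendental. -/
theorem transcendental_redN_inv (hpM : ¬ p ∣ M') (hM : 4 ∣ M') (hA : A.LiesOverPrime p)
    (htG : Fermat.Agent.ES.W33.NodalDefs3.tN 4 8 M' p baseHyp_four hM ∈ GN M' p A)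
    (hf : (Fermat.Agent.ES.W33.NodalDefs3.tN 4 8 M' p baseHyp_four hM)⁻¹ ∈ GN M' p A) :
    Transcendental (kA A) (redN M' p A ⟨_, hf⟩).1 ∧
      Transcendental (kA A) (redN M' p A ⟨_, hf⟩).2 := by
  have t1 := Fermat.Agent.ES.W33.TransN4.transcendental_redN_fst 4 8 M' p baseHyp_four hM A htG
  have t2 :=
    Fermat.Agent.ES.W33.TransN4.transcendental_redN_snd 4 8 M' p baseHyp_four hM A hpM hA htG
  have hmul : redN M' p A ⟨Fermat.Agent.ES.W33.NodalDefs3.tN 4 8 M' p baseHyp_four hM, htG⟩ *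
      redN M' p A ⟨(Fermat.Agent.ES.W33.NodalDefs3.tN 4 8 M' p baseHyp_four hM)⁻¹, hf⟩ = 1 := by
    rw [← map_mul, ← map_one (redN M' p A)]
    congr 1
    exact Subtype.ext (mul_inv_cancel₀
      (Fermat.Agent.ES.W33.Reg01PropN13.tN_ne_zero 4 8 M' p baseHyp_four hM))
  have hf1 : (redN M' p A ⟨Fermat.Agent.ES.W33.NodalDefs3.tN 4 8 M' p baseHyp_four hM, htG⟩).1 *
      (redN M' p A ⟨(Fermat.Agent.ES.W33.NodalDefs3.tN 4 8 M' p baseHyp_four hM)⁻¹, hf⟩).1 = 1 :=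
    congrArg Prod.fst hmul
  have hf2 : (redN M' p A ⟨Fermat.Agent.ES.W33.NodalDefs3.tN 4 8 M' p baseHyp_four hM, htG⟩).2 *
      (redN M' p A ⟨(Fermat.Agent.ES.W33.NodalDefs3.tN 4 8 M' p baseHyp_four hM)⁻¹, hf⟩).2 = 1 :=
    congrArg Prod.snd hmul
  exact ⟨transcendental_of_mul_eq_one (k := kA A) (F := Ft M' A) hf1 t1,
    transcendental_of_mul_eq_one (k := kA A) (F := Ft M' A) hf2 t2⟩

/-- transport along an equation `f = t`. -/
theorem transcendental_redN_of_eq (hpM : ¬ p ∣ M') (hM : 4 ∣ M') (hA : A.LiesOverPrime p)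
    (f : ↥(Fbar (M' * p))) (hf : f ∈ GN M' p A)
    (h : f = Fermat.Agent.ES.W33.NodalDefs3.tN 4 8 M' p baseHyp_four hM) :
    Transcendental (kA A) (redN M' p A ⟨f, hf⟩).1 ∧
      Transcendental (kA A) (redN M' p A ⟨f, hf⟩).2 := by
  subst h
  exact ⟨Fermat.Agent.ES.W33.TransN4.transcendental_redN_fst 4 8 M' p baseHyp_four hM A hf,
    Fermat.Agent.ES.W33.TransN4.transcendental_redN_snd 4 8 M' p baseHyp_four hM A hpM hA hf⟩

/-- transport along an equation `f = t⁻¹`. -/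
theorem transcendental_redN_of_eq_inv (hpM : ¬ p ∣ M') (hM : 4 ∣ M') (hA : A.LiesOverPrime p)
    (htG : Fermat.Agent.ES.W33.NodalDefs3.tN 4 8 M' p baseHyp_four hM ∈ GN M' p A)
    (f : ↥(Fbar (M' * p))) (hf : f ∈ GN M' p A)
    (h : f = (Fermat.Agent.ES.W33.NodalDefs3.tN 4 8 M' p baseHyp_four hM)⁻¹) :
    Transcendental (kA A) (redN M' p A ⟨f, hf⟩).1 ∧
      Transcendental (kA A) (redN M' p A ⟨f, hf⟩).2 := by
  subst h
  exact transcendental_redN_inv M' p A hpM hM hA htG hf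

/-- **`hsep12`, `hsep21` on both charts, all large Galois `K`.** -/
theorem hsepN (hpM : ¬ p ∣ M') (hp2 : p ≠ 2) (hM : 4 ∣ M') (hA : A.LiesOverPrime p) :
    ∃ K₀ : IntermediateField ℚ Qbar, FiniteDimensional ℚ K₀ ∧
      ∀ (K : IntermediateField ℚ Qbar) [Normal ℚ K], FiniteDimensional ℚ K → K₀ ≤ K →
        ∀ (ht : tq ↥K 4 8 ∈ FK M' K)
          (hB0 : ∀ b ∈ chart ↥(AK A K) (tN p ht), baseChangeHom (M' * p) K b ∈ GN M' p A)
          (hB1 : ∀ b ∈ chart ↥(AK A K) (tN p ht)⁻¹, baseChangeHom (M' * p) K b ∈ GN M' p A),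
          ((∃ b : ↥(chart ↥(AK A K) (tN p ht)),
              rhoK2 M' p A K _ hB0 b = 0 ∧ rhoK1 M' p A K _ hB0 b ≠ 0) ∧
            ∃ b : ↥(chart ↥(AK A K) (tN p ht)),
              rhoK1 M' p A K _ hB0 b = 0 ∧ rhoK2 M' p A K _ hB0 b ≠ 0) ∧
          (∃ b : ↥(chart ↥(AK A K) (tN p ht)⁻¹),
              rhoK2 M' p A K _ hB1 b = 0 ∧ rhoK1 M' p A K _ hB1 b ≠ 0) ∧
            ∃ b : ↥(chart ↥(AK A K) (tN p ht)⁻¹),
              rhoK1 M' p A K _ hB1 b = 0 ∧ rhoK2 M' p A K _ hB1 b ≠ 0 := by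
  have hp : p.Prime := Fact.out
  haveI : NeZero p := ⟨hp.ne_zero⟩
  obtain ⟨K₁, hK₁, H₁⟩ := Fermat.Agent.ES.W33.LevelInstN24.levelInputsN M' p A hpM hp2 hM hA
  obtain ⟨K₂, hK₂, H₂⟩ := Fermat.Agent.ES.W33.LocElemN1.locElem_four M' p A hp hpM hp2 hM hA
  haveI := hK₁
  haveI := hK₂
  refine ⟨K₁ ⊔ K₂, inferInstance, fun K _ hKf hle ht hB0 hB1 => ?_⟩
  obtain ⟨ht', hE, hbc, -, -, -, -, -, -, -, ⟨π, hπ⟩, HK⟩ := H₁ K hKf (le_sup_left.trans hle)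
  obtain ⟨ht'', hE', HL⟩ := H₂ K hKf (le_sup_right.trans hle)
  obtain ⟨hy0, hy1, k1, k2, k3, k4⟩ := HL π hπ
  have hm := (HK π hπ).model
  -- transcendence of the two reductions of `tN` and of `tN⁻¹`
  have htG : Fermat.Agent.ES.W33.NodalDefs3.tN 4 8 M' p baseHyp_four hM ∈ GN M' p A := by
    have h := hB0 _ (self_mem_chart (tN p ht))
    rw [hbc] at h
    exact h
  refine ⟨?_, ?_⟩
  · -- chart 0
    have tr := transcendental_redN_of_eq M' p A hpM hM hA (baseChangeHom (M' * p) K (tN p ht))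
      (hB0 _ (self_mem_chart (tN p ht))) hbc
    exact hsep_chart hp2 hpM hM hA hπ hE (chart ↥(AK A K) (tN p ht)) hB0 hm.le_O1_0 hm.le_O2_0
      ⟨tN p ht, self_mem_chart (tN p ht)⟩ ⟨yN p ht, hy0⟩ k1 k2 tr.1 tr.2
  · -- chart 1
    have hbc' : baseChangeHom (M' * p) K (tN p ht)⁻¹ =
        (Fermat.Agent.ES.W33.NodalDefs3.tN 4 8 M' p baseHyp_four hM)⁻¹ := by
      rw [map_inv₀, hbc]
    have tr := transcendental_redN_of_eq_inv M' p A hpM hM hA htG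
      (baseChangeHom (M' * p) K (tN p ht)⁻¹) (hB1 _ (self_mem_chart (tN p ht)⁻¹)) hbc'
    exact hsep_chart hp2 hpM hM hA hπ hE (chart ↥(AK A K) (tN p ht)⁻¹) hB1 hm.le_O1_1 hm.le_O2_1
      ⟨(tN p ht)⁻¹, self_mem_chart (tN p ht)⁻¹⟩ ⟨(yN p ht)⁻¹, hy1⟩ k3 k4 tr.1 tr.2

end Fermat.Agent.ES.W33.HsepN12
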