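/-
Programme W (S33), chapter B3′ (helper20): **THE NODE FIELDS OF `NodalDefs3.NodalRedCtx` AND
`nodes_inj`, AT `rN` / `nodesN`, FROM ONE BUNDLE OF NAMED LEAVES** (ruling (A): the instance keeps the
`NodalDefs3` names; the transfer from the chart-intrinsic `T.r` is `TwoChartsNRN20.TR_r`).

`RNLeaves n e M' p hpM hb hnM A hA : Prop` — everything my chapter still needs:
* `L  : ChartLeaves …`                (helper16 `ChartLeavesN16.chartLeaves_four`);
* `R  : R1Leaves … L`                 (branch 1: `O_{r1 P} = cSubring χ_P ρ₁` at every centre on `C₁`);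
* `places₂0`, `places₂1`              (branch 2: (VAL) + (PIR) at the centres lying on `C₂` only, both
                                       charts), `node₂` (branch 2 at the nodes: SOME place has the
                                       valuation ring `cSubring χ_P ρ₂`);  all three follow from
                                       `ex₂0`, `ex₂1` (`RNLeaves.of_exists`);
* `tr₁`, `tr₂`, `no_node1`, `fin`     (transcendence of `t` on both branches, no node over `t = ∞`,
                                       finitely many two-component centres);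
* `inv_mem`                           (`g ∈ GN`, both reductions nonzero ⇒ `g⁻¹ ∈ GN`).
(HARTOGS_j) is NOT a leaf: it is helper13's `HartogsN13.hartogs` at `T := TR …`.

EXITS (`H : RNLeaves …`), literal shapes of `XiIfaceN29.RedCtxN` / `GeoNames23.NodalInstHyp`:
`H.smooth`, `H.glue`, `H.glue_unit`, `H.nodes_inj`; and `H.T`, `H.T_r : H.T.r P = rN … P`,
`H.nodePlaces`, `H.gaussExt`, `H.placeLeaves`, `H.nodeVal`.
-/
import Mathlib
import Fermat.Agent.ES.W33.TwoChartsNRN20
import Fermat.Agent.ES.W33.HartogsN13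

set_option autoImplicit false
set_option synthInstance.maxHeartbeats 400000
set_option linter.unusedSectionVars false

open HahnSeries ModularCurve AlgebraicCurve
open scoped MatrixGroups

noncomputable section

namespace Fermat.Agent.ES.W33.NodalCtxRN20

open Fermat.Agent.RED.Interface4 Fermat.Agent.RED.BASE.Interface12 Fermat.Agent.RED.BASE.Hauptmodul12
  Fermat.Agent.RED.PUR.ChartGeneric22
  Fermat.Agent.ES.RED.Contract8 Fermat.Agent.ES.RED.ModelInst4 Fermat.Agent.ES.RED.GaussRing15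
  Fermat.Agent.ES.RED.PlaceValue13 Fermat.Agent.ES.RED.SpecialInv25
  Fermat.Agent.X0 Fermat.Agent.X0.FF
  Fermat.Agent.ES.V19.GaussFrac15 Fermat.Agent.ES.V19.InstNames3 Fermat.Agent.ES.W33.XiIfaceN29
  Fermat.Agent.ES.W33.NodalDefs3
open Fermat.Agent.ES.W33.CentreN20 Fermat.Agent.ES.W33.NodalChart20 Fermat.Agent.ES.W33.TwoChartsN20
  Fermat.Agent.ES.W33.TwoChartsNOf20 Fermat.Agent.ES.W33.TwoChartsNCore20
  Fermat.Agent.ES.W33.NodalGlue20 Fermat.Agent.ES.W33.ValAt29 Fermat.Agent.ES.W33.TwoChartsNInst20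
  Fermat.Agent.ES.W33.TwoChartsNRN20

attribute [local instance 5000] HahnSeries.powerSeriesAlgebra SubalgebraClass.toAlgebra

variable (n e M' : ℕ) [NeZero n] [NeZero M'] (p : ℕ) [Fact p.Prime] (hpM : ¬ p ∣ M')
  (hb : BaseHyp n e) (hnM : n ∣ M') (A : ValuationSubring Qbar) (hA : A.LiesOverPrime p)

/-- **the leaves of the node chapter of (B3′)**, see the file header. -/
structure RNLeaves : Prop where
  L : ChartLeaves n e M' p hb hnM A
  R : R1Leaves n e M' p hpM hb hnM A hA L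
  places₂0 : (S0N L).HasPlaces₂
  places₂1 : (S1N L).HasPlaces₂
  node₂ : ∀ (P : Place Qbar ↥(Fbar (M' * p))) (hP : (S0N L).InChart P), (S0N L).On₁ P hP →
    (S0N L).On₂ P hP →
    ∃ X : Place (kA A) (Ft M' A), ∀ y, y ∈ X.toValuationSubring ↔
      y ∈ cSubring ((S0N L).chi P hP) (S0N L).ρ₂
  tr₁ : Transcendental (kA A) ((S0N L).ρ₁ (S0N L).sB)
  tr₂ : Transcendental (kA A) ((S0N L).ρ₂ (S0N L).sB)
  no_node1 : ∀ (P : Place Qbar ↥(Fbar (M' * p))) (h1 : (S1N L).InChart P), ¬ (S0N L).InChart P →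
    ¬ ((S1N L).On₁ P h1 ∧ (S1N L).On₂ P h1)
  fin : Finite ↥(nodeCentres (S0N L))
  inv_mem : ∀ g : ↥(GN M' p A), (redN M' p A g).1 ≠ 0 → (redN M' p A g).2 ≠ 0 →
    (g : ↥(Fbar (M' * p)))⁻¹ ∈ GN M' p A

/-- `RNLeaves` from the EXISTENCE of the branch-2 places at every centre on the second component,
both charts. -/
theorem RNLeaves.of_exists (L : ChartLeaves n e M' p hb hnM A)
    (R : R1Leaves n e M' p hpM hb hnM A hA L)
    (ex₂0 : ∀ (P : Place Qbar ↥(Fbar (M' * p))) (hP : (S0N L).InChart P), (S0N L).On₂ P hP →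
      ∃ X : Place (kA A) (Ft M' A), ∀ y, y ∈ X.toValuationSubring ↔
        y ∈ cSubring ((S0N L).chi P hP) (S0N L).ρ₂)
    (ex₂1 : ∀ (P : Place Qbar ↥(Fbar (M' * p))) (hP : (S1N L).InChart P), (S1N L).On₂ P hP →
      ∃ X : Place (kA A) (Ft M' A), ∀ y, y ∈ X.toValuationSubring ↔
        y ∈ cSubring ((S1N L).chi P hP) (S1N L).ρ₂)
    (tr₁ : Transcendental (kA A) ((S0N L).ρ₁ (S0N L).sB))
    (tr₂ : Transcendental (kA A) ((S0N L).ρ₂ (S0N L).sB))
    (no_node1 : ∀ (P : Place Qbar ↥(Fbar (M' * p))) (h1 : (S1N L).InChart P),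
      ¬ (S0N L).InChart P → ¬ ((S1N L).On₁ P h1 ∧ (S1N L).On₂ P h1))
    (fin : Finite ↥(nodeCentres (S0N L)))
    (inv_mem : ∀ g : ↥(GN M' p A), (redN M' p A g).1 ≠ 0 → (redN M' p A g).2 ≠ 0 →
      (g : ↥(Fbar (M' * p)))⁻¹ ∈ GN M' p A) :
    RNLeaves n e M' p hpM hb hnM A hA where
  L := L
  R := R
  places₂0 := hasPlaces₂_of_exists (S0N L) ex₂0
  places₂1 := hasPlaces₂_of_exists (S1N L) ex₂1
  node₂ := fun P hP _ h2 => ex₂0 P hP h2
  tr₁ := tr₁
  tr₂ := tr₂
  no_node1 := no_node1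
  fin := fin
  inv_mem := inv_mem

namespace RNLeaves

variable {n e M' p hpM hb hnM A hA}
variable (H : RNLeaves n e M' p hpM hb hnM A hA)

/-- the place leaves. -/
theorem placeLeaves : PlaceLeaves H.L :=
  placeLeaves_of H.R H.places₂0 H.places₂1 H.tr₁ H.tr₂ H.no_node1 H.fin

/-- **THE NODAL TWO-CHART MODEL OF THE INSTANCE** (nodes enumerated by `nodeFin`). -/
def T : TwoChartsN A (hxN n e M' p hb hnM) (Ft M' A) (Ft M' A) (sN n e M' p hpM hb hnM A hA) :=
  TR H.placeLeaves H.R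

/-- **`T.r = rN`.** -/
theorem T_r (P : Place Qbar ↥(Fbar (M' * p))) : H.T.r P = rN n e M' p hpM hb hnM A hA P :=
  TR_r H.placeLeaves H.R P

/-- the node places `nodesN` are the two branches of the nodes. -/
theorem nodePlaces : NodePlaces H.T (nodesN n e M' p hpM hb hnM A hA) :=
  nodePlaces_nodesN H.placeLeaves H.R H.node₂

/-- (VAL) + (PIR) at the node centres. -/
theorem nodeVal : NodeVal H.T := nodeVal_of_exists H.placeLeaves H.R H.node₂

/-- the node centres are the residue map on the constants. -/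
theorem nodeChi_const (j : Fin (sN n e M' p hpM hb hnM A hA)) (a : ↥A) :
    H.T.nodeChi j (H.T.S0.const a) = resA A a := by
  obtain ⟨P, h0, hχ⟩ := nodesReal_TR H.placeLeaves H.R j
  have hχ' : (S0N H.L).chi P h0 = H.T.nodeChi j := hχ
  rw [← hχ']
  exact (S0N H.L).chi_const P h0 a

/-- **`GaussExt`** (with (HARTOGS_j) from `HartogsN13`). -/
theorem gaussExt : GaussExt H.T (GN M' p A) (redN M' p A) := by
  have : FiniteDimensional (IntermediateField.adjoin Qbar {H.T.S0.s}) ↥(Fbar (M' * p)) :=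
    (hxN n e M' p hb hnM).finite
  exact Fermat.Agent.ES.W33.HartogsN13.gaussExt_of H.T (G := GN M' p A) (red := redN M' p A)
    (fun b hb' => H.L.h0 b hb') (fun _ => rfl) H.inv_mem H.nodeChi_const
    (hxN n e M' p hb hnM).transcendental
    (fun b hb' => Fermat.Agent.ES.W33.HartogsN13.mem_chartL_of_mem_chartA A hb')
    (fun f hf => Fermat.Agent.ES.W33.HartogsN13.exists_const_mul_mem_chartA A hf)

include H in
/-- **`RedCtxN.smooth`** at `rN`, `nodesN`. -/
theorem smooth (P : Place Qbar ↥(Fbar (M' * p))) (Q : SPt (kA A) (Ft M' A) (Ft M' A))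
    (h : rN n e M' p hpM hb hnM A hA P = Sum.inl Q) :
    (nodesN n e M' p hpM hb hnM A hA).IsSmooth Q :=
  smooth_rN H.placeLeaves H.R H.node₂ P Q h

include H in
/-- **`RedCtxN.glue`** at `rN`, `nodesN`. -/
theorem glue (g : ↥(GN M' p A)) (j : Fin (sN n e M' p hpM hb hnM A hA))
    (h : ∀ P : Place Qbar ↥(Fbar (M' * p)), rN n e M' p hpM hb hnM A hA P = Sum.inr j →
      0 ≤ P.ord (g : ↥(Fbar (M' * p)))) :
    (nodesN n e M' p hpM hb hnM A hA).GluedAt (redN M' p A g) j :=
  glue_rN H.placeLeaves H.R H.node₂ H.gaussExt g j h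

include H in
/-- **`RedCtxN.glue_unit`** at `rN`, `nodesN`. -/
theorem glue_unit (g : ↥(GN M' p A)) (j : Fin (sN n e M' p hpM hb hnM A hA))
    (h : ∀ P : Place Qbar ↥(Fbar (M' * p)), rN n e M' p hpM hb hnM A hA P = Sum.inr j →
      P.ord (g : ↥(Fbar (M' * p))) = 0)
    (h1 : (redN M' p A g).1 ≠ 0) (h2 : (redN M' p A g).2 ≠ 0) :
    ∃ c : kA A, c ≠ 0 ∧ ValAt ((nodesN n e M' p hpM hb hnM A hA).ν₁ j) (redN M' p A g).1 c ∧
      ValAt ((nodesN n e M' p hpM hb hnM A hA).ν₂ j) (redN M' p A g).2 c :=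
  glue_unit_rN H.placeLeaves H.R H.node₂ H.gaussExt g j h h1 h2

include H in
/-- **`NodalInstHyp.nodes_inj`** at `nodesN`. -/
theorem nodes_inj : Function.Injective (nodesN n e M' p hpM hb hnM A hA).ν₁ :=
  nodesN_inj H.placeLeaves H.R H.node₂

/-- `0 < sN` as soon as some centre of chart 0 lies on both components. -/
theorem sN_pos {P : Place Qbar ↥(Fbar (M' * p))} (h0 : (S0N H.L).InChart P)
    (h1 : (S0N H.L).On₁ P h0) (h2 : (S0N H.L).On₂ P h0) :
    0 < sN n e M' p hpM hb hnM A hA := by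
  obtain ⟨j, -⟩ := exists_nodeFin_eq H.placeLeaves H.R h0 h1 h2
  exact Fin.pos j

/-- the reduction of a place is a node iff its centre is the node centre. -/
theorem rN_eq_inr_iff (P : Place Qbar ↥(Fbar (M' * p))) (j : Fin (sN n e M' p hpM hb hnM A hA)) :
    rN n e M' p hpM hb hnM A hA P = Sum.inr j ↔
      ∃ h0 : (S0N H.L).InChart P, (S0N H.L).chi P h0 = H.T.nodeChi j := by
  rw [← H.T_r]
  exact H.T.r_eq_inr_iff P j

end RNLeaves

end Fermat.Agent.ES.W33.NodalCtxRN20
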