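/-
Programme W (S33), chapter B1′, leaf (M4)(C2) — THE CONVERSE NODE DICTIONARY, abstract core (helper6).

`R₀` a normal domain (a level-`K` chart), `S ⊇ R₀` a domain (the `ℚ̄`-chart ring; NOT integral over
`R₀`, but a localisation of the integral closure `C` of `R₀` in `S` at elements which `χ` does not
kill), `χ : S →+* k` a homomorphism to a field (the centre of a place), `I₁ I₂ ⊆ S` two ideals (the
kernels of the two component reductions) whose intersection is nilpotent modulo `π`, `v₂ ⊆ R₀` a prime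
containing `π` (the second vertical prime of level `K`) with `χ (v₂) = 0`, and `b₁ ∈ R₀ ∖ v₂` with
`b₁ ∈ I₁`.  Then `χ (I₂) = 0`.

Proof: going-down for the integral extension `R₀ ⊆ C` of the integrally closed domain `R₀`
(Mathlib, `RingTheory/IntegralClosure/GoingDown`) gives a prime `𝔯 ⊆ ker χ ∩ C` over `v₂`; for
`e ∈ I₂` and `u` with `u e ∈ C`, `χ u ≠ 0`: `c := b₁ (u e) ∈ I₁ ∩ I₂ ∩ C`, `c ^ m = π d`,
`u' c ^ m = π (u' d) ∈ 𝔯`, `u' ∉ 𝔯` ⇒ `c ∈ 𝔯`, `b₁ ∉ 𝔯` ⇒ `u e ∈ 𝔯 ⊆ ker χ` ⇒ `χ e = 0`.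
-/
import Mathlib

set_option autoImplicit false
set_option linter.style.haveILetI false
set_option linter.unusedSectionVars false

namespace Fermat.Agent.ES.W33.GoingDownAbs6

variable {R₀ S k : Type*} [CommRing R₀] [IsDomain R₀] [IsIntegrallyClosed R₀] [CommRing S]
  [IsDomain S] [Algebra R₀ S] [FaithfulSMul R₀ S] [Field k]

/-- **Abstract converse node dictionary.** -/
theorem chi_eq_zero_of_goingDown (π : R₀) (v₂ : Ideal R₀) [v₂.IsPrime] (hπ : π ∈ v₂)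
    (I₁ I₂ : Ideal S) (χ : S →+* k)
    (hv : ∀ b ∈ v₂, χ (algebraMap R₀ S b) = 0)
    (b₁ : R₀) (hb₁ : algebraMap R₀ S b₁ ∈ I₁) (hb₁' : b₁ ∉ v₂)
    (hloc : ∀ e : S, ∃ u : S, IsIntegral R₀ u ∧ χ u ≠ 0 ∧ IsIntegral R₀ (u * e))
    (hker : ∀ c : S, c ∈ I₁ → c ∈ I₂ → ∃ (m : ℕ) (d : S), c ^ m = algebraMap R₀ S π * d)
    (e : S) (he : e ∈ I₂) : χ e = 0 := by
  classical
  let C : Subalgebra R₀ S := integralClosure R₀ S
  haveI : FaithfulSMul R₀ ↥C := by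
    rw [faithfulSMul_iff_algebraMap_injective]
    intro a b hab
    apply FaithfulSMul.algebraMap_injective R₀ S
    have := congrArg (fun z : ↥C => (z : S)) hab
    simpa using this
  let 𝔫 : Ideal S := RingHom.ker χ
  haveI h𝔫 : 𝔫.IsPrime := RingHom.ker_isPrime χ
  let 𝔮 : Ideal ↥C := 𝔫.comap (algebraMap ↥C S)
  haveI h𝔮 : 𝔮.IsPrime := Ideal.comap_isPrime _ _
  have hmem𝔮 : ∀ z : ↥C, z ∈ 𝔮 ↔ χ (z : S) = 0 := fun z => by
    show algebraMap ↥C S z ∈ 𝔫 ↔ _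
    rw [RingHom.mem_ker]; rfl
  have hle : v₂ ≤ 𝔮.under R₀ := fun b hb => by
    rw [Ideal.mem_comap, hmem𝔮]
    exact hv b hb
  obtain ⟨𝔯, h𝔯le, h𝔯p, h𝔯o⟩ :=
    Ideal.exists_ideal_le_liesOver_of_le (p := v₂) (q := 𝔮.under R₀) 𝔮 hle
  have hover : ∀ b : R₀, algebraMap R₀ ↥C b ∈ 𝔯 ↔ b ∈ v₂ := fun b => by
    rw [h𝔯o.over, Ideal.mem_comap]
  obtain ⟨u, hu, hχu, hue⟩ := hloc e
  set c : ↥C := algebraMap R₀ ↥C b₁ * ⟨u * e, hue⟩ with hc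
  have hcS : (c : S) = algebraMap R₀ S b₁ * (u * e) := rfl
  have hc1 : (c : S) ∈ I₁ := by rw [hcS]; exact I₁.mul_mem_right _ hb₁
  have hc2 : (c : S) ∈ I₂ := by
    rw [hcS]; exact I₂.mul_mem_left _ (I₂.mul_mem_left _ he)
  obtain ⟨m, d, hmd⟩ := hker _ hc1 hc2
  obtain ⟨u', hu', hχu', hud⟩ := hloc d
  have h1 : (⟨u', hu'⟩ : ↥C) * c ^ m = algebraMap R₀ ↥C π * ⟨u' * d, hud⟩ := by
    apply Subtype.ext
    show u' * (c : S) ^ m = algebraMap R₀ S π * (u' * d)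
    rw [hmd]; ring
  have h2 : (⟨u', hu'⟩ : ↥C) * c ^ m ∈ 𝔯 := by
    rw [h1]; exact 𝔯.mul_mem_right _ ((hover π).mpr hπ)
  have h3 : (⟨u', hu'⟩ : ↥C) ∉ 𝔯 := fun h => hχu' ((hmem𝔮 _).mp (h𝔯le h))
  have h4 : c ∈ 𝔯 := h𝔯p.mem_of_pow_mem m ((h𝔯p.mem_or_mem h2).resolve_left h3)
  have h5 : (⟨u * e, hue⟩ : ↥C) ∈ 𝔯 :=
    (h𝔯p.mem_or_mem h4).resolve_left fun h => hb₁' ((hover b₁).mp h)
  have h6 : χ (u * e) = 0 := (hmem𝔮 _).mp (h𝔯le h5)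
  rw [map_mul] at h6
  exact (mul_eq_zero.mp h6).resolve_left hχu

end Fermat.Agent.ES.W33.GoingDownAbs6
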