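/-
Programme W (S33), chapter B1′, leaf (M4)(C2) — **THE CONVERSE NODE DICTIONARY** at a level-`K` chart
(helper6): if the centre, on the level-`K` chart `Bc = chart (A ∩ K) sK`, of a place `P` of `ℚ̄·F` lies
on the SECOND component (`ker rhoK2 ≤ centreK h`), then `P` is centred on the second component of the
`ℚ̄`-chart `B̄ = chart ↥A (bc sK)`: every `e ∈ B̄` with `rho2 e = 0` has value in `𝔪_A` at `P`.  Same
for the first component.

This is an INTER-LEVEL statement (`e` lives at a level `K' ⊋ K`, and `A ∩ K'` is not integral over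
`A ∩ K`); the proof is `GoingDownAbs6.chi_eq_zero_of_goingDown` (going-down for the normal domain `Bc`)
with the named inputs
* `hnorm` : `Bc` is integrally closed                       (`NodalNumData.model.intcl0/1` + `frac0/1`);
* `hloc`  : `B̄` is a localisation of the integral closure of `bc (Bc)` at elements which the centre
            of `P` does not kill (constants `u ∈ 𝓞_{K'} ∖ 𝔓`);
* `hker`  : an element of `B̄` killed by both component reductions has a power divisible by `π`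
            (level-`K'` saturation `vert₁ ⊓ vert₂ = π' B_{K'}`);
* `hsep`  : one element of `Bc` in `ker rhoK1 ∖ ker rhoK2` (Kronecker).
-/
import Mathlib
import Fermat.Agent.ES.W33.GoingDownAbs6
import Fermat.Agent.ES.W33.NodeCentre11
import Fermat.Agent.ES.W33.SurjAsmN24

set_option autoImplicit false
set_option synthInstance.maxHeartbeats 400000
set_option linter.unusedSectionVars false
set_option linter.style.haveILetI false

open AlgebraicCurve ModularCurve HahnSeries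

noncomputable section

namespace Fermat.Agent.ES.W33.NodeConv6

open Fermat.Agent.X0 Fermat.Agent.X0.FF Fermat.Agent.ES.RED.PlaceValue13
open Fermat.Agent.RED.Interface4 Fermat.Agent.RED.DESC Fermat.Agent.RED.DESC.PlaceExtend27
  Fermat.Agent.RED.DESC.NumberFieldDVR27 Fermat.Agent.RED.PUR.ChartGeneric22
open Fermat.Agent.ES.RED.Contract8 Fermat.Agent.ES.RED.ModelInst4
open Fermat.Agent.ES.W33.NodalDefs3 Fermat.Agent.ES.W33.SurjAsmN24 Fermat.Agent.ES.W33.NodeCentre11

variable (M' : ℕ) [NeZero M'] (p : ℕ) [Fact p.Prime] (A : ValuationSubring Qbar)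
  (K : IntermediateField ℚ Qbar) (sK : ↥(FK (M' * p) K))

/-- the base change `chart (A ∩ K) sK → chart ↥A (bc sK)`. -/
def phi : ↥(chart ↥(AK A K) sK) →+* ↥(chart ↥A (baseChangeHom (M' * p) K sK)) :=
  ((baseChangeHom (M' * p) K).comp (chart ↥(AK A K) sK).val.toRingHom).codRestrict
    (chart ↥A (baseChangeHom (M' * p) K sK))
    fun b => Fermat.Agent.ES.RED.ChartUnion1.baseChangeHom_mem_chart A (M' * p) K sK
      (b : ↥(FK (M' * p) K)) b.2

theorem coe_phi (b : ↥(chart ↥(AK A K) sK)) :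
    ((phi M' p A K sK b : ↥(chart ↥A (baseChangeHom (M' * p) K sK))) : ↥(Fbar (M' * p))) =
      baseChangeHom (M' * p) K (b : ↥(FK (M' * p) K)) := rfl

theorem phi_injective : Function.Injective (phi M' p A K sK) := fun a b hab => by
  have h := congrArg (fun z : ↥(chart ↥A (baseChangeHom (M' * p) K sK)) =>
    (z : ↥(Fbar (M' * p)))) hab
  exact Subtype.ext ((baseChangeHom (M' * p) K).injective h)

section Red

variable (hGN : ∀ e ∈ chart ↥A (baseChangeHom (M' * p) K sK), e ∈ GN M' p A)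

/-- the `ℚ̄`-chart inside `GN`. -/
def inclG : ↥(chart ↥A (baseChangeHom (M' * p) K sK)) →+* ↥(GN M' p A) :=
  ((chart ↥A (baseChangeHom (M' * p) K sK)).val.toRingHom).codRestrict (GN M' p A)
    fun e => hGN (e : ↥(Fbar (M' * p))) e.2

/-- first component reduction on the `ℚ̄`-chart. -/
def rhoQ1 : ↥(chart ↥A (baseChangeHom (M' * p) K sK)) →+* Ft M' A :=
  (RingHom.fst (Ft M' A) (Ft M' A)).comp ((redN M' p A).comp (inclG M' p A K sK hGN))

/-- second component reduction on the `ℚ̄`-chart. -/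
def rhoQ2 : ↥(chart ↥A (baseChangeHom (M' * p) K sK)) →+* Ft M' A :=
  (RingHom.snd (Ft M' A) (Ft M' A)).comp ((redN M' p A).comp (inclG M' p A K sK hGN))

theorem rhoQ1_apply (e : ↥(chart ↥A (baseChangeHom (M' * p) K sK))) :
    rhoQ1 M' p A K sK hGN e = (redN M' p A ⟨(e : ↥(Fbar (M' * p))), hGN _ e.2⟩).1 := rfl

theorem rhoQ2_apply (e : ↥(chart ↥A (baseChangeHom (M' * p) K sK))) :
    rhoQ2 M' p A K sK hGN e = (redN M' p A ⟨(e : ↥(Fbar (M' * p))), hGN _ e.2⟩).2 := rfl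

variable (hB : ∀ b ∈ chart ↥(AK A K) sK, baseChangeHom (M' * p) K b ∈ GN M' p A)

theorem rhoQ1_phi (b : ↥(chart ↥(AK A K) sK)) :
    rhoQ1 M' p A K sK hGN (phi M' p A K sK b) = rhoK1 M' p A K _ hB b := rfl

theorem rhoQ2_phi (b : ↥(chart ↥(AK A K) sK)) :
    rhoQ2 M' p A K sK hGN (phi M' p A K sK b) = rhoK2 M' p A K _ hB b := rfl

end Red

section Conv

variable {M' p A K sK}
variable {x : Fbar (M' * p)} {hx : IsGen Qbar x} {P : Place Qbar (Fbar (M' * p))}

/-- the centre on the `ℚ̄`-chart restricts to the centre on the level-`K` chart. -/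
theorem chiK_phi
    (h : haveI := Fermat.Agent.RED.NumInst4.isScalarTower_OE (AK A K) (FK (M' * p) K)
      RegAt A hx (baseChangeHom (M' * p) K) (chart ↥(AK A K) sK) P)
    (hbar : RegAt A hx (RingHom.id ↥(Fbar (M' * p))) (chart ↥A (baseChangeHom (M' * p) K sK)) P)
    (b : ↥(chart ↥(AK A K) sK)) :
    haveI := Fermat.Agent.RED.NumInst4.isScalarTower_OE (AK A K) (FK (M' * p) K)
    chiK hbar (phi M' p A K sK b) = chiK h b := rfl

/-- **Converse node dictionary, second component.** -/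
theorem chi_eq_zero_of_rhoQ2
    (hnorm : IsIntegrallyClosed ↥(chart ↥(AK A K) sK))
    (hGN : ∀ e ∈ chart ↥A (baseChangeHom (M' * p) K sK), e ∈ GN M' p A)
    (hB : ∀ b ∈ chart ↥(AK A K) sK, baseChangeHom (M' * p) K b ∈ GN M' p A)
    (π : ↥(AK A K))
    (hπ2 : rhoK2 M' p A K _ hB (algebraMap ↥(AK A K) ↥(chart ↥(AK A K) sK) π) = 0)
    (h : haveI := Fermat.Agent.RED.NumInst4.isScalarTower_OE (AK A K) (FK (M' * p) K)
      RegAt A hx (baseChangeHom (M' * p) K) (chart ↥(AK A K) sK) P)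
    (hbar : RegAt A hx (RingHom.id ↥(Fbar (M' * p))) (chart ↥A (baseChangeHom (M' * p) K sK)) P)
    (hcentre : haveI := Fermat.Agent.RED.NumInst4.isScalarTower_OE (AK A K) (FK (M' * p) K)
      RingHom.ker (rhoK2 M' p A K _ hB) ≤ centreK h)
    (hsep : ∃ b : ↥(chart ↥(AK A K) sK), rhoK1 M' p A K _ hB b = 0 ∧ rhoK2 M' p A K _ hB b ≠ 0)
    (hloc : ∀ e : ↥(chart ↥A (baseChangeHom (M' * p) K sK)),
      ∃ u : ↥(chart ↥A (baseChangeHom (M' * p) K sK)),
        (phi M' p A K sK).IsIntegralElem u ∧ chiK hbar u ≠ 0 ∧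
          (phi M' p A K sK).IsIntegralElem (u * e))
    (hker : ∀ c : ↥(chart ↥A (baseChangeHom (M' * p) K sK)),
      rhoQ1 M' p A K sK hGN c = 0 → rhoQ2 M' p A K sK hGN c = 0 →
        ∃ (m : ℕ) (d : ↥(chart ↥A (baseChangeHom (M' * p) K sK))),
          c ^ m = phi M' p A K sK (algebraMap ↥(AK A K) ↥(chart ↥(AK A K) sK) π) * d)
    (e : ↥(chart ↥A (baseChangeHom (M' * p) K sK))) (he : rhoQ2 M' p A K sK hGN e = 0) :
    chiK hbar e = 0 := by
  haveI := Fermat.Agent.RED.NumInst4.isScalarTower_OE (AK A K) (FK (M' * p) K)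
  letI : Algebra ↥(chart ↥(AK A K) sK) ↥(chart ↥A (baseChangeHom (M' * p) K sK)) :=
    (phi M' p A K sK).toAlgebra
  haveI : FaithfulSMul ↥(chart ↥(AK A K) sK) ↥(chart ↥A (baseChangeHom (M' * p) K sK)) :=
    (faithfulSMul_iff_algebraMap_injective _ _).mpr (phi_injective M' p A K sK)
  haveI := hnorm
  obtain ⟨b₁, hb₁, hb₁'⟩ := hsep
  haveI hv₂ : (RingHom.ker (rhoK2 M' p A K _ hB)).IsPrime := RingHom.ker_isPrime _
  refine Fermat.Agent.ES.W33.GoingDownAbs6.chi_eq_zero_of_goingDown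
    (algebraMap ↥(AK A K) ↥(chart ↥(AK A K) sK) π) (RingHom.ker (rhoK2 M' p A K _ hB))
    (RingHom.mem_ker.mpr hπ2)
    (RingHom.ker (rhoQ1 M' p A K sK hGN)) (RingHom.ker (rhoQ2 M' p A K sK hGN)) (chiK hbar)
    (fun b hb => ?_) b₁ ?_ (fun hb => hb₁' (RingHom.mem_ker.mp hb)) hloc
    (fun c hc1 hc2 => hker c (RingHom.mem_ker.mp hc1) (RingHom.mem_ker.mp hc2)) e
    (RingHom.mem_ker.mpr he)
  · have h1 : b ∈ centreK h := hcentre hb
    rw [mem_centreK_iff] at h1
    exact h1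
  · rw [RingHom.mem_ker]
    exact hb₁

/-- **Converse node dictionary, first component.** -/
theorem chi_eq_zero_of_rhoQ1
    (hnorm : IsIntegrallyClosed ↥(chart ↥(AK A K) sK))
    (hGN : ∀ e ∈ chart ↥A (baseChangeHom (M' * p) K sK), e ∈ GN M' p A)
    (hB : ∀ b ∈ chart ↥(AK A K) sK, baseChangeHom (M' * p) K b ∈ GN M' p A)
    (π : ↥(AK A K))
    (hπ1 : rhoK1 M' p A K _ hB (algebraMap ↥(AK A K) ↥(chart ↥(AK A K) sK) π) = 0)
    (h : haveI := Fermat.Agent.RED.NumInst4.isScalarTower_OE (AK A K) (FK (M' * p) K)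
      RegAt A hx (baseChangeHom (M' * p) K) (chart ↥(AK A K) sK) P)
    (hbar : RegAt A hx (RingHom.id ↥(Fbar (M' * p))) (chart ↥A (baseChangeHom (M' * p) K sK)) P)
    (hcentre : haveI := Fermat.Agent.RED.NumInst4.isScalarTower_OE (AK A K) (FK (M' * p) K)
      RingHom.ker (rhoK1 M' p A K _ hB) ≤ centreK h)
    (hsep : ∃ b : ↥(chart ↥(AK A K) sK), rhoK2 M' p A K _ hB b = 0 ∧ rhoK1 M' p A K _ hB b ≠ 0)
    (hloc : ∀ e : ↥(chart ↥A (baseChangeHom (M' * p) K sK)),
      ∃ u : ↥(chart ↥A (baseChangeHom (M' * p) K sK)),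
        (phi M' p A K sK).IsIntegralElem u ∧ chiK hbar u ≠ 0 ∧
          (phi M' p A K sK).IsIntegralElem (u * e))
    (hker : ∀ c : ↥(chart ↥A (baseChangeHom (M' * p) K sK)),
      rhoQ1 M' p A K sK hGN c = 0 → rhoQ2 M' p A K sK hGN c = 0 →
        ∃ (m : ℕ) (d : ↥(chart ↥A (baseChangeHom (M' * p) K sK))),
          c ^ m = phi M' p A K sK (algebraMap ↥(AK A K) ↥(chart ↥(AK A K) sK) π) * d)
    (e : ↥(chart ↥A (baseChangeHom (M' * p) K sK))) (he : rhoQ1 M' p A K sK hGN e = 0) :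
    chiK hbar e = 0 := by
  haveI := Fermat.Agent.RED.NumInst4.isScalarTower_OE (AK A K) (FK (M' * p) K)
  letI : Algebra ↥(chart ↥(AK A K) sK) ↥(chart ↥A (baseChangeHom (M' * p) K sK)) :=
    (phi M' p A K sK).toAlgebra
  haveI : FaithfulSMul ↥(chart ↥(AK A K) sK) ↥(chart ↥A (baseChangeHom (M' * p) K sK)) :=
    (faithfulSMul_iff_algebraMap_injective _ _).mpr (phi_injective M' p A K sK)
  haveI := hnorm
  obtain ⟨b₁, hb₁, hb₁'⟩ := hsep
  haveI hv₁ : (RingHom.ker (rhoK1 M' p A K _ hB)).IsPrime := RingHom.ker_isPrime _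
  refine Fermat.Agent.ES.W33.GoingDownAbs6.chi_eq_zero_of_goingDown
    (algebraMap ↥(AK A K) ↥(chart ↥(AK A K) sK) π) (RingHom.ker (rhoK1 M' p A K _ hB))
    (RingHom.mem_ker.mpr hπ1)
    (RingHom.ker (rhoQ2 M' p A K sK hGN)) (RingHom.ker (rhoQ1 M' p A K sK hGN)) (chiK hbar)
    (fun b hb => ?_) b₁ ?_ (fun hb => hb₁' (RingHom.mem_ker.mp hb)) hloc
    (fun c hc2 hc1 => hker c (RingHom.mem_ker.mp hc1) (RingHom.mem_ker.mp hc2)) e
    (RingHom.mem_ker.mpr he)
  · have h1 : b ∈ centreK h := hcentre hb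
    rw [mem_centreK_iff] at h1
    exact h1
  · rw [RingHom.mem_ker]
    exact hb₁

end Conv

end Fermat.Agent.ES.W33.NodeConv6
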