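/-
Programme W (S33), chapter B1′, leaf (M4)(C2), input `hloc` of `NodeConv6` (helper6):
**the `ℚ̄`-chart ring is a localisation, at algebraic-integer constants which are units of `A`, of the
integral closure of the level-`K` chart.**

* `exists_integral_unit_mul` : for `a ∈ A ≤ ℚ̄` (over a prime `ℓ`) there is an algebraic integer `d`,
  unit of `A`, with `d * a` an algebraic integer (`A ∩ ℚ(a)` is the localisation of `𝓞_{ℚ(a)}` at a
  prime: `NumberFieldDVR27.AK_eq` + `exists_primeCompl_mul_eq_of_integer`);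
* `exists_const_mul_mem` : for `c ∈ A[s]` such a `d` with `d c` integral over `bc (Bc)`;
* `exists_const_mul_isIntegral` : for `e ∈ chart ↥A s` (integral over `A[s]`) such a `d` with `d e`
  integral over `bc (Bc)` (scaling the roots of a monic polynomial);
* **`hloc`** : the input `hloc` of `NodeConv6.chi_eq_zero_of_rhoQ2`, verbatim.
-/
import Mathlib
import Fermat.Agent.ES.W33.NodeConv6

set_option autoImplicit false
set_option synthInstance.maxHeartbeats 400000
set_option linter.unusedSectionVars false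
set_option linter.style.haveILetI false

open AlgebraicCurve ModularCurve HahnSeries Polynomial

noncomputable section

namespace Fermat.Agent.ES.W33.LocConst6

open NumberField IsDedekindDomain IsDedekindDomain.HeightOneSpectrum
open Fermat.Agent.X0 Fermat.Agent.X0.FF Fermat.Agent.ES.RED.PlaceValue13
open Fermat.Agent.RED.Interface4 Fermat.Agent.RED.DESC Fermat.Agent.RED.DESC.PlaceExtend27
  Fermat.Agent.RED.DESC.NumberFieldDVR27 Fermat.Agent.RED.PUR.ChartGeneric22
open Fermat.Agent.ES.RED.Contract8 Fermat.Agent.ES.RED.ModelInst4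
open Fermat.Agent.ES.W33.NodalDefs3 Fermat.Agent.ES.W33.NodeCentre11 Fermat.Agent.ES.W33.NodeConv6

/-! ### `A` is a localisation of the ring of algebraic integers -/

/-- for `a ∈ A` there is an algebraic integer `d`, unit of `A`, with `d * a` an algebraic integer. -/
theorem exists_integral_unit_mul (A : ValuationSubring Qbar) {ℓ : ℕ} (hℓ : ℓ ≠ 0)
    (hA : A.LiesOverPrime ℓ) (a : Qbar) (ha : a ∈ A) :
    ∃ d : Qbar, IsIntegral ℤ d ∧ A.valuation d = 1 ∧ IsIntegral ℤ (d * a) := by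
  obtain ⟨K, hfin, -, hK⟩ := exists_numberField ⊥ {a}
  haveI := hfin
  have haK : a ∈ K := hK _ (Finset.mem_singleton_self _)
  have ha' : (⟨a, haK⟩ : K) ∈ AK A K := (mem_AK_iff A K _).mpr ha
  rw [AK_eq A K hℓ hA, valuationSubringAtPrime_eq_valuationSubring] at ha'
  obtain ⟨n, d, hnd⟩ := exists_primeCompl_mul_eq_of_integer (primeOf A K hℓ hA) (⟨a, haK⟩ : K)
    ((Valuation.mem_valuationSubring_iff _ _).mp ha')
  have hint : ∀ z : 𝓞 K, IsIntegral ℤ (((z : K) : Qbar)) := fun z =>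
    (RingOfIntegers.isIntegral_coe z).map (IsScalarTower.toAlgHom ℤ K Qbar)
  refine ⟨((((d : 𝓞 K) : K)) : Qbar), hint _, ?_, ?_⟩
  · have h1 : ¬ A.valuation ((((d : 𝓞 K) : K) : Qbar)) < 1 := d.2
    exact le_antisymm (val_int_le_one A K d) (not_lt.mp h1)
  · have hx' : (a : Qbar) * ((((d : 𝓞 K) : K) : Qbar)) = (((n : 𝓞 K) : K) : Qbar) := by
      have := congrArg (fun z : K => (z : Qbar)) hnd
      simpa using this
    rw [mul_comm, hx']
    exact hint n

variable (M' : ℕ) [NeZero M'] (p : ℕ) [Fact p.Prime] (A : ValuationSubring Qbar)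
  (K : IntermediateField ℚ Qbar) (sK : ↥(FK (M' * p) K))

/-- the base change `chart (A ∩ K) sK → ℚ̄·F`. -/
def psi : ↥(chart ↥(AK A K) sK) →+* ↥(Fbar (M' * p)) :=
  (baseChangeHom (M' * p) K).comp (chart ↥(AK A K) sK).val.toRingHom

theorem psi_apply (b : ↥(chart ↥(AK A K) sK)) :
    psi M' p A K sK b = baseChangeHom (M' * p) K (b : ↥(FK (M' * p) K)) := rfl

/-- an algebraic-integer constant is integral over the level-`K` chart. -/
theorem isIntegralElem_const {d : Qbar} (hd : IsIntegral ℤ d) :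
    (psi M' p A K sK).IsIntegralElem (algebraMap Qbar ↥(Fbar (M' * p)) d) := by
  obtain ⟨q, hq, hqd⟩ := hd
  refine ⟨q.map (Int.castRingHom _), hq.map _, ?_⟩
  rw [eval₂_map]
  have h1 : (psi M' p A K sK).comp (Int.castRingHom ↥(chart ↥(AK A K) sK)) =
      (algebraMap Qbar ↥(Fbar (M' * p))).comp (algebraMap ℤ Qbar) := RingHom.ext_int _ _
  rw [h1, ← hom_eval₂, hqd, map_zero]

section Loc

variable {M' p A K sK}

/-- the set of elements integral over the level-`K` chart, as a subring. -/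
theorem exists_const_mul_mem {ℓ : ℕ} (hℓ : ℓ ≠ 0) (hA : A.LiesOverPrime ℓ)
    (c : ↥(Fbar (M' * p)))
    (hc : c ∈ Algebra.adjoin ↥A {baseChangeHom (M' * p) K sK}) :
    ∃ d : Qbar, IsIntegral ℤ d ∧ A.valuation d = 1 ∧
      (psi M' p A K sK).IsIntegralElem (algebraMap Qbar ↥(Fbar (M' * p)) d * c) := by
  induction hc using Algebra.adjoin_induction with
  | mem x hx =>
      rw [Set.mem_singleton_iff.mp hx]
      refine ⟨1, isIntegral_one, map_one _, ?_⟩
      rw [map_one, one_mul]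
      exact (psi M' p A K sK).isIntegralElem_map (x := ⟨sK, self_mem_chart sK⟩)
  | algebraMap a =>
      obtain ⟨d, hd, hv, hda⟩ := exists_integral_unit_mul A hℓ hA (a : Qbar) a.2
      refine ⟨d, hd, hv, ?_⟩
      have h1 : algebraMap Qbar ↥(Fbar (M' * p)) d * algebraMap ↥A ↥(Fbar (M' * p)) a =
          algebraMap Qbar ↥(Fbar (M' * p)) (d * (a : Qbar)) := by
        rw [map_mul]; rfl
      rw [h1]
      exact isIntegralElem_const M' p A K sK hda
  | add x y _ _ hx hy =>
      obtain ⟨d₁, hd₁, hv₁, h₁⟩ := hx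
      obtain ⟨d₂, hd₂, hv₂, h₂⟩ := hy
      refine ⟨d₁ * d₂, hd₁.mul hd₂, by rw [map_mul, hv₁, hv₂, mul_one], ?_⟩
      have h3 : algebraMap Qbar ↥(Fbar (M' * p)) (d₁ * d₂) * (x + y) =
          algebraMap Qbar ↥(Fbar (M' * p)) d₂ * (algebraMap Qbar ↥(Fbar (M' * p)) d₁ * x) +
            algebraMap Qbar ↥(Fbar (M' * p)) d₁ * (algebraMap Qbar ↥(Fbar (M' * p)) d₂ * y) := by
        rw [map_mul]; ring
      rw [h3]
      exact ((isIntegralElem_const M' p A K sK hd₂).mul _ h₁).add _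
        ((isIntegralElem_const M' p A K sK hd₁).mul _ h₂)
  | mul x y _ _ hx hy =>
      obtain ⟨d₁, hd₁, hv₁, h₁⟩ := hx
      obtain ⟨d₂, hd₂, hv₂, h₂⟩ := hy
      refine ⟨d₁ * d₂, hd₁.mul hd₂, by rw [map_mul, hv₁, hv₂, mul_one], ?_⟩
      have h3 : algebraMap Qbar ↥(Fbar (M' * p)) (d₁ * d₂) * (x * y) =
          (algebraMap Qbar ↥(Fbar (M' * p)) d₁ * x) * (algebraMap Qbar ↥(Fbar (M' * p)) d₂ * y) := by
        rw [map_mul]; ring
      rw [h3]
      exact h₁.mul _ h₂

/-- for `e` in the `ℚ̄`-chart there is an algebraic integer `d`, unit of `A`, with `d e` integral over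
the level-`K` chart. -/
theorem exists_const_mul_isIntegral {ℓ : ℕ} (hℓ : ℓ ≠ 0) (hA : A.LiesOverPrime ℓ)
    (e : ↥(Fbar (M' * p))) (he : e ∈ chart ↥A (baseChangeHom (M' * p) K sK)) :
    ∃ d : Qbar, IsIntegral ℤ d ∧ A.valuation d = 1 ∧
      (psi M' p A K sK).IsIntegralElem (algebraMap Qbar ↥(Fbar (M' * p)) d * e) := by
  classical
  rw [mem_chart_iff, isIntegral_subalgebra_iff] at he
  obtain ⟨P, hP, hcoeff, hPe⟩ := he
  choose dfun hd hv hint using fun i => exists_const_mul_mem (sK := sK) hℓ hA (P.coeff i) (hcoeff i)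
  set D : Qbar := ∏ i ∈ Finset.range (P.natDegree + 1), dfun i with hDdef
  have hD : IsIntegral ℤ D := IsIntegral.prod _ fun i _ => hd i
  have hvD : A.valuation D = 1 := by
    rw [hDdef, map_prod]; exact Finset.prod_eq_one fun i _ => hv i
  refine ⟨D, hD, hvD, ?_⟩
  letI : Algebra ↥(chart ↥(AK A K) sK) ↥(Fbar (M' * p)) := (psi M' p A K sK).toAlgebra
  let C : Subalgebra ↥(chart ↥(AK A K) sK) ↥(Fbar (M' * p)) :=
    integralClosure ↥(chart ↥(AK A K) sK) ↥(Fbar (M' * p))
  have hCmem : ∀ y : ↥(Fbar (M' * p)), (psi M' p A K sK).IsIntegralElem y → y ∈ C := fun y hy => hy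
  have h1 : ∀ i ∈ Finset.range (P.natDegree + 1),
      algebraMap Qbar ↥(Fbar (M' * p)) D * P.coeff i ∈ C := fun i hi => by
    have h : D = (∏ j ∈ (Finset.range (P.natDegree + 1)).erase i, dfun j) * dfun i :=
      (Finset.prod_erase_mul _ _ hi).symm
    rw [h, map_mul, mul_assoc]
    exact C.mul_mem (hCmem _ (isIntegralElem_const M' p A K sK (IsIntegral.prod _ fun j _ => hd j)))
      (hCmem _ (hint i))
  have hDC : algebraMap Qbar ↥(Fbar (M' * p)) D ∈ C := hCmem _ (isIntegralElem_const M' p A K sK hD)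
  have h2 : IsIntegral ↥C (algebraMap Qbar ↥(Fbar (M' * p)) D * e) := by
    rw [isIntegral_subalgebra_iff]
    refine ⟨scaleRoots P (algebraMap Qbar ↥(Fbar (M' * p)) D), (monic_scaleRoots_iff _).mpr hP,
      fun i => ?_, ?_⟩
    · rw [coeff_scaleRoots]
      rcases lt_trichotomy i P.natDegree with hi | hi | hi
      · obtain ⟨k, hk⟩ : ∃ k, P.natDegree - i = k + 1 := ⟨P.natDegree - i - 1, by omega⟩
        have h3 : P.coeff i * algebraMap Qbar ↥(Fbar (M' * p)) D ^ (k + 1) =
            (algebraMap Qbar ↥(Fbar (M' * p)) D * P.coeff i) *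
              algebraMap Qbar ↥(Fbar (M' * p)) D ^ k := by ring
        rw [hk, h3]
        exact C.mul_mem (h1 i (Finset.mem_range.mpr (by omega))) (C.pow_mem hDC k)
      · rw [hi, Nat.sub_self, pow_zero, mul_one, hP.coeff_natDegree]
        exact C.one_mem
      · rw [coeff_eq_zero_of_natDegree_lt hi, zero_mul]
        exact C.zero_mem
    · rw [scaleRoots_eval_mul, hPe, mul_zero]
  exact isIntegral_trans (A := ↥C) _ h2

/-- integrality over the level-`K` chart, inside the `ℚ̄`-chart. -/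
theorem isIntegralElem_phi_of_psi (y : ↥(chart ↥A (baseChangeHom (M' * p) K sK)))
    (hy : (psi M' p A K sK).IsIntegralElem (y : ↥(Fbar (M' * p)))) :
    (phi M' p A K sK).IsIntegralElem y := by
  obtain ⟨q, hq, h0⟩ := hy
  refine ⟨q, hq, Subtype.ext ?_⟩
  have h1 := hom_eval₂ q (phi M' p A K sK)
    (chart ↥A (baseChangeHom (M' * p) K sK)).val.toRingHom y
  have h2 : ((chart ↥A (baseChangeHom (M' * p) K sK)).val.toRingHom).comp (phi M' p A K sK) =
      psi M' p A K sK := RingHom.ext fun b => rfl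
  rw [h2] at h1
  exact h1.trans h0

/-- **the input `hloc` of `NodeConv6.chi_eq_zero_of_rhoQ2`.** -/
theorem hloc {ℓ : ℕ} (hℓ : ℓ ≠ 0) (hA : A.LiesOverPrime ℓ)
    {x : Fbar (M' * p)} {hx : IsGen Qbar x} {P : Place Qbar (Fbar (M' * p))}
    (hbar : RegAt A hx (RingHom.id ↥(Fbar (M' * p))) (chart ↥A (baseChangeHom (M' * p) K sK)) P)
    (e : ↥(chart ↥A (baseChangeHom (M' * p) K sK))) :
    ∃ u : ↥(chart ↥A (baseChangeHom (M' * p) K sK)),
      (phi M' p A K sK).IsIntegralElem u ∧ chiK hbar u ≠ 0 ∧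
        (phi M' p A K sK).IsIntegralElem (u * e) := by
  obtain ⟨d, hd, hv, hde⟩ := exists_const_mul_isIntegral (sK := sK) hℓ hA
    (e : ↥(Fbar (M' * p))) e.2
  have hdA : d ∈ A := (A.valuation_le_one_iff d).mp hv.le
  set u : ↥(chart ↥A (baseChangeHom (M' * p) K sK)) :=
    algebraMap ↥A ↥(chart ↥A (baseChangeHom (M' * p) K sK)) ⟨d, hdA⟩ with hu
  have hucoe : (u : ↥(Fbar (M' * p))) = algebraMap Qbar ↥(Fbar (M' * p)) d := rfl
  refine ⟨u, isIntegralElem_phi_of_psi u ?_, ?_, isIntegralElem_phi_of_psi (u * e) ?_⟩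
  · rw [hucoe]; exact isIntegralElem_const M' p A K sK hd
  · have h1 : evK hbar u = ⟨d, hdA⟩ := by
      apply Subtype.ext
      rw [coe_evK]
      have : (⟨(RingHom.id ↥(Fbar (M' * p))) (u : ↥(Fbar (M' * p))), (hbar u u.2).1⟩ :
          ↥P.toValuationSubring) = algebraMap Qbar ↥P.toValuationSubring d := Subtype.ext rfl
      rw [this]
      exact (valueHom hx P).commutes d
    have h2 : IsUnit (evK hbar u) := by
      rw [h1]
      exact (A.valuation_eq_one_iff ⟨d, hdA⟩).mpr hv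
    intro h0
    exact (not_mem_centreK_iff hbar u).mpr h2 ((mem_centreK_iff hbar u).mpr h0)
  · show (psi M' p A K sK).IsIntegralElem
      ((u : ↥(Fbar (M' * p))) * (e : ↥(Fbar (M' * p))))
    rw [hucoe]; exact hde

end Loc

end Fermat.Agent.ES.W33.LocConst6
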