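/-
Programme W (S33), chapter B1′, leaf (M4)(C2) — **THE CONVERSE NODE DICTIONARY AT THE CHARTS OF
PROGRAMME N** (helper6): the exit of `NodeConv6` at `Bc = B0 A p ht = chart (A ∩ K) (tN p ht)` and
`Bc = B1 A p ht = chart (A ∩ K) (tN p ht)⁻¹`, with
* `hnorm` discharged from `NodalDataAt` (`model.intcl0/1` + `frac0/1`),
* `hloc` discharged by `LocConst6.hloc`,
* `hπ_i` discharged (`π` lies in the maximal ideal of `A ∩ K`),
* `hker` taken in the FUNCTION-LEVEL literal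
  `∀ c ∈ chart ↥A s, ∀ hG : c ∈ GN, redN ⟨c, hG⟩ = 0 → ∃ m, ∃ d ∈ chart ↥A s, c ^ m = const π * d`,
* `hsep` (one separating element of the level-`K` chart) as a named input.
-/
import Mathlib
import Fermat.Agent.ES.W33.LocConst6
import Fermat.Agent.ES.N34.ModelInput13

set_option autoImplicit false
set_option synthInstance.maxHeartbeats 400000
set_option linter.unusedSectionVars false
set_option linter.style.haveILetI false

open AlgebraicCurve ModularCurve HahnSeries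

noncomputable section

namespace Fermat.Agent.ES.W33.NodeConvInst6

open Fermat.Agent.X0 Fermat.Agent.X0.FF Fermat.Agent.ES.RED.PlaceValue13
open Fermat.Agent.RED.Interface4 Fermat.Agent.RED.DESC Fermat.Agent.RED.DESC.PlaceExtend27
  Fermat.Agent.RED.DESC.NumberFieldDVR27 Fermat.Agent.RED.PUR.ChartGeneric22
  Fermat.Agent.RED.PUR.GaussGen8
open Fermat.Agent.ES.RED.Contract8 Fermat.Agent.ES.RED.ModelInst4
open Fermat.Agent.ES.N34.NodalCore13 Fermat.Agent.ES.N34.NumData13 Fermat.Agent.ES.N34.ModelInput13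
open Fermat.Agent.ES.W33.NodalDefs3 Fermat.Agent.ES.W33.SurjAsmN24 Fermat.Agent.ES.W33.NodeCentre11
  Fermat.Agent.ES.W33.NodeConv6

/-! ### normality of a chart -/

section Generic

variable {R F : Type*} [CommRing R] [Field F] [Algebra R F]

/-- a subalgebra of a field, integrally closed in it and with it as fraction field, is an integrally
closed domain. -/
theorem isIntegrallyClosed_of_intcl (B : Subalgebra R F)
    (intcl : ∀ x : F, IsIntegral B x → x ∈ B)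
    (frac : ∀ x : F, ∃ a ∈ B, ∃ b ∈ B, b ≠ 0 ∧ x * b = a) : IsIntegrallyClosed ↥B := by
  have hfracB : IsFractionRing ↥B F := by
    refine IsFractionRing.of_field ↥B F fun z => ?_
    obtain ⟨a, ha, b, hb, hb0, hab⟩ := frac z
    refine ⟨⟨a, ha⟩, ⟨b, hb⟩, ?_⟩
    show z = a / b
    rw [eq_div_iff hb0, hab]
  exact (isIntegrallyClosed_iff F).mpr fun {x} hx => ⟨⟨x, intcl x hx⟩, rfl⟩

end Generic

variable (M' : ℕ) [NeZero M'] (p : ℕ) [Fact p.Prime] (A : ValuationSubring Qbar)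
  (K : IntermediateField ℚ Qbar)

section Pi

variable {M' p A K}
variable {Bc : Subalgebra ↥(AK A K) ↥(FK (M' * p) K)}
  (hB : ∀ b ∈ Bc, baseChangeHom (M' * p) K b ∈ GN M' p A)

/-- a non-unit constant of `A ∩ K` dies under the first component reduction. -/
theorem rhoK1_pi {π : ↥(AK A K)} (hπ : π ∈ IsLocalRing.maximalIdeal ↥(AK A K)) :
    rhoK1 M' p A K Bc hB (algebraMap ↥(AK A K) ↥Bc π) = 0 := by
  have h1 : algebraMap ↥(AK A K) ↥Bc π = π • (1 : ↥Bc) := by rw [Algebra.smul_def, mul_one]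
  rw [h1, rhoK_smul₁ hB, (IsLocalRing.residue_eq_zero_iff π).mpr hπ, map_zero, map_zero, zero_mul]

/-- a non-unit constant of `A ∩ K` dies under the second component reduction. -/
theorem rhoK2_pi {π : ↥(AK A K)} (hπ : π ∈ IsLocalRing.maximalIdeal ↥(AK A K)) :
    rhoK2 M' p A K Bc hB (algebraMap ↥(AK A K) ↥Bc π) = 0 := by
  have h1 : algebraMap ↥(AK A K) ↥Bc π = π • (1 : ↥Bc) := by rw [Algebra.smul_def, mul_one]
  rw [h1, rhoK_smul₂ hB, (IsLocalRing.residue_eq_zero_iff π).mpr hπ, map_zero, map_zero, zero_mul]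

end Pi

section Ker

variable {M' p A K}
variable {sK : ↥(FK (M' * p) K)}
  (hGN : ∀ e ∈ chart ↥A (baseChangeHom (M' * p) K sK), e ∈ GN M' p A)

/-- the function-level `hker` gives the `hker` of `NodeConv6`. -/
theorem hker_of (π : ↥(AK A K))
    (hkerF : ∀ c ∈ chart ↥A (baseChangeHom (M' * p) K sK), ∀ hG : c ∈ GN M' p A,
      redN M' p A ⟨c, hG⟩ = 0 → ∃ (m : ℕ), ∃ d ∈ chart ↥A (baseChangeHom (M' * p) K sK),
        c ^ m = algebraMap ↥A ↥(Fbar (M' * p)) (incl A K π) * d)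
    (c : ↥(chart ↥A (baseChangeHom (M' * p) K sK)))
    (h1 : rhoQ1 M' p A K sK hGN c = 0) (h2 : rhoQ2 M' p A K sK hGN c = 0) :
    ∃ (m : ℕ) (d : ↥(chart ↥A (baseChangeHom (M' * p) K sK))),
      c ^ m = phi M' p A K sK (algebraMap ↥(AK A K) ↥(chart ↥(AK A K) sK) π) * d := by
  have h0 : redN M' p A ⟨(c : ↥(Fbar (M' * p))), hGN _ c.2⟩ = 0 := Prod.ext h1 h2
  obtain ⟨m, d, hd, hmd⟩ := hkerF _ c.2 _ h0
  refine ⟨m, ⟨d, hd⟩, Subtype.ext ?_⟩
  show (c : ↥(Fbar (M' * p))) ^ m =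
    baseChangeHom (M' * p) K (algebraMap ↥(AK A K) ↥(FK (M' * p) K) π) * d
  rw [hmd, Fermat.Agent.ES.RED.ChartUnion1.baseChangeHom_algebraMap_AK A (M' * p) K π]

end Ker

/-! ### the exit -/

section Exit

variable {M' p A K}
variable {x : Fbar (M' * p)} {hx : IsGen Qbar x} {P : Place Qbar (Fbar (M' * p))}
  {sK : ↥(FK (M' * p) K)}

/-- **Converse node dictionary at a normal level-`K` chart, second component.**  `hnorm` is
`isIntegrallyClosed_of_intcl` at `NodalNumData.model.intcl0/1`, `frac0/1`. -/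
theorem chi_eq_zero_two (hA : A.LiesOverPrime p)
    (hnorm : IsIntegrallyClosed ↥(chart ↥(AK A K) sK))
    (hGN : ∀ e ∈ chart ↥A (baseChangeHom (M' * p) K sK), e ∈ GN M' p A)
    (hB : ∀ b ∈ chart ↥(AK A K) sK, baseChangeHom (M' * p) K b ∈ GN M' p A)
    {π : ↥(AK A K)} (hπ : π ∈ IsLocalRing.maximalIdeal ↥(AK A K))
    (hkerF : ∀ c ∈ chart ↥A (baseChangeHom (M' * p) K sK), ∀ hG : c ∈ GN M' p A,
      redN M' p A ⟨c, hG⟩ = 0 → ∃ (m : ℕ), ∃ d ∈ chart ↥A (baseChangeHom (M' * p) K sK),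
        c ^ m = algebraMap ↥A ↥(Fbar (M' * p)) (incl A K π) * d)
    (hsep : ∃ b : ↥(chart ↥(AK A K) sK), rhoK1 M' p A K _ hB b = 0 ∧ rhoK2 M' p A K _ hB b ≠ 0)
    (h : haveI := Fermat.Agent.RED.NumInst4.isScalarTower_OE (AK A K) (FK (M' * p) K)
      RegAt A hx (baseChangeHom (M' * p) K) (chart ↥(AK A K) sK) P)
    (hbar : RegAt A hx (RingHom.id ↥(Fbar (M' * p))) (chart ↥A (baseChangeHom (M' * p) K sK)) P)
    (hcentre : haveI := Fermat.Agent.RED.NumInst4.isScalarTower_OE (AK A K) (FK (M' * p) K)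
      RingHom.ker (rhoK2 M' p A K _ hB) ≤ centreK h)
    (e : ↥(chart ↥A (baseChangeHom (M' * p) K sK))) (he : rhoQ2 M' p A K sK hGN e = 0) :
    chiK hbar e = 0 :=
  chi_eq_zero_of_rhoQ2 hnorm hGN hB π (rhoK2_pi hB hπ) h hbar hcentre hsep
    (Fermat.Agent.ES.W33.LocConst6.hloc (Fact.out : p.Prime).ne_zero hA hbar)
    (hker_of hGN π hkerF) e he

/-- **Converse node dictionary at a normal level-`K` chart, first component.** -/
theorem chi_eq_zero_one (hA : A.LiesOverPrime p)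
    (hnorm : IsIntegrallyClosed ↥(chart ↥(AK A K) sK))
    (hGN : ∀ e ∈ chart ↥A (baseChangeHom (M' * p) K sK), e ∈ GN M' p A)
    (hB : ∀ b ∈ chart ↥(AK A K) sK, baseChangeHom (M' * p) K b ∈ GN M' p A)
    {π : ↥(AK A K)} (hπ : π ∈ IsLocalRing.maximalIdeal ↥(AK A K))
    (hkerF : ∀ c ∈ chart ↥A (baseChangeHom (M' * p) K sK), ∀ hG : c ∈ GN M' p A,
      redN M' p A ⟨c, hG⟩ = 0 → ∃ (m : ℕ), ∃ d ∈ chart ↥A (baseChangeHom (M' * p) K sK),
        c ^ m = algebraMap ↥A ↥(Fbar (M' * p)) (incl A K π) * d)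
    (hsep : ∃ b : ↥(chart ↥(AK A K) sK), rhoK2 M' p A K _ hB b = 0 ∧ rhoK1 M' p A K _ hB b ≠ 0)
    (h : haveI := Fermat.Agent.RED.NumInst4.isScalarTower_OE (AK A K) (FK (M' * p) K)
      RegAt A hx (baseChangeHom (M' * p) K) (chart ↥(AK A K) sK) P)
    (hbar : RegAt A hx (RingHom.id ↥(Fbar (M' * p))) (chart ↥A (baseChangeHom (M' * p) K sK)) P)
    (hcentre : haveI := Fermat.Agent.RED.NumInst4.isScalarTower_OE (AK A K) (FK (M' * p) K)
      RingHom.ker (rhoK1 M' p A K _ hB) ≤ centreK h)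
    (e : ↥(chart ↥A (baseChangeHom (M' * p) K sK))) (he : rhoQ1 M' p A K sK hGN e = 0) :
    chiK hbar e = 0 :=
  chi_eq_zero_of_rhoQ1 hnorm hGN hB π (rhoK1_pi hB hπ) h hbar hcentre hsep
    (Fermat.Agent.ES.W33.LocConst6.hloc (Fact.out : p.Prime).ne_zero hA hbar)
    (hker_of hGN π hkerF) e he

end Exit

/-! ### normality of the charts of Programme N -/

section Norm

open Fermat.Agent.ES.N34.ModelDefs9

variable {M' p A K}
variable {π : ↥(AK A K)} {tK : ↥(FK (M' * p) K)}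
  {B0 B1 : Subalgebra ↥(AK A K) ↥(FK (M' * p) K)} {O1K O2K : ValuationSubring ↥(FK (M' * p) K)}

theorem hnorm0 (D : NodalDataAt (AK A K) (FK (M' * p) K) π tK B0 B1 O1K O2K) :
    IsIntegrallyClosed ↥B0 := by
  haveI := Fermat.Agent.RED.NumInst4.isScalarTower_OE (AK A K) (FK (M' * p) K)
  have DD := (nodalDataAt_iff (AK A K) (FK (M' * p) K) π tK B0 B1 O1K O2K).mp D
  exact isIntegrallyClosed_of_intcl B0 DD.model.intcl0 DD.frac0

theorem hnorm1 (D : NodalDataAt (AK A K) (FK (M' * p) K) π tK B0 B1 O1K O2K) :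
    IsIntegrallyClosed ↥B1 := by
  haveI := Fermat.Agent.RED.NumInst4.isScalarTower_OE (AK A K) (FK (M' * p) K)
  have DD := (nodalDataAt_iff (AK A K) (FK (M' * p) K) π tK B0 B1 O1K O2K).mp D
  exact isIntegrallyClosed_of_intcl B1 DD.model.intcl1 DD.frac1

end Norm

end Fermat.Agent.ES.W33.NodeConvInst6
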