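/-
Programme W (S33), chapter B1′, leaf (M4) `SurjPropN`, piece **(C2) `hD` — THE FINAL ASSEMBLY AT THE
INSTANCE** (helper12): the hypothesis `hC2` of `M4InstN12.hM4_of_leaves` (= the field `hC2` of
helper23's `GeoLeaves23.Leaves`), VERBATIM:

  `∃ K₀, [K₀ : ℚ] < ∞ ∧ ∀ K ⊇ K₀ Galois, ∀ ht h01 h1le, hD0 ∧ hD1`

(`hD0`, `hD1` = the hypotheses of helper24's `SurjAsmN24.surjPropN_of` at `N := nodesN 4 8 …`,
`hB0 h01`, `hB1 h01 h1le`), from helper20's leaves `L' : PlaceLeaves L`, `R : R1Leaves … L` only.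

  `HdNode6.hD_B0 / hD_B1`        (helper6: node ideal ↦ place with that centre ↦ node disc)
   ∘ `hv1`, `hv2`                 := helper29 `TransInstN29.rhoK1_eq_zero_iff / rhoK2_eq_zero_iff`
   ∘ `hsep12`, `hsep21`           := `HsepN12.hsepN`
   ∘ `hR1`                        := helper17 `HdR1N17.hR1_B0 / hR1_B1 L' R`
      ∘ `hconv1`, `hconv2`        := `hconv_chart` below = helper6 `NodeConvInst6.chi_eq_zero_one / _two`
                                     (going-down, `hnorm0/1`, `LocConst6.hloc` inside) with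
          `hkerF`                 := helper3 `HkerN3.hker_of` at `L.h0/h1`,
                                     `L.red_const`, `L.sat0/sat1`,
          `hbar`                  := `RegAt` on the `ℚ̄`-chart from `HdR1N17.inChart0/1` +
                                     `NodalChart.mem_place / val_mem`,
   ∘ `D`, `hE`, `π`, `hbc`        := helper24 `LevelInstN24.levelInputsN`.
-/
import Mathlib
import Fermat.Agent.ES.W33.HdNode6
import Fermat.Agent.ES.W33.HdR1N17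
import Fermat.Agent.ES.W33.NodeConvInst6
import Fermat.Agent.ES.W33.HkerN3
import Fermat.Agent.ES.W33.NodalCtxRN20
import Fermat.Agent.ES.W33.HsepN12
import Fermat.Agent.ES.W33.TransInstN29
import Fermat.Agent.ES.W33.LevelInstN24

set_option autoImplicit false
set_option linter.unusedSectionVars false
set_option linter.dupNamespace false
set_option linter.style.haveILetI false
set_option synthInstance.maxHeartbeats 400000
set_option maxHeartbeats 1000000

open AlgebraicCurve ModularCurve IntermediateField HahnSeries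

noncomputable section

namespace Fermat.Agent.ES.W33.HdInstN12

open Fermat.Agent.X0 Fermat.Agent.X0.FF Fermat.Agent.ES.RED.PlaceValue13
  Fermat.Agent.RED.Interface4 Fermat.Agent.RED.DESC.PlaceExtend27
  Fermat.Agent.RED.DESC.NumberFieldDVR27
  Fermat.Agent.RED.PUR.ChartGeneric22 Fermat.Agent.RED.PUR.GaussGen8
  Fermat.Agent.RED.BASE.EtaQuot12 Fermat.Agent.RED.BASE.Interface12
  Fermat.Agent.RED.BASE.Hauptmodul12
  Fermat.Agent.ES.RED.Contract8 Fermat.Agent.ES.RED.ModelInst4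
  Fermat.Agent.ES.V19.CechIface12
  Fermat.Agent.ES.W33.XiIfaceN29 Fermat.Agent.ES.W33.ValAt29
  Fermat.Agent.ES.W33.NodalCech17 Fermat.Agent.ES.W33.GlueCRT19
  Fermat.Agent.ES.W33.CechIfaceN24 Fermat.Agent.ES.W33.SurjAsmN24
  Fermat.Agent.ES.W33.NodalDefs3 Fermat.Agent.ES.W33.NodeCentre11
  Fermat.Agent.ES.W33.NodeConv6 Fermat.Agent.ES.W33.TwoChartsNOf20
  Fermat.Agent.ES.W33.NodalChart20 Fermat.Agent.ES.W33.TwoChartsNInst20
  Fermat.Agent.ES.W33.TwoChartsNRN20 Fermat.Agent.ES.W33.TwoChartsN20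

variable {M' : ℕ} [NeZero M'] {p : ℕ} [Fact p.Prime] {A : ValuationSubring Qbar}

/-! ### the two inter-level converses on one chart -/

section Conv

variable {K : IntermediateField ℚ Qbar} {x : Fbar (M' * p)} {hx : IsGen Qbar x}

/-- **`hconv1 ∧ hconv2` of `HdR1N17.hR1_B0 / hR1_B1`** on a normal chart `chart (A ∩ K) sK` of
level `K` whose `ℚ̄`-chart `chart A s`, `s = bc sK`, lies in `GN`, reduces constants to constants and
is pair-saturated. -/
theorem hconv_chart (hA : A.LiesOverPrime p)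
    (sK : ↥(FK (M' * p) K)) (s : ↥(Fbar (M' * p))) (hs : baseChangeHom (M' * p) K sK = s)
    (hnorm : IsIntegrallyClosed ↥(chart ↥(AK A K) sK))
    (h0 : ∀ b ∈ chart ↥A s, b ∈ GN M' p A)
    (red_const : ∀ (a : ↥A) (h : algebraMap Qbar ↥(Fbar (M' * p)) (a : Qbar) ∈ GN M' p A),
      redN M' p A ⟨_, h⟩ =
        (algebraMap (kA A) (Ft M' A) (resA A a), algebraMap (kA A) (Ft M' A) (resA A a)))
    (sat : ∀ b : ↥(chart ↥A s).toSubring, b ≠ 0 →
      ∃ (c : ↥A) (b' : ↥(chart ↥A s).toSubring),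
        (b : ↥(Fbar (M' * p))) =
            algebraMap Qbar ↥(Fbar (M' * p)) (c : Qbar) * (b' : ↥(Fbar (M' * p))) ∧
          redOf A (GN M' p A) (redN M' p A) s h0 b' ≠ 0)
    (hB : ∀ b ∈ chart ↥(AK A K) sK, baseChangeHom (M' * p) K b ∈ GN M' p A)
    {π : ↥(AK A K)} (hπ : π ∈ IsLocalRing.maximalIdeal ↥(AK A K)) (hπ0 : π ≠ 0)
    (hsep12 : ∃ b : ↥(chart ↥(AK A K) sK),
      rhoK2 M' p A K _ hB b = 0 ∧ rhoK1 M' p A K _ hB b ≠ 0)
    (hsep21 : ∃ b : ↥(chart ↥(AK A K) sK),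
      rhoK1 M' p A K _ hB b = 0 ∧ rhoK2 M' p A K _ hB b ≠ 0)
    (hreg : haveI := Fermat.Agent.RED.NumInst4.isScalarTower_OE (AK A K) (FK (M' * p) K)
      ∀ P : Place Qbar (Fbar (M' * p)),
        RegAt A hx (baseChangeHom (M' * p) K) (chart ↥(AK A K) sK) P →
        RegAt A hx (RingHom.id ↥(Fbar (M' * p)))
          (chart ↥A (baseChangeHom (M' * p) K sK)) P) :
    haveI := Fermat.Agent.RED.NumInst4.isScalarTower_OE (AK A K) (FK (M' * p) K)
    (∀ (P : Place Qbar (Fbar (M' * p)))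
      (h : RegAt A hx (baseChangeHom (M' * p) K) (chart ↥(AK A K) sK) P),
      RingHom.ker (rhoK1 M' p A K _ hB) ≤ centreK h →
      ∀ f ∈ chart ↥A (baseChangeHom (M' * p) K sK), ∀ h1 : f ∈ O1 M' p A,
        rho1 M' p A ⟨f, h1⟩ = 0 → ∀ hf : f ∈ P.toValuationSubring,
          valueHom hx P ⟨f, hf⟩ ∈ A.nonunits) ∧
    ∀ (P : Place Qbar (Fbar (M' * p)))
      (h : RegAt A hx (baseChangeHom (M' * p) K) (chart ↥(AK A K) sK) P),
      RingHom.ker (rhoK2 M' p A K _ hB) ≤ centreK h →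
      ∀ f ∈ chart ↥A (baseChangeHom (M' * p) K sK), ∀ h2 : f ∈ O2 M' p A,
        rho2 M' p A ⟨f, h2⟩ = 0 → ∀ hf : f ∈ P.toValuationSubring,
          valueHom hx P ⟨f, hf⟩ ∈ A.nonunits := by
  haveI := Fermat.Agent.RED.NumInst4.isScalarTower_OE (AK A K) (FK (M' * p) K)
  subst hs
  have hπ' : incl A K π ≠ 0 := fun h => hπ0 (incl_injective A K (by rw [h, map_zero]))
  have hkerF : ∀ c ∈ chart ↥A (baseChangeHom (M' * p) K sK), ∀ hG : c ∈ GN M' p A,
      redN M' p A ⟨c, hG⟩ = 0 → ∃ (m : ℕ), ∃ d ∈ chart ↥A (baseChangeHom (M' * p) K sK),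
        c ^ m = algebraMap ↥A ↥(Fbar (M' * p)) (incl A K π) * d := fun c hc hG hred =>
    Fermat.Agent.ES.W33.HkerN3.hker_of hA _ h0 red_const sat (incl A K π) hπ' c hc hG hred
  -- from `chiK hbar e = 0` to a non-unit value
  have hnon : ∀ (P : Place Qbar (Fbar (M' * p)))
      (hbar : RegAt A hx (RingHom.id ↥(Fbar (M' * p)))
        (chart ↥A (baseChangeHom (M' * p) K sK)) P)
      (e : ↥(chart ↥A (baseChangeHom (M' * p) K sK))), chiK hbar e = 0 →
      ∀ hf : (e : ↥(Fbar (M' * p))) ∈ P.toValuationSubring,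
        valueHom hx P ⟨(e : ↥(Fbar (M' * p))), hf⟩ ∈ A.nonunits := by
    intro P hbar e hz hf
    have hnu : ¬ IsUnit (evK hbar e) :=
      (mem_centreK_iff_not_isUnit hbar e).mp ((mem_centreK_iff hbar e).mpr hz)
    rw [ValuationSubring.mem_nonunits_iff_exists_mem_maximalIdeal]
    refine ⟨(hbar e e.2).2, ?_⟩
    rw [IsLocalRing.mem_maximalIdeal, mem_nonunits_iff]
    exact hnu
  refine ⟨fun P h hk1 f hfB h1 hρ hfP => ?_, fun P h hk2 f hfB h2 hρ hfP => ?_⟩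
  · have hbar := hreg P h
    have hz : chiK hbar ⟨f, hfB⟩ = 0 :=
      Fermat.Agent.ES.W33.NodeConvInst6.chi_eq_zero_one hA hnorm h0 hB hπ hkerF hsep12 h hbar hk1
        ⟨f, hfB⟩ hρ
    exact hnon P hbar ⟨f, hfB⟩ hz hfP
  · have hbar := hreg P h
    have hz : chiK hbar ⟨f, hfB⟩ = 0 :=
      Fermat.Agent.ES.W33.NodeConvInst6.chi_eq_zero_two hA hnorm h0 hB hπ hkerF hsep21 h hbar hk2
        ⟨f, hfB⟩ hρ
    exact hnon P hbar ⟨f, hfB⟩ hz hfP

end Conv

/-! ### (C2) at the instance -/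

section Instance

open Fermat.Agent.ES.N34.ModelDefs9

variable (M' p A)

set_option maxHeartbeats 2000000 in
/-- **(C2) `hD0 ∧ hD1`, all large Galois `K`** — the hypothesis `hC2` of
`M4InstN12.hM4_of_leaves`, verbatim. -/
theorem hC2_four {hpM : ¬ p ∣ M'} (hp2 : p ≠ 2) {hM : 4 ∣ M'} {hA : A.LiesOverPrime p}
    {L : ChartLeaves 4 8 M' p baseHyp_four hM A} (L' : PlaceLeaves L)
    (R : R1Leaves 4 8 M' p hpM baseHyp_four hM A hA L) :
    ∃ K₀ : IntermediateField ℚ Qbar, FiniteDimensional ℚ K₀ ∧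
      ∀ (K : IntermediateField ℚ Qbar) [Normal ℚ K], FiniteDimensional ℚ K → K₀ ≤ K →
        ∀ (ht : tq ↥K 4 8 ∈ FK M' K) (h01 : M01LeGN M' p A K (tN p ht))
          (h1le : M1 A (M' * p) K (tN p ht) 0 ≤ M01 A (M' * p) K (tN p ht)),
          (∀ 𝔪 : Ideal ↥(chart ↥(AK A K) (tN p ht)),
            IsNode (RingHom.ker (rhoK1 M' p A K _ (hB0 h01)))
              (RingHom.ker (rhoK2 M' p A K _ (hB0 h01))) 𝔪 →
            ∃ j : Fin (sN 4 8 M' p hpM baseHyp_four hM A hA),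
              ∀ b : ↥(chart ↥(AK A K) (tN p ht)),
                ValAt ((nodesN 4 8 M' p hpM baseHyp_four hM A hA).ν₁ j)
                  (rhoK1 M' p A K _ (hB0 h01) b) 0 → b ∈ 𝔪) ∧
          ∀ 𝔪 : Ideal ↥(chart ↥(AK A K) (tN p ht)⁻¹),
            IsNode (RingHom.ker (rhoK1 M' p A K _ (hB1 h01 h1le)))
              (RingHom.ker (rhoK2 M' p A K _ (hB1 h01 h1le))) 𝔪 →
            ∃ j : Fin (sN 4 8 M' p hpM baseHyp_four hM A hA),
              ∀ b : ↥(chart ↥(AK A K) (tN p ht)⁻¹),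
                ValAt ((nodesN 4 8 M' p hpM baseHyp_four hM A hA).ν₁ j)
                  (rhoK1 M' p A K _ (hB1 h01 h1le) b) 0 → b ∈ 𝔪 := by
  obtain ⟨K₁, hK₁, H₁⟩ := Fermat.Agent.ES.W33.LevelInstN24.levelInputsN M' p A hpM hp2 hM hA
  obtain ⟨K₂, hK₂, H₂⟩ := Fermat.Agent.ES.W33.HsepN12.hsepN M' p A hpM hp2 hM hA
  haveI := hK₁
  haveI := hK₂
  refine ⟨K₁ ⊔ K₂, inferInstance, fun K _ hKf hle ht h01 h1le => ?_⟩
  haveI := Fermat.Agent.RED.NumInst4.isScalarTower_OE (AK A K) (FK (M' * p) K)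
  obtain ⟨ht', hE, hbc, -, -, -, -, -, -, -, ⟨π, hπ⟩, HK⟩ := H₁ K hKf (le_sup_left.trans hle)
  have D := HK π hπ
  have hm := D.model
  obtain ⟨⟨s12_0, s21_0⟩, s12_1, s21_1⟩ :=
    H₂ K hKf (le_sup_right.trans hle) ht (hB0 h01) (hB1 h01 h1le)
  have hπmem : π ∈ IsLocalRing.maximalIdeal ↥(AK A K) := by
    rw [hπ.max_eq]
    exact Ideal.mem_span_singleton_self π
  have hπ0 : π ≠ 0 := hπ.ne_zero
  refine ⟨?_, ?_⟩
  · -- chart 0
    have hreg : ∀ P : Place Qbar (Fbar (M' * p)),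
        RegAt A (hxN 4 8 M' p baseHyp_four hM) (baseChangeHom (M' * p) K)
          (chart ↥(AK A K) (tN p ht)) P →
        RegAt A (hxN 4 8 M' p baseHyp_four hM) (RingHom.id ↥(Fbar (M' * p)))
          (chart ↥A (baseChangeHom (M' * p) K (tN p ht))) P := by
      intro P h e he
      have hP0 : (S0N L).InChart P := Fermat.Agent.ES.W33.HdR1N17.inChart0 L P hbc h
      have he' : e ∈ (S0N L).B := by
        rw [hbc] at he
        exact he
      exact ⟨(S0N L).mem_place P hP0 e he', (S0N L).val_mem P hP0 e he'⟩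
    obtain ⟨hc1, hc2⟩ := hconv_chart (hx := hxN 4 8 M' p baseHyp_four hM) hA (tN p ht) _ hbc
      (Fermat.Agent.ES.W33.NodeConvInst6.hnorm0 D) L.h0 L.red_const L.sat0 (hB0 h01) hπmem hπ0
      s12_0 s21_0 hreg
    exact Fermat.Agent.ES.W33.HdNode6.hD_B0 (hxN 4 8 M' p baseHyp_four hM)
      (nodesN 4 8 M' p hpM baseHyp_four hM A hA) hA D (hB0 h01)
      (fun e he => (Fermat.Agent.ES.W33.TransInstN29.rhoK1_eq_zero_iff M' p A hπ hE hp2 hpM hM hA _
        (hB0 h01) hm.le_O1_0 hm.le_O2_0 e).mpr he)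
      (fun e he => (Fermat.Agent.ES.W33.TransInstN29.rhoK2_eq_zero_iff M' p A hπ hE hp2 hpM hM hA _
        (hB0 h01) hm.le_O1_0 hm.le_O2_0 e).mpr he)
      s12_0 s21_0
      (Fermat.Agent.ES.W33.HdR1N17.hR1_B0 L' R hbc (hB0 h01) hc1 hc2)
  · -- chart 1
    have hbc' : baseChangeHom (M' * p) K (tN p ht)⁻¹ =
        (Fermat.Agent.ES.W33.NodalDefs3.tN 4 8 M' p baseHyp_four hM)⁻¹ := by
      rw [map_inv₀, hbc]
    have hreg : ∀ P : Place Qbar (Fbar (M' * p)),
        RegAt A (hxN 4 8 M' p baseHyp_four hM) (baseChangeHom (M' * p) K)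
          (chart ↥(AK A K) (tN p ht)⁻¹) P →
        RegAt A (hxN 4 8 M' p baseHyp_four hM) (RingHom.id ↥(Fbar (M' * p)))
          (chart ↥A (baseChangeHom (M' * p) K (tN p ht)⁻¹)) P := by
      intro P h e he
      have hP1 : (S1N L).InChart P := Fermat.Agent.ES.W33.HdR1N17.inChart1 L P hbc h
      have he' : e ∈ (S1N L).B := by
        rw [hbc'] at he
        exact he
      exact ⟨(S1N L).mem_place P hP1 e he', (S1N L).val_mem P hP1 e he'⟩
    obtain ⟨hc1, hc2⟩ := hconv_chart (hx := hxN 4 8 M' p baseHyp_four hM) hA (tN p ht)⁻¹ _ hbc'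
      (Fermat.Agent.ES.W33.NodeConvInst6.hnorm1 D) L.h1 L.red_const L.sat1 (hB1 h01 h1le) hπmem hπ0
      s12_1 s21_1 hreg
    exact Fermat.Agent.ES.W33.HdNode6.hD_B1 (hxN 4 8 M' p baseHyp_four hM)
      (nodesN 4 8 M' p hpM baseHyp_four hM A hA) hA D (hB1 h01 h1le)
      (fun e he => (Fermat.Agent.ES.W33.TransInstN29.rhoK1_eq_zero_iff M' p A hπ hE hp2 hpM hM hA _
        (hB1 h01 h1le) hm.le_O1_1 hm.le_O2_1 e).mpr he)
      (fun e he => (Fermat.Agent.ES.W33.TransInstN29.rhoK2_eq_zero_iff M' p A hπ hE hp2 hpM hM hA _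
        (hB1 h01 h1le) hm.le_O1_1 hm.le_O2_1 e).mpr he)
      s12_1 s21_1
      (Fermat.Agent.ES.W33.HdR1N17.hR1_B1 L' R hbc (hB1 h01 h1le) hc1 hc2)

/-- the same from helper20's bundle `RNLeaves`. -/
theorem hC2_of_rnLeaves {hpM : ¬ p ∣ M'} (hp2 : p ≠ 2) {hM : 4 ∣ M'} {hA : A.LiesOverPrime p}
    (H : Fermat.Agent.ES.W33.NodalCtxRN20.RNLeaves 4 8 M' p hpM baseHyp_four hM A hA) :
    ∃ K₀ : IntermediateField ℚ Qbar, FiniteDimensional ℚ K₀ ∧
      ∀ (K : IntermediateField ℚ Qbar) [Normal ℚ K], FiniteDimensional ℚ K → K₀ ≤ K →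
        ∀ (ht : tq ↥K 4 8 ∈ FK M' K) (h01 : M01LeGN M' p A K (tN p ht))
          (h1le : M1 A (M' * p) K (tN p ht) 0 ≤ M01 A (M' * p) K (tN p ht)),
          (∀ 𝔪 : Ideal ↥(chart ↥(AK A K) (tN p ht)),
            IsNode (RingHom.ker (rhoK1 M' p A K _ (hB0 h01)))
              (RingHom.ker (rhoK2 M' p A K _ (hB0 h01))) 𝔪 →
            ∃ j : Fin (sN 4 8 M' p hpM baseHyp_four hM A hA),
              ∀ b : ↥(chart ↥(AK A K) (tN p ht)),
                ValAt ((nodesN 4 8 M' p hpM baseHyp_four hM A hA).ν₁ j)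
                  (rhoK1 M' p A K _ (hB0 h01) b) 0 → b ∈ 𝔪) ∧
          ∀ 𝔪 : Ideal ↥(chart ↥(AK A K) (tN p ht)⁻¹),
            IsNode (RingHom.ker (rhoK1 M' p A K _ (hB1 h01 h1le)))
              (RingHom.ker (rhoK2 M' p A K _ (hB1 h01 h1le))) 𝔪 →
            ∃ j : Fin (sN 4 8 M' p hpM baseHyp_four hM A hA),
              ∀ b : ↥(chart ↥(AK A K) (tN p ht)⁻¹),
                ValAt ((nodesN 4 8 M' p hpM baseHyp_four hM A hA).ν₁ j)
                  (rhoK1 M' p A K _ (hB1 h01 h1le) b) 0 → b ∈ 𝔪 :=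
  hC2_four M' p A hp2 H.placeLeaves H.R

end Instance

end Fermat.Agent.ES.W33.HdInstN12
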