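/-
Programme W (S33), chapter (B3′), instance layer (helper16): **the three level-`K` exports consumed by
the `ℚ̄`-union of the nodal instance** (helper3's (K1), (K2), (K3)), at the `ModelDefs9` data of
Programme N: `K` a number field, `O := AK A K`, `π` a uniformiser, `κ := Res O`, bad level `M' * q`.

* **(K1)** `gaussRed_mem_fullC_bad` — "bad-level (GB2)": the Gauss reduction of every Gauss-integral
  element of `K·F_{M' q}` (expansion at `∞`) lies in `κ·F̃_{M'}`: the residue field of the FIRST Gauss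
  valuation of the bad level is the function field of the special fibre of the GOOD level.
  From `hcomb` at `(O1, alpha)` (`CombA26.HcombAt`) and `GaussUnit25.resField_FK_eq` at level `M'`.
* **(K2)** `comp_alpha_series` — for `b` in the chart `B_j` of the bad level there is `b⁰` in Programme H's
  chart `B⁰_j` of the good level with `gaussRed (b - alpha b⁰) = 0`; `comp_beta_series` — the `beta` twin,
  read through the expansion `iota2` at the cusp `0`.  From `CompRedN16.SurjItems`.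
* **(K3)** `locSat0`, `locSat1` (+ swapped twins) — localised saturation: `e ∈ B_j ∩ π O2`,
  `b ∈ B_j ∩ π O1` ⇒ `e * b ∈ π B_j` (exponent `n = 1` suffices).  From `sat0/sat1` of
  `NodalCore13.NodalTwoChartModel`.
* `exports_four` : all of them for all large normal `K` (`q` odd, `4 ∣ M'`), NO hypotheses left.
-/
import Mathlib
import Fermat.Agent.ES.W33.CompRedN16
import Fermat.Agent.ES.RED.GaussUnit25

set_option autoImplicit false
set_option synthInstance.maxHeartbeats 400000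
set_option linter.unusedSectionVars false
set_option linter.style.haveILetI false

noncomputable section

open HahnSeries ModularCurve IntermediateField

namespace Fermat.Agent.ES.W33.LevelKExports16

open Fermat.Agent.RED.Interface4 Fermat.Agent.RED.PUR.GaussGen8 Fermat.Agent.RED.PUR.GaussBridge10
  Fermat.Agent.RED.BASE.EtaQuot12 Fermat.Agent.RED.DESC.NumberFieldDVR27
  Fermat.Agent.ES.N34.ModelDefs9 Fermat.Agent.ES.N34.ModelN4 Fermat.Agent.ES.N34.NodalCore13
  Fermat.Agent.ES.N34.NumData13 Fermat.Agent.ES.N34.ModelInput13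
  Fermat.Agent.ES.W33.CompRedN16

variable {n e q M' : ℕ} [NeZero n] [NeZero M'] [NeZero q] {A : ValuationSubring Qbar}
  {K : IntermediateField ℚ Qbar}

/-! ### (K1) -/

/-- a multiple of `π` by a Gauss-integral series reduces to `0`. -/
theorem gaussRed_piK_mul {π : ↥(AK A K)} (hπ : IsUnif (AK A K) π) {c : LaurentSeries K}
    (hc : c ∈ gaussRing (AK A K)) (h : piK π * c ∈ gaussRing (AK A K)) :
    gaussRed (AK A K) ⟨piK π * c, h⟩ = 0 := by
  have hsub : (⟨piK π * c, h⟩ : gaussRing (AK A K)) = constG (AK A K) π * ⟨c, hc⟩ :=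
    Subtype.ext rfl
  rw [hsub, map_mul, gaussRed_unif hπ, zero_mul]

/-- **(K1), bad-level (GB2)**: the Gauss reduction at `∞` of a Gauss-integral element of the bad
level lies in the special fibre of the GOOD level. -/
theorem gaussRed_mem_fullC_bad [FiniteDimensional ℚ K] [Fact q.Prime] (hqM : ¬ q ∣ M')
    (hA : A.LiesOverPrime q) (hC : Fermat.Agent.ES.N34.CombA26.HcombAt n e q M' A K)
    (ht : tq (↥K) n e ∈ FK M' K) (hE : FK (M' * q) K ≤ fracField (AK A K))
    (π : ↥(AK A K)) (hπ : IsUnif (AK A K) π)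
    (x : LaurentSeries K) (hxF : x ∈ FK (M' * q) K) (hxG : x ∈ gaussRing (AK A K)) :
    gaussRed (AK A K) ⟨x, hxG⟩ ∈ modularFunctionFieldFullC (Res (AK A K)) M' := by
  have hxO : (⟨x, hxF⟩ : FK (M' * q) K) ∈ O1 M' q hπ hE :=
    (mem_O1_iff M' q hπ hE ⟨x, hxF⟩).mpr hxG
  obtain ⟨z, hz, c, hc, hxz⟩ := hC ht hE π hπ ⟨x, hxF⟩ hxO
  have hcG : (c : LaurentSeries K) ∈ gaussRing (AK A K) := (mem_O1_iff M' q hπ hE c).mp hc
  have hser : x = (z : LaurentSeries K) + piK π * (c : LaurentSeries K) := by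
    have h1 : (((⟨x, hxF⟩ : FK (M' * q) K) - alpha K M' q z : FK (M' * q) K) : LaurentSeries K) =
        ((algebraMap ↥(AK A K) ↥(FK (M' * q) K) π * c : FK (M' * q) K) : LaurentSeries K) :=
      congrArg (fun y : FK (M' * q) K => (y : LaurentSeries K)) hxz
    have h2 : (((⟨x, hxF⟩ : FK (M' * q) K) - alpha K M' q z : FK (M' * q) K) :
        LaurentSeries K) = x - (z : LaurentSeries K) := by
      show x - ((alpha K M' q z : FK (M' * q) K) : LaurentSeries K) = _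
      rw [coe_alpha]
    have h3 : ((algebraMap ↥(AK A K) ↥(FK (M' * q) K) π * c : FK (M' * q) K) : LaurentSeries K) =
        piK π * (c : LaurentSeries K) := by
      show ((algebraMap ↥(AK A K) ↥(FK (M' * q) K) π : FK (M' * q) K) : LaurentSeries K) *
        (c : LaurentSeries K) = _
      rw [Fermat.Agent.RED.NumInst4.coe_algebraMap_OE]
    rw [h2, h3] at h1
    rw [← h1]; ring
  have hpc : piK π * (c : LaurentSeries K) ∈ gaussRing (AK A K) :=
    mul_mem (piK_mem π) hcG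
  have hred : gaussRed (AK A K) ⟨x, hxG⟩ = gaussRed (AK A K) ⟨(z : LaurentSeries K), hz⟩ := by
    have hsub : (⟨x, hxG⟩ : gaussRing (AK A K)) =
        ⟨(z : LaurentSeries K), hz⟩ + ⟨piK π * (c : LaurentSeries K), hpc⟩ := Subtype.ext hser
    rw [hsub, map_add, gaussRed_piK_mul hπ hcG hpc, add_zero]
  rw [hred, ← Fermat.Agent.ES.RED.GaussUnit25.resField_FK_eq A K q hA M' hqM]
  exact ⟨(z : LaurentSeries K), hz, z.2, rfl⟩

/-! ### (K2) -/

/-- **(K2), `alpha`**: from `SurjVia` at `(B, alpha, O1)` — the chart element `b` and `alpha b⁰`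
have the same Gauss reduction at `∞`. -/
theorem comp_alpha_series (hE : FK (M' * q) K ≤ fracField (AK A K))
    (π : ↥(AK A K)) (hπ : IsUnif (AK A K) π)
    {BM : Subalgebra ↥(AK A K) ↥(FK M' K)} {B : Subalgebra ↥(AK A K) ↥(FK (M' * q) K)}
    (hS : SurjVia (fun x : ↥BM => alpha K M' q (x : ↥(FK M' K))) π B (O1 M' q hπ hE))
    (b : ↥(FK (M' * q) K)) (hb : b ∈ B) :
    ∃ b₀ : ↥BM, ∃ h : (b : LaurentSeries K) - ((b₀ : ↥(FK M' K)) : LaurentSeries K) ∈
        gaussRing (AK A K), gaussRed (AK A K) ⟨_, h⟩ = 0 := by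
  obtain ⟨b₀, c, hc, hbc⟩ := hS b hb
  have hcG : (c : LaurentSeries K) ∈ gaussRing (AK A K) := (mem_O1_iff M' q hπ hE c).mp hc
  have hser : (b : LaurentSeries K) - ((b₀ : ↥(FK M' K)) : LaurentSeries K) =
      piK π * (c : LaurentSeries K) := by
    have h1 : ((b - alpha K M' q (b₀ : ↥(FK M' K)) : FK (M' * q) K) : LaurentSeries K) =
        ((algebraMap ↥(AK A K) ↥(FK (M' * q) K) π * c : FK (M' * q) K) : LaurentSeries K) :=
      congrArg (fun y : FK (M' * q) K => (y : LaurentSeries K)) hbc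
    have h2 : ((b - alpha K M' q (b₀ : ↥(FK M' K)) : FK (M' * q) K) : LaurentSeries K) =
        (b : LaurentSeries K) - ((b₀ : ↥(FK M' K)) : LaurentSeries K) := by
      show (b : LaurentSeries K) -
        ((alpha K M' q (b₀ : ↥(FK M' K)) : FK (M' * q) K) : LaurentSeries K) = _
      rw [coe_alpha]
    have h3 : ((algebraMap ↥(AK A K) ↥(FK (M' * q) K) π * c : FK (M' * q) K) : LaurentSeries K) =
        piK π * (c : LaurentSeries K) := by
      show ((algebraMap ↥(AK A K) ↥(FK (M' * q) K) π : FK (M' * q) K) : LaurentSeries K) *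
        (c : LaurentSeries K) = _
      rw [Fermat.Agent.RED.NumInst4.coe_algebraMap_OE]
    rw [h2, h3] at h1
    exact h1
  have hpc : piK π * (c : LaurentSeries K) ∈ gaussRing (AK A K) := mul_mem (piK_mem π) hcG
  refine ⟨b₀, hser ▸ hpc, ?_⟩
  have : (⟨(b : LaurentSeries K) - ((b₀ : ↥(FK M' K)) : LaurentSeries K), hser ▸ hpc⟩ :
      gaussRing (AK A K)) = ⟨piK π * (c : LaurentSeries K), hpc⟩ := Subtype.ext hser
  rw [this]
  exact gaussRed_piK_mul hπ hcG hpc

/-- **(K2), `beta`**: from `SurjVia` at `(B, beta, O2)` — read through the expansion `iota2` at the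
cusp `0`: `iota2 (b - beta b⁰) = π · (Gauss-integral)`. -/
theorem comp_beta_series (hE : FK (M' * q) K ≤ fracField (AK A K))
    (π : ↥(AK A K)) (hπ : IsUnif (AK A K) π)
    {BM : Subalgebra ↥(AK A K) ↥(FK M' K)} {B : Subalgebra ↥(AK A K) ↥(FK (M' * q) K)}
    (hS : SurjVia (fun x : ↥BM => beta K M' q (x : ↥(FK M' K))) π B (O2 M' q hπ hE))
    (b : ↥(FK (M' * q) K)) (hb : b ∈ B) :
    ∃ b₀ : ↥BM, ∃ c : LaurentSeries K, c ∈ gaussRing (AK A K) ∧
      iota2 K M' q (b - beta K M' q (b₀ : ↥(FK M' K))) = piK π * c := by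
  obtain ⟨b₀, c, hc, hbc⟩ := hS b hb
  refine ⟨b₀, iota2 K M' q c, (mem_O2_iff M' q hπ hE c).mp hc, ?_⟩
  rw [hbc, map_mul]
  congr 1
  rw [iota2_apply]
  have : wN K M' q (algebraMap ↥(AK A K) ↥(FK (M' * q) K) π) =
      algebraMap ↥(AK A K) ↥(FK (M' * q) K) π := by
    have h1 : algebraMap ↥(AK A K) ↥(FK (M' * q) K) π =
        algebraMap (↥K) ↥(FK (M' * q) K) ((π : ↥(AK A K)) : ↥K) := rfl
    rw [h1, AlgHom.commutes]
  rw [this, Fermat.Agent.RED.NumInst4.coe_algebraMap_OE]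

/-! ### (K3) -/

section Sat

variable {R F : Type*} [CommRing R] [Field F] [Algebra R F]

/-- **(K3), abstract**: `e ∈ B ∩ π O2`, `b ∈ B ∩ π O1` ⇒ `e * b ∈ π B` for a chart saturated in
`O1 ⊓ O2`. -/
theorem locSat_of_sat (π : R) (B : Subalgebra R F) (O1 O2 : ValuationSubring F)
    (le1 : ∀ x ∈ B, x ∈ O1) (le2 : ∀ x ∈ B, x ∈ O2)
    (sat : ∀ b ∈ B, ∀ c : F, c ∈ O1 → c ∈ O2 → b = algebraMap R F π * c → c ∈ B)
    {e b : F} (he : e ∈ B) (hb : b ∈ B)
    (he2 : ∃ c ∈ O2, e = algebraMap R F π * c) (hb1 : ∃ c ∈ O1, b = algebraMap R F π * c) :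
    ∃ b₁ ∈ B, e * b = algebraMap R F π * b₁ := by
  obtain ⟨c2, hc2, rfl⟩ := he2
  obtain ⟨c1, hc1, hb1'⟩ := hb1
  refine ⟨c2 * b, ?_, by ring⟩
  refine sat (algebraMap R F π * c2 * b) (B.mul_mem he hb) (c2 * b) ?_ (O2.mul_mem _ _ hc2 (le2 _ hb))
    (by ring)
  -- `c2 * b = (π c2) * c1 ∈ O1`
  have : c2 * b = (algebraMap R F π * c2) * c1 := by rw [hb1']; ring
  rw [this]
  exact O1.mul_mem _ _ (le1 _ he) hc1

end Sat

/-- **(K3)** at the `ModelDefs9` data: both charts, both orders of the two components. -/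
theorem locSat_model {π : ↥(AK A K)} {t : ↥(FK (M' * q) K)}
    {B0 B1 : Subalgebra ↥(AK A K) ↥(FK (M' * q) K)} {O1 O2 : ValuationSubring ↥(FK (M' * q) K)}
    (D : NodalDataAt (AK A K) (FK (M' * q) K) π t B0 B1 O1 O2) :
    (∀ e ∈ B0, ∀ b ∈ B0, (∃ c ∈ O2, e = algebraMap ↥(AK A K) ↥(FK (M' * q) K) π * c) →
      (∃ c ∈ O1, b = algebraMap ↥(AK A K) ↥(FK (M' * q) K) π * c) →
      ∃ b₁ ∈ B0, e * b = algebraMap ↥(AK A K) ↥(FK (M' * q) K) π * b₁) ∧
    (∀ e ∈ B0, ∀ b ∈ B0, (∃ c ∈ O1, e = algebraMap ↥(AK A K) ↥(FK (M' * q) K) π * c) →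
      (∃ c ∈ O2, b = algebraMap ↥(AK A K) ↥(FK (M' * q) K) π * c) →
      ∃ b₁ ∈ B0, e * b = algebraMap ↥(AK A K) ↥(FK (M' * q) K) π * b₁) ∧
    (∀ e ∈ B1, ∀ b ∈ B1, (∃ c ∈ O2, e = algebraMap ↥(AK A K) ↥(FK (M' * q) K) π * c) →
      (∃ c ∈ O1, b = algebraMap ↥(AK A K) ↥(FK (M' * q) K) π * c) →
      ∃ b₁ ∈ B1, e * b = algebraMap ↥(AK A K) ↥(FK (M' * q) K) π * b₁) ∧
    (∀ e ∈ B1, ∀ b ∈ B1, (∃ c ∈ O1, e = algebraMap ↥(AK A K) ↥(FK (M' * q) K) π * c) →
      (∃ c ∈ O2, b = algebraMap ↥(AK A K) ↥(FK (M' * q) K) π * c) →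
      ∃ b₁ ∈ B1, e * b = algebraMap ↥(AK A K) ↥(FK (M' * q) K) π * b₁) := by
  haveI := Fermat.Agent.RED.NumInst4.isScalarTower_OE (AK A K) (FK (M' * q) K)
  have M := ((nodalDataAt_iff (AK A K) (FK (M' * q) K) π t B0 B1 O1 O2).mp D).model
  refine ⟨fun e he b hb h2 h1 => ?_, fun e he b hb h1 h2 => ?_, fun e he b hb h2 h1 => ?_,
    fun e he b hb h1 h2 => ?_⟩
  · exact locSat_of_sat π B0 O1 O2 M.le_O1_0 M.le_O2_0 M.sat0 he hb h2 h1
  · exact locSat_of_sat π B0 O2 O1 M.le_O2_0 M.le_O1_0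
      (fun b hb c h2' h1' h => M.sat0 b hb c h1' h2' h) he hb h1 h2
  · exact locSat_of_sat π B1 O1 O2 M.le_O1_1 M.le_O2_1 M.sat1 he hb h2 h1
  · exact locSat_of_sat π B1 O2 O1 M.le_O2_1 M.le_O1_1
      (fun b hb c h2' h1' h => M.sat1 b hb c h1' h2' h) he hb h1 h2

/-! ### Everything for all large `K` -/

/-- **(K1) + (K2)/(C) + the nodal data, for all large normal `K`** (`q` odd, `4 ∣ M'`): the number
fields of `ModelEnd4.modelInput_four`, intersected with those of `hcomb` and of `SurjItems`. -/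
theorem exports_four (hq : q.Prime) (hqM : ¬ q ∣ M') (hq2 : q ≠ 2) (hM : 4 ∣ M')
    (hA : A.LiesOverPrime q) :
    Large (fun K : IntermediateField ℚ Qbar =>
      ∃ (ht : tq (↥K) 4 8 ∈ FK M' K) (hE : FK (M' * q) K ≤ fracField (AK A K)),
        ∀ (π : ↥(AK A K)) (hπ : IsUnif (AK A K) π),
          NodalDataAt (AK A K) (FK (M' * q) K) π (tN q ht) (B0 A q ht) (B1 A q ht)
            (O1 M' q hπ hE) (O2 M' q hπ hE) ∧
          (∀ (x : LaurentSeries K) (_ : x ∈ FK (M' * q) K) (hxG : x ∈ gaussRing (AK A K)),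
            gaussRed (AK A K) ⟨x, hxG⟩ ∈ modularFunctionFieldFullC (Res (AK A K)) M') ∧
          SurjItems 4 8 q M' A K) := by
  obtain ⟨K₁, hK₁, hmodel⟩ := Fermat.Agent.ES.N34.ModelEnd4.modelInput_four q M' A hq hqM hq2 hM hA
  have hC := Fermat.Agent.ES.N34.CombA26.hcomb_four (M' := M') hq hqM hM hA
  have hS := surjItems_four (M' := M') hq hqM hq2 hM hA
  obtain ⟨K₀, hK₀, h⟩ := hC.and hS
  haveI := hK₀
  haveI := hK₁
  refine ⟨K₀ ⊔ K₁, inferInstance, fun K _ hfd hle => ?_⟩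
  obtain ⟨hCK, hSK⟩ := h K hfd (le_trans le_sup_left hle)
  obtain ⟨ht, hE, hmod⟩ := hmodel K hfd (le_trans le_sup_right hle)
  haveI := hfd
  haveI : Fact q.Prime := ⟨hq⟩
  refine ⟨ht, hE, fun π hπ => ⟨hmod π hπ, fun x hxF hxG => ?_, hSK⟩⟩
  exact gaussRed_mem_fullC_bad hqM hA hCK ht hE π hπ x hxF hxG

end Fermat.Agent.ES.W33.LevelKExports16
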