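/-
Programme W (S33), chapter (B3′), helper1: **the DEFINITION-INDEPENDENT core of "no node over
`t = 0, ∞`"** (`hnode` of `Reg01PropN13`, `no_node0/1` of the two-chart contract).

`(n, e) = (4, 8)` or `(9, 3)` (`hb : BaseHyp n e`), `ℓ` a prime not dividing `n`, `t = tK n e`,
`y = qExpand ℚbar ℓ t = t(q^ℓ)`.

LEVEL `n ℓ` OVER `ℚbar` (on top of `ModEqBar23`):
* `poles_aF`               : the poles of `αt` are the two places with
                             `(ord αt, ord βt) = (-1, -ℓ)` resp. `(-ℓ, -1)`;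
* `isIntegral_bF_div`      (J2, level form)  `βt · ((αt)⁻¹)^ℓ` is integral over `ℚbar[(αt)⁻¹]`;
* `isIntegral_qExpand_div` (J2, series form) `y · (t⁻¹)^ℓ` is integral over `ℚbar[t⁻¹]`;
* `isIntegral_pow_div_qExpand` (J1, series form) `t^ℓ · y⁻¹` is integral over `ℚbar[t]`
  (Fricke `T_S`, then Atkin–Lehner `W`, applied to (J2): `isIntegral_qExpand_pow_div`,
  `isIntegral_bF_pow_div`).
DESCENT (`ModEq23` shape): `isIntegral_pow_div_qExpand_tq`, `isIntegral_qExpand_div_tq` over any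
`K ⊆ ℚbar`; `isIntegral_f0`, `isIntegral_f1` in `FK (M' q) K`;
**`f0_mem_B0 : tN^q · yN⁻¹ ∈ B0`**, **`f1_mem_B1 : (tN⁻¹)^q · (yN⁻¹)⁻¹ ∈ B1`** (`ModelDefs9` charts, by
`SatIntegral18.mem_of_isIntegral_field` with `sat0/sat1` as hypotheses, as `ModEq23.yN_mem_B0`).
CONGRUENCES: `kron_tN_yN` (`yN ≡ tN^q mod π O1`, `tN ≡ yN^q mod π O2`, and the twins for the inverses,
from `KronChart15.kron_one/kron_two` + `gpsi_tM`), `congr_pow_div` (abstract: `f = t^q/y` satisfies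
`f ≡ 1 mod π O1`, `f ≡ y^(q²-1) mod π O2`).
ABSTRACT ARGUMENT: `not_mem_of_not_offBranch` — `t y f ∈ B`, `f ≡ 1 (π O1)`, `t ≡ y^q (π O2)`,
`f ≡ y^m (π O2)`: a prime of `B` with `¬ OffBranch π B O1 𝔪`, `¬ OffBranch π B O2 𝔪` does not contain `t`.
RESULT: **`nodeData_at`**, **`nodeData_four`** (the elements `y, f` of both charts with the three
congruences, at one `K` resp. for all large normal `K`), **`no_node_at`** (one `K`, from `NodalDataAt` +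
the Kronecker inputs) and
**`no_node_four`** (all large normal `K`, `q` odd, `4 ∣ M'`, NO hypotheses left): a prime of `B0`
(resp. `B1`) through which both components pass does not contain `tN` (resp. `tN⁻¹`).
-/
import Mathlib
import Fermat.Agent.ES.N34.ModEq23
import Fermat.Agent.ES.N34.YMem11
import Fermat.Agent.ES.N34.KronItems15
import Fermat.Agent.ES.N34.ModelEnd4

set_option autoImplicit false
set_option linter.unusedSectionVars false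
set_option linter.style.haveILetI false

open ModularCurve AlgebraicCurve IntermediateField UpperHalfPlane
open scoped IntermediateField MatrixGroups

noncomputable section

namespace Fermat.Agent.ES.W33.PowQuot1

open Fermat.Agent.X0 Fermat.Agent.X0.Analytic Fermat.Agent.X0.FF
open Fermat.Agent.RED.BASE.Interface12 Fermat.Agent.RED.BASE.Hauptmodul12
open Fermat.Agent.RED.BASE Fermat.Agent.RED.BASE.DeltaMem19 Fermat.Agent.RED.BASE.QExpMem19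
open Fermat.Agent.IG.PR.Interface20 Fermat.Agent.IG.AN.DeltaQuot19
open Fermat.Agent.RED.BASE.EtaQuot12
open Fermat.Agent.ES.N34.ModEqBar23 Fermat.Agent.ES.KRON.Conjugates11

section Scale

variable {K L : Type*} [Field K] [Field L] [Algebra K L]

/-- Integrality of `d z` over `K[c x]` (`d ∈ K^×`) gives integrality of `z` over `K[x]`. -/
theorem isIntegral_of_const_mul {c d : K} (hd : d ≠ 0) {x z : L}
    (h : IsIntegral (Algebra.adjoin K {algebraMap K L c * x}) (algebraMap K L d * z)) :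
    IsIntegral (Algebra.adjoin K {x}) z := by
  have h1 : IsIntegral (Algebra.adjoin K {x}) (algebraMap K L d * z) :=
    IsIntegral.map_of_comp_eq (Subalgebra.inclusion (adjoin_smul_le c x)).toRingHom (RingHom.id L)
      (by ext r; rfl) h
  have h2 : IsIntegral (Algebra.adjoin K {x}) (algebraMap K L d⁻¹) :=
    isIntegral_algebraMap (R := Algebra.adjoin K {x}) (A := L)
      (x := ⟨algebraMap K L d⁻¹, Subalgebra.algebraMap_mem _ d⁻¹⟩)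
  have h3 := h2.mul h1
  rwa [← mul_assoc, ← map_mul, inv_mul_cancel₀ hd, map_one, one_mul] at h3

end Scale

/-! ### The abstract argument -/

section Abstract

open Fermat.Agent.ES.N34.NodalCore13

variable {R F : Type*} [CommRing R] [Field F] [Algebra R F]

/-- an element of `B ∩ π O_j` lies in every prime through which the component `j` passes. -/
theorem mem_of_not_offBranch (π : R) (B : Subalgebra R F) (Oj : ValuationSubring F)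
    (𝔪 : Ideal B) (hj : ¬ OffBranch π B Oj 𝔪) (x : B)
    (hx : ∃ c ∈ Oj, (x : F) = algebraMap R F π * c) : x ∈ 𝔪 := by
  by_contra hne
  exact hj ⟨x, hne, hx⟩

/-- **No node on `t = 0`, abstract form.**  `t y f ∈ B` with `f ≡ 1 mod π O1`, `t ≡ y^q mod π O2`,
`f ≡ y^m mod π O2` (`q, m ≥ 1`): a prime `𝔪` of `B` on both components does not contain `t`. -/
theorem not_mem_of_not_offBranch (π : R) (B : Subalgebra R F) (O1 O2 : ValuationSubring F)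
    (𝔪 : Ideal B) [h𝔪 : 𝔪.IsPrime] (h1 : ¬ OffBranch π B O1 𝔪) (h2 : ¬ OffBranch π B O2 𝔪)
    (t y f : B) (q m : ℕ) (hm : m ≠ 0)
    (hf1 : ∃ c ∈ O1, (f : F) - 1 = algebraMap R F π * c)
    (hty : ∃ c ∈ O2, (t : F) - (y : F) ^ q = algebraMap R F π * c)
    (hf2 : ∃ c ∈ O2, (f : F) - (y : F) ^ m = algebraMap R F π * c) : t ∉ 𝔪 := by
  intro htm
  have e1 : t - y ^ q ∈ 𝔪 := mem_of_not_offBranch π B O2 𝔪 h2 _ (by
    obtain ⟨c, hc, h⟩ := hty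
    exact ⟨c, hc, by push_cast; exact h⟩)
  have hyq : y ^ q ∈ 𝔪 := by
    have := 𝔪.sub_mem htm e1
    rwa [sub_sub_cancel] at this
  have hy : y ∈ 𝔪 := h𝔪.mem_of_pow_mem q hyq
  have e2 : f - y ^ m ∈ 𝔪 := mem_of_not_offBranch π B O2 𝔪 h2 _ (by
    obtain ⟨c, hc, h⟩ := hf2
    exact ⟨c, hc, by push_cast; exact h⟩)
  have hf : f ∈ 𝔪 := by
    have := 𝔪.add_mem e2 (Ideal.pow_mem_of_mem 𝔪 hy m (Nat.pos_of_ne_zero hm))
    rwa [sub_add_cancel] at this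
  have e3 : f - 1 ∈ 𝔪 := mem_of_not_offBranch π B O1 𝔪 h1 _ (by
    obtain ⟨c, hc, h⟩ := hf1
    exact ⟨c, hc, by push_cast; exact h⟩)
  have h11 : (1 : B) ∈ 𝔪 := by
    have := 𝔪.sub_mem hf e3
    rwa [sub_sub_cancel] at this
  exact h𝔪.ne_top ((Ideal.eq_top_iff_one 𝔪).mpr h11)

/-- The two congruences of `f = t^q / y` from the two Kronecker congruences `y ≡ t^q mod π O1`,
`t ≡ y^q mod π O2`. -/
theorem congr_pow_div (π : R) (O1 O2 : ValuationSubring F) (t y : F) (hy : y ≠ 0) (q : ℕ)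
    (hq : 0 < q)
    (h1 : ∃ o ∈ O1, y - t ^ q = algebraMap R F π * o) (hy1 : y⁻¹ ∈ O1)
    (h2 : ∃ o ∈ O2, t - y ^ q = algebraMap R F π * o) (ht2 : t ∈ O2) (hy2 : y ∈ O2)
    (hyi2 : y⁻¹ ∈ O2) :
    (∃ c ∈ O1, t ^ q * y⁻¹ - 1 = algebraMap R F π * c) ∧
      (∃ c ∈ O2, t ^ q * y⁻¹ - y ^ (q * q - 1) = algebraMap R F π * c) := by
  constructor
  · obtain ⟨o, ho, h⟩ := h1
    refine ⟨-(o * y⁻¹), O1.neg_mem _ (O1.mul_mem _ _ ho hy1), ?_⟩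
    have : t ^ q * y⁻¹ - 1 = -((y - t ^ q) * y⁻¹) := by
      field_simp
      ring
    rw [this, h]
    ring
  · obtain ⟨o, ho, h⟩ := h2
    set S : F := ∑ i ∈ Finset.range q, t ^ i * (y ^ q) ^ (q - 1 - i) with hS
    have hSm : S ∈ O2 := by
      rw [hS]
      refine O2.toSubring.sum_mem fun i _ => ?_
      exact O2.mul_mem _ _ (pow_mem ht2 _) (pow_mem (pow_mem hy2 _) _)
    have hgeom : S * (t - y ^ q) = t ^ q - (y ^ q) ^ q := (Commute.all t (y ^ q)).geom_sum₂_mul q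
    refine ⟨S * o * y⁻¹, O2.mul_mem _ _ (O2.mul_mem _ _ hSm ho) hyi2, ?_⟩
    have hqq : q * q - 1 + 1 = q * q := Nat.sub_add_cancel (Nat.mul_pos hq hq)
    have hpow : y ^ (q * q - 1) = (y ^ q) ^ q * y⁻¹ := by
      rw [← pow_mul, ← hqq, pow_succ, mul_assoc, mul_inv_cancel₀ hy, mul_one, hqq]
    rw [hpow, ← sub_mul, ← hgeom, h]
    ring

end Abstract

section Level

variable {n e : ℕ} (ℓ : ℕ) [NeZero n] [NeZero ℓ]

/-- **The two pole places.** At level `n ℓ`, a pole of `αt` is either the place of the `q`-expansion,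
`(ord αt, ord βt) = (-1, -ℓ)`, or the Atkin–Lehner place, `(ord αt, ord βt) = (-ℓ, -1)`. -/
theorem poles_aF (hb : BaseHyp n e) (hℓ : ℓ.Prime) (hℓn : ¬ ℓ ∣ n)
    (v : Place Kbar (FF (n * ℓ))) (hv : v.ord (aF ℓ (tMem hb)) < 0) :
    (v.ord (aF ℓ (tMem hb)) = -1 ∧ v.ord (bF ℓ (tMem hb)) = -(ℓ : ℤ)) ∨
      (v.ord (aF ℓ (tMem hb)) = -(ℓ : ℤ) ∧ v.ord (bF ℓ (tMem hb)) = -1) := by
  classical
  set hn := tMem hb with hhn
  have hℓ2 : (2 : ℤ) ≤ ℓ := by exact_mod_cast hℓ.two_le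
  have ht0 : tF n hn ≠ 0 := fun h0 => TGen19.tK_ne_zero n e (congrArg Subtype.val h0)
  have ha0 : aF ℓ hn ≠ 0 := by
    rw [aF]; exact (map_ne_zero _).mpr ht0
  have hb0 : bF ℓ hn ≠ 0 := by
    rw [bF]; exact (map_ne_zero _).mpr ht0
  -- the place at infinity
  set τ₁ := valHom (n * ℓ) with hτ₁
  have hτ₁c := valHom_const (n * ℓ)
  have h1a : (τ₁ (aF ℓ hn)).order = -1 := by
    rw [hτ₁, valHom_apply, coe_aF]; exact order_tK'
  have h1b : (τ₁ (bF ℓ hn)).order = -(ℓ : ℤ) := by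
    rw [hτ₁, valHom_apply, coe_bF]; exact order_qExpand_tK ℓ
  have hnt₁ : ∃ f, f ≠ 0 ∧ (τ₁ f).order ≠ 0 := ⟨aF ℓ hn, ha0, by rw [h1a]; decide⟩
  set P₁ := LaurentPlace.embPlace τ₁ hτ₁c hnt₁ with hP₁
  have hP₁a : P₁.ord (aF ℓ hn) = -1 := by
    rw [hP₁, embPlace_ord_eq τ₁ hτ₁c hnt₁ ha0 h1a ha0, h1a]
  have hP₁b : P₁.ord (bF ℓ hn) = -(ℓ : ℤ) := by
    rw [hP₁, embPlace_ord_eq τ₁ hτ₁c hnt₁ ha0 h1a hb0, h1b]
  -- the Atkin–Lehner place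
  obtain ⟨W, hWβ, hWα⟩ := exists_W n ℓ hℓ hℓn
  have hWc : ∀ c : Kbar, W (algebraMap Kbar (FF (n * ℓ)) c) = HahnSeries.C c := by
    intro c
    have h1 : algebraMap Kbar (FF (n * ℓ)) c =
        heckeAlphaBar Kbar n ℓ (algebraMap Kbar (FF n) c) := (AlgHom.commutes _ c).symm
    rw [h1, hWα]
    show qExpand Kbar ℓ (algebraMap Kbar (LaurentSeries Kbar) c) = HahnSeries.C c
    rw [algebraMap_laurentSeries_eq_single]
    exact qExpand_C ℓ c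
  have h2b : (W (bF ℓ hn)).order = -1 := by
    rw [bF, hWβ]; exact order_tK'
  have h2a : (W (aF ℓ hn)).order = -(ℓ : ℤ) := by
    rw [aF, hWα]; exact order_qExpand_tK ℓ
  have hnt₂ : ∃ f, f ≠ 0 ∧ (W f).order ≠ 0 := ⟨bF ℓ hn, hb0, by rw [h2b]; decide⟩
  set P₂ := LaurentPlace.embPlace W hWc hnt₂ with hP₂
  have hP₂b : P₂.ord (bF ℓ hn) = -1 := by
    rw [hP₂, embPlace_ord_eq W hWc hnt₂ hb0 h2b hb0, h2b]
  have hP₂a : P₂.ord (aF ℓ hn) = -(ℓ : ℤ) := by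
    rw [hP₂, embPlace_ord_eq W hWc hnt₂ hb0 h2b ha0, h2a]
  have hne : P₁ ≠ P₂ := by
    intro h
    rw [h, hP₂a] at hP₁a
    omega
  have hmem := mem_of_ord_neg (isGen_aF ℓ hn) {P₁, P₂}
    (by
      intro w hw
      rcases Finset.mem_insert.mp hw with rfl | hw
      · rw [hP₁a]; decide
      · rw [Finset.mem_singleton.mp hw, hP₂a]; omega)
    (by
      rw [Finset.sum_pair hne, hP₁a, hP₂a, finrank_aF ℓ hb hℓ hℓn]
      push_cast
      ring) v hv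
  rcases Finset.mem_insert.mp hmem with rfl | hw
  · exact Or.inl ⟨hP₁a, hP₁b⟩
  · rw [Finset.mem_singleton.mp hw]
    exact Or.inr ⟨hP₂a, hP₂b⟩

theorem aF_ne_zero (hn : TMem n e n) : aF ℓ hn ≠ 0 := by
  have ht0 : tF n hn ≠ 0 := fun h0 => TGen19.tK_ne_zero n e (congrArg Subtype.val h0)
  rw [aF]; exact (map_ne_zero _).mpr ht0

theorem bF_ne_zero (hn : TMem n e n) : bF ℓ hn ≠ 0 := by
  have ht0 : tF n hn ≠ 0 := fun h0 => TGen19.tK_ne_zero n e (congrArg Subtype.val h0)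
  rw [bF]; exact (map_ne_zero _).mpr ht0

/-- **(J2) at level `n ℓ`**: `βt · ((αt)⁻¹)^ℓ` is integral over `ℚbar[(αt)⁻¹]`. -/
theorem isIntegral_bF_div (hb : BaseHyp n e) (hℓ : ℓ.Prime) (hℓn : ¬ ℓ ∣ n) :
    IsIntegral (Algebra.adjoin Kbar {(aF ℓ (tMem hb))⁻¹})
      (bF ℓ (tMem hb) * ((aF ℓ (tMem hb))⁻¹) ^ ℓ) := by
  have ha0 := aF_ne_zero ℓ (tMem hb)
  have hb0 := bF_ne_zero ℓ (tMem hb)
  have hℓ2 : (2 : ℤ) ≤ ℓ := by exact_mod_cast hℓ.two_le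
  have h := Fermat.Agent.RED.PUR.PlaceIntegral3.mem_intRing_of_forall_place
    (isGen_aF ℓ (tMem hb)).inv (bF ℓ (tMem hb) * ((aF ℓ (tMem hb))⁻¹) ^ ℓ) (by
      intro v hav
      rw [FF.ffp_mem_iff_ord_nonneg] at hav ⊢
      rw [v.ord_inv] at hav
      rw [v.ord_mul hb0 (pow_ne_zero _ (inv_ne_zero ha0)), FF.ord_pow, v.ord_inv]
      rcases lt_or_eq_of_le (by omega : v.ord (aF ℓ (tMem hb)) ≤ 0) with hneg | h0
      · rcases poles_aF ℓ hb hℓ hℓn v hneg with ⟨h1, h2⟩ | ⟨h1, h2⟩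
        · rw [h1, h2]
          have h3 : -(ℓ : ℤ) + (ℓ : ℤ) * - -1 = 0 := by ring
          rw [h3]
        · rw [h1, h2]
          have : (0 : ℤ) ≤ (ℓ : ℤ) * ℓ - 1 := by nlinarith
          have h3 : -1 + (ℓ : ℤ) * - -(ℓ : ℤ) = (ℓ : ℤ) * ℓ - 1 := by ring
          rw [h3]; exact this
      · rw [h0]
        have hbi : bF ℓ (tMem hb) ∈ v.toValuationSubring := by
          have hI : bF ℓ (tMem hb) ∈ intRing Kbar (aF ℓ (tMem hb)) := isIntegral_bF ℓ hb hℓ hℓn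
          have hav' : aF ℓ (tMem hb) ∈ v.toValuationSubring := by
            rw [FF.ffp_mem_iff_ord_nonneg, h0]
          exact FF.intRing_le_of_mem v hav' ⟨_, hI⟩
        rw [FF.ffp_mem_iff_ord_nonneg] at hbi
        rw [neg_zero, mul_zero, add_zero]
        exact hbi)
  exact h

/-- **(J2), series form**: `t(q^ℓ) · (t⁻¹)^ℓ` is integral over `ℚbar[t⁻¹]`. -/
theorem isIntegral_qExpand_div (hb : BaseHyp n e) (hℓ : ℓ.Prime) (hℓn : ¬ ℓ ∣ n) :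
    IsIntegral (Algebra.adjoin Kbar {(tK n e)⁻¹})
      (qExpand Kbar ℓ (tK n e) * ((tK n e)⁻¹) ^ ℓ) := by
  have h := isIntegral_adjoin_map (modularFunctionFieldBar (n * ℓ)).val
    (isIntegral_bF_div ℓ hb hℓ hℓn)
  have h1 : (modularFunctionFieldBar (n * ℓ)).val (bF ℓ (tMem hb)) = qExpand Kbar ℓ (tK n e) :=
    coe_bF ℓ (tMem hb)
  have h2 : (modularFunctionFieldBar (n * ℓ)).val (aF ℓ (tMem hb)) = tK n e := coe_aF ℓ (tMem hb)
  rw [map_mul, map_pow, map_inv₀, h1, h2] at h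
  exact h

/-- (J3), series form: `t(q^ℓ)^ℓ · t⁻¹` is integral over `ℚbar[t(q^ℓ)]` (Fricke applied to (J2)). -/
theorem isIntegral_qExpand_pow_div (hb : BaseHyp n e) (hℓ : ℓ.Prime) (hℓn : ¬ ℓ ∣ n) :
    IsIntegral (Algebra.adjoin Kbar {qExpand Kbar ℓ (tK n e)})
      ((qExpand Kbar ℓ (tK n e)) ^ ℓ * (tK n e)⁻¹) := by
  obtain ⟨c₀, hc₀, ha, hbb⟩ := exists_fricke ℓ hb
  have h := isIntegral_adjoin_map (frickeHom ℓ) (isIntegral_bF_div ℓ hb hℓ hℓn)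
  rw [map_mul, map_pow, map_inv₀, ha, hbb] at h
  have e1 : (algebraMap Kbar (LaurentSeries Kbar) c₀ * (qExpand Kbar ℓ (tK n e))⁻¹)⁻¹ =
      algebraMap Kbar (LaurentSeries Kbar) c₀⁻¹ * qExpand Kbar ℓ (tK n e) := by
    rw [mul_inv, inv_inv, map_inv₀]
  rw [e1] at h
  have e2 : algebraMap Kbar (LaurentSeries Kbar) c₀ * (tK n e)⁻¹ *
      (algebraMap Kbar (LaurentSeries Kbar) c₀⁻¹ * qExpand Kbar ℓ (tK n e)) ^ ℓ =
      algebraMap Kbar (LaurentSeries Kbar) (c₀ * c₀⁻¹ ^ ℓ) *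
        ((qExpand Kbar ℓ (tK n e)) ^ ℓ * (tK n e)⁻¹) := by
    rw [map_mul, map_pow]
    ring
  rw [e2] at h
  exact isIntegral_of_const_mul (mul_ne_zero hc₀ (pow_ne_zero _ (inv_ne_zero hc₀))) h

/-- (J3) at level `n ℓ`: `(βt)^ℓ · (αt)⁻¹` is integral over `ℚbar[βt]`. -/
theorem isIntegral_bF_pow_div (hb : BaseHyp n e) (hℓ : ℓ.Prime) (hℓn : ¬ ℓ ∣ n) :
    IsIntegral (Algebra.adjoin Kbar {bF ℓ (tMem hb)})
      ((bF ℓ (tMem hb)) ^ ℓ * (aF ℓ (tMem hb))⁻¹) := by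
  apply Fermat.Agent.RED.PUR.PlaceIntegral3.isIntegral_polyRing_of_map (K := Kbar)
    (F' := LaurentSeries Kbar)
  have h := isIntegral_qExpand_pow_div ℓ hb hℓ hℓn
  have h1 : algebraMap (FF (n * ℓ)) (LaurentSeries Kbar) (aF ℓ (tMem hb)) = tK n e :=
    coe_aF ℓ (tMem hb)
  have h2 : algebraMap (FF (n * ℓ)) (LaurentSeries Kbar) (bF ℓ (tMem hb)) =
      qExpand Kbar ℓ (tK n e) := coe_bF ℓ (tMem hb)
  rw [map_mul, map_pow, map_inv₀, h1, h2]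
  exact h

/-- **(J1), series form**: `t^ℓ · t(q^ℓ)⁻¹` is integral over `ℚbar[t]` (apply `W` to (J3)). -/
theorem isIntegral_pow_div_qExpand (hb : BaseHyp n e) (hℓ : ℓ.Prime) (hℓn : ¬ ℓ ∣ n) :
    IsIntegral (Algebra.adjoin Kbar {tK n e})
      ((tK n e) ^ ℓ * (qExpand Kbar ℓ (tK n e))⁻¹) := by
  obtain ⟨W, hWβ, hWα⟩ := exists_W n ℓ hℓ hℓn
  have hWc : ∀ c : Kbar, W (algebraMap Kbar (FF (n * ℓ)) c) =
      algebraMap Kbar (LaurentSeries Kbar) c := by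
    intro c
    have h1 : algebraMap Kbar (FF (n * ℓ)) c =
        heckeAlphaBar Kbar n ℓ (algebraMap Kbar (FF n) c) := (AlgHom.commutes _ c).symm
    rw [h1, hWα]
    show qExpand Kbar ℓ (algebraMap Kbar (LaurentSeries Kbar) c) = _
    rw [algebraMap_laurentSeries_eq_single]
    exact qExpand_C ℓ c
  let Wa : FF (n * ℓ) →ₐ[Kbar] LaurentSeries Kbar := { W with commutes' := hWc }
  have h := isIntegral_adjoin_map Wa (isIntegral_bF_pow_div ℓ hb hℓ hℓn)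
  have h1 : Wa (bF ℓ (tMem hb)) = tK n e := by
    show W (bF ℓ (tMem hb)) = _
    rw [bF, hWβ]; rfl
  have h2 : Wa (aF ℓ (tMem hb)) = qExpand Kbar ℓ (tK n e) := by
    show W (aF ℓ (tMem hb)) = _
    rw [aF, hWα]; rfl
  rw [map_mul, map_pow, map_inv₀, h1, h2] at h
  exact h

end Level

/-! ### Descent to a subfield `K ⊆ ℚbar` -/

section Series

open Fermat.Agent.ES.N34.ModEq23 Fermat.Agent.RED.Interface4

variable (K : IntermediateField ℚ Qbar) {n e : ℕ} (ℓ : ℕ) [NeZero n] [NeZero ℓ]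

/-- **(J1) over `K`, series form.** -/
theorem isIntegral_pow_div_qExpand_tq (hb : BaseHyp n e) (hℓ : ℓ.Prime) (hℓn : ¬ ℓ ∣ n) :
    IsIntegral (Algebra.adjoin K {tq K n e}) ((tq K n e) ^ ℓ * (qExpand K ℓ (tq K n e))⁻¹) := by
  apply descend
  rw [map_mul, map_pow, map_inv₀, ModularCurve.coeffMap_qExpand, coeffMap_tq]
  exact isIntegral_pow_div_qExpand ℓ hb hℓ hℓn

/-- **(J2) over `K`, series form.** -/
theorem isIntegral_qExpand_div_tq (hb : BaseHyp n e) (hℓ : ℓ.Prime) (hℓn : ¬ ℓ ∣ n) :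
    IsIntegral (Algebra.adjoin K {(tq K n e)⁻¹})
      (((tq K n e)⁻¹) ^ ℓ * ((qExpand K ℓ (tq K n e))⁻¹)⁻¹) := by
  apply descend
  rw [map_mul, map_pow, map_inv₀, map_inv₀, map_inv₀, ModularCurve.coeffMap_qExpand, coeffMap_tq,
    inv_inv, mul_comm]
  exact isIntegral_qExpand_div ℓ hb hℓ hℓn

end Series

/-! ### The level-`K` model (`ModelDefs9`) -/

section Model

open Fermat.Agent.ES.N34.ModelDefs9 Fermat.Agent.RED.PUR.ChartGeneric22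
open Fermat.Agent.ES.N34.SatIntegral18 Fermat.Agent.ES.N34.ModEq23 Fermat.Agent.RED.Interface4

variable (A : ValuationSubring Qbar) {K : IntermediateField ℚ Qbar} {M' : ℕ} (q : ℕ)
  [NeZero M'] [NeZero q] {n e : ℕ} [NeZero n]

/-- **(J1) in `F = FK (M' q) K`**: `tN^q / yN` is integral over `K[tN]`. -/
theorem isIntegral_f0 (hb : BaseHyp n e) (hq : q.Prime) (hqn : ¬ q ∣ n)
    (ht : tq (↥K) n e ∈ FK M' K) :
    IsIntegral (Algebra.adjoin K {tN q ht}) (tN q ht ^ q * (yN q ht)⁻¹) := by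
  refine isIntegral_of_coe_eq K _ (coe_tN q ht) ?_ (isIntegral_pow_div_qExpand_tq K q hb hq hqn)
  rw [IntermediateField.coe_mul, IntermediateField.coe_pow, IntermediateField.coe_inv, coe_tN,
    coe_yN]

/-- **(J2) in `F = FK (M' q) K`**: `(tN⁻¹)^q / yN⁻¹` is integral over `K[tN⁻¹]`. -/
theorem isIntegral_f1 (hb : BaseHyp n e) (hq : q.Prime) (hqn : ¬ q ∣ n)
    (ht : tq (↥K) n e ∈ FK M' K) :
    IsIntegral (Algebra.adjoin K {(tN q ht)⁻¹}) (((tN q ht)⁻¹) ^ q * ((yN q ht)⁻¹)⁻¹) := by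
  refine isIntegral_of_coe_eq K _ ?_ ?_ (isIntegral_qExpand_div_tq K q hb hq hqn)
  · rw [IntermediateField.coe_inv, coe_tN]
  · rw [IntermediateField.coe_mul, IntermediateField.coe_pow, IntermediateField.coe_inv,
      IntermediateField.coe_inv, IntermediateField.coe_inv, coe_tN, coe_yN]

set_option maxHeartbeats 4000000 in
/-- **chart `0`**: `tN^q / yN ∈ B0`. -/
theorem f0_mem_B0 (hb : BaseHyp n e) (hq : q.Prime) (hqn : ¬ q ∣ n)
    (ht : tq (↥K) n e ∈ FK M' K) (π : ↥(AK A K))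
    (dvrR : ∀ r : ↥(AK A K), r ≠ 0 → ∃ (k : ℕ) (v : (↥(AK A K))ˣ), r = π ^ k * v)
    (O1 O2 : ValuationSubring ↥(FK (M' * q) K))
    (hπ1 : algebraMap ↥(AK A K) ↥(FK (M' * q) K) π ∈ O1)
    (hπ2 : algebraMap ↥(AK A K) ↥(FK (M' * q) K) π ∈ O2)
    (sat0 : ∀ b ∈ B0 A q ht, ∀ c : ↥(FK (M' * q) K), c ∈ O1 → c ∈ O2 →
      b = algebraMap ↥(AK A K) ↥(FK (M' * q) K) π * c → c ∈ B0 A q ht)
    (ht1 : tN q ht ∈ O1) (ht2 : tN q ht ∈ O2)
    (hy1 : (yN q ht)⁻¹ ∈ O1) (hy2 : (yN q ht)⁻¹ ∈ O2) :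
    tN q ht ^ q * (yN q ht)⁻¹ ∈ B0 A q ht := by
  have hB : ∀ x : ↥(FK (M' * q) K), IsIntegral (Algebra.adjoin ↥(AK A K) {tN q ht}) x →
      x ∈ B0 A q ht := by
    intro x hx
    unfold B0
    exact mem_chart_iff.2 hx
  have hI := isIntegral_f0 q hb hq hqn ht
  exact mem_of_isIntegral_field (R := ↥(AK A K)) (K := ↥K) (F := ↥(FK (M' * q) K)) π dvrR
    (tN q ht) (B0 A q ht) hB O1 O2 hπ1 hπ2 sat0 hI
    (O1.mul_mem _ _ (pow_mem ht1 _) hy1) (O2.mul_mem _ _ (pow_mem ht2 _) hy2)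

set_option maxHeartbeats 4000000 in
/-- **chart `1`**: `(tN⁻¹)^q / yN⁻¹ ∈ B1`. -/
theorem f1_mem_B1 (hb : BaseHyp n e) (hq : q.Prime) (hqn : ¬ q ∣ n)
    (ht : tq (↥K) n e ∈ FK M' K) (π : ↥(AK A K))
    (dvrR : ∀ r : ↥(AK A K), r ≠ 0 → ∃ (k : ℕ) (v : (↥(AK A K))ˣ), r = π ^ k * v)
    (O1 O2 : ValuationSubring ↥(FK (M' * q) K))
    (hπ1 : algebraMap ↥(AK A K) ↥(FK (M' * q) K) π ∈ O1)
    (hπ2 : algebraMap ↥(AK A K) ↥(FK (M' * q) K) π ∈ O2)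
    (sat1 : ∀ b ∈ B1 A q ht, ∀ c : ↥(FK (M' * q) K), c ∈ O1 → c ∈ O2 →
      b = algebraMap ↥(AK A K) ↥(FK (M' * q) K) π * c → c ∈ B1 A q ht)
    (ht1 : (tN q ht)⁻¹ ∈ O1) (ht2 : (tN q ht)⁻¹ ∈ O2)
    (hy1 : yN q ht ∈ O1) (hy2 : yN q ht ∈ O2) :
    ((tN q ht)⁻¹) ^ q * ((yN q ht)⁻¹)⁻¹ ∈ B1 A q ht := by
  have hB : ∀ x : ↥(FK (M' * q) K), IsIntegral (Algebra.adjoin ↥(AK A K) {(tN q ht)⁻¹}) x →
      x ∈ B1 A q ht := by
    intro x hx
    unfold B1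
    exact mem_chart_iff.2 hx
  have hI := isIntegral_f1 q hb hq hqn ht
  refine mem_of_isIntegral_field (R := ↥(AK A K)) (K := ↥K) (F := ↥(FK (M' * q) K)) π dvrR
    (tN q ht)⁻¹ (B1 A q ht) hB O1 O2 hπ1 hπ2 sat1 hI ?_ ?_
  · rw [inv_inv]; exact O1.mul_mem _ _ (pow_mem ht1 _) hy1
  · rw [inv_inv]; exact O2.mul_mem _ _ (pow_mem ht2 _) hy2

end Model

/-! ### The Kronecker congruences of `tN`, `yN` and their inverses -/

section Kron

open Fermat.Agent.ES.N34.ModelDefs9 Fermat.Agent.ES.N34.KronChart15 Fermat.Agent.ES.N34.FrickeFK8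
  Fermat.Agent.ES.N34.FrickeV11 Fermat.Agent.ES.N34.YMem11 Fermat.Agent.ES.N34.NodalCore13
  Fermat.Agent.ES.N34.KronN14
  Fermat.Agent.ES.N34.ModelInput13 Fermat.Agent.ES.N34.ModEq23
  Fermat.Agent.RED.Interface4 Fermat.Agent.RED.PUR.GaussGen8 Fermat.Agent.RED.PUR.ChartGeneric22

variable {A : ValuationSubring Qbar} {K : IntermediateField ℚ Qbar} (M' q : ℕ) [NeZero M'] [NeZero q]
  {n e : ℕ} [NeZero n]

section Congr

variable [hq : Fact q.Prime] [CharP (Res (AK A K)) q]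

/-- `yN ≡ tN^q mod π O1`, `tN ≡ yN^q mod π O2`, and the same for the inverses. -/
theorem kron_tN_yN {π : ↥(AK A K)} (hπ : IsUnif (AK A K) π)
    (hE : FK (M' * q) K ≤ fracField (AK A K)) (ψ : K ≃ₐ[ℚ] K)
    (hψO : ∀ x ∈ AK A K, ((ψ : K ≃ₐ[ℚ] K) : K →+* K) x ∈ AK A K)
    (hψ : ∀ x : ↥(AK A K),
      res0 (AK A K) (restrictO (AK A K) ((ψ : K ≃ₐ[ℚ] K) : K →+* K) hψO x) ^ q = res0 (AK A K) x)
    (ht : tq (↥K) n e ∈ FK M' K)
    (hiso : ∀ x : FK M' K, (x : LaurentSeries K) ∈ gaussRing (AK A K) →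
      ((frickeFK M' K x : FK M' K) : LaurentSeries K) ∈ gaussRing (AK A K)) :
    (∃ o ∈ O1 M' q hπ hE,
      yN q ht - tN q ht ^ q = algebraMap ↥(AK A K) ↥(FK (M' * q) K) π * o) ∧
    (∃ o ∈ O2 M' q hπ hE,
      tN q ht - yN q ht ^ q = algebraMap ↥(AK A K) ↥(FK (M' * q) K) π * o) ∧
    (∃ o ∈ O1 M' q hπ hE,
      (yN q ht)⁻¹ - ((tN q ht)⁻¹) ^ q = algebraMap ↥(AK A K) ↥(FK (M' * q) K) π * o) ∧
    (∃ o ∈ O2 M' q hπ hE,
      (tN q ht)⁻¹ - ((yN q ht)⁻¹) ^ q = algebraMap ↥(AK A K) ↥(FK (M' * q) K) π * o) := by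
  have htg : tq (↥K) n e ∈ gaussRing (AK A K) :=
    Fermat.Agent.RED.BASE.TBridge15.tq_mem_gaussRing (AK A K) n e
  have htig : (((tM ht)⁻¹ : FK M' K) : LaurentSeries K) ∈ gaussRing (AK A K) := by
    have : (((tM ht)⁻¹ : FK M' K) : LaurentSeries K) = ((tM ht : FK M' K) : LaurentSeries K)⁻¹ := rfl
    rw [this, coe_tM]
    exact Fermat.Agent.RED.BASE.TBridge15.tq_inv_mem_gaussRing (AK A K) n e
  refine ⟨kron_one_yN M' q hπ hE ψ hψO hψ ht htg, ?_, ?_, ?_⟩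
  · obtain ⟨o, ho, h⟩ := kron_two M' q hπ hE ψ hψO hψ (wN_alpha K M' q) (wN_beta K M' q) (tM ht)
      (fricke_tM_mem ht hiso)
    rw [gpsi_tM] at h
    exact ⟨o, ho, h⟩
  · obtain ⟨o, ho, h⟩ := kron_one M' q hπ hE ψ hψO hψ (tM ht)⁻¹ htig
    rw [map_inv₀ (arithmeticRingAut (modularFunctionFieldFull M') ψ), gpsi_tM, map_inv₀,
      map_inv₀] at h
    exact ⟨o, ho, h⟩
  · obtain ⟨o, ho, h⟩ := kron_two M' q hπ hE ψ hψO hψ (wN_alpha K M' q) (wN_beta K M' q) (tM ht)⁻¹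
      (hiso _ htig)
    rw [map_inv₀ (arithmeticRingAut (modularFunctionFieldFull M') ψ), gpsi_tM, map_inv₀,
      map_inv₀] at h
    exact ⟨o, ho, h⟩

end Congr

section Final

variable [hq : Fact q.Prime] [CharP (Res (AK A K)) q]

set_option maxHeartbeats 1600000 in
/-- **THE NODE DATA at one number field `K`** (both charts): `t, y, f` in the chart ring with
`f ≡ 1 mod π O1`, `t ≡ y^q mod π O2`, `f ≡ y^(q²-1) mod π O2`; chart `0`: `(tN, yN, tN^q/yN)`,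
chart `1`: `(tN⁻¹, yN⁻¹, yN/tN^q)`. -/
theorem nodeData_at (hb : BaseHyp n e) (hqn : ¬ q ∣ n) {π : ↥(AK A K)} (hπ : IsUnif (AK A K) π)
    (hE : FK (M' * q) K ≤ fracField (AK A K)) (ψ : K ≃ₐ[ℚ] K)
    (hψO : ∀ x ∈ AK A K, ((ψ : K ≃ₐ[ℚ] K) : K →+* K) x ∈ AK A K)
    (hψ : ∀ x : ↥(AK A K),
      res0 (AK A K) (restrictO (AK A K) ((ψ : K ≃ₐ[ℚ] K) : K →+* K) hψO x) ^ q = res0 (AK A K) x)
    (ht : tq (↥K) n e ∈ FK M' K)
    (hiso : ∀ x : FK M' K, (x : LaurentSeries K) ∈ gaussRing (AK A K) →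
      ((frickeFK M' K x : FK M' K) : LaurentSeries K) ∈ gaussRing (AK A K))
    (D : NodalDataAt (AK A K) (FK (M' * q) K) π (tN q ht) (B0 A q ht) (B1 A q ht)
      (O1 M' q hπ hE) (O2 M' q hπ hE)) :
    (∃ y f : ↥(FK (M' * q) K), y ∈ B0 A q ht ∧ f ∈ B0 A q ht ∧
      (∃ c ∈ O1 M' q hπ hE, f - 1 = algebraMap ↥(AK A K) ↥(FK (M' * q) K) π * c) ∧
      (∃ c ∈ O2 M' q hπ hE, tN q ht - y ^ q = algebraMap ↥(AK A K) ↥(FK (M' * q) K) π * c) ∧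
      (∃ c ∈ O2 M' q hπ hE,
        f - y ^ (q * q - 1) = algebraMap ↥(AK A K) ↥(FK (M' * q) K) π * c)) ∧
    (∃ y f : ↥(FK (M' * q) K), y ∈ B1 A q ht ∧ f ∈ B1 A q ht ∧
      (∃ c ∈ O1 M' q hπ hE, f - 1 = algebraMap ↥(AK A K) ↥(FK (M' * q) K) π * c) ∧
      (∃ c ∈ O2 M' q hπ hE,
        (tN q ht)⁻¹ - y ^ q = algebraMap ↥(AK A K) ↥(FK (M' * q) K) π * c) ∧
      (∃ c ∈ O2 M' q hπ hE,
        f - y ^ (q * q - 1) = algebraMap ↥(AK A K) ↥(FK (M' * q) K) π * c)) := by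
  haveI := Fermat.Agent.RED.NumInst4.isScalarTower_OE (AK A K) (FK (M' * q) K)
  have DD := (nodalDataAt_iff (AK A K) (FK (M' * q) K) π (tN q ht) (B0 A q ht) (B1 A q ht)
    (O1 M' q hπ hE) (O2 M' q hπ hE)).mp D
  have M := DD.model
  obtain ⟨k1, k2, k3, k4⟩ := kron_tN_yN M' q hπ hE ψ hψO hψ ht hiso
  have t1 := tN_mem_O1 q ht hπ hE
  have ti1 := tN_inv_mem_O1 q ht hπ hE
  have y1 := yN_mem_O1 q ht hπ hE
  have yi1 := yN_inv_mem_O1 q ht hπ hE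
  have t2 := tN_mem_O2 q ht hπ hE hiso
  have ti2 := tN_inv_mem_O2 q ht hπ hE hiso
  have y2 := yN_mem_O2 q ht hπ hE hiso
  have yi2 := yN_inv_mem_O2 q ht hπ hE hiso
  have hπ1 : algebraMap ↥(AK A K) ↥(FK (M' * q) K) π ∈ O1 M' q hπ hE :=
    M.le_O1_0 _ (Subalgebra.algebraMap_mem _ π)
  have hπ2 : algebraMap ↥(AK A K) ↥(FK (M' * q) K) π ∈ O2 M' q hπ hE :=
    M.le_O2_0 _ (Subalgebra.algebraMap_mem _ π)
  have hy0 : yN q ht ≠ 0 :=
    (map_ne_zero (beta K M' q)).mpr ((map_ne_zero (alpha K M' q)).mp M.t_ne)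
  constructor
  · have hyB := yN_mem_B0 A q hb hq.out hqn ht π DD.dvrR _ _ hπ1 hπ2 M.sat0 y1 y2
    have hfB := f0_mem_B0 A q hb hq.out hqn ht π DD.dvrR _ _ hπ1 hπ2 M.sat0 t1 t2 yi1 yi2
    obtain ⟨c1, c2⟩ := congr_pow_div π (O1 M' q hπ hE) (O2 M' q hπ hE) (tN q ht) (yN q ht) hy0 q
      hq.out.pos k1 yi1 k2 t2 y2 yi2
    exact ⟨yN q ht, _, hyB, hfB, c1, k2, c2⟩
  · have hyB := inv_yN_mem_B1 A q hb hq.out hqn ht π DD.dvrR _ _ hπ1 hπ2 M.sat1 yi1 yi2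
    have hfB := f1_mem_B1 A q hb hq.out hqn ht π DD.dvrR _ _ hπ1 hπ2 M.sat1 ti1 ti2 y1 y2
    obtain ⟨c1, c2⟩ := congr_pow_div π (O1 M' q hπ hE) (O2 M' q hπ hE) (tN q ht)⁻¹ (yN q ht)⁻¹
      (inv_ne_zero hy0) q hq.out.pos k3 (by rw [inv_inv]; exact y1) k4 ti2 yi2
      (by rw [inv_inv]; exact y2)
    exact ⟨(yN q ht)⁻¹, _, hyB, hfB, c1, k4, c2⟩

/-- **NO NODE OVER `t = 0, ∞` at one number field `K`** (ideal level, both charts): a prime of the chart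
through which BOTH components pass contains neither `tN` (chart `0`) nor `tN⁻¹` (chart `1`). -/
theorem no_node_at (hb : BaseHyp n e) (hqn : ¬ q ∣ n) {π : ↥(AK A K)} (hπ : IsUnif (AK A K) π)
    (hE : FK (M' * q) K ≤ fracField (AK A K)) (ψ : K ≃ₐ[ℚ] K)
    (hψO : ∀ x ∈ AK A K, ((ψ : K ≃ₐ[ℚ] K) : K →+* K) x ∈ AK A K)
    (hψ : ∀ x : ↥(AK A K),
      res0 (AK A K) (restrictO (AK A K) ((ψ : K ≃ₐ[ℚ] K) : K →+* K) hψO x) ^ q = res0 (AK A K) x)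
    (ht : tq (↥K) n e ∈ FK M' K)
    (hiso : ∀ x : FK M' K, (x : LaurentSeries K) ∈ gaussRing (AK A K) →
      ((frickeFK M' K x : FK M' K) : LaurentSeries K) ∈ gaussRing (AK A K))
    (D : NodalDataAt (AK A K) (FK (M' * q) K) π (tN q ht) (B0 A q ht) (B1 A q ht)
      (O1 M' q hπ hE) (O2 M' q hπ hE)) :
    (∀ 𝔪 : Ideal ↥(B0 A q ht), 𝔪.IsPrime →
      ¬ OffBranch π (B0 A q ht) (O1 M' q hπ hE) 𝔪 → ¬ OffBranch π (B0 A q ht) (O2 M' q hπ hE) 𝔪 →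
      ∀ x : ↥(B0 A q ht), (x : ↥(FK (M' * q) K)) = tN q ht → x ∉ 𝔪) ∧
    (∀ 𝔪 : Ideal ↥(B1 A q ht), 𝔪.IsPrime →
      ¬ OffBranch π (B1 A q ht) (O1 M' q hπ hE) 𝔪 → ¬ OffBranch π (B1 A q ht) (O2 M' q hπ hE) 𝔪 →
      ∀ x : ↥(B1 A q ht), (x : ↥(FK (M' * q) K)) = (tN q ht)⁻¹ → x ∉ 𝔪) := by
  have hm : q * q - 1 ≠ 0 := by
    have := hq.out.two_le
    have : 4 ≤ q * q := by nlinarith
    omega
  obtain ⟨⟨y, f, hy, hf, c1, c2, c3⟩, ⟨y', f', hy', hf', c1', c2', c3'⟩⟩ :=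
    nodeData_at M' q hb hqn hπ hE ψ hψO hψ ht hiso D
  constructor
  · intro 𝔪 h𝔪 h1 h2 x hx
    exact not_mem_of_not_offBranch π (B0 A q ht) (O1 M' q hπ hE) (O2 M' q hπ hE) 𝔪 h1 h2 x
      ⟨y, hy⟩ ⟨f, hf⟩ q (q * q - 1) hm c1 (by rw [hx]; exact c2) c3
  · intro 𝔪 h𝔪 h1 h2 x hx
    exact not_mem_of_not_offBranch π (B1 A q ht) (O1 M' q hπ hE) (O2 M' q hπ hE) 𝔪 h1 h2 x
      ⟨y', hy'⟩ ⟨f', hf'⟩ q (q * q - 1) hm c1' (by rw [hx]; exact c2') c3'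

end Final

/-- **THE NODE DATA, for all large normal `K`** (`q` odd, `4 ∣ M'`; NO hypotheses left). -/
theorem nodeData_four (A : ValuationSubring Qbar) (hq : q.Prime) (hqM : ¬ q ∣ M') (hq2 : q ≠ 2)
    (hM : 4 ∣ M') (hA : A.LiesOverPrime q) :
    Fermat.Agent.ES.N34.ModelN4.Large (fun K : IntermediateField ℚ Qbar =>
      ∃ (ht : tq (↥K) 4 8 ∈ FK M' K) (hE : FK (M' * q) K ≤ fracField (AK A K)),
        ∀ (π : ↥(AK A K)) (hπ : IsUnif (AK A K) π),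
          (∃ y f : ↥(FK (M' * q) K), y ∈ B0 A q ht ∧ f ∈ B0 A q ht ∧
            (∃ c ∈ O1 M' q hπ hE, f - 1 = algebraMap ↥(AK A K) ↥(FK (M' * q) K) π * c) ∧
            (∃ c ∈ O2 M' q hπ hE,
              tN q ht - y ^ q = algebraMap ↥(AK A K) ↥(FK (M' * q) K) π * c) ∧
            (∃ c ∈ O2 M' q hπ hE,
              f - y ^ (q * q - 1) = algebraMap ↥(AK A K) ↥(FK (M' * q) K) π * c)) ∧
          (∃ y f : ↥(FK (M' * q) K), y ∈ B1 A q ht ∧ f ∈ B1 A q ht ∧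
            (∃ c ∈ O1 M' q hπ hE, f - 1 = algebraMap ↥(AK A K) ↥(FK (M' * q) K) π * c) ∧
            (∃ c ∈ O2 M' q hπ hE,
              (tN q ht)⁻¹ - y ^ q = algebraMap ↥(AK A K) ↥(FK (M' * q) K) π * c) ∧
            (∃ c ∈ O2 M' q hπ hE,
              f - y ^ (q * q - 1) = algebraMap ↥(AK A K) ↥(FK (M' * q) K) π * c))) := by
  obtain ⟨K₁, hK₁, hmodel⟩ := Fermat.Agent.ES.N34.ModelEnd4.modelInput_four q M' A hq hqM hq2 hM hA
  refine ⟨K₁, hK₁, fun K _ hfd hle => ?_⟩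
  obtain ⟨ht, hE, hmod⟩ := hmodel K hfd hle
  refine ⟨ht, hE, fun π hπ => ?_⟩
  haveI := hfd
  have hdvr : IsDiscreteValuationRing ↥(AK A K) :=
    Fermat.Agent.RED.DESC.NumberFieldDVR27.isDiscreteValuationRing_AK A K hq.ne_zero hA
  have hirr : Irreducible π := (IsDiscreteValuationRing.irreducible_iff_uniformizer π).mpr hπ.max_eq
  haveI : Fact q.Prime := ⟨hq⟩
  haveI : CharP (Res (AK A K)) q := charP_res A K q hq hA
  obtain ⟨ψ, hψO, hψ⟩ := exists_frobInv A K q hq hA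
  have hiso : ∀ x : FK M' K, (x : LaurentSeries K) ∈ gaussRing (AK A K) →
      ((frickeFK M' K x : FK M' K) : LaurentSeries K) ∈ gaussRing (AK A K) :=
    fun x hx => (Fermat.Agent.ES.N34.IsoM25.isoM A K M' q hirr hqM x).mp hx
  have hqn : ¬ q ∣ 4 := by
    intro h
    have h2 : q ∣ 2 := hq.dvd_of_dvd_pow (show q ∣ 2 ^ 2 by norm_num; exact h)
    exact hq2 ((Nat.prime_dvd_prime_iff_eq hq Nat.prime_two).mp h2)
  exact nodeData_at M' q baseHyp_four hqn hπ hE ψ hψO hψ ht hiso (hmod π hπ)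

/-- **NO NODE OVER `t = 0, ∞`, for all large normal `K`** (`q` odd, `4 ∣ M'`; NO hypotheses left). -/
theorem no_node_four (A : ValuationSubring Qbar) (hq : q.Prime) (hqM : ¬ q ∣ M') (hq2 : q ≠ 2)
    (hM : 4 ∣ M') (hA : A.LiesOverPrime q) :
    Fermat.Agent.ES.N34.ModelN4.Large (fun K : IntermediateField ℚ Qbar =>
      ∃ (ht : tq (↥K) 4 8 ∈ FK M' K) (hE : FK (M' * q) K ≤ fracField (AK A K)),
        ∀ (π : ↥(AK A K)) (hπ : IsUnif (AK A K) π),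
          (∀ 𝔪 : Ideal ↥(B0 A q ht), 𝔪.IsPrime →
            ¬ OffBranch π (B0 A q ht) (O1 M' q hπ hE) 𝔪 →
            ¬ OffBranch π (B0 A q ht) (O2 M' q hπ hE) 𝔪 →
            ∀ x : ↥(B0 A q ht), (x : ↥(FK (M' * q) K)) = tN q ht → x ∉ 𝔪) ∧
          (∀ 𝔪 : Ideal ↥(B1 A q ht), 𝔪.IsPrime →
            ¬ OffBranch π (B1 A q ht) (O1 M' q hπ hE) 𝔪 →
            ¬ OffBranch π (B1 A q ht) (O2 M' q hπ hE) 𝔪 →
            ∀ x : ↥(B1 A q ht), (x : ↥(FK (M' * q) K)) = (tN q ht)⁻¹ → x ∉ 𝔪)) := by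
  obtain ⟨K₁, hK₁, hmodel⟩ := Fermat.Agent.ES.N34.ModelEnd4.modelInput_four q M' A hq hqM hq2 hM hA
  refine ⟨K₁, hK₁, fun K _ hfd hle => ?_⟩
  obtain ⟨ht, hE, hmod⟩ := hmodel K hfd hle
  refine ⟨ht, hE, fun π hπ => ?_⟩
  haveI := hfd
  have hdvr : IsDiscreteValuationRing ↥(AK A K) :=
    Fermat.Agent.RED.DESC.NumberFieldDVR27.isDiscreteValuationRing_AK A K hq.ne_zero hA
  have hirr : Irreducible π := (IsDiscreteValuationRing.irreducible_iff_uniformizer π).mpr hπ.max_eq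
  haveI : Fact q.Prime := ⟨hq⟩
  haveI : CharP (Res (AK A K)) q := charP_res A K q hq hA
  obtain ⟨ψ, hψO, hψ⟩ := exists_frobInv A K q hq hA
  have hiso : ∀ x : FK M' K, (x : LaurentSeries K) ∈ gaussRing (AK A K) →
      ((frickeFK M' K x : FK M' K) : LaurentSeries K) ∈ gaussRing (AK A K) :=
    fun x hx => (Fermat.Agent.ES.N34.IsoM25.isoM A K M' q hirr hqM x).mp hx
  have hqn : ¬ q ∣ 4 := by
    intro h
    have h2 : q ∣ 2 := hq.dvd_of_dvd_pow (show q ∣ 2 ^ 2 by norm_num; exact h)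
    exact hq2 ((Nat.prime_dvd_prime_iff_eq hq Nat.prime_two).mp h2)
  exact no_node_at M' q baseHyp_four hqn hπ hE ψ hψO hψ ht hiso (hmod π hπ)

end Kron

end Fermat.Agent.ES.W33.PowQuot1
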