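/-
Programme W (S33), chapter (B3′), helper1: **the node data of "no node over `t = 0, ∞`" at the
`ℚ̄`-level**, in the FUNCTION-level vocabulary of `W33/NodalDefs3` only (`tN`, `O1`, `rho1`, `O2`, `rho2`;
no place-level name, no `rN`, no `InW`): robust against the choice of the reduction map.

`p` odd, `p ∤ M'`, `4 ∣ M'`, `A ≤ ℚ̄` over `p`, `t := tN 4 8 M' p hb hnM`:

* `rho1_bc_eq_zero`, `rho2_bc_eq_zero` : the base change of an element of `π O_i` (level `K`,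
  `ModelDefs9`) lies in `O_i` (level `ℚ̄`) and reduces to `0`  (`LevelCompare3.bc_mem_O1/O2`);
* `bc_tN` : `baseChangeHom (ModelDefs9.tN p ht) = NodalDefs3.tN 4 8 M' p hb hnM`;
* **`exists_nodeData`** : there are `y, f ∈ chart ↥A t` with `rho1 (f - 1) = 0`,
  `rho2 (t - y^p) = 0`, `rho2 (f - y^(p²-1)) = 0`, and `y', f' ∈ chart ↥A t⁻¹` with
  `rho1 (f' - 1) = 0`, `rho2 (t⁻¹ - y'^p) = 0`, `rho2 (f' - y'^(p²-1)) = 0`
  (`y = t(q^p)`, `f = t^p/y`; `y' = y⁻¹`, `f' = y/t^p`: from `PowQuot1.nodeData_four` at one large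
  normal number field).
-/
import Mathlib
import Fermat.Agent.ES.W33.PowQuot1
import Fermat.Agent.ES.W33.LevelCompare3
import Fermat.Agent.ES.W33.LevelKExports16
import Fermat.Agent.ES.RED.ChartUnion1

set_option autoImplicit false
set_option synthInstance.maxHeartbeats 400000
set_option linter.unusedSectionVars false
set_option linter.style.haveILetI false

open HahnSeries ModularCurve AlgebraicCurve

noncomputable section

namespace Fermat.Agent.ES.W33.NoNodeQbar1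

open Fermat.Agent.RED.Interface4 Fermat.Agent.RED.DESC Fermat.Agent.RED.DESC.NumberFieldDVR27
  Fermat.Agent.RED.DESC.PlaceExtend27 Fermat.Agent.RED.BASE.Interface12
  Fermat.Agent.RED.BASE.Hauptmodul12 Fermat.Agent.RED.BASE.EtaQuot12
  Fermat.Agent.RED.PUR.GaussGen8 Fermat.Agent.RED.PUR.ChartGeneric22
  Fermat.Agent.ES.RED.Contract8 Fermat.Agent.ES.RED.GaussUnit25
  Fermat.Agent.ES.RED.ModelInst4 Fermat.Agent.ES.N34.FrickeFK8
  Fermat.Agent.ES.V19.GaussFrac15 Fermat.Agent.ES.V19.InstNames3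
  Fermat.Agent.ES.W33.NodalDefs3 Fermat.Agent.ES.W33.NodalGauss3 Fermat.Agent.ES.W33.LevelCompare3

attribute [local instance 5000] HahnSeries.powerSeriesAlgebra SubalgebraClass.toAlgebra

variable (M' : ℕ) [NeZero M'] (p : ℕ) [Fact p.Prime] [NeZero p] (A : ValuationSubring Qbar)
  {K : IntermediateField ℚ Qbar}

/-- the base change of an element of `π O1` reduces to `0` on the first component. -/
theorem rho1_bc_eq_zero (hp2 : p ≠ 2) (hpM : ¬ p ∣ M') (hM : 4 ∣ M') (hA : A.LiesOverPrime p)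
    {π : ↥(AK A K)} (hπ : IsUnif (AK A K) π) (hE : FK (M' * p) K ≤ fracField (AK A K))
    (x : FK (M' * p) K)
    (hx : ∃ c ∈ Fermat.Agent.ES.N34.ModelDefs9.O1 M' p hπ hE,
      x = algebraMap ↥(AK A K) ↥(FK (M' * p) K) π * c) :
    ∃ hX : baseChangeHom (M' * p) K x ∈ O1 M' p A,
      rho1 M' p A ⟨baseChangeHom (M' * p) K x, hX⟩ = 0 := by
  obtain ⟨c, hc, rfl⟩ := hx
  have hcG : (c : LaurentSeries K) ∈ gaussRing (AK A K) :=
    (Fermat.Agent.ES.N34.ModelDefs9.mem_O1_iff M' p hπ hE c).mp hc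
  have hser : ((algebraMap ↥(AK A K) ↥(FK (M' * p) K) π * c : FK (M' * p) K) : LaurentSeries K) =
      piK π * (c : LaurentSeries K) := by
    show ((algebraMap ↥(AK A K) ↥(FK (M' * p) K) π : FK (M' * p) K) : LaurentSeries K) *
      (c : LaurentSeries K) = _
    rw [Fermat.Agent.RED.NumInst4.coe_algebraMap_OE]
  have hpc : piK π * (c : LaurentSeries K) ∈ gaussRing (AK A K) := mul_mem (piK_mem π) hcG
  have hxO : algebraMap ↥(AK A K) ↥(FK (M' * p) K) π * c ∈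
      Fermat.Agent.ES.N34.ModelDefs9.O1 M' p hπ hE := by
    rw [Fermat.Agent.ES.N34.ModelDefs9.mem_O1_iff, hser]
    exact hpc
  obtain ⟨hX, hρ⟩ := bc_mem_O1 M' p A hp2 hpM hM hA hπ hE _ hxO
  refine ⟨hX, ?_⟩
  apply Subtype.ext
  rw [hρ]
  have hsub : (⟨((algebraMap ↥(AK A K) ↥(FK (M' * p) K) π * c : FK (M' * p) K) :
      LaurentSeries K), hxO⟩ : gaussRing (AK A K)) = ⟨piK π * (c : LaurentSeries K), hpc⟩ :=
    Subtype.ext hser
  rw [hsub, Fermat.Agent.ES.W33.LevelKExports16.gaussRed_piK_mul hπ hcG hpc, map_zero]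
  rfl

/-- the base change of an element of `π O2` reduces to `0` on the second component. -/
theorem rho2_bc_eq_zero (hp2 : p ≠ 2) (hpM : ¬ p ∣ M') (hM : 4 ∣ M') (hA : A.LiesOverPrime p)
    {π : ↥(AK A K)} (hπ : IsUnif (AK A K) π) (hE : FK (M' * p) K ≤ fracField (AK A K))
    (x : FK (M' * p) K)
    (hx : ∃ c ∈ Fermat.Agent.ES.N34.ModelDefs9.O2 M' p hπ hE,
      x = algebraMap ↥(AK A K) ↥(FK (M' * p) K) π * c) :
    ∃ hX : baseChangeHom (M' * p) K x ∈ O2 M' p A,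
      rho2 M' p A ⟨baseChangeHom (M' * p) K x, hX⟩ = 0 := by
  obtain ⟨c, hc, rfl⟩ := hx
  have hcG : Fermat.Agent.ES.N34.ModelDefs9.iota2 K M' p c ∈ gaussRing (AK A K) :=
    (Fermat.Agent.ES.N34.ModelDefs9.mem_O2_iff M' p hπ hE c).mp hc
  have hser : Fermat.Agent.ES.N34.ModelDefs9.iota2 K M' p
      (algebraMap ↥(AK A K) ↥(FK (M' * p) K) π * c) =
      piK π * Fermat.Agent.ES.N34.ModelDefs9.iota2 K M' p c := by
    rw [map_mul]
    congr 1
    rw [Fermat.Agent.ES.N34.ModelDefs9.iota2_apply]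
    have h1 : Fermat.Agent.ES.N34.ModelDefs9.wN K M' p
        (algebraMap ↥(AK A K) ↥(FK (M' * p) K) π) = algebraMap ↥(AK A K) ↥(FK (M' * p) K) π :=
      (Fermat.Agent.ES.N34.ModelDefs9.wN K M' p).commutes ((π : ↥(AK A K)) : K)
    rw [h1, Fermat.Agent.RED.NumInst4.coe_algebraMap_OE]
  have hpc : piK π * Fermat.Agent.ES.N34.ModelDefs9.iota2 K M' p c ∈ gaussRing (AK A K) :=
    mul_mem (piK_mem π) hcG
  have hxO : algebraMap ↥(AK A K) ↥(FK (M' * p) K) π * c ∈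
      Fermat.Agent.ES.N34.ModelDefs9.O2 M' p hπ hE := by
    rw [Fermat.Agent.ES.N34.ModelDefs9.mem_O2_iff, hser]
    exact hpc
  obtain ⟨hX, hρ⟩ := bc_mem_O2 M' p A hp2 hpM hM hA hπ hE _ hxO
  refine ⟨hX, ?_⟩
  apply Subtype.ext
  rw [hρ]
  have hsub : (⟨Fermat.Agent.ES.N34.ModelDefs9.iota2 K M' p
      (algebraMap ↥(AK A K) ↥(FK (M' * p) K) π * c), hxO⟩ : gaussRing (AK A K)) =
      ⟨piK π * Fermat.Agent.ES.N34.ModelDefs9.iota2 K M' p c, hpc⟩ :=
    Subtype.ext hser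
  rw [hsub, Fermat.Agent.ES.W33.LevelKExports16.gaussRed_piK_mul hπ hcG hpc, map_zero]
  rfl

/-- the two Hauptmoduln agree under base change. -/
theorem bc_tN (hb : BaseHyp 4 8) (hnM : 4 ∣ M') (ht : tq (↥K) 4 8 ∈ FK M' K) :
    baseChangeHom (M' * p) K (Fermat.Agent.ES.N34.ModelDefs9.tN p ht) = tN 4 8 M' p hb hnM := by
  apply Subtype.ext
  rw [coe_baseChangeHom, Fermat.Agent.ES.N34.ModelDefs9.coe_tN, coeffMap_tq]
  rfl

set_option maxHeartbeats 1600000 in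
/-- **THE NODE DATA over `ℚ̄`**, both charts (see the file header). -/
theorem exists_nodeData (hp2 : p ≠ 2) (hpM : ¬ p ∣ M') (hM : 4 ∣ M') (hA : A.LiesOverPrime p)
    (hb : BaseHyp 4 8) (hnM : 4 ∣ M') :
    (∃ y f : ↥(Fbar (M' * p)), y ∈ chart ↥A (tN 4 8 M' p hb hnM) ∧
      f ∈ chart ↥A (tN 4 8 M' p hb hnM) ∧
      (∃ h : f - 1 ∈ O1 M' p A, rho1 M' p A ⟨f - 1, h⟩ = 0) ∧
      (∃ h : tN 4 8 M' p hb hnM - y ^ p ∈ O2 M' p A,
        rho2 M' p A ⟨tN 4 8 M' p hb hnM - y ^ p, h⟩ = 0) ∧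
      (∃ h : f - y ^ (p * p - 1) ∈ O2 M' p A, rho2 M' p A ⟨f - y ^ (p * p - 1), h⟩ = 0)) ∧
    (∃ y f : ↥(Fbar (M' * p)), y ∈ chart ↥A (tN 4 8 M' p hb hnM)⁻¹ ∧
      f ∈ chart ↥A (tN 4 8 M' p hb hnM)⁻¹ ∧
      (∃ h : f - 1 ∈ O1 M' p A, rho1 M' p A ⟨f - 1, h⟩ = 0) ∧
      (∃ h : (tN 4 8 M' p hb hnM)⁻¹ - y ^ p ∈ O2 M' p A,
        rho2 M' p A ⟨(tN 4 8 M' p hb hnM)⁻¹ - y ^ p, h⟩ = 0) ∧
      (∃ h : f - y ^ (p * p - 1) ∈ O2 M' p A, rho2 M' p A ⟨f - y ^ (p * p - 1), h⟩ = 0)) := by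
  have hp : p.Prime := Fact.out
  obtain ⟨K₀, hK₀, H⟩ := Fermat.Agent.ES.W33.PowQuot1.nodeData_four M' p A hp hpM hp2 hM hA
  haveI := hK₀
  -- a normal number field containing `K₀`
  have hgal : IsGalois ℚ Qbar := Fermat.Agent.Lib.FrobeniusExists.isGalois_Qbar
  haveI hnorQ : Normal ℚ Qbar := hgal.to_normal
  haveI halgQ : Algebra.IsAlgebraic ℚ Qbar := isAlgebraic_Qbar
  let K : IntermediateField ℚ Qbar := IntermediateField.normalClosure ℚ K₀ Qbar
  have hK₀K : K₀ ≤ K := IntermediateField.le_normalClosure K₀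
  haveI hfinK : FiniteDimensional ℚ K := normalClosure.is_finiteDimensional ℚ K₀ Qbar
  obtain ⟨ht, hE, h⟩ := @H K (normalClosure.normal ℚ K₀ Qbar) hfinK hK₀K
  haveI hdvr : IsDiscreteValuationRing ↥(AK A K) := isDiscreteValuationRing_AK A K hp.ne_zero hA
  obtain ⟨ϖ, hϖ⟩ := IsDiscreteValuationRing.exists_irreducible ↥(AK A K)
  have hπ : IsUnif (AK A K) ϖ := isUnif_of_irreducible (AK A K) hϖ
  obtain ⟨⟨y, f, hy, hf, c1, c2, c3⟩, ⟨y', f', hy', hf', c1', c2', c3'⟩⟩ := h ϖ hπ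
  have hbc := bc_tN M' p (K := K) hb hnM ht
  have hbci : baseChangeHom (M' * p) K (Fermat.Agent.ES.N34.ModelDefs9.tN p ht)⁻¹ =
      (tN 4 8 M' p hb hnM)⁻¹ := by rw [map_inv₀, hbc]
  constructor
  · refine ⟨baseChangeHom (M' * p) K y, baseChangeHom (M' * p) K f, ?_, ?_, ?_, ?_, ?_⟩
    · rw [← hbc]
      exact Fermat.Agent.ES.RED.ChartUnion1.baseChangeHom_mem_chart A (M' * p) K _ y hy
    · rw [← hbc]
      exact Fermat.Agent.ES.RED.ChartUnion1.baseChangeHom_mem_chart A (M' * p) K _ f hf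
    · obtain ⟨hX, hρ⟩ := rho1_bc_eq_zero M' p A hp2 hpM hM hA hπ hE (f - 1) c1
      have e : baseChangeHom (M' * p) K (f - 1) = baseChangeHom (M' * p) K f - 1 := by
        rw [map_sub, map_one]
      exact ⟨e ▸ hX, by
        have : (⟨baseChangeHom (M' * p) K f - 1, e ▸ hX⟩ : ↥(O1 M' p A)) =
            ⟨baseChangeHom (M' * p) K (f - 1), hX⟩ := Subtype.ext e.symm
        rw [this]; exact hρ⟩
    · obtain ⟨hX, hρ⟩ := rho2_bc_eq_zero M' p A hp2 hpM hM hA hπ hE _ c2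
      have e : baseChangeHom (M' * p) K (Fermat.Agent.ES.N34.ModelDefs9.tN p ht - y ^ p) =
          tN 4 8 M' p hb hnM - baseChangeHom (M' * p) K y ^ p := by
        rw [map_sub, map_pow, hbc]
      exact ⟨e ▸ hX, by
        have : (⟨tN 4 8 M' p hb hnM - baseChangeHom (M' * p) K y ^ p, e ▸ hX⟩ : ↥(O2 M' p A)) =
            ⟨baseChangeHom (M' * p) K (Fermat.Agent.ES.N34.ModelDefs9.tN p ht - y ^ p), hX⟩ :=
          Subtype.ext e.symm
        rw [this]; exact hρ⟩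
    · obtain ⟨hX, hρ⟩ := rho2_bc_eq_zero M' p A hp2 hpM hM hA hπ hE _ c3
      have e : baseChangeHom (M' * p) K (f - y ^ (p * p - 1)) =
          baseChangeHom (M' * p) K f - baseChangeHom (M' * p) K y ^ (p * p - 1) := by
        rw [map_sub, map_pow]
      exact ⟨e ▸ hX, by
        have : (⟨baseChangeHom (M' * p) K f - baseChangeHom (M' * p) K y ^ (p * p - 1),
            e ▸ hX⟩ : ↥(O2 M' p A)) =
            ⟨baseChangeHom (M' * p) K (f - y ^ (p * p - 1)), hX⟩ := Subtype.ext e.symm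
        rw [this]; exact hρ⟩
  · refine ⟨baseChangeHom (M' * p) K y', baseChangeHom (M' * p) K f', ?_, ?_, ?_, ?_, ?_⟩
    · rw [← hbci]
      exact Fermat.Agent.ES.RED.ChartUnion1.baseChangeHom_mem_chart A (M' * p) K _ y' hy'
    · rw [← hbci]
      exact Fermat.Agent.ES.RED.ChartUnion1.baseChangeHom_mem_chart A (M' * p) K _ f' hf'
    · obtain ⟨hX, hρ⟩ := rho1_bc_eq_zero M' p A hp2 hpM hM hA hπ hE (f' - 1) c1'
      have e : baseChangeHom (M' * p) K (f' - 1) = baseChangeHom (M' * p) K f' - 1 := by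
        rw [map_sub, map_one]
      exact ⟨e ▸ hX, by
        have : (⟨baseChangeHom (M' * p) K f' - 1, e ▸ hX⟩ : ↥(O1 M' p A)) =
            ⟨baseChangeHom (M' * p) K (f' - 1), hX⟩ := Subtype.ext e.symm
        rw [this]; exact hρ⟩
    · obtain ⟨hX, hρ⟩ := rho2_bc_eq_zero M' p A hp2 hpM hM hA hπ hE _ c2'
      have e : baseChangeHom (M' * p) K ((Fermat.Agent.ES.N34.ModelDefs9.tN p ht)⁻¹ - y' ^ p) =
          (tN 4 8 M' p hb hnM)⁻¹ - baseChangeHom (M' * p) K y' ^ p := by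
        rw [map_sub, map_pow, hbci]
      exact ⟨e ▸ hX, by
        have : (⟨(tN 4 8 M' p hb hnM)⁻¹ - baseChangeHom (M' * p) K y' ^ p, e ▸ hX⟩ :
            ↥(O2 M' p A)) =
            ⟨baseChangeHom (M' * p) K ((Fermat.Agent.ES.N34.ModelDefs9.tN p ht)⁻¹ - y' ^ p), hX⟩ :=
          Subtype.ext e.symm
        rw [this]; exact hρ⟩
    · obtain ⟨hX, hρ⟩ := rho2_bc_eq_zero M' p A hp2 hpM hM hA hπ hE _ c3'
      have e : baseChangeHom (M' * p) K (f' - y' ^ (p * p - 1)) =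
          baseChangeHom (M' * p) K f' - baseChangeHom (M' * p) K y' ^ (p * p - 1) := by
        rw [map_sub, map_pow]
      exact ⟨e ▸ hX, by
        have : (⟨baseChangeHom (M' * p) K f' - baseChangeHom (M' * p) K y' ^ (p * p - 1),
            e ▸ hX⟩ : ↥(O2 M' p A)) =
            ⟨baseChangeHom (M' * p) K (f' - y' ^ (p * p - 1)), hX⟩ := Subtype.ext e.symm
        rw [this]; exact hρ⟩

end Fermat.Agent.ES.W33.NoNodeQbar1
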