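/-
Programme W (S33), chapter (B3′), helper1: **NO NODE OVER `t = 0, ∞`** in the vocabulary of helper20's
two-chart contract (`NodalChart20`, `TwoChartsNInst20`): the leaf `no_node1` of
`PlaceLeaves` / `NodalCtxRN20.RNLeaves`, and the stronger statement on both charts.

ABSTRACT (`S : NodalChart A hx Ft₁ Ft₂`, `χ : S.B →+* k` ANY ring homomorphism to a field killing
`ker ρ₁` and `ker ρ₂` — e.g. the centre `S.chi P hP` of a place with `On₁`, `On₂`, or a node centre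
`T.nodeChi j`):
* `apply_ne_zero_of_on` : `t y f ∈ S.B`, `ρ₁ (f - 1) = 0`, `ρ₂ (t - y^q) = 0`, `ρ₂ (f - y^m) = 0`
  (`m ≠ 0`) ⇒ `χ t ≠ 0`.
INSTANCE (`L : ChartLeaves 4 8 M' p hb hnM A`; `p` odd, `p ∤ M'`, `4 ∣ M'`, `A` over `p`), from
`NoNodeQbar1.exists_nodeData`:
* `apply_sB_ne_zero0`, `apply_sB_ne_zero1` : `χ (S0N L).sB ≠ 0`, `χ (S1N L).sB ≠ 0`;
* `chi_sB_ne_zero0`, `chi_sB_ne_zero1` : the same for `χ = chi P hP`, `On₁`, `On₂`;
* **`no_node1`** : the literal field of `PlaceLeaves L` / `RNLeaves`;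
* `nodeChi_sB_ne_zero` : `(TN L').nodeChi j (S0N L).sB ≠ 0` (`hnode0` of `Reg01PropNN13`);
* `ord_tN_eq_zero_of_node` : `(TN L').r P = Sum.inr j → P.ord tN = 0`.
-/
import Mathlib
import Fermat.Agent.ES.W33.NoNodeQbar1
import Fermat.Agent.ES.W33.TwoChartsNInst20

set_option autoImplicit false
set_option synthInstance.maxHeartbeats 400000
set_option linter.unusedSectionVars false

open HahnSeries ModularCurve AlgebraicCurve

noncomputable section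

namespace Fermat.Agent.ES.W33.NoNode1

open Fermat.Agent.RED.Interface4 Fermat.Agent.RED.BASE.Interface12 Fermat.Agent.RED.BASE.Hauptmodul12
  Fermat.Agent.RED.PUR.ChartGeneric22
  Fermat.Agent.ES.RED.Contract8 Fermat.Agent.ES.RED.ModelInst4 Fermat.Agent.ES.RED.PlaceValue13
  Fermat.Agent.X0 Fermat.Agent.X0.FF
  Fermat.Agent.ES.V19.GaussFrac15 Fermat.Agent.ES.V19.InstNames3
  Fermat.Agent.ES.W33.NodalDefs3
open Fermat.Agent.ES.W33.CentreN20 Fermat.Agent.ES.W33.NodalChart20 Fermat.Agent.ES.W33.TwoChartsN20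
  Fermat.Agent.ES.W33.TwoChartsNInst20

attribute [local instance 5000] HahnSeries.powerSeriesAlgebra SubalgebraClass.toAlgebra

/-! ### the abstract argument -/

section Abstract

variable {L : Type*} [Field L] [IsAlgClosed L] {A : ValuationSubring L}
variable {F : Type*} [Field F] [Algebra L F] {x : F} {hx : IsGen L x}
variable {Ft₁ Ft₂ : Type*} [Field Ft₁] [Algebra (kA A) Ft₁] [Field Ft₂] [Algebra (kA A) Ft₂]
variable (S : NodalChart A hx Ft₁ Ft₂)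

/-- **No node on `t = 0`, abstract form**: a ring homomorphism `χ` of the chart ring to a field
which kills `ker ρ₁` and `ker ρ₂` does not kill `t`, if `f ≡ 1` on the first component and
`t ≡ y^q`, `f ≡ y^m` on the second one. -/
theorem apply_ne_zero_of_on {k : Type*} [Field k] (χ : ↥S.B →+* k)
    (h1 : ∀ b : ↥S.B, S.ρ₁ b = 0 → χ b = 0) (h2 : ∀ b : ↥S.B, S.ρ₂ b = 0 → χ b = 0)
    (t y f : ↥S.B) (q m : ℕ) (hm : m ≠ 0) (hf1 : S.ρ₁ (f - 1) = 0)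
    (hty : S.ρ₂ (t - y ^ q) = 0) (hf2 : S.ρ₂ (f - y ^ m) = 0) : χ t ≠ 0 := by
  intro ht
  have e1 := h2 _ hty
  rw [map_sub, ht, zero_sub, neg_eq_zero, map_pow] at e1
  have hy : χ y = 0 := by
    by_contra hne
    exact pow_ne_zero q hne e1
  have e2 := h2 _ hf2
  rw [map_sub, map_pow, hy, zero_pow hm, sub_zero] at e2
  have e3 := h1 _ hf1
  rw [map_sub, map_one, e2, zero_sub, neg_eq_zero] at e3
  exact one_ne_zero e3

end Abstract

/-- `p² - 1 ≠ 0`. -/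
theorem pp_sub_one_ne_zero (p : ℕ) [Fact p.Prime] : p * p - 1 ≠ 0 := by
  have h2 := (Fact.out : p.Prime).two_le
  have h4 : 4 ≤ p * p := by nlinarith
  omega

/-! ### the instance -/

variable {M' : ℕ} [NeZero M'] {p : ℕ} [Fact p.Prime] [NeZero p] {hb : BaseHyp 4 8} {hnM : 4 ∣ M'}
  {A : ValuationSubring Qbar}

section Charts

variable (hp2 : p ≠ 2) (hpM : ¬ p ∣ M') (hA : A.LiesOverPrime p)
  (L : ChartLeaves 4 8 M' p hb hnM A)

include hp2 hpM hA in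
/-- chart `0`: a ring homomorphism killing both `ker ρ_i` does not kill `t`. -/
theorem apply_sB_ne_zero0 {k : Type*} [Field k] (χ : ↥(S0N L).B →+* k)
    (h1 : ∀ b : ↥(S0N L).B, (S0N L).ρ₁ b = 0 → χ b = 0)
    (h2 : ∀ b : ↥(S0N L).B, (S0N L).ρ₂ b = 0 → χ b = 0) : χ (S0N L).sB ≠ 0 := by
  obtain ⟨⟨y, f, hy, hf, ⟨h1', r1⟩, ⟨h2', r2⟩, ⟨h3', r3⟩⟩, -⟩ :=
    Fermat.Agent.ES.W33.NoNodeQbar1.exists_nodeData M' p A hp2 hpM hnM hA hb hnM
  have hm : p * p - 1 ≠ 0 := pp_sub_one_ne_zero p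
  exact apply_ne_zero_of_on (S0N L) χ h1 h2 (S0N L).sB ⟨y, hy⟩ ⟨f, hf⟩ p (p * p - 1) hm r1 r2 r3

include hp2 hpM hA in
/-- chart `1`: a ring homomorphism killing both `ker ρ_i` does not kill `t⁻¹`. -/
theorem apply_sB_ne_zero1 {k : Type*} [Field k] (χ : ↥(S1N L).B →+* k)
    (h1 : ∀ b : ↥(S1N L).B, (S1N L).ρ₁ b = 0 → χ b = 0)
    (h2 : ∀ b : ↥(S1N L).B, (S1N L).ρ₂ b = 0 → χ b = 0) : χ (S1N L).sB ≠ 0 := by
  obtain ⟨-, ⟨y, f, hy, hf, ⟨h1', r1⟩, ⟨h2', r2⟩, ⟨h3', r3⟩⟩⟩ :=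
    Fermat.Agent.ES.W33.NoNodeQbar1.exists_nodeData M' p A hp2 hpM hnM hA hb hnM
  have hm : p * p - 1 ≠ 0 := pp_sub_one_ne_zero p
  exact apply_ne_zero_of_on (S1N L) χ h1 h2 (S1N L).sB ⟨y, hy⟩ ⟨f, hf⟩ p (p * p - 1) hm r1 r2 r3

include hp2 hpM hA in
/-- chart `0`: at a centre on both components `t` is a unit. -/
theorem chi_sB_ne_zero0 (P : Place Qbar ↥(Fbar (M' * p))) (h0 : (S0N L).InChart P)
    (o1 : (S0N L).On₁ P h0) (o2 : (S0N L).On₂ P h0) : (S0N L).chi P h0 (S0N L).sB ≠ 0 :=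
  apply_sB_ne_zero0 hp2 hpM hA L _ o1 o2

include hp2 hpM hA in
/-- chart `1`: at a centre on both components `t⁻¹` is a unit. -/
theorem chi_sB_ne_zero1 (P : Place Qbar ↥(Fbar (M' * p))) (h1 : (S1N L).InChart P)
    (o1 : (S1N L).On₁ P h1) (o2 : (S1N L).On₂ P h1) : (S1N L).chi P h1 (S1N L).sB ≠ 0 :=
  apply_sB_ne_zero1 hp2 hpM hA L _ o1 o2

end Charts

/-! ### the leaf `no_node1` and the node statements -/

section Leaf

variable (hp2 : p ≠ 2) (hpM : ¬ p ∣ M') (hA : A.LiesOverPrime p)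
  (L : ChartLeaves 4 8 M' p hb hnM A)

include hp2 hpM hA in
/-- **THE LEAF `no_node1`** (literal field of `TwoChartsNInst20.PlaceLeaves L` and of
`NodalCtxRN20.RNLeaves`): no centre on both components over `t = ∞`. -/
theorem no_node1 : ∀ (P : Place Qbar ↥(Fbar (M' * p))) (h1 : (S1N L).InChart P),
    ¬ (S0N L).InChart P → ¬ ((S1N L).On₁ P h1 ∧ (S1N L).On₂ P h1) := by
  rintro P h1 hn0 ⟨o1, o2⟩
  have hne := chi_sB_ne_zero1 hp2 hpM hA L P h1 o1 o2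
  apply hn0
  rw [NodalChart.chi_apply] at hne
  have hu : IsUnit ((S1N L).ev P h1 (S1N L).sB) := by
    by_contra hnu
    exact hne ((IsLocalRing.residue_eq_zero_iff _).mpr ((IsLocalRing.mem_maximalIdeal _).mpr hnu))
  obtain ⟨w, hw⟩ := hu.exists_right_inv
  have hs1 : (tN 4 8 M' p hb hnM)⁻¹ ∈ P.toValuationSubring := h1.1
  have hcoe : (((S1N L).ev P h1 (S1N L).sB : ↥A) : Qbar) =
      valueHom (hxN 4 8 M' p hb hnM) P ⟨(tN 4 8 M' p hb hnM)⁻¹, hs1⟩ := NodalChart.coe_ev _ P h1 _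
  have hw' : valueHom (hxN 4 8 M' p hb hnM) P ⟨(tN 4 8 M' p hb hnM)⁻¹, hs1⟩ * (w : Qbar) = 1 := by
    rw [← hcoe]
    exact congrArg (Subtype.val : ↥A → Qbar) hw
  have h0 : valueHom (hxN 4 8 M' p hb hnM) P ⟨(tN 4 8 M' p hb hnM)⁻¹, hs1⟩ ≠ 0 :=
    left_ne_zero_of_mul_eq_one hw'
  obtain ⟨hinv, hval⟩ := Fermat.Agent.ES.RED.TwoCharts8.TwoCharts.inv_mem_and_value
    (hx := hxN 4 8 M' p hb hnM) hs1 h0
  have hmem : tN 4 8 M' p hb hnM ∈ P.toValuationSubring := by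
    have := hinv
    rwa [inv_inv] at this
  refine ⟨hmem, ?_⟩
  have h2 : (⟨tN 4 8 M' p hb hnM, hmem⟩ : ↥P.toValuationSubring) =
      ⟨((tN 4 8 M' p hb hnM)⁻¹)⁻¹, hinv⟩ := Subtype.ext (inv_inv _).symm
  show valueHom (hxN 4 8 M' p hb hnM) P ⟨tN 4 8 M' p hb hnM, hmem⟩ ∈ A
  rw [h2, hval, inv_eq_of_mul_eq_one_right hw']
  exact w.2

include hp2 hpM hA in
/-- the node centres do not kill `t` (`hnode0` of `Reg01PropNN13`). -/
theorem nodeChi_sB_ne_zero (L' : PlaceLeaves L) (j : Fin (sNN L')) :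
    (TN L').nodeChi j (S0N L).sB ≠ 0 :=
  apply_sB_ne_zero0 hp2 hpM hA L ((TN L').nodeChi j) ((TN L').node_on₁ j) ((TN L').node_on₂ j)

include hp2 hpM hA in
/-- **`t` has neither a zero nor a pole at a place reducing to a node** (chart-intrinsic `r`). -/
theorem ord_tN_eq_zero_of_node (L' : PlaceLeaves L) (P : Place Qbar ↥(Fbar (M' * p)))
    (j : Fin (sNN L')) (h : (TN L').r P = Sum.inr j) : P.ord (tN 4 8 M' p hb hnM) = 0 := by
  obtain ⟨h0, hχ⟩ := ((TN L').r_eq_inr_iff P j).mp h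
  have h0' : (S0N L).InChart P := h0
  have hne : (S0N L).chi P h0' (S0N L).sB ≠ 0 := by
    have := nodeChi_sB_ne_zero hp2 hpM hA L L' j
    rwa [← hχ] at this
  have hev : (S0N L).ev P h0' (S0N L).sB ≠ 0 := by
    intro h
    apply hne
    rw [NodalChart.chi_apply, h, map_zero]
  have hnot := mt ((S0N L).ev_eq_zero_iff P h0' (S0N L).sB).mpr hev
  rw [not_or, not_lt] at hnot
  have hge : 0 ≤ P.ord (tN 4 8 M' p hb hnM) := (ffp_mem_iff_ord_nonneg P).mp h0'.1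
  exact le_antisymm hnot.2 hge

end Leaf

end Fermat.Agent.ES.W33.NoNode1
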