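/-
Programme W (S33), chapter (B3′) / (B1′), helper1: **`hnode` AT `NodalDefs3.rN`** — the input of
`Reg01PropN13.reg01PropN` (and of `CechIfaceN24`): a place reducing to a node is neither a zero nor a
pole of `t`.  From `NoNode1.apply_sB_ne_zero0` (no node over `t = 0`) through helper20's
`NodalCtxRN20.RNLeaves.rN_eq_inr_iff` (`rN P = inr j ↔ χ_P = nodeChi j` in chart `0`).

* `nodeChi_sB_ne_zero` : `H.T.nodeChi j (S0N H.L).sB ≠ 0`;
* **`hnode`** : `rN 4 8 M' p hpM hb hnM A hA P = Sum.inr j → P.ord (tN 4 8 M' p hb hnM) = 0`.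
-/
import Mathlib
import Fermat.Agent.ES.W33.NoNode1
import Fermat.Agent.ES.W33.NodalCtxRN20

set_option autoImplicit false
set_option synthInstance.maxHeartbeats 400000
set_option linter.unusedSectionVars false

open HahnSeries ModularCurve AlgebraicCurve

noncomputable section

namespace Fermat.Agent.ES.W33.HnodeRN1

open Fermat.Agent.RED.Interface4 Fermat.Agent.RED.BASE.Interface12 Fermat.Agent.RED.BASE.Hauptmodul12
  Fermat.Agent.RED.PUR.ChartGeneric22
  Fermat.Agent.ES.RED.Contract8 Fermat.Agent.ES.RED.ModelInst4 Fermat.Agent.ES.RED.PlaceValue13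
  Fermat.Agent.X0 Fermat.Agent.X0.FF
  Fermat.Agent.ES.V19.GaussFrac15 Fermat.Agent.ES.V19.InstNames3
  Fermat.Agent.ES.W33.NodalDefs3
open Fermat.Agent.ES.W33.CentreN20 Fermat.Agent.ES.W33.NodalChart20 Fermat.Agent.ES.W33.TwoChartsN20
  Fermat.Agent.ES.W33.TwoChartsNInst20 Fermat.Agent.ES.W33.NodalCtxRN20

attribute [local instance 5000] HahnSeries.powerSeriesAlgebra SubalgebraClass.toAlgebra

variable {M' : ℕ} [NeZero M'] {p : ℕ} [Fact p.Prime] [NeZero p] {hpM : ¬ p ∣ M'}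
  {hb : BaseHyp 4 8} {hnM : 4 ∣ M'} {A : ValuationSubring Qbar} {hA : A.LiesOverPrime p}

/-- the node centres (enumerated by `nodeFin`) do not kill `t`. -/
theorem nodeChi_sB_ne_zero (hp2 : p ≠ 2) (H : RNLeaves 4 8 M' p hpM hb hnM A hA)
    (j : Fin (sN 4 8 M' p hpM hb hnM A hA)) : H.T.nodeChi j (S0N H.L).sB ≠ 0 :=
  Fermat.Agent.ES.W33.NoNode1.apply_sB_ne_zero0 hp2 hpM hA H.L (H.T.nodeChi j)
    (H.T.node_on₁ j) (H.T.node_on₂ j)

/-- **`hnode`**: a place reducing to a node is neither a zero nor a pole of `t`. -/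
theorem hnode (hp2 : p ≠ 2) (H : RNLeaves 4 8 M' p hpM hb hnM A hA)
    (P : Place Qbar ↥(Fbar (M' * p))) (j : Fin (sN 4 8 M' p hpM hb hnM A hA))
    (h : rN 4 8 M' p hpM hb hnM A hA P = Sum.inr j) : P.ord (tN 4 8 M' p hb hnM) = 0 := by
  obtain ⟨h0, hχ⟩ := (H.rN_eq_inr_iff P j).mp h
  have hne : (S0N H.L).chi P h0 (S0N H.L).sB ≠ 0 := by
    have := nodeChi_sB_ne_zero hp2 H j
    rwa [← hχ] at this
  have hev : (S0N H.L).ev P h0 (S0N H.L).sB ≠ 0 := by
    intro h'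
    apply hne
    rw [NodalChart.chi_apply, h', map_zero]
  have hnot := mt ((S0N H.L).ev_eq_zero_iff P h0 (S0N H.L).sB).mpr hev
  rw [not_or, not_lt] at hnot
  have hge : 0 ≤ P.ord (tN 4 8 M' p hb hnM) := (ffp_mem_iff_ord_nonneg P).mp h0.1
  exact le_antisymm hnot.2 hge

end Fermat.Agent.ES.W33.HnodeRN1
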