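/-
Programme W (S33) re-issue (namespace W33) of Programme V (S19), chapter B3 (N5 places), helper13: **restriction of a place of `ℚ̄·F_M / ℚ̄` to a
level `K·F_M / K`** (`K ⊂ ℚ̄` any intermediate field), rationality and `e = 1` at large level.

* `restrict ι hι v hne` (abstract): for a field embedding `ι : FK → FL` over `K → L` and a place `v`
  of `FL / L` whose order is not identically `0` on `FK`, the place `O_v ∩ FK` of `FK / K`
  (principal ideal ring from the `ℤ`-valued order), `mem_restrict_iff`, `exists_ord_restrict`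
  (`ord_v ∘ ι = e · ord_w`, `e ≥ 1`), `valuation_restrict_lt_one_iff`;
* `restrictK M K P` : the place `P|_K` of `K·F_M`, `mem_restrictK_iff`, `eq_restrictK` (uniqueness),
  `exists_eq_restrictK` (every place of `K·F_M` is a restriction), `valuation_lt_one_iff`;
* `exists_level` : for finitely many places `P` there is a number field `K₁` such that for all
  `K ⊇ K₁` the place `P|_K` is rational (also in the literal shape of `SpecChart22.RatOn.rat`) and
  `ord_P ∘ ι = ord_{P|_K}`;
* `valueHom_restrictK` : the value at `P|_K` (rational) is the value at `P`.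
-/
import Mathlib
import Fermat.Agent.ES.N34.GalRational1
import Fermat.Agent.ES.GAL.OpenStab12
import Fermat.Agent.RED.DESC.UnifDescent14
import Fermat.Agent.RED.DESC.HypTransfer12

set_option autoImplicit false
set_option linter.unusedSectionVars false

noncomputable section

namespace Fermat.Agent.ES.W33.PlaceRestrict13

open AlgebraicCurve IsLocalRing ModularCurve HahnSeries
open Fermat.Agent.X0 Fermat.Agent.RED.Interface4 Fermat.Agent.RED.DESC
open Fermat.Agent.ES.N34.GalRational1

/-! ### A valuation subring cut out by a `ℤ`-valued order is a principal ideal ring -/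

section OrdPID

variable {F : Type*} [Field F]

/-- A valuation subring `V` of `F` whose membership is `0 ≤ o f` for a multiplicative
`o : F → ℤ` is a principal ideal ring. -/
theorem isPrincipalIdealRing_of_ord (V : ValuationSubring F) (o : F → ℤ)
    (hmul : ∀ a b : F, a ≠ 0 → b ≠ 0 → o (a * b) = o a + o b)
    (hmem : ∀ a : F, a ≠ 0 → (a ∈ V ↔ 0 ≤ o a)) : IsPrincipalIdealRing V := by
  classical
  have ho1 : o 1 = 0 := by
    have := hmul 1 1 one_ne_zero one_ne_zero
    rw [mul_one] at this
    omega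
  have hoinv : ∀ a : F, a ≠ 0 → o a⁻¹ = -o a := by
    intro a ha
    have := hmul a a⁻¹ ha (inv_ne_zero ha)
    rw [mul_inv_cancel₀ ha, ho1] at this
    omega
  refine ⟨fun I => ?_⟩
  by_cases hI : I = ⊥
  · exact ⟨0, by rw [hI]; simp⟩
  -- an element of minimal order
  have hex : ∃ n : ℕ, ∃ a : V, a ∈ I ∧ a ≠ 0 ∧ o (a : F) = n := by
    obtain ⟨a, haI, ha0⟩ := Submodule.exists_mem_ne_zero_of_ne_bot hI
    have haF : (a : F) ≠ 0 := by simpa [ne_eq, ZeroMemClass.coe_eq_zero] using ha0
    have h0 : 0 ≤ o (a : F) := (hmem _ haF).1 a.2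
    exact ⟨(o (a : F)).toNat, a, haI, ha0, (Int.toNat_of_nonneg h0).symm⟩
  obtain ⟨a, haI, ha0, han⟩ := Nat.find_spec hex
  have hmin : ∀ b : V, b ∈ I → b ≠ 0 → o (a : F) ≤ o (b : F) := by
    intro b hbI hb0
    have hbF : (b : F) ≠ 0 := by simpa [ne_eq, ZeroMemClass.coe_eq_zero] using hb0
    have h0 : 0 ≤ o (b : F) := (hmem _ hbF).1 b.2
    have := Nat.find_min' hex ⟨b, hbI, hb0, (Int.toNat_of_nonneg h0).symm⟩
    rw [han]
    omega
  have haF : (a : F) ≠ 0 := by simpa [ne_eq, ZeroMemClass.coe_eq_zero] using ha0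
  refine ⟨a, le_antisymm ?_ ?_⟩
  · intro b hbI
    rw [Submodule.mem_span_singleton]
    by_cases hb0 : b = 0
    · exact ⟨0, by rw [hb0, zero_smul]⟩
    have hbF : (b : F) ≠ 0 := by simpa [ne_eq, ZeroMemClass.coe_eq_zero] using hb0
    have hq : (b : F) * (a : F)⁻¹ ∈ V := by
      rw [hmem _ (mul_ne_zero hbF (inv_ne_zero haF)), hmul _ _ hbF (inv_ne_zero haF),
        hoinv _ haF]
      have := hmin b hbI hb0
      omega
    refine ⟨⟨_, hq⟩, Subtype.ext ?_⟩
    show (b : F) * (a : F)⁻¹ * (a : F) = b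
    rw [mul_assoc, inv_mul_cancel₀ haF, mul_one]
  · rw [Submodule.span_singleton_le_iff_mem]
    exact haI

/-- `1 ≤ val y ↔ y⁻¹ ∈ O`. -/
theorem one_le_valuation_iff (O : ValuationSubring F) {y : F} (hy : y ≠ 0) :
    1 ≤ O.valuation y ↔ y⁻¹ ∈ O := by
  rw [← O.valuation_le_one_iff, map_inv₀]
  have hv : O.valuation y ≠ 0 := (Valuation.ne_zero_iff _).mpr hy
  rw [inv_le_one₀ (zero_lt_iff.mpr hv)]

end OrdPID

/-! ### Restriction of a place along a field embedding (abstract form) -/

section Abstract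

variable {K L FK FL : Type*} [Field K] [Field L] [Field FK] [Field FL]
  [Algebra K FK] [Algebra L FL] [Algebra K L]
  (ι : FK →+* FL) (hι : ∀ c : K, ι (algebraMap K FK c) = algebraMap L FL (algebraMap K L c))

/-- **the restriction `O_v ∩ FK`** of a place `v` of `FL / L` to `FK / K`, when the order of `v` is
not identically zero on `FK`. -/
def restrict (v : Place L FL) (hne : ∃ z : FK, v.ord (ι z) ≠ 0) : Place K FK where
  toValuationSubring := v.toValuationSubring.comap ι
  algebraMap_mem' a := by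
    rw [ValuationSubring.mem_comap, hι]
    exact v.algebraMap_mem' _
  ne_top' := by
    intro htop
    obtain ⟨z, hz⟩ := hne
    have h1 : z ∈ v.toValuationSubring.comap ι := htop ▸ ValuationSubring.mem_top _
    have h2 : z⁻¹ ∈ v.toValuationSubring.comap ι := htop ▸ ValuationSubring.mem_top _
    rw [ValuationSubring.mem_comap] at h1 h2
    have h3 := FF.ffp_ord_nonneg_of_mem v h1
    have h4 := FF.ffp_ord_nonneg_of_mem v h2
    rw [map_inv₀, v.ord_inv] at h4
    omega
  isPrincipalIdealRing' := by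
    refine isPrincipalIdealRing_of_ord (v.toValuationSubring.comap ι) (fun f => v.ord (ι f)) ?_ ?_
    · intro a b ha hb
      show v.ord (ι (a * b)) = _
      rw [map_mul, v.ord_mul ((map_ne_zero ι).mpr ha) ((map_ne_zero ι).mpr hb)]
    · intro a _
      rw [ValuationSubring.mem_comap]
      exact FF.ffp_mem_iff_ord_nonneg v

variable {ι hι}

@[simp] theorem mem_restrict_iff {v : Place L FL} {hne : ∃ z : FK, v.ord (ι z) ≠ 0} (z : FK) :
    z ∈ (restrict ι hι v hne).toValuationSubring ↔ ι z ∈ v.toValuationSubring :=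
  ValuationSubring.mem_comap

/-- a unit of `O_w` maps to an element of order `0`. -/
theorem ord_map_unit {v : Place L FL} {hne : ∃ z : FK, v.ord (ι z) ≠ 0}
    (u : (restrict ι hι v hne).toValuationSubringˣ) :
    v.ord (ι ((u : (restrict ι hι v hne).toValuationSubring) : FK)) = 0 := by
  have h1 : ((u : (restrict ι hι v hne).toValuationSubring) : FK) *
      (((u⁻¹ : (restrict ι hι v hne).toValuationSubringˣ) :
        (restrict ι hι v hne).toValuationSubring) : FK) = 1 :=
    congrArg Subtype.val u.mul_inv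
  have h2 : (((u⁻¹ : (restrict ι hι v hne).toValuationSubringˣ) :
        (restrict ι hι v hne).toValuationSubring) : FK) =
      ((u : (restrict ι hι v hne).toValuationSubring) : FK)⁻¹ :=
    (inv_eq_of_mul_eq_one_right h1).symm
  have h3 := FF.ffp_ord_nonneg_of_mem v
    ((mem_restrict_iff _).1 (u : (restrict ι hι v hne).toValuationSubring).2)
  have h4 := FF.ffp_ord_nonneg_of_mem v
    ((mem_restrict_iff _).1 ((u⁻¹ : (restrict ι hι v hne).toValuationSubringˣ) :
      (restrict ι hι v hne).toValuationSubring).2)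
  rw [h2, map_inv₀, v.ord_inv] at h4
  omega

/-- **ramification index**: `ord_v ∘ ι = e · ord_w` with `e ≥ 1`. -/
theorem exists_ord_restrict (v : Place L FL) (hne : ∃ z : FK, v.ord (ι z) ≠ 0) :
    ∃ e : ℕ, 0 < e ∧ ∀ f : FK, v.ord (ι f) = (e : ℤ) * (restrict ι hι v hne).ord f := by
  set w := restrict ι hι v hne with hw
  obtain ⟨π, hπ⟩ := FF.ffp_exists_irreducible w
  have hπ0 : (π : FK) ≠ 0 := by
    simpa [ne_eq, ZeroMemClass.coe_eq_zero] using hπ.ne_zero
  have hπinv : (π : FK)⁻¹ ∉ w.toValuationSubring := by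
    intro h
    apply hπ.not_isUnit
    refine isUnit_iff_exists_inv.mpr ⟨⟨_, h⟩, ?_⟩
    apply Subtype.ext
    show (π : FK) * (π : FK)⁻¹ = 1
    exact mul_inv_cancel₀ hπ0
  have hordπ : 0 < v.ord (ι (π : FK)) := by
    have h1 : 0 ≤ v.ord (ι (π : FK)) := FF.ffp_ord_nonneg_of_mem v ((mem_restrict_iff _).1 π.2)
    rcases h1.lt_or_eq with h2 | h2
    · exact h2
    · exfalso
      apply hπinv
      refine (mem_restrict_iff (hne := hne) _).2 ?_
      rw [map_inv₀]
      apply FF.ffp_mem_of_ord_nonneg v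
      rw [v.ord_inv, ← h2]
      simp
  refine ⟨(v.ord (ι (π : FK))).toNat, by omega, fun f => ?_⟩
  rcases eq_or_ne f 0 with rfl | hf
  · simp
  obtain ⟨u, hu⟩ := w.exists_unit_mul_zpow hf hπ
  have hu0 : ((u : w.toValuationSubring) : FK) ≠ 0 := by
    simp [ne_eq, ZeroMemClass.coe_eq_zero]
  have hιf : ι f = ι ((u : w.toValuationSubring) : FK) * (ι (π : FK)) ^ (w.ord f) := by
    conv_lhs => rw [hu]
    rw [map_mul, map_zpow₀]
  rw [hιf, v.ord_mul ((map_ne_zero ι).mpr hu0) (zpow_ne_zero _ ((map_ne_zero ι).mpr hπ0)),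
    ord_map_unit u, zero_add, v.ord_zpow, Int.toNat_of_nonneg hordπ.le]
  ring

/-- `𝔪_w = ι⁻¹ 𝔪_v`, in valuation form. -/
theorem valuation_restrict_lt_one_iff (v : Place L FL) (hne : ∃ z : FK, v.ord (ι z) ≠ 0)
    (z : FK) :
    (restrict ι hι v hne).toValuationSubring.valuation z < 1 ↔
      v.toValuationSubring.valuation (ι z) < 1 := by
  rcases eq_or_ne z 0 with rfl | hz
  · simp
  have hz' : ι z ≠ 0 := (map_ne_zero ι).mpr hz
  rw [← not_le, ← not_le, not_iff_not]
  rw [one_le_valuation_iff _ hz, one_le_valuation_iff _ hz', mem_restrict_iff, map_inv₀]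

end Abstract

/-! ### The concrete case `K·F_M ⊂ ℚ̄·F_M` -/

section Concrete

variable (M : ℕ) [NeZero M] (K : IntermediateField ℚ Qbar)

/-- `j` as an element of `K·F_M`. -/
def jK : FK M K :=
  ⟨coeffEmb K (qExpand ℚ 1 jq), coeffEmb_mem_laurentBaseChange K (jqd_mem_full M (one_dvd M))⟩

theorem baseChangeHom_jK : PlaceExtend27.baseChangeHom M K (jK M K) = jF M :=
  Subtype.ext (CoeffDescent1.coeffMap_coeffEmb_of_algHom _ _)

/-- the base change of a polynomial in `j`. -/
theorem baseChangeHom_aeval_jK (p : Polynomial K) :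
    PlaceExtend27.baseChangeHom M K (Polynomial.aeval (jK M K) p) =
      Polynomial.aeval (jF M) (p.map (algebraMap K Qbar)) := by
  rw [Polynomial.aeval_def, Polynomial.hom_eval₂, Polynomial.aeval_def, Polynomial.eval₂_map,
    baseChangeHom_jK]
  congr 1
  exact RingHom.ext fun c => PlaceExtend27.baseChangeHom_algebraMap M K c

/-- **nontriviality**: the order of a place of `ℚ̄·F_M` is not identically zero on `K·F_M`. -/
theorem exists_ord_ne_zero (P : Place Qbar (Fbar M)) :
    ∃ z : FK M K, P.ord (PlaceExtend27.baseChangeHom M K z) ≠ 0 := by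
  have hx := Fermat.Agent.RED.TOP.FbarFacts20.isGen_j M
  by_cases h0 : P.ord (jF M) = 0
  swap
  · exact ⟨jK M K, by rwa [baseChangeHom_jK]⟩
  have hmem : jF M ∈ P.toValuationSubring := FF.ffp_mem_of_ord_nonneg P h0.ge
  set x₀ : P.toValuationSubring := ⟨jF M, hmem⟩ with hx₀
  set c : Qbar := Fermat.Agent.ES.RED.PlaceValue13.valueHom hx P x₀ with hc
  have halg : Algebra.IsAlgebraic K Qbar := PlaceExtend27.isAlgebraic_Qbar_over K
  have hcint : IsIntegral K c := (Algebra.IsAlgebraic.isAlgebraic c).isIntegral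
  set q : Polynomial Qbar := (minpoly K c).map (algebraMap K Qbar) with hq
  have hq0 : q ≠ 0 := ((minpoly.monic hcint).map _).ne_zero
  have hqc : Polynomial.aeval c q = 0 := by
    rw [hq, Polynomial.aeval_map_algebraMap, minpoly.aeval]
  refine ⟨Polynomial.aeval (jK M K) (minpoly K c), ?_⟩
  rw [baseChangeHom_aeval_jK, ← hq]
  -- the element `q(j)` of `O_P` has value `q(c) = 0`
  have hcoe : ((Polynomial.aeval x₀ q : P.toValuationSubring) : Fbar M) =
      Polynomial.aeval (jF M) q := by
    have := Polynomial.aeval_algHom_apply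
      (IsScalarTower.toAlgHom Qbar P.toValuationSubring (Fbar M)) x₀ q
    exact this.symm
  have hval : Fermat.Agent.ES.RED.PlaceValue13.valueHom hx P (Polynomial.aeval x₀ q) = 0 := by
    rw [← Polynomial.aeval_algHom_apply, ← hc, hqc]
  rw [Fermat.Agent.ES.RED.PlaceValue13.valueHom_eq_zero_iff_ord, hcoe] at hval
  rcases hval with h | h
  · exfalso
    exact hx.transcendental ⟨q, hq0, h⟩
  · exact h.ne'

/-- **the place `P|_K` of `K·F_M / K`** below a place `P` of `ℚ̄·F_M / ℚ̄`. -/
def restrictK (P : Place Qbar (Fbar M)) : Place K (FK M K) :=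
  restrict (PlaceExtend27.baseChangeHom M K) (PlaceExtend27.baseChangeHom_algebraMap M K) P
    (exists_ord_ne_zero M K P)

variable {M K}

/-- `O_{P|_K} = ι⁻¹ O_P` (the literal `hw` of `LevelDict17`). -/
theorem mem_restrictK_iff (P : Place Qbar (Fbar M)) (z : FK M K) :
    z ∈ (restrictK M K P).toValuationSubring ↔
      PlaceExtend27.baseChangeHom M K z ∈ P.toValuationSubring :=
  mem_restrict_iff z

/-- uniqueness of the restriction. -/
theorem eq_restrictK {P : Place Qbar (Fbar M)} {w : Place K (FK M K)}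
    (hw : ∀ z : FK M K, z ∈ w.toValuationSubring ↔
      PlaceExtend27.baseChangeHom M K z ∈ P.toValuationSubring) : w = restrictK M K P := by
  apply Place.ext
  ext z
  rw [hw, mem_restrictK_iff]

/-- every place of `K·F_M` is the restriction of a place of `ℚ̄·F_M`. -/
theorem exists_eq_restrictK (w : Place K (FK M K)) :
    ∃ P : Place Qbar (Fbar M), w = restrictK M K P := by
  obtain ⟨P, e, -, -, hmem⟩ := PlaceExtend27.exists_place_above_mem M K w
  exact ⟨P, eq_restrictK fun z => (hmem z).symm⟩

/-- `ord_P ∘ ι = e · ord_{P|_K}`, `e ≥ 1`. -/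
theorem exists_ord_restrictK (P : Place Qbar (Fbar M)) :
    ∃ e : ℕ, 0 < e ∧ ∀ f : FK M K,
      P.ord (PlaceExtend27.baseChangeHom M K f) = (e : ℤ) * (restrictK M K P).ord f :=
  exists_ord_restrict P (exists_ord_ne_zero M K P)

/-- `𝔪_{P|_K} = ι⁻¹ 𝔪_P`, in valuation form. -/
theorem valuation_lt_one_iff (P : Place Qbar (Fbar M)) (z : FK M K) :
    (restrictK M K P).toValuationSubring.valuation z < 1 ↔
      P.toValuationSubring.valuation (PlaceExtend27.baseChangeHom M K z) < 1 :=
  valuation_restrict_lt_one_iff P (exists_ord_ne_zero M K P) z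

/-- if `K·F_M` contains a uniformiser at `P`, then `ord_P ∘ ι = ord_{P|_K}`. -/
theorem ord_restrictK_of_unif (P : Place Qbar (Fbar M)) (τ : FK M K)
    (hτ : P.ord (PlaceExtend27.baseChangeHom M K τ) = 1) (f : FK M K) :
    P.ord (PlaceExtend27.baseChangeHom M K f) = (restrictK M K P).ord f := by
  obtain ⟨e, -, he⟩ := exists_ord_restrictK (K := K) P
  exact HypTransfer12.ord_eq_of_unif M K he τ hτ f

/-- a rational place in the literal shape of `SpecChart22.RatOn.rat`. -/
theorem rat_of_isRational {F : Type*} [Field F] {k : Type*} [Field k] [Algebra k F]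
    {w : Place k F} (hw : IsRational w) :
    ∀ z ∈ w.toValuationSubring,
      ∃ κ : k, w.toValuationSubring.valuation (z - algebraMap k F κ) < 1 := by
  intro z hz
  refine ⟨hw.valueHom ⟨z, hz⟩, ?_⟩
  have h := hw.sub_valueHom_mem ⟨z, hz⟩
  rw [ValuationSubring.valuation_lt_one_iff] at h
  exact h

/-- the converse: the shape of `SpecChart22.RatOn.rat` gives `IsRational`. -/
theorem isRational_of_rat {F : Type*} [Field F] {k : Type*} [Field k] [Algebra k F]
    {w : Place k F}
    (h : ∀ z ∈ w.toValuationSubring,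
      ∃ κ : k, w.toValuationSubring.valuation (z - algebraMap k F κ) < 1) : IsRational w := by
  intro y
  obtain ⟨g, rfl⟩ := residue_surjective y
  obtain ⟨κ, hκ⟩ := h g g.2
  refine ⟨κ, ?_⟩
  have hres : algebraMap k w.ResidueField κ =
      residue w.toValuationSubring (algebraMap k w.toValuationSubring κ) := rfl
  rw [hres]
  symm
  rw [← sub_eq_zero, ← map_sub, residue_eq_zero_iff, ValuationSubring.valuation_lt_one_iff]
  exact hκ

/-- **the value at `P` of an element of `K·F_M` with a value in `K` at `P|_K`**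
(neutral form: `κ` is any constant with `val_{P|_K}(z - κ) < 1`, e.g. `SpecChart22.ev`). -/
theorem valueHom_eq_of_valuation_lt_one (P : Place Qbar (Fbar M)) (z : FK M K) (κ : K)
    (hz : PlaceExtend27.baseChangeHom M K z ∈ P.toValuationSubring)
    (h : (restrictK M K P).toValuationSubring.valuation (z - algebraMap K (FK M K) κ) < 1) :
    Fermat.Agent.ES.RED.PlaceValue13.valueHom (Fermat.Agent.RED.TOP.FbarFacts20.isGen_j M) P
      ⟨PlaceExtend27.baseChangeHom M K z, hz⟩ = (κ : Qbar) := by
  rw [Fermat.Agent.ES.RED.PlaceValue13.valueHom_eq_iff_sub_mem,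
    ValuationSubring.valuation_lt_one_iff]
  rw [valuation_lt_one_iff, map_sub, PlaceExtend27.baseChangeHom_algebraMap] at h
  exact h

/-- **value compatibility**: at a rational `P|_K`, the value of `z` is the value of `ι z` at
`P`. -/
theorem valueHom_restrictK (P : Place Qbar (Fbar M)) (hw : IsRational (restrictK M K P))
    (z : (restrictK M K P).toValuationSubring) :
    Fermat.Agent.ES.RED.PlaceValue13.valueHom (Fermat.Agent.RED.TOP.FbarFacts20.isGen_j M) P
      ⟨PlaceExtend27.baseChangeHom M K (z : FK M K), (mem_restrictK_iff P _).1 z.2⟩ =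
      ((hw.valueHom z : K) : Qbar) := by
  apply valueHom_eq_of_valuation_lt_one
  have h := hw.sub_valueHom_mem z
  rw [ValuationSubring.valuation_lt_one_iff] at h
  exact h

/-- **rationality and `e = 1` at large level**, for finitely many places at once: there is a
number field `K₁ ⊇ K₀` such that for EVERY intermediate field `K ⊇ K₁` and every `P ∈ S` the place
`P|_K` is rational (also in the literal shape of `SpecChart22.RatOn.rat`), and
`ord_P ∘ ι = ord_{P|_K}`. -/
theorem exists_level (M : ℕ) [NeZero M] (K₀ : IntermediateField ℚ Qbar)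
    [FiniteDimensional ℚ K₀] (S : Finset (Place Qbar (Fbar M))) :
    ∃ K₁ : IntermediateField ℚ Qbar, FiniteDimensional ℚ K₁ ∧ K₀ ≤ K₁ ∧
      ∀ K : IntermediateField ℚ Qbar, K₁ ≤ K → ∀ P ∈ S,
        IsRational (restrictK M K P) ∧
        (∀ z ∈ (restrictK M K P).toValuationSubring, ∃ κ : K,
          (restrictK M K P).toValuationSubring.valuation (z - algebraMap K (FK M K) κ) < 1) ∧
        ∀ f : FK M K,
          P.ord (PlaceExtend27.baseChangeHom M K f) = (restrictK M K P).ord f := by
  classical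
  obtain ⟨L₁, hL₁, hfixS⟩ := Fermat.Agent.ES.GAL.OpenStab12.hasLevel_forall_finset S
    (fun v σ => arithmeticGalois (modularFunctionFieldFull M) σ • v = v)
    (fun v _ => Fermat.Agent.ES.GAL.OpenStab12.hasLevel_place M v)
  have := hL₁
  obtain ⟨K₁, hfin₁, hK₁, H⟩ := UnifDescent14.exists_unif_descent M (K₀ ⊔ L₁) S
  refine ⟨K₁, hfin₁, le_sup_left.trans hK₁, fun K hK P hP => ?_⟩
  have hrat : IsRational (restrictK M K P) :=
    isRational_of_fixed M K (restrictK M K P) P (fun f => (mem_restrictK_iff P f).symm)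
      (fun σ hσ => hfixS σ (fun a ha => hσ a (hK (hK₁ (le_sup_right (a := K₀) ha)))) P hP)
  refine ⟨hrat, rat_of_isRational hrat, ?_⟩
  obtain ⟨τ, hτ⟩ := H K hK P hP
  exact ord_restrictK_of_unif P τ hτ

end Concrete

end Fermat.Agent.ES.W33.PlaceRestrict13
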