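/-
Programme W (S33), chapter (Ga), brick (I-c)/(d4) (helper6): **a RATIONAL place of `FK / K` has exactly ONE
extension to a constant field extension `FL = L·FK`, and this extension is unramified (`e = 1`).**

Setting (abstract, as in `V19/PlaceRestrict13`): fields `K → L`, function fields `FK / K`, `FL / L`, a ring
homomorphism `ι : FK → FL` over `K → L` such that `FL` is generated, as a field, by `L` and `ι FK`.
`Above ι w v` : `O_w = ι⁻¹ O_v` (the literal `hw` of `PlaceRestrict13.eq_restrictK`).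

* `eq_of_above`     : `w` rational, `v v'` above `w`  ⊢  `v = v'`;
* `ord_map_of_above`: `w` rational, `v` above `w`      ⊢  `ord_v (ι f) = ord_w f`;
* concrete (`ι = PlaceExtend27.baseChangeHom M K`, `K ⊂ ℚ̄` any intermediate field): `baseChangeHom_gen`,
  `eq_of_above_baseChange`, `ord_baseChangeHom_of_rational` (hypotheses in the literal shape of
  `PlaceRestrict13.mem_restrictK_iff`).

Proof (no conorm, no degree formula).  `S := L[ι O_w] ⊆ FL`.  `FL = Frac S`.  Rationality gives
`f = f(w) + t g` in `O_w` (`t` a uniformiser), hence `S = L + ι(t) S`, hence for EVERY `v` above `w`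
`𝔪_v ∩ S = ι(t) S`.  Every `s ∈ S∖0` is `ι(t)^n u` with `u ∈ S∖ι(t)S` (induction on `ord_v s`), so the
order at any `v'` above `w` of `z = a / b ∈ FL` is `(n_a - n_b) · ord_{v'} ι(t)`: membership in `O_{v'}` does
not depend on `v'`; and `ord_v ι(t) ∣ 1`.
-/
import Mathlib
import Fermat.Agent.X0.FFPlace
import Fermat.Agent.X0.FFDict
import Fermat.Agent.ES.N34.GalRational1

set_option autoImplicit false
set_option linter.unusedSectionVars false

noncomputable section

namespace Fermat.Agent.ES.W33.PlaceUniq6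

open AlgebraicCurve IsLocalRing
open Fermat.Agent.X0.FF Fermat.Agent.ES.N34.GalRational1

section Abstract

variable {K L FK FL : Type*} [Field K] [Field L] [Field FK] [Field FL]
  [Algebra K FK] [Algebra L FL] [Algebra K L]

/-- `v` lies above `w`: `O_w = ι⁻¹ O_v`. -/
def Above (ι : FK →+* FL) (w : Place K FK) (v : Place L FL) : Prop :=
  ∀ z : FK, z ∈ w.toValuationSubring ↔ ι z ∈ v.toValuationSubring

/-- the `L`-subalgebra `L[ι O_w]` of `FL`. -/
def ringS (ι : FK →+* FL) (w : Place K FK) : Subalgebra L FL :=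
  Algebra.adjoin L (ι '' (w.toValuationSubring : Set FK))

/-- `s ∈ ι(t) S`. -/
def InTS (ι : FK →+* FL) (w : Place K FK) (t : FK) (s : FL) : Prop :=
  ∃ s' ∈ ringS (L := L) ι w, s = ι t * s'

variable (ι : FK →+* FL)
  (hι : ∀ c : K, ι (algebraMap K FK c) = algebraMap L FL (algebraMap K L c))

/-! ### Division by a uniformiser at a rational place -/

/-- at a rational place: `f = f(w) + t g` with `g` regular. -/
theorem exists_eq_add_mul {w : Place K FK} (hw : IsRational w) {t : FK} (ht : w.ord t = 1)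
    {f : FK} (hf : f ∈ w.toValuationSubring) :
    ∃ c : K, ∃ g ∈ w.toValuationSubring, f = algebraMap K FK c + t * g := by
  have ht0 : t ≠ 0 := by
    rintro rfl
    rw [Place.ord_zero] at ht
    exact zero_ne_one ht
  set c : K := hw.valueHom ⟨f, hf⟩ with hc
  have hmem := hw.sub_valueHom_mem ⟨f, hf⟩
  by_cases h0 : (⟨f, hf⟩ : w.toValuationSubring) - algebraMap K w.toValuationSubring c = 0
  · refine ⟨c, 0, zero_mem _, ?_⟩
    have h1 := congrArg Subtype.val h0
    have h2 : f - algebraMap K FK c = 0 := by simpa using h1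
    rw [mul_zero, add_zero]
    exact sub_eq_zero.mp h2
  · have hpos := (ffp_mem_maximalIdeal_iff w _ h0).1 hmem
    have hcoe : ((⟨f, hf⟩ - algebraMap K w.toValuationSubring c : w.toValuationSubring) : FK) =
        f - algebraMap K FK c := by simp
    rw [hcoe] at hpos
    have hne : f - algebraMap K FK c ≠ 0 := by
      intro h
      rw [h, Place.ord_zero] at hpos
      exact lt_irrefl _ hpos
    refine ⟨c, t⁻¹ * (f - algebraMap K FK c), ?_, ?_⟩
    · apply ffp_mem_of_ord_nonneg
      rw [w.ord_mul (inv_ne_zero ht0) hne, Place.ord_inv, ht]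
      omega
    · rw [← mul_assoc, mul_inv_cancel₀ ht0, one_mul]
      ring

/-! ### The ring `S = L[ι O_w]` -/

theorem map_mem_ringS {w : Place K FK} {f : FK} (hf : f ∈ w.toValuationSubring) :
    ι f ∈ ringS (L := L) ι w :=
  Algebra.subset_adjoin ⟨f, hf, rfl⟩

/-- `S ⊆ O_v` for every `v` above `w`. -/
theorem ringS_le {w : Place K FK} {v : Place L FL} (hv : Above ι w v) {s : FL}
    (hs : s ∈ ringS (L := L) ι w) : s ∈ v.toValuationSubring := by
  unfold ringS at hs
  induction hs using Algebra.adjoin_induction with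
  | mem x hx =>
    obtain ⟨f, hf, rfl⟩ := hx
    exact (hv f).1 hf
  | algebraMap r => exact v.algebraMap_mem' r
  | add x y _ _ ihx ihy => exact add_mem ihx ihy
  | mul x y _ _ ihx ihy => exact mul_mem ihx ihy

include hι in
/-- `S = L + ι(t) S`. -/
theorem exists_eq_const_add {w : Place K FK} (hw : IsRational w) {t : FK} (ht : w.ord t = 1)
    {s : FL} (hs : s ∈ ringS (L := L) ι w) :
    ∃ l : L, ∃ s' ∈ ringS (L := L) ι w, s = algebraMap L FL l + ι t * s' := by
  unfold ringS at hs
  induction hs using Algebra.adjoin_induction with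
  | mem x hx =>
    obtain ⟨f, hf, rfl⟩ := hx
    obtain ⟨c, g, hg, e⟩ := exists_eq_add_mul hw ht hf
    refine ⟨algebraMap K L c, ι g, map_mem_ringS ι hg, ?_⟩
    rw [e, map_add, map_mul, hι]
  | algebraMap r => exact ⟨r, 0, zero_mem _, by rw [mul_zero, add_zero]⟩
  | add x y _ _ ihx ihy =>
    obtain ⟨l, a, ha, rfl⟩ := ihx
    obtain ⟨l', b, hb, rfl⟩ := ihy
    exact ⟨l + l', a + b, add_mem ha hb, by rw [map_add]; ring⟩
  | mul x y _ _ ihx ihy =>
    obtain ⟨l, a, ha, rfl⟩ := ihx
    obtain ⟨l', b, hb, rfl⟩ := ihy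
    have hT : ι t ∈ ringS (L := L) ι w :=
      map_mem_ringS ι (ffp_mem_of_ord_nonneg w (by rw [ht]; exact zero_le_one))
    refine ⟨l * l', algebraMap L FL l * b + algebraMap L FL l' * a + ι t * (a * b), ?_, ?_⟩
    · exact add_mem (add_mem (mul_mem (Subalgebra.algebraMap_mem _ l) hb)
        (mul_mem (Subalgebra.algebraMap_mem _ l') ha)) (mul_mem hT (mul_mem ha hb))
    · rw [map_mul]; ring

/-- `ord_v ι(t) > 0` for `v` above `w`. -/
theorem ord_map_unif_pos {w : Place K FK} {v : Place L FL} (hv : Above ι w v) {t : FK}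
    (ht : w.ord t = 1) : 0 < v.ord (ι t) := by
  have h1 : t ∈ w.toValuationSubring := ffp_mem_of_ord_nonneg w (by rw [ht]; exact zero_le_one)
  have h2 : t⁻¹ ∉ w.toValuationSubring := by
    intro h
    have := ffp_ord_nonneg_of_mem w h
    rw [Place.ord_inv, ht] at this
    omega
  have h3 := ffp_ord_nonneg_of_mem v ((hv t).1 h1)
  have h4 : ¬ 0 ≤ v.ord (ι t⁻¹) := fun h => h2 ((hv _).2 (ffp_mem_of_ord_nonneg v h))
  rw [map_inv₀, Place.ord_inv] at h4
  omega

include hι in
/-- **`𝔪_v ∩ S = ι(t) S`** for every `v` above the rational place `w`. -/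
theorem ord_pos_iff_inTS {w : Place K FK} (hw : IsRational w) {t : FK} (ht : w.ord t = 1)
    {v : Place L FL} (hv : Above ι w v) {s : FL} (hs : s ∈ ringS (L := L) ι w) (hs0 : s ≠ 0) :
    0 < v.ord s ↔ InTS (L := L) ι w t s := by
  have hT := ord_map_unif_pos ι hv ht
  constructor
  · intro hpos
    obtain ⟨l, s', hs', e⟩ := exists_eq_const_add ι hι hw ht hs
    by_cases hl : l = 0
    · exact ⟨s', hs', by rw [e, hl, map_zero, zero_add]⟩
    · exfalso
      have hlF : algebraMap L FL l ≠ 0 := (map_ne_zero _).mpr hl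
      by_cases h0 : ι t * s' = 0
      · rw [e, h0, add_zero, ffp_ord_algebraMap] at hpos
        exact lt_irrefl _ hpos
      · have hT0 : ι t ≠ 0 := left_ne_zero_of_mul h0
        have hs'0 : s' ≠ 0 := right_ne_zero_of_mul h0
        have h1 : 0 < v.ord (ι t * s') := by
          rw [v.ord_mul hT0 hs'0]
          have := ffp_ord_nonneg_of_mem v (ringS_le ι hv hs')
          omega
        have h2 : v.ord (algebraMap L FL l) < v.ord (ι t * s') := by
          rw [ffp_ord_algebraMap]; exact h1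
        have h3 := ffp_ord_add_eq_of_lt v hlF h2
        rw [← e, ffp_ord_algebraMap] at h3
        omega
  · rintro ⟨s', hs', e⟩
    have hs'0 : s' ≠ 0 := by
      rintro rfl
      exact hs0 (by rw [e, mul_zero])
    have hT0 : ι t ≠ 0 := by
      intro h
      exact hs0 (by rw [e, h, zero_mul])
    rw [e, v.ord_mul hT0 hs'0]
    have := ffp_ord_nonneg_of_mem v (ringS_le ι hv hs')
    omega

include hι in
/-- every nonzero element of `S` is `ι(t)^n u` with `u ∈ S ∖ ι(t) S`. -/
theorem exists_pow_mul {w : Place K FK} (hw : IsRational w) {t : FK} (ht : w.ord t = 1)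
    {v : Place L FL} (hv : Above ι w v) :
    ∀ (N : ℕ) {s : FL}, s ∈ ringS (L := L) ι w → s ≠ 0 → v.ord s ≤ N →
      ∃ (n : ℕ) (u : FL), u ∈ ringS (L := L) ι w ∧ u ≠ 0 ∧ ¬ InTS (L := L) ι w t u ∧
        s = ι t ^ n * u := by
  have hT := ord_map_unif_pos ι hv ht
  intro N
  induction N with
  | zero =>
    intro s hs hs0 hN
    refine ⟨0, s, hs, hs0, ?_, by rw [pow_zero, one_mul]⟩
    intro h
    have := (ord_pos_iff_inTS ι hι hw ht hv hs hs0).2 h
    omega
  | succ N ih =>
    intro s hs hs0 hN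
    by_cases h : InTS (L := L) ι w t s
    · obtain ⟨s', hs', e⟩ := h
      have hs'0 : s' ≠ 0 := by
        rintro rfl
        exact hs0 (by rw [e, mul_zero])
      have hT0 : ι t ≠ 0 := by
        intro h
        exact hs0 (by rw [e, h, zero_mul])
      have hord : v.ord s' ≤ N := by
        have := v.ord_mul hT0 hs'0
        rw [← e] at this
        push_cast at hN
        omega
      obtain ⟨n, u, hu, hu0, hnu, e'⟩ := ih hs' hs'0 hord
      exact ⟨n + 1, u, hu, hu0, hnu, by rw [e, e', pow_succ]; ring⟩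
    · exact ⟨0, s, hs, hs0, h, by rw [pow_zero, one_mul]⟩

/-! ### `FL = Frac S` -/

/-- every element of `FL` is a quotient of elements of `S`. -/
theorem exists_frac (w : Place K FK)
    (hgen : ∀ z : FL, z ∈ Subfield.closure (Set.range (algebraMap L FL) ∪ Set.range ι)) (z : FL) :
    ∃ a ∈ ringS (L := L) ι w, ∃ b ∈ ringS (L := L) ι w, b ≠ 0 ∧ z * b = a := by
  have h1 : (1 : FL) ∈ ringS (L := L) ι w := one_mem _
  have hz := hgen z
  induction hz using Subfield.closure_induction with
  | mem x hx =>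
    rcases hx with ⟨l, rfl⟩ | ⟨f, rfl⟩
    · exact ⟨_, Subalgebra.algebraMap_mem _ l, 1, h1, one_ne_zero, mul_one _⟩
    · by_cases hf : f ∈ w.toValuationSubring
      · exact ⟨_, map_mem_ringS ι hf, 1, h1, one_ne_zero, mul_one _⟩
      · have hf' : f⁻¹ ∈ w.toValuationSubring :=
          (w.toValuationSubring.mem_or_inv_mem f).resolve_left hf
        have hf0 : f ≠ 0 := by
          rintro rfl
          exact hf (zero_mem _)
        refine ⟨1, h1, ι f⁻¹, map_mem_ringS ι hf', ?_, ?_⟩
        · exact (map_ne_zero ι).mpr (inv_ne_zero hf0)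
        · rw [← map_mul, mul_inv_cancel₀ hf0, map_one]
  | one => exact ⟨1, h1, 1, h1, one_ne_zero, mul_one _⟩
  | add x y _ _ ihx ihy =>
    obtain ⟨a, ha, b, hb, hb0, e⟩ := ihx
    obtain ⟨a', ha', b', hb', hb'0, e'⟩ := ihy
    refine ⟨a * b' + a' * b, add_mem (mul_mem ha hb') (mul_mem ha' hb), b * b', mul_mem hb hb',
      mul_ne_zero hb0 hb'0, ?_⟩
    rw [← e, ← e']; ring
  | neg x _ ihx =>
    obtain ⟨a, ha, b, hb, hb0, e⟩ := ihx
    exact ⟨-a, neg_mem ha, b, hb, hb0, by rw [← e]; ring⟩
  | inv x _ ihx =>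
    obtain ⟨a, ha, b, hb, hb0, e⟩ := ihx
    by_cases hx0 : x = 0
    · exact ⟨0, zero_mem _, 1, h1, one_ne_zero, by rw [hx0, inv_zero, zero_mul]⟩
    · have ha0 : a ≠ 0 := by
        rw [← e]
        exact mul_ne_zero hx0 hb0
      refine ⟨b, hb, a, ha, ha0, ?_⟩
      rw [← e]
      field_simp
  | mul x y _ _ ihx ihy =>
    obtain ⟨a, ha, b, hb, hb0, e⟩ := ihx
    obtain ⟨a', ha', b', hb', hb'0, e'⟩ := ihy
    refine ⟨a * a', mul_mem ha ha', b * b', mul_mem hb hb', mul_ne_zero hb0 hb'0, ?_⟩
    rw [← e, ← e']; ring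

/-! ### The order at any place above `w` -/

include hι in
/-- for `v` above the rational place `w`, every `z ≠ 0` of `FL` has an integer `n`, NOT depending on
the place, with `ord_{v'} z = n · ord_{v'} ι(t)` at EVERY place `v'` above `w`. -/
theorem exists_ord_eq {w : Place K FK} (hw : IsRational w) {t : FK} (ht : w.ord t = 1)
    (hgen : ∀ z : FL, z ∈ Subfield.closure (Set.range (algebraMap L FL) ∪ Set.range ι))
    {v : Place L FL} (hv : Above ι w v) {z : FL} (hz : z ≠ 0) :
    ∃ n : ℤ, ∀ v' : Place L FL, Above ι w v' → v'.ord z = n * v'.ord (ι t) := by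
  obtain ⟨a, ha, b, hb, hb0, e⟩ := exists_frac (L := L) ι w hgen z
  have ha0 : a ≠ 0 := by
    rw [← e]
    exact mul_ne_zero hz hb0
  obtain ⟨n, u, hu, hu0, hnu, ea⟩ := exists_pow_mul ι hι hw ht hv (v.ord a).toNat ha ha0
    (Int.self_le_toNat _)
  obtain ⟨m, u', hu', hu'0, hnu', eb⟩ := exists_pow_mul ι hι hw ht hv (v.ord b).toNat hb hb0
    (Int.self_le_toNat _)
  refine ⟨(n : ℤ) - m, fun v' hv' => ?_⟩
  have hT' := ord_map_unif_pos ι hv' ht
  have hT0 : ι t ≠ 0 := by
    intro h
    rw [h, Place.ord_zero] at hT'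
    exact lt_irrefl _ hT'
  -- units of `S` have order `0` at `v'`
  have hunit : ∀ {x : FL}, x ∈ ringS (L := L) ι w → x ≠ 0 → ¬ InTS (L := L) ι w t x →
      v'.ord x = 0 := by
    intro x hx hx0 hnx
    have h1 := ffp_ord_nonneg_of_mem v' (ringS_le ι hv' hx)
    have h2 : ¬ 0 < v'.ord x := fun h => hnx ((ord_pos_iff_inTS ι hι hw ht hv' hx hx0).1 h)
    omega
  have hoa : v'.ord a = n * v'.ord (ι t) := by
    rw [ea, v'.ord_mul (pow_ne_zero n hT0) hu0, hunit hu hu0 hnu, add_zero, ← zpow_natCast,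
      Place.ord_zpow]
  have hob : v'.ord b = m * v'.ord (ι t) := by
    rw [eb, v'.ord_mul (pow_ne_zero m hT0) hu'0, hunit hu' hu'0 hnu', add_zero, ← zpow_natCast,
      Place.ord_zpow]
  have := v'.ord_mul hz hb0
  rw [e, hoa, hob] at this
  rw [sub_mul]
  omega

include hι in
/-- **`e = 1`**: `ord_v ι(t) = 1` for `v` above the rational place `w`. -/
theorem ord_map_unif {w : Place K FK} (hw : IsRational w) {t : FK} (ht : w.ord t = 1)
    (hgen : ∀ z : FL, z ∈ Subfield.closure (Set.range (algebraMap L FL) ∪ Set.range ι))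
    {v : Place L FL} (hv : Above ι w v) : v.ord (ι t) = 1 := by
  have hT := ord_map_unif_pos ι hv ht
  obtain ⟨ϖ, hϖ⟩ := ffp_exists_irreducible v
  have h1 := v.ord_coe_irreducible hϖ
  have hϖ0 : (ϖ : FL) ≠ 0 := by
    intro h
    rw [h, Place.ord_zero] at h1
    exact zero_ne_one h1
  obtain ⟨n, hn⟩ := exists_ord_eq ι hι hw ht hgen hv hϖ0
  have h2 := hn v hv
  rw [h1] at h2
  -- `1 = n * e`, `e > 0`
  have hdvd : v.ord (ι t) ∣ 1 := ⟨n, by rw [h2]; ring⟩
  exact Int.eq_one_of_dvd_one hT.le hdvd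

include hι in
/-- **Uniqueness of the extension of a rational place.** -/
theorem eq_of_above {w : Place K FK} (hw : IsRational w)
    (hgen : ∀ z : FL, z ∈ Subfield.closure (Set.range (algebraMap L FL) ∪ Set.range ι))
    {v v' : Place L FL} (hv : Above ι w v) (hv' : Above ι w v') : v = v' := by
  obtain ⟨π, hπ⟩ := ffp_exists_irreducible w
  have ht := w.ord_coe_irreducible hπ
  have key : ∀ {v₁ v₂ : Place L FL}, Above ι w v₁ → Above ι w v₂ →
      ∀ z : FL, z ∈ v₁.toValuationSubring → z ∈ v₂.toValuationSubring := by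
    intro v₁ v₂ h₁ h₂ z hz
    by_cases hz0 : z = 0
    · rw [hz0]; exact zero_mem _
    obtain ⟨n, hn⟩ := exists_ord_eq ι hι hw ht hgen h₁ hz0
    have e₁ := ord_map_unif ι hι hw ht hgen h₁
    have e₂ := ord_map_unif ι hι hw ht hgen h₂
    have o₁ := hn v₁ h₁
    have o₂ := hn v₂ h₂
    rw [e₁, mul_one] at o₁
    rw [e₂, mul_one] at o₂
    apply ffp_mem_of_ord_nonneg
    have := ffp_ord_nonneg_of_mem v₁ hz
    omega
  apply Place.ext
  ext z
  exact ⟨key hv hv' z, key hv' hv z⟩

include hι in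
/-- **No ramification above a rational place**: `ord_v ∘ ι = ord_w`. -/
theorem ord_map_of_above {w : Place K FK} (hw : IsRational w)
    (hgen : ∀ z : FL, z ∈ Subfield.closure (Set.range (algebraMap L FL) ∪ Set.range ι))
    {v : Place L FL} (hv : Above ι w v) (f : FK) : v.ord (ι f) = w.ord f := by
  by_cases hf : f = 0
  · rw [hf, map_zero, Place.ord_zero, Place.ord_zero]
  obtain ⟨π, hπ⟩ := ffp_exists_irreducible w
  have ht := w.ord_coe_irreducible hπ
  have e₁ := ord_map_unif ι hι hw ht hgen hv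
  obtain ⟨u, hu⟩ := w.exists_unit_mul_zpow hf hπ
  have hπ0 : ((π : w.toValuationSubring) : FK) ≠ 0 := by
    intro h
    rw [h, Place.ord_zero] at ht
    exact zero_ne_one ht
  have hu0 : (((u : w.toValuationSubring)) : FK) ≠ 0 := by
    intro h
    apply hf
    rw [hu, h, zero_mul]
  -- `ι u` is a unit at `v`
  have hunit : v.ord (ι ((u : w.toValuationSubring) : FK)) = 0 := by
    have h1 := ffp_ord_nonneg_of_mem v ((hv _).1 (u : w.toValuationSubring).2)
    have h2 := ffp_ord_nonneg_of_mem v ((hv _).1 ((u⁻¹ : w.toValuationSubringˣ) :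
      w.toValuationSubring).2)
    have h3 : ι (((u⁻¹ : w.toValuationSubringˣ) : w.toValuationSubring) : FK) =
        (ι ((u : w.toValuationSubring) : FK))⁻¹ := by
      rw [← map_inv₀]
      congr 1
      have : (((u⁻¹ : w.toValuationSubringˣ) : w.toValuationSubring) : FK) *
          ((u : w.toValuationSubring) : FK) = 1 := by
        have h := congrArg Subtype.val (Units.inv_mul u)
        exact h
      exact eq_inv_of_mul_eq_one_left this
    rw [h3, Place.ord_inv] at h2
    omega
  conv_lhs => rw [hu]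
  rw [map_mul, map_zpow₀, v.ord_mul ((map_ne_zero ι).mpr hu0)
    (zpow_ne_zero _ ((map_ne_zero ι).mpr hπ0)), hunit, zero_add, Place.ord_zpow, e₁, mul_one]

end Abstract

/-! ### The concrete case `K·F_M ⊂ ℚ̄·F_M` -/

section Concrete

set_option synthInstance.maxHeartbeats 400000

open ModularCurve HahnSeries
open Fermat.Agent.RED.Interface4 Fermat.Agent.RED.DESC

variable (M : ℕ) (K : IntermediateField ℚ Qbar)

/-- `ℚ̄·F_M` is generated, as a field, by `ℚ̄` and the image of `K·F_M`. -/
theorem baseChangeHom_gen (z : Fbar M) :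
    z ∈ Subfield.closure (Set.range (algebraMap Qbar (Fbar M)) ∪
      Set.range (PlaceExtend27.baseChangeHom M K)) := by
  set S' : Subfield (Fbar M) := Subfield.closure (Set.range (algebraMap Qbar (Fbar M)) ∪
      Set.range (PlaceExtend27.baseChangeHom M K)) with hS'
  have hle : Subfield.closure (Set.range (algebraMap Qbar (LaurentSeries Qbar)) ∪
        (⇑(coeffEmb Qbar) '' ((modularFunctionFieldFull M : IntermediateField ℚ (LaurentSeries ℚ)) :
          Set (LaurentSeries ℚ)))) ≤ S'.map (IntermediateField.val (Fbar M)).toRingHom := by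
    rw [Subfield.closure_le]
    rintro x (⟨l, rfl⟩ | ⟨y, hy, rfl⟩)
    · exact ⟨algebraMap Qbar (Fbar M) l, Subfield.subset_closure (Or.inl ⟨l, rfl⟩), rfl⟩
    · refine ⟨PlaceExtend27.baseChangeHom M K ⟨coeffEmb K y, coeffEmb_mem_laurentBaseChange K hy⟩,
        Subfield.subset_closure (Or.inr ⟨_, rfl⟩), ?_⟩
      show ((PlaceExtend27.baseChangeHom M K ⟨coeffEmb K y, _⟩ : Fbar M) : LaurentSeries Qbar) = _
      rw [PlaceExtend27.coe_baseChangeHom]
      exact CoeffDescent1.coeffMap_coeffEmb_of_algHom _ _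
  obtain ⟨z', hz', e⟩ := hle (mem_laurentBaseChange_iff.mp z.2)
  have : z' = z := Subtype.ext e
  rw [← this]
  exact hz'

variable {M K}

/-- **A rational place of `K·F_M` has exactly one extension to `ℚ̄·F_M`.** -/
theorem eq_of_above_baseChange {w : Place K (FK M K)} (hw : IsRational w)
    {P P' : Place Qbar (Fbar M)}
    (hP : ∀ z : FK M K, z ∈ w.toValuationSubring ↔
      PlaceExtend27.baseChangeHom M K z ∈ P.toValuationSubring)
    (hP' : ∀ z : FK M K, z ∈ w.toValuationSubring ↔
      PlaceExtend27.baseChangeHom M K z ∈ P'.toValuationSubring) : P = P' :=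
  eq_of_above (PlaceExtend27.baseChangeHom M K) (PlaceExtend27.baseChangeHom_algebraMap M K) hw
    (baseChangeHom_gen M K) hP hP'

/-- **… and it is unramified**: `ord_P ∘ ι = ord_w`. -/
theorem ord_baseChangeHom_of_rational {w : Place K (FK M K)} (hw : IsRational w)
    {P : Place Qbar (Fbar M)}
    (hP : ∀ z : FK M K, z ∈ w.toValuationSubring ↔
      PlaceExtend27.baseChangeHom M K z ∈ P.toValuationSubring) (f : FK M K) :
    P.ord (PlaceExtend27.baseChangeHom M K f) = w.ord f :=
  ord_map_of_above (PlaceExtend27.baseChangeHom M K) (PlaceExtend27.baseChangeHom_algebraMap M K) hw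
    (baseChangeHom_gen M K) hP f

end Concrete

end Fermat.Agent.ES.W33.PlaceUniq6
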