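/-
Programme W (S33), chapter (Ga), instance literal (I-c), helper10: **the passage from the finite
levels `K·F_M` to `ℚ̄·F_M`**, in the vocabulary of `W33/PlaceRestrict13` (`restrictK M K P`, the
place `P ∩ K·F_M`) and `W33/PlaceUniq6` (a rational place has ONE place above it).

* `bc_inv_smul`, `restrictK_smul` : `restrictK K (galBar τ • P) = gal K (τ|K) • restrictK K P`
  (`K` normal) — the dictionary item (d3);
* `eq_of_restrictK_eq` : a place of `ℚ̄·F_M` is determined by its restrictions to the finite normal
  levels above a given number field;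
* **`ic_of_levels`** : the instance literal (I-c) (`GaExit13.Ic`) at one node from its level forms:
  for a family of predicates `ThrK K` ("passes through the node at level `K`") and a set `I` of
  Galois elements,
    (THR)   the restrictions of a place in the node disc pass through the node at every level,
    (LEVEL) Lemma A / Lemma B at every level, for RATIONAL places through the node
            (= `NodeHypK11.nodeHyp_of_rational`: `HasXi ∨ ∀ σ ∈ Σ, σ • v = v`).
  The element `ξ` is taken at ONE level where `P ∩ K·F_M` is rational and good; the other places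
  through the node restrict to OTHER places of that level (`PlaceUniq6`), where `ξ` is a unit. If no
  level is good, `P ∩ K·F_M` is fixed at all large levels, hence `P` is fixed.
-/
import Mathlib
import Fermat.Agent.ES.W33.PlaceRestrict13
import Fermat.Agent.ES.W33.PlaceUniq6
import Fermat.Agent.ES.N34.GalDescent1
import Fermat.Agent.ES.N34.PlaceSec10
import Fermat.Agent.ES.P36.DescInert1

set_option autoImplicit false
set_option linter.unusedSectionVars false
set_option synthInstance.maxHeartbeats 400000

noncomputable section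

namespace Fermat.Agent.ES.W33.IcPass10

open AlgebraicCurve ModularCurve HahnSeries IntermediateField
open Fermat.Agent.X0 Fermat.Agent.RED.Interface4 Fermat.Agent.RED.DESC
open Fermat.Agent.ES.N34.GalRational1 Fermat.Agent.ES.N34.GalDescent1
open Fermat.Agent.ES.W33.PlaceRestrict13

attribute [local instance 5000] HahnSeries.powerSeriesAlgebra SubalgebraClass.toAlgebra
attribute [local instance 6000] DivisionRing.toRatAlgebra

/-! ### Galois equivariance of the restriction, determination by the levels -/

section Gal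

variable (M : ℕ) [NeZero M] (K : IntermediateField ℚ Qbar)

theorem bc_inv_smul [Normal ℚ K] (τ : Qbar ≃ₐ[ℚ] Qbar) (x : FK M K) :
    (galBar M τ)⁻¹ • PlaceExtend27.baseChangeHom M K x =
      PlaceExtend27.baseChangeHom M K ((gal M K (τ.restrictNormal K))⁻¹ • x) := by
  have hx : gal M K (τ.restrictNormal K) • ((gal M K (τ.restrictNormal K))⁻¹ • x) = x :=
    smul_inv_smul _ _
  have h1 := baseChangeHom_smul M K τ ((gal M K (τ.restrictNormal K))⁻¹ • x)
  rw [hx] at h1
  rw [h1]
  exact inv_smul_smul _ _

/-- **(d3)** restriction is Galois equivariant (`K` normal). -/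
theorem restrictK_smul [Normal ℚ K] (τ : Qbar ≃ₐ[ℚ] Qbar) (P : Place Qbar (Fbar M)) :
    restrictK M K (galBar M τ • P) = gal M K (τ.restrictNormal K) • restrictK M K P := by
  apply Place.ext
  ext x
  rw [mem_restrictK_iff, Fermat.Agent.ES.N34.PlaceSec10.mem_smul_place_iff,
    Fermat.Agent.ES.N34.PlaceSec10.mem_smul_place_iff, mem_restrictK_iff, bc_inv_smul]

/-- **a place of `ℚ̄·F_M` is determined by its restrictions to the finite normal levels above a
given number field.** -/
theorem eq_of_restrictK_eq (K₀ : IntermediateField ℚ Qbar) [FiniteDimensional ℚ K₀]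
    (P P' : Place Qbar (Fbar M))
    (h : ∀ (K : IntermediateField ℚ Qbar) [FiniteDimensional ℚ K] [Normal ℚ K], K₀ ≤ K →
      restrictK M K P = restrictK M K P') : P = P' := by
  classical
  apply Place.ext
  ext z
  obtain ⟨K, hK₀K, hfin, hnor, hdesc⟩ := Fermat.Agent.ES.P36.DescInert1.exists_normal_descent M K₀
    ({((z : Fbar M) : LaurentSeries Qbar)} : Finset (LaurentSeries Qbar))
    (by intro x hx; rw [Finset.mem_singleton] at hx; rw [hx]; exact (z : Fbar M).2)
  obtain ⟨x, hx⟩ := hdesc _ (Finset.mem_singleton_self _)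
  have hbx : PlaceExtend27.baseChangeHom M K x = z := Subtype.ext hx
  have h1 := h K hK₀K
  rw [← hbx, ← mem_restrictK_iff, ← mem_restrictK_iff, h1]

end Gal

/-! ### The exit: (I-c) at one node from its level forms -/

section Exit

variable (M : ℕ) [NeZero M]

/-- **(I-c) from the levels.**  `Node P` stands for `rN P = Sum.inr j`, `ThrK K w` for "the place `w`
of `K·F_M` passes through the node `j` of the level-`K` model", `I` for the inertia group. -/
theorem ic_of_levels (K₀ : IntermediateField ℚ Qbar) [FiniteDimensional ℚ K₀]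
    (I : Set (Qbar ≃ₐ[ℚ] Qbar))
    (ThrK : ∀ K : IntermediateField ℚ Qbar, Place K (FK M K) → Prop)
    (Node : Place Qbar (Fbar M) → Prop)
    (hthr : ∀ P : Place Qbar (Fbar M), Node P →
      ∀ (K : IntermediateField ℚ Qbar) [FiniteDimensional ℚ K] [Normal ℚ K], K₀ ≤ K →
        ThrK K (restrictK M K P))
    (hlevel : ∀ (K : IntermediateField ℚ Qbar) [FiniteDimensional ℚ K] [Normal ℚ K], K₀ ≤ K →
      ∀ v : Place K (FK M K), IsRational v → ThrK K v →
        (∃ ξ : FK M K, ξ ≠ 0 ∧ v.ord ξ = 1 ∧
          ∀ w : Place K (FK M K), ThrK K w → w ≠ v → w.ord ξ = 0) ∨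
        ∀ τ ∈ I, gal M K (τ.restrictNormal K) • v = v)
    (P : Place Qbar (Fbar M)) (hP : Node P) :
    (∀ τ ∈ I, galBar M τ • P = P) ∨
      ∃ ξ : Fbar M, P.ord ξ = 1 ∧
        ∀ P' : Place Qbar (Fbar M), P' ≠ P → Node P' → P'.ord ξ = 0 := by
  classical
  obtain ⟨K₁, hfin₁, hK₀K₁, hlev⟩ := exists_level M K₀ ({P} : Finset (Place Qbar (Fbar M)))
  have := hfin₁
  have hrat : ∀ K : IntermediateField ℚ Qbar, K₁ ≤ K → IsRational (restrictK M K P) :=
    fun K hK => (hlev K hK P (Finset.mem_singleton_self P)).1
  have hord : ∀ K : IntermediateField ℚ Qbar, K₁ ≤ K → ∀ f : FK M K,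
      P.ord (PlaceExtend27.baseChangeHom M K f) = (restrictK M K P).ord f :=
    fun K hK => (hlev K hK P (Finset.mem_singleton_self P)).2.2
  by_cases hgood : ∃ (K : IntermediateField ℚ Qbar) (_ : FiniteDimensional ℚ K) (_ : Normal ℚ K),
      K₁ ≤ K ∧ ∃ ξ : FK M K, ξ ≠ 0 ∧ (restrictK M K P).ord ξ = 1 ∧
        ∀ w : Place K (FK M K), ThrK K w → w ≠ restrictK M K P → w.ord ξ = 0
  · right
    obtain ⟨K, hfin, hnor, hK₁K, ξ, -, hξ1, hξ0⟩ := hgood
    have hK₀K : K₀ ≤ K := hK₀K₁.trans hK₁K
    refine ⟨PlaceExtend27.baseChangeHom M K ξ, ?_, fun P' hne hP' => ?_⟩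
    · rw [hord K hK₁K, hξ1]
    · obtain ⟨e, -, he⟩ := exists_ord_restrictK (K := K) P'
      have hw : (restrictK M K P').ord ξ = 0 := by
        refine hξ0 _ (hthr P' hP' K hK₀K) fun heq => hne ?_
        refine Fermat.Agent.ES.W33.PlaceUniq6.eq_of_above_baseChange (hrat K hK₁K)
          (fun z => ?_) (fun z => mem_restrictK_iff P z)
        rw [← heq]
        exact mem_restrictK_iff P' z
      rw [he, hw, mul_zero]
  · left
    intro τ hτ
    refine eq_of_restrictK_eq M K₁ _ _ fun K _ _ hK => ?_
    have hK₀K : K₀ ≤ K := hK₀K₁.trans hK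
    rw [restrictK_smul]
    rcases hlevel K hK₀K (restrictK M K P) (hrat K hK) (hthr P hP K hK₀K) with h | h
    · exact absurd ⟨K, inferInstance, inferInstance, hK, h⟩ hgood
    · exact h τ hτ

end Exit

end Fermat.Agent.ES.W33.IcPass10
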