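/-
Programme W (S33, route `S33_ROUTE8.md`), chapter (Ga), leaf (I-c) AT LEVEL `K'` (helper11).

The node lemmas A/B of Programme N in the form consumed by helper13's `GaAbs13`, for the abstract
nodal two-chart model (`NumData13.NodalNumData`, the deliverable of MODEL) over a DVR `R` with
uniformiser `π` (the ramified base `A ∩ K'`), and a SET `Σ` of `K`-semilinear automorphisms of `F`
each of which carries `GalChart21.SigmaData` (the deliverable of GAL: inertial for `O1`, `O2`,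
semilinear over `R`, fixing `t`).  Nothing here depends on a torsion exponent `m`, on a function `f`,
or on the residue characteristic: it is `NodeGlue6.node_hyp_of_sections` +
`PlaceSec10.exists_section_of_rational` with the case split moved OUTSIDE the automorphism.

* `HasXi B 𝔪 v` : a Lemma-A element at the place `v` through the closed point `𝔪` of the chart `B`:
  `ξ ≠ 0`, `ord_v ξ = 1`, and `ord_w ξ = 0` at EVERY other place `w` through `𝔪` (rational or not).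
* `nodeHyp_of_rational` (one chart `B`, generic): a RATIONAL place `v` through a node `𝔪` either
  carries a Lemma-A element or is fixed by EVERY `σ ∈ Σ` (Lemma B: a non-good point is fixed by
  inertia).
* `nodeHyp_B0`, `nodeHyp_B1` : the same for the two charts of a `NodalNumData`.
* `thr_inv_smul_B0`, `thr_inv_smul_B1`, `thr_smul_B0`, `thr_smul_B1` : (I-a) at the nodes, level
  `K'`: the places through `𝔪` are permuted by `σ⁻¹` and by `σ`.
-/
import Mathlib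
import Fermat.Agent.ES.N34.NumGlue13

set_option autoImplicit false
set_option linter.unusedSectionVars false

namespace Fermat.Agent.ES.W33.NodeHypK11

open AlgebraicCurve
open Fermat.Agent.ES.N34.NodalCore13 Fermat.Agent.ES.N34.NodalCL13 Fermat.Agent.ES.N34.NumData13
  Fermat.Agent.ES.N34.GalGauss21 Fermat.Agent.ES.N34.GalChart21 Fermat.Agent.ES.N34.NodeAsm6
  Fermat.Agent.ES.N34.SigmaRes15 Fermat.Agent.ES.N34.PlaceSec10

variable {R K F : Type*} [CommRing R] [IsDomain R] [IsDiscreteValuationRing R] [Field K] [Field F]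
  [Algebra R K] [Algebra K F] [Algebra R F] [IsScalarTower R K F]

/-- a Lemma-A element at the place `v` through the closed point `𝔪` of the chart `B`. -/
def HasXi (B : Subalgebra R F) (𝔪 : Ideal B) (v : Place K F) : Prop :=
  ∃ ξ : F, ξ ≠ 0 ∧ v.ord ξ = 1 ∧ ∀ w : Place K F, Thr B 𝔪 w → w ≠ v → w.ord ξ = 0

/-- **(I-c) at level `K'`, one chart, one automorphism at a time** (the wiring of
`NodeSec10.nodeDatum_of_rational`, without `f` and `m`). -/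
theorem nodeHyp_of_rational_one (π : R) (hπ : Irreducible π) (t : F) (B : Subalgebra R F)
    (O1 O2 : ValuationSubring F)
    (ht : t ∈ B) (noethB : IsNoetherianRing B) (fracR : IsFractionRing R K)
    (dvrR : ∀ r : R, r ≠ 0 → ∃ (k : ℕ) (v : Rˣ), r = π ^ k * v)
    (pi_ne : algebraMap R F π ≠ 0)
    (pi_nonunit1 : (algebraMap R F π)⁻¹ ∉ O1)
    (intcl : ∀ x : F, IsIntegral B x → x ∈ B)
    (int0 : ∀ x ∈ B, IsIntegral (Algebra.adjoin R {t}) x)
    (frac : ∀ x : F, ∃ a ∈ B, ∃ b ∈ B, b ≠ 0 ∧ x * b = a)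
    (leO1 : ∀ x ∈ B, x ∈ O1) (leO2 : ∀ x ∈ B, x ∈ O2)
    (sat : ∀ b ∈ B, ∀ c : F, c ∈ O1 → c ∈ O2 → b = algebraMap R F π * c → c ∈ B)
    (𝔪 : Ideal B) [h𝔪p : 𝔪.IsPrime] (hπ𝔪 : algebraMap R B π ∈ 𝔪)
    -- level-0 node coordinates (`NodeCoords π B 𝔪`)
    (x₀ y₀ w₀ d₀ : B) (hx₀ : x₀ ∈ 𝔪) (hy₀ : y₀ ∈ 𝔪)
    (hgen₀ : ∀ b ∈ 𝔪, ∃ d, d ∉ 𝔪 ∧ d * b ∈ Ideal.span {algebraMap R B π, x₀, y₀})
    (hd₀ : d₀ ∉ 𝔪) (hmul₀ : d₀ * (x₀ * y₀) = algebraMap R B π * w₀)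
    -- the inertial automorphism
    (σ : SemilinearAut K F)
    (hσ1 : IsInertial O1 (algebraMap R F π) (SemilinearAut.toRingAut σ))
    (hσ2 : IsInertial O2 (algebraMap R F π) (SemilinearAut.toRingAut σ))
    (hB : ∀ x : F, x ∈ B ↔ SemilinearAut.toRingAut σ x ∈ B)
    (hsemi : ∀ r : R, ∃ r' : R,
      SemilinearAut.toRingAut σ (algebraMap R F r) = algebraMap R F r')
    (hsemi' : ∀ r : R, ∃ r' : R,
      (SemilinearAut.toRingAut σ).symm (algebraMap R F r) = algebraMap R F r')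
    -- the place
    (v : Place K F) (hv : Thr B 𝔪 v)
    (hrat : Function.Surjective (algebraMap K v.ResidueField)) :
    HasXi B 𝔪 v ∨ σ • v = v := by
  have hinjRF : Function.Injective (algebraMap R F) := by
    rw [IsScalarTower.algebraMap_eq R K F]
    exact (algebraMap K F).injective.comp (IsFractionRing.injective R K)
  have hπK : algebraMap R K π ≠ 0 := by
    intro h
    apply pi_ne
    rw [IsScalarTower.algebraMap_apply R K F, h, map_zero]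
  have frac' : ∀ z : F, ∃ a b : B, b ≠ 0 ∧ z * (b : F) = (a : F) := by
    intro z
    obtain ⟨a, ha, b, hb, hb0, hab⟩ := frac z
    exact ⟨⟨a, ha⟩, ⟨b, hb⟩, fun h => hb0 (congrArg Subtype.val h), hab⟩
  set s : F ≃+* F := SemilinearAut.toRingAut σ with hs
  set σB : B ≃+* B := sigmaB B s hB with hσB
  set σR : R ≃+* R := sigmaR s hinjRF hsemi hsemi' with hσR
  have hσ : ∀ r : R, σB (algebraMap R B r) = algebraMap R B (σR r) :=
    sigmaB_algebraMap B s hB hinjRF hsemi hsemi'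
  obtain ⟨ε, hε⟩ := sigmaR_pi' π O1 (fun r => leO1 _ (B.algebraMap_mem r)) pi_nonunit1 dvrR s
    hinjRF hsemi hsemi' hσ1.map_p
  have hcongr : ∀ x : F, x ∈ O1 → x ∈ O2 → PiO π O1 O2 (s x - x) :=
    piO_of_sub_mem π O1 O2 pi_ne s hσ1.sub_mem hσ2.sub_mem
  have hσ𝔪 : ∀ b, σB b ∈ 𝔪 ↔ b ∈ 𝔪 :=
    sigmaB_mem_iff π B O1 O2 leO1 leO2 sat s hB hcongr 𝔪 hπ𝔪
  have hcoe : ∀ b : B, ((σB b : B) : F) = σ • (b : F) := fun _ => rfl
  obtain ⟨ev, hev, h𝔪⟩ := exists_section_of_rational π hπ t B ht fracR int0 𝔪 h𝔪p.ne_top hπ𝔪 v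
    hrat hv
  have := noethB
  exact Fermat.Agent.ES.N34.NodeGlue6.node_hyp_of_sections π hπ hπK B frac' 𝔪 x₀ y₀ w₀ d₀ hx₀ hy₀
    hgen₀ hd₀ hmul₀ σ σR σB hσ ε hε hσ𝔪
    (fun v ev hev => isPointOf_conj B σ σR σB hσ hcoe v ev hev)
    (fun v w ev hv hw => place_eq_of_isPointOf π t B ht noethB fracR dvrR pi_ne intcl int0 frac
      v w ev hv hw)
    v ev hev h𝔪

/-- **(I-c) at level `K'`, one chart**: a rational place through a node either carries a Lemma-A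
element or is fixed by EVERY automorphism of the set `Σ` (each inertial for `O1`, `O2`, preserving
`B` and semilinear over `R`). -/
theorem nodeHyp_of_rational (π : R) (hπ : Irreducible π) (t : F) (B : Subalgebra R F)
    (O1 O2 : ValuationSubring F)
    (ht : t ∈ B) (noethB : IsNoetherianRing B) (fracR : IsFractionRing R K)
    (dvrR : ∀ r : R, r ≠ 0 → ∃ (k : ℕ) (v : Rˣ), r = π ^ k * v)
    (pi_ne : algebraMap R F π ≠ 0)
    (pi_nonunit1 : (algebraMap R F π)⁻¹ ∉ O1)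
    (intcl : ∀ x : F, IsIntegral B x → x ∈ B)
    (int0 : ∀ x ∈ B, IsIntegral (Algebra.adjoin R {t}) x)
    (frac : ∀ x : F, ∃ a ∈ B, ∃ b ∈ B, b ≠ 0 ∧ x * b = a)
    (leO1 : ∀ x ∈ B, x ∈ O1) (leO2 : ∀ x ∈ B, x ∈ O2)
    (sat : ∀ b ∈ B, ∀ c : F, c ∈ O1 → c ∈ O2 → b = algebraMap R F π * c → c ∈ B)
    (𝔪 : Ideal B) [h𝔪p : 𝔪.IsPrime] (hπ𝔪 : algebraMap R B π ∈ 𝔪)
    (hnc : NodeCoords π B 𝔪)
    (Sg : Set (SemilinearAut K F))
    (hSg : ∀ σ ∈ Sg, IsInertial O1 (algebraMap R F π) (SemilinearAut.toRingAut σ) ∧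
      IsInertial O2 (algebraMap R F π) (SemilinearAut.toRingAut σ) ∧
      (∀ x : F, x ∈ B ↔ SemilinearAut.toRingAut σ x ∈ B) ∧
      (∀ r : R, ∃ r' : R, SemilinearAut.toRingAut σ (algebraMap R F r) = algebraMap R F r') ∧
      ∀ r : R, ∃ r' : R,
        (SemilinearAut.toRingAut σ).symm (algebraMap R F r) = algebraMap R F r')
    (v : Place K F) (hv : Thr B 𝔪 v)
    (hrat : Function.Surjective (algebraMap K v.ResidueField)) :
    HasXi B 𝔪 v ∨ ∀ σ ∈ Sg, σ • v = v := by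
  classical
  by_cases hxi : HasXi B 𝔪 v
  · exact Or.inl hxi
  · right
    intro σ hσ
    obtain ⟨h1, h2, hB, hs, hs'⟩ := hSg σ hσ
    obtain ⟨x₀, y₀, hx₀, hy₀, ⟨d₀, hd₀, w₀, hmul₀⟩, hgen₀⟩ := hnc
    rcases nodeHyp_of_rational_one π hπ t B O1 O2 ht noethB fracR dvrR pi_ne pi_nonunit1 intcl
      int0 frac leO1 leO2 sat 𝔪 hπ𝔪 x₀ y₀ w₀ d₀ hx₀ hy₀ hgen₀ hd₀ hmul₀ σ h1 h2 hB hs hs' v hv
      hrat with h | h
    · exact absurd h hxi
    · exact h

variable {π : R} {t : F} {B0 B1 : Subalgebra R F} {O1 O2 : ValuationSubring F}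

/-- **(I-c) at level `K'` on the chart `B0`** of a nodal two-chart model. -/
theorem nodeHyp_B0 (D : NodalNumData R K F π t B0 B1 O1 O2) (hπ : Irreducible π)
    (Sg : Set (SemilinearAut K F))
    (hSg : ∀ g ∈ Sg, SigmaData π t O1 O2 (SemilinearAut.toRingAut g))
    (𝔪 : Ideal B0) (h𝔪 : 𝔪.IsMaximal) (hπ𝔪 : algebraMap R B0 π ∈ 𝔪)
    (hnc : NodeCoords π B0 𝔪)
    (v : Place K F) (hv : Thr B0 𝔪 v)
    (hrat : Function.Surjective (algebraMap K v.ResidueField)) :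
    HasXi B0 𝔪 v ∨ ∀ g ∈ Sg, g • v = v := by
  have M := D.model
  have := h𝔪.isPrime
  exact nodeHyp_of_rational (K := K) π hπ t B0 O1 O2 M.t_mem D.noeth0 D.fracR D.dvrR M.pi_ne
    M.pi_nonunit1 M.intcl0 M.int0 D.frac0 M.le_O1_0 M.le_O2_0 M.sat0 𝔪 hπ𝔪 hnc Sg
    (fun g hg => ⟨(hSg g hg).inert1, (hSg g hg).inert2,
      fun x => ((hSg g hg).mem_B0_iff M x).symm, (hSg g hg).semilin, (hSg g hg).semilin_symm⟩)
    v hv hrat

/-- **(I-c) at level `K'` on the chart `B1`** of a nodal two-chart model. -/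
theorem nodeHyp_B1 (D : NodalNumData R K F π t B0 B1 O1 O2) (hπ : Irreducible π)
    (Sg : Set (SemilinearAut K F))
    (hSg : ∀ g ∈ Sg, SigmaData π t O1 O2 (SemilinearAut.toRingAut g))
    (𝔪 : Ideal B1) (h𝔪 : 𝔪.IsMaximal) (hπ𝔪 : algebraMap R B1 π ∈ 𝔪)
    (hnc : NodeCoords π B1 𝔪)
    (v : Place K F) (hv : Thr B1 𝔪 v)
    (hrat : Function.Surjective (algebraMap K v.ResidueField)) :
    HasXi B1 𝔪 v ∨ ∀ g ∈ Sg, g • v = v := by
  have M := D.model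
  have := h𝔪.isPrime
  exact nodeHyp_of_rational (K := K) π hπ t⁻¹ B1 O1 O2 M.tinv_mem D.noeth1 D.fracR D.dvrR M.pi_ne
    M.pi_nonunit1 M.intcl1 M.int1 D.frac1 M.le_O1_1 M.le_O2_1 M.sat1 𝔪 hπ𝔪 hnc Sg
    (fun g hg => ⟨(hSg g hg).inert1, (hSg g hg).inert2,
      fun x => ((hSg g hg).mem_B1_iff M x).symm, (hSg g hg).semilin, (hSg g hg).semilin_symm⟩)
    v hv hrat

/-- **(I-a) at a closed point, level `K'`, one chart**: the places through `𝔪` are stable under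
`σ⁻¹` (`PlaceSec10.thr_inv_smul` with the restrictions `SigmaRes15.sigmaB`). -/
theorem thr_inv_smul_of_inertial (π : R) (B : Subalgebra R F) (O1 O2 : ValuationSubring F)
    (pi_ne : algebraMap R F π ≠ 0)
    (leO1 : ∀ x ∈ B, x ∈ O1) (leO2 : ∀ x ∈ B, x ∈ O2)
    (sat : ∀ b ∈ B, ∀ c : F, c ∈ O1 → c ∈ O2 → b = algebraMap R F π * c → c ∈ B)
    (𝔪 : Ideal B) [𝔪.IsPrime] (hπ𝔪 : algebraMap R B π ∈ 𝔪)
    (σ : SemilinearAut K F)
    (hσ1 : IsInertial O1 (algebraMap R F π) (SemilinearAut.toRingAut σ))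
    (hσ2 : IsInertial O2 (algebraMap R F π) (SemilinearAut.toRingAut σ))
    (hB : ∀ x : F, x ∈ B ↔ SemilinearAut.toRingAut σ x ∈ B)
    (v : Place K F) (hv : Thr B 𝔪 v) : Thr B 𝔪 (σ⁻¹ • v) := by
  set s : F ≃+* F := SemilinearAut.toRingAut σ with hs
  set σB : B ≃+* B := sigmaB B s hB with hσB
  have hcongr : ∀ x : F, x ∈ O1 → x ∈ O2 → PiO π O1 O2 (s x - x) :=
    piO_of_sub_mem π O1 O2 pi_ne s hσ1.sub_mem hσ2.sub_mem
  have hσ𝔪 : ∀ b, σB b ∈ 𝔪 ↔ b ∈ 𝔪 :=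
    sigmaB_mem_iff π B O1 O2 leO1 leO2 sat s hB hcongr 𝔪 hπ𝔪
  have hcoe : ∀ b : B, ((σB b : B) : F) = σ • (b : F) := fun _ => rfl
  exact thr_inv_smul B 𝔪 σ σB hcoe hσ𝔪 v hv

/-- (I-a) at the closed points of `B0`: stability under `g⁻¹`. -/
theorem thr_inv_smul_B0 (D : NodalNumData R K F π t B0 B1 O1 O2)
    (g : SemilinearAut K F) (hg : SigmaData π t O1 O2 (SemilinearAut.toRingAut g))
    (𝔪 : Ideal B0) (h𝔪 : 𝔪.IsMaximal) (hπ𝔪 : algebraMap R B0 π ∈ 𝔪)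
    (v : Place K F) (hv : Thr B0 𝔪 v) : Thr B0 𝔪 (g⁻¹ • v) := by
  have M := D.model
  have := h𝔪.isPrime
  exact thr_inv_smul_of_inertial π B0 O1 O2 M.pi_ne M.le_O1_0 M.le_O2_0 M.sat0 𝔪 hπ𝔪 g hg.inert1
    hg.inert2 (fun x => (hg.mem_B0_iff M x).symm) v hv

/-- (I-a) at the closed points of `B1`: stability under `g⁻¹`. -/
theorem thr_inv_smul_B1 (D : NodalNumData R K F π t B0 B1 O1 O2)
    (g : SemilinearAut K F) (hg : SigmaData π t O1 O2 (SemilinearAut.toRingAut g))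
    (𝔪 : Ideal B1) (h𝔪 : 𝔪.IsMaximal) (hπ𝔪 : algebraMap R B1 π ∈ 𝔪)
    (v : Place K F) (hv : Thr B1 𝔪 v) : Thr B1 𝔪 (g⁻¹ • v) := by
  have M := D.model
  have := h𝔪.isPrime
  exact thr_inv_smul_of_inertial π B1 O1 O2 M.pi_ne M.le_O1_1 M.le_O2_1 M.sat1 𝔪 hπ𝔪 g hg.inert1
    hg.inert2 (fun x => (hg.mem_B1_iff M x).symm) v hv

/-- (I-a) at the closed points of `B0`: stability under `g` (from the datum of `g⁻¹`). -/
theorem thr_smul_B0 (D : NodalNumData R K F π t B0 B1 O1 O2)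
    (g : SemilinearAut K F) (hg : SigmaData π t O1 O2 (SemilinearAut.toRingAut g⁻¹))
    (𝔪 : Ideal B0) (h𝔪 : 𝔪.IsMaximal) (hπ𝔪 : algebraMap R B0 π ∈ 𝔪)
    (v : Place K F) (hv : Thr B0 𝔪 v) : Thr B0 𝔪 (g • v) := by
  have h := thr_inv_smul_B0 D g⁻¹ hg 𝔪 h𝔪 hπ𝔪 v hv
  rwa [inv_inv] at h

/-- (I-a) at the closed points of `B1`: stability under `g` (from the datum of `g⁻¹`). -/
theorem thr_smul_B1 (D : NodalNumData R K F π t B0 B1 O1 O2)
    (g : SemilinearAut K F) (hg : SigmaData π t O1 O2 (SemilinearAut.toRingAut g⁻¹))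
    (𝔪 : Ideal B1) (h𝔪 : 𝔪.IsMaximal) (hπ𝔪 : algebraMap R B1 π ∈ 𝔪)
    (v : Place K F) (hv : Thr B1 𝔪 v) : Thr B1 𝔪 (g • v) := by
  have h := thr_inv_smul_B1 D g⁻¹ hg 𝔪 h𝔪 hπ𝔪 v hv
  rwa [inv_inv] at h

end Fermat.Agent.ES.W33.NodeHypK11
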