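/-
Programme W (S33), chapter (Ga), instance literal (I-c), helper10: **(I-c) from ONE closed point of
ONE chart per level.**

`IcPass10.ic_of_levels` instantiated with the level predicate
  `ThrK K v := v passes through every closed point (B, 𝔪) of a level-K chart through which ALL the
              restrictions of the node places pass`
(no choice of chart, no instance argument inside the predicate).  The exit `ic_of_charts` takes, for
every large normal number field `K`, ONE pair `(B, 𝔪)` (a chart `B ⊂ K·F_N` over `A ∩ K` and an ideal)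
with
  (THR)   `Node P → Thr B 𝔪 (restrictK N K P)`                     [the node dictionary, `NodeDict11`]
  (LEVEL) `Thr B 𝔪 v → v rational → HasXi B 𝔪 v ∨ ∀ g ∈ inertiaSet N A K, g • v = v`
                                                                    [`NodeHypInst11.NodeHypAt` at `𝔪`]
and concludes the body of `GaExit13.Ic` for `Node` (`Node P := rN … P = Sum.inr j`).
-/
import Mathlib
import Fermat.Agent.ES.W33.IcPass10
import Fermat.Agent.ES.W33.NodeHypK11
import Fermat.Agent.ES.N34.NumReady13

set_option autoImplicit false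
set_option linter.unusedSectionVars false
set_option synthInstance.maxHeartbeats 400000

noncomputable section

namespace Fermat.Agent.ES.W33.IcCharts10

open AlgebraicCurve ModularCurve HahnSeries IntermediateField
open Fermat.Agent.X0 Fermat.Agent.RED.Interface4 Fermat.Agent.RED.DESC
open Fermat.Agent.ES.N34.GalRational1 Fermat.Agent.ES.N34.GalDescent1
open Fermat.Agent.ES.N34.NodeAsm6 Fermat.Agent.ES.N34.NumReady13
open Fermat.Agent.ES.W33.PlaceRestrict13 Fermat.Agent.ES.W33.NodeHypK11

attribute [local instance 5000] HahnSeries.powerSeriesAlgebra SubalgebraClass.toAlgebra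
attribute [local instance 6000] DivisionRing.toRatAlgebra

variable (N : ℕ) [NeZero N] (A : ValuationSubring Qbar)

/-- the place `v` of `K·F_N` passes through every closed point of every level-`K` chart through which
all the restrictions of the places of `Node` pass. -/
def ThrAll (Node : Place Qbar (Fbar N) → Prop) (K : IntermediateField ℚ Qbar)
    (v : Place K (FK N K)) : Prop :=
  haveI := Fermat.Agent.RED.NumInst4.isScalarTower_OE (AK A K) (FK N K)
  ∀ (B : Subalgebra ↥(AK A K) ↥(FK N K)) (𝔪 : Ideal B),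
    (∀ P : Place Qbar (Fbar N), Node P → Thr B 𝔪 (restrictK N K P)) → Thr B 𝔪 v

/-- the inertia set of `NumReady13` is the image of the inertia group under `gal`. -/
theorem gal_mem_inertiaSet (K : IntermediateField ℚ Qbar) [Normal ℚ K] {τ : Qbar ≃ₐ[ℚ] Qbar}
    (hτ : τ ∈ A.inertiaSubgroupIn ℚ) : gal N K (τ.restrictNormal K) ∈ inertiaSet N A K :=
  ⟨τ, hτ, rfl⟩

/-- **(I-c) at one node from one closed point of one chart per level.** -/
theorem ic_of_charts (K₁ : IntermediateField ℚ Qbar) [FiniteDimensional ℚ K₁]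
    (Node : Place Qbar (Fbar N) → Prop)
    (hK : ∀ (K : IntermediateField ℚ Qbar) [Normal ℚ K], FiniteDimensional ℚ K → K₁ ≤ K →
      haveI := Fermat.Agent.RED.NumInst4.isScalarTower_OE (AK A K) (FK N K)
      ∃ (B : Subalgebra ↥(AK A K) ↥(FK N K)) (𝔪 : Ideal B),
        (∀ P : Place Qbar (Fbar N), Node P → Thr B 𝔪 (restrictK N K P)) ∧
        ∀ v : Place K (FK N K), Thr B 𝔪 v → IsRational v →
          HasXi B 𝔪 v ∨ ∀ g ∈ inertiaSet N A K, g • v = v)
    (P : Place Qbar (Fbar N)) (hP : Node P) :
    (∀ τ ∈ A.inertiaSubgroupIn ℚ, galBar N τ • P = P) ∨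
      ∃ ξ : Fbar N, P.ord ξ = 1 ∧
        ∀ P' : Place Qbar (Fbar N), P' ≠ P → Node P' → P'.ord ξ = 0 := by
  refine Fermat.Agent.ES.W33.IcPass10.ic_of_levels N K₁
    ((A.inertiaSubgroupIn ℚ : Subgroup (Qbar ≃ₐ[ℚ] Qbar)) : Set (Qbar ≃ₐ[ℚ] Qbar))
    (ThrAll N A Node) Node ?_ ?_ P hP
  · -- (THR)
    intro P' hP' K _ _ _ B 𝔪 hB
    exact hB P' hP'
  · -- (LEVEL)
    intro K hfin hnor hle v hrat hv
    have := Fermat.Agent.RED.NumInst4.isScalarTower_OE (AK A K) (FK N K)
    obtain ⟨B, 𝔪, hthr, hlev⟩ := hK K hfin hle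
    rcases hlev v (hv B 𝔪 hthr) hrat with ⟨ξ, hξ0, hξ1, hξw⟩ | hfix
    · left
      exact ⟨ξ, hξ0, hξ1, fun w hw hwv => hξw w (hw B 𝔪 hthr) hwv⟩
    · right
      intro τ hτ
      exact hfix _ (gal_mem_inertiaSet N A K hτ)

end Fermat.Agent.ES.W33.IcCharts10
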