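/-
Programme W (S33), chapter (Ga)/(I-c) + (B3′), brick (Ic-3) "NODE DICTIONARY", part 2 (helper11):
**the centre of a place `P` of `ℚ̄·F_N` on a level-`K` chart of `K·F_N`** — the instance of
`NodeCentre11` at `L = ℚ̄`, `ι = PlaceExtend27.baseChangeHom N K`, `R = A ∩ K`, and the place
`P|_K = PlaceRestrict13.restrictK N K P`.

For `N`, `A ≤ ℚ̄` over a prime `ℓ`, `K ⊂ ℚ̄`, `sK : K·F_N` a coordinate, `P` with `(bc sK)(P) ∈ A`:

* `kA_pow_eq_one`  : every nonzero element of `kA A` is a root of unity;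
* `InCh N A K sK P` : `bc sK` is regular at `P` with value in `A`;   `regAt_chart` : then the chart
  `chart (A ∩ K) sK` is regular at `P` with values in `A` (`NodeCentre11.RegAt`);
* `chiAt h`, `centreAt h : Ideal (chart (A ∩ K) sK)` : the centre of `P` on the level-`K` chart;
* `centreAt_isMaximal`, `pi_mem_centreAt` (every uniformiser `π` of `A ∩ K`),
  **`thr_centreAt : Thr (chart (A ∩ K) sK) (centreAt h) (restrictK N K P)`**;
* `not_mem_centreAt_iff` : `b ∉ centre ↔ bc b (P) ∈ Aˣ`;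
* `offBranch_centreAt_iff`; `centreAt_eq_of_chiAt_eq`; `chiAt_eq_of_surj` (T3).
-/
import Mathlib
import Fermat.Agent.ES.W33.NodeCentre11
import Fermat.Agent.ES.W33.PlaceRestrict13
import Fermat.Agent.ES.RED.ChartUnion1
import Fermat.Agent.ES.RED.ChartSpecOfChart18

set_option autoImplicit false
set_option synthInstance.maxHeartbeats 400000
set_option linter.unusedSectionVars false

open HahnSeries ModularCurve AlgebraicCurve

noncomputable section

namespace Fermat.Agent.ES.W33.NodeDict11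

open Fermat.Agent.X0 Fermat.Agent.X0.FF Fermat.Agent.RED.Interface4 Fermat.Agent.RED.DESC
  Fermat.Agent.RED.PUR.GaussGen8 Fermat.Agent.RED.PUR.ChartGeneric22
  Fermat.Agent.ES.RED.PlaceValue13 Fermat.Agent.ES.RED.Contract8
  Fermat.Agent.ES.N34.NodalCore13 Fermat.Agent.ES.N34.NodeAsm6
  Fermat.Agent.ES.W33.NodeCentre11 Fermat.Agent.ES.W33.PlaceRestrict13

/-! ### the residue field of `A` -/

/-- **every nonzero element of the residue field of `A ≤ ℚ̄` (over a prime) is a root of unity.** -/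
theorem kA_pow_eq_one (A : ValuationSubring Qbar) {ℓ : ℕ} (hℓ : ℓ.Prime) (hA : A.LiesOverPrime ℓ)
    (c : kA A) (hc : c ≠ 0) : ∃ n : ℕ, 0 < n ∧ c ^ n = 1 := by
  obtain ⟨a, rfl⟩ := IsLocalRing.residue_surjective c
  obtain ⟨K, hfin, -, hK⟩ := NumberFieldDVR27.exists_numberField ⊥ {(a : Qbar)}
  have haK : (a : Qbar) ∈ K := hK _ (Finset.mem_singleton_self _)
  have haAK : (⟨(a : Qbar), haK⟩ : K) ∈ AK A K := by
    rw [NumberFieldDVR27.mem_AK_iff]; exact a.2
  have hfinres : Finite (IsLocalRing.ResidueField ↥(AK A K)) :=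
    NumberFieldDVR27.finite_residueField_AK A K hℓ.ne_zero hA
  set a' : ↥(AK A K) := ⟨⟨(a : Qbar), haK⟩, haAK⟩ with ha'
  have hincl : NumberFieldDVR27.incl A K a' = a := Subtype.ext rfl
  set c' := IsLocalRing.residue ↥(AK A K) a' with hc'
  have hmap : NumberFieldDVR27.resMap A K c' = IsLocalRing.residue ↥A a := by
    rw [hc', NumberFieldDVR27.resMap_residue, hincl]
  have hc'0 : c' ≠ 0 := by
    intro h0
    apply hc
    rw [← hmap, h0, map_zero]
  have hfo : IsOfFinOrder (Units.mk0 c' hc'0) := isOfFinOrder_of_finite _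
  obtain ⟨n, hn, hpow⟩ := hfo.exists_pow_eq_one
  refine ⟨n, hn, ?_⟩
  have h1 : c' ^ n = 1 := by
    have := congrArg Units.val hpow
    simpa using this
  rw [← hmap, ← map_pow, h1, map_one]

/-! ### the centre on a level-`K` chart -/

variable (N : ℕ) [NeZero N] (A : ValuationSubring Qbar) (K : IntermediateField ℚ Qbar)

/-- the coordinate `bc sK` is regular at `P` with value in `A` (`P` lies in the chart of `sK`). -/
def InCh (sK : FK N K) (P : Place Qbar ↥(Fbar N)) : Prop :=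
  ∃ hs : PlaceExtend27.baseChangeHom N K sK ∈ P.toValuationSubring,
    valueHom (Fermat.Agent.RED.TOP.FbarFacts20.isGen_j N) P
      ⟨PlaceExtend27.baseChangeHom N K sK, hs⟩ ∈ A

variable {N A K}

/-- the chart `chart (A ∩ K) sK` is regular at `P` with values in `A`. -/
theorem regAt_chart {sK : FK N K} {P : Place Qbar ↥(Fbar N)} (h : InCh N A K sK P) :
    RegAt A (Fermat.Agent.RED.TOP.FbarFacts20.isGen_j N) (PlaceExtend27.baseChangeHom N K)
      (chart ↥(AK A K) sK) P := by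
  obtain ⟨hs, hsA⟩ := h
  intro b hb
  have h1 := Fermat.Agent.ES.RED.ChartUnion1.baseChangeHom_mem_chart A N K sK b hb
  have h2 := Fermat.Agent.ES.RED.ChartSpecOfChart18.mem_place_of_mem_chart' A _ P hs h1
  exact ⟨h2, Fermat.Agent.ES.RED.ChartSpecOfChart18.valueHom_mem_of_mem_chart A
    (Fermat.Agent.RED.TOP.FbarFacts20.isGen_j N) _ P hs hsA h1 h2⟩

/-- **the centre of `P` on the chart of `sK`**, as a homomorphism to `kA A`. -/
def chiAt {sK : FK N K} {P : Place Qbar ↥(Fbar N)} (h : InCh N A K sK P) :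
    ↥(chart ↥(AK A K) sK) →+* kA A :=
  chiK (regAt_chart h)

/-- **the centre of `P` on the chart of `sK`**, as an ideal. -/
def centreAt {sK : FK N K} {P : Place Qbar ↥(Fbar N)} (h : InCh N A K sK P) :
    Ideal ↥(chart ↥(AK A K) sK) :=
  centreK (regAt_chart h)

theorem mem_centreAt_iff {sK : FK N K} {P : Place Qbar ↥(Fbar N)} (h : InCh N A K sK P)
    (b : ↥(chart ↥(AK A K) sK)) : b ∈ centreAt h ↔ chiAt h b = 0 :=
  mem_centreK_iff _ b

/-- `b ∉ centre ↔` the value of `bc b` at `P` is a unit of `A`. -/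
theorem not_mem_centreAt_iff {sK : FK N K} {P : Place Qbar ↥(Fbar N)} (h : InCh N A K sK P)
    (b : ↥(chart ↥(AK A K) sK)) :
    b ∉ centreAt h ↔
      valueHom (Fermat.Agent.RED.TOP.FbarFacts20.isGen_j N) P
          ⟨PlaceExtend27.baseChangeHom N K (b : FK N K), (regAt_chart h b b.2).1⟩ ≠ 0 ∧
        (valueHom (Fermat.Agent.RED.TOP.FbarFacts20.isGen_j N) P
          ⟨PlaceExtend27.baseChangeHom N K (b : FK N K), (regAt_chart h b b.2).1⟩)⁻¹ ∈ A := by
  unfold centreAt
  rw [not_mem_centreK_iff, isUnit_evK_iff]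

theorem centreAt_isPrime {sK : FK N K} {P : Place Qbar ↥(Fbar N)} (h : InCh N A K sK P) :
    (centreAt h).IsPrime :=
  centreK_isPrime _

/-- the centre is a closed point. -/
theorem centreAt_isMaximal {ℓ : ℕ} (hℓ : ℓ.Prime) (hA : A.LiesOverPrime ℓ) {sK : FK N K}
    {P : Place Qbar ↥(Fbar N)} (h : InCh N A K sK P) : (centreAt h).IsMaximal :=
  centreK_isMaximal (kA_pow_eq_one A hℓ hA) _

/-- every uniformiser of `A ∩ K` lies in the centre. -/
theorem pi_mem_centreAt {sK : FK N K} {P : Place Qbar ↥(Fbar N)} (h : InCh N A K sK P)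
    {π : ↥(AK A K)} (hπ : IsUnif (AK A K) π) :
    algebraMap ↥(AK A K) ↥(chart ↥(AK A K) sK) π ∈ centreAt h := by
  have hmem : π ∈ IsLocalRing.maximalIdeal ↥(AK A K) := by
    rw [hπ.max_eq]; exact Ideal.mem_span_singleton_self π
  have h1 := (NumberFieldDVR27.mem_maximalIdeal_iff A K π).mp hmem
  have hnu : (((π : ↥(AK A K)) : K) : Qbar) ∈ A.nonunits := by
    rw [A.mem_nonunits_iff_exists_mem_maximalIdeal]
    exact ⟨(NumberFieldDVR27.incl A K π).2, h1⟩
  exact algebraMap_mem_centreK (regAt_chart h) π _ hnu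
    (PlaceExtend27.baseChangeHom_algebraMap N K ((π : ↥(AK A K)) : K))

/-- **`P|_K` passes through the centre of `P`.** -/
theorem thr_centreAt {sK : FK N K} {P : Place Qbar ↥(Fbar N)} (h : InCh N A K sK P) :
    haveI := Fermat.Agent.RED.NumInst4.isScalarTower_OE (AK A K) (FK N K)
    Thr (chart ↥(AK A K) sK) (centreAt h) (restrictK N K P) := by
  have := Fermat.Agent.RED.NumInst4.isScalarTower_OE (AK A K) (FK N K)
  exact thr_centreK (regAt_chart h) (restrictK N K P) (fun z => mem_restrictK_iff P z)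

/-- the centre lies off the branch `O_j` iff some `e ∈ B ∩ π O_j` has a unit value at `P`. -/
theorem offBranch_centreAt_iff {sK : FK N K} {P : Place Qbar ↥(Fbar N)} (h : InCh N A K sK P)
    (π : ↥(AK A K)) (Oj : ValuationSubring ↥(FK N K)) :
    OffBranch π (chart ↥(AK A K) sK) Oj (centreAt h) ↔
      ∃ e : ↥(chart ↥(AK A K) sK),
        (∃ c ∈ Oj, (e : FK N K) = algebraMap ↥(AK A K) ↥(FK N K) π * c) ∧ e ∉ centreAt h := by
  constructor
  · rintro ⟨e, he, hc⟩
    exact ⟨e, hc, he⟩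
  · rintro ⟨e, hc, he⟩
    exact ⟨e, he, hc⟩

/-- two places with the same centre homomorphism have the same centre. -/
theorem centreAt_eq_of_chiAt_eq {sK : FK N K} {P P' : Place Qbar ↥(Fbar N)}
    (h : InCh N A K sK P) (h' : InCh N A K sK P') (heq : chiAt h = chiAt h') :
    centreAt h = centreAt h' :=
  centreK_eq_of_chiK_eq _ _ heq

/-- **(T3)**: see `NodeCentre11.chiK_eq_of_surj`. -/
theorem chiAt_eq_of_surj {sK : FK N K} {P P' : Place Qbar ↥(Fbar N)}
    (h : InCh N A K sK P) (h' : InCh N A K sK P')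
    (π : ↥(AK A K)) (Oj : ValuationSubring ↥(FK N K)) (S : Set ↥(FK N K))
    (hS : ∀ y ∈ chart ↥(AK A K) sK, ∃ s ∈ S, ∃ _ : s ∈ chart ↥(AK A K) sK, ∃ c ∈ Oj,
      y - s = algebraMap ↥(AK A K) ↥(FK N K) π * c)
    (hno : ¬ OffBranch π (chart ↥(AK A K) sK) Oj (centreAt h))
    (hno' : ¬ OffBranch π (chart ↥(AK A K) sK) Oj (centreAt h'))
    (hagree : ∀ (s : ↥(FK N K)) (hs : s ∈ chart ↥(AK A K) sK), s ∈ S →
      chiAt h ⟨s, hs⟩ = chiAt h' ⟨s, hs⟩) :
    chiAt h = chiAt h' :=
  chiK_eq_of_surj _ _ π Oj S hS hno hno' hagree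

end Fermat.Agent.ES.W33.NodeDict11
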