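/-
Programme W (S33), chapter (Ga), leaf (I-c)/(I-a) at level `K'`, THE INSTANCE (helper11).

`NodeHypK11` (generic nodal two-chart model + a set of inertial automorphisms) instantiated at
Programme N's objects with `q` the residue characteristic of `A` (for S33: `q = p`):
the model `ModelDefs9.(tN, B0, B1, O1, O2)` at level `M' * q` over `A ∩ K` for every sufficiently
large normal number field `K ⊂ ℚ̄` (`ModelInput13.ModelInput`, closed by `ModelEnd4`), and the inertia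
group of `A` acting through `GalBase21.galK` (`NumReady13.inertiaSet`, `GalModel21.sigmaData`).

* `NodeHypAt O E π B O1 O2 Sg`  (generic wrapper over `(Kt, O, E)` with the scalar tower supplied, as
  in `NumReady13`): at every two-branch closed point `𝔪 ∋ π` of the chart `B`, every RATIONAL place
  `v` through `𝔪` carries a Lemma-A element (`NodeHypK11.HasXi`) or is fixed by every `g ∈ Sg`.
* `ThrStableAt O E π B Sg` : at every closed point `𝔪 ∋ π` of `B`, the set of places through `𝔪` is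
  stable under every `g ∈ Sg` and under `g⁻¹`.
* `nodeHyp_model` : for all large normal `K`, for every uniformiser `π` of `A ∩ K`: the MODEL bundle,
  the GAL bundle for every `τ` in the inertia group of `A`, `NodeHypAt` and `ThrStableAt` on both
  charts, with `Sg := inertiaSet (M' * q) A K`.
* `nodeHyp_model_four` : the same, unconditionally, for `q` odd, `4 ∣ M'` (Hauptmodul `tq · 4 8`).
-/
import Mathlib
import Fermat.Agent.ES.W33.NodeHypK11
import Fermat.Agent.ES.N34.NumN13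
import Fermat.Agent.ES.N34.ModelEnd4

set_option autoImplicit false
set_option synthInstance.maxHeartbeats 400000

open HahnSeries AlgebraicCurve ModularCurve

noncomputable section

namespace Fermat.Agent.ES.W33.NodeHypInst11

open Fermat.Agent.ES.N34.NodalCore13 Fermat.Agent.ES.N34.NodalCL13 Fermat.Agent.ES.N34.NumData13
  Fermat.Agent.ES.N34.GalGauss21 Fermat.Agent.ES.N34.GalChart21 Fermat.Agent.ES.N34.NodeAsm6
  Fermat.Agent.ES.W33.NodeHypK11

section Generic

variable {Kt : Type*} [Field Kt]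

variable (O : ValuationSubring Kt) (E : IntermediateField Kt (LaurentSeries Kt))

/-- (I-c) at level `K'` on one chart: every rational place through a two-branch closed point carries a
Lemma-A element or is fixed by every automorphism of `Sg`. -/
def NodeHypAt (π : O) (B : Subalgebra ↥O ↥E) (O1 O2 : ValuationSubring ↥E)
    (Sg : Set (SemilinearAut Kt E)) : Prop :=
  haveI := Fermat.Agent.RED.NumInst4.isScalarTower_OE O E
  ∀ 𝔪 : Ideal B, 𝔪.IsMaximal → algebraMap ↥O B π ∈ 𝔪 →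
    ¬ OffBranch π B O1 𝔪 → ¬ OffBranch π B O2 𝔪 →
    ∀ v : Place Kt E, Thr B 𝔪 v → Function.Surjective (algebraMap Kt v.ResidueField) →
      HasXi B 𝔪 v ∨ ∀ g ∈ Sg, g • v = v

/-- (I-a) at the closed points, level `K'`, one chart. -/
def ThrStableAt (π : O) (B : Subalgebra ↥O ↥E) (Sg : Set (SemilinearAut Kt E)) : Prop :=
  haveI := Fermat.Agent.RED.NumInst4.isScalarTower_OE O E
  ∀ 𝔪 : Ideal B, 𝔪.IsMaximal → algebraMap ↥O B π ∈ 𝔪 →
    ∀ g ∈ Sg, ∀ v : Place Kt E, Thr B 𝔪 v → Thr B 𝔪 (g • v) ∧ Thr B 𝔪 (g⁻¹ • v)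

variable {O E}

/-- the two charts of a nodal two-chart model satisfy `NodeHypAt` for any set of automorphisms
carrying `SigmaData`. -/
theorem nodeHypAt_of_data [IsDiscreteValuationRing O] {π : O} {t : E} {B0 B1 : Subalgebra ↥O ↥E}
    {O1 O2 : ValuationSubring ↥E} (hπ : Irreducible π)
    (D : Fermat.Agent.ES.N34.ModelInput13.NodalDataAt O E π t B0 B1 O1 O2)
    (Sg : Set (SemilinearAut Kt E))
    (hSg : ∀ g ∈ Sg, SigmaData π t O1 O2 (SemilinearAut.toRingAut g)) :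
    NodeHypAt O E π B0 O1 O2 Sg ∧ NodeHypAt O E π B1 O1 O2 Sg := by
  have := Fermat.Agent.RED.NumInst4.isScalarTower_OE O E
  refine ⟨fun 𝔪 h𝔪 hπ𝔪 h1 h2 v hv hrat => ?_, fun 𝔪 h𝔪 hπ𝔪 h1 h2 v hv hrat => ?_⟩
  · exact nodeHyp_B0 D hπ Sg hSg 𝔪 h𝔪 hπ𝔪 (D.node0 𝔪 h𝔪 hπ𝔪 h1 h2) v hv hrat
  · exact nodeHyp_B1 D hπ Sg hSg 𝔪 h𝔪 hπ𝔪 (D.node1 𝔪 h𝔪 hπ𝔪 h1 h2) v hv hrat

/-- the two charts of a nodal two-chart model satisfy `ThrStableAt` for any set of automorphisms which
is closed under inverses and carries `SigmaData`. -/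
theorem thrStableAt_of_data [IsDiscreteValuationRing O] {π : O} {t : E}
    {B0 B1 : Subalgebra ↥O ↥E} {O1 O2 : ValuationSubring ↥E}
    (D : Fermat.Agent.ES.N34.ModelInput13.NodalDataAt O E π t B0 B1 O1 O2)
    (Sg : Set (SemilinearAut Kt E)) (hinv : ∀ g ∈ Sg, g⁻¹ ∈ Sg)
    (hSg : ∀ g ∈ Sg, SigmaData π t O1 O2 (SemilinearAut.toRingAut g)) :
    ThrStableAt O E π B0 Sg ∧ ThrStableAt O E π B1 Sg := by
  have := Fermat.Agent.RED.NumInst4.isScalarTower_OE O E
  refine ⟨fun 𝔪 h𝔪 hπ𝔪 g hg v hv => ⟨?_, ?_⟩, fun 𝔪 h𝔪 hπ𝔪 g hg v hv => ⟨?_, ?_⟩⟩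
  · exact thr_smul_B0 D g (hSg _ (hinv g hg)) 𝔪 h𝔪 hπ𝔪 v hv
  · exact thr_inv_smul_B0 D g (hSg g hg) 𝔪 h𝔪 hπ𝔪 v hv
  · exact thr_smul_B1 D g (hSg _ (hinv g hg)) 𝔪 h𝔪 hπ𝔪 v hv
  · exact thr_inv_smul_B1 D g (hSg g hg) 𝔪 h𝔪 hπ𝔪 v hv

end Generic

section Concrete

open Fermat.Agent.RED.Interface4 Fermat.Agent.RED.DESC Fermat.Agent.RED.PUR.GaussGen8
  Fermat.Agent.RED.BASE.EtaQuot12
  Fermat.Agent.ES.N34.IfaceN4 Fermat.Agent.ES.N34.GalBase21 Fermat.Agent.ES.N34.ModelDefs9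
  Fermat.Agent.ES.N34.NumReady13 Fermat.Agent.ES.N34.ModelInput13

/-- the inertia set is closed under inverses. -/
theorem inv_mem_inertiaSet (N : ℕ) (A : ValuationSubring Qbar) (K : IntermediateField ℚ Qbar)
    [Normal ℚ K] {g : SemilinearAut K (FK N K)} (hg : g ∈ inertiaSet N A K) :
    g⁻¹ ∈ inertiaSet N A K := by
  obtain ⟨τ, hτ, rfl⟩ := hg
  refine ⟨τ⁻¹, inv_mem hτ, ?_⟩
  have h1 : galK K N τ * galK K N τ⁻¹ = 1 := by
    rw [← galK_mul, mul_inv_cancel, galK_one]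
  exact inv_eq_of_mul_eq_one_right h1

/-- **(I-c) + (I-a) at every large level `K`, at Programme N's objects.** -/
theorem nodeHyp_model {q : ℕ} (hq : q.Prime) {A : ValuationSubring Qbar}
    (hA : A.LiesOverPrime q) (n e M' : ℕ) [NeZero n] [NeZero M'] [NeZero q]
    (h : ModelInput n e q M' A) :
    ∃ K₀ : IntermediateField ℚ Qbar, FiniteDimensional ℚ K₀ ∧
      ∀ (K : IntermediateField ℚ Qbar) [Normal ℚ K], FiniteDimensional ℚ K → K₀ ≤ K →
        ∃ (ht : tq ↥K n e ∈ FK M' K) (hE : FK (M' * q) K ≤ fracField (AK A K)),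
          ∀ (π : ↥(AK A K)) (hπ : IsUnif (AK A K) π), Irreducible π →
            NodalDataAt (AK A K) (FK (M' * q) K) π (tN q ht) (B0 A q ht) (B1 A q ht)
              (O1 M' q hπ hE) (O2 M' q hπ hE) ∧
            (∀ g ∈ inertiaSet (M' * q) A K,
              SigmaData π (tN q ht) (O1 M' q hπ hE) (O2 M' q hπ hE)
                (SemilinearAut.toRingAut g)) ∧
            NodeHypAt (AK A K) (FK (M' * q) K) π (B0 A q ht) (O1 M' q hπ hE) (O2 M' q hπ hE)
              (inertiaSet (M' * q) A K) ∧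
            NodeHypAt (AK A K) (FK (M' * q) K) π (B1 A q ht) (O1 M' q hπ hE) (O2 M' q hπ hE)
              (inertiaSet (M' * q) A K) ∧
            ThrStableAt (AK A K) (FK (M' * q) K) π (B0 A q ht) (inertiaSet (M' * q) A K) ∧
            ThrStableAt (AK A K) (FK (M' * q) K) π (B1 A q ht) (inertiaSet (M' * q) A K) := by
  obtain ⟨K₀, hK₀, hK⟩ := h
  refine ⟨K₀, hK₀, fun K _ hfd hle => ?_⟩
  obtain ⟨ht, hE, hmodel⟩ := hK K hfd hle
  have hdvr : IsDiscreteValuationRing ↥(AK A K) :=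
    NumberFieldDVR27.isDiscreteValuationRing_AK A K hq.ne_zero hA
  refine ⟨ht, hE, fun π hπ hirr => ?_⟩
  have hD := hmodel π hπ
  have hSg : ∀ g ∈ inertiaSet (M' * q) A K,
      SigmaData π (tN q ht) (O1 M' q hπ hE) (O2 M' q hπ hE) (SemilinearAut.toRingAut g) := by
    rintro g ⟨τ, hτ, rfl⟩
    exact Fermat.Agent.ES.N34.GalModel21.sigmaData hτ hπ hE n e (tN q ht) (coe_tN q ht)
  obtain ⟨h0, h1⟩ := nodeHypAt_of_data hirr hD (inertiaSet (M' * q) A K) hSg
  obtain ⟨s0, s1⟩ := thrStableAt_of_data hD (inertiaSet (M' * q) A K)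
    (fun g hg => inv_mem_inertiaSet (M' * q) A K hg) hSg
  exact ⟨hD, hSg, h0, h1, s0, s1⟩

/-- **(I-c) + (I-a) at every large level, `q` odd, `4 ∣ M'`, unconditionally.** -/
theorem nodeHyp_model_four (q M' : ℕ) [NeZero M'] [NeZero q] (A : ValuationSubring Qbar)
    (hq : q.Prime) (hqM : ¬ q ∣ M') (h2 : q ≠ 2) (h4 : 4 ∣ M') (hA : A.LiesOverPrime q) :
    ∃ K₀ : IntermediateField ℚ Qbar, FiniteDimensional ℚ K₀ ∧
      ∀ (K : IntermediateField ℚ Qbar) [Normal ℚ K], FiniteDimensional ℚ K → K₀ ≤ K →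
        ∃ (ht : tq ↥K 4 8 ∈ FK M' K) (hE : FK (M' * q) K ≤ fracField (AK A K)),
          ∀ (π : ↥(AK A K)) (hπ : IsUnif (AK A K) π), Irreducible π →
            NodalDataAt (AK A K) (FK (M' * q) K) π (tN q ht) (B0 A q ht) (B1 A q ht)
              (O1 M' q hπ hE) (O2 M' q hπ hE) ∧
            (∀ g ∈ inertiaSet (M' * q) A K,
              SigmaData π (tN q ht) (O1 M' q hπ hE) (O2 M' q hπ hE)
                (SemilinearAut.toRingAut g)) ∧
            NodeHypAt (AK A K) (FK (M' * q) K) π (B0 A q ht) (O1 M' q hπ hE) (O2 M' q hπ hE)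
              (inertiaSet (M' * q) A K) ∧
            NodeHypAt (AK A K) (FK (M' * q) K) π (B1 A q ht) (O1 M' q hπ hE) (O2 M' q hπ hE)
              (inertiaSet (M' * q) A K) ∧
            ThrStableAt (AK A K) (FK (M' * q) K) π (B0 A q ht) (inertiaSet (M' * q) A K) ∧
            ThrStableAt (AK A K) (FK (M' * q) K) π (B1 A q ht) (inertiaSet (M' * q) A K) :=
  nodeHyp_model hq hA 4 8 M'
    (Fermat.Agent.ES.N34.ModelEnd4.modelInput_four q M' A hq hqM h2 h4 hA)

end Concrete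

end Fermat.Agent.ES.W33.NodeHypInst11
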