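/-
Programme W (S33), chapter (Ga), instance literal (I-c), helper10: **(I-c) at Programme N's model from
the node dictionary.**

`IcCharts10.ic_of_charts` fed with
* (LEVEL) := helper11's `NodeHypInst11.nodeHyp_model_four` (the level-`K` node lemmas A/B on the chart
  `B0 = chart (A ∩ K) t` at every two-branch closed point, for the inertia set), and
* (THR)   := the node dictionary in the vocabulary of `NodeDict11` (`InCh`, `centreAt`,
  `thr_centreAt`), stated here as ONE named hypothesis `NodeDictHyp`: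
  for all large normal `K`, every place `P` of the node lies in the chart `0` (`InCh … (tN q ht) P`),
  its centre is a two-branch point, and all places of the node have the SAME centre.

Exit: `ic_of_dict … (hdict : NodeDictHyp q M' A Node K₁) P (hP : Node P)` = the body of `GaExit13.Ic`
at one node (`Node P := rN … P = Sum.inr j`, `galBar (M' * q) = rhoG M' q`).
-/
import Mathlib
import Fermat.Agent.ES.W33.IcCharts10
import Fermat.Agent.ES.W33.NodeHypInst11
import Fermat.Agent.ES.W33.NodeDict11

set_option autoImplicit false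
set_option linter.unusedSectionVars false
set_option synthInstance.maxHeartbeats 400000

noncomputable section

namespace Fermat.Agent.ES.W33.IcDict10

open AlgebraicCurve ModularCurve HahnSeries IntermediateField
open Fermat.Agent.X0 Fermat.Agent.RED.Interface4 Fermat.Agent.RED.DESC
open Fermat.Agent.RED.PUR.GaussGen8 Fermat.Agent.RED.PUR.ChartGeneric22
  Fermat.Agent.RED.BASE.EtaQuot12
open Fermat.Agent.ES.N34.GalRational1 Fermat.Agent.ES.N34.GalDescent1
open Fermat.Agent.ES.N34.NodalCore13 Fermat.Agent.ES.N34.NodeAsm6 Fermat.Agent.ES.N34.NumReady13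
  Fermat.Agent.ES.N34.ModelDefs9
open Fermat.Agent.ES.W33.PlaceRestrict13 Fermat.Agent.ES.W33.NodeHypK11
  Fermat.Agent.ES.W33.NodeHypInst11 Fermat.Agent.ES.W33.NodeDict11

variable (q M' : ℕ) [NeZero M'] [NeZero q] (A : ValuationSubring Qbar)

set_option maxHeartbeats 1600000 in
/-- **the node dictionary** for the set `Node` of places of `ℚ̄·F_{M' q}` at the levels above `K₁`:
every place of `Node` lies in the chart `0` of the level-`K` model, its centre is a two-branch closed
point, and all places of `Node` have the same centre. -/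
def NodeDictHyp (Node : Place Qbar (Fbar (M' * q)) → Prop) (K₁ : IntermediateField ℚ Qbar) : Prop :=
  ∀ (K : IntermediateField ℚ Qbar) [Normal ℚ K], FiniteDimensional ℚ K → K₁ ≤ K →
    ∀ (ht : tq ↥K 4 8 ∈ FK M' K) (hE : FK (M' * q) K ≤ fracField (AK A K))
      (π : ↥(AK A K)) (hπ : IsUnif (AK A K) π),
      ∀ P : Place Qbar (Fbar (M' * q)), Node P →
        ∃ h : InCh (M' * q) A K (tN q ht) P,
          ¬ OffBranch π (chart ↥(AK A K) (tN q ht)) (O1 M' q hπ hE) (centreAt h) ∧
          ¬ OffBranch π (chart ↥(AK A K) (tN q ht)) (O2 M' q hπ hE) (centreAt h) ∧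
          ∀ P' : Place Qbar (Fbar (M' * q)), Node P' →
            ∃ h' : InCh (M' * q) A K (tN q ht) P', centreAt h' = centreAt h

variable {q M' A}

set_option maxHeartbeats 1600000 in
/-- **(I-c) at one node of Programme N's model, from the node dictionary.** -/
theorem ic_of_dict (hq : q.Prime) (hqM : ¬ q ∣ M') (h2 : q ≠ 2) (h4 : 4 ∣ M')
    (hA : A.LiesOverPrime q) (Node : Place Qbar (Fbar (M' * q)) → Prop)
    (K₁ : IntermediateField ℚ Qbar) [FiniteDimensional ℚ K₁]
    (hdict : NodeDictHyp q M' A Node K₁)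
    (P : Place Qbar (Fbar (M' * q))) (hP : Node P) :
    (∀ τ ∈ A.inertiaSubgroupIn ℚ, galBar (M' * q) τ • P = P) ∨
      ∃ ξ : Fbar (M' * q), P.ord ξ = 1 ∧
        ∀ P' : Place Qbar (Fbar (M' * q)), P' ≠ P → Node P' → P'.ord ξ = 0 := by
  obtain ⟨K₀, hK₀fd, hmod⟩ := nodeHyp_model_four q M' A hq hqM h2 h4 hA
  have := hK₀fd
  refine Fermat.Agent.ES.W33.IcCharts10.ic_of_charts (M' * q) A (K₀ ⊔ K₁) Node ?_ P hP
  intro K _ hfd hle
  have := Fermat.Agent.RED.NumInst4.isScalarTower_OE (AK A K) (FK (M' * q) K)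
  obtain ⟨ht, hE, hall⟩ := hmod K hfd (le_sup_left.trans hle)
  have hdvr : IsDiscreteValuationRing ↥(AK A K) :=
    NumberFieldDVR27.isDiscreteValuationRing_AK A K hq.ne_zero hA
  obtain ⟨π, hirr⟩ := IsDiscreteValuationRing.exists_irreducible ↥(AK A K)
  have hπ : IsUnif (AK A K) π := isUnif_of_irreducible (AK A K) hirr
  obtain ⟨-, -, h0, -, -, -⟩ := hall π hπ hirr
  obtain ⟨h, hno1, hno2, hsame⟩ := hdict K hfd (le_sup_right.trans hle) ht hE π hπ P hP
  refine ⟨B0 A q ht, centreAt h, fun P' hP' => ?_, fun v hv hrat => ?_⟩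
  · obtain ⟨h', heq⟩ := hsame P' hP'
    have h1 := thr_centreAt h'
    rw [heq] at h1
    exact h1
  · exact h0 (centreAt h) (centreAt_isMaximal hq hA h) (pi_mem_centreAt h hπ) hno1 hno2 v hv hrat

end Fermat.Agent.ES.W33.IcDict10
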