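/-
Programme W (S33), chapter B3′ (helper20): **the three inversion lemmas of `NodalDefs3.rN`** (ruling
w62 (i), (ii): inputs (c1), (c3) of helper22's `R2RelCtxN22`), by unfolding the definition ONCE.
No leaf, no chart: only `NodalDefs3` v3.

* `rN_eq_inl_inl : rN P = inl (inl Q) → r1 P = Q`;
* `rN_eq_inl_inr : rN P = inl (inr Q) → r2 P = Q ∧ ¬ InW1 P ∧ InW2 P`;
* `rN_eq_inr     : rN P = inr j → nodesN.ν₁ j = r1 P ∧ nodesN.ν₂ j = r2 P ∧ ¬ InW1 P ∧ ¬ InW2 P`.
-/
import Mathlib
import Fermat.Agent.ES.W33.NodalDefs3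

set_option autoImplicit false
set_option synthInstance.maxHeartbeats 400000
set_option linter.unusedSectionVars false

open HahnSeries ModularCurve AlgebraicCurve
open scoped MatrixGroups

noncomputable section

namespace Fermat.Agent.ES.W33.RNUnfold20

open Fermat.Agent.RED.Interface4 Fermat.Agent.RED.BASE.Interface12 Fermat.Agent.RED.BASE.Hauptmodul12
  Fermat.Agent.ES.RED.Contract8 Fermat.Agent.ES.RED.ModelInst4
  Fermat.Agent.X0 Fermat.Agent.X0.FF
  Fermat.Agent.ES.V19.InstNames3 Fermat.Agent.ES.W33.XiIfaceN29 Fermat.Agent.ES.W33.NodalDefs3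

attribute [local instance 5000] HahnSeries.powerSeriesAlgebra SubalgebraClass.toAlgebra

variable (n e M' : ℕ) [NeZero n] [NeZero M'] (p : ℕ) [Fact p.Prime] (hpM : ¬ p ∣ M')
  (hb : BaseHyp n e) (hnM : n ∣ M') (A : ValuationSubring Qbar) (hA : A.LiesOverPrime p)

/-- `rN` outside `W₁ ∪ W₂`, when the node pairs are finitely many. -/
theorem rN_of_node {P : Place Qbar ↥(Fbar (M' * p))} (h1 : ¬ InW1 n e M' p hb hnM A P)
    (h2 : ¬ InW2 n e M' p hb hnM A P)
    (hf : Finite ↥(nodePairs n e M' p hpM hb hnM A hA)) :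
    rN n e M' p hpM hb hnM A hA P =
      Sum.inr (Finite.equivFin ↥(nodePairs n e M' p hpM hb hnM A hA)
        ⟨(r1 n e M' p hpM hb hnM A hA P, r2 n e M' p hpM hb hnM A hA P), P, h1, h2, rfl⟩) := by
  unfold rN
  rw [dif_neg h1, dif_neg h2, dif_pos hf]
  rfl

/-- `rN` outside `W₁ ∪ W₂`, junk case. -/
theorem rN_of_junk {P : Place Qbar ↥(Fbar (M' * p))} (h1 : ¬ InW1 n e M' p hb hnM A P)
    (h2 : ¬ InW2 n e M' p hb hnM A P)
    (hf : ¬ Finite ↥(nodePairs n e M' p hpM hb hnM A hA)) :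
    rN n e M' p hpM hb hnM A hA P = Sum.inl (Sum.inl (r1 n e M' p hpM hb hnM A hA P)) := by
  unfold rN
  rw [dif_neg h1, dif_neg h2, dif_neg hf]

/-- **(c1)**: a point of the first component in the image of `rN` is `r1 P = rV (resAlpha P)`. -/
theorem rN_eq_inl_inl {P : Place Qbar ↥(Fbar (M' * p))} {Q : Place (kA A) (Ft M' A)}
    (h : rN n e M' p hpM hb hnM A hA P = Sum.inl (Sum.inl Q)) :
    r1 n e M' p hpM hb hnM A hA P = Q := by
  by_cases h1 : InW1 n e M' p hb hnM A P
  · rw [rN_of_inW1 n e M' p hpM hb hnM A hA h1] at h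
    exact Sum.inl_injective (Sum.inl_injective h)
  · by_cases h2 : InW2 n e M' p hb hnM A P
    · rw [rN_of_inW2 n e M' p hpM hb hnM A hA h1 h2] at h
      exact absurd (Sum.inl_injective h) Sum.inr_ne_inl
    · by_cases hf : Finite ↥(nodePairs n e M' p hpM hb hnM A hA)
      · rw [rN_of_node n e M' p hpM hb hnM A hA h1 h2 hf] at h
        exact absurd h Sum.inr_ne_inl
      · rw [rN_of_junk n e M' p hpM hb hnM A hA h1 h2 hf] at h
        exact Sum.inl_injective (Sum.inl_injective h)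

/-- a point of the second component in the image of `rN` is `r2 P`, and `P ∈ W₂ ∖ W₁`. -/
theorem rN_eq_inl_inr {P : Place Qbar ↥(Fbar (M' * p))} {Q : Place (kA A) (Ft M' A)}
    (h : rN n e M' p hpM hb hnM A hA P = Sum.inl (Sum.inr Q)) :
    r2 n e M' p hpM hb hnM A hA P = Q ∧ ¬ InW1 n e M' p hb hnM A P ∧
      InW2 n e M' p hb hnM A P := by
  by_cases h1 : InW1 n e M' p hb hnM A P
  · rw [rN_of_inW1 n e M' p hpM hb hnM A hA h1] at h
    exact absurd (Sum.inl_injective h) Sum.inl_ne_inr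
  · by_cases h2 : InW2 n e M' p hb hnM A P
    · rw [rN_of_inW2 n e M' p hpM hb hnM A hA h1 h2] at h
      exact ⟨Sum.inr_injective (Sum.inl_injective h), h1, h2⟩
    · by_cases hf : Finite ↥(nodePairs n e M' p hpM hb hnM A hA)
      · rw [rN_of_node n e M' p hpM hb hnM A hA h1 h2 hf] at h
        exact absurd h Sum.inr_ne_inl
      · rw [rN_of_junk n e M' p hpM hb hnM A hA h1 h2 hf] at h
        exact absurd (Sum.inl_injective h) Sum.inl_ne_inr

/-- **(c3)**: a node in the image of `rN` has the branch places `r1 P`, `r2 P`, and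
`P ∉ W₁ ∪ W₂`. -/
theorem rN_eq_inr {P : Place Qbar ↥(Fbar (M' * p))} {j : Fin (sN n e M' p hpM hb hnM A hA)}
    (h : rN n e M' p hpM hb hnM A hA P = Sum.inr j) :
    (nodesN n e M' p hpM hb hnM A hA).ν₁ j = r1 n e M' p hpM hb hnM A hA P ∧
      (nodesN n e M' p hpM hb hnM A hA).ν₂ j = r2 n e M' p hpM hb hnM A hA P ∧
      ¬ InW1 n e M' p hb hnM A P ∧ ¬ InW2 n e M' p hb hnM A P := by
  by_cases h1 : InW1 n e M' p hb hnM A P
  · rw [rN_of_inW1 n e M' p hpM hb hnM A hA h1] at h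
    exact absurd h Sum.inl_ne_inr
  · by_cases h2 : InW2 n e M' p hb hnM A P
    · rw [rN_of_inW2 n e M' p hpM hb hnM A hA h1 h2] at h
      exact absurd h Sum.inl_ne_inr
    · by_cases hf : Finite ↥(nodePairs n e M' p hpM hb hnM A hA)
      · rw [rN_of_node n e M' p hpM hb hnM A hA h1 h2 hf] at h
        have hj : j = Finite.equivFin ↥(nodePairs n e M' p hpM hb hnM A hA)
            ⟨(r1 n e M' p hpM hb hnM A hA P, r2 n e M' p hpM hb hnM A hA P), P, h1, h2, rfl⟩ :=
          (Sum.inr_injective h).symm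
        have hnf : nodeFin n e M' p hpM hb hnM A hA j =
            ⟨(r1 n e M' p hpM hb hnM A hA P, r2 n e M' p hpM hb hnM A hA P), P, h1, h2, rfl⟩ := by
          rw [hj]
          unfold nodeFin
          rw [Equiv.symm_apply_apply]
        refine ⟨?_, ?_, h1, h2⟩
        · show (nodeFin n e M' p hpM hb hnM A hA j).1.1 = _
          rw [hnf]
        · show (nodeFin n e M' p hpM hb hnM A hA j).1.2 = _
          rw [hnf]
      · rw [rN_of_junk n e M' p hpM hb hnM A hA h1 h2 hf] at h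
        exact absurd h Sum.inl_ne_inr

end Fermat.Agent.ES.W33.RNUnfold20
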