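/-
Programme W (S33), chapter (Ga)/(I-c) + (B3′), brick (Ic-3) "NODE DICTIONARY", part 4 (helper11):
**THE NODE DICTIONARY AT THE INSTANCE** — helper10's `IcDict10.NodeDictHyp` for the set of places
`Node P := rN 4 8 M' p … P = Sum.inr j` of `NodalDefs3` (v3), with NO hypothesis left.

`p` odd, `p ∤ M'`, `4 ∣ M'`, `A ≤ ℚ̄` over `p`; `K` a large normal number field, `π` a uniformiser of
`A ∩ K`, `B0 = chart (A ∩ K) tN`, `B1 = chart (A ∩ K) tN⁻¹` (`ModelDefs9`).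

* `value_hxN`          : values do not depend on the generator (`hxN` vs `isGen_j`);
* `offBranch_data`     : `OffBranch π B O_j (centreAt h)` gives `e ∈ B ∩ π O_j` with `(bc e)(P) ∈ Aˣ`;
* **`inW1_of_offBranch`** (T1) : the centre of `P` off the SECOND branch ⇒ `InW1 P`;
* **`inW2_of_offBranch`** (T2) : the centre of `P` off the FIRST branch ⇒ `InW2 P`
  (both charts: any `sK` with `bc sK` a chart coordinate; `NoNodeQbar1.rho_j_bc_eq_zero`);
* `chart_inv_of_not`, `inCh_inv_of_not` : a place outside the chart of `s` lies in the chart of `s⁻¹`,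
  and `s⁻¹` lies in its centre there;
* **`inCh_of_node`** (N0) : a place in neither `W₁` nor `W₂` lies in the chart `0`
  (`PowQuot1.no_node_four`: no node over `t = ∞`);
* **`nodeDict_rN`** : `∃ K₁, ∀ j, NodeDictHyp p M' A (fun P => rN … P = Sum.inr j) K₁`
  (same centre: `RNUnfold20.rN_eq_inr` + `NodeDictT11.chiAt_eq_of_r1_eq` + `CompRedN16.surjItems_four`);
* **`ic_rN`** : the body of (I-c) at the node `j` (`IcDict10.ic_of_dict`).
-/
import Mathlib
import Fermat.Agent.ES.W33.NodeDictT11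
import Fermat.Agent.ES.W33.NoNodeQbar1
import Fermat.Agent.ES.W33.RNUnfold20
import Fermat.Agent.ES.W33.IcDict10

set_option autoImplicit false
set_option synthInstance.maxHeartbeats 400000
set_option linter.unusedSectionVars false

open HahnSeries ModularCurve AlgebraicCurve

noncomputable section

namespace Fermat.Agent.ES.W33.NodeDictI11

open Fermat.Agent.X0 Fermat.Agent.X0.FF Fermat.Agent.RED.Interface4 Fermat.Agent.RED.DESC
  Fermat.Agent.RED.DESC.PlaceExtend27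
  Fermat.Agent.RED.BASE.Interface12 Fermat.Agent.RED.BASE.Hauptmodul12
  Fermat.Agent.RED.BASE.EtaQuot12
  Fermat.Agent.RED.PUR.GaussGen8 Fermat.Agent.RED.PUR.ChartGeneric22
  Fermat.Agent.ES.RED.PlaceValue13 Fermat.Agent.ES.RED.Contract8 Fermat.Agent.ES.RED.TwoCharts8
  Fermat.Agent.ES.N34.NodalCore13 Fermat.Agent.ES.N34.NodeAsm6 Fermat.Agent.ES.N34.ModelDefs9
  Fermat.Agent.ES.V19.InstNames3
  Fermat.Agent.ES.W33.NodeCentre11 Fermat.Agent.ES.W33.NodeDict11 Fermat.Agent.ES.W33.NodeDictT11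
  Fermat.Agent.ES.W33.NodalDefs3 Fermat.Agent.ES.W33.CompRedN16 Fermat.Agent.ES.W33.IcDict10

attribute [local instance 5000] HahnSeries.powerSeriesAlgebra SubalgebraClass.toAlgebra

/-! ### generic: the chart of the inverse coordinate -/

section Generic

variable {L F : Type*} [Field L] [IsAlgClosed L] [Field F] [Algebra L F] {x₀ : F}

/-- values at equal functions. -/
theorem valueHom_congr_elt (hx : IsGen L x₀) (P : Place L F) {a b : F} (hab : a = b)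
    (ha : a ∈ P.toValuationSubring) (hb : b ∈ P.toValuationSubring) :
    valueHom hx P ⟨a, ha⟩ = valueHom hx P ⟨b, hb⟩ := by
  subst hab
  rfl

/-- a place outside the chart of `s` lies in the chart of `s⁻¹`, and the value of `s⁻¹` there is not
a unit of `A`. -/
theorem chart_inv_of_not (hx : IsGen L x₀) (A : ValuationSubring L) (P : Place L F) (s : F)
    (hnot : ¬ ∃ hs : s ∈ P.toValuationSubring, valueHom hx P ⟨s, hs⟩ ∈ A) :
    ∃ hs' : s⁻¹ ∈ P.toValuationSubring, valueHom hx P ⟨s⁻¹, hs'⟩ ∈ A ∧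
      ¬ (valueHom hx P ⟨s⁻¹, hs'⟩ ≠ 0 ∧ (valueHom hx P ⟨s⁻¹, hs'⟩)⁻¹ ∈ A) := by
  by_cases hs : s ∈ P.toValuationSubring
  · have hc : valueHom hx P ⟨s, hs⟩ ∉ A := fun hc => hnot ⟨hs, hc⟩
    have h0 : valueHom hx P ⟨s, hs⟩ ≠ 0 := by
      intro h; apply hc; rw [h]; exact A.zero_mem
    obtain ⟨hinv, hval⟩ := TwoCharts.inv_mem_and_value (hx := hx) hs h0
    refine ⟨hinv, ?_, ?_⟩
    · rw [hval]
      exact (A.mem_or_inv_mem _).resolve_left hc
    · rintro ⟨-, h2⟩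
      rw [hval, inv_inv] at h2
      exact hc h2
  · have hinv : s⁻¹ ∈ P.toValuationSubring :=
      (P.toValuationSubring.mem_or_inv_mem s).resolve_left hs
    have h0 : valueHom hx P ⟨s⁻¹, hinv⟩ = 0 := by
      by_contra h0
      obtain ⟨hinv', -⟩ := TwoCharts.inv_mem_and_value (hx := hx) hinv h0
      apply hs
      rwa [inv_inv] at hinv'
    refine ⟨hinv, ?_, ?_⟩
    · rw [h0]; exact A.zero_mem
    · rintro ⟨h1, -⟩
      exact h1 h0

end Generic

/-! ### the chart of the inverse coordinate at a level `K` -/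

section Level

variable {N : ℕ} [NeZero N] {A : ValuationSubring Qbar} {K : IntermediateField ℚ Qbar}

/-- `InCh` from a description of `bc sK`. -/
theorem inCh_of_eq {sK : FK N K} {P : Place Qbar ↥(Fbar N)} {s : ↥(Fbar N)}
    (hs : baseChangeHom N K sK = s) (hsP : s ∈ P.toValuationSubring)
    (hv : valueHom (Fermat.Agent.RED.TOP.FbarFacts20.isGen_j N) P ⟨s, hsP⟩ ∈ A) :
    InCh N A K sK P := by
  subst hs
  exact ⟨hsP, hv⟩

/-- a place outside the chart of `sK` lies in the chart of `sK⁻¹`, and `sK⁻¹` lies in its centre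
there. -/
theorem inCh_inv_of_not {sK : FK N K} {P : Place Qbar ↥(Fbar N)} (hnot : ¬ InCh N A K sK P) :
    ∃ h1 : InCh N A K sK⁻¹ P,
      (⟨sK⁻¹, self_mem_chart sK⁻¹⟩ : ↥(chart ↥(AK A K) sK⁻¹)) ∈ centreAt h1 := by
  obtain ⟨hs', hA', hnu⟩ := chart_inv_of_not (Fermat.Agent.RED.TOP.FbarFacts20.isGen_j N) A P
    (baseChangeHom N K sK) hnot
  have hinv : baseChangeHom N K sK⁻¹ = (baseChangeHom N K sK)⁻¹ := map_inv₀ _ _
  have h1 : InCh N A K sK⁻¹ P := inCh_of_eq hinv hs' hA'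
  refine ⟨h1, ?_⟩
  by_contra hne
  obtain ⟨hv0, hvinv⟩ := (not_mem_centreAt_iff h1 ⟨sK⁻¹, self_mem_chart sK⁻¹⟩).mp hne
  have key := valueHom_congr_elt (Fermat.Agent.RED.TOP.FbarFacts20.isGen_j N) P hinv
    (regAt_chart h1 _ (self_mem_chart sK⁻¹)).1 hs'
  apply hnu
  constructor
  · rw [← key]; exact hv0
  · rw [← key]; exact hvinv

end Level

/-! ### the instance -/

variable (M' : ℕ) [NeZero M'] (p : ℕ) [Fact p.Prime] [NeZero p] (hpM : ¬ p ∣ M')
  (hb : BaseHyp 4 8) (hnM : 4 ∣ M') (A : ValuationSubring Qbar) (hA : A.LiesOverPrime p)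
  {K : IntermediateField ℚ Qbar}

/-- values do not depend on the generator. -/
theorem value_hxN (P : Place Qbar ↥(Fbar (M' * p))) (z : ↥P.toValuationSubring) :
    valueHom (hxN 4 8 M' p hb hnM) P z =
      valueHom (Fermat.Agent.RED.TOP.FbarFacts20.isGen_j (M' * p)) P z := by
  rw [valueHom_congr (hxN 4 8 M' p hb hnM) P (Fermat.Agent.RED.TOP.FbarFacts20.isGen_j (M' * p))]

/-- if the centre of `P` lies off the branch `O_j`, some `e ∈ B ∩ π O_j` has a unit value at `P`. -/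
theorem offBranch_data {sK : FK (M' * p) K} {P : Place Qbar ↥(Fbar (M' * p))}
    (h : InCh (M' * p) A K sK P) (π : ↥(AK A K)) (Oj : ValuationSubring ↥(FK (M' * p) K))
    (hoff : OffBranch π (chart ↥(AK A K) sK) Oj (centreAt h)) :
    ∃ e : FK (M' * p) K, (∃ c ∈ Oj, e = algebraMap ↥(AK A K) ↥(FK (M' * p) K) π * c) ∧
      baseChangeHom (M' * p) K e ∈ chart ↥A (baseChangeHom (M' * p) K sK) ∧
      ∃ he : baseChangeHom (M' * p) K e ∈ P.toValuationSubring,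
        valueHom (hxN 4 8 M' p hb hnM) P ⟨baseChangeHom (M' * p) K e, he⟩ ∈ A ∧
        (valueHom (hxN 4 8 M' p hb hnM) P ⟨baseChangeHom (M' * p) K e, he⟩)⁻¹ ∈ A ∧
        valueHom (hxN 4 8 M' p hb hnM) P ⟨baseChangeHom (M' * p) K e, he⟩ ≠ 0 := by
  obtain ⟨e, hne, hc⟩ := hoff
  have hreg := regAt_chart h e e.2
  obtain ⟨hv0, hvinv⟩ := (not_mem_centreAt_iff h e).mp hne
  refine ⟨(e : FK (M' * p) K), hc,
    Fermat.Agent.ES.RED.ChartUnion1.baseChangeHom_mem_chart A (M' * p) K sK e e.2, hreg.1, ?_, ?_, ?_⟩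
  · rw [value_hxN]; exact hreg.2
  · rw [value_hxN]; exact hvinv
  · rw [value_hxN]; exact hv0

/-- **(T1)**: the centre of `P` off the SECOND branch ⇒ `P ∈ W₁`. -/
theorem inW1_of_offBranch (hp2 : p ≠ 2) (hpM : ¬ p ∣ M') (hA : A.LiesOverPrime p)
    {π : ↥(AK A K)} (hπ : IsUnif (AK A K) π) (hE : FK (M' * p) K ≤ fracField (AK A K))
    {sK : FK (M' * p) K} (hsK : IsChartCoord 4 8 M' p hb hnM (baseChangeHom (M' * p) K sK))
    {P : Place Qbar ↥(Fbar (M' * p))} (h : InCh (M' * p) A K sK P)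
    (hoff : OffBranch π (chart ↥(AK A K) sK) (Fermat.Agent.ES.N34.ModelDefs9.O2 M' p hπ hE)
      (centreAt h)) :
    InW1 4 8 M' p hb hnM A P := by
  obtain ⟨e, hc, hch, he, hv1, hv2, hv3⟩ := offBranch_data M' p hb hnM A h π _ hoff
  obtain ⟨hs, hsA⟩ := h
  obtain ⟨hX, hρ⟩ := Fermat.Agent.ES.W33.NoNodeQbar1.rho2_bc_eq_zero M' p A hp2 hpM hnM hA hπ hE e hc
  exact ⟨baseChangeHom (M' * p) K sK, hsK, ⟨hs, by rw [value_hxN]; exact hsA⟩,
    baseChangeHom (M' * p) K e, hch, ⟨hX, hρ⟩, he, hv1, hv2, hv3⟩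

/-- **(T2)**: the centre of `P` off the FIRST branch ⇒ `P ∈ W₂`. -/
theorem inW2_of_offBranch (hp2 : p ≠ 2) (hpM : ¬ p ∣ M') (hA : A.LiesOverPrime p)
    {π : ↥(AK A K)} (hπ : IsUnif (AK A K) π) (hE : FK (M' * p) K ≤ fracField (AK A K))
    {sK : FK (M' * p) K} (hsK : IsChartCoord 4 8 M' p hb hnM (baseChangeHom (M' * p) K sK))
    {P : Place Qbar ↥(Fbar (M' * p))} (h : InCh (M' * p) A K sK P)
    (hoff : OffBranch π (chart ↥(AK A K) sK) (Fermat.Agent.ES.N34.ModelDefs9.O1 M' p hπ hE)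
      (centreAt h)) :
    InW2 4 8 M' p hb hnM A P := by
  obtain ⟨e, hc, hch, he, hv1, hv2, hv3⟩ := offBranch_data M' p hb hnM A h π _ hoff
  obtain ⟨hs, hsA⟩ := h
  obtain ⟨hX, hρ⟩ := Fermat.Agent.ES.W33.NoNodeQbar1.rho1_bc_eq_zero M' p A hp2 hpM hnM hA hπ hE e hc
  exact ⟨baseChangeHom (M' * p) K sK, hsK, ⟨hs, by rw [value_hxN]; exact hsA⟩,
    baseChangeHom (M' * p) K e, hch, ⟨hX, hρ⟩, he, hv1, hv2, hv3⟩

/-- `bc tN_K` is the chart coordinate `t`. -/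
theorem isChartCoord_tN (ht : tq (↥K) 4 8 ∈ FK M' K) :
    IsChartCoord 4 8 M' p hb hnM
      (baseChangeHom (M' * p) K (Fermat.Agent.ES.N34.ModelDefs9.tN p ht)) :=
  Or.inl (bc_tN 4 8 M' p hb hnM K ht)

/-- `bc tN_K⁻¹` is the chart coordinate `t⁻¹`. -/
theorem isChartCoord_tN_inv (ht : tq (↥K) 4 8 ∈ FK M' K) :
    IsChartCoord 4 8 M' p hb hnM
      (baseChangeHom (M' * p) K (Fermat.Agent.ES.N34.ModelDefs9.tN p ht)⁻¹) := by
  right
  rw [map_inv₀, bc_tN 4 8 M' p hb hnM K ht]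

/-- **(N0)**: a place in neither `W₁` nor `W₂` lies in the chart `0` (no node over `t = ∞`). -/
theorem inCh_of_node (hp2 : p ≠ 2) (hpM : ¬ p ∣ M') (hA : A.LiesOverPrime p)
    {π : ↥(AK A K)} (hπ : IsUnif (AK A K) π) (hE : FK (M' * p) K ≤ fracField (AK A K))
    (ht : tq (↥K) 4 8 ∈ FK M' K)
    (hno : ∀ 𝔪 : Ideal ↥(B1 A p ht), 𝔪.IsPrime →
      ¬ OffBranch π (B1 A p ht) (Fermat.Agent.ES.N34.ModelDefs9.O1 M' p hπ hE) 𝔪 →
      ¬ OffBranch π (B1 A p ht) (Fermat.Agent.ES.N34.ModelDefs9.O2 M' p hπ hE) 𝔪 →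
      ∀ x : ↥(B1 A p ht),
        (x : ↥(FK (M' * p) K)) = (Fermat.Agent.ES.N34.ModelDefs9.tN p ht)⁻¹ → x ∉ 𝔪)
    {P : Place Qbar ↥(Fbar (M' * p))} (h1 : ¬ InW1 4 8 M' p hb hnM A P)
    (h2 : ¬ InW2 4 8 M' p hb hnM A P) :
    InCh (M' * p) A K (Fermat.Agent.ES.N34.ModelDefs9.tN p ht) P := by
  by_contra hnot
  obtain ⟨hc, hmem⟩ := inCh_inv_of_not hnot
  refine hno (centreAt hc) (centreAt_isPrime hc) ?_ ?_ _ rfl hmem
  · intro hoff
    exact h2 (inW2_of_offBranch M' p hb hnM A hp2 hpM hA hπ hE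
      (isChartCoord_tN_inv M' p hb hnM ht) hc hoff)
  · intro hoff
    exact h1 (inW1_of_offBranch M' p hb hnM A hp2 hpM hA hπ hE
      (isChartCoord_tN_inv M' p hb hnM ht) hc hoff)

set_option maxHeartbeats 1600000 in
/-- **THE NODE DICTIONARY at the instance**: `IcDict10.NodeDictHyp` for the places of the node `j`,
above ONE number field `K₁` (independent of `j`). -/
theorem nodeDict_rN (hp2 : p ≠ 2) (hpM : ¬ p ∣ M') (hA : A.LiesOverPrime p) :
    ∃ K₁ : IntermediateField ℚ Qbar, FiniteDimensional ℚ K₁ ∧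
      ∀ j : Fin (sN 4 8 M' p hpM hb hnM A hA),
        NodeDictHyp p M' A (fun P => rN 4 8 M' p hpM hb hnM A hA P = Sum.inr j) K₁ := by
  have hp : p.Prime := Fact.out
  obtain ⟨Ka, hKa, Ha⟩ := Fermat.Agent.ES.W33.PowQuot1.no_node_four M' p A hp hpM hp2 hnM hA
  obtain ⟨Kb, hKb, Hb⟩ := surjItems_four (A := A) hp hpM hp2 hnM hA
  haveI := hKa
  haveI := hKb
  refine ⟨Ka ⊔ Kb, inferInstance, fun j K _ hfd hle ht hE π hπ P hP => ?_⟩
  obtain ⟨ht', hE', hnn⟩ := Ha K hfd (le_sup_left.trans hle)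
  have hno := (hnn π hπ).2
  have hsurj := (Hb K hfd (le_sup_right.trans hle) ht hE π hπ).1.1
  -- the places of the node
  have key : ∀ P' : Place Qbar ↥(Fbar (M' * p)),
      rN 4 8 M' p hpM hb hnM A hA P' = Sum.inr j →
      ∃ h' : InCh (M' * p) A K (Fermat.Agent.ES.N34.ModelDefs9.tN p ht) P',
        ¬ OffBranch π (chart ↥(AK A K) (Fermat.Agent.ES.N34.ModelDefs9.tN p ht))
          (Fermat.Agent.ES.N34.ModelDefs9.O1 M' p hπ hE) (centreAt h') ∧
        ¬ OffBranch π (chart ↥(AK A K) (Fermat.Agent.ES.N34.ModelDefs9.tN p ht))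
          (Fermat.Agent.ES.N34.ModelDefs9.O2 M' p hπ hE) (centreAt h') ∧
        (nodesN 4 8 M' p hpM hb hnM A hA).ν₁ j = r1 4 8 M' p hpM hb hnM A hA P' := by
    intro P' hP'
    obtain ⟨hν, -, hW1, hW2⟩ :=
      Fermat.Agent.ES.W33.RNUnfold20.rN_eq_inr 4 8 M' p hpM hb hnM A hA hP'
    have h' := inCh_of_node M' p hb hnM A hp2 hpM hA hπ hE ht hno hW1 hW2
    refine ⟨h', fun hoff => ?_, fun hoff => ?_, hν⟩
    · exact hW2 (inW2_of_offBranch M' p hb hnM A hp2 hpM hA hπ hE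
        (isChartCoord_tN M' p hb hnM ht) h' hoff)
    · exact hW1 (inW1_of_offBranch M' p hb hnM A hp2 hpM hA hπ hE
        (isChartCoord_tN M' p hb hnM ht) h' hoff)
  obtain ⟨h, hn1, hn2, hν⟩ := key P hP
  refine ⟨h, hn1, hn2, fun P' hP' => ?_⟩
  obtain ⟨h', hn1', -, hν'⟩ := key P' hP'
  refine ⟨h', centreAt_eq_of_chiAt_eq h' h ?_⟩
  exact chiAt_eq_of_r1_eq 4 8 M' p hpM hb hnM A hA K ht hE hπ hsurj h' h hn1' hn1
    (hν'.symm.trans hν)

set_option maxHeartbeats 1600000 in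
/-- **the body of (I-c) at the node `j`**: a place through the node `j` is fixed by inertia, or has a
Lemma-A element. -/
theorem ic_rN (hp2 : p ≠ 2) (hpM : ¬ p ∣ M') (hA : A.LiesOverPrime p)
    (j : Fin (sN 4 8 M' p hpM hb hnM A hA)) (P : Place Qbar ↥(Fbar (M' * p)))
    (hP : rN 4 8 M' p hpM hb hnM A hA P = Sum.inr j) :
    (∀ τ ∈ A.inertiaSubgroupIn ℚ,
        Fermat.Agent.ES.N34.GalDescent1.galBar (M' * p) τ • P = P) ∨
      ∃ ξ : ↥(Fbar (M' * p)), P.ord ξ = 1 ∧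
        ∀ P' : Place Qbar ↥(Fbar (M' * p)), P' ≠ P →
          rN 4 8 M' p hpM hb hnM A hA P' = Sum.inr j → P'.ord ξ = 0 := by
  obtain ⟨K₁, hK₁, hdict⟩ := nodeDict_rN M' p hb hnM A hp2 hpM hA
  haveI := hK₁
  exact ic_of_dict Fact.out hpM hp2 hnM hA _ K₁ (hdict j) P hP

end Fermat.Agent.ES.W33.NodeDictI11
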