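/-
Programme W (S33), chapter (Ga), instance literal (I-c), helper11: **`GaExit13.Ic` AT THE INSTANCE
`(n, e) = (4, 8)`, NO HYPOTHESIS LEFT** (`p` odd, `p ∤ M'`, `4 ∣ M'`, `A ≤ ℚ̄` over `p`).

`NodeDictI11.ic_rN` (the node dictionary `NodeDictI11.nodeDict_rN` fed into helper10's
`IcDict10.ic_of_dict`) restated with `rhoG M' p = arithmeticGalois … = galBar (M' * p)`.
-/
import Mathlib
import Fermat.Agent.ES.W33.NodeDictI11
import Fermat.Agent.ES.W33.GaExit13

set_option autoImplicit false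
set_option synthInstance.maxHeartbeats 400000
set_option linter.unusedSectionVars false

open ModularCurve AlgebraicCurve

noncomputable section

namespace Fermat.Agent.ES.W33.IcInst11

open Fermat.Agent.RED.Interface4 Fermat.Agent.RED.BASE.Interface12 Fermat.Agent.RED.BASE.Hauptmodul12
  Fermat.Agent.ES.W33.NodalDefs3 Fermat.Agent.ES.W33.GaExit13

variable (M' : ℕ) [NeZero M'] (p : ℕ) [Fact p.Prime] [NeZero p] (hpM : ¬ p ∣ M')
  (hb : BaseHyp 4 8) (hnM : 4 ∣ M') (A : ValuationSubring Qbar) (hA : A.LiesOverPrime p)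

/-- **(I-c) at the instance.** -/
theorem ic_four (hp2 : p ≠ 2) : Ic 4 8 M' p hpM hb hnM A hA := by
  intro j P hP
  exact Fermat.Agent.ES.W33.NodeDictI11.ic_rN M' p hb hnM A hp2 hpM hA j P hP

end Fermat.Agent.ES.W33.IcInst11
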