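/-
Programme W (S33), chapter (B3′), leaf (Q3) at the instance — helper9:
**the fields `L4` and `e_unit` of helper7's `LocLevelsN7.LocLevelHyp` for the localised charts
`LocSatInstN9.locChart₁/₂`** (every element of `F̃` is a fraction of reductions of chart elements).

GENERIC (`exists_frac₁/₂`, context of `LocSatN9`): `S₀` a nodal chart inside two Gauss rings
`(O₁, r₁)`, `(O₂, r₂)` with scaling and `A` of rank one, `e ∈ S₀.B` with `ρ₁ e ≠ 0`, `ρ₂ e = 0`.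
Then for every `f ∈ O₁ ⊓ O₂` there are `a b : ↥S₀.B` with `ρ₁ b ≠ 0` and `r₁ f * ρ₁ b = ρ₁ a`
(write `f = a₀ / b₀` in the chart, `e`-saturate the denominator, pair-saturate the numerator).

INSTANCE: `y = rho1 (α x)` with `α x ∈ O1 ⊓ O2` (`FrickeBar8.exists_isRedOf`, `rho1_alpha`,
`rho2_alpha`), resp. `y = rho2 (β x)` with `x̄ = wBar y` (`rho2_beta`, `rho1_beta`, `wBar_wBar`):
* **`L4₁`, `L4₂`** : `∀ y : Ft M' A, ∃ a b : ↥S.B, S.red b ≠ 0 ∧ y * S.red b = S.red a` for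
  `S := locChart₁ …` resp. `locChart₂ …` — the field `L4` VERBATIM;
* `e_unit₁`, `e_unit₂` : the field `e_unit` (the localising element is a unit of `S.B`).
-/
import Mathlib
import Fermat.Agent.ES.W33.LocSatInstN9
import Fermat.Agent.ES.W33.FrickeBar8

set_option autoImplicit false
set_option synthInstance.maxHeartbeats 400000
set_option linter.unusedSectionVars false

open HahnSeries ModularCurve AlgebraicCurve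

noncomputable section

namespace Fermat.Agent.ES.W33.LocL4N9

open Fermat.Agent.X0 Fermat.Agent.X0.FF Fermat.Agent.ES.RED.Contract8
  Fermat.Agent.ES.W33.NodalChart20 Fermat.Agent.ES.W33.ContractP3
  Fermat.Agent.ES.W33.LocChartGenN9 Fermat.Agent.ES.W33.LocSatN9

/-! ### generic -/

section Generic

variable {L : Type*} [Field L] [IsAlgClosed L] {A : ValuationSubring L}
variable {F : Type*} [Field F] [Algebra L F] {x : F} {hx : IsGen L x}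
variable {Ft₁ Ft₂ : Type*} [Field Ft₁] [Algebra (kA A) Ft₁] [Field Ft₂] [Algebra (kA A) Ft₂]
variable (S₀ : NodalChart A hx Ft₁ Ft₂) (O₁ O₂ : Subring F) (r₁ : ↥O₁ →+* Ft₁) (r₂ : ↥O₂ →+* Ft₂)
  (hB₁ : S₀.B ≤ O₁) (hB₂ : S₀.B ≤ O₂)
  (hr₁ : ∀ b : ↥S₀.B, r₁ ⟨(b : F), hB₁ b.2⟩ = S₀.ρ₁ b)
  (hr₂ : ∀ b : ↥S₀.B, r₂ ⟨(b : F), hB₂ b.2⟩ = S₀.ρ₂ b)

include hr₁ hr₂ in
/-- the pair saturation of the chart ring inside `O₁ ⊓ O₂`. -/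
theorem hBsat (c : ↥A) (g : F) (hc0 : c ≠ 0) (hg₁ : g ∈ O₁) (hg₂ : g ∈ O₂)
    (hcg : algebraMap L F (c : L) * g ∈ S₀.B) : g ∈ S₀.B := by
  have hrc₁ : ∀ a : ↥A, r₁ ⟨algebraMap L F (a : L), hB₁ (S₀.const_mem a)⟩ =
      algebraMap (kA A) Ft₁ (resA A a) := fun a => (hr₁ (S₀.const a)).trans (S₀.ρ₁_const a)
  have hrc₂ : ∀ a : ↥A, r₂ ⟨algebraMap L F (a : L), hB₂ (S₀.const_mem a)⟩ =
      algebraMap (kA A) Ft₂ (resA A a) := fun a => (hr₂ (S₀.const a)).trans (S₀.ρ₂_const a)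
  exact sat_of_content S₀.B O₁ O₂ r₁ r₂ S₀.const_mem hB₁ hB₂ hrc₁ hrc₂
    (content_chart S₀ O₁ O₂ r₁ r₂ hB₁ hB₂ hr₁ hr₂) c g hc0 hg₁ hg₂ hcg

include hr₁ hr₂ in
/-- **fractions on the first component**, from an `e`-saturation `hsat` for `ρ₁`. -/
theorem exists_frac₁ (e : ↥S₀.B) (he0 : (e : F) ≠ 0)
    (hsat : ∀ b : ↥S₀.B, b ≠ 0 → ∃ (k : ℕ) (c : ↥A) (b' : ↥S₀.B),
      (e : F) ^ k * (b : F) = algebraMap L F (c : L) * (b' : F) ∧ S₀.ρ₁ b' ≠ 0)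
    (f : F) (hf₁ : f ∈ O₁) (hf₂ : f ∈ O₂) :
    ∃ a b : ↥S₀.B, S₀.ρ₁ b ≠ 0 ∧ r₁ ⟨f, hf₁⟩ * S₀.ρ₁ b = S₀.ρ₁ a := by
  obtain ⟨a₀, b₀, hb₀, hab⟩ := S₀.frac f
  obtain ⟨k, c, b', hkb, hb'⟩ := hsat b₀ hb₀
  have hb₀F : (b₀ : F) ≠ 0 := fun h => hb₀ (Subtype.ext h)
  have hc0 : c ≠ 0 := by
    rintro rfl
    have h0 : (e : F) ^ k * (b₀ : F) = 0 := by
      rw [hkb]
      simp
    rcases mul_eq_zero.mp h0 with h | h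
    · exact pow_ne_zero k he0 h
    · exact hb₀F h
  have hcL : ((c : ↥A) : L) ≠ 0 := fun h => hc0 (Subtype.ext h)
  have hcF : algebraMap L F ((c : ↥A) : L) ≠ 0 := by rw [Ne, map_eq_zero]; exact hcL
  -- the numerator
  have hcg : algebraMap L F ((c : ↥A) : L) * (f * (b' : F)) = (e : F) ^ k * (a₀ : F) := by
    rw [← hab]
    calc algebraMap L F ((c : ↥A) : L) * (f * (b' : F))
        = f * (algebraMap L F ((c : ↥A) : L) * (b' : F)) := by ring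
      _ = f * ((e : F) ^ k * (b₀ : F)) := by rw [hkb]
      _ = (e : F) ^ k * (f * (b₀ : F)) := by ring
  have hmem : f * (b' : F) ∈ S₀.B := by
    refine hBsat S₀ O₁ O₂ r₁ r₂ hB₁ hB₂ hr₁ hr₂ c _ hc0 (O₁.mul_mem hf₁ (hB₁ b'.2))
      (O₂.mul_mem hf₂ (hB₂ b'.2)) ?_
    rw [hcg]
    exact S₀.B.mul_mem (S₀.B.pow_mem e.2 k) a₀.2
  refine ⟨⟨f * (b' : F), hmem⟩, b', hb', ?_⟩
  rw [← hr₁ b', ← hr₁ ⟨f * (b' : F), hmem⟩, ← map_mul]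
  rfl

include hr₁ hr₂ in
/-- **fractions on the second component**, from an `e`-saturation `hsat` for `ρ₂`. -/
theorem exists_frac₂ (e : ↥S₀.B) (he0 : (e : F) ≠ 0)
    (hsat : ∀ b : ↥S₀.B, b ≠ 0 → ∃ (k : ℕ) (c : ↥A) (b' : ↥S₀.B),
      (e : F) ^ k * (b : F) = algebraMap L F (c : L) * (b' : F) ∧ S₀.ρ₂ b' ≠ 0)
    (f : F) (hf₁ : f ∈ O₁) (hf₂ : f ∈ O₂) :
    ∃ a b : ↥S₀.B, S₀.ρ₂ b ≠ 0 ∧ r₂ ⟨f, hf₂⟩ * S₀.ρ₂ b = S₀.ρ₂ a := by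
  obtain ⟨a₀, b₀, hb₀, hab⟩ := S₀.frac f
  obtain ⟨k, c, b', hkb, hb'⟩ := hsat b₀ hb₀
  have hb₀F : (b₀ : F) ≠ 0 := fun h => hb₀ (Subtype.ext h)
  have hc0 : c ≠ 0 := by
    rintro rfl
    have h0 : (e : F) ^ k * (b₀ : F) = 0 := by
      rw [hkb]
      simp
    rcases mul_eq_zero.mp h0 with h | h
    · exact pow_ne_zero k he0 h
    · exact hb₀F h
  have hcg : algebraMap L F ((c : ↥A) : L) * (f * (b' : F)) = (e : F) ^ k * (a₀ : F) := by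
    rw [← hab]
    calc algebraMap L F ((c : ↥A) : L) * (f * (b' : F))
        = f * (algebraMap L F ((c : ↥A) : L) * (b' : F)) := by ring
      _ = f * ((e : F) ^ k * (b₀ : F)) := by rw [hkb]
      _ = (e : F) ^ k * (f * (b₀ : F)) := by ring
  have hmem : f * (b' : F) ∈ S₀.B := by
    refine hBsat S₀ O₁ O₂ r₁ r₂ hB₁ hB₂ hr₁ hr₂ c _ hc0 (O₁.mul_mem hf₁ (hB₁ b'.2))
      (O₂.mul_mem hf₂ (hB₂ b'.2)) ?_
    rw [hcg]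
    exact S₀.B.mul_mem (S₀.B.pow_mem e.2 k) a₀.2
  refine ⟨⟨f * (b' : F), hmem⟩, b', hb', ?_⟩
  rw [← hr₂ b', ← hr₂ ⟨f * (b' : F), hmem⟩, ← map_mul]
  rfl

end Generic

/-! ### the instance -/

section Inst

open Fermat.Agent.RED.Interface4 Fermat.Agent.RED.BASE.Interface12 Fermat.Agent.RED.BASE.Hauptmodul12
  Fermat.Agent.ES.RED.ModelInst4 Fermat.Agent.ES.V19.InstNames3 Fermat.Agent.ES.V19.GaussFrac15
  Fermat.Agent.ES.W33.NodalDefs3 Fermat.Agent.ES.W33.LocSatInstN9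

attribute [local instance 5000] HahnSeries.powerSeriesAlgebra SubalgebraClass.toAlgebra

variable {n e M' : ℕ} [NeZero n] [NeZero M'] {p : ℕ} [Fact p.Prime]
  {hb : BaseHyp n e} {hnM : n ∣ M'} {A : ValuationSubring Qbar}
variable (S₀ : NodalChart A (hxN n e M' p hb hnM) (Ft M' A) (Ft M' A))
  (hG : ∀ b ∈ S₀.B, b ∈ GN M' p A)
  (hρ₁ : ∀ b : ↥S₀.B, S₀.ρ₁ b = rho1 M' p A ⟨(b : ↥(Fbar (M' * p))), GN_le_O1 M' p A (hG _ b.2)⟩)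
  (hρ₂ : ∀ b : ↥S₀.B, S₀.ρ₂ b = rho2 M' p A ⟨(b : ↥(Fbar (M' * p))), GN_le_O2 M' p A (hG _ b.2)⟩)
  (hp2 : p ≠ 2) (hpM : ¬ p ∣ M') (hM : 4 ∣ M') (hA : A.LiesOverPrime p)

/-- **the field `L4` of `LocLevelHyp` for `locChart₁`.** -/
theorem L4₁ (e₀ : ↥S₀.B) (he : S₀.ρ₁ e₀ ≠ 0) (he' : S₀.ρ₂ e₀ = 0) (y : Ft M' A) :
    ∃ a b : ↥(locChart₁ S₀ hG hρ₁ hρ₂ hp2 hpM hM hA e₀ he he').B,
      (locChart₁ S₀ hG hρ₁ hρ₂ hp2 hpM hM hA e₀ he he').red b ≠ 0 ∧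
        y * (locChart₁ S₀ hG hρ₁ hρ₂ hp2 hpM hM hA e₀ he he').red b =
          (locChart₁ S₀ hG hρ₁ hρ₂ hp2 hpM hM hA e₀ he he').red a := by
  obtain ⟨x, hx⟩ := Fermat.Agent.ES.W33.FrickeBar8.exists_isRedOf M' A y
  obtain ⟨h1, hy1⟩ := Fermat.Agent.ES.W33.FrickeBar8.rho1_alpha M' p A hx
  obtain ⟨h2, -⟩ := Fermat.Agent.ES.W33.FrickeBar8.rho2_alpha M' p A hA hpM hx
  obtain ⟨a, b, hb', hab⟩ := exists_frac₁ S₀ (O1 M' p A) (O2 M' p A) (rho1 M' p A) (rho2 M' p A)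
    (fun _ hb' => GN_le_O1 M' p A (hG _ hb')) (fun _ hb' => GN_le_O2 M' p A (hG _ hb'))
    (fun b => (hρ₁ b).symm) (fun b => (hρ₂ b).symm) e₀ (coe_e_ne_zero S₀ e₀ S₀.ρ₁ he)
    (hsat₁_of S₀ hG hρ₁ hρ₂ hp2 hpM hM hA e₀ he he') _ h1 h2
  rw [hy1] at hab
  refine ⟨⟨(a : ↥(Fbar (M' * p))), le_locRing S₀ e₀ a.2⟩,
    ⟨(b : ↥(Fbar (M' * p))), le_locRing S₀ e₀ b.2⟩, ?_, ?_⟩
  · show locRed S₀ e₀ S₀.ρ₁ he ⟨(b : ↥(Fbar (M' * p))), le_locRing S₀ e₀ b.2⟩ ≠ 0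
    rw [locRed_coe]; exact hb'
  · show y * locRed S₀ e₀ S₀.ρ₁ he ⟨(b : ↥(Fbar (M' * p))), le_locRing S₀ e₀ b.2⟩ =
      locRed S₀ e₀ S₀.ρ₁ he ⟨(a : ↥(Fbar (M' * p))), le_locRing S₀ e₀ a.2⟩
    rw [locRed_coe, locRed_coe]; exact hab

/-- **the field `L4` of `LocLevelHyp` for `locChart₂`.** -/
theorem L4₂ (e₀ : ↥S₀.B) (he : S₀.ρ₂ e₀ ≠ 0) (he' : S₀.ρ₁ e₀ = 0) (y : Ft M' A) :
    ∃ a b : ↥(locChart₂ S₀ hG hρ₁ hρ₂ hp2 hpM hM hA e₀ he he').B,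
      (locChart₂ S₀ hG hρ₁ hρ₂ hp2 hpM hM hA e₀ he he').red b ≠ 0 ∧
        y * (locChart₂ S₀ hG hρ₁ hρ₂ hp2 hpM hM hA e₀ he he').red b =
          (locChart₂ S₀ hG hρ₁ hρ₂ hp2 hpM hM hA e₀ he he').red a := by
  obtain ⟨x, hx⟩ := Fermat.Agent.ES.W33.FrickeBar8.exists_isRedOf M' A
    (Fermat.Agent.ES.W33.FrickeBar8.wBar M' p A hA hpM y)
  obtain ⟨h2, hy2⟩ := Fermat.Agent.ES.W33.FrickeBar8.rho2_beta M' p A hA hpM hx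
  obtain ⟨h1, -⟩ := Fermat.Agent.ES.W33.FrickeBar8.rho1_beta M' p A hA hx
  rw [Fermat.Agent.ES.W33.FrickeBar8.wBar_wBar] at hy2
  obtain ⟨a, b, hb', hab⟩ := exists_frac₂ S₀ (O1 M' p A) (O2 M' p A) (rho1 M' p A) (rho2 M' p A)
    (fun _ hb' => GN_le_O1 M' p A (hG _ hb')) (fun _ hb' => GN_le_O2 M' p A (hG _ hb'))
    (fun b => (hρ₁ b).symm) (fun b => (hρ₂ b).symm) e₀ (coe_e_ne_zero S₀ e₀ S₀.ρ₂ he)
    (hsat₂_of S₀ hG hρ₁ hρ₂ hp2 hpM hM hA e₀ he he') _ h1 h2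
  rw [hy2] at hab
  refine ⟨⟨(a : ↥(Fbar (M' * p))), le_locRing S₀ e₀ a.2⟩,
    ⟨(b : ↥(Fbar (M' * p))), le_locRing S₀ e₀ b.2⟩, ?_, ?_⟩
  · show locRed S₀ e₀ S₀.ρ₂ he ⟨(b : ↥(Fbar (M' * p))), le_locRing S₀ e₀ b.2⟩ ≠ 0
    rw [locRed_coe]; exact hb'
  · show y * locRed S₀ e₀ S₀.ρ₂ he ⟨(b : ↥(Fbar (M' * p))), le_locRing S₀ e₀ b.2⟩ =
      locRed S₀ e₀ S₀.ρ₂ he ⟨(a : ↥(Fbar (M' * p))), le_locRing S₀ e₀ a.2⟩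
    rw [locRed_coe, locRed_coe]; exact hab

/-- the field `e_unit` for `locChart₁`. -/
theorem e_unit₁ (e₀ : ↥S₀.B) (he : S₀.ρ₁ e₀ ≠ 0) (he' : S₀.ρ₂ e₀ = 0) :
    IsUnit (⟨(e₀ : ↥(Fbar (M' * p))), le_locRing S₀ e₀ e₀.2⟩ :
      ↥(locChart₁ S₀ hG hρ₁ hρ₂ hp2 hpM hM hA e₀ he he').B) :=
  isUnit_e S₀ e₀ (coe_e_ne_zero S₀ e₀ S₀.ρ₁ he)

/-- the field `e_unit` for `locChart₂`. -/
theorem e_unit₂ (e₀ : ↥S₀.B) (he : S₀.ρ₂ e₀ ≠ 0) (he' : S₀.ρ₁ e₀ = 0) :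
    IsUnit (⟨(e₀ : ↥(Fbar (M' * p))), le_locRing S₀ e₀ e₀.2⟩ :
      ↥(locChart₂ S₀ hG hρ₁ hρ₂ hp2 hpM hM hA e₀ he he').B) :=
  isUnit_e S₀ e₀ (coe_e_ne_zero S₀ e₀ S₀.ρ₂ he)

end Inst

end Fermat.Agent.ES.W33.LocL4N9
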