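/-
Programme W (S33), chapter (B3′) — helper3: **(VAL), (PIR), `HasPlaces` and (PEEL-a) from level systems,
for a chart `S : ChartSpecP`**, a statement-for-statement port of §1 of main's `ES/RED/ModelInstGen4`
(helper4, Program I): `HasLevels`, `val_of_levels`, `rVS_ne_top_of_levels`, `pir_of_levels`,
`hasPlaces_of_levels`, `peelA_of_levels`.  (`PIRHyp` is re-declared here under the new namespace with the
same body.)
-/
import Mathlib
import Fermat.Agent.ES.W33.PlacesP3
import Fermat.Agent.ES.W33.LevelContractP3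

set_option autoImplicit false

noncomputable section

open AlgebraicCurve

namespace Fermat.Agent.ES.W33.LevelsGenP3

open Fermat.Agent.X0.FF Fermat.Agent.ES.RED.PlaceValue13 Fermat.Agent.ES.RED.Contract8
  Fermat.Agent.ES.W33.ContractP3 Fermat.Agent.ES.W33.PlacesP3 Fermat.Agent.ES.W33.LevelContractP3

variable {L : Type*} [Field L] [IsAlgClosed L] {A : ValuationSubring L}
variable {F : Type*} [Field F] [Algebra L F] {x : F} {hx : IsGen L x}
variable {Ft : Type*} [Field Ft] [Algebra (kA A) Ft]

/-- **Level systems at every place of the chart.** -/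
def HasLevels (S : ChartSpecP A hx Ft) : Prop :=
  ∀ (P : Place L F) (hP : S.InChart P),
    ∃ (I : Type) (Bk : I → Type) (_ : ∀ K, CommRing (Bk K)) (ι : ∀ K, Bk K →+* ↥S.B)
      (π : ∀ K, Bk K), ChartLevels S P hP Bk ι π

variable (A Ft) in
/-- **(PIR)**: every valuation subring `O ≠ ⊤` of `Ft` containing the constants is a principal
ideal ring. -/
def PIRHyp : Prop :=
  ∀ O : ValuationSubring Ft, (∀ c : kA A, algebraMap (kA A) Ft c ∈ O) → O ≠ ⊤ →
    IsPrincipalIdealRing ↥O

variable {S : ChartSpecP A hx Ft}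

/-- (VAL) from the level systems. -/
theorem val_of_levels (hlev : HasLevels S) (P : Place L F) (hP : S.InChart P) : S.Val P hP := by
  obtain ⟨I, Bk, inst, ι, π, h⟩ := hlev P hP
  exact h.val

/-- `O_{rP} ≠ Ft`. -/
theorem rVS_ne_top_of_levels (hlev : HasLevels S) (htr : Transcendental (kA A) (S.red S.sB))
    (P : Place L F) (hP : S.InChart P) : S.rVS P hP (val_of_levels hlev P hP) ≠ ⊤ :=
  S.rVS_ne_top P hP (val_of_levels hlev P hP) (chi_sSub P hP) (red_sSub_ne_zero htr P hP)

/-- `O_{rP}` is a principal ideal ring. -/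
theorem pir_of_levels (hlev : HasLevels S) (htr : Transcendental (kA A) (S.red S.sB))
    (hpir : PIRHyp A Ft) (P : Place L F) (hP : S.InChart P) :
    IsPrincipalIdealRing ↥(S.rVS P hP (val_of_levels hlev P hP)) :=
  hpir _ (fun c => S.algebraMap_mem_rSubring P hP c) (rVS_ne_top_of_levels hlev htr P hP)

/-- **(VAL) + (PIR) at every place of the chart.** -/
theorem hasPlaces_of_levels (hlev : HasLevels S) (htr : Transcendental (kA A) (S.red S.sB))
    (hpir : PIRHyp A Ft) : HasPlaces S :=
  fun P hP => ⟨val_of_levels hlev P hP, pir_of_levels hlev htr hpir P hP⟩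

/-- **(PEEL-a) at every place of the chart.** -/
theorem peelA_of_levels (hlev : HasLevels S) (htr : Transcendental (kA A) (S.red S.sB))
    (hpir : PIRHyp A Ft) (P : Place L F) (hP : S.InChart P) : S.PeelA P hP := by
  obtain ⟨I, Bk, inst, ι, π, h⟩ := hlev P hP
  exact h.peelA_of_isPrincipalIdealRing (rVS_ne_top_of_levels hlev htr P hP)
    (pir_of_levels hlev htr hpir P hP)

end Fermat.Agent.ES.W33.LevelsGenP3
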