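/-
helper7 — Programme W (S33), chapter (B3′), leaf (Q3): **level systems of a LOCALISED chart.**

`S : ContractP3.ChartSpecP A hx Ft` is a chart whose ring is a localisation `B[1/e]` (`e : ↥S.B` a unit of
`S.B`): on the nodal model `B = B_j` is a two-component chart ring, `e ∈ B_j` vanishes on the OTHER
component, `S.red = ρ_i|`.  The un-localised level rings `C K` (`= chart (A ∩ K) s_K`, noetherian, with
`j K : C K →+* ↥S.B` the base change) are NOT a level system for `S` ((L3) fails: `ker (ρ_i ∘ j_K)` is a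
minimal prime over `π_K`, not `π_K C_K`; smoothness fails at the nodes).  Their LOCALISATIONS
`Localization.Away (eK K)` are:

* `LocLevelHyp S e C j eK ϖ` (a `Prop`): the hypotheses on the un-localised levels —
  `j_e : j K (eK K) = e`; (L0) every finite subset of `S.B` is `e`-power-multiplied into one level;
  noetherian; `j K (ϖ K)` is a nonzero constant of `𝔪_A`; SMOOTHNESS ONLY AT THE MAXIMAL IDEALS NOT
  CONTAINING `eK K` (`NodalNumData.smooth0/1` through `OffBranch`); LOCALISED SATURATION
  `S.red (j K c) = 0 → eK K * c ∈ ϖ K · C K` (helper16's (K3) `locSat`); (L4); `k̄` locally finite;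
* `locHom H K : Localization.Away (eK K) →+* ↥S.B`;
* **`chartLevels_loc`** : `LevelContractP3.ChartLevels S P hP (fun K => Localization.Away (eK K)) (locHom H)
  (fun K => algebraMap _ _ (ϖ K))` at every place `P` of the chart;
* **`hasLevels_of_loc`** : `LevelsGenP3.HasLevels S`; hence (`LevelsGenP3.hasPlaces_of_levels`,
  `peelA_of_levels`) **`hasPlaces_of_loc`**, **`peelA_of_loc`**.
-/
import Mathlib
import Fermat.Agent.ES.RED.LevelsInst26
import Fermat.Agent.ES.W33.LevelsGenP3

set_option autoImplicit false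
set_option linter.unusedSectionVars false

noncomputable section

open AlgebraicCurve

namespace Fermat.Agent.ES.W33.LocLevelsN7

open Fermat.Agent.X0.FF Fermat.Agent.ES.RED.PlaceValue13 Fermat.Agent.ES.RED.Contract8
  Fermat.Agent.ES.W33.ContractP3 Fermat.Agent.ES.W33.PlacesP3 Fermat.Agent.ES.W33.LevelContractP3
  Fermat.Agent.ES.W33.LevelsGenP3

variable {L : Type*} [Field L] [IsAlgClosed L] {A : ValuationSubring L}
variable {F : Type*} [Field F] [Algebra L F] {x : F} {hx : IsGen L x}
variable {Ft : Type*} [Field Ft] [Algebra (kA A) Ft]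

/-- **The hypotheses on the UN-LOCALISED levels `C K` of a localised chart `S` (`S.B = B[1/e]`).** -/
structure LocLevelHyp (S : ChartSpecP A hx Ft) (e : ↥S.B) {I : Type} (C : I → Type)
    [∀ K, CommRing (C K)] (j : ∀ K, C K →+* ↥S.B) (eK ϖ : ∀ K, C K) : Prop where
  /-- `e` is a unit of the chart ring -/
  e_unit : IsUnit e
  /-- the residue field is locally finite -/
  hk : ∀ c : kA A, ∃ m : ℕ, 1 < m ∧ c ^ m = c
  j_inj : ∀ K, Function.Injective (j K)
  j_e : ∀ K, j K (eK K) = e
  /-- (L0) every finite subset of the chart ring is multiplied into one level by a power of `e` -/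
  L0 : ∀ T : List ↥S.B, ∃ K, ∀ b ∈ T, ∃ (c : C K) (n : ℕ), b * e ^ n = j K c
  noeth : ∀ K, IsNoetherianRing (C K)
  /-- `ϖ_K` is a nonzero constant of `𝔪_A` -/
  pi_const : ∀ K, ∃ a : ↥A, a ≠ 0 ∧ resA A a = 0 ∧ j K (ϖ K) = S.const a
  /-- smoothness at the maximal ideals over `ϖ_K` which do not contain `e_K` -/
  smooth : ∀ K (𝔪 : Ideal (C K)), 𝔪.IsMaximal → ϖ K ∈ 𝔪 → eK K ∉ 𝔪 →
    ∃ s ∈ 𝔪, ∀ y ∈ 𝔪, ∃ d : C K, d ∉ 𝔪 ∧ d * y ∈ Ideal.span {ϖ K, s}
  /-- localised saturation -/
  sat : ∀ K (c : C K), S.red (j K c) = 0 → ∃ c' : C K, eK K * c = ϖ K * c'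
  /-- (L4) -/
  L4 : ∀ y : Ft, ∃ a b : ↥S.B, S.red b ≠ 0 ∧ y * S.red b = S.red a

variable {S : ChartSpecP A hx Ft} {e : ↥S.B} {I : Type} {C : I → Type} [∀ K, CommRing (C K)]
  {j : ∀ K, C K →+* ↥S.B} {eK ϖ : ∀ K, C K}

/-- **the level map of the localised level** `C_K[1/e_K] → S.B`. -/
def locHom (H : LocLevelHyp S e C j eK ϖ) (K : I) : Localization.Away (eK K) →+* ↥S.B :=
  IsLocalization.Away.lift (eK K) (g := j K) (by rw [H.j_e]; exact H.e_unit)

theorem locHom_algebraMap (H : LocLevelHyp S e C j eK ϖ) (K : I) (c : C K) :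
    locHom H K (algebraMap (C K) (Localization.Away (eK K)) c) = j K c :=
  IsLocalization.Away.lift_eq (eK K) _ c

/-- every element of the localised level is `c / e_K ^ n`. -/
theorem exists_rep (K : I) (z : Localization.Away (eK K)) :
    ∃ (c : C K) (n : ℕ), z * algebraMap (C K) (Localization.Away (eK K)) (eK K ^ n) =
      algebraMap (C K) (Localization.Away (eK K)) c := by
  obtain ⟨⟨c, ⟨_, n, rfl⟩⟩, h⟩ := IsLocalization.surj (Submonoid.powers (eK K)) z
  exact ⟨c, n, h⟩

/-- the powers of `e_K` are units of the localised level. -/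
theorem exists_inv_pow (K : I) (n : ℕ) :
    ∃ u : Localization.Away (eK K),
      algebraMap (C K) (Localization.Away (eK K)) (eK K ^ n) * u = 1 := by
  have h := IsLocalization.map_units (Localization.Away (eK K))
    (⟨eK K ^ n, n, rfl⟩ : Submonoid.powers (eK K))
  obtain ⟨u, hu⟩ := h.exists_right_inv
  exact ⟨u, hu⟩

theorem locHom_rep (H : LocLevelHyp S e C j eK ϖ) (K : I) {z : Localization.Away (eK K)}
    {c : C K} {n : ℕ}
    (h : z * algebraMap (C K) (Localization.Away (eK K)) (eK K ^ n) =
      algebraMap (C K) (Localization.Away (eK K)) c) :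
    locHom H K z * e ^ n = j K c := by
  have := congrArg (locHom H K) h
  rw [map_mul, locHom_algebraMap, locHom_algebraMap, map_pow, H.j_e] at this
  exact this

theorem e_pow_ne_zero (H : LocLevelHyp S e C j eK ϖ) (n : ℕ) : e ^ n ≠ 0 :=
  (H.e_unit.pow n).ne_zero

theorem locHom_injective (H : LocLevelHyp S e C j eK ϖ) (K : I) :
    Function.Injective (locHom H K) := by
  rw [injective_iff_map_eq_zero]
  intro z hz
  obtain ⟨c, n, h⟩ := exists_rep K z
  have h1 := locHom_rep H K h
  rw [hz, zero_mul] at h1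
  have hc : c = 0 := H.j_inj K (by rw [← h1, map_zero])
  rw [hc, map_zero] at h
  obtain ⟨u, hu⟩ := exists_inv_pow (eK := eK) K n
  calc z = z * (algebraMap (C K) (Localization.Away (eK K)) (eK K ^ n) * u) := by
        rw [hu, mul_one]
    _ = 0 := by rw [← mul_assoc, h, zero_mul]

/-- the image of `ϖ_K`. -/
theorem locHom_pi (H : LocLevelHyp S e C j eK ϖ) (K : I) :
    ∃ a : ↥A, a ≠ 0 ∧ resA A a = 0 ∧
      locHom H K (algebraMap (C K) (Localization.Away (eK K)) (ϖ K)) = S.const a := by
  obtain ⟨a, ha0, hares, ha⟩ := H.pi_const K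
  exact ⟨a, ha0, hares, by rw [locHom_algebraMap, ha]⟩

theorem red_locHom_pi (H : LocLevelHyp S e C j eK ϖ) (K : I) :
    S.red (locHom H K (algebraMap (C K) (Localization.Away (eK K)) (ϖ K))) = 0 := by
  obtain ⟨a, -, hares, ha⟩ := locHom_pi H K
  rw [ha, S.red_const', hares, map_zero]

/-- `red e` is not zero. -/
theorem red_e_pow_ne_zero (H : LocLevelHyp S e C j eK ϖ) (n : ℕ) : S.red (e ^ n) ≠ 0 :=
  ((H.e_unit.pow n).map S.red).ne_zero

/-- **(L3)** for the localised level. -/
theorem red_locHom_eq_zero_iff (H : LocLevelHyp S e C j eK ϖ) (K : I)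
    (b : Localization.Away (eK K)) :
    S.red (locHom H K b) = 0 ↔
      algebraMap (C K) (Localization.Away (eK K)) (ϖ K) ∣ b := by
  constructor
  · intro h0
    obtain ⟨c, n, h⟩ := exists_rep K b
    have h1 := locHom_rep H K h
    have h2 : S.red (j K c) = 0 := by rw [← h1, map_mul, h0, zero_mul]
    obtain ⟨c', hc'⟩ := H.sat K c h2
    obtain ⟨u, hu⟩ := exists_inv_pow (eK := eK) K (n + 1)
    refine ⟨algebraMap (C K) (Localization.Away (eK K)) c' * u, ?_⟩
    have h3 : b * algebraMap (C K) (Localization.Away (eK K)) (eK K ^ (n + 1)) =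
        algebraMap (C K) (Localization.Away (eK K)) (ϖ K) *
          algebraMap (C K) (Localization.Away (eK K)) c' := by
      rw [pow_succ, map_mul, ← mul_assoc, h, ← map_mul, mul_comm c (eK K), hc', map_mul]
    calc b = b * (algebraMap (C K) (Localization.Away (eK K)) (eK K ^ (n + 1)) * u) := by
          rw [hu, mul_one]
      _ = algebraMap (C K) (Localization.Away (eK K)) (ϖ K) *
            (algebraMap (C K) (Localization.Away (eK K)) c' * u) := by
          rw [← mul_assoc, h3, mul_assoc]
  · rintro ⟨z, rfl⟩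
    rw [map_mul, map_mul, red_locHom_pi H K, zero_mul]

/-- **The level system of the localised chart `S` at a place `P`**: levels `C_K[1/e_K]`. -/
theorem chartLevels_loc (H : LocLevelHyp S e C j eK ϖ) (P : Place L F) (hP : S.InChart P) :
    ChartLevels S P hP (fun K : I => Localization.Away (eK K)) (fun K => locHom H K)
      (fun K => algebraMap (C K) (Localization.Away (eK K)) (ϖ K)) := by
  have hchi : ∀ K : I, S.chi P hP (locHom H K
      (algebraMap (C K) (Localization.Away (eK K)) (ϖ K))) = 0 := fun K =>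
    S.chi_eq_zero_of_red_eq_zero P hP (red_locHom_pi H K)
  have hmax : ∀ K : I, (centre S P hP (fun K : I => Localization.Away (eK K))
      (fun K => locHom H K) K).IsMaximal := fun K =>
    Fermat.Agent.ES.RED.LevelsInst26.ker_isMaximal_of_locallyFinite _ H.hk
  refine
    { inj := fun K => locHom_injective H K
      L0 := ?_
      noeth := fun K =>
        haveI := H.noeth K
        IsLocalization.isNoetherianRing (Submonoid.powers (eK K)) (Localization.Away (eK K))
          (H.noeth K)
      ev_pi := ?_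
      chi_pi := hchi
      isMax := hmax
      smooth := ?_
      L3 := fun K b => red_locHom_eq_zero_iff H K b
      L4 := H.L4 }
  · -- (L0)
    intro T
    obtain ⟨K, hK⟩ := H.L0 T
    refine ⟨K, fun b hb => ?_⟩
    obtain ⟨c, n, hcn⟩ := hK b hb
    obtain ⟨u, hu⟩ := exists_inv_pow (eK := eK) K n
    refine ⟨algebraMap (C K) (Localization.Away (eK K)) c * u, ?_⟩
    have h1 : (algebraMap (C K) (Localization.Away (eK K)) c * u) *
        algebraMap (C K) (Localization.Away (eK K)) (eK K ^ n) =
        algebraMap (C K) (Localization.Away (eK K)) c := by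
      rw [mul_assoc, mul_comm u, hu, mul_one]
    have h2 := locHom_rep H K h1
    rw [← hcn] at h2
    exact mul_right_cancel₀ (e_pow_ne_zero H n) h2
  · -- `π_K (P) ≠ 0`
    intro K h
    obtain ⟨a, ha0, -, ha⟩ := locHom_pi H K
    rw [ha, S.ev_const] at h
    exact ha0 h
  · -- smoothness
    intro K
    set φ : Localization.Away (eK K) →+* kA A := (S.chi P hP).comp (locHom H K) with hφ
    set ψ : C K →+* kA A := (S.chi P hP).comp (j K) with hψ
    have hφψ : ∀ c : C K, φ (algebraMap (C K) (Localization.Away (eK K)) c) = ψ c := fun c => by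
      show S.chi P hP (locHom H K (algebraMap (C K) (Localization.Away (eK K)) c)) = _
      rw [locHom_algebraMap]
      rfl
    have hmem : ∀ z : Localization.Away (eK K),
        z ∈ centre S P hP (fun K : I => Localization.Away (eK K)) (fun K => locHom H K) K ↔
          φ z = 0 := fun z => Iff.rfl
    have h𝔪max : (RingHom.ker ψ).IsMaximal :=
      Fermat.Agent.ES.RED.LevelsInst26.ker_isMaximal_of_locallyFinite ψ H.hk
    have hϖ : ϖ K ∈ RingHom.ker ψ := by
      rw [RingHom.mem_ker, ← hφψ]
      exact hchi K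
    have heu : IsUnit (ψ (eK K)) := by
      show IsUnit (S.chi P hP (j K (eK K)))
      rw [H.j_e]
      exact H.e_unit.map (S.chi P hP)
    have he : eK K ∉ RingHom.ker ψ := fun h => heu.ne_zero ((RingHom.mem_ker).mp h)
    obtain ⟨s, hs, hsm⟩ := H.smooth K (RingHom.ker ψ) h𝔪max hϖ he
    refine ⟨algebraMap (C K) (Localization.Away (eK K)) s, ?_, fun y hy => ?_⟩
    · rw [hmem, hφψ]
      exact (RingHom.mem_ker).mp hs
    · obtain ⟨c, n, hcn⟩ := exists_rep K y
      have hφe : φ (algebraMap (C K) (Localization.Away (eK K)) (eK K ^ n)) ≠ 0 := by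
        rw [hφψ, map_pow]
        exact (heu.pow n).ne_zero
      have hc : c ∈ RingHom.ker ψ := by
        rw [RingHom.mem_ker, ← hφψ, ← hcn, map_mul, (hmem y).mp hy, zero_mul]
      obtain ⟨d, hd, hdc⟩ := hsm c hc
      obtain ⟨p, q, hpq⟩ := Ideal.mem_span_pair.mp hdc
      obtain ⟨u, hu⟩ := exists_inv_pow (eK := eK) K n
      refine ⟨algebraMap (C K) (Localization.Away (eK K)) d, ?_, ?_⟩
      · rw [hmem, hφψ]
        exact fun h => hd ((RingHom.mem_ker).mpr h)
      · rw [Ideal.mem_span_pair]
        refine ⟨algebraMap (C K) (Localization.Away (eK K)) p * u,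
          algebraMap (C K) (Localization.Away (eK K)) q * u, ?_⟩
        have h1 : algebraMap (C K) (Localization.Away (eK K)) d * y =
            algebraMap (C K) (Localization.Away (eK K)) (d * c) * u := by
          rw [map_mul, ← hcn, mul_assoc, mul_assoc, hu, mul_one]
        rw [h1, ← hpq, map_add, map_mul, map_mul]
        ring

/-- **Level systems at every place of the localised chart.** -/
theorem hasLevels_of_loc (H : LocLevelHyp S e C j eK ϖ) : HasLevels S :=
  fun P hP => ⟨I, fun K => Localization.Away (eK K), fun _ => inferInstance, fun K => locHom H K,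
    fun K => algebraMap (C K) (Localization.Away (eK K)) (ϖ K), chartLevels_loc H P hP⟩

/-- **(VAL) + (PIR) at every place of the localised chart.** -/
theorem hasPlaces_of_loc (H : LocLevelHyp S e C j eK ϖ)
    (htr : Transcendental (kA A) (S.red S.sB)) (hpir : PIRHyp A Ft) : HasPlaces S :=
  hasPlaces_of_levels (hasLevels_of_loc H) htr hpir

/-- **(PEEL-a) at every place of the localised chart.** -/
theorem peelA_of_loc (H : LocLevelHyp S e C j eK ϖ)
    (htr : Transcendental (kA A) (S.red S.sB)) (hpir : PIRHyp A Ft)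
    (P : Place L F) (hP : S.InChart P) : S.PeelA P hP :=
  peelA_of_levels (hasLevels_of_loc H) htr hpir P hP

end Fermat.Agent.ES.W33.LocLevelsN7
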