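/-
helper7 — Programme W (S33), chapter (B3′), leaf (Q3), INSTANCE HALF, part 1: **`LocLevelsN7.LocLevelHyp`
for a localised chart over `ℚ̄` from per-level facts** (pure algebra + base change; no modular input).

* `LevelKHyp π B Oa Ob` (one level): what is used of `NodalNumData` for the chart `B`, the branch `Oa` on
  which the localised chart lives and the OTHER branch `Ob`; `levelKHyp_B0_12`, `…_B0_21`, `…_B1_12`,
  `…_B1_21` : the four instances from `NodalDataAt` (`smooth0/1`, `unif1/2`, (K3) `locSat`);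
* `levelHomP` : the base change `chart (A ∩ K) s_K → S.B` for `S : ChartSpecP` with `S.B ⊇ chart ↥A s`;
* **`locLevelHyp_core`** : `LocLevelHyp S e₀ …` from: `S.B = (chart ↥A s)[1/e₀]` (`hloc`), descent of
  lists (`hdesc`), per-level `LevelKHyp`, `e_K ∈ π_K · Ob_K` (`heb`), and the comparison
  `z ≠ 0 → z⁻¹ ∈ Oa_K → S.red (bc z) ≠ 0` (`hcmp`).
-/
import Mathlib
import Fermat.Agent.ES.RED.LevelMax17
import Fermat.Agent.ES.W33.LocLevelsN7
import Fermat.Agent.ES.W33.ChartGN16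
import Fermat.Agent.ES.W33.LevelKExports16

set_option autoImplicit false
set_option synthInstance.maxHeartbeats 400000
set_option linter.unusedSectionVars false
set_option linter.style.haveILetI false

noncomputable section

open HahnSeries ModularCurve AlgebraicCurve

namespace Fermat.Agent.ES.W33.LocLevelsCoreN7

open Fermat.Agent.RED.Interface4 Fermat.Agent.RED.DESC Fermat.Agent.RED.DESC.NumberFieldDVR27
open Fermat.Agent.RED.DESC.PlaceExtend27
open Fermat.Agent.RED.PUR.GaussGen8 Fermat.Agent.RED.PUR.ChartGeneric22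
open Fermat.Agent.RED.BASE.EtaQuot12 Fermat.Agent.RED.BASE.Hauptmodul12
  Fermat.Agent.RED.BASE.Interface12
open Fermat.Agent.X0.FF Fermat.Agent.ES.RED.Contract8
open Fermat.Agent.ES.N34.NodalCore13 Fermat.Agent.ES.N34.NodalCL13 Fermat.Agent.ES.N34.NumData13
  Fermat.Agent.ES.N34.ModelInput13
open Fermat.Agent.ES.W33.ContractP3 Fermat.Agent.ES.W33.PlacesP3 Fermat.Agent.ES.W33.LevelsGenP3
  Fermat.Agent.ES.W33.LocLevelsN7

attribute [local instance 5000] HahnSeries.powerSeriesAlgebra SubalgebraClass.toAlgebra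

/-! ### one level, pure algebra -/

section OneLevel

variable {R F : Type*} [CommRing R] [Field F] [Algebra R F]

/-- **What is used of one level**: `B` the chart, `Oa` the branch of the localised chart, `Ob` the
other branch. -/
structure LevelKHyp (π : R) (B : Subalgebra R F) (Oa Ob : ValuationSubring F) : Prop where
  noeth : IsNoetherianRing B
  le_a : ∀ x ∈ B, x ∈ Oa
  le_b : ∀ x ∈ B, x ∈ Ob
  unif_a : ∀ x ∈ Oa, x⁻¹ ∉ Oa → ∃ c ∈ Oa, x = algebraMap R F π * c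
  unif_b : ∀ x ∈ Ob, x⁻¹ ∉ Ob → ∃ c ∈ Ob, x = algebraMap R F π * c
  smooth : ∀ 𝔪 : Ideal B, 𝔪.IsMaximal → algebraMap R B π ∈ 𝔪 → OffBranch π B Ob 𝔪 →
    SmoothAt π B 𝔪
  locsat : ∀ e ∈ B, ∀ b ∈ B, (∃ c ∈ Ob, e = algebraMap R F π * c) →
    (∃ c ∈ Oa, b = algebraMap R F π * c) → ∃ b₁ ∈ B, e * b = algebraMap R F π * b₁

end OneLevel

section FromData

variable {n e q M' : ℕ} [NeZero n] [NeZero M'] [NeZero q] {A : ValuationSubring Qbar}
  {K : IntermediateField ℚ Qbar}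
  {π : ↥(AK A K)} {t : ↥(FK (M' * q) K)}
  {B0 B1 : Subalgebra ↥(AK A K) ↥(FK (M' * q) K)} {O1 O2 : ValuationSubring ↥(FK (M' * q) K)}

theorem levelKHyp_B0_12 (D : NodalDataAt (AK A K) (FK (M' * q) K) π t B0 B1 O1 O2) :
    LevelKHyp π B0 O1 O2 := by
  haveI := Fermat.Agent.RED.NumInst4.isScalarTower_OE (AK A K) (FK (M' * q) K)
  have N := (nodalDataAt_iff (AK A K) (FK (M' * q) K) π t B0 B1 O1 O2).mp D
  have L := Fermat.Agent.ES.W33.LevelKExports16.locSat_model D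
  exact
    { noeth := N.noeth0
      le_a := N.model.le_O1_0
      le_b := N.model.le_O2_0
      unif_a := N.model.unif1
      unif_b := N.model.unif2
      smooth := fun 𝔪 h1 h2 h3 => N.smooth0 𝔪 h1 h2 (Or.inr h3)
      locsat := L.1 }

theorem levelKHyp_B0_21 (D : NodalDataAt (AK A K) (FK (M' * q) K) π t B0 B1 O1 O2) :
    LevelKHyp π B0 O2 O1 := by
  haveI := Fermat.Agent.RED.NumInst4.isScalarTower_OE (AK A K) (FK (M' * q) K)
  have N := (nodalDataAt_iff (AK A K) (FK (M' * q) K) π t B0 B1 O1 O2).mp D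
  have L := Fermat.Agent.ES.W33.LevelKExports16.locSat_model D
  exact
    { noeth := N.noeth0
      le_a := N.model.le_O2_0
      le_b := N.model.le_O1_0
      unif_a := N.model.unif2
      unif_b := N.model.unif1
      smooth := fun 𝔪 h1 h2 h3 => N.smooth0 𝔪 h1 h2 (Or.inl h3)
      locsat := L.2.1 }

theorem levelKHyp_B1_12 (D : NodalDataAt (AK A K) (FK (M' * q) K) π t B0 B1 O1 O2) :
    LevelKHyp π B1 O1 O2 := by
  haveI := Fermat.Agent.RED.NumInst4.isScalarTower_OE (AK A K) (FK (M' * q) K)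
  have N := (nodalDataAt_iff (AK A K) (FK (M' * q) K) π t B0 B1 O1 O2).mp D
  have L := Fermat.Agent.ES.W33.LevelKExports16.locSat_model D
  exact
    { noeth := N.noeth1
      le_a := N.model.le_O1_1
      le_b := N.model.le_O2_1
      unif_a := N.model.unif1
      unif_b := N.model.unif2
      smooth := fun 𝔪 h1 h2 h3 => N.smooth1 𝔪 h1 h2 (Or.inr h3)
      locsat := L.2.2.1 }

theorem levelKHyp_B1_21 (D : NodalDataAt (AK A K) (FK (M' * q) K) π t B0 B1 O1 O2) :
    LevelKHyp π B1 O2 O1 := by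
  haveI := Fermat.Agent.RED.NumInst4.isScalarTower_OE (AK A K) (FK (M' * q) K)
  have N := (nodalDataAt_iff (AK A K) (FK (M' * q) K) π t B0 B1 O1 O2).mp D
  have L := Fermat.Agent.ES.W33.LevelKExports16.locSat_model D
  exact
    { noeth := N.noeth1
      le_a := N.model.le_O2_1
      le_b := N.model.le_O1_1
      unif_a := N.model.unif2
      unif_b := N.model.unif1
      smooth := fun 𝔪 h1 h2 h3 => N.smooth1 𝔪 h1 h2 (Or.inl h3)
      locsat := L.2.2.2 }

end FromData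

/-! ### the level maps of a chart `S : ChartSpecP` over `ℚ̄` containing `chart ↥A s` -/

section LevelHom

variable {A : ValuationSubring Qbar} {N : ℕ}
variable {x : ↥(Fbar N)} {hx : IsGen Qbar x}
variable {Ft : Type*} [Field Ft] [Algebra (kA A) Ft]
  (S : ChartSpecP A hx Ft) {s : ↥(Fbar N)}
  (hB : ∀ b : ↥(Fbar N), b ∈ chart ↥A s → b ∈ S.B)

/-- **the level map** `chart (A ∩ K) s_K → S.B` (base change of coefficients). -/
def levelHomP (K : IntermediateField ℚ Qbar) (sK : ↥(FK N K))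
    (hsK : baseChangeHom N K sK = s) : ↥(chart ↥(AK A K) sK) →+* ↥S.B :=
  ((baseChangeHom N K).comp (Subalgebra.val (chart ↥(AK A K) sK)).toRingHom).codRestrict S.B
    (fun b => hB _ (by
      rw [← hsK]
      exact Fermat.Agent.ES.RED.ChartUnion1.baseChangeHom_mem_chart A N K sK
        (b : ↥(FK N K)) b.2))

@[simp] theorem coe_levelHomP (K : IntermediateField ℚ Qbar) (sK : ↥(FK N K))
    (hsK : baseChangeHom N K sK = s) (b : ↥(chart ↥(AK A K) sK)) :
    ((levelHomP S hB K sK hsK b : ↥S.B) : ↥(Fbar N)) = baseChangeHom N K (b : ↥(FK N K)) := rfl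

theorem levelHomP_injective (K : IntermediateField ℚ Qbar) (sK : ↥(FK N K))
    (hsK : baseChangeHom N K sK = s) : Function.Injective (levelHomP S hB K sK hsK) := by
  intro b b' h
  have h1 := congrArg (fun z : ↥S.B => (z : ↥(Fbar N))) h
  simp only [coe_levelHomP] at h1
  exact Subtype.ext (baseChangeHom_injective N K h1)

theorem levelHomP_algebraMap (K : IntermediateField ℚ Qbar) (sK : ↥(FK N K))
    (hsK : baseChangeHom N K sK = s) (a : ↥(AK A K)) :
    levelHomP S hB K sK hsK (algebraMap ↥(AK A K) ↥(chart ↥(AK A K) sK) a) =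
      S.const (incl A K a) := by
  apply Subtype.ext
  rw [coe_levelHomP, ChartSpecP.coe_const]
  exact Fermat.Agent.ES.RED.ChartUnion1.baseChangeHom_algebraMap_AK A N K a

/-- **`LocLevelHyp` from the per-level facts.** -/
theorem locLevelHyp_core (e₀ : ↥S.B) (he_unit : IsUnit e₀)
    (hk : ∀ c : kA A, ∃ m : ℕ, 1 < m ∧ c ^ m = c)
    (hloc : ∀ b : ↥S.B, ∃ m : ℕ, (b : ↥(Fbar N)) * (e₀ : ↥(Fbar N)) ^ m ∈ chart ↥A s)
    {I : Type} (Kf : I → IntermediateField ℚ Qbar) (sK : ∀ i, ↥(FK N (Kf i)))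
    (hsK : ∀ i, baseChangeHom N (Kf i) (sK i) = s)
    (hdesc : ∀ T : List ↥(Fbar N), (∀ y ∈ T, y ∈ chart ↥A s) →
      ∃ i : I, ∀ y ∈ T, ∃ z ∈ chart ↥(AK A (Kf i)) (sK i), baseChangeHom N (Kf i) z = y)
    (π : ∀ i, ↥(AK A (Kf i))) (hπ : ∀ i, IsUnif (AK A (Kf i)) (π i))
    (Oa Ob : ∀ i, ValuationSubring ↥(FK N (Kf i)))
    (hlev : ∀ i, LevelKHyp (π i) (chart ↥(AK A (Kf i)) (sK i)) (Oa i) (Ob i))
    (eK : ∀ i, ↥(chart ↥(AK A (Kf i)) (sK i)))
    (heK : ∀ i, baseChangeHom N (Kf i) (eK i : ↥(FK N (Kf i))) = (e₀ : ↥(Fbar N)))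
    (heb : ∀ i, ∃ c ∈ Ob i, ((eK i : ↥(FK N (Kf i)))) =
      algebraMap ↥(AK A (Kf i)) ↥(FK N (Kf i)) (π i) * c)
    (hcmp : ∀ i (z : ↥(chart ↥(AK A (Kf i)) (sK i))), z ≠ 0 →
      ((z : ↥(FK N (Kf i))))⁻¹ ∈ Oa i → S.red (levelHomP S hB (Kf i) (sK i) (hsK i) z) ≠ 0)
    (hL4 : ∀ y : Ft, ∃ a b : ↥S.B, S.red b ≠ 0 ∧ y * S.red b = S.red a) :
    LocLevelHyp S e₀ (fun i => ↥(chart ↥(AK A (Kf i)) (sK i)))
      (fun i => levelHomP S hB (Kf i) (sK i) (hsK i)) eK
      (fun i => algebraMap ↥(AK A (Kf i)) ↥(chart ↥(AK A (Kf i)) (sK i)) (π i)) := by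
  refine
    { e_unit := he_unit
      hk := hk
      j_inj := fun i => levelHomP_injective S hB (Kf i) (sK i) (hsK i)
      j_e := fun i => Subtype.ext (heK i)
      L0 := ?_
      noeth := fun i => (hlev i).noeth
      pi_const := ?_
      smooth := fun i 𝔪 hmax hπ𝔪 he𝔪 => (hlev i).smooth 𝔪 hmax hπ𝔪 ⟨eK i, he𝔪, heb i⟩
      sat := ?_
      L4 := hL4 }
  · -- (L0)
    intro T
    choose m hm using hloc
    obtain ⟨i, hi⟩ := hdesc (T.map fun b : ↥S.B => (b : ↥(Fbar N)) * (e₀ : ↥(Fbar N)) ^ m b)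
      (fun y hy => by
        obtain ⟨b, -, rfl⟩ := List.mem_map.mp hy
        exact hm b)
    refine ⟨i, fun b hb => ?_⟩
    obtain ⟨z, hz, hzb⟩ := hi _ (List.mem_map.mpr ⟨b, hb, rfl⟩)
    exact ⟨⟨z, hz⟩, m b, Subtype.ext hzb.symm⟩
  · -- the uniformiser
    intro i
    refine ⟨incl A (Kf i) (π i), ?_, ?_, levelHomP_algebraMap S hB (Kf i) (sK i) (hsK i) (π i)⟩
    · intro h
      have h1 : incl A (Kf i) (π i) = incl A (Kf i) 0 := by rw [h, map_zero]
      exact (hπ i).ne_zero (incl_injective A (Kf i) h1)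
    · rw [← resMap_residue]
      have h : IsLocalRing.residue ↥(AK A (Kf i)) (π i) = 0 := res0_unif (hπ i)
      rw [h, map_zero]
  · -- localised saturation
    intro i c hc
    by_cases hc0 : c = 0
    · exact ⟨0, by rw [hc0, mul_zero, mul_zero]⟩
    have hinv : ((c : ↥(FK N (Kf i))))⁻¹ ∉ Oa i := fun h => hcmp i c hc0 h hc
    obtain ⟨c₁, hc₁, hcc₁⟩ := (hlev i).unif_a (c : ↥(FK N (Kf i)))
      ((hlev i).le_a _ c.2) hinv
    obtain ⟨b₁, hb₁, hb₁e⟩ := (hlev i).locsat (eK i : ↥(FK N (Kf i))) (eK i).2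
      (c : ↥(FK N (Kf i))) c.2 (heb i) ⟨c₁, hc₁, hcc₁⟩
    exact ⟨⟨b₁, hb₁⟩, Subtype.ext hb₁e⟩

end LevelHom

end Fermat.Agent.ES.W33.LocLevelsCoreN7
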