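/-
helper7 — Programme W (S33), chapter (B3′), leaf (Q3), INSTANCE HALF, part 2: **`HasLevels`, `HasPlaces`,
`PeelA` for the localised one-component charts of the bad level `N' = M' * p`**, from Programme N's
level-`K` nodal models (`ModelInput13.ModelInput`).

* `GoodAt S e₀ K` : the per-level facts at one normal number field `K`; **`exists_locLevelHyp`**,
  `hasLevels_of_good` : `LocLevelHyp` / `HasLevels S` from `GoodAt` at every large normal `K`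
  (index set = normal number fields `K ⊇ K₁`; `e₀` descends to every such `K`);
* `goodAt₁`, `goodAt₂` : `GoodAt` from `ModelInput` for a chart on branch 1 (`S.red = rho1|`,
  `rho2 e₀ = 0`) resp. branch 2 (`S.red = rho2|`, `rho1 e₀ = 0`), chart coordinate `s = tN` or `tN⁻¹`;
* **`hasLevels_loc₁`**, **`hasLevels_loc₂`**, `hasPlaces_loc₁/₂`, `peelA_loc₁/₂`.
-/
import Mathlib
import Fermat.Agent.ES.W33.LocLevelsCoreN7

set_option autoImplicit false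
set_option synthInstance.maxHeartbeats 400000
set_option linter.unusedSectionVars false
set_option linter.style.haveILetI false

noncomputable section

open HahnSeries ModularCurve AlgebraicCurve

namespace Fermat.Agent.ES.W33.LocLevelsInstN7

open Fermat.Agent.RED.Interface4 Fermat.Agent.RED.DESC Fermat.Agent.RED.DESC.NumberFieldDVR27
open Fermat.Agent.RED.DESC.PlaceExtend27
open Fermat.Agent.RED.PUR.GaussGen8 Fermat.Agent.RED.PUR.ChartGeneric22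
open Fermat.Agent.RED.BASE.EtaQuot12 Fermat.Agent.RED.BASE.Hauptmodul12
  Fermat.Agent.RED.BASE.Interface12
open Fermat.Agent.X0.FF Fermat.Agent.ES.RED.Contract8
open Fermat.Agent.ES.N34.NodalCore13 Fermat.Agent.ES.N34.NodalCL13 Fermat.Agent.ES.N34.NumData13
  Fermat.Agent.ES.N34.ModelInput13
open Fermat.Agent.ES.W33.ContractP3 Fermat.Agent.ES.W33.PlacesP3 Fermat.Agent.ES.W33.LevelsGenP3
  Fermat.Agent.ES.W33.LocLevelsN7 Fermat.Agent.ES.W33.LocLevelsCoreN7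

attribute [local instance 5000] HahnSeries.powerSeriesAlgebra SubalgebraClass.toAlgebra

/-! ### the index set: large normal number fields -/

section Exists

variable {A : ValuationSubring Qbar} {N : ℕ}
variable {x : ↥(Fbar N)} {hx : IsGen Qbar x}
variable {Ft : Type*} [Field Ft] [Algebra (kA A) Ft]
  (S : ChartSpecP A hx Ft) {s : ↥(Fbar N)}
  (hB : ∀ b : ↥(Fbar N), b ∈ chart ↥A s → b ∈ S.B)

/-- **What is needed at every large normal number field `K`**, for the chart coordinate `s`, the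
localising element `e₀` and the reduction `S.red`. -/
def GoodAt (e₀ : ↥(Fbar N)) (K : IntermediateField ℚ Qbar) : Prop :=
  ∃ (sK : ↥(FK N K)) (π : ↥(AK A K)) (Oa Ob : ValuationSubring ↥(FK N K)),
    baseChangeHom N K sK = s ∧ IsUnif (AK A K) π ∧
    LevelKHyp π (chart ↥(AK A K) sK) Oa Ob ∧
    (∀ z ∈ chart ↥(AK A K) sK, z ≠ 0 → z⁻¹ ∈ Oa →
      ∀ h : baseChangeHom N K z ∈ S.B, S.red ⟨baseChangeHom N K z, h⟩ ≠ 0) ∧
    (∀ z ∈ chart ↥(AK A K) sK, baseChangeHom N K z = e₀ →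
      ∃ c ∈ Ob, z = algebraMap ↥(AK A K) ↥(FK N K) π * c)

include hB in
/-- **`LocLevelHyp` for a localised chart, from `GoodAt` at every large normal number field.** -/
theorem exists_locLevelHyp (e₀ : ↥S.B) (he_unit : IsUnit e₀)
    (he_mem : (e₀ : ↥(Fbar N)) ∈ chart ↥A s)
    (hk : ∀ c : kA A, ∃ m : ℕ, 1 < m ∧ c ^ m = c)
    (hloc : ∀ b : ↥S.B, ∃ m : ℕ, (b : ↥(Fbar N)) * (e₀ : ↥(Fbar N)) ^ m ∈ chart ↥A s)
    (hgood : ∃ K₀ : IntermediateField ℚ Qbar, FiniteDimensional ℚ K₀ ∧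
      ∀ (K : IntermediateField ℚ Qbar) [Normal ℚ K], FiniteDimensional ℚ K → K₀ ≤ K →
        GoodAt (s := s) S (e₀ : ↥(Fbar N)) K)
    (hL4 : ∀ y : Ft, ∃ a b : ↥S.B, S.red b ≠ 0 ∧ y * S.red b = S.red a) :
    ∃ (I : Type) (C : I → Type) (_ : ∀ K, CommRing (C K)) (j : ∀ K, C K →+* ↥S.B)
      (eK ϖ : ∀ K, C K), LocLevelHyp S e₀ C j eK ϖ := by
  obtain ⟨K₀, hfin₀, H⟩ := hgood
  haveI := hfin₀
  obtain ⟨K₁, hfin₁, hK₀₁, He⟩ :=
    Fermat.Agent.ES.RED.ChartUnion1.exists_chart_descent A N K₀ s (e₀ : ↥(Fbar N)) he_mem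
  haveI := hfin₁
  have H' : ∀ i : {K : IntermediateField ℚ Qbar // Normal ℚ K ∧ FiniteDimensional ℚ K ∧ K₁ ≤ K},
      GoodAt (s := s) S (e₀ : ↥(Fbar N)) i.1 := fun i =>
    @H i.1 i.2.1 i.2.2.1 (hK₀₁.trans i.2.2.2)
  unfold GoodAt at H'
  choose sK π Oa Ob hsK hπ hlev hcmp heb using H'
  have He' : ∀ i : {K : IntermediateField ℚ Qbar // Normal ℚ K ∧ FiniteDimensional ℚ K ∧ K₁ ≤ K},
      ∃ z ∈ chart ↥(AK A i.1) (sK i), baseChangeHom N i.1 z = (e₀ : ↥(Fbar N)) :=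
    fun i => He i.1 i.2.2.2 (sK i) (hsK i)
  choose eK heKmem heK using He'
  have hgal : IsGalois ℚ Qbar := Fermat.Agent.Lib.FrobeniusExists.isGalois_Qbar
  haveI hnorQ : Normal ℚ Qbar := hgal.to_normal
  haveI halgQ : Algebra.IsAlgebraic ℚ Qbar := isAlgebraic_Qbar
  have hdesc : ∀ T : List ↥(Fbar N), (∀ y ∈ T, y ∈ chart ↥A s) →
      ∃ i : {K : IntermediateField ℚ Qbar // Normal ℚ K ∧ FiniteDimensional ℚ K ∧ K₁ ≤ K},
        ∀ y ∈ T, ∃ z ∈ chart ↥(AK A i.1) (sK i), baseChangeHom N i.1 z = y := by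
    intro T hT
    obtain ⟨K₂, hfin₂, hK₁₂, HT⟩ :=
      Fermat.Agent.ES.RED.LevelsInst26.exists_level_list A K₁ s T hT
    haveI := hfin₂
    obtain ⟨K, hK₂K, hfinK, hnorK⟩ : ∃ K : IntermediateField ℚ Qbar, K₂ ≤ K ∧
        FiniteDimensional ℚ K ∧ Normal ℚ K :=
      ⟨IntermediateField.normalClosure ℚ K₂ Qbar, IntermediateField.le_normalClosure K₂,
        normalClosure.is_finiteDimensional ℚ K₂ Qbar, normalClosure.normal ℚ K₂ Qbar⟩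
    have hi : Normal ℚ K ∧ FiniteDimensional ℚ K ∧ K₁ ≤ K := ⟨hnorK, hfinK, hK₁₂.trans hK₂K⟩
    exact ⟨⟨K, hi⟩, fun y hy => HT K hK₂K (sK ⟨K, hi⟩) (hsK ⟨K, hi⟩) y hy⟩
  have hcmp' : ∀ (i : {K : IntermediateField ℚ Qbar // Normal ℚ K ∧ FiniteDimensional ℚ K ∧
      K₁ ≤ K}) (z : ↥(chart ↥(AK A i.1) (sK i))), z ≠ 0 → ((z : ↥(FK N i.1)))⁻¹ ∈ Oa i →
      S.red (levelHomP S hB i.1 (sK i) (hsK i) z) ≠ 0 := fun i z hz0 hzi =>
    hcmp i (z : ↥(FK N i.1)) z.2 (fun h => hz0 (Subtype.ext h)) hzi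
      (levelHomP S hB i.1 (sK i) (hsK i) z).2
  have hcore := locLevelHyp_core S hB e₀ he_unit hk hloc
    (fun i : {K : IntermediateField ℚ Qbar // Normal ℚ K ∧ FiniteDimensional ℚ K ∧ K₁ ≤ K} => i.1)
    sK hsK hdesc π hπ Oa Ob hlev (fun i => ⟨eK i, heKmem i⟩) heK
    (fun i => heb i (eK i) (heKmem i) (heK i)) hcmp' hL4
  exact ⟨_, _, _, _, _, _, hcore⟩

include hB in
/-- **Level systems at every place of the localised chart.** -/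
theorem hasLevels_of_good (e₀ : ↥S.B) (he_unit : IsUnit e₀)
    (he_mem : (e₀ : ↥(Fbar N)) ∈ chart ↥A s)
    (hk : ∀ c : kA A, ∃ m : ℕ, 1 < m ∧ c ^ m = c)
    (hloc : ∀ b : ↥S.B, ∃ m : ℕ, (b : ↥(Fbar N)) * (e₀ : ↥(Fbar N)) ^ m ∈ chart ↥A s)
    (hgood : ∃ K₀ : IntermediateField ℚ Qbar, FiniteDimensional ℚ K₀ ∧
      ∀ (K : IntermediateField ℚ Qbar) [Normal ℚ K], FiniteDimensional ℚ K → K₀ ≤ K →
        GoodAt (s := s) S (e₀ : ↥(Fbar N)) K)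
    (hL4 : ∀ y : Ft, ∃ a b : ↥S.B, S.red b ≠ 0 ∧ y * S.red b = S.red a) : HasLevels S := by
  obtain ⟨I, C, inst, j, eK, ϖ, H⟩ :=
    exists_locLevelHyp S hB e₀ he_unit he_mem hk hloc hgood hL4
  exact hasLevels_of_loc H

end Exists

/-! ### the instance: localised one-component charts of the bad level -/

section Inst

variable (n e M' : ℕ) [NeZero n] [NeZero M'] (p : ℕ) [Fact p.Prime] (hpM : ¬ p ∣ M')
  (hb : BaseHyp n e) (hnM : n ∣ M') (A : ValuationSubring Qbar) (hA : A.LiesOverPrime p)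

variable {x : ↥(Fbar (M' * p))} {hx : IsGen Qbar x}
  (S : ChartSpecP A hx (Fermat.Agent.ES.RED.ModelInst4.Ft M' A)) {s : ↥(Fbar (M' * p))}
  (hB : ∀ b : ↥(Fbar (M' * p)), b ∈ chart ↥A s → b ∈ S.B)

include hpM hA hB in
/-- `GoodAt` on BRANCH 1 at one level, for a level chart `chart (A ∩ K) s_K` with `LevelKHyp … O1 O2`. -/
theorem goodAt₁_aux (hp2 : p ≠ 2) (hM : 4 ∣ M')
    (hred : ∀ (b : ↥(Fbar (M' * p))) (hb' : b ∈ S.B) (h1 : b ∈ NodalDefs3.O1 M' p A),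
      b ∈ chart ↥A s → S.red ⟨b, hb'⟩ = NodalDefs3.rho1 M' p A ⟨b, h1⟩)
    (e₀ : ↥(Fbar (M' * p)))
    (he2 : ∀ h2 : e₀ ∈ NodalDefs3.O2 M' p A, NodalDefs3.rho2 M' p A ⟨e₀, h2⟩ = 0)
    (K : IntermediateField ℚ Qbar) {π : ↥(AK A K)} (hπ : IsUnif (AK A K) π)
    (hE : FK (M' * p) K ≤ fracField (AK A K)) (sK : ↥(FK (M' * p) K))
    (hsK : baseChangeHom (M' * p) K sK = s)
    (hlev : LevelKHyp π (chart ↥(AK A K) sK) (Fermat.Agent.ES.N34.ModelDefs9.O1 M' p hπ hE)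
      (Fermat.Agent.ES.N34.ModelDefs9.O2 M' p hπ hE)) :
    GoodAt (s := s) S e₀ K := by
  refine ⟨sK, π, _, _, hsK, hπ, hlev, ?_, ?_⟩
  · intro z hz hz0 hzi h
    obtain ⟨h1, -⟩ := Fermat.Agent.ES.W33.LevelCompare3.bc_mem_O1 M' p A hp2 hpM hM hA hπ hE z
      (hlev.le_a z hz)
    have hzc : baseChangeHom (M' * p) K z ∈ chart ↥A s := by
      rw [← hsK]
      exact Fermat.Agent.ES.RED.ChartUnion1.baseChangeHom_mem_chart A (M' * p) K sK z hz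
    rw [hred _ h h1 hzc]
    exact Fermat.Agent.ES.W33.ChartGN16.rho1_bc_ne_zero A K hp2 hpM hM hA hπ hE z hz0 hzi h1
  · intro z hz hze
    by_contra hcon
    have hzi : z⁻¹ ∈ Fermat.Agent.ES.N34.ModelDefs9.O2 M' p hπ hE := by
      by_contra h
      exact hcon (hlev.unif_b z (hlev.le_b z hz) h)
    have hz0 : z ≠ 0 := fun h0 => hcon ⟨0, zero_mem _, by rw [h0, mul_zero]⟩
    obtain ⟨h2, -⟩ := Fermat.Agent.ES.W33.LevelCompare3.bc_mem_O2 M' p A hp2 hpM hM hA hπ hE z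
      (hlev.le_b z hz)
    apply Fermat.Agent.ES.W33.ChartGN16.rho2_bc_ne_zero A K hp2 hpM hM hA hπ hE z hz0 hzi h2
    have key : ∀ (y : ↥(Fbar (M' * p))) (h2 : y ∈ NodalDefs3.O2 M' p A), y = e₀ →
        NodalDefs3.rho2 M' p A ⟨y, h2⟩ = 0 := by
      rintro y h2 rfl
      exact he2 h2
    exact key _ h2 hze

include hpM hA hB in
/-- `GoodAt` on BRANCH 2 at one level, for a level chart `chart (A ∩ K) s_K` with `LevelKHyp … O2 O1`. -/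
theorem goodAt₂_aux (hp2 : p ≠ 2) (hM : 4 ∣ M')
    (hred : ∀ (b : ↥(Fbar (M' * p))) (hb' : b ∈ S.B) (h2 : b ∈ NodalDefs3.O2 M' p A),
      b ∈ chart ↥A s → S.red ⟨b, hb'⟩ = NodalDefs3.rho2 M' p A ⟨b, h2⟩)
    (e₀ : ↥(Fbar (M' * p)))
    (he1 : ∀ h1 : e₀ ∈ NodalDefs3.O1 M' p A, NodalDefs3.rho1 M' p A ⟨e₀, h1⟩ = 0)
    (K : IntermediateField ℚ Qbar) {π : ↥(AK A K)} (hπ : IsUnif (AK A K) π)
    (hE : FK (M' * p) K ≤ fracField (AK A K)) (sK : ↥(FK (M' * p) K))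
    (hsK : baseChangeHom (M' * p) K sK = s)
    (hlev : LevelKHyp π (chart ↥(AK A K) sK) (Fermat.Agent.ES.N34.ModelDefs9.O2 M' p hπ hE)
      (Fermat.Agent.ES.N34.ModelDefs9.O1 M' p hπ hE)) :
    GoodAt (s := s) S e₀ K := by
  refine ⟨sK, π, _, _, hsK, hπ, hlev, ?_, ?_⟩
  · intro z hz hz0 hzi h
    obtain ⟨h2, -⟩ := Fermat.Agent.ES.W33.LevelCompare3.bc_mem_O2 M' p A hp2 hpM hM hA hπ hE z
      (hlev.le_a z hz)
    have hzc : baseChangeHom (M' * p) K z ∈ chart ↥A s := by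
      rw [← hsK]
      exact Fermat.Agent.ES.RED.ChartUnion1.baseChangeHom_mem_chart A (M' * p) K sK z hz
    rw [hred _ h h2 hzc]
    exact Fermat.Agent.ES.W33.ChartGN16.rho2_bc_ne_zero A K hp2 hpM hM hA hπ hE z hz0 hzi h2
  · intro z hz hze
    by_contra hcon
    have hzi : z⁻¹ ∈ Fermat.Agent.ES.N34.ModelDefs9.O1 M' p hπ hE := by
      by_contra h
      exact hcon (hlev.unif_b z (hlev.le_b z hz) h)
    have hz0 : z ≠ 0 := fun h0 => hcon ⟨0, zero_mem _, by rw [h0, mul_zero]⟩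
    obtain ⟨h1, -⟩ := Fermat.Agent.ES.W33.LevelCompare3.bc_mem_O1 M' p A hp2 hpM hM hA hπ hE z
      (hlev.le_b z hz)
    apply Fermat.Agent.ES.W33.ChartGN16.rho1_bc_ne_zero A K hp2 hpM hM hA hπ hE z hz0 hzi h1
    have key : ∀ (y : ↥(Fbar (M' * p))) (h1 : y ∈ NodalDefs3.O1 M' p A), y = e₀ →
        NodalDefs3.rho1 M' p A ⟨y, h1⟩ = 0 := by
      rintro y h1 rfl
      exact he1 h1
    exact key _ h1 hze

include hpM hA hB in
/-- `GoodAt` on BRANCH 1 at every large normal number field, from Programme N's model. -/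
theorem goodAt₁ (hp2 : p ≠ 2) (hM : 4 ∣ M') (hMI : ModelInput n e p M' A)
    (hs : NodalDefs3.IsChartCoord n e M' p hb hnM s)
    (hred : ∀ (b : ↥(Fbar (M' * p))) (hb' : b ∈ S.B) (h1 : b ∈ NodalDefs3.O1 M' p A),
      b ∈ chart ↥A s → S.red ⟨b, hb'⟩ = NodalDefs3.rho1 M' p A ⟨b, h1⟩)
    (e₀ : ↥(Fbar (M' * p)))
    (he2 : ∀ h2 : e₀ ∈ NodalDefs3.O2 M' p A, NodalDefs3.rho2 M' p A ⟨e₀, h2⟩ = 0) :
    ∃ K₀ : IntermediateField ℚ Qbar, FiniteDimensional ℚ K₀ ∧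
      ∀ (K : IntermediateField ℚ Qbar) [Normal ℚ K], FiniteDimensional ℚ K → K₀ ≤ K →
        GoodAt (s := s) S e₀ K := by
  have hp : p.Prime := Fact.out
  obtain ⟨K₀, hK₀, hmodel⟩ := hMI
  refine ⟨K₀, hK₀, fun K hnor hfin hle => ?_⟩
  obtain ⟨ht, hE, hD⟩ := @hmodel K hnor hfin hle
  haveI hdvr : IsDiscreteValuationRing ↥(AK A K) := isDiscreteValuationRing_AK A K hp.ne_zero hA
  obtain ⟨ϖ, hϖ⟩ := IsDiscreteValuationRing.exists_irreducible ↥(AK A K)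
  have hπ : IsUnif (AK A K) ϖ := isUnif_of_irreducible (AK A K) hϖ
  have hbct := Fermat.Agent.ES.W33.ChartGN16.bc_tN n e M' p hb hnM K ht
  rcases hs with rfl | rfl
  · exact goodAt₁_aux M' p hpM A hA S hB hp2 hM hred e₀ he2 K hπ hE _ hbct
      (levelKHyp_B0_12 (hD ϖ hπ))
  · exact goodAt₁_aux M' p hpM A hA S hB hp2 hM hred e₀ he2 K hπ hE _
      (by rw [map_inv₀, hbct]) (levelKHyp_B1_12 (hD ϖ hπ))

include hpM hA hB in
/-- `GoodAt` on BRANCH 2 at every large normal number field, from Programme N's model. -/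
theorem goodAt₂ (hp2 : p ≠ 2) (hM : 4 ∣ M') (hMI : ModelInput n e p M' A)
    (hs : NodalDefs3.IsChartCoord n e M' p hb hnM s)
    (hred : ∀ (b : ↥(Fbar (M' * p))) (hb' : b ∈ S.B) (h2 : b ∈ NodalDefs3.O2 M' p A),
      b ∈ chart ↥A s → S.red ⟨b, hb'⟩ = NodalDefs3.rho2 M' p A ⟨b, h2⟩)
    (e₀ : ↥(Fbar (M' * p)))
    (he1 : ∀ h1 : e₀ ∈ NodalDefs3.O1 M' p A, NodalDefs3.rho1 M' p A ⟨e₀, h1⟩ = 0) :
    ∃ K₀ : IntermediateField ℚ Qbar, FiniteDimensional ℚ K₀ ∧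
      ∀ (K : IntermediateField ℚ Qbar) [Normal ℚ K], FiniteDimensional ℚ K → K₀ ≤ K →
        GoodAt (s := s) S e₀ K := by
  have hp : p.Prime := Fact.out
  obtain ⟨K₀, hK₀, hmodel⟩ := hMI
  refine ⟨K₀, hK₀, fun K hnor hfin hle => ?_⟩
  obtain ⟨ht, hE, hD⟩ := @hmodel K hnor hfin hle
  haveI hdvr : IsDiscreteValuationRing ↥(AK A K) := isDiscreteValuationRing_AK A K hp.ne_zero hA
  obtain ⟨ϖ, hϖ⟩ := IsDiscreteValuationRing.exists_irreducible ↥(AK A K)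
  have hπ : IsUnif (AK A K) ϖ := isUnif_of_irreducible (AK A K) hϖ
  have hbct := Fermat.Agent.ES.W33.ChartGN16.bc_tN n e M' p hb hnM K ht
  rcases hs with rfl | rfl
  · exact goodAt₂_aux M' p hpM A hA S hB hp2 hM hred e₀ he1 K hπ hE _ hbct
      (levelKHyp_B0_21 (hD ϖ hπ))
  · exact goodAt₂_aux M' p hpM A hA S hB hp2 hM hred e₀ he1 K hπ hE _
      (by rw [map_inv₀, hbct]) (levelKHyp_B1_21 (hD ϖ hπ))

include hpM hA hB in
/-- **(Q3), branch 1: level systems at every place of a localised chart `S` with `S.B = (chart ↥A s)[1/e₀]`,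
`S.red = rho1|`, `rho2 e₀ = 0`.** -/
theorem hasLevels_loc₁ (hp2 : p ≠ 2) (hM : 4 ∣ M') (hMI : ModelInput n e p M' A)
    (hs : NodalDefs3.IsChartCoord n e M' p hb hnM s)
    (hred : ∀ (b : ↥(Fbar (M' * p))) (hb' : b ∈ S.B) (h1 : b ∈ NodalDefs3.O1 M' p A),
      b ∈ chart ↥A s → S.red ⟨b, hb'⟩ = NodalDefs3.rho1 M' p A ⟨b, h1⟩)
    (e₀ : ↥S.B) (he_unit : IsUnit e₀) (he_mem : (e₀ : ↥(Fbar (M' * p))) ∈ chart ↥A s)
    (hloc : ∀ b : ↥S.B, ∃ m : ℕ,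
      (b : ↥(Fbar (M' * p))) * (e₀ : ↥(Fbar (M' * p))) ^ m ∈ chart ↥A s)
    (he2 : ∀ h2 : (e₀ : ↥(Fbar (M' * p))) ∈ NodalDefs3.O2 M' p A,
      NodalDefs3.rho2 M' p A ⟨(e₀ : ↥(Fbar (M' * p))), h2⟩ = 0)
    (hL4 : ∀ y : Fermat.Agent.ES.RED.ModelInst4.Ft M' A,
      ∃ a b : ↥S.B, S.red b ≠ 0 ∧ y * S.red b = S.red a) : HasLevels S :=
  hasLevels_of_good S hB e₀ he_unit he_mem
    (Fermat.Agent.ES.RED.LevelMax17.exists_pow_eq_self (Fact.out : p.Prime) A hA) hloc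
    (goodAt₁ n e M' p hpM hb hnM A hA S hB hp2 hM hMI hs hred (e₀ : ↥(Fbar (M' * p))) he2) hL4

include hpM hA hB in
/-- **(Q3), branch 2: level systems at every place of a localised chart `S` with `S.B = (chart ↥A s)[1/e₀]`,
`S.red = rho2|`, `rho1 e₀ = 0`.** -/
theorem hasLevels_loc₂ (hp2 : p ≠ 2) (hM : 4 ∣ M') (hMI : ModelInput n e p M' A)
    (hs : NodalDefs3.IsChartCoord n e M' p hb hnM s)
    (hred : ∀ (b : ↥(Fbar (M' * p))) (hb' : b ∈ S.B) (h2 : b ∈ NodalDefs3.O2 M' p A),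
      b ∈ chart ↥A s → S.red ⟨b, hb'⟩ = NodalDefs3.rho2 M' p A ⟨b, h2⟩)
    (e₀ : ↥S.B) (he_unit : IsUnit e₀) (he_mem : (e₀ : ↥(Fbar (M' * p))) ∈ chart ↥A s)
    (hloc : ∀ b : ↥S.B, ∃ m : ℕ,
      (b : ↥(Fbar (M' * p))) * (e₀ : ↥(Fbar (M' * p))) ^ m ∈ chart ↥A s)
    (he1 : ∀ h1 : (e₀ : ↥(Fbar (M' * p))) ∈ NodalDefs3.O1 M' p A,
      NodalDefs3.rho1 M' p A ⟨(e₀ : ↥(Fbar (M' * p))), h1⟩ = 0)
    (hL4 : ∀ y : Fermat.Agent.ES.RED.ModelInst4.Ft M' A,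
      ∃ a b : ↥S.B, S.red b ≠ 0 ∧ y * S.red b = S.red a) : HasLevels S :=
  hasLevels_of_good S hB e₀ he_unit he_mem
    (Fermat.Agent.ES.RED.LevelMax17.exists_pow_eq_self (Fact.out : p.Prime) A hA) hloc
    (goodAt₂ n e M' p hpM hb hnM A hA S hB hp2 hM hMI hs hred (e₀ : ↥(Fbar (M' * p))) he1) hL4

include hpM hA hB in
/-- **(VAL) + (PIR) at every place of a localised chart on branch 1.** -/
theorem hasPlaces_loc₁ (hp2 : p ≠ 2) (hM : 4 ∣ M') (hMI : ModelInput n e p M' A)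
    (hs : NodalDefs3.IsChartCoord n e M' p hb hnM s)
    (hred : ∀ (b : ↥(Fbar (M' * p))) (hb' : b ∈ S.B) (h1 : b ∈ NodalDefs3.O1 M' p A),
      b ∈ chart ↥A s → S.red ⟨b, hb'⟩ = NodalDefs3.rho1 M' p A ⟨b, h1⟩)
    (e₀ : ↥S.B) (he_unit : IsUnit e₀) (he_mem : (e₀ : ↥(Fbar (M' * p))) ∈ chart ↥A s)
    (hloc : ∀ b : ↥S.B, ∃ m : ℕ,
      (b : ↥(Fbar (M' * p))) * (e₀ : ↥(Fbar (M' * p))) ^ m ∈ chart ↥A s)
    (he2 : ∀ h2 : (e₀ : ↥(Fbar (M' * p))) ∈ NodalDefs3.O2 M' p A,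
      NodalDefs3.rho2 M' p A ⟨(e₀ : ↥(Fbar (M' * p))), h2⟩ = 0)
    (hL4 : ∀ y : Fermat.Agent.ES.RED.ModelInst4.Ft M' A,
      ∃ a b : ↥S.B, S.red b ≠ 0 ∧ y * S.red b = S.red a)
    (htr : Transcendental (kA A) (S.red S.sB))
    (hpir : PIRHyp A (Fermat.Agent.ES.RED.ModelInst4.Ft M' A)) : HasPlaces S :=
  hasPlaces_of_levels
    (hasLevels_loc₁ n e M' p hpM hb hnM A hA S hB hp2 hM hMI hs hred e₀ he_unit he_mem hloc he2 hL4)
    htr hpir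

include hpM hA hB in
/-- **(PEEL-a) at every place of a localised chart on branch 1.** -/
theorem peelA_loc₁ (hp2 : p ≠ 2) (hM : 4 ∣ M') (hMI : ModelInput n e p M' A)
    (hs : NodalDefs3.IsChartCoord n e M' p hb hnM s)
    (hred : ∀ (b : ↥(Fbar (M' * p))) (hb' : b ∈ S.B) (h1 : b ∈ NodalDefs3.O1 M' p A),
      b ∈ chart ↥A s → S.red ⟨b, hb'⟩ = NodalDefs3.rho1 M' p A ⟨b, h1⟩)
    (e₀ : ↥S.B) (he_unit : IsUnit e₀) (he_mem : (e₀ : ↥(Fbar (M' * p))) ∈ chart ↥A s)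
    (hloc : ∀ b : ↥S.B, ∃ m : ℕ,
      (b : ↥(Fbar (M' * p))) * (e₀ : ↥(Fbar (M' * p))) ^ m ∈ chart ↥A s)
    (he2 : ∀ h2 : (e₀ : ↥(Fbar (M' * p))) ∈ NodalDefs3.O2 M' p A,
      NodalDefs3.rho2 M' p A ⟨(e₀ : ↥(Fbar (M' * p))), h2⟩ = 0)
    (hL4 : ∀ y : Fermat.Agent.ES.RED.ModelInst4.Ft M' A,
      ∃ a b : ↥S.B, S.red b ≠ 0 ∧ y * S.red b = S.red a)
    (htr : Transcendental (kA A) (S.red S.sB))
    (hpir : PIRHyp A (Fermat.Agent.ES.RED.ModelInst4.Ft M' A))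
    (P : Place Qbar ↥(Fbar (M' * p))) (hP : S.InChart P) : S.PeelA P hP :=
  peelA_of_levels
    (hasLevels_loc₁ n e M' p hpM hb hnM A hA S hB hp2 hM hMI hs hred e₀ he_unit he_mem hloc he2 hL4)
    htr hpir P hP

include hpM hA hB in
/-- **(VAL) + (PIR) at every place of a localised chart on branch 2.** -/
theorem hasPlaces_loc₂ (hp2 : p ≠ 2) (hM : 4 ∣ M') (hMI : ModelInput n e p M' A)
    (hs : NodalDefs3.IsChartCoord n e M' p hb hnM s)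
    (hred : ∀ (b : ↥(Fbar (M' * p))) (hb' : b ∈ S.B) (h2 : b ∈ NodalDefs3.O2 M' p A),
      b ∈ chart ↥A s → S.red ⟨b, hb'⟩ = NodalDefs3.rho2 M' p A ⟨b, h2⟩)
    (e₀ : ↥S.B) (he_unit : IsUnit e₀) (he_mem : (e₀ : ↥(Fbar (M' * p))) ∈ chart ↥A s)
    (hloc : ∀ b : ↥S.B, ∃ m : ℕ,
      (b : ↥(Fbar (M' * p))) * (e₀ : ↥(Fbar (M' * p))) ^ m ∈ chart ↥A s)
    (he1 : ∀ h1 : (e₀ : ↥(Fbar (M' * p))) ∈ NodalDefs3.O1 M' p A,
      NodalDefs3.rho1 M' p A ⟨(e₀ : ↥(Fbar (M' * p))), h1⟩ = 0)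
    (hL4 : ∀ y : Fermat.Agent.ES.RED.ModelInst4.Ft M' A,
      ∃ a b : ↥S.B, S.red b ≠ 0 ∧ y * S.red b = S.red a)
    (htr : Transcendental (kA A) (S.red S.sB))
    (hpir : PIRHyp A (Fermat.Agent.ES.RED.ModelInst4.Ft M' A)) : HasPlaces S :=
  hasPlaces_of_levels
    (hasLevels_loc₂ n e M' p hpM hb hnM A hA S hB hp2 hM hMI hs hred e₀ he_unit he_mem hloc he1 hL4)
    htr hpir

include hpM hA hB in
/-- **(PEEL-a) at every place of a localised chart on branch 2.** -/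
theorem peelA_loc₂ (hp2 : p ≠ 2) (hM : 4 ∣ M') (hMI : ModelInput n e p M' A)
    (hs : NodalDefs3.IsChartCoord n e M' p hb hnM s)
    (hred : ∀ (b : ↥(Fbar (M' * p))) (hb' : b ∈ S.B) (h2 : b ∈ NodalDefs3.O2 M' p A),
      b ∈ chart ↥A s → S.red ⟨b, hb'⟩ = NodalDefs3.rho2 M' p A ⟨b, h2⟩)
    (e₀ : ↥S.B) (he_unit : IsUnit e₀) (he_mem : (e₀ : ↥(Fbar (M' * p))) ∈ chart ↥A s)
    (hloc : ∀ b : ↥S.B, ∃ m : ℕ,
      (b : ↥(Fbar (M' * p))) * (e₀ : ↥(Fbar (M' * p))) ^ m ∈ chart ↥A s)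
    (he1 : ∀ h1 : (e₀ : ↥(Fbar (M' * p))) ∈ NodalDefs3.O1 M' p A,
      NodalDefs3.rho1 M' p A ⟨(e₀ : ↥(Fbar (M' * p))), h1⟩ = 0)
    (hL4 : ∀ y : Fermat.Agent.ES.RED.ModelInst4.Ft M' A,
      ∃ a b : ↥S.B, S.red b ≠ 0 ∧ y * S.red b = S.red a)
    (htr : Transcendental (kA A) (S.red S.sB))
    (hpir : PIRHyp A (Fermat.Agent.ES.RED.ModelInst4.Ft M' A))
    (P : Place Qbar ↥(Fbar (M' * p))) (hP : S.InChart P) : S.PeelA P hP :=
  peelA_of_levels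
    (hasLevels_loc₂ n e M' p hpM hb hnM A hA S hB hp2 hM hMI hs hred e₀ he_unit he_mem hloc he1 hL4)
    htr hpir P hP

end Inst

end Fermat.Agent.ES.W33.LocLevelsInstN7
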