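/-
helper7 — Programme W (S33), chapter (B3′), leaf (Q3), THE PLUG: **`HasLevels`, `HasPlaces`, `PeelA` at EVERY
place of helper9's localised charts `LocSatInstN9.locChart₁ / locChart₂`** (any nodal chart `S₀` inside `GN`
whose ring is `chart ↥A s`, `s = tN` or `tN⁻¹`; ANY localising element `e₀` with `ρ_own e₀ ≠ 0`,
`ρ_other e₀ = 0`).

* generic in `S₀`: `hasLevels_locChart₁/₂`, `hasPlaces_locChart₁/₂`, `peelA_locChart₁/₂`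
  (= `LocLevelsInstN7.hasLevels_loc₁/₂ …` with `hB := le_locRing`, `hred := rho_i_eq_locRed`,
  `he_unit`, `hL4` := helper9's `LocL4N9.e_unit_i`, `L4_i`; `hloc` := the definition of `locRing`);
* `pirHyp_N` : (PIR) for `Ft M' A` (main `PIRInst13.pirHyp_fullC`);
* instances `S₀ := S0N L`, `S1N L` (`TwoChartsNInst20`): **`peelA₁0`, `peelA₁1`, `peelA₂0`, `peelA₂1`**
  (and `hasPlaces…`), with the transcendence of the coordinate from `TransN4.tr₁/tr₂`.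
-/
import Mathlib
import Fermat.Agent.ES.W33.LocLevelsInstN7
import Fermat.Agent.ES.W33.LocL4N9
import Fermat.Agent.ES.W33.TransN4
import Fermat.Agent.ES.RED.PIRInst13

set_option autoImplicit false
set_option synthInstance.maxHeartbeats 400000
set_option linter.unusedSectionVars false

noncomputable section

open HahnSeries ModularCurve AlgebraicCurve

namespace Fermat.Agent.ES.W33.LocPeelN7

open Fermat.Agent.RED.Interface4 Fermat.Agent.RED.BASE.Interface12 Fermat.Agent.RED.BASE.Hauptmodul12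
  Fermat.Agent.RED.PUR.ChartGeneric22
  Fermat.Agent.ES.RED.Contract8 Fermat.Agent.ES.RED.ModelInst4
  Fermat.Agent.X0 Fermat.Agent.X0.FF
  Fermat.Agent.ES.V19.GaussFrac15 Fermat.Agent.ES.V19.InstNames3
  Fermat.Agent.ES.N34.ModelInput13
  Fermat.Agent.ES.W33.NodalDefs3 Fermat.Agent.ES.W33.NodalChart20 Fermat.Agent.ES.W33.ContractP3
  Fermat.Agent.ES.W33.PlacesP3 Fermat.Agent.ES.W33.LevelsGenP3
  Fermat.Agent.ES.W33.LocChartGenN9 Fermat.Agent.ES.W33.LocSatInstN9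
  Fermat.Agent.ES.W33.TwoChartsNInst20

attribute [local instance 5000] HahnSeries.powerSeriesAlgebra SubalgebraClass.toAlgebra

/-- the inverse of a transcendental element is transcendental. -/
theorem transcendental_inv {k K : Type*} [Field k] [Field K] [Algebra k K] {y : K}
    (h : Transcendental k y) : Transcendental k y⁻¹ := fun ha => h (IsAlgebraic.inv_iff.mp ha)

variable {n e M' : ℕ} [NeZero n] [NeZero M'] {p : ℕ} [Fact p.Prime]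
  {hb : BaseHyp n e} {hnM : n ∣ M'} {A : ValuationSubring Qbar}

/-- **(PIR)** for the function field of the special fibre of the good level. -/
theorem pirHyp_N (hpM : ¬ p ∣ M') (hb : BaseHyp n e) (hnM : n ∣ M') (hA : A.LiesOverPrime p) :
    PIRHyp A (Ft M' A) := fun O h1 h2 =>
  Fermat.Agent.ES.RED.PIRInst13.pirHyp_fullC n e M' p hpM (tMem_of_dvd hb hnM) (tGenBase' hb) A hA
    O h1 h2

section Of

variable (S₀ : NodalChart A (hxN n e M' p hb hnM) (Ft M' A) (Ft M' A))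
  (hG : ∀ b ∈ S₀.B, b ∈ GN M' p A)
  (hρ₁ : ∀ b : ↥S₀.B, S₀.ρ₁ b = rho1 M' p A ⟨(b : ↥(Fbar (M' * p))), GN_le_O1 M' p A (hG _ b.2)⟩)
  (hρ₂ : ∀ b : ↥S₀.B, S₀.ρ₂ b = rho2 M' p A ⟨(b : ↥(Fbar (M' * p))), GN_le_O2 M' p A (hG _ b.2)⟩)
  (hp2 : p ≠ 2) (hpM : ¬ p ∣ M') (hM : 4 ∣ M') (hA : A.LiesOverPrime p)
  (hMI : ModelInput n e p M' A) {s : ↥(Fbar (M' * p))}
  (hs : IsChartCoord n e M' p hb hnM s)
  (hchart : ∀ z : ↥(Fbar (M' * p)), z ∈ S₀.B ↔ z ∈ chart ↥A s)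

include hMI hs hchart in
/-- **level systems at every place of `locChart₁`.** -/
theorem hasLevels_locChart₁ (e₀ : ↥S₀.B) (he : S₀.ρ₁ e₀ ≠ 0) (he' : S₀.ρ₂ e₀ = 0) :
    HasLevels (locChart₁ S₀ hG hρ₁ hρ₂ hp2 hpM hM hA e₀ he he') := by
  refine Fermat.Agent.ES.W33.LocLevelsInstN7.hasLevels_loc₁ n e M' p hpM hb hnM A hA
    (locChart₁ S₀ hG hρ₁ hρ₂ hp2 hpM hM hA e₀ he he')
    (fun b hb' => le_locRing S₀ e₀ ((hchart b).2 hb')) hp2 hM hMI hs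
    (fun b hb' h1 _ => (rho1_eq_locRed S₀ hG hρ₁ e₀ he b hb' h1).symm)
    ⟨(e₀ : ↥(Fbar (M' * p))), le_locRing S₀ e₀ e₀.2⟩
    (Fermat.Agent.ES.W33.LocL4N9.e_unit₁ S₀ hG hρ₁ hρ₂ hp2 hpM hM hA e₀ he he')
    ((hchart _).1 e₀.2) ?_ ?_
    (Fermat.Agent.ES.W33.LocL4N9.L4₁ S₀ hG hρ₁ hρ₂ hp2 hpM hM hA e₀ he he')
  · intro b
    obtain ⟨k, hk⟩ := b.2
    have h := (hchart _).1 hk
    rw [mul_comm ((e₀ : ↥(Fbar (M' * p))) ^ k) (b : ↥(Fbar (M' * p)))] at h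
    exact ⟨k, h⟩
  · intro h2
    have h := he'
    rw [hρ₂] at h
    exact h

include hMI hs hchart in
/-- **level systems at every place of `locChart₂`.** -/
theorem hasLevels_locChart₂ (e₀ : ↥S₀.B) (he : S₀.ρ₂ e₀ ≠ 0) (he' : S₀.ρ₁ e₀ = 0) :
    HasLevels (locChart₂ S₀ hG hρ₁ hρ₂ hp2 hpM hM hA e₀ he he') := by
  refine Fermat.Agent.ES.W33.LocLevelsInstN7.hasLevels_loc₂ n e M' p hpM hb hnM A hA
    (locChart₂ S₀ hG hρ₁ hρ₂ hp2 hpM hM hA e₀ he he')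
    (fun b hb' => le_locRing S₀ e₀ ((hchart b).2 hb')) hp2 hM hMI hs
    (fun b hb' h2 _ => (rho2_eq_locRed S₀ hG hρ₂ e₀ he b hb' h2).symm)
    ⟨(e₀ : ↥(Fbar (M' * p))), le_locRing S₀ e₀ e₀.2⟩
    (Fermat.Agent.ES.W33.LocL4N9.e_unit₂ S₀ hG hρ₁ hρ₂ hp2 hpM hM hA e₀ he he')
    ((hchart _).1 e₀.2) ?_ ?_
    (Fermat.Agent.ES.W33.LocL4N9.L4₂ S₀ hG hρ₁ hρ₂ hp2 hpM hM hA e₀ he he')
  · intro b
    obtain ⟨k, hk⟩ := b.2
    have h := (hchart _).1 hk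
    rw [mul_comm ((e₀ : ↥(Fbar (M' * p))) ^ k) (b : ↥(Fbar (M' * p)))] at h
    exact ⟨k, h⟩
  · intro h1
    have h := he'
    rw [hρ₁] at h
    exact h

/-- the reduction of the coordinate of `locChart₁`. -/
theorem red_sB₁ (e₀ : ↥S₀.B) (he : S₀.ρ₁ e₀ ≠ 0) (he' : S₀.ρ₂ e₀ = 0) :
    (locChart₁ S₀ hG hρ₁ hρ₂ hp2 hpM hM hA e₀ he he').red
      (locChart₁ S₀ hG hρ₁ hρ₂ hp2 hpM hM hA e₀ he he').sB = S₀.ρ₁ S₀.sB :=
  locRed_coe S₀ e₀ S₀.ρ₁ he S₀.sB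

/-- the reduction of the coordinate of `locChart₂`. -/
theorem red_sB₂ (e₀ : ↥S₀.B) (he : S₀.ρ₂ e₀ ≠ 0) (he' : S₀.ρ₁ e₀ = 0) :
    (locChart₂ S₀ hG hρ₁ hρ₂ hp2 hpM hM hA e₀ he he').red
      (locChart₂ S₀ hG hρ₁ hρ₂ hp2 hpM hM hA e₀ he he').sB = S₀.ρ₂ S₀.sB :=
  locRed_coe S₀ e₀ S₀.ρ₂ he S₀.sB

include hMI hs hchart in
/-- **(VAL) + (PIR) at every place of `locChart₁`.** -/
theorem hasPlaces_locChart₁ (htr : Transcendental (kA A) (S₀.ρ₁ S₀.sB))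
    (e₀ : ↥S₀.B) (he : S₀.ρ₁ e₀ ≠ 0) (he' : S₀.ρ₂ e₀ = 0) :
    HasPlaces (locChart₁ S₀ hG hρ₁ hρ₂ hp2 hpM hM hA e₀ he he') :=
  hasPlaces_of_levels (hasLevels_locChart₁ S₀ hG hρ₁ hρ₂ hp2 hpM hM hA hMI hs hchart e₀ he he')
    (by rw [red_sB₁]; exact htr) (pirHyp_N hpM hb hnM hA)

include hMI hs hchart in
/-- **(VAL) + (PIR) at every place of `locChart₂`.** -/
theorem hasPlaces_locChart₂ (htr : Transcendental (kA A) (S₀.ρ₂ S₀.sB))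
    (e₀ : ↥S₀.B) (he : S₀.ρ₂ e₀ ≠ 0) (he' : S₀.ρ₁ e₀ = 0) :
    HasPlaces (locChart₂ S₀ hG hρ₁ hρ₂ hp2 hpM hM hA e₀ he he') :=
  hasPlaces_of_levels (hasLevels_locChart₂ S₀ hG hρ₁ hρ₂ hp2 hpM hM hA hMI hs hchart e₀ he he')
    (by rw [red_sB₂]; exact htr) (pirHyp_N hpM hb hnM hA)

include hMI hs hchart in
/-- **(PEEL-a) at every place of `locChart₁`.** -/
theorem peelA_locChart₁ (htr : Transcendental (kA A) (S₀.ρ₁ S₀.sB))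
    (e₀ : ↥S₀.B) (he : S₀.ρ₁ e₀ ≠ 0) (he' : S₀.ρ₂ e₀ = 0)
    (P : Place Qbar ↥(Fbar (M' * p)))
    (hP : (locChart₁ S₀ hG hρ₁ hρ₂ hp2 hpM hM hA e₀ he he').InChart P) :
    (locChart₁ S₀ hG hρ₁ hρ₂ hp2 hpM hM hA e₀ he he').PeelA P hP :=
  peelA_of_levels (hasLevels_locChart₁ S₀ hG hρ₁ hρ₂ hp2 hpM hM hA hMI hs hchart e₀ he he')
    (by rw [red_sB₁]; exact htr) (pirHyp_N hpM hb hnM hA) P hP

include hMI hs hchart in
/-- **(PEEL-a) at every place of `locChart₂`.** -/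
theorem peelA_locChart₂ (htr : Transcendental (kA A) (S₀.ρ₂ S₀.sB))
    (e₀ : ↥S₀.B) (he : S₀.ρ₂ e₀ ≠ 0) (he' : S₀.ρ₁ e₀ = 0)
    (P : Place Qbar ↥(Fbar (M' * p)))
    (hP : (locChart₂ S₀ hG hρ₁ hρ₂ hp2 hpM hM hA e₀ he he').InChart P) :
    (locChart₂ S₀ hG hρ₁ hρ₂ hp2 hpM hM hA e₀ he he').PeelA P hP :=
  peelA_of_levels (hasLevels_locChart₂ S₀ hG hρ₁ hρ₂ hp2 hpM hM hA hMI hs hchart e₀ he he')
    (by rw [red_sB₂]; exact htr) (pirHyp_N hpM hb hnM hA) P hP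

end Of

/-! ### the two charts `S0N L`, `S1N L` -/

section Inst

variable (L : ChartLeaves n e M' p hb hnM A)
  (hp2 : p ≠ 2) (hpM : ¬ p ∣ M') (hM : 4 ∣ M') (hA : A.LiesOverPrime p)
  (hMI : ModelInput n e p M' A)

/-- the coordinate of chart 1 reduces on branch 1 to the inverse of that of chart 0. -/
theorem ρ₁_sB_S1N : (S1N L).ρ₁ (S1N L).sB = ((S0N L).ρ₁ (S0N L).sB)⁻¹ := by
  rw [S1N_ρ₁, S0N_ρ₁]
  refine eq_inv_of_mul_eq_one_left ?_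
  rw [← map_mul, ← map_one (rho1 M' p A)]
  congr 1
  exact Subtype.ext (inv_mul_cancel₀ (hxN n e M' p hb hnM).ne_zero)

/-- the coordinate of chart 1 reduces on branch 2 to the inverse of that of chart 0. -/
theorem ρ₂_sB_S1N : (S1N L).ρ₂ (S1N L).sB = ((S0N L).ρ₂ (S0N L).sB)⁻¹ := by
  rw [S1N_ρ₂, S0N_ρ₂]
  refine eq_inv_of_mul_eq_one_left ?_
  rw [← map_mul, ← map_one (rho2 M' p A)]
  congr 1
  exact Subtype.ext (inv_mul_cancel₀ (hxN n e M' p hb hnM).ne_zero)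

include hMI in
/-- **(PEEL-a), chart 0, branch 1.** -/
theorem peelA₁0 (e₀ : ↥(S0N L).B) (he : (S0N L).ρ₁ e₀ ≠ 0) (he' : (S0N L).ρ₂ e₀ = 0)
    (P : Place Qbar ↥(Fbar (M' * p)))
    (hP : (locChart₁ (S0N L) L.h0 (fun _ => rfl) (fun _ => rfl) hp2 hpM hM hA e₀ he he').InChart P) :
    (locChart₁ (S0N L) L.h0 (fun _ => rfl) (fun _ => rfl) hp2 hpM hM hA e₀ he he').PeelA P hP :=
  peelA_locChart₁ (S0N L) L.h0 (fun _ => rfl) (fun _ => rfl) hp2 hpM hM hA hMI (Or.inl rfl)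
    (fun _ => Iff.rfl) (Fermat.Agent.ES.W33.TransN4.tr₁ L) e₀ he he' P hP

include hMI in
/-- **(PEEL-a), chart 1, branch 1.** -/
theorem peelA₁1 (e₀ : ↥(S1N L).B) (he : (S1N L).ρ₁ e₀ ≠ 0) (he' : (S1N L).ρ₂ e₀ = 0)
    (P : Place Qbar ↥(Fbar (M' * p)))
    (hP : (locChart₁ (S1N L) L.h1 (fun _ => rfl) (fun _ => rfl) hp2 hpM hM hA e₀ he he').InChart P) :
    (locChart₁ (S1N L) L.h1 (fun _ => rfl) (fun _ => rfl) hp2 hpM hM hA e₀ he he').PeelA P hP :=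
  peelA_locChart₁ (S1N L) L.h1 (fun _ => rfl) (fun _ => rfl) hp2 hpM hM hA hMI (Or.inr rfl)
    (fun _ => Iff.rfl)
    (by rw [ρ₁_sB_S1N]; exact transcendental_inv (Fermat.Agent.ES.W33.TransN4.tr₁ L)) e₀ he he' P hP

include hMI in
/-- **(PEEL-a), chart 0, branch 2.** -/
theorem peelA₂0 (e₀ : ↥(S0N L).B) (he : (S0N L).ρ₂ e₀ ≠ 0) (he' : (S0N L).ρ₁ e₀ = 0)
    (P : Place Qbar ↥(Fbar (M' * p)))
    (hP : (locChart₂ (S0N L) L.h0 (fun _ => rfl) (fun _ => rfl) hp2 hpM hM hA e₀ he he').InChart P) :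
    (locChart₂ (S0N L) L.h0 (fun _ => rfl) (fun _ => rfl) hp2 hpM hM hA e₀ he he').PeelA P hP :=
  peelA_locChart₂ (S0N L) L.h0 (fun _ => rfl) (fun _ => rfl) hp2 hpM hM hA hMI (Or.inl rfl)
    (fun _ => Iff.rfl) (Fermat.Agent.ES.W33.TransN4.tr₂ L hpM hA) e₀ he he' P hP

include hMI in
/-- **(PEEL-a), chart 1, branch 2.** -/
theorem peelA₂1 (e₀ : ↥(S1N L).B) (he : (S1N L).ρ₂ e₀ ≠ 0) (he' : (S1N L).ρ₁ e₀ = 0)
    (P : Place Qbar ↥(Fbar (M' * p)))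
    (hP : (locChart₂ (S1N L) L.h1 (fun _ => rfl) (fun _ => rfl) hp2 hpM hM hA e₀ he he').InChart P) :
    (locChart₂ (S1N L) L.h1 (fun _ => rfl) (fun _ => rfl) hp2 hpM hM hA e₀ he he').PeelA P hP :=
  peelA_locChart₂ (S1N L) L.h1 (fun _ => rfl) (fun _ => rfl) hp2 hpM hM hA hMI (Or.inr rfl)
    (fun _ => Iff.rfl)
    (by rw [ρ₂_sB_S1N]; exact transcendental_inv (Fermat.Agent.ES.W33.TransN4.tr₂ L hpM hA))
    e₀ he he' P hP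

include hMI in
/-- **(VAL) + (PIR), chart 0, branch 1.** -/
theorem hasPlaces₁0 (e₀ : ↥(S0N L).B) (he : (S0N L).ρ₁ e₀ ≠ 0) (he' : (S0N L).ρ₂ e₀ = 0) :
    HasPlaces (locChart₁ (S0N L) L.h0 (fun _ => rfl) (fun _ => rfl) hp2 hpM hM hA e₀ he he') :=
  hasPlaces_locChart₁ (S0N L) L.h0 (fun _ => rfl) (fun _ => rfl) hp2 hpM hM hA hMI (Or.inl rfl)
    (fun _ => Iff.rfl) (Fermat.Agent.ES.W33.TransN4.tr₁ L) e₀ he he'

include hMI in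
/-- **(VAL) + (PIR), chart 1, branch 1.** -/
theorem hasPlaces₁1 (e₀ : ↥(S1N L).B) (he : (S1N L).ρ₁ e₀ ≠ 0) (he' : (S1N L).ρ₂ e₀ = 0) :
    HasPlaces (locChart₁ (S1N L) L.h1 (fun _ => rfl) (fun _ => rfl) hp2 hpM hM hA e₀ he he') :=
  hasPlaces_locChart₁ (S1N L) L.h1 (fun _ => rfl) (fun _ => rfl) hp2 hpM hM hA hMI (Or.inr rfl)
    (fun _ => Iff.rfl)
    (by rw [ρ₁_sB_S1N]; exact transcendental_inv (Fermat.Agent.ES.W33.TransN4.tr₁ L)) e₀ he he'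

include hMI in
/-- **(VAL) + (PIR), chart 0, branch 2.** -/
theorem hasPlaces₂0 (e₀ : ↥(S0N L).B) (he : (S0N L).ρ₂ e₀ ≠ 0) (he' : (S0N L).ρ₁ e₀ = 0) :
    HasPlaces (locChart₂ (S0N L) L.h0 (fun _ => rfl) (fun _ => rfl) hp2 hpM hM hA e₀ he he') :=
  hasPlaces_locChart₂ (S0N L) L.h0 (fun _ => rfl) (fun _ => rfl) hp2 hpM hM hA hMI (Or.inl rfl)
    (fun _ => Iff.rfl) (Fermat.Agent.ES.W33.TransN4.tr₂ L hpM hA) e₀ he he'

include hMI in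
/-- **(VAL) + (PIR), chart 1, branch 2.** -/
theorem hasPlaces₂1 (e₀ : ↥(S1N L).B) (he : (S1N L).ρ₂ e₀ ≠ 0) (he' : (S1N L).ρ₁ e₀ = 0) :
    HasPlaces (locChart₂ (S1N L) L.h1 (fun _ => rfl) (fun _ => rfl) hp2 hpM hM hA e₀ he he') :=
  hasPlaces_locChart₂ (S1N L) L.h1 (fun _ => rfl) (fun _ => rfl) hp2 hpM hM hA hMI (Or.inr rfl)
    (fun _ => Iff.rfl)
    (by rw [ρ₂_sB_S1N]; exact transcendental_inv (Fermat.Agent.ES.W33.TransN4.tr₂ L hpM hA))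
    e₀ he he'

end Inst

end Fermat.Agent.ES.W33.LocPeelN7
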