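/-
Programme W (S33), chapter B1′/(B3′), helper13: **the bridge from the CENTRE form of "no node at
`t = 0`" to the PLACE form `hnode` consumed by `Reg01PropN13.reg01PropN`.**

* `ord_s_eq_zero` (generic, any `T : TwoChartsN`): if the coordinate `s` of chart 0 is a unit at the
  node centre `j` (`T.nodeChi j T.S0.sB ≠ 0`), every place through the node `j` has `ord_P s = 0`;
* `hnode_rN` (instance, ruling (A)): `∀ j, (TR L' R).nodeChi j (S0N L).sB ≠ 0` implies
  `∀ P j, rN … P = Sum.inr j → P.ord (tN …) = 0`, LITERALLY the hypothesis `hnode` of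
  `Reg01PropN13.reg01PropN`.
-/
import Mathlib
import Fermat.Agent.ES.W33.TwoChartsNRN20

set_option autoImplicit false
set_option synthInstance.maxHeartbeats 400000
set_option linter.unusedSectionVars false

open AlgebraicCurve ModularCurve

noncomputable section

namespace Fermat.Agent.ES.W33.HnodeBridge13

open Fermat.Agent.RED.Interface4 Fermat.Agent.RED.BASE.Hauptmodul12
  Fermat.Agent.ES.RED.Contract8 Fermat.Agent.ES.RED.ModelInst4
  Fermat.Agent.X0.FF Fermat.Agent.ES.W33.NodalDefs3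
open Fermat.Agent.ES.W33.NodalChart20 Fermat.Agent.ES.W33.TwoChartsN20
  Fermat.Agent.ES.W33.TwoChartsNInst20 Fermat.Agent.ES.W33.TwoChartsNRN20

section Generic

variable {L : Type*} [Field L] [IsAlgClosed L] {A : ValuationSubring L}
variable {F : Type*} [Field F] [Algebra L F] {x : F} {hx : IsGen L x}
variable {Ft₁ Ft₂ : Type*} [Field Ft₁] [Algebra (kA A) Ft₁] [Field Ft₂] [Algebra (kA A) Ft₂]
variable {nn : ℕ} (T : TwoChartsN A hx Ft₁ Ft₂ nn)

/-- if the coordinate of chart 0 is a unit at the node centre `j`, it has neither a zero nor a pole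
at the places through the node `j`. -/
theorem ord_s_eq_zero {j : Fin nn} (hj : T.nodeChi j T.S0.sB ≠ 0) {P : Place L F}
    (hP : T.r P = Sum.inr j) : P.ord T.S0.s = 0 := by
  obtain ⟨h0, hχ⟩ := (T.r_eq_inr_iff P j).1 hP
  have hmem : T.S0.s ∈ P.toValuationSubring := h0.1
  have h1 : 0 ≤ P.ord T.S0.s := (ffp_mem_iff_ord_nonneg P).1 hmem
  have hne : T.S0.chi P h0 T.S0.sB ≠ 0 := by rwa [← hχ] at hj
  have hev : T.S0.ev P h0 T.S0.sB ≠ 0 := by
    intro h
    apply hne
    rw [T.S0.chi_apply, h, map_zero]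
  have h2 : ¬ ((T.S0.sB : F) = 0 ∨ 0 < P.ord (T.S0.sB : F)) := fun h =>
    hev ((T.S0.ev_eq_zero_iff P h0 T.S0.sB).2 h)
  have h3 : ¬ 0 < P.ord T.S0.s := fun h => h2 (Or.inr h)
  omega

end Generic

section Instance

variable {n e M' : ℕ} [NeZero n] [NeZero M'] {p : ℕ} [Fact p.Prime] {hpM : ¬ p ∣ M'}
  {hb : BaseHyp n e} {hnM : n ∣ M'} {A : ValuationSubring Qbar} {hA : A.LiesOverPrime p}
  {L : ChartLeaves n e M' p hb hnM A} (L' : PlaceLeaves L)
  (R : R1Leaves n e M' p hpM hb hnM A hA L)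

/-- **`hnode` of `Reg01PropN13.reg01PropN`** from "`t` is a unit at every node centre". -/
theorem hnode_rN (hnode0 : ∀ j, (TR L' R).nodeChi j (S0N L).sB ≠ 0)
    (P : Place Qbar ↥(Fbar (M' * p))) (j : Fin (sN n e M' p hpM hb hnM A hA))
    (hP : rN n e M' p hpM hb hnM A hA P = Sum.inr j) : P.ord (tN n e M' p hb hnM) = 0 :=
  ord_s_eq_zero (TR L' R) (hnode0 j) ((TR_r L' R P).trans hP)

end Instance

end Fermat.Agent.ES.W33.HnodeBridge13
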