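/-
Programme W (S33), chapter B1′ (`h¹` of the twisted Čech complex of the NODAL fibre), leaf (M4)
`SurjPropN`, piece **(C4) `hRV₁` — THE NODES ARE RATIONAL AT LARGE LEVEL** (helper13).

Consumer: helper24's `SurjAsmN24.exists_lift_of_glued` / `surjPropN_of` (hypotheses `hRV₁`, `hRV0`,
`hRV1`) = helper17's `GluedLiftK17.exists_common_span_of_nodes`:
  `∀ (b : ↥Bc) (j : Fin sN), ∃ c : Res (AK A K), ValAt (nodesN.ν₁ j) (rhoK1 … b) (resMap A K c)`
with `rhoK1 … b = (redN ⟨bc b, hB b b.2⟩).1` BY `rfl`, `Bc := chart ↥(AK A K) tK` resp.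
`chart ↥(AK A K) tK⁻¹`.

* §1 `valueHom_bc_eq` : the value at `P` of the base change of `z ∈ K·F_M` is the (`K`-valued) value
  of `z` at the rational place `P|_K` (any generator `x` of `ℚ̄·F_M`);
* §2 `exists_res_valAt` (generic, any `S : NodalChart A hx Ft₁ Ft₂` on `ℚ̄·F_M`): if `P` lies in the
  chart, on the first component, `O_Q = cSubring χ_P ρ₁`, and `P|_K` is rational, then for every
  `z ∈ K·F_M` with `bc z` in the chart ring the value of `ρ₁ (bc z)` at `Q` comes from the residue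
  field of `A ∩ K`;
* §3 the instance: `nodePt_inChart₁` (a node centre where `t` is a unit lies in chart 1),
  **`hRV_chart0`**, **`hRV_chart1`** (the literal conclusions of `hRV0` / `hRV1`, for one `K` at
  which the node places `nodePt j` restrict to rational places), `exists_level_nodes` (such `K`:
  all `K ⊇ K₁`, `K₁` a number field; `PlaceRestrict13.exists_level`), and **`exists_level_hRV`** (both
  charts, all large `K`).
Inputs of §3: `L' : PlaceLeaves L`, `R : R1Leaves … L` (helper20's bundles; `H.placeLeaves`, `H.R` for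
`H : NodalCtxRN20.RNLeaves …`), and for chart 1 the centre form of "no node at `t = 0`":
`hnode0 : ∀ j, (TR L' R).nodeChi j (S0N L).sB ≠ 0` (the same hypothesis as `HnodeBridge13.hnode_rN`).
-/
import Mathlib
import Fermat.Agent.ES.W33.TwoChartsNRN20
import Fermat.Agent.ES.W33.PlaceRestrict13
import Fermat.Agent.ES.RED.ChartUnion1

set_option autoImplicit false
set_option synthInstance.maxHeartbeats 400000
set_option linter.unusedSectionVars false

open AlgebraicCurve ModularCurve HahnSeries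

noncomputable section

namespace Fermat.Agent.ES.W33.RatNodes13

open Fermat.Agent.RED.Interface4 Fermat.Agent.RED.BASE.Hauptmodul12
  Fermat.Agent.RED.DESC.PlaceExtend27 Fermat.Agent.RED.DESC.NumberFieldDVR27
  Fermat.Agent.RED.PUR.ChartGeneric22 Fermat.Agent.RED.PUR.GaussGen8
  Fermat.Agent.ES.RED.Contract8 Fermat.Agent.ES.RED.ModelInst4 Fermat.Agent.ES.RED.PlaceValue13
  Fermat.Agent.ES.N34.GalRational1
  Fermat.Agent.X0 Fermat.Agent.X0.FF
  Fermat.Agent.ES.W33.XiIfaceN29 Fermat.Agent.ES.W33.ValAt29 Fermat.Agent.ES.W33.NodalDefs3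
  Fermat.Agent.ES.W33.PlaceRestrict13
open Fermat.Agent.ES.W33.CentreN20 Fermat.Agent.ES.W33.NodalChart20 Fermat.Agent.ES.W33.TwoChartsN20
  Fermat.Agent.ES.W33.NodalGlue20 Fermat.Agent.ES.W33.TwoChartsNInst20
  Fermat.Agent.ES.W33.TwoChartsNRN20

/-! ### §1 values of base changes at rational restrictions -/

section Value

variable {M : ℕ} [NeZero M] {K : IntermediateField ℚ Qbar}

/-- **value compatibility, any generator**: at a rational `P|_K`, the value of `ι z` at `P` is the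
value of `z` at `P|_K`. -/
theorem valueHom_bc_eq {x : ↥(Fbar M)} (hx : IsGen Qbar x) (P : Place Qbar ↥(Fbar M))
    (hw : IsRational (restrictK M K P)) (z : ↥(FK M K))
    (hz : baseChangeHom M K z ∈ P.toValuationSubring) :
    valueHom hx P ⟨baseChangeHom M K z, hz⟩ =
      ((hw.valueHom ⟨z, (mem_restrictK_iff P z).2 hz⟩ : K) : Qbar) := by
  have h := hw.sub_valueHom_mem ⟨z, (mem_restrictK_iff P z).2 hz⟩
  rw [ValuationSubring.valuation_lt_one_iff] at h
  rw [valueHom_eq_iff_sub_mem, ValuationSubring.valuation_lt_one_iff]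
  have h' : (restrictK M K P).toValuationSubring.valuation
      (z - algebraMap K ↥(FK M K) (hw.valueHom ⟨z, (mem_restrictK_iff P z).2 hz⟩)) < 1 := h
  rw [valuation_lt_one_iff, map_sub, baseChangeHom_algebraMap] at h'
  exact h'

end Value

/-! ### §2 the value at a branch point comes from the residue field of `A ∩ K` -/

section Generic

variable {M : ℕ} [NeZero M] {K : IntermediateField ℚ Qbar} {A : ValuationSubring Qbar}
variable {x : ↥(Fbar M)} {hx : IsGen Qbar x}
variable {Ft₁ Ft₂ : Type*} [Field Ft₁] [Algebra (kA A) Ft₁] [Field Ft₂] [Algebra (kA A) Ft₂]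

/-- **(C4), generic chart.**  `P` in the chart `S`, on the first component, `Q` the point of the
first component at the centre of `P`, `P|_K` rational: the value of `ρ₁ (ι z)` at `Q` is the image
of a residue class of `A ∩ K`. -/
theorem exists_res_valAt (S : NodalChart A hx Ft₁ Ft₂) (P : Place Qbar ↥(Fbar M))
    (hP : S.InChart P) (hon : S.On₁ P hP) (Q : Place (kA A) Ft₁)
    (hQ : ∀ y : Ft₁, y ∈ Q.toValuationSubring ↔ y ∈ cSubring (S.chi P hP) S.ρ₁)
    (hw : IsRational (restrictK M K P)) (z : ↥(FK M K)) (hzB : baseChangeHom M K z ∈ S.B) :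
    ∃ c : Res (AK A K), ValAt Q (S.ρ₁ ⟨baseChangeHom M K z, hzB⟩) (resMap A K c) := by
  have hval : ValAt Q (S.ρ₁ ⟨baseChangeHom M K z, hzB⟩) (S.chi P hP ⟨baseChangeHom M K z, hzB⟩) :=
    valAt_of_isCentre (S.isCentre₁ P hP hon) Q hQ ⟨baseChangeHom M K z, hzB⟩
  have hz : baseChangeHom M K z ∈ P.toValuationSubring := S.mem_place P hP _ hzB
  have hev : ((S.ev P hP ⟨baseChangeHom M K z, hzB⟩ : ↥A) : Qbar) =
      ((hw.valueHom ⟨z, (mem_restrictK_iff P z).2 hz⟩ : K) : Qbar) :=
    valueHom_bc_eq hx P hw z hz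
  have hκA : hw.valueHom ⟨z, (mem_restrictK_iff P z).2 hz⟩ ∈ AK A K := by
    rw [mem_AK_iff, ← hev]
    exact (S.ev P hP ⟨baseChangeHom M K z, hzB⟩).2
  refine ⟨res0 (AK A K) ⟨hw.valueHom ⟨z, (mem_restrictK_iff P z).2 hz⟩, hκA⟩, ?_⟩
  have hχ : S.chi P hP ⟨baseChangeHom M K z, hzB⟩ =
      resMap A K (res0 (AK A K) ⟨hw.valueHom ⟨z, (mem_restrictK_iff P z).2 hz⟩, hκA⟩) := by
    rw [resMap_residue, S.chi_apply]
    congr 1
    exact Subtype.ext hev
  rw [← hχ]
  exact hval

end Generic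

/-! ### §3 the instance -/

section Instance

variable {n e M' : ℕ} [NeZero n] [NeZero M'] {p : ℕ} [Fact p.Prime] {hpM : ¬ p ∣ M'}
  {hb : BaseHyp n e} {hnM : n ∣ M'} {A : ValuationSubring Qbar} {hA : A.LiesOverPrime p}
  {L : ChartLeaves n e M' p hb hnM A} (L' : PlaceLeaves L)
  (R : R1Leaves n e M' p hpM hb hnM A hA L)

/-- a node centre at which `t` is a unit lies in chart 1. -/
theorem nodePt_inChart₁ (j : Fin (sN n e M' p hpM hb hnM A hA))
    (hj : (TR L' R).nodeChi j (S0N L).sB ≠ 0) :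
    (S1N L).InChart (nodePt (hpM := hpM) (hA := hA) j) := by
  have h0 : (S0N L).InChart (nodePt (hpM := hpM) (hA := hA) j) := (nodePt_node L' j).choose
  have hne : (S0N L).chi (nodePt (hpM := hpM) (hA := hA) j) h0 (S0N L).sB ≠ 0 := hj
  obtain ⟨hinvA, hne0⟩ := (chi_ne_zero_iff (S0N L) _ h0 (S0N L).sB).1 hne
  obtain ⟨hinv, hval⟩ :=
    Fermat.Agent.ES.RED.TwoCharts8.TwoCharts.inv_mem_and_value (hx := hxN n e M' p hb hnM)
      h0.1 hne0
  have hmem : (S1N L).s ∈ (nodePt (hpM := hpM) (hA := hA) j).toValuationSubring := hinv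
  refine ⟨hmem, ?_⟩
  have h1 : (⟨(S1N L).s, hmem⟩ : ↥(nodePt (hpM := hpM) (hA := hA) j).toValuationSubring) =
      ⟨(S0N L).s⁻¹, hinv⟩ := rfl
  rw [h1, hval]
  exact hinvA

include L' R in
/-- **(C4) `hRV0`, chart 0**: for a level `K` at which the node places restrict to rational places,
the value of `(redN (bc b)).1` at the first branch `ν₁ j` of every node comes from the residue field
of `A ∩ K`, for every `b` of the chart ring `chart ↥(AK A K) tK` of level `K`. -/
theorem hRV_chart0 {K : IntermediateField ℚ Qbar}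
    (hrat : ∀ j : Fin (sN n e M' p hpM hb hnM A hA),
      IsRational (restrictK (M' * p) K (nodePt (hpM := hpM) (hA := hA) j)))
    {tK : ↥(FK (M' * p) K)} (hbc : baseChangeHom (M' * p) K tK = tN n e M' p hb hnM)
    (b : ↥(FK (M' * p) K)) (hbB : b ∈ chart ↥(AK A K) tK)
    (hG : baseChangeHom (M' * p) K b ∈ GN M' p A) (j : Fin (sN n e M' p hpM hb hnM A hA)) :
    ∃ c : Res (AK A K), ValAt ((nodesN n e M' p hpM hb hnM A hA).ν₁ j)
      (redN M' p A ⟨baseChangeHom (M' * p) K b, hG⟩).1 (resMap A K c) := by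
  obtain ⟨hon₁, -⟩ := (nodePt_node L' j).choose_spec
  have hzB : baseChangeHom (M' * p) K b ∈ (S0N L).B := by
    have h := Fermat.Agent.ES.RED.ChartUnion1.baseChangeHom_mem_chart A (M' * p) K tK b hbB
    rw [hbc] at h
    exact h
  rw [ν₁_eq]
  exact exists_res_valAt (S0N L) _ (nodePt_node L' j).choose hon₁ _ (R.r1₀ _ _ hon₁) (hrat j) b hzB

include L' R in
/-- **(C4) `hRV1`, chart 1** (needs "`t` is a unit at every node centre"). -/
theorem hRV_chart1 (hnode0 : ∀ j, (TR L' R).nodeChi j (S0N L).sB ≠ 0)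
    {K : IntermediateField ℚ Qbar}
    (hrat : ∀ j : Fin (sN n e M' p hpM hb hnM A hA),
      IsRational (restrictK (M' * p) K (nodePt (hpM := hpM) (hA := hA) j)))
    {tK : ↥(FK (M' * p) K)} (hbc : baseChangeHom (M' * p) K tK = tN n e M' p hb hnM)
    (b : ↥(FK (M' * p) K)) (hbB : b ∈ chart ↥(AK A K) tK⁻¹)
    (hG : baseChangeHom (M' * p) K b ∈ GN M' p A) (j : Fin (sN n e M' p hpM hb hnM A hA)) :
    ∃ c : Res (AK A K), ValAt ((nodesN n e M' p hpM hb hnM A hA).ν₁ j)
      (redN M' p A ⟨baseChangeHom (M' * p) K b, hG⟩).1 (resMap A K c) := by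
  obtain ⟨hon₁, -⟩ := (nodePt_node L' j).choose_spec
  have h1 : (S1N L).InChart (nodePt (hpM := hpM) (hA := hA) j) :=
    nodePt_inChart₁ L' R j (hnode0 j)
  have hon₁' : (S1N L).On₁ (nodePt (hpM := hpM) (hA := hA) j) h1 :=
    ((TR L' R).on₁_iff _ (nodePt_node L' j).choose h1).1 hon₁
  have hzB : baseChangeHom (M' * p) K b ∈ (S1N L).B := by
    have h := Fermat.Agent.ES.RED.ChartUnion1.baseChangeHom_mem_chart A (M' * p) K tK⁻¹ b hbB
    rw [map_inv₀, hbc] at h
    exact h
  rw [ν₁_eq]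
  exact exists_res_valAt (S1N L) _ h1 hon₁' _ (R.r1₁ _ _ hon₁') (hrat j) b hzB

/-- **the node places are rational at all large levels.** -/
theorem exists_level_nodes (K₀ : IntermediateField ℚ Qbar) [FiniteDimensional ℚ K₀] :
    ∃ K₁ : IntermediateField ℚ Qbar, FiniteDimensional ℚ K₁ ∧ K₀ ≤ K₁ ∧
      ∀ K : IntermediateField ℚ Qbar, K₁ ≤ K → ∀ j : Fin (sN n e M' p hpM hb hnM A hA),
        IsRational (restrictK (M' * p) K (nodePt (hpM := hpM) (hA := hA) j)) := by
  classical
  obtain ⟨K₁, hfin, hK₀, H⟩ := exists_level (M' * p) K₀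
    (Finset.univ.image fun j : Fin (sN n e M' p hpM hb hnM A hA) =>
      nodePt (hpM := hpM) (hA := hA) j)
  exact ⟨K₁, hfin, hK₀, fun K hK j =>
    (H K hK _ (Finset.mem_image_of_mem _ (Finset.mem_univ j))).1⟩

/-- **(C4), both charts, all large levels**: there is a number field `K₁ ⊇ K₀` such that for every
`K ⊇ K₁` and every `tK` with `bc tK = tN` the conclusions of `hRV0` and `hRV1` hold. -/
theorem exists_level_hRV (hnode0 : ∀ j, (TR L' R).nodeChi j (S0N L).sB ≠ 0)
    (K₀ : IntermediateField ℚ Qbar) [FiniteDimensional ℚ K₀] :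
    ∃ K₁ : IntermediateField ℚ Qbar, FiniteDimensional ℚ K₁ ∧ K₀ ≤ K₁ ∧
      ∀ K : IntermediateField ℚ Qbar, K₁ ≤ K → ∀ tK : ↥(FK (M' * p) K),
        baseChangeHom (M' * p) K tK = tN n e M' p hb hnM →
        (∀ b ∈ chart ↥(AK A K) tK, ∀ (hG : baseChangeHom (M' * p) K b ∈ GN M' p A)
          (j : Fin (sN n e M' p hpM hb hnM A hA)),
          ∃ c : Res (AK A K), ValAt ((nodesN n e M' p hpM hb hnM A hA).ν₁ j)
            (redN M' p A ⟨baseChangeHom (M' * p) K b, hG⟩).1 (resMap A K c)) ∧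
        ∀ b ∈ chart ↥(AK A K) tK⁻¹, ∀ (hG : baseChangeHom (M' * p) K b ∈ GN M' p A)
          (j : Fin (sN n e M' p hpM hb hnM A hA)),
          ∃ c : Res (AK A K), ValAt ((nodesN n e M' p hpM hb hnM A hA).ν₁ j)
            (redN M' p A ⟨baseChangeHom (M' * p) K b, hG⟩).1 (resMap A K c) := by
  obtain ⟨K₁, hfin, hK₀, H⟩ := exists_level_nodes (hpM := hpM) (hA := hA) (n := n) (e := e)
    (hb := hb) (hnM := hnM) K₀
  exact ⟨K₁, hfin, hK₀, fun K hK tK hbc =>
    ⟨fun b hbB hG j => hRV_chart0 L' R (H K hK) hbc b hbB hG j,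
      fun b hbB hG j => hRV_chart1 L' R hnode0 (H K hK) hbc b hbB hG j⟩⟩

end Instance

end Fermat.Agent.ES.W33.RatNodes13
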