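/-
Programme W (S33), chapter B1' leaf (M4) `SurjPropN`, piece **(C5) SPAN, COMPONENT 1**
(helper17's cut; ruling w42), helper24.

`p` odd, `p ∤ M'`, `4 ∣ M'`, base `(4, 8)`, `A ≤ ℚ̄` over `p`, `t := NodalDefs3.tN 4 8 M' p …`,
`t̃₁ := (redN t).1`.  Over every sufficiently large number field `K ⊂ ℚ̄`, for the two charts
`Bc = chart (A ∩ K) tK^{±1}` of level `M' p` (`tK := ModelDefs9.tN p ht`):

  every `f₁ ∈ F̃_{M'}` regular wherever `t̃₁^{±1}` is regular is a `k̄`-combination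
  `f₁ = ∑ ω_l • rhoK1 (b_l)`, `b_l ∈ Bc`                       (`hspan0₁`, `hspan1₁` of
                                                               `SurjAsmN24.surjPropN_of`).

Proof: `t̃₁` is the reduction `SpecialGen25.tRes` of the Hauptmodul of the GOOD level `M'`
(`LevelCompare3.bc_mem_O1`: the first reduction of `bc x` is the coefficientwise reduction of the
expansion of `x`, and `alpha` is the identity on `q`-expansions); helper17's special-fibre base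
change at the good level (`V19/SpecialSpanInst17.exists_sum_level0/1`, through the finite-level
package `LevelK24.exists_levelHyps`) writes `f₁ = ∑ ω_l · red (b⁰_l)`, `b⁰_l` in the chart of level
`M'`; take `b_l := alpha b⁰_l`.
-/
import Mathlib
import Fermat.Agent.ES.V19.SurjPropInst17
import Fermat.Agent.ES.V19.LevelK24
import Fermat.Agent.ES.N34.ModelN4
import Fermat.Agent.RED.CUSP.RankConcrete16
import Fermat.Agent.ES.W33.LevelCompare3
import Fermat.Agent.ES.W33.SurjAsmN24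

set_option autoImplicit false
set_option linter.unusedSectionVars false
set_option linter.dupNamespace false
set_option linter.style.haveILetI false
set_option synthInstance.maxHeartbeats 400000
set_option maxHeartbeats 1000000

open AlgebraicCurve ModularCurve IntermediateField HahnSeries

noncomputable section

namespace Fermat.Agent.ES.W33.SpanOneN24

open Fermat.Agent.RED.Interface4 Fermat.Agent.RED.DESC.PlaceExtend27
  Fermat.Agent.RED.DESC.NumberFieldDVR27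
  Fermat.Agent.RED.PUR.ChartGeneric22 Fermat.Agent.RED.PUR.GaussGen8
  Fermat.Agent.RED.PUR.GaussBridge10
  Fermat.Agent.RED.BASE.EtaQuot12 Fermat.Agent.RED.BASE.Interface12
  Fermat.Agent.RED.BASE.Hauptmodul12
  Fermat.Agent.ES.RED.Contract8 Fermat.Agent.ES.RED.ModelInst4 Fermat.Agent.ES.RED.FibreSurj17
  Fermat.Agent.ES.RED.SpecialGen25
  Fermat.Agent.ES.V19.CechIface12 Fermat.Agent.ES.N34.ModelDefs9
  Fermat.Agent.ES.W33.NodalDefs3 Fermat.Agent.ES.W33.SurjAsmN24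

variable (M' : ℕ) [NeZero M'] (p : ℕ) [Fact p.Prime] (A : ValuationSubring Qbar)

section Level

variable {M' p A}
variable {K : IntermediateField ℚ Qbar} [FiniteDimensional ℚ K]
  [IsDiscreteValuationRing ↥(AK A K)] {ϖ : ↥(AK A K)}

/-- **the first reduction of `bc (alpha b⁰)`** is the coefficientwise reduction of `b⁰`
(`b⁰` in a chart of the good level). -/
theorem coe_rho1_alpha (hpM : ¬ p ∣ M') (hp2 : p ≠ 2) (hM : 4 ∣ M') (hA : A.LiesOverPrime p)
    (hϖ : Irreducible ϖ) (s : ↥(FK M' K)) (hs : (s : LaurentSeries K) ∈ gaussRing (AK A K))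
    (b₀ : ↥(chart ↥(AK A K) s))
    (hX : baseChangeHom (M' * p) K (alpha K M' p (b₀ : ↥(FK M' K))) ∈ O1 M' p A) :
    ((rho1 M' p A ⟨baseChangeHom (M' * p) K (alpha K M' p (b₀ : ↥(FK M' K))), hX⟩ : Ft M' A) :
        LaurentSeries (kA A)) =
      coeffMap (resMap A K) (chartRed hϖ (FK_le_fracField A K M') s hs b₀) := by
  have hu : IsUnif (AK A K) ϖ := isUnif_of_irreducible (AK A K) hϖ
  have hx1 : alpha K M' p (b₀ : ↥(FK M' K)) ∈
      Fermat.Agent.ES.N34.ModelDefs9.O1 M' p hu (FK_le_fracField A K (M' * p)) := by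
    rw [Fermat.Agent.ES.N34.ModelDefs9.mem_O1_iff, coe_alpha]
    exact coe_mem_gaussRing hϖ (FK_le_fracField A K M') s hs b₀
  obtain ⟨hX', hρ⟩ := Fermat.Agent.ES.W33.LevelCompare3.bc_mem_O1 M' p A hp2 hpM hM hA hu
    (FK_le_fracField A K (M' * p)) (alpha K M' p (b₀ : ↥(FK M' K))) hx1
  rw [hρ, chartRed_apply]
  congr 2

/-- the `q`-expansion of `ω • rhoK1 (alpha b⁰)`. -/
theorem coe_smul_rhoK1_alpha (hpM : ¬ p ∣ M') (hp2 : p ≠ 2) (hM : 4 ∣ M')
    (hA : A.LiesOverPrime p) (hϖ : Irreducible ϖ) (s : ↥(FK M' K))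
    (hs : (s : LaurentSeries K) ∈ gaussRing (AK A K)) (b₀ : ↥(chart ↥(AK A K) s))
    (Bc : Subalgebra ↥(AK A K) ↥(FK (M' * p) K))
    (hB : ∀ b ∈ Bc, baseChangeHom (M' * p) K b ∈ GN M' p A)
    (hmem : alpha K M' p (b₀ : ↥(FK M' K)) ∈ Bc) (ω : kA A) :
    ((ω • rhoK1 M' p A K Bc hB ⟨alpha K M' p (b₀ : ↥(FK M' K)), hmem⟩ : Ft M' A) :
        LaurentSeries (kA A)) =
      algebraMap (kA A) (LaurentSeries (kA A)) ω *
        coeffMap (resMap A K) (chartRed hϖ (FK_le_fracField A K M') s hs b₀) := by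
  rw [IntermediateField.coe_smul, Algebra.smul_def]
  congr 1
  exact coe_rho1_alpha hpM hp2 hM hA hϖ s hs b₀ (GN_le_O1 M' p A (hB _ hmem))

end Level

/-- **(C5), component 1, both charts**, over all large number fields. -/
theorem hspan_one (hpM : ¬ p ∣ M') (hp2 : p ≠ 2) (hM : 4 ∣ M') (hA : A.LiesOverPrime p) :
    ∃ K₀ : IntermediateField ℚ Qbar, FiniteDimensional ℚ K₀ ∧
      ∀ K : IntermediateField ℚ Qbar, FiniteDimensional ℚ K → K₀ ≤ K →
        ∀ (ht : tq ↥K 4 8 ∈ FK M' K)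
          (hB0 : ∀ b ∈ chart ↥(AK A K) (tN p ht), baseChangeHom (M' * p) K b ∈ GN M' p A)
          (hB1 : ∀ b ∈ chart ↥(AK A K) (tN p ht)⁻¹, baseChangeHom (M' * p) K b ∈ GN M' p A)
          (htG : Fermat.Agent.ES.W33.NodalDefs3.tN 4 8 M' p baseHyp_four hM ∈ GN M' p A),
          (∀ f₁ : Ft M' A,
            Reg (kA A) (redN M' p A ⟨Fermat.Agent.ES.W33.NodalDefs3.tN 4 8 M' p baseHyp_four hM,
              htG⟩).1 f₁ →
            ∃ (m : ℕ) (ω : Fin m → kA A) (b : Fin m → ↥(chart ↥(AK A K) (tN p ht))),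
              f₁ = ∑ l, ω l • rhoK1 M' p A K _ hB0 (b l)) ∧
          (∀ f₁ : Ft M' A,
            Reg (kA A) (redN M' p A ⟨Fermat.Agent.ES.W33.NodalDefs3.tN 4 8 M' p baseHyp_four hM,
              htG⟩).1⁻¹ f₁ →
            ∃ (m : ℕ) (ω : Fin m → kA A) (b : Fin m → ↥(chart ↥(AK A K) (tN p ht)⁻¹)),
              f₁ = ∑ l, ω l • rhoK1 M' p A K _ hB1 (b l)) := by
  obtain ⟨K₀, hK₀, H⟩ := Fermat.Agent.ES.V19.LevelK24.exists_levelHyps (n := 4) (e := 8)
    (M := M') (A := A) (ℓ := p) hpM hA baseHyp_four hM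
  refine ⟨K₀, hK₀, fun K hK hle ht hB0 hB1 htG => ?_⟩
  haveI := hK
  obtain ⟨hdvr, H'⟩ := H K hK hle
  haveI := hdvr
  obtain ⟨ϖ, hϖ⟩ := IsDiscreteValuationRing.exists_irreducible ↥(AK A K)
  have LH := H' ϖ hϖ (tM ht) rfl
  have hu : IsUnif (AK A K) ϖ := isUnif_of_irreducible (AK A K) hϖ
  obtain ⟨nn, hn, hdeg, hirr⟩ := LH.hdeg
  -- `t̃₁ = tRes`
  have hmem : TMem 4 8 M' := tMem_of_dvd baseHyp_four hM
  have hgen : TGenBase 4 8 := tGenBase' baseHyp_four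
  have hbc : baseChangeHom (M' * p) K (tN p ht) =
      Fermat.Agent.ES.W33.NodalDefs3.tN 4 8 M' p baseHyp_four hM :=
    Fermat.Agent.RED.CUSP.RankConcrete16.baseChangeHom_eq_tF (M' * p) K
      (tMem_of_dvd baseHyp_four (Dvd.dvd.mul_right hM p)) (tN p ht) (coe_tN p ht)
  have htt : (redN M' p A ⟨Fermat.Agent.ES.W33.NodalDefs3.tN 4 8 M' p baseHyp_four hM, htG⟩).1 =
      tRes 4 8 M' p hpM hmem hgen A hA := by
    apply Subtype.ext
    rw [redN_fst]
    have h1 : (⟨Fermat.Agent.ES.W33.NodalDefs3.tN 4 8 M' p baseHyp_four hM,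
        GN_le_O1 M' p A htG⟩ : ↥(O1 M' p A)) =
        ⟨baseChangeHom (M' * p) K (alpha K M' p
          ((⟨tM ht, self_mem_chart (tM ht)⟩ : ↥(chart ↥(AK A K) (tM ht))) : ↥(FK M' K))),
          hbc ▸ GN_le_O1 M' p A htG⟩ := Subtype.ext hbc.symm
    rw [h1, coe_rho1_alpha hpM hp2 hM hA hϖ (tM ht) LH.ht ⟨tM ht, self_mem_chart (tM ht)⟩,
      chartRed_self]
    exact (Fermat.Agent.ES.V19.SurjPropInst17.coe_tRes_eq_gaussRed 4 8 p hpM hmem hgen hA K
      (tM ht) rfl LH.ht).symm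
  have hcoett := Fermat.Agent.ES.V19.SurjPropInst17.coe_tRes_eq_gaussRed 4 8 p hpM hmem hgen hA K
      (tM ht) rfl LH.ht
  -- the two memberships `alpha (chart) ⊆ chart`
  have ha0 : ∀ x : ↥(chart ↥(AK A K) (tM ht)),
      alpha K M' p (x : ↥(FK M' K)) ∈ chart ↥(AK A K) (tN p ht) := fun x =>
    Fermat.Agent.ES.N34.ModelN4.map_mem_chart (alpha K M' p : ↥(FK M' K) →+* ↥(FK (M' * p) K))
      (Fermat.Agent.ES.N34.ModelN4.algHom_algebraMap_O (AK A K) (FK M' K) (FK (M' * p) K)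
        (alpha K M' p)) (self_mem_chart (tN p ht)) x.2
  have ha1 : ∀ x : ↥(chart ↥(AK A K) (tM ht)⁻¹),
      alpha K M' p (x : ↥(FK M' K)) ∈ chart ↥(AK A K) (tN p ht)⁻¹ := fun x =>
    Fermat.Agent.ES.N34.ModelN4.map_mem_chart (alpha K M' p : ↥(FK M' K) →+* ↥(FK (M' * p) K))
      (Fermat.Agent.ES.N34.ModelN4.algHom_algebraMap_O (AK A K) (FK M' K) (FK (M' * p) K)
        (alpha K M' p))
      (show (alpha K M' p : ↥(FK M' K) →+* ↥(FK (M' * p) K)) (tM ht)⁻¹ ∈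
          chart ↥(AK A K) (tN p ht)⁻¹ by
        rw [map_inv₀]; exact self_mem_chart _) x.2
  refine ⟨fun f₁ hf₁ => ?_, fun f₁ hf₁ => ?_⟩
  · -- chart 0
    rw [htt] at hf₁
    have h1 := Fermat.Agent.ES.V19.SurjProp17.isIntegral_coe
      (Fermat.Agent.ES.V19.SurjPropInst17.isIntegral_of_reg_tRes 4 8 M' p hpM hmem hgen A hA
        f₁ hf₁)
    rw [hcoett] at h1
    obtain ⟨m, ω, b₀, hsum⟩ := Fermat.Agent.ES.V19.SpecialSpanInst17.exists_sum_level0 p hA hpM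
      hϖ (tM ht) LH.ht LH.htr hn hdeg hirr LH.hsm0 f₁.2 h1
    refine ⟨m, ω, fun l => ⟨alpha K M' p ((b₀ l : ↥(chart ↥(AK A K) (tM ht))) : ↥(FK M' K)),
      ha0 (b₀ l)⟩, ?_⟩
    apply Subtype.ext
    rw [hsum, AddSubmonoidClass.coe_finsetSum]
    refine Finset.sum_congr rfl fun l _ => ?_
    exact (coe_smul_rhoK1_alpha hpM hp2 hM hA hϖ (tM ht) LH.ht (b₀ l) _ hB0 (ha0 (b₀ l))
      (ω l)).symm
  · -- chart 1
    rw [htt] at hf₁
    have h1 := Fermat.Agent.ES.V19.SurjProp17.isIntegral_coe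
      (Fermat.Agent.ES.V19.SurjPropInst17.isIntegral_of_reg_tRes_inv 4 8 M' p hpM hmem hgen A hA
        f₁ hf₁)
    have h2 : ((((tRes 4 8 M' p hpM hmem hgen A hA)⁻¹ :
        ↥(modularFunctionFieldFullC (kA A) M')) : LaurentSeries (kA A))) =
        (coeffMap (resMap A K) (gaussRed (AK A K) ⟨((tM ht : ↥(FK M' K)) : LaurentSeries K),
          LH.ht⟩))⁻¹ := by
      rw [← hcoett]
      rfl
    rw [h2] at h1
    obtain ⟨m, ω, b₀, hsum⟩ := Fermat.Agent.ES.V19.SpecialSpanInst17.exists_sum_level1 p hA hpM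
      hϖ (tM ht) LH.ht LH.htr hn hdeg hirr LH.hsm1 f₁.2 h1
    refine ⟨m, ω, fun l => ⟨alpha K M' p ((b₀ l : ↥(chart ↥(AK A K) (tM ht)⁻¹)) : ↥(FK M' K)),
      ha1 (b₀ l)⟩, ?_⟩
    apply Subtype.ext
    rw [hsum, AddSubmonoidClass.coe_finsetSum]
    refine Finset.sum_congr rfl fun l _ => ?_
    exact (coe_smul_rhoK1_alpha hpM hp2 hM hA hϖ (tM ht)⁻¹
      (Fermat.Agent.RED.PUR.G1Package8.tinv_mem_gaussRing (tM ht) LH.ht LH.htr) (b₀ l) _ hB1
      (ha1 (b₀ l)) (ω l)).symm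

end Fermat.Agent.ES.W33.SpanOneN24
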