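/-
Programme W (S33), chapter B1′, leaf **(M4) `SurjPropN` OVER ALL LARGE GALOIS NUMBER FIELDS**
(helper12) = the field `hM4` of helper23's `GeoLeaves23.Leaves` = the hypothesis `hM4` of
`B1ExitN12.b1Exit`:

  `∃ K₁, [K₁ : ℚ] < ∞ ∧ ∀ K ⊇ K₁ Galois, ∀ ht htG,
      CechIfaceN24.SurjPropN M' p A K (ModelDefs9.tN p ht) N (redN ⟨tN, htG⟩)`

ASSEMBLED from helper24's `SurjAsmN24.surjPropN_of` with
* `h01`, `h1le`, `hbc`         — `LevelInstN24.levelInputsN` (PROVED);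
* (M3) `hReg`                  — `CechIfaceN24.reg01PropN_of` from `C : RedCtxN …` and `hnode` (PROVED);
* (C5) comp. 1 `hspan0₁/1₁`    — `SpanOneN24.hspan_one` (PROVED);
* (C4) `hRV0/hRV1`             — named hypothesis `hC4` = the literal conclusion of helper13's
                                  `RatNodes13.exists_level_hRV` (without `K₀ ≤ K₁`), discharged in
                                  `hM4_of_leaves` from `L' : PlaceLeaves L`, `R : R1Leaves …`, `hnode0`;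
* (C1) `htrans0/htrans1`       — helper29's `TransInstN29.htransN` (PROVED, unconditional);
* (C2) `hD0/hD1`               — named hypothesis `hC2` (helper17 `NodeIdealN17` / helper6 `HdNode6`);
* (C5) comp. 2 `hspan0₂/1₂`    — named hypothesis `hC5` (helper24 `SpanTwoN24`).
The two named hypotheses `hC2`, `hC5` are the LITERALS of the corresponding hypotheses of `surjPropN_of`
(at `hB0 h01`, `hB1 h01 h1le`), for all large Galois `K`, every `ht`, and every proof `h01`, `h1le`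
— the weakest shape: an owner who proves them for arbitrary proofs `hB0 hB1` specialises.

`hM4_of` is GENERIC in the nodes `N` and the reduction map `r` (as `B1ExitN12.b1Exit`);
`hM4_of_leaves` is the instance `N := nodesN 4 8 …`, `r := rN 4 8 …`.
-/
import Mathlib
import Fermat.Agent.ES.W33.SpanOneN24
import Fermat.Agent.ES.W33.LevelInstN24
import Fermat.Agent.ES.W33.RatNodes13
import Fermat.Agent.ES.W33.HnodeBridge13
import Fermat.Agent.ES.W33.TransInstN29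

set_option autoImplicit false
set_option linter.unusedSectionVars false
set_option linter.dupNamespace false
set_option linter.style.haveILetI false
set_option synthInstance.maxHeartbeats 400000
set_option maxHeartbeats 1000000

open AlgebraicCurve ModularCurve IntermediateField HahnSeries

noncomputable section

namespace Fermat.Agent.ES.W33.M4InstN12

open Fermat.Agent.RED.Interface4 Fermat.Agent.RED.DESC.PlaceExtend27
  Fermat.Agent.RED.DESC.NumberFieldDVR27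
  Fermat.Agent.RED.PUR.ChartGeneric22 Fermat.Agent.RED.PUR.GaussGen8
  Fermat.Agent.RED.BASE.EtaQuot12 Fermat.Agent.RED.BASE.Interface12
  Fermat.Agent.RED.BASE.Hauptmodul12
  Fermat.Agent.ES.RED.Contract8 Fermat.Agent.ES.RED.ModelInst4
  Fermat.Agent.ES.V19.CechIface12 Fermat.Agent.ES.N34.ModelDefs9
  Fermat.Agent.ES.W33.XiIfaceN29 Fermat.Agent.ES.W33.ValAt29
  Fermat.Agent.ES.W33.NodalCech17 Fermat.Agent.ES.W33.GlueCRT19
  Fermat.Agent.ES.W33.CechIfaceN24 Fermat.Agent.ES.W33.SurjAsmN24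

variable (M' : ℕ) [NeZero M'] (p : ℕ) [Fact p.Prime] (A : ValuationSubring Qbar)
  {s : ℕ} {N : Nodes (kA A) (Ft M' A) (Ft M' A) s}
  {r : Place Qbar ↥(Fbar (M' * p)) → SPt (kA A) (Ft M' A) (Ft M' A) ⊕ Fin s}

/-- **(M4) over all large Galois number fields**, generic in the nodes. -/
theorem hM4_of (hpM : ¬ p ∣ M') (hp2 : p ≠ 2) (hM : 4 ∣ M') (hA : A.LiesOverPrime p)
    (C : RedCtxN A (resA A) N (Fermat.Agent.ES.W33.NodalDefs3.GN M' p A)
      (Fermat.Agent.ES.W33.NodalDefs3.redN M' p A) r)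
    (hnode : ∀ (P : Place Qbar ↥(Fbar (M' * p))) (j : Fin s),
      r P = Sum.inr j → P.ord (Fermat.Agent.ES.W33.NodalDefs3.tN 4 8 M' p baseHyp_four hM) = 0)
    -- (C2) every node ideal of the two charts of level `K` is the centre of a node `j`
    (hC2 : ∃ K₀ : IntermediateField ℚ Qbar, FiniteDimensional ℚ K₀ ∧
      ∀ (K : IntermediateField ℚ Qbar) [Normal ℚ K], FiniteDimensional ℚ K → K₀ ≤ K →
        ∀ (ht : tq ↥K 4 8 ∈ FK M' K) (h01 : M01LeGN M' p A K (tN p ht))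
          (h1le : M1 A (M' * p) K (tN p ht) 0 ≤ M01 A (M' * p) K (tN p ht)),
          (∀ 𝔪 : Ideal ↥(chart ↥(AK A K) (tN p ht)),
            IsNode (RingHom.ker (rhoK1 M' p A K _ (hB0 h01)))
              (RingHom.ker (rhoK2 M' p A K _ (hB0 h01))) 𝔪 →
            ∃ j : Fin s, ∀ b : ↥(chart ↥(AK A K) (tN p ht)),
              ValAt (N.ν₁ j) (rhoK1 M' p A K _ (hB0 h01) b) 0 → b ∈ 𝔪) ∧
          ∀ 𝔪 : Ideal ↥(chart ↥(AK A K) (tN p ht)⁻¹),
            IsNode (RingHom.ker (rhoK1 M' p A K _ (hB1 h01 h1le)))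
              (RingHom.ker (rhoK2 M' p A K _ (hB1 h01 h1le))) 𝔪 →
            ∃ j : Fin s, ∀ b : ↥(chart ↥(AK A K) (tN p ht)⁻¹),
              ValAt (N.ν₁ j) (rhoK1 M' p A K _ (hB1 h01 h1le) b) 0 → b ∈ 𝔪)
    -- (C4) the nodes are rational at large level (`RatNodes13.exists_level_hRV`)
    (hC4 : ∃ K₀ : IntermediateField ℚ Qbar, FiniteDimensional ℚ K₀ ∧
      ∀ K : IntermediateField ℚ Qbar, K₀ ≤ K → ∀ tK : ↥(FK (M' * p) K),
        baseChangeHom (M' * p) K tK =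
          Fermat.Agent.ES.W33.NodalDefs3.tN 4 8 M' p baseHyp_four hM →
        (∀ b ∈ chart ↥(AK A K) tK,
          ∀ (hG : baseChangeHom (M' * p) K b ∈ Fermat.Agent.ES.W33.NodalDefs3.GN M' p A)
            (j : Fin s), ∃ c : Res (AK A K), ValAt (N.ν₁ j)
              (Fermat.Agent.ES.W33.NodalDefs3.redN M' p A
                ⟨baseChangeHom (M' * p) K b, hG⟩).1 (resMap A K c)) ∧
        ∀ b ∈ chart ↥(AK A K) tK⁻¹,
          ∀ (hG : baseChangeHom (M' * p) K b ∈ Fermat.Agent.ES.W33.NodalDefs3.GN M' p A)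
            (j : Fin s), ∃ c : Res (AK A K), ValAt (N.ν₁ j)
              (Fermat.Agent.ES.W33.NodalDefs3.redN M' p A
                ⟨baseChangeHom (M' * p) K b, hG⟩).1 (resMap A K c))
    -- (C5), component 2: special-fibre base change on the second branch
    (hC5 : ∃ K₀ : IntermediateField ℚ Qbar, FiniteDimensional ℚ K₀ ∧
      ∀ (K : IntermediateField ℚ Qbar) [Normal ℚ K], FiniteDimensional ℚ K → K₀ ≤ K →
        ∀ (ht : tq ↥K 4 8 ∈ FK M' K) (h01 : M01LeGN M' p A K (tN p ht))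
          (h1le : M1 A (M' * p) K (tN p ht) 0 ≤ M01 A (M' * p) K (tN p ht))
          (htG : Fermat.Agent.ES.W33.NodalDefs3.tN 4 8 M' p baseHyp_four hM ∈
            Fermat.Agent.ES.W33.NodalDefs3.GN M' p A),
          (∀ f₂ : Ft M' A,
            Reg (kA A) (Fermat.Agent.ES.W33.NodalDefs3.redN M' p A
              ⟨Fermat.Agent.ES.W33.NodalDefs3.tN 4 8 M' p baseHyp_four hM, htG⟩).2 f₂ →
            ∃ (m : ℕ) (ω : Fin m → kA A) (b : Fin m → ↥(chart ↥(AK A K) (tN p ht))),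
              f₂ = ∑ l, ω l • rhoK2 M' p A K _ (hB0 h01) (b l)) ∧
          ∀ f₂ : Ft M' A,
            Reg (kA A) (Fermat.Agent.ES.W33.NodalDefs3.redN M' p A
              ⟨Fermat.Agent.ES.W33.NodalDefs3.tN 4 8 M' p baseHyp_four hM, htG⟩).2⁻¹ f₂ →
            ∃ (m : ℕ) (ω : Fin m → kA A) (b : Fin m → ↥(chart ↥(AK A K) (tN p ht)⁻¹)),
              f₂ = ∑ l, ω l • rhoK2 M' p A K _ (hB1 h01 h1le) (b l)) :
    ∃ K₁ : IntermediateField ℚ Qbar, FiniteDimensional ℚ K₁ ∧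
      ∀ (K : IntermediateField ℚ Qbar) [Normal ℚ K], FiniteDimensional ℚ K → K₁ ≤ K →
        ∀ (ht : tq ↥K 4 8 ∈ FK M' K)
          (htG : Fermat.Agent.ES.W33.NodalDefs3.tN 4 8 M' p baseHyp_four hM ∈
            Fermat.Agent.ES.W33.NodalDefs3.GN M' p A),
          SurjPropN M' p A K (tN p ht) N
            (Fermat.Agent.ES.W33.NodalDefs3.redN M' p A ⟨_, htG⟩) := by
  obtain ⟨K₀, hK₀, H⟩ := Fermat.Agent.ES.W33.LevelInstN24.levelInputsN M' p A hpM hp2 hM hA
  obtain ⟨Ka, hKa, Ha⟩ := Fermat.Agent.ES.W33.TransInstN29.htransN M' p A hpM hp2 hM hA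
  obtain ⟨Kb, hKb, Hb⟩ := hC2
  obtain ⟨Kc, hKc, Hc⟩ := hC4
  obtain ⟨Kd, hKd, Hd⟩ := Fermat.Agent.ES.W33.SpanOneN24.hspan_one M' p A hpM hp2 hM hA
  obtain ⟨Ke, hKe, He⟩ := hC5
  haveI := hK₀
  haveI := hKa
  haveI := hKb
  haveI := hKc
  haveI := hKd
  haveI := hKe
  refine ⟨K₀ ⊔ Ka ⊔ Kb ⊔ Kc ⊔ Kd ⊔ Ke, inferInstance, fun K _ hKf hle ht htG => ?_⟩
  have hle0 : K₀ ≤ K :=
    le_trans (le_trans (le_trans (le_trans le_sup_left le_sup_left) le_sup_left) le_sup_left)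
      (le_trans le_sup_left hle)
  have hlea : Ka ≤ K :=
    le_trans (le_trans (le_trans (le_trans le_sup_right le_sup_left) le_sup_left) le_sup_left)
      (le_trans le_sup_left hle)
  have hleb : Kb ≤ K :=
    le_trans (le_trans (le_trans le_sup_right le_sup_left) le_sup_left)
      (le_trans le_sup_left hle)
  have hlec : Kc ≤ K := le_trans (le_trans le_sup_right le_sup_left) (le_trans le_sup_left hle)
  have hled : Kd ≤ K := le_trans le_sup_right (le_trans le_sup_left hle)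
  have hlee : Ke ≤ K := le_trans le_sup_right hle
  obtain ⟨ht', hE, hbc, -, -, h1, h01, -, -, -, -, -⟩ := H K hKf hle0
  have h1le := h1 0
  have hReg := reg01PropN_of (N := N) (r := r) C hbc h01 hnode
  obtain ⟨hT0, hT1⟩ := Ha K hKf hlea ht
  obtain ⟨hD0, hD1⟩ := Hb K hKf hleb ht h01 h1le
  obtain ⟨hR0, hR1⟩ := Hc K hlec (tN p ht) hbc
  obtain ⟨hS0₁, hS1₁⟩ := Hd K hKf hled ht (hB0 h01) (hB1 h01 h1le) htG
  obtain ⟨hS0₂, hS1₂⟩ := He K hKf hlee ht h01 h1le htG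
  exact surjPropN_of N _ h01 h1le hReg hD0 (hT0 (hB0 h01))
    (fun b j => hR0 (b : ↥(FK (M' * p) K)) b.2 (hB0 h01 _ b.2) j) hS0₁ hS0₂ hD1 (hT1 (hB1 h01 h1le))
    (fun b j => hR1 (b : ↥(FK (M' * p) K)) b.2 (hB1 h01 h1le _ b.2) j) hS1₁ hS1₂

/-! ### the instance `N := nodesN 4 8 …`, `r := rN 4 8 …` -/

section Instance

open Fermat.Agent.ES.W33.NodalDefs3 Fermat.Agent.ES.W33.TwoChartsNInst20
  Fermat.Agent.ES.W33.TwoChartsNRN20 Fermat.Agent.ES.W33.TwoChartsN20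

variable {M' p A}

/-- **`GeoLeaves23.Leaves.hM4`** from the (B3′) leaves `L'`, `R`, `hnode0`, the nodal reduction
context `C` at `(nodesN, rN)` and the two named inputs (C2), (C5) comp. 2. -/
theorem hM4_of_leaves {hpM : ¬ p ∣ M'} (hp2 : p ≠ 2) {hM : 4 ∣ M'} {hA : A.LiesOverPrime p}
    {L : ChartLeaves 4 8 M' p baseHyp_four hM A} (L' : PlaceLeaves L)
    (R : R1Leaves 4 8 M' p hpM baseHyp_four hM A hA L)
    (hnode0 : ∀ j, (TR L' R).nodeChi j (S0N L).sB ≠ 0)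
    (C : RedCtxN A (resA A) (nodesN 4 8 M' p hpM baseHyp_four hM A hA) (GN M' p A) (redN M' p A)
      (rN 4 8 M' p hpM baseHyp_four hM A hA))
    (hC2 : ∃ K₀ : IntermediateField ℚ Qbar, FiniteDimensional ℚ K₀ ∧
      ∀ (K : IntermediateField ℚ Qbar) [Normal ℚ K], FiniteDimensional ℚ K → K₀ ≤ K →
        ∀ (ht : tq ↥K 4 8 ∈ FK M' K) (h01 : M01LeGN M' p A K (tN p ht))
          (h1le : M1 A (M' * p) K (tN p ht) 0 ≤ M01 A (M' * p) K (tN p ht)),
          (∀ 𝔪 : Ideal ↥(chart ↥(AK A K) (tN p ht)),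
            IsNode (RingHom.ker (rhoK1 M' p A K _ (hB0 h01)))
              (RingHom.ker (rhoK2 M' p A K _ (hB0 h01))) 𝔪 →
            ∃ j : Fin (sN 4 8 M' p hpM baseHyp_four hM A hA),
              ∀ b : ↥(chart ↥(AK A K) (tN p ht)),
                ValAt ((nodesN 4 8 M' p hpM baseHyp_four hM A hA).ν₁ j)
                  (rhoK1 M' p A K _ (hB0 h01) b) 0 → b ∈ 𝔪) ∧
          ∀ 𝔪 : Ideal ↥(chart ↥(AK A K) (tN p ht)⁻¹),
            IsNode (RingHom.ker (rhoK1 M' p A K _ (hB1 h01 h1le)))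
              (RingHom.ker (rhoK2 M' p A K _ (hB1 h01 h1le))) 𝔪 →
            ∃ j : Fin (sN 4 8 M' p hpM baseHyp_four hM A hA),
              ∀ b : ↥(chart ↥(AK A K) (tN p ht)⁻¹),
                ValAt ((nodesN 4 8 M' p hpM baseHyp_four hM A hA).ν₁ j)
                  (rhoK1 M' p A K _ (hB1 h01 h1le) b) 0 → b ∈ 𝔪)
    (hC5 : ∃ K₀ : IntermediateField ℚ Qbar, FiniteDimensional ℚ K₀ ∧
      ∀ (K : IntermediateField ℚ Qbar) [Normal ℚ K], FiniteDimensional ℚ K → K₀ ≤ K →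
        ∀ (ht : tq ↥K 4 8 ∈ FK M' K) (h01 : M01LeGN M' p A K (tN p ht))
          (h1le : M1 A (M' * p) K (tN p ht) 0 ≤ M01 A (M' * p) K (tN p ht))
          (htG : NodalDefs3.tN 4 8 M' p baseHyp_four hM ∈ GN M' p A),
          (∀ f₂ : Ft M' A,
            Reg (kA A) (redN M' p A ⟨NodalDefs3.tN 4 8 M' p baseHyp_four hM, htG⟩).2 f₂ →
            ∃ (m : ℕ) (ω : Fin m → kA A)
              (b : Fin m → ↥(chart ↥(AK A K) (tN p ht))),
              f₂ = ∑ l, ω l • rhoK2 M' p A K _ (hB0 h01) (b l)) ∧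
          ∀ f₂ : Ft M' A,
            Reg (kA A) (redN M' p A ⟨NodalDefs3.tN 4 8 M' p baseHyp_four hM, htG⟩).2⁻¹ f₂ →
            ∃ (m : ℕ) (ω : Fin m → kA A)
              (b : Fin m → ↥(chart ↥(AK A K) (tN p ht)⁻¹)),
              f₂ = ∑ l, ω l • rhoK2 M' p A K _ (hB1 h01 h1le) (b l)) :
    ∃ K₁ : IntermediateField ℚ Qbar, FiniteDimensional ℚ K₁ ∧
      ∀ (K : IntermediateField ℚ Qbar) [Normal ℚ K], FiniteDimensional ℚ K → K₁ ≤ K →
        ∀ (ht : tq ↥K 4 8 ∈ FK M' K)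
          (htG : NodalDefs3.tN 4 8 M' p baseHyp_four hM ∈ GN M' p A),
          SurjPropN M' p A K (tN p ht) (nodesN 4 8 M' p hpM baseHyp_four hM A hA)
            (redN M' p A ⟨_, htG⟩) := by
  refine hM4_of M' p A hpM hp2 hM hA C
    (Fermat.Agent.ES.W33.HnodeBridge13.hnode_rN L' R hnode0) hC2 ?_ hC5
  obtain ⟨K₁, hfin, -, H⟩ :=
    Fermat.Agent.ES.W33.RatNodes13.exists_level_hRV L' R hnode0 (⊥ : IntermediateField ℚ Qbar)
  exact ⟨K₁, hfin, H⟩

end Instance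

end Fermat.Agent.ES.W33.M4InstN12
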