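/-
Programme W (S33), chapter (B3′) "reduction of places on the nodal model" — helper22:
**THE RELATIVE COUNT** = the global half of (R2) on the nodal fibre, counted along the fibres of a
finite morphism to a curve with GOOD reduction (at the instance: `α : F_{M'} → F_{M'p}`, degree
`p + 1`) instead of the fibres of the coordinate `tN` (`W33/R2CountN22`).

WHY.  The `tN`-fibre count cannot reach a smooth point lying in the `tN`-fibre of a node (the places
through the node have no local inequality), and "such points do not exist" (the supersingular locus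
is a union of `t`-fibres) is not available.  Counting along `α` avoids the problem: the places `P`
of `F_{M'p}` whose restriction along `α` reduces to a given point `q` of the good fibre reduce to the
smooth point over `q` on the first branch, to its partner on the second branch, or to a node whose
first branch place IS `q` — impossible for a smooth `q` by the very definition of the nodes.

* `push_restrict` : `push (r0 ∘ restrict) (ι f) q = d * push r0 f q`
  (`hsum` = the local sum formula `∑_{w | v} e(w | v) = d`, main `ES/HECKE/FundIdentity19`);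
* `push_eq_sum_push` : a push-forward along a coarser map is the sum of the push-forwards over the
  finite fibre `T`;
* `push_eq_of_rel` : **the squeeze**: if `push r0 f q = m0`, the places over `q` reduce into `T`,
  `push r (ι f) b ≤ mm b` on `T` and `∑_{b ∈ T} mm b ≤ d * m0`, then `push r (ι f) b = mm b` on `T`;
* `hcount_pair` : the exit for a point and its partner, in the literal shape of the hypothesis `hx`
  of `W33/R2PointP22.r2_point`; `r2_pair₁`, `r2_pair₂` : (R2) at both points for ALL `y`.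
-/
import Mathlib
import Fermat.Agent.ES.RED.R2Abstract14
import Fermat.Agent.ES.W33.R2PointP22
import Fermat.Prelude.Def_AlgebraicCurve_DivisorPushPull
import Fermat.Prelude.Def_AlgebraicCurve_Correspondence

set_option autoImplicit false
set_option linter.style.haveILetI false

namespace Fermat.Agent.ES.W33.R2RelN22

open AlgebraicCurve
open Fermat.Agent.ES.RED.R2Abstract14

noncomputable section

section Restrict

variable {K F F' : Type*} [Field K] [Field F] [Field F']
  [Algebra K F] [Algebra K F'] [Algebra F F'] [IsScalarTower K F F']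
  [Algebra.IsIntegral F F'] [HasPrincipalDivisors K F']
variable {γ : Type*}

/-- **The relative count**: pushing the divisor of `algebraMap F F' f` forward along
`w ↦ r0 (w.restrict F)` multiplies the push-forward of the divisor of `f` along `r0` by the degree
(`hsum` = the local sum formula `∑_{w | v} e(w | v) = d`). -/
theorem push_restrict (hfin : FinDiv K F) (hfin' : FinDiv K F') (d : ℤ)
    (hsum : ∀ v : Place K F, ∑ w ∈ v.fiber F', (w.ramificationIndex F : ℤ) = d)
    (r0 : Place K F → γ) (f : F) (q : γ) :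
    push hfin' (fun w => r0 (w.restrict F)) (algebraMap F F' f) q = d * push hfin r0 f q := by
  classical
  rw [push_eq_sum, push_eq_sum]
  have hmaps : ∀ w ∈ (divOf hfin' (algebraMap F F' f)).support,
      w.restrict F ∈ (divOf hfin f).support := by
    intro w hw
    rw [Finsupp.mem_support_iff, divOf_apply] at hw ⊢
    intro h0
    apply hw
    rw [w.ord_restrict f, h0, mul_zero]
  rw [← Finset.sum_fiberwise_of_maps_to hmaps, Finset.mul_sum]
  refine Finset.sum_congr rfl fun v hv => ?_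
  rw [Finsupp.mem_support_iff, divOf_apply] at hv
  have hfib : (divOf hfin' (algebraMap F F' f)).support.filter (fun w => w.restrict F = v) =
      v.fiber F' := by
    ext w
    rw [Finset.mem_filter, Place.mem_fiber, Finsupp.mem_support_iff, divOf_apply]
    refine ⟨fun h => h.2, fun h => ⟨?_, h⟩⟩
    rw [w.ord_restrict f, h]
    exact mul_ne_zero (by exact_mod_cast (w.ramificationIndex_pos (F := F)).ne') hv
  rw [hfib]
  by_cases hq : r0 v = q
  · rw [if_pos hq, ← hsum v, Finset.sum_mul]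
    refine Finset.sum_congr rfl fun w hw => ?_
    rw [Place.mem_fiber] at hw
    rw [if_pos (by rw [hw]; exact hq), w.ord_restrict f, hw]
  · rw [if_neg hq, mul_zero]
    refine Finset.sum_eq_zero fun w hw => ?_
    rw [Place.mem_fiber] at hw
    rw [if_neg (by rw [hw]; exact hq)]

end Restrict

/-! ### decomposition along a finer map and the squeeze -/

section Squeeze

variable {L F : Type*} [Field L] [Field F] [Algebra L F] {β γ : Type*}

/-- a push-forward along a coarser map `r'` is the sum of the push-forwards along `r` over the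
(finite) fibre `T` of the point. -/
theorem push_eq_sum_push [DecidableEq β] (hfin : FinDiv L F) (r : Place L F → β)
    (r' : Place L F → γ) (q : γ) (T : Finset β) (hT : ∀ P, r' P = q ↔ r P ∈ T) (f : F) :
    push hfin r' f q = ∑ b ∈ T, push hfin r f b := by
  classical
  rw [sum_push, push_eq_sum]
  refine Finset.sum_congr rfl fun P _ => ?_
  by_cases h : r' P = q
  · rw [if_pos h, if_pos ((hT P).mp h)]
  · rw [if_neg h, if_neg (fun h' => h ((hT P).mpr h'))]

/-- **the squeeze.** -/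
theorem eq_of_sum_le [DecidableEq β] (T : Finset β) (S mm : β → ℤ) (tot : ℤ)
    (hS : tot = ∑ b ∈ T, S b) (hle : ∀ b ∈ T, S b ≤ mm b) (htot : ∑ b ∈ T, mm b ≤ tot) :
    ∀ b ∈ T, S b = mm b := by
  have h1 : ∑ b ∈ T, S b ≤ ∑ b ∈ T, mm b := Finset.sum_le_sum hle
  have h2 : ∑ b ∈ T, S b = ∑ b ∈ T, mm b := le_antisymm h1 (by rw [← hS]; exact htot)
  exact (Finset.sum_eq_sum_iff_of_le hle).mp h2

end Squeeze

/-! ### the relative count -/

section Rel

variable {K F F' : Type*} [Field K] [Field F] [Field F']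
  [Algebra K F] [Algebra K F'] [Algebra F F'] [IsScalarTower K F F']
  [Algebra.IsIntegral F F'] [HasPrincipalDivisors K F']
variable {β γ : Type*}

/-- **The relative count.**  `r0` the reduction map of the small field `F` (good reduction), `r` the
reduction map of the big field `F'`; if the places of `F'` lying over the point `q` reduce into the
finite set `T`, the local inequalities `push r (ι f) b ≤ mm b` hold on `T`, and
`∑_{b ∈ T} mm b ≤ d * push r0 f q`, then all the local inequalities are equalities. -/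
theorem push_eq_of_rel [DecidableEq β] (hfin : FinDiv K F) (hfin' : FinDiv K F') (d : ℤ)
    (hsum : ∀ v : Place K F, ∑ w ∈ v.fiber F', (w.ramificationIndex F : ℤ) = d)
    (r0 : Place K F → γ) (r : Place K F' → β) (q : γ) (T : Finset β)
    (hT : ∀ w : Place K F', r0 (w.restrict F) = q ↔ r w ∈ T)
    (f : F) (mm : β → ℤ)
    (hle : ∀ b ∈ T, push hfin' r (algebraMap F F' f) b ≤ mm b)
    (htot : ∑ b ∈ T, mm b ≤ d * push hfin r0 f q) :
    ∀ b ∈ T, push hfin' r (algebraMap F F' f) b = mm b := by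
  refine eq_of_sum_le T _ mm (d * push hfin r0 f q) ?_ hle htot
  rw [← push_restrict hfin hfin' d hsum r0 f q]
  exact push_eq_sum_push hfin' r _ q T hT _

end Rel

/-! ### the exit: a smooth point and its partner on the other branch -/

section Pair

open Fermat.Agent.ES.W33.R2PointP22

variable {K F F' : Type*} [Field K] [Field F] [Field F']
  [Algebra K F] [Algebra K F'] [Algebra F F'] [IsScalarTower K F F']
  [Algebra.IsIntegral F F'] [HasPrincipalDivisors K F']
variable {k Ft₁ Ft₂ : Type*} [Field k] [Field Ft₁] [Algebra k Ft₁] [Field Ft₂] [Algebra k Ft₂]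
variable {β γ : Type*}
variable {A : ValuationSubring K} {res : A →+* k}
  {G₁ G₂ : Subring F'} {red₁ : G₁ →+* Ft₁} {red₂ : G₂ →+* Ft₂}
  {r : Place K F' → β} {b₁ b₂ : β} {Q₁ : Place k Ft₁} {Q₂ : Place k Ft₂}
  {B₁ B₂ : Subring F'} {x₁ : G₁} {x₂ : G₂}

/-- **`hcount` at a smooth point `b₁` and at its partner `b₂`** (the hypothesis `hx` of
`R2PointP22.r2_point` at both points): `x₁ = x₂ = ι x0`, the places over `q` reduce to `b₁` or `b₂`,
`m0 a` is the push-forward of `x0 - a` at `q` on the good curve, and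
`ord_{Q₁}(x̄₁ - ā) + ord_{Q₂}(x̄₂ - ā) ≤ d * m0 a`. -/
theorem hcount_pair (hfin : FinDiv K F) (hfin' : FinDiv K F') (d : ℤ)
    (hsum : ∀ v : Place K F, ∑ w ∈ v.fiber F', (w.ramificationIndex F : ℤ) = d)
    (r0 : Place K F → γ) (q : γ)
    (h₁ : PointHyp A res G₁ red₁ r b₁ Q₁ B₁ x₁) (h₂ : PointHyp A res G₂ red₂ r b₂ Q₂ B₂ x₂)
    (hb : b₁ ≠ b₂) (x0 : F) (hx₁ : (x₁ : F') = algebraMap F F' x0)
    (hx₂ : (x₂ : F') = algebraMap F F' x0)
    (hT : ∀ w : Place K F', r0 (w.restrict F) = q ↔ (r w = b₁ ∨ r w = b₂))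
    (m0 : A → ℤ) (hgood : ∀ a : A, push hfin r0 (x0 - algebraMap K F a) q = m0 a)
    (hord : ∀ a : A, Q₁.ord (red₁ x₁ - algebraMap k Ft₁ (res a)) +
      Q₂.ord (red₂ x₂ - algebraMap k Ft₂ (res a)) ≤ d * m0 a) :
    (∀ a : A, push hfin' r ((x₁ : F') - algebraMap K F' a) b₁ =
        Q₁.ord (red₁ x₁ - algebraMap k Ft₁ (res a))) ∧
      ∀ a : A, push hfin' r ((x₂ : F') - algebraMap K F' a) b₂ =
        Q₂.ord (red₂ x₂ - algebraMap k Ft₂ (res a)) := by
  classical
  have key : ∀ a : A, ∀ b ∈ ({b₁, b₂} : Finset β),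
      push hfin' r (algebraMap F F' (x0 - algebraMap K F a)) b =
        (if b = b₁ then Q₁.ord (red₁ x₁ - algebraMap k Ft₁ (res a))
          else Q₂.ord (red₂ x₂ - algebraMap k Ft₂ (res a))) := by
    intro a
    have e : algebraMap F F' (x0 - algebraMap K F a) = (x₁ : F') - algebraMap K F' a := by
      rw [map_sub, ← hx₁, ← IsScalarTower.algebraMap_apply]
    have e' : algebraMap F F' (x0 - algebraMap K F a) = (x₂ : F') - algebraMap K F' a := by
      rw [map_sub, ← hx₂, ← IsScalarTower.algebraMap_apply]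
    refine push_eq_of_rel hfin hfin' d hsum r0 r q {b₁, b₂} ?_ _ _ ?_ ?_
    · intro w
      rw [hT w, Finset.mem_insert, Finset.mem_singleton]
    · intro b hb'
      rw [Finset.mem_insert, Finset.mem_singleton] at hb'
      rcases hb' with rfl | rfl
      · rw [if_pos rfl, e]
        exact push_sub_const_le h₁ hfin' a
      · rw [if_neg (Ne.symm hb), e']
        exact push_sub_const_le h₂ hfin' a
    · rw [Finset.sum_pair hb, if_pos rfl, if_neg (Ne.symm hb), hgood a]
      exact hord a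
  refine ⟨fun a => ?_, fun a => ?_⟩
  · have := key a b₁ (Finset.mem_insert_self _ _)
    rw [if_pos rfl, map_sub, ← hx₁, ← IsScalarTower.algebraMap_apply] at this
    exact this
  · have := key a b₂ (Finset.mem_insert_of_mem (Finset.mem_singleton_self _))
    rw [if_neg (Ne.symm hb), map_sub, ← hx₂, ← IsScalarTower.algebraMap_apply] at this
    exact this

/-- **(R2) at the smooth point `b₁`** for every `y ∈ G₁` with nonzero reduction. -/
theorem r2_pair₁ [IsAlgClosed K] (hfin : FinDiv K F) (hfin' : FinDiv K F') (d : ℤ)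
    (hsum : ∀ v : Place K F, ∑ w ∈ v.fiber F', (w.ramificationIndex F : ℤ) = d)
    (r0 : Place K F → γ) (q : γ)
    (h₁ : PointHyp A res G₁ red₁ r b₁ Q₁ B₁ x₁) (h₂ : PointHyp A res G₂ red₂ r b₂ Q₂ B₂ x₂)
    (hb : b₁ ≠ b₂) (x0 : F) (hx₁ : (x₁ : F') = algebraMap F F' x0)
    (hx₂ : (x₂ : F') = algebraMap F F' x0)
    (hT : ∀ w : Place K F', r0 (w.restrict F) = q ↔ (r w = b₁ ∨ r w = b₂))
    (m0 : A → ℤ) (hgood : ∀ a : A, push hfin r0 (x0 - algebraMap K F a) q = m0 a)
    (hord : ∀ a : A, Q₁.ord (red₁ x₁ - algebraMap k Ft₁ (res a)) +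
      Q₂.ord (red₂ x₂ - algebraMap k Ft₂ (res a)) ≤ d * m0 a)
    (y : G₁) (hy : red₁ y ≠ 0) :
    push hfin' r (y : F') b₁ = Q₁.ord (red₁ y) :=
  r2_point hfin' (fun a _ =>
    (hcount_pair hfin hfin' d hsum r0 q h₁ h₂ hb x0 hx₁ hx₂ hT m0 hgood hord).1 a) h₁ y hy

/-- **(R2) at the partner `b₂`** for every `y ∈ G₂` with nonzero reduction. -/
theorem r2_pair₂ [IsAlgClosed K] (hfin : FinDiv K F) (hfin' : FinDiv K F') (d : ℤ)
    (hsum : ∀ v : Place K F, ∑ w ∈ v.fiber F', (w.ramificationIndex F : ℤ) = d)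
    (r0 : Place K F → γ) (q : γ)
    (h₁ : PointHyp A res G₁ red₁ r b₁ Q₁ B₁ x₁) (h₂ : PointHyp A res G₂ red₂ r b₂ Q₂ B₂ x₂)
    (hb : b₁ ≠ b₂) (x0 : F) (hx₁ : (x₁ : F') = algebraMap F F' x0)
    (hx₂ : (x₂ : F') = algebraMap F F' x0)
    (hT : ∀ w : Place K F', r0 (w.restrict F) = q ↔ (r w = b₁ ∨ r w = b₂))
    (m0 : A → ℤ) (hgood : ∀ a : A, push hfin r0 (x0 - algebraMap K F a) q = m0 a)
    (hord : ∀ a : A, Q₁.ord (red₁ x₁ - algebraMap k Ft₁ (res a)) +
      Q₂.ord (red₂ x₂ - algebraMap k Ft₂ (res a)) ≤ d * m0 a)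
    (y : G₂) (hy : red₂ y ≠ 0) :
    push hfin' r (y : F') b₂ = Q₂.ord (red₂ y) :=
  r2_point hfin' (fun a _ =>
    (hcount_pair hfin hfin' d hsum r0 q h₁ h₂ hb x0 hx₁ hx₂ hT m0 hgood hord).2 a) h₂ y hy

end Pair

/-! ### the same along an algebra homomorphism `φ : F →ₐ[K] F'` (Prelude's `…Along` vocabulary) -/

section Along

open Fermat.Agent.ES.W33.R2PointP22

variable {K F F' : Type*} [Field K] [Field F] [Field F'] [Algebra K F] [Algebra K F']
  [HasPrincipalDivisors K F']
variable {k Ft₁ Ft₂ : Type*} [Field k] [Field Ft₁] [Algebra k Ft₁] [Field Ft₂] [Algebra k Ft₂]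
variable {β γ : Type*}
variable {A : ValuationSubring K} {res : A →+* k}
  {G₁ G₂ : Subring F'} {red₁ : G₁ →+* Ft₁} {red₂ : G₂ →+* Ft₂}
  {r : Place K F' → β} {b₁ b₂ : β} {Q₁ : Place k Ft₁} {Q₂ : Place k Ft₂}
  {B₁ B₂ : Subring F'} {x₁ : G₁} {x₂ : G₂}

/-- `push_restrict` along `φ` (`hsum` = main's `ES/HECKE/FundId12.sum_ramificationIndexAlong`). -/
theorem push_restrictAlong (φ : F →ₐ[K] F') (hφ : φ.toRingHom.IsIntegral)
    (hfin : FinDiv K F) (hfin' : FinDiv K F') (d : ℤ)
    (hsum : ∀ v : Place K F,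
      ∑ w ∈ Place.fiberAlong φ hφ v, (w.ramificationIndexAlong φ : ℤ) = d)
    (r0 : Place K F → γ) (f : F) (q : γ) :
    push hfin' (fun w => r0 (w.restrictAlong φ hφ)) (φ f) q = d * push hfin r0 f q := by
  letI := algebraAlong φ
  haveI := isScalarTower_along φ
  haveI := isIntegral_along φ hφ
  exact push_restrict hfin hfin' d hsum r0 f q

/-- `hcount_pair` along `φ`. -/
theorem hcount_pairAlong (φ : F →ₐ[K] F') (hφ : φ.toRingHom.IsIntegral)
    (hfin : FinDiv K F) (hfin' : FinDiv K F') (d : ℤ)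
    (hsum : ∀ v : Place K F,
      ∑ w ∈ Place.fiberAlong φ hφ v, (w.ramificationIndexAlong φ : ℤ) = d)
    (r0 : Place K F → γ) (q : γ)
    (h₁ : PointHyp A res G₁ red₁ r b₁ Q₁ B₁ x₁) (h₂ : PointHyp A res G₂ red₂ r b₂ Q₂ B₂ x₂)
    (hb : b₁ ≠ b₂) (x0 : F) (hx₁ : (x₁ : F') = φ x0) (hx₂ : (x₂ : F') = φ x0)
    (hT : ∀ w : Place K F', r0 (w.restrictAlong φ hφ) = q ↔ (r w = b₁ ∨ r w = b₂))
    (m0 : A → ℤ) (hgood : ∀ a : A, push hfin r0 (x0 - algebraMap K F a) q = m0 a)
    (hord : ∀ a : A, Q₁.ord (red₁ x₁ - algebraMap k Ft₁ (res a)) +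
      Q₂.ord (red₂ x₂ - algebraMap k Ft₂ (res a)) ≤ d * m0 a) :
    (∀ a : A, push hfin' r ((x₁ : F') - algebraMap K F' a) b₁ =
        Q₁.ord (red₁ x₁ - algebraMap k Ft₁ (res a))) ∧
      ∀ a : A, push hfin' r ((x₂ : F') - algebraMap K F' a) b₂ =
        Q₂.ord (red₂ x₂ - algebraMap k Ft₂ (res a)) := by
  letI := algebraAlong φ
  haveI := isScalarTower_along φ
  haveI := isIntegral_along φ hφ
  exact hcount_pair hfin hfin' d hsum r0 q h₁ h₂ hb x0 hx₁ hx₂ hT m0 hgood hord

/-- **(R2) at the smooth point `b₁`**, along `φ`. -/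
theorem r2_pairAlong₁ [IsAlgClosed K] (φ : F →ₐ[K] F') (hφ : φ.toRingHom.IsIntegral)
    (hfin : FinDiv K F) (hfin' : FinDiv K F') (d : ℤ)
    (hsum : ∀ v : Place K F,
      ∑ w ∈ Place.fiberAlong φ hφ v, (w.ramificationIndexAlong φ : ℤ) = d)
    (r0 : Place K F → γ) (q : γ)
    (h₁ : PointHyp A res G₁ red₁ r b₁ Q₁ B₁ x₁) (h₂ : PointHyp A res G₂ red₂ r b₂ Q₂ B₂ x₂)
    (hb : b₁ ≠ b₂) (x0 : F) (hx₁ : (x₁ : F') = φ x0) (hx₂ : (x₂ : F') = φ x0)
    (hT : ∀ w : Place K F', r0 (w.restrictAlong φ hφ) = q ↔ (r w = b₁ ∨ r w = b₂))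
    (m0 : A → ℤ) (hgood : ∀ a : A, push hfin r0 (x0 - algebraMap K F a) q = m0 a)
    (hord : ∀ a : A, Q₁.ord (red₁ x₁ - algebraMap k Ft₁ (res a)) +
      Q₂.ord (red₂ x₂ - algebraMap k Ft₂ (res a)) ≤ d * m0 a)
    (y : G₁) (hy : red₁ y ≠ 0) :
    push hfin' r (y : F') b₁ = Q₁.ord (red₁ y) :=
  r2_point hfin' (fun a _ =>
    (hcount_pairAlong φ hφ hfin hfin' d hsum r0 q h₁ h₂ hb x0 hx₁ hx₂ hT m0 hgood hord).1 a)
    h₁ y hy

/-- **(R2) at the partner `b₂`**, along `φ`. -/
theorem r2_pairAlong₂ [IsAlgClosed K] (φ : F →ₐ[K] F') (hφ : φ.toRingHom.IsIntegral)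
    (hfin : FinDiv K F) (hfin' : FinDiv K F') (d : ℤ)
    (hsum : ∀ v : Place K F,
      ∑ w ∈ Place.fiberAlong φ hφ v, (w.ramificationIndexAlong φ : ℤ) = d)
    (r0 : Place K F → γ) (q : γ)
    (h₁ : PointHyp A res G₁ red₁ r b₁ Q₁ B₁ x₁) (h₂ : PointHyp A res G₂ red₂ r b₂ Q₂ B₂ x₂)
    (hb : b₁ ≠ b₂) (x0 : F) (hx₁ : (x₁ : F') = φ x0) (hx₂ : (x₂ : F') = φ x0)
    (hT : ∀ w : Place K F', r0 (w.restrictAlong φ hφ) = q ↔ (r w = b₁ ∨ r w = b₂))
    (m0 : A → ℤ) (hgood : ∀ a : A, push hfin r0 (x0 - algebraMap K F a) q = m0 a)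
    (hord : ∀ a : A, Q₁.ord (red₁ x₁ - algebraMap k Ft₁ (res a)) +
      Q₂.ord (red₂ x₂ - algebraMap k Ft₂ (res a)) ≤ d * m0 a)
    (y : G₂) (hy : red₂ y ≠ 0) :
    push hfin' r (y : F') b₂ = Q₂.ord (red₂ y) :=
  r2_point hfin' (fun a _ =>
    (hcount_pairAlong φ hφ hfin hfin' d hsum r0 q h₁ h₂ hb x0 hx₁ hx₂ hT m0 hgood hord).2 a)
    h₂ y hy

end Along

end

end Fermat.Agent.ES.W33.R2RelN22
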