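/-
Programme W (S33), chapter (B3′) "reduction of places on the nodal model" — helper22:
**`RedCtxN.r1₁ / r1₂` (the (R2) fields of `XiIfaceN29.RedCtxN`) AT EVERY SMOOTH POINT, from the
relative count `W33/R2RelN22`** — generic: no instance name occurs.

SETTING.  `φ : F →ₐ[K] F'` a finite morphism of function fields (instance: `alphaN : F_{M'} → F_{M'p}`),
`r0 : Place K F → Place k Ft₁` the reduction map of the GOOD curve `F` (instance: `rV`),
`r : Place K F' → SPt k Ft₁ Ft₂ ⊕ Fin s` the total reduction map of the nodal model (`rN` or `T.r`),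
`N` the nodes, `Φ : Place k Ft₂ ≃ Place k Ft₁` the bijection "partner on the first branch of a point
of the second branch" (instance: Frobenius twist composed with the reduction of `W_{M'}`).

COMPATIBILITIES (the three cases of `r`, all of the shape "`r0` of the restriction of `P`"):
* `c1 : r P = inl (inl Q)  → r0 (P.restrictAlong φ hφ) = Q`      (instance: `r1 = rV ∘ resAlpha`);
* `c2 : r P = inl (inr Q₂) → r0 (P.restrictAlong φ hφ) = Φ Q₂`   ((R1) on branch 2 for the `α b⁰`);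
* `c3 : r P = inr j        → r0 (P.restrictAlong φ hφ) = N.ν₁ j` (definition of the nodes);
* `cN : N.ν₁ j = Φ (N.ν₂ j)`.
PER-POINT DATA `RelPoint … Q Q₂` (for `Q` smooth on the first branch, `Q₂ = Φ⁻¹ Q`): a coordinate
`x0 ∈ F` (instance: `tV` or `tV⁻¹`) with `φ x0 ∈ G₁ ⊓ G₂`, the two local contexts
`R2PointP22.PointHyp` at `Q` and at `Q₂` for the coordinate `φ x0`, the GOOD-level (R2) for `x0 - a` at
`Q` (`m0`), and `ord_Q (x̄₁ - ā) + ord_{Q₂} (x̄₂ - ā) ≤ d * m0 a` (instance: `1 + p ≤ d`).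

EXITS: `partition` (`hT` of `R2RelN22`), `smooth_partner`, `smooth_of_partner`,
**`r2_rel₁`, `r2_rel₂`** (`push` form, all `y ∈ G_i`), **`r1₁_of_rel`, `r1₂_of_rel`** (the literal
fields of `RedCtxN`).
-/
import Mathlib
import Fermat.Agent.ES.W33.R2RelN22
import Fermat.Agent.ES.W33.XiIfaceN29

set_option autoImplicit false
set_option linter.unusedSectionVars false

namespace Fermat.Agent.ES.W33.R2RelCtxN22

open AlgebraicCurve
open Fermat.Agent.ES.RED.R2Abstract14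
open Fermat.Agent.ES.W33.R2PointP22 Fermat.Agent.ES.W33.R2RelN22 Fermat.Agent.ES.W33.XiIfaceN29

noncomputable section

variable {K F F' : Type*} [Field K] [Field F] [Field F'] [Algebra K F] [Algebra K F']
  [HasPrincipalDivisors K F']
variable {k Ft₁ Ft₂ : Type*} [Field k] [Field Ft₁] [Algebra k Ft₁] [Field Ft₂] [Algebra k Ft₂]
variable {s : ℕ}

/-- **The data at a smooth point `Q` of the first branch and its partner `Q₂` on the second.** -/
def RelPoint (φ : F →ₐ[K] F') (hfin : FinDiv K F) (d : ℤ) (A : ValuationSubring K) (res : A →+* k)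
    (G₁ G₂ : Subring F') (red₁ : G₁ →+* Ft₁) (red₂ : G₂ →+* Ft₂)
    (r : Place K F' → SPt k Ft₁ Ft₂ ⊕ Fin s) (r0 : Place K F → Place k Ft₁)
    (Q : Place k Ft₁) (Q₂ : Place k Ft₂) : Prop :=
  ∃ (x0 : F) (h1 : φ x0 ∈ G₁) (h2 : φ x0 ∈ G₂) (B₁ B₂ : Subring F') (m0 : A → ℤ),
    PointHyp A res G₁ red₁ r (Sum.inl (Sum.inl Q)) Q B₁ ⟨φ x0, h1⟩ ∧
    PointHyp A res G₂ red₂ r (Sum.inl (Sum.inr Q₂)) Q₂ B₂ ⟨φ x0, h2⟩ ∧
    (∀ a : A, push hfin r0 (x0 - algebraMap K F a) Q = m0 a) ∧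
    ∀ a : A, Q.ord (red₁ ⟨φ x0, h1⟩ - algebraMap k Ft₁ (res a)) +
      Q₂.ord (red₂ ⟨φ x0, h2⟩ - algebraMap k Ft₂ (res a)) ≤ d * m0 a

variable (φ : F →ₐ[K] F') (hφ : φ.toRingHom.IsIntegral)
variable (N : Nodes k Ft₁ Ft₂ s) (r : Place K F' → SPt k Ft₁ Ft₂ ⊕ Fin s)
  (r0 : Place K F → Place k Ft₁) (Φ : Place k Ft₂ ≃ Place k Ft₁)
variable (c1 : ∀ (P : Place K F') (Q : Place k Ft₁), r P = Sum.inl (Sum.inl Q) →
  r0 (P.restrictAlong φ hφ) = Q)
variable (c2 : ∀ (P : Place K F') (Q₂ : Place k Ft₂), r P = Sum.inl (Sum.inr Q₂) →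
  r0 (P.restrictAlong φ hφ) = Φ Q₂)
variable (c3 : ∀ (P : Place K F') (j : Fin s), r P = Sum.inr j →
  r0 (P.restrictAlong φ hφ) = N.ν₁ j)
variable (cN : ∀ j : Fin s, N.ν₁ j = Φ (N.ν₂ j))

include c1 c2 c3 in
/-- **the places over a smooth point `Q` of the first branch** reduce to `Q` or to its partner. -/
theorem partition {Q : Place k Ft₁} (hQ : N.IsSmooth (Sum.inl Q)) (w : Place K F') :
    r0 (w.restrictAlong φ hφ) = Q ↔
      (r w = Sum.inl (Sum.inl Q) ∨ r w = Sum.inl (Sum.inr (Φ.symm Q))) := by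
  constructor
  · intro h
    rcases hr : r w with (Q' | Q₂') | j
    · left
      rw [← c1 w Q' hr, h]
    · right
      have := c2 w Q₂' hr
      rw [h] at this
      rw [this, Equiv.symm_apply_apply]
    · exfalso
      have := c3 w j hr
      rw [h] at this
      exact hQ j this
  · rintro (h | h)
    · exact c1 w Q h
    · rw [c2 w _ h, Equiv.apply_symm_apply]

include cN in
/-- the partner of a smooth point of the first branch is smooth. -/
theorem smooth_partner {Q : Place k Ft₁} (hQ : N.IsSmooth (Sum.inl Q)) :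
    N.IsSmooth (Sum.inr (Φ.symm Q)) := by
  intro j h
  apply hQ j
  rw [cN j, ← h, Equiv.apply_symm_apply]

include cN in
/-- the partner of a smooth point of the second branch is smooth. -/
theorem smooth_of_partner {Q₂ : Place k Ft₂} (hQ : N.IsSmooth (Sum.inr Q₂)) :
    N.IsSmooth (Sum.inl (Φ Q₂)) := by
  intro j h
  apply hQ j
  rw [cN j] at h
  exact Φ.injective h

variable (hfin : FinDiv K F) (hfin' : FinDiv K F') (d : ℤ)
variable (hsum : ∀ v : Place K F,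
  ∑ w ∈ Place.fiberAlong φ hφ v, (w.ramificationIndexAlong φ : ℤ) = d)
variable {A : ValuationSubring K} {res : A →+* k}
  {G₁ G₂ : Subring F'} {red₁ : G₁ →+* Ft₁} {red₂ : G₂ →+* Ft₂}

include c1 c2 c3 hsum in
/-- **(R2) at a smooth point of the first branch**, `push` form, every `y ∈ G₁`. -/
theorem r2_rel₁ [IsAlgClosed K] {Q : Place k Ft₁} (hQ : N.IsSmooth (Sum.inl Q))
    (hpt : RelPoint φ hfin d A res G₁ G₂ red₁ red₂ r r0 Q (Φ.symm Q))
    (y : G₁) (hy : red₁ y ≠ 0) :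
    push hfin' r (y : F') (Sum.inl (Sum.inl Q)) = Q.ord (red₁ y) := by
  obtain ⟨x0, h1, h2, B₁, B₂, m0, hp₁, hp₂, hgood, hord⟩ := hpt
  exact r2_pairAlong₁ φ hφ hfin hfin' d hsum r0 Q hp₁ hp₂ (by simp) x0 rfl rfl
    (partition φ hφ N r r0 Φ c1 c2 c3 hQ) m0 hgood hord y hy

include c1 c2 c3 hsum in
/-- **(R2) at the partner of a smooth point of the first branch**, `push` form, every `y ∈ G₂`. -/
theorem r2_rel₂' [IsAlgClosed K] {Q : Place k Ft₁} (hQ : N.IsSmooth (Sum.inl Q))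
    (hpt : RelPoint φ hfin d A res G₁ G₂ red₁ red₂ r r0 Q (Φ.symm Q))
    (y : G₂) (hy : red₂ y ≠ 0) :
    push hfin' r (y : F') (Sum.inl (Sum.inr (Φ.symm Q))) = (Φ.symm Q).ord (red₂ y) := by
  obtain ⟨x0, h1, h2, B₁, B₂, m0, hp₁, hp₂, hgood, hord⟩ := hpt
  exact r2_pairAlong₂ φ hφ hfin hfin' d hsum r0 Q hp₁ hp₂ (by simp) x0 rfl rfl
    (partition φ hφ N r r0 Φ c1 c2 c3 hQ) m0 hgood hord y hy

include c1 c2 c3 cN hsum in
/-- **(R2) at a smooth point of the second branch**, `push` form, every `y ∈ G₂`. -/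
theorem r2_rel₂ [IsAlgClosed K]
    (hpts : ∀ Q : Place k Ft₁, N.IsSmooth (Sum.inl Q) →
      RelPoint φ hfin d A res G₁ G₂ red₁ red₂ r r0 Q (Φ.symm Q))
    {Q₂ : Place k Ft₂} (hQ : N.IsSmooth (Sum.inr Q₂)) (y : G₂) (hy : red₂ y ≠ 0) :
    push hfin' r (y : F') (Sum.inl (Sum.inr Q₂)) = Q₂.ord (red₂ y) := by
  have hQ1 := smooth_of_partner N Φ cN hQ
  have := r2_rel₂' φ hφ N r r0 Φ c1 c2 c3 hfin hfin' d hsum hQ1 (hpts _ hQ1) y hy
  rwa [Equiv.symm_apply_apply] at this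

/-! ### the literal fields of `RedCtxN` -/

variable {G : Subring F'} {red : ↥G →+* Ft₁ × Ft₂}

include c1 c2 c3 hsum hfin' in
/-- **`RedCtxN.r1₁`**, literally. -/
theorem r1₁_of_rel [IsAlgClosed K]
    (hpts : ∀ Q : Place k Ft₁, N.IsSmooth (Sum.inl Q) →
      RelPoint φ hfin d A res G₁ G₂ red₁ red₂ r r0 Q (Φ.symm Q))
    (hG₁ : G ≤ G₁) (hred₁ : ∀ g : ↥G, (red g).1 = red₁ ⟨(g : F'), hG₁ g.2⟩) :
    ∀ g : ↥G, (red g).1 ≠ 0 → ∀ D : Divisor K F', (∀ P, D P = P.ord (g : F')) →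
      ∀ Q : Place k Ft₁, N.IsSmooth (Sum.inl Q) →
        Finsupp.mapDomain r D (Sum.inl (Sum.inl Q)) = Q.ord (red g).1 := by
  intro g hg D hD Q hQ
  rw [eq_divOf hfin' _ D hD, hred₁ g]
  exact r2_rel₁ φ hφ N r r0 Φ c1 c2 c3 hfin hfin' d hsum hQ (hpts Q hQ) ⟨(g : F'), hG₁ g.2⟩
    (by rw [← hred₁ g]; exact hg)

include c1 c2 c3 cN hsum hfin' in
/-- **`RedCtxN.r1₂`**, literally. -/
theorem r1₂_of_rel [IsAlgClosed K]
    (hpts : ∀ Q : Place k Ft₁, N.IsSmooth (Sum.inl Q) →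
      RelPoint φ hfin d A res G₁ G₂ red₁ red₂ r r0 Q (Φ.symm Q))
    (hG₂ : G ≤ G₂) (hred₂ : ∀ g : ↥G, (red g).2 = red₂ ⟨(g : F'), hG₂ g.2⟩) :
    ∀ g : ↥G, (red g).2 ≠ 0 → ∀ D : Divisor K F', (∀ P, D P = P.ord (g : F')) →
      ∀ Q : Place k Ft₂, N.IsSmooth (Sum.inr Q) →
        Finsupp.mapDomain r D (Sum.inl (Sum.inr Q)) = Q.ord (red g).2 := by
  intro g hg D hD Q hQ
  rw [eq_divOf hfin' _ D hD, hred₂ g]
  exact r2_rel₂ φ hφ N r r0 Φ c1 c2 c3 cN hfin hfin' d hsum hpts hQ ⟨(g : F'), hG₂ g.2⟩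
    (by rw [← hred₂ g]; exact hg)

end

end Fermat.Agent.ES.W33.R2RelCtxN22
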