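/-
Programme W (S33), chapter (B3′), helper1: **the field `scale` of `XiIfaceN29.RedCtxN` at the nodal
instance `NodalDefs3`** — scaling by the MINIMUM of the two Gauss valuations.

Input: helper25's `ScaleOne25.exists_scale_bad` (scale₁: every `f ≠ 0` of `F = ℚ̄·F_{M' p}` is a constant
times a Gauss unit of `O1`).  Applied to `W f` it gives scale₂ (`O2 = W⁻¹ O1`, `rho2 = rho1 ∘ W`, and
`W` is `ℚ̄`-linear).  Of the two constants `c₁`, `c₂` the one of larger `A`-valuation wins: `A` is a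
valuation ring, so `c₂ / c₁ ∈ A` or `c₁ / c₂ ∈ A`, and the constants of `A` lie in `O1` and in `O2`.

* `algebraMap_mem_O1`, `algebraMap_mem_O2` : constants of `A` lie in both Gauss valuation rings;
* `isGU_two` : `IsGU (W f)`-form of scale₂ ⇒ membership in `O2` with `rho2 ≠ 0`;
* **`exists_scaleN`** : `∀ f ≠ 0, ∃ c ≠ 0, ∃ h : (algebraMap c)⁻¹ * f ∈ GN, redN ⟨_, h⟩ ≠ 0`
  = the literal of `RedCtxN.scale` at `G := GN`, `red := redN`;
* by-products: `const_memN`, `red_constN`, `pi_nonunitN` = the literals of `RedCtxN.const_mem`,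
  `red_const`, `pi_nonunit` at the instance.
-/
import Mathlib
import Fermat.Agent.ES.W33.ScaleOne25

set_option autoImplicit false
set_option synthInstance.maxHeartbeats 400000
set_option linter.unusedSectionVars false

open HahnSeries ModularCurve AlgebraicCurve

noncomputable section

namespace Fermat.Agent.ES.W33.ScaleN1

open Fermat.Agent.RED.Interface4 Fermat.Agent.RED.BASE.Interface12 Fermat.Agent.RED.BASE.Hauptmodul12
  Fermat.Agent.ES.RED.Contract8 Fermat.Agent.ES.RED.ModelInst4 Fermat.Agent.ES.RED.GaussRing15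
  Fermat.Agent.ES.N34.FrickeFK8
  Fermat.Agent.X0 Fermat.Agent.X0.FF
  Fermat.Agent.ES.V19.GaussFrac15 Fermat.Agent.ES.W33.NodalDefs3 Fermat.Agent.ES.W33.ScaleOne25

attribute [local instance 5000] HahnSeries.powerSeriesAlgebra SubalgebraClass.toAlgebra

variable (n e M' : ℕ) [NeZero n] [NeZero M'] (p : ℕ) [Fact p.Prime] (hpM : ¬ p ∣ M')
  (hb : BaseHyp n e) (hnM : n ∣ M') (A : ValuationSubring Qbar) (hA : A.LiesOverPrime p)

/-- constants of `A` lie in the first Gauss valuation ring. -/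
theorem algebraMap_mem_O1 (a : ↥A) :
    algebraMap Qbar ↥(Fbar (M' * p)) (a : Qbar) ∈ O1 M' p A :=
  le_gaussInt (Gq1 M' p A) (redq1 M' p A)
    (algebraMap_mem_gaussRing A (resA A) (Fbar (M' * p))
      (modularFunctionFieldFullC (kA A) M') a)

/-- constants of `A` lie in the second Gauss valuation ring. -/
theorem algebraMap_mem_O2 (a : ↥A) :
    algebraMap Qbar ↥(Fbar (M' * p)) (a : Qbar) ∈ O2 M' p A := by
  rw [mem_O2_iff, (frickeN M' p).commutes]
  exact algebraMap_mem_O1 M' p A a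

/-- `W` of a scaled function. -/
theorem frickeN_scale (c : Qbar) (f : ↥(Fbar (M' * p))) :
    frickeN M' p ((algebraMap Qbar ↥(Fbar (M' * p)) c)⁻¹ * f) =
      (algebraMap Qbar ↥(Fbar (M' * p)) c)⁻¹ * frickeN M' p f := by
  rw [map_mul, map_inv₀, (frickeN M' p).commutes]

/-- a Gauss unit of `O1` lies in `O1` with nonzero reduction. -/
theorem rho1_ne_zero_of_isGU {f : ↥(Fbar (M' * p))}
    (h : IsGU (Gq1 M' p A) (redq1 M' p A) f) :
    ∃ h1 : f ∈ O1 M' p A, rho1 M' p A ⟨f, h1⟩ ≠ 0 :=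
  ⟨h.isGI, (isGU_iff_rho_ne_zero (G := Gq1 M' p A) (red := redq1 M' p A) ⟨f, h.isGI⟩).mp h⟩

/-- if `W f` is a Gauss unit of `O1`, then `f` lies in `O2` with nonzero reduction. -/
theorem rho2_ne_zero_of_isGU {f : ↥(Fbar (M' * p))}
    (h : IsGU (Gq1 M' p A) (redq1 M' p A) (frickeN M' p f)) :
    ∃ h2 : f ∈ O2 M' p A, rho2 M' p A ⟨f, h2⟩ ≠ 0 := by
  obtain ⟨h1, hne⟩ := rho1_ne_zero_of_isGU M' p A h
  exact ⟨h1, hne⟩

include hpM hb hnM hA in
/-- **`RedCtxN.scale` at the instance**: every nonzero function is a constant times an element of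
`GN = O1 ⊓ O2` with nonzero reduction (on at least one component). -/
theorem exists_scaleN (f : ↥(Fbar (M' * p))) (hf0 : f ≠ 0) :
    ∃ c : Qbar, c ≠ 0 ∧ ∃ h : (algebraMap Qbar ↥(Fbar (M' * p)) c)⁻¹ * f ∈ GN M' p A,
      redN M' p A ⟨_, h⟩ ≠ 0 := by
  obtain ⟨c₁, hc₁, hu₁⟩ := exists_scale_bad A n e M' p hpM hb hnM hA f hf0
  have hWf : frickeN M' p f ≠ 0 := fun h0 =>
    hf0 ((map_eq_zero_iff (frickeN M' p) (frickeN M' p).injective).mp h0)
  obtain ⟨c₂, hc₂, hu₂⟩ := exists_scale_bad A n e M' p hpM hb hnM hA (frickeN M' p f) hWf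
  rw [← frickeN_scale] at hu₂
  obtain ⟨h1, hρ1⟩ := rho1_ne_zero_of_isGU M' p A hu₁
  obtain ⟨h2, hρ2⟩ := rho2_ne_zero_of_isGU M' p A hu₂
  have hm₁ : algebraMap Qbar ↥(Fbar (M' * p)) c₁ ≠ 0 := by
    rwa [Ne, map_eq_zero]
  have hm₂ : algebraMap Qbar ↥(Fbar (M' * p)) c₂ ≠ 0 := by
    rwa [Ne, map_eq_zero]
  rcases A.mem_or_inv_mem (c₂ / c₁) with hA' | hA'
  · -- `c₂ / c₁ ∈ A`: the constant `c₁` works
    have hrel : (algebraMap Qbar ↥(Fbar (M' * p)) c₁)⁻¹ * f =
        algebraMap Qbar ↥(Fbar (M' * p)) (c₂ / c₁) *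
          ((algebraMap Qbar ↥(Fbar (M' * p)) c₂)⁻¹ * f) := by
      rw [map_div₀]
      field_simp
    have h2' : (algebraMap Qbar ↥(Fbar (M' * p)) c₁)⁻¹ * f ∈ O2 M' p A := by
      rw [hrel]
      exact (O2 M' p A).mul_mem (algebraMap_mem_O2 M' p A ⟨_, hA'⟩) h2
    refine ⟨c₁, hc₁, ⟨h1, h2'⟩, fun h0 => hρ1 ?_⟩
    have := congrArg Prod.fst h0
    rwa [redN_fst] at this
  · -- `c₁ / c₂ ∈ A`: the constant `c₂` works
    have hA'' : c₁ / c₂ ∈ A := by
      rwa [inv_div] at hA'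
    have hrel : (algebraMap Qbar ↥(Fbar (M' * p)) c₂)⁻¹ * f =
        algebraMap Qbar ↥(Fbar (M' * p)) (c₁ / c₂) *
          ((algebraMap Qbar ↥(Fbar (M' * p)) c₁)⁻¹ * f) := by
      rw [map_div₀]
      field_simp
    have h1' : (algebraMap Qbar ↥(Fbar (M' * p)) c₂)⁻¹ * f ∈ O1 M' p A := by
      rw [hrel]
      exact (O1 M' p A).mul_mem (algebraMap_mem_O1 M' p A ⟨_, hA''⟩) h1
    refine ⟨c₂, hc₂, ⟨h1', h2⟩, fun h0 => hρ2 ?_⟩
    have := congrArg Prod.snd h0
    rwa [redN_snd] at this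

/-! ### the three constant fields of `RedCtxN` (by-products) -/

/-- `RedCtxN.const_mem` at the instance. -/
theorem const_memN (a : ↥A) : algebraMap Qbar ↥(Fbar (M' * p)) (a : Qbar) ∈ GN M' p A :=
  ⟨algebraMap_mem_O1 M' p A a, algebraMap_mem_O2 M' p A a⟩

/-- `rho1` of a constant. -/
theorem rho1_algebraMap (a : ↥A) :
    rho1 M' p A ⟨algebraMap Qbar ↥(Fbar (M' * p)) (a : Qbar), algebraMap_mem_O1 M' p A a⟩ =
      algebraMap (kA A) (Ft M' A) (resA A a) := by
  have h := rho_of_mem (G := Gq1 M' p A) (red := redq1 M' p A)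
    ⟨algebraMap Qbar ↥(Fbar (M' * p)) (a : Qbar),
      algebraMap_mem_gaussRing A (resA A) (Fbar (M' * p))
        (modularFunctionFieldFullC (kA A) M') a⟩
  exact h.trans (gaussRed_algebraMap A (resA A) (Fbar (M' * p))
    (modularFunctionFieldFullC (kA A) M') a)

/-- `RedCtxN.red_const` at the instance. -/
theorem red_constN (a : ↥A) :
    redN M' p A ⟨algebraMap Qbar ↥(Fbar (M' * p)) (a : Qbar), const_memN M' p A a⟩ =
      (algebraMap (kA A) (Ft M' A) (resA A a), algebraMap (kA A) (Ft M' A) (resA A a)) := by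
  apply Prod.ext
  · rw [redN_fst]
    exact rho1_algebraMap M' p A a
  · rw [redN_snd, rho2_apply]
    have hsub : (⟨frickeN M' p (algebraMap Qbar ↥(Fbar (M' * p)) (a : Qbar)),
        algebraMap_mem_O2 M' p A a⟩ : ↥(O1 M' p A)) =
        ⟨algebraMap Qbar ↥(Fbar (M' * p)) (a : Qbar), algebraMap_mem_O1 M' p A a⟩ :=
      Subtype.ext ((frickeN M' p).commutes _)
    exact (congrArg (rho1 M' p A) hsub).trans (rho1_algebraMap M' p A a)

/-- `RedCtxN.pi_nonunit` at the instance. -/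
theorem pi_nonunitN (a : ↥A) (ha : ¬ IsUnit a) : resA A a = 0 := by
  rw [IsLocalRing.residue_eq_zero_iff]
  exact (IsLocalRing.mem_maximalIdeal a).mpr ha

end Fermat.Agent.ES.W33.ScaleN1
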