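/-
Programme W (S33, SPINE v1.1), chapter (B3′), THE `ctx` / `nodes_inj` JOIN (helper26, for helper23's
`GeoInput23.Open`): **`RedCtxN A (residue ↥A) nodesN GN redN rN ∧ Injective nodesN.ν₁`** — the first two
fields of `GeoInput23.Open` — **from ONE structure `CtxLeaves` whose fields are exactly the leaves
of (B3′) that are still OPEN**, in the OWNERS' literals (ruling (A): the names of `NodalDefs3`).

DISCHARGED HERE (proved, imported):
* `RedCtxN.const_mem / red_const / pi_nonunit / scale`            — helper1's `ScaleN1`;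
* `RedCtxN.smooth / glue / glue_unit`, `nodes_inj`                — helper20's `NodalCtxRN20.RNLeaves`
  exits ((HARTOGS_j) by helper13's `HartogsN13` inside);
* `RedCtxN.r1₁ / r1₂`                                              — helper22's relative count
  `R2RelCtxN22.r1₁_of_rel / r1₂_of_rel` at `φ := alphaN`, `r0 := rV`, `r := rN`, `N := nodesN`,
  `G_i := O_i`, `red_i := rho_i`, with
    - `c1 : rN P = inl (inl Q) → rV (P|α) = Q`      PROVED here from the definition of `rN` (`c1_rN`);
    - `c3 : rN P = inr j → rV (P|α) = nodesN.ν₁ j`  PROVED here from the definition of `rN`, `nodesN`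
                                                      (`c3_rN`);
    - `hsum : ∑_{w ∣ v} e_α(w) = deg α`             main's `FundId12.sum_ramificationIndexAlong`
                                                      (`hsumN`, at `d := degAlpha M' p`;
                                                      `degAlpha_eq : degAlpha M' p = p + 1`);
    - `hfin, hfin'`                                  main's `DiscFinal22.finDiv`.

THE OPEN LEAVES = the fields of `CtxLeaves n e M' p hpM hb hnM A hA : Prop`: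
* `H   : NodalCtxRN20.RNLeaves n e M' p hpM hb hnM A hA`   (helper20's bundle: charts, branch places,
                                                            transcendence, finiteness, `inv_mem`);
* `rel : ∃ Φ : Place k F̃ ≃ Place k F̃,`                    (helper22's (R2) instance leaves)
    `(c2) rN P = inl (inr Q₂) → rV (P|α) = Φ Q₂`,  `(cN) nodesN.ν₁ j = Φ (nodesN.ν₂ j)`,
    `(hpts) ∀ Q smooth on branch 1, RelPoint alphaN finDiv (degAlpha M' p) A resA O1 O2 rho1 rho2 rN rV
                                      Q (Φ.symm Q)`.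

EXITS: `redCtxN_of_r1` (same with `r1₁`, `r1₂` given literally), **`redCtxN_and_inj`**,
`redCtxN`, `nodes_inj`.  AUXILIARY (definition-unfolding of `rN`, for the owners of `c2`/`cN`):
`rN_of_node`, `rN_of_infinite`, `r2_of_rN_inl_inr : rN P = inl (inr Q₂) → r2 P = Q₂`,
`r2_of_rN_inr : rN P = inr j → r2 P = nodesN.ν₂ j` (so `c2` is `r1 P = Φ (r2 P)` on `W₂`, and `cN`
follows from `r1 P = Φ (r2 P)` at ONE place `P` through each node).

USE (helper23's `GeoInput23.Open`, base `(4, 8)`):
  `ctx := NodalCtxAsm26.redCtxN h`, `nodes_inj := NodalCtxAsm26.nodes_inj h`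
  for `h : CtxLeaves 4 8 M' p hpM baseHyp_four h4M A hA`.
-/
import Mathlib
import Fermat.Agent.ES.W33.NodalCtxRN20
import Fermat.Agent.ES.W33.R2RelCtxN22
import Fermat.Agent.ES.W33.ScaleN1
import Fermat.Agent.ES.V19.DiscFinal22
import Fermat.Agent.ES.HECKE.LevelPullback12
import Fermat.Agent.ES.HECKE.FundId12
import Fermat.Agent.ES.HECKE.DegreeL25
import Fermat.Agent.RED.LVL.LevelDegree17

set_option autoImplicit false
set_option linter.unusedSectionVars false
set_option synthInstance.maxHeartbeats 400000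

open HahnSeries ModularCurve AlgebraicCurve
open scoped MatrixGroups

noncomputable section

namespace Fermat.Agent.ES.W33.NodalCtxAsm26

open Fermat.Agent.RED.Interface4 Fermat.Agent.RED.BASE.Interface12 Fermat.Agent.RED.BASE.Hauptmodul12
  Fermat.Agent.ES.RED.Contract8 Fermat.Agent.ES.RED.ModelInst4
  Fermat.Agent.ES.RED.R2Abstract14
  Fermat.Agent.ES.HECKE.LevelPullback12
  Fermat.Agent.X0 Fermat.Agent.X0.FF
  Fermat.Agent.ES.V19.InstNames3 Fermat.Agent.ES.W33.XiIfaceN29
  Fermat.Agent.ES.W33.NodalDefs3 Fermat.Agent.ES.W33.ValAt29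
  Fermat.Agent.ES.W33.NodalCtxRN20 Fermat.Agent.ES.W33.R2RelCtxN22

attribute [local instance 5000] HahnSeries.powerSeriesAlgebra SubalgebraClass.toAlgebra

variable (n e M' : ℕ) [NeZero n] [NeZero M'] (p : ℕ) [Fact p.Prime] (hpM : ¬ p ∣ M')
  (hb : BaseHyp n e) (hnM : n ∣ M') (A : ValuationSubring Qbar) (hA : A.LiesOverPrime p)

/-! ### the compatibilities `c1`, `c3` of `R2RelCtxN22`, from the definitions of `rN`, `nodesN` -/

/-- the node case of `rN`. -/
theorem rN_of_node {P : Place Qbar ↥(Fbar (M' * p))} (h1 : ¬ InW1 n e M' p hb hnM A P)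
    (h2 : ¬ InW2 n e M' p hb hnM A P) (hf : Finite ↥(nodePairs n e M' p hpM hb hnM A hA)) :
    rN n e M' p hpM hb hnM A hA P =
      Sum.inr (haveI := hf; Finite.equivFin ↥(nodePairs n e M' p hpM hb hnM A hA)
        ⟨(r1 n e M' p hpM hb hnM A hA P, r2 n e M' p hpM hb hnM A hA P), P, h1, h2, rfl⟩) := by
  unfold rN
  rw [dif_neg h1, dif_neg h2, dif_pos hf]
  rfl

/-- the junk case of `rN` (infinitely many node pairs; never happens). -/
theorem rN_of_infinite {P : Place Qbar ↥(Fbar (M' * p))} (h1 : ¬ InW1 n e M' p hb hnM A P)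
    (h2 : ¬ InW2 n e M' p hb hnM A P) (hf : ¬ Finite ↥(nodePairs n e M' p hpM hb hnM A hA)) :
    rN n e M' p hpM hb hnM A hA P = Sum.inl (Sum.inl (r1 n e M' p hpM hb hnM A hA P)) := by
  unfold rN
  rw [dif_neg h1, dif_neg h2, dif_neg hf]

/-- **(c1)**: a place reducing to a smooth point `Q` of the FIRST component restricts, along `α`, to
a place of the good level reducing to `Q` — by the definition of `rN` (`r1 = rV ∘ resAlpha`). -/
theorem c1_rN (P : Place Qbar ↥(Fbar (M' * p))) (Q : Place (kA A) (Ft M' A))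
    (h : rN n e M' p hpM hb hnM A hA P = Sum.inl (Sum.inl Q)) :
    rV n e M' p hpM hb hnM A hA (P.restrictAlong (alphaN M' p) (alphaN_isIntegral M' p)) = Q := by
  show r1 n e M' p hpM hb hnM A hA P = Q
  by_cases h1 : InW1 n e M' p hb hnM A P
  · rw [rN_of_inW1 n e M' p hpM hb hnM A hA h1] at h
    exact Sum.inl_injective (Sum.inl_injective h)
  by_cases h2 : InW2 n e M' p hb hnM A P
  · rw [rN_of_inW2 n e M' p hpM hb hnM A hA h1 h2] at h
    exact absurd (Sum.inl_injective h) Sum.inr_ne_inl
  by_cases hf : Finite ↥(nodePairs n e M' p hpM hb hnM A hA)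
  · rw [rN_of_node n e M' p hpM hb hnM A hA h1 h2 hf] at h
    exact absurd h Sum.inr_ne_inl
  · rw [rN_of_infinite n e M' p hpM hb hnM A hA h1 h2 hf] at h
    exact Sum.inl_injective (Sum.inl_injective h)

/-- **(c3)**: a place reducing to the `j`-th node restricts, along `α`, to a place of the good level
reducing to the first branch point `ν₁ j` of the node — by the definitions of `rN`, `nodesN`. -/
theorem c3_rN (P : Place Qbar ↥(Fbar (M' * p))) (j : Fin (sN n e M' p hpM hb hnM A hA))
    (h : rN n e M' p hpM hb hnM A hA P = Sum.inr j) :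
    rV n e M' p hpM hb hnM A hA (P.restrictAlong (alphaN M' p) (alphaN_isIntegral M' p)) =
      (nodesN n e M' p hpM hb hnM A hA).ν₁ j := by
  show r1 n e M' p hpM hb hnM A hA P = (nodeFin n e M' p hpM hb hnM A hA j).1.1
  by_cases h1 : InW1 n e M' p hb hnM A P
  · rw [rN_of_inW1 n e M' p hpM hb hnM A hA h1] at h
    exact absurd h Sum.inl_ne_inr
  by_cases h2 : InW2 n e M' p hb hnM A P
  · rw [rN_of_inW2 n e M' p hpM hb hnM A hA h1 h2] at h
    exact absurd h Sum.inl_ne_inr
  by_cases hf : Finite ↥(nodePairs n e M' p hpM hb hnM A hA)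
  · rw [rN_of_node n e M' p hpM hb hnM A hA h1 h2 hf] at h
    have hj := Sum.inr_injective h
    haveI := hf
    have hnf : nodeFin n e M' p hpM hb hnM A hA j =
        ⟨(r1 n e M' p hpM hb hnM A hA P, r2 n e M' p hpM hb hnM A hA P), P, h1, h2, rfl⟩ := by
      unfold nodeFin
      rw [← hj]
      exact Equiv.symm_apply_apply _ _
    rw [hnf]
  · rw [rN_of_infinite n e M' p hpM hb hnM A hA h1 h2 hf] at h
    exact absurd h Sum.inl_ne_inr

/-- **(c3′)**, the second branch: a place reducing to the `j`-th node has `r2 P = nodesN.ν₂ j`. -/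
theorem r2_of_rN_inr (P : Place Qbar ↥(Fbar (M' * p))) (j : Fin (sN n e M' p hpM hb hnM A hA))
    (h : rN n e M' p hpM hb hnM A hA P = Sum.inr j) :
    r2 n e M' p hpM hb hnM A hA P = (nodesN n e M' p hpM hb hnM A hA).ν₂ j := by
  show r2 n e M' p hpM hb hnM A hA P = (nodeFin n e M' p hpM hb hnM A hA j).1.2
  by_cases h1 : InW1 n e M' p hb hnM A P
  · rw [rN_of_inW1 n e M' p hpM hb hnM A hA h1] at h
    exact absurd h Sum.inl_ne_inr
  by_cases h2 : InW2 n e M' p hb hnM A P
  · rw [rN_of_inW2 n e M' p hpM hb hnM A hA h1 h2] at h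
    exact absurd h Sum.inl_ne_inr
  by_cases hf : Finite ↥(nodePairs n e M' p hpM hb hnM A hA)
  · rw [rN_of_node n e M' p hpM hb hnM A hA h1 h2 hf] at h
    have hj := Sum.inr_injective h
    haveI := hf
    have hnf : nodeFin n e M' p hpM hb hnM A hA j =
        ⟨(r1 n e M' p hpM hb hnM A hA P, r2 n e M' p hpM hb hnM A hA P), P, h1, h2, rfl⟩ := by
      unfold nodeFin
      rw [← hj]
      exact Equiv.symm_apply_apply _ _
    rw [hnf]
  · rw [rN_of_infinite n e M' p hpM hb hnM A hA h1 h2 hf] at h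
    exact absurd h Sum.inl_ne_inr

/-- a place reducing to a smooth point `Q₂` of the SECOND component has `r2 P = Q₂`. -/
theorem r2_of_rN_inl_inr (P : Place Qbar ↥(Fbar (M' * p))) (Q₂ : Place (kA A) (Ft M' A))
    (h : rN n e M' p hpM hb hnM A hA P = Sum.inl (Sum.inr Q₂)) :
    r2 n e M' p hpM hb hnM A hA P = Q₂ := by
  by_cases h1 : InW1 n e M' p hb hnM A P
  · rw [rN_of_inW1 n e M' p hpM hb hnM A hA h1] at h
    exact absurd (Sum.inl_injective h) Sum.inl_ne_inr
  by_cases h2 : InW2 n e M' p hb hnM A P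
  · rw [rN_of_inW2 n e M' p hpM hb hnM A hA h1 h2] at h
    exact Sum.inr_injective (Sum.inl_injective h)
  by_cases hf : Finite ↥(nodePairs n e M' p hpM hb hnM A hA)
  · rw [rN_of_node n e M' p hpM hb hnM A hA h1 h2 hf] at h
    exact absurd h Sum.inr_ne_inl
  · rw [rN_of_infinite n e M' p hpM hb hnM A hA h1 h2 hf] at h
    exact absurd (Sum.inl_injective h) Sum.inl_ne_inr

/-! ### degree of `α` and the fundamental identity -/

/-- `deg α = [F_{M' p} : F_{M'}]` (as an integer). -/
def degAlpha : ℤ := (finrankAlong Qbar (alphaN M' p) : ℤ)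

include hpM in
/-- **`deg α = p + 1`** (`p ∤ M'`): `ψ(M' p) = ψ(M') (p + 1)` and the tower formula (main). -/
theorem degAlpha_eq : degAlpha M' p = (p : ℤ) + 1 := by
  have h1 : finrankAlong Qbar (alphaN M' p) = (Fbar M').relfinrank (Fbar (M' * p)) :=
    finrankAlong_levelIncl (Dvd.intro p rfl)
  have h2 := Fermat.Agent.RED.LVL.LevelDegree17.psi_mul_relfinrank (N := M') (M := M' * p)
    (Dvd.intro p rfl)
  rw [Fermat.Agent.ES.HECKE.DegreeL25.psi_mul_prime M' p Fact.out hpM] at h2
  have h3 : (Fbar M').relfinrank (Fbar (M' * p)) = p + 1 :=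
    Nat.eq_of_mul_eq_mul_left (Fermat.Agent.X0.GNPsi.gnp_dedekindPsi_pos (NeZero.ne M')) h2
  unfold degAlpha
  rw [h1, h3]
  push_cast
  rfl

/-- **(hsum)**: `∑_{w ∣ v} e_α(w) = deg α` (main's `FundId12`). -/
theorem hsumN (v : Place Qbar ↥(Fbar M')) :
    haveI := Fermat.Agent.RED.TOP.FbarFacts20.hasPrincipalDivisors_bar (M' * p)
    ∑ w ∈ Place.fiberAlong (alphaN M' p) (alphaN_isIntegral M' p) v,
      (w.ramificationIndexAlong (alphaN M' p) : ℤ) = degAlpha M' p :=
  haveI := Fermat.Agent.RED.TOP.FbarFacts20.hasPrincipalDivisors_bar (M' * p)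
  Fermat.Agent.ES.HECKE.FundId12.sum_ramificationIndexAlong (alphaN M' p) (alphaN_isIntegral M' p)
    (levelIncl_finiteAlong _) (Fermat.Agent.RED.TOP.FbarFacts20.isGen_j M') v

/-- divisors of functions of the good level are finitely supported (main). -/
theorem finDivGood : FinDiv Qbar ↥(Fbar M') :=
  Fermat.Agent.ES.V19.DiscFinal22.finDiv (M := M')

/-- divisors of functions of the bad level are finitely supported (main). -/
theorem finDivBad : FinDiv Qbar ↥(Fbar (M' * p)) :=
  Fermat.Agent.ES.V19.DiscFinal22.finDiv (M := M' * p)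

/-! ### `RedCtxN` from helper20's bundle and the two (R2) fields -/

variable {n e M' p hpM hb hnM A hA}

/-- **`RedCtxN` at the instance and `nodes_inj`**, from helper20's bundle `RNLeaves` and the two (R2)
fields in the target literal. -/
theorem redCtxN_of_r1 (H : RNLeaves n e M' p hpM hb hnM A hA)
    (r1₁ : ∀ g : ↥(GN M' p A), (redN M' p A g).1 ≠ 0 → ∀ D : Divisor Qbar ↥(Fbar (M' * p)),
      (∀ P, D P = P.ord (g : ↥(Fbar (M' * p)))) →
      ∀ Q : Place (kA A) (Ft M' A), (nodesN n e M' p hpM hb hnM A hA).IsSmooth (Sum.inl Q) →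
        Finsupp.mapDomain (rN n e M' p hpM hb hnM A hA) D (Sum.inl (Sum.inl Q)) =
          Q.ord (redN M' p A g).1)
    (r1₂ : ∀ g : ↥(GN M' p A), (redN M' p A g).2 ≠ 0 → ∀ D : Divisor Qbar ↥(Fbar (M' * p)),
      (∀ P, D P = P.ord (g : ↥(Fbar (M' * p)))) →
      ∀ Q : Place (kA A) (Ft M' A), (nodesN n e M' p hpM hb hnM A hA).IsSmooth (Sum.inr Q) →
        Finsupp.mapDomain (rN n e M' p hpM hb hnM A hA) D (Sum.inl (Sum.inr Q)) =
          Q.ord (redN M' p A g).2) :
    RedCtxN A (IsLocalRing.residue ↥A) (nodesN n e M' p hpM hb hnM A hA) (GN M' p A) (redN M' p A)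
        (rN n e M' p hpM hb hnM A hA) ∧
      Function.Injective (nodesN n e M' p hpM hb hnM A hA).ν₁ :=
  ⟨{ const_mem := Fermat.Agent.ES.W33.ScaleN1.const_memN M' p A
     red_const := Fermat.Agent.ES.W33.ScaleN1.red_constN M' p A
     pi_nonunit := Fermat.Agent.ES.W33.ScaleN1.pi_nonunitN A
     smooth := H.smooth
     scale := Fermat.Agent.ES.W33.ScaleN1.exists_scaleN n e M' p hpM hb hnM A hA
     r1₁ := r1₁
     r1₂ := r1₂
     glue := H.glue
     glue_unit := H.glue_unit }, H.nodes_inj⟩

variable (n e M' p hpM hb hnM A hA)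

/-- **THE OPEN LEAVES of `ctx` / `nodes_inj`**, see the file header. -/
structure CtxLeaves : Prop where
  /-- helper20's bundle (charts, branch places, transcendence, finiteness, `inv_mem`) -/
  H : RNLeaves n e M' p hpM hb hnM A hA
  /-- helper22's (R2) instance leaves: the partner bijection `Φ`, the compatibilities `c2`, `cN`, and
  the per-point data at every smooth point of the first branch -/
  rel : ∃ Φ : Place (kA A) (Ft M' A) ≃ Place (kA A) (Ft M' A),
    (∀ (P : Place Qbar ↥(Fbar (M' * p))) (Q₂ : Place (kA A) (Ft M' A)),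
      rN n e M' p hpM hb hnM A hA P = Sum.inl (Sum.inr Q₂) →
        rV n e M' p hpM hb hnM A hA (P.restrictAlong (alphaN M' p) (alphaN_isIntegral M' p)) =
          Φ Q₂) ∧
    (∀ j : Fin (sN n e M' p hpM hb hnM A hA),
      (nodesN n e M' p hpM hb hnM A hA).ν₁ j = Φ ((nodesN n e M' p hpM hb hnM A hA).ν₂ j)) ∧
    ∀ Q : Place (kA A) (Ft M' A), (nodesN n e M' p hpM hb hnM A hA).IsSmooth (Sum.inl Q) →
      haveI := Fermat.Agent.RED.TOP.FbarFacts20.hasPrincipalDivisors_bar (M' * p)
      RelPoint (alphaN M' p) (finDivGood M') (degAlpha M' p) A (resA A)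
        (O1 M' p A) (O2 M' p A) (rho1 M' p A) (rho2 M' p A)
        (rN n e M' p hpM hb hnM A hA) (rV n e M' p hpM hb hnM A hA) Q (Φ.symm Q)

variable {n e M' p hpM hb hnM A hA}

/-- **`ctx` and `nodes_inj` of `GeoInput23.Open` from the open leaves.** -/
theorem redCtxN_and_inj (h : CtxLeaves n e M' p hpM hb hnM A hA) :
    RedCtxN A (IsLocalRing.residue ↥A) (nodesN n e M' p hpM hb hnM A hA) (GN M' p A) (redN M' p A)
        (rN n e M' p hpM hb hnM A hA) ∧
      Function.Injective (nodesN n e M' p hpM hb hnM A hA).ν₁ := by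
  haveI := Fermat.Agent.RED.TOP.FbarFacts20.hasPrincipalDivisors_bar (M' * p)
  obtain ⟨Φ, c2, cN, hpts⟩ := h.rel
  refine redCtxN_of_r1 h.H ?_ ?_
  · exact r1₁_of_rel (alphaN M' p) (alphaN_isIntegral M' p) (nodesN n e M' p hpM hb hnM A hA)
      (rN n e M' p hpM hb hnM A hA) (rV n e M' p hpM hb hnM A hA) Φ
      (c1_rN n e M' p hpM hb hnM A hA) c2 (c3_rN n e M' p hpM hb hnM A hA)
      (finDivGood M') (finDivBad M' p) (degAlpha M' p) (hsumN M' p) hpts
      (GN_le_O1 M' p A) (fun g => redN_fst M' p A g)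
  · exact r1₂_of_rel (alphaN M' p) (alphaN_isIntegral M' p) (nodesN n e M' p hpM hb hnM A hA)
      (rN n e M' p hpM hb hnM A hA) (rV n e M' p hpM hb hnM A hA) Φ
      (c1_rN n e M' p hpM hb hnM A hA) c2 (c3_rN n e M' p hpM hb hnM A hA) cN
      (finDivGood M') (finDivBad M' p) (degAlpha M' p) (hsumN M' p) hpts
      (GN_le_O2 M' p A) (fun g => redN_snd M' p A g)

/-- the field `ctx`. -/
theorem redCtxN (h : CtxLeaves n e M' p hpM hb hnM A hA) :
    RedCtxN A (IsLocalRing.residue ↥A) (nodesN n e M' p hpM hb hnM A hA) (GN M' p A) (redN M' p A)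
      (rN n e M' p hpM hb hnM A hA) :=
  (redCtxN_and_inj h).1

/-- the field `nodes_inj`. -/
theorem nodes_inj (h : CtxLeaves n e M' p hpM hb hnM A hA) :
    Function.Injective (nodesN n e M' p hpM hb hnM A hA).ν₁ :=
  (redCtxN_and_inj h).2

end Fermat.Agent.ES.W33.NodalCtxAsm26
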