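/-
Programme W (S33 by hand), chapter (B3′) support, helper14: **THE NODAL MODEL HAS FINITELY MANY
NODES** (level `K`, per chart) — requested by helper3 for `0 < sN` (`sN = Nat.card nodePairs`).

ABSTRACT FORM `finite_maximal_above`.  `R` local with `𝔪_R = (π)`, `S` a commutative `R`-algebra
generated as a module over `R[t]` by finitely many `e i` (`hgen`), `P1` a PRIME ideal containing
`π`, `P2` an ideal, `e₂ ∈ P2 ∖ P1` satisfying a monic equation with coefficients in `R[t]`.  Then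
only finitely many maximal ideals of `S` contain `P1 + P2`.
PROOF (no dimension theory).
* (D) `exists_poly_of_relation`: descending the monic equation modulo the prime `P1 ∌ e₂` gives
  `f ∈ R[X]` with `f(t) ∈ P1 + P2` and `f(t) ∉ P1`, so `f ≢ 0 mod π`;
* (C) `exists_pow_mem_powSpan`: the last coefficient of `f` prime to `π` is a unit (`R` local), so
  `t^d ∈ Σ_{j<d} R t^j + (P1 + P2)`;
* (B) `finite_quotient`: `S ⧸ (P1 + P2)` is generated over `R` by the `t^j e_i`, `j < d`;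
* (A) `finite_maximal_of_finite_quotient`: it is a finite module over the FIELD `R ⧸ (π)`, hence an
  artinian ring, hence has finitely many maximal ideals.

CHART FORM `finite_node_ideals` / `finite_node_offBranch` : for a chart `B ⊆ O1 ⊓ O2` of Programme
N's nodal model (`fin0`, `int0`, `t_mem`), given `e₂ ∈ B` with `e₂ ∈ 𝔪_{O2} ∖ 𝔪_{O1}`:
`{𝔪 maximal | B ∩ 𝔪_{O1} ≤ 𝔪 ∧ B ∩ 𝔪_{O2} ≤ 𝔪}` is finite, and so is
`{𝔪 maximal | π ∈ 𝔪 ∧ ¬ OffBranch π B O1 𝔪 ∧ ¬ OffBranch π B O2 𝔪}`.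
-/
import Mathlib
import Fermat.Agent.ES.N34.NodalCore13
import Fermat.Agent.ES.W33.ConnFibre14
import Fermat.Agent.ES.W33.ConnNodal14

set_option autoImplicit false

namespace Fermat.Agent.ES.W33.NodeFinite14

open Polynomial

section Abstract

variable {R S : Type*} [CommRing R] [CommRing S] [Algebra R S]

/-- **(A)** a quotient which is a finite module over `R` (local, `𝔪_R = (π)`) and killed by `π` has
finitely many maximal ideals. -/
theorem finite_maximal_of_finite_quotient [IsLocalRing R] (π : R)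
    (hπ : ∀ r : R, ¬ IsUnit r → π ∣ r) (I : Ideal S) (hπI : algebraMap R S π ∈ I)
    [Module.Finite R (S ⧸ I)] :
    {𝔪 : Ideal S | 𝔪.IsMaximal ∧ I ≤ 𝔪}.Finite := by
  classical
  by_cases hI : I = ⊤
  · convert Set.finite_empty
    ext 𝔪
    simp only [Set.mem_ofPred_eq, Set.mem_empty_iff_false, iff_false, not_and]
    intro hm hle
    exact hm.ne_top (top_le_iff.mp (hI ▸ hle))
  -- the residue field
  set J : Ideal R := I.comap (algebraMap R S) with hJ
  have hJne : J ≠ ⊤ := by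
    intro h
    apply hI
    rw [Ideal.eq_top_iff_one]
    have : (1 : R) ∈ J := by rw [h]; exact Submodule.mem_top
    rw [hJ, Ideal.mem_comap, map_one] at this
    exact this
  have hJmax : J.IsMaximal := by
    have h1 : J ≤ IsLocalRing.maximalIdeal R := IsLocalRing.le_maximalIdeal hJne
    have h2 : IsLocalRing.maximalIdeal R ≤ J := by
      intro r hr
      obtain ⟨c, rfl⟩ := hπ r ((IsLocalRing.mem_maximalIdeal r).mp hr)
      exact J.mul_mem_right c (by rw [hJ, Ideal.mem_comap]; exact hπI)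
    rw [le_antisymm h1 h2]
    exact IsLocalRing.maximalIdeal.isMaximal R
  let _ : Field (R ⧸ J) := Ideal.Quotient.field J
  have : Module.Finite (R ⧸ J) (S ⧸ I) :=
    Module.Finite.of_restrictScalars_finite R (R ⧸ J) (S ⧸ I)
  have : IsArtinianRing (S ⧸ I) := IsArtinianRing.of_finite (R ⧸ J) (S ⧸ I)
  have hfin := IsArtinianRing.setOfPred_isMaximal_finite (S ⧸ I)
  have hsurj : Function.Surjective (Ideal.Quotient.mk I) := Ideal.Quotient.mk_surjective
  refine (hfin.image (Ideal.comap (Ideal.Quotient.mk I))).subset ?_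
  rintro 𝔪 ⟨hm, hle⟩
  refine ⟨𝔪.map (Ideal.Quotient.mk I), ?_, ?_⟩
  · have hcm : (𝔪.map (Ideal.Quotient.mk I)).comap (Ideal.Quotient.mk I) = 𝔪 := by
      rw [Ideal.comap_map_of_surjective _ hsurj, ← RingHom.ker_eq_comap_bot, Ideal.mk_ker]
      exact sup_eq_left.mpr hle
    rcases Ideal.map_eq_top_or_isMaximal_of_surjective _ hsurj hm with h | h
    · exfalso
      rw [h, Ideal.comap_top] at hcm
      exact hm.ne_top hcm.symm
    · exact h
  · rw [Ideal.comap_map_of_surjective _ hsurj, ← RingHom.ker_eq_comap_bot, Ideal.mk_ker]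
    exact sup_eq_left.mpr hle

/-- the `R`-span of `1, t, …, t^(d-1)` plus the ideal `I`. -/
def powSpan (I : Ideal S) (t : S) (d : ℕ) : Submodule R S :=
  Submodule.span R (Set.range fun j : Fin d => t ^ (j : ℕ)) ⊔ I.restrictScalars R

theorem mem_powSpan_of_mem {I : Ideal S} {t : S} {d : ℕ} {x : S} (hx : x ∈ I) :
    x ∈ powSpan (R := R) I t d :=
  Submodule.mem_sup_right hx

theorem pow_mem_powSpan {I : Ideal S} {t : S} {d : ℕ} {j : ℕ} (hj : j < d) :
    t ^ j ∈ powSpan (R := R) I t d :=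
  Submodule.mem_sup_left (Submodule.subset_span ⟨⟨j, hj⟩, rfl⟩)

/-- `V = Σ_{j<d} R t^j + I` is stable under multiplication by `t` when
`t^d ∈ V`. -/
theorem mul_mem_powSpan {I : Ideal S} {t : S} {d : ℕ} (hd : t ^ d ∈ powSpan (R := R) I t d)
    {x : S} (hx : x ∈ powSpan (R := R) I t d) : t * x ∈ powSpan (R := R) I t d := by
  obtain ⟨v, hv, i, hi, rfl⟩ := Submodule.mem_sup.mp hx
  rw [mul_add]
  refine Submodule.add_mem _ ?_ (mem_powSpan_of_mem (I.mul_mem_left t hi))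
  clear hx
  induction hv using Submodule.span_induction with
  | mem y hy =>
    obtain ⟨j, rfl⟩ := hy
    rw [← pow_succ']
    by_cases hj : (j : ℕ) + 1 < d
    · exact pow_mem_powSpan hj
    · have : (j : ℕ) + 1 = d := by omega
      rw [this]; exact hd
  | zero => rw [mul_zero]; exact Submodule.zero_mem _
  | add y z _ _ hy hz => rw [mul_add]; exact Submodule.add_mem _ hy hz
  | smul a y _ hy => rw [mul_smul_comm]; exact Submodule.smul_mem _ a hy

theorem one_mem_powSpan {I : Ideal S} {t : S} {d : ℕ} (hd : t ^ d ∈ powSpan (R := R) I t d) :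
    (1 : S) ∈ powSpan (R := R) I t d := by
  rcases Nat.eq_zero_or_pos d with h0 | h0
  · subst h0; simpa using hd
  · have := pow_mem_powSpan (R := R) (I := I) (t := t) h0
    simpa using this

theorem all_pow_mem_powSpan {I : Ideal S} {t : S} {d : ℕ} (hd : t ^ d ∈ powSpan (R := R) I t d)
    (m : ℕ) : t ^ m ∈ powSpan (R := R) I t d := by
  induction m with
  | zero => rw [pow_zero]; exact one_mem_powSpan hd
  | succ m ih => rw [pow_succ']; exact mul_mem_powSpan hd ih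

theorem aeval_mem_powSpan {I : Ideal S} {t : S} {d : ℕ} (hd : t ^ d ∈ powSpan (R := R) I t d)
    (P : R[X]) : aeval t P ∈ powSpan (R := R) I t d := by
  rw [aeval_eq_sum_range]
  exact Submodule.sum_mem _ fun m _ => Submodule.smul_mem _ _ (all_pow_mem_powSpan hd m)

/-- **(B)** `S ⧸ I` is a finite `R`-module when `S` is finite over `R[t]` and
`t^d ∈ Σ_{j<d} R t^j + I`. -/
theorem finite_quotient (I : Ideal S) (t : S) {r : ℕ} (e : Fin r → S)
    (hgen : ∀ x : S, ∃ P : Fin r → R[X], x = ∑ i, aeval t (P i) * e i) (d : ℕ)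
    (hd : t ^ d ∈ powSpan (R := R) I t d) : Module.Finite R (S ⧸ I) := by
  classical
  set G : Set S := Set.range fun p : Fin d × Fin r => t ^ (p.1 : ℕ) * e p.2 with hG
  have hGfin : G.Finite := Set.finite_range _
  set W : Submodule R S := Submodule.span R G ⊔ I.restrictScalars R with hW
  -- `V * e i ⊆ W`
  have hVe : ∀ (i : Fin r) (x : S), x ∈ powSpan (R := R) I t d → x * e i ∈ W := by
    intro i x hx
    obtain ⟨v, hv, y, hy, rfl⟩ := Submodule.mem_sup.mp hx
    rw [add_mul]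
    refine Submodule.add_mem _ ?_ (Submodule.mem_sup_right (I.mul_mem_right (e i) hy))
    clear hx
    induction hv using Submodule.span_induction with
    | mem z hz =>
      obtain ⟨j, rfl⟩ := hz
      exact Submodule.mem_sup_left (Submodule.subset_span ⟨(j, i), rfl⟩)
    | zero => rw [zero_mul]; exact Submodule.zero_mem _
    | add y z _ _ hy hz => rw [add_mul]; exact Submodule.add_mem _ hy hz
    | smul a y _ hy => rw [smul_mul_assoc]; exact Submodule.smul_mem _ a hy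
  have hWtop : W = ⊤ := by
    rw [eq_top_iff]
    intro x _
    obtain ⟨P, rfl⟩ := hgen x
    exact Submodule.sum_mem _ fun i _ => hVe i _ (aeval_mem_powSpan hd (P i))
  -- the quotient is spanned by the images of `G`
  let mkl : S →ₗ[R] S ⧸ I := (Ideal.Quotient.mkₐ R I).toLinearMap
  have hsurj : Function.Surjective mkl := Ideal.Quotient.mkₐ_surjective R I
  have htop : (⊤ : Submodule R (S ⧸ I)) = Submodule.span R (mkl '' G) := by
    rw [← Submodule.map_span, ← LinearMap.range_eq_top.mpr hsurj, ← Submodule.map_top, ← hWtop, hW,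
      Submodule.map_sup]
    have : (I.restrictScalars R).map mkl = ⊥ := by
      rw [eq_bot_iff]
      rintro _ ⟨y, hy, rfl⟩
      exact (Submodule.mem_bot R).mpr (Ideal.Quotient.eq_zero_iff_mem.mpr hy)
    rw [this, sup_bot_eq]
  refine ⟨?_⟩
  rw [htop]
  exact Submodule.fg_span (hGfin.image _)

/-- **(C)** from `f(t) ∈ I`, `f ≢ 0 mod π`, to `t^d ∈ Σ_{j<d} R t^j + I`. -/
theorem exists_pow_mem_powSpan (π : R) (hπ : ∀ r : R, ¬ IsUnit r → π ∣ r) (I : Ideal S)
    (hπI : algebraMap R S π ∈ I) (t : S) (f : R[X]) (hf : aeval t f ∈ I)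
    (hfπ : ∃ j, ¬ π ∣ f.coeff j) : ∃ d : ℕ, t ^ d ∈ powSpan (R := R) I t d := by
  classical
  obtain ⟨j₀, hj₀⟩ := hfπ
  set T : Finset ℕ := f.support.filter fun j => ¬ π ∣ f.coeff j with hT
  have hj₀T : j₀ ∈ T := by
    rw [hT, Finset.mem_filter, mem_support_iff]
    exact ⟨fun h => hj₀ (h ▸ dvd_zero π), hj₀⟩
  set d : ℕ := T.max' ⟨j₀, hj₀T⟩ with hd
  have hdT : d ∈ T := Finset.max'_mem T _
  rw [hT, Finset.mem_filter] at hdT
  have hu : IsUnit (f.coeff d) := by
    by_contra h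
    exact hdT.2 (hπ _ h)
  have hbig : ∀ j, d < j → π ∣ f.coeff j := by
    intro j hj
    by_contra h
    have hjT : j ∈ T := by
      rw [hT, Finset.mem_filter, mem_support_iff]
      exact ⟨fun h0 => h (h0 ▸ dvd_zero π), h⟩
    exact absurd (Finset.le_max' T j hjT) (not_le.mpr hj)
  refine ⟨d, ?_⟩
  have hdn : d ∈ Finset.range (f.natDegree + 1) :=
    Finset.mem_range.mpr (Nat.lt_succ_of_le (le_natDegree_of_mem_supp d hdT.1))
  have hsum : f.coeff d • t ^ d =
      aeval t f - ∑ j ∈ (Finset.range (f.natDegree + 1)).erase d, f.coeff j • t ^ j := by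
    rw [aeval_eq_sum_range, ← Finset.add_sum_erase _ _ hdn]
    ring
  have hmem : f.coeff d • t ^ d ∈ powSpan (R := R) I t d := by
    rw [hsum]
    refine Submodule.sub_mem _ (mem_powSpan_of_mem hf) (Submodule.sum_mem _ fun j hj => ?_)
    rw [Finset.mem_erase] at hj
    rcases lt_or_gt_of_ne hj.1 with h | h
    · exact Submodule.smul_mem _ _ (pow_mem_powSpan h)
    · obtain ⟨c, hc⟩ := hbig j h
      apply mem_powSpan_of_mem
      rw [hc, Algebra.smul_def, map_mul, mul_assoc]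
      exact I.mul_mem_right _ hπI
  obtain ⟨v, hv⟩ := hu
  have : t ^ d = (↑v⁻¹ : R) • (f.coeff d • t ^ d) := by
    rw [smul_smul, ← hv, Units.inv_mul, one_smul]
  rw [this]
  exact Submodule.smul_mem _ _ hmem

/-- descending a relation `Σ c_i e^i ∈ P` modulo a prime `P ∌ e`. -/
theorem exists_coeff_of_relation (P : Ideal S) [P.IsPrime] {e : S} (he : e ∉ P) (n : ℕ) :
    ∀ c : ℕ → S, (∑ i ∈ Finset.range (n + 1), c i * e ^ i) ∈ P → (∃ i ≤ n, c i ∉ P) →
      ∃ i ≤ n, c i ∉ P ∧ ∃ b : S, c i - e * b ∈ P := by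
  induction n with
  | zero =>
    intro c hc ⟨i, hi, hci⟩
    exfalso
    obtain rfl : i = 0 := Nat.le_zero.mp hi
    apply hci
    simpa using hc
  | succ n ih =>
    intro c hc ⟨i₀, hi₀, hci₀⟩
    rw [Finset.sum_range_succ', pow_zero, mul_one] at hc
    have hfac : ∑ i ∈ Finset.range (n + 1), c (i + 1) * e ^ (i + 1) =
        e * ∑ i ∈ Finset.range (n + 1), c (i + 1) * e ^ i := by
      rw [Finset.mul_sum]
      refine Finset.sum_congr rfl fun i _ => ?_
      rw [pow_succ]; ring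
    rw [hfac] at hc
    by_cases h0 : c 0 ∈ P
    · have h1 : e * ∑ i ∈ Finset.range (n + 1), c (i + 1) * e ^ i ∈ P := by
        have := P.sub_mem hc h0
        simpa using this
      have h2 := (Ideal.IsPrime.mem_or_mem ‹P.IsPrime› h1).resolve_left he
      have hi₀' : i₀ ≠ 0 := fun h => hci₀ (h ▸ h0)
      obtain ⟨i', rfl⟩ := Nat.exists_eq_succ_of_ne_zero hi₀'
      obtain ⟨i, hi, hci, b, hb⟩ :=
        ih (fun i => c (i + 1)) h2 ⟨i', Nat.succ_le_succ_iff.mp hi₀, hci₀⟩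
      exact ⟨i + 1, Nat.succ_le_succ hi, hci, b, hb⟩
    · refine ⟨0, Nat.zero_le _, h0, -∑ i ∈ Finset.range (n + 1), c (i + 1) * e ^ i, ?_⟩
      have : c 0 - e * -∑ i ∈ Finset.range (n + 1), c (i + 1) * e ^ i =
          e * ∑ i ∈ Finset.range (n + 1), c (i + 1) * e ^ i + c 0 := by ring
      rw [this]; exact hc

/-- **(D)** from a monic equation of `e ∈ P2 ∖ P1` with coefficients in `R[t]` to `f ∈ R[X]` with
`f(t) ∈ P1 + P2`, `f ≢ 0 mod π`. -/
theorem exists_poly_of_relation (π : R) (P1 P2 : Ideal S) [P1.IsPrime]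
    (hπ1 : algebraMap R S π ∈ P1) (t : S) {e : S} (he2 : e ∈ P2) (he1 : e ∉ P1) (n : ℕ)
    (g : ℕ → R[X]) (hmonic : aeval t (g n) = 1)
    (hrel : ∑ i ∈ Finset.range (n + 1), aeval t (g i) * e ^ i = 0) :
    ∃ f : R[X], aeval t f ∈ P1 ⊔ P2 ∧ ∃ j, ¬ π ∣ f.coeff j := by
  have hone : aeval t (g n) ∉ P1 := by
    rw [hmonic]
    exact fun h => ‹P1.IsPrime›.ne_top ((Ideal.eq_top_iff_one P1).mpr h)
  obtain ⟨i, -, hci, b, hb⟩ := exists_coeff_of_relation P1 he1 n (fun i => aeval t (g i))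
    (by rw [hrel]; exact P1.zero_mem) ⟨n, le_rfl, hone⟩
  refine ⟨g i, ?_, ?_⟩
  · have : aeval t (g i) = (aeval t (g i) - e * b) + e * b := by ring
    rw [this]
    exact Submodule.add_mem_sup hb (P2.mul_mem_right b he2)
  · by_contra hall
    push Not at hall
    apply hci
    rw [aeval_eq_sum_range]
    refine P1.sum_mem fun j _ => ?_
    obtain ⟨c, hc⟩ := hall j
    rw [hc, Algebra.smul_def, map_mul, mul_assoc]
    exact P1.mul_mem_right _ hπ1

/-- **Finitely many maximal ideals above `P1 + P2`** (abstract form). -/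
theorem finite_maximal_above [IsLocalRing R] (π : R) (hπ : ∀ r : R, ¬ IsUnit r → π ∣ r)
    (P1 P2 : Ideal S) [P1.IsPrime] (hπ1 : algebraMap R S π ∈ P1) (t : S) {r : ℕ} (e : Fin r → S)
    (hgen : ∀ x : S, ∃ P : Fin r → R[X], x = ∑ i, aeval t (P i) * e i)
    {e₂ : S} (he2 : e₂ ∈ P2) (he1 : e₂ ∉ P1) (n : ℕ) (g : ℕ → R[X])
    (hmonic : aeval t (g n) = 1)
    (hrel : ∑ i ∈ Finset.range (n + 1), aeval t (g i) * e₂ ^ i = 0) :
    {𝔪 : Ideal S | 𝔪.IsMaximal ∧ P1 ≤ 𝔪 ∧ P2 ≤ 𝔪}.Finite := by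
  obtain ⟨f, hf, hfπ⟩ := exists_poly_of_relation π P1 P2 hπ1 t he2 he1 n g hmonic hrel
  have hπI : algebraMap R S π ∈ P1 ⊔ P2 := Ideal.mem_sup_left hπ1
  obtain ⟨d, hd⟩ := exists_pow_mem_powSpan π hπ (P1 ⊔ P2) hπI t f hf hfπ
  have := finite_quotient (P1 ⊔ P2) t e hgen d hd
  refine (finite_maximal_of_finite_quotient π hπ (P1 ⊔ P2) hπI).subset ?_
  rintro 𝔪 ⟨hm, h1, h2⟩
  exact ⟨hm, sup_le h1 h2⟩

end Abstract

/-! ### The chart form -/

section Chart

open Fermat.Agent.ES.W33.ConnFibre14 Fermat.Agent.ES.N34.NodalCore13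

variable {R F : Type*} [CommRing R] [Field F] [Algebra R F]

/-- the component ideal `B ∩ 𝔪_O` is prime. -/
theorem compIdeal_isPrime (O : ValuationSubring F) (B : Subalgebra R F) (hB : ∀ b ∈ B, b ∈ O) :
    (compIdeal O B hB).IsPrime := by
  refine ⟨?_, ?_⟩
  · intro h
    have h1 : (1 : ↥B) ∈ compIdeal O B hB := by rw [h]; exact Submodule.mem_top
    exact one_not_mem_nonunits O h1
  · intro x y hxy
    change ((x * y : ↥B) : F) ∈ O.nonunits at hxy
    rw [Subalgebra.coe_mul, ValuationSubring.mem_nonunits_iff, map_mul] at hxy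
    by_contra hcon
    push Not at hcon
    have hx : O.valuation (x : F) = 1 := by
      have h1 : O.valuation (x : F) ≤ 1 :=
        (ValuationSubring.valuation_le_one_iff O _).mpr (hB x x.2)
      have h2 : ¬ O.valuation (x : F) < 1 := fun h =>
        hcon.1 ((ValuationSubring.mem_nonunits_iff O).mpr h)
      exact le_antisymm h1 (not_lt.mp h2)
    have hy : O.valuation (y : F) = 1 := by
      have h1 : O.valuation (y : F) ≤ 1 :=
        (ValuationSubring.valuation_le_one_iff O _).mpr (hB y y.2)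
      have h2 : ¬ O.valuation (y : F) < 1 := fun h =>
        hcon.2 ((ValuationSubring.mem_nonunits_iff O).mpr h)
      exact le_antisymm h1 (not_lt.mp h2)
    rw [hx, hy, mul_one] at hxy
    exact lt_irrefl _ hxy

/-- **Finitely many node ideals in a chart** (component-ideal form). -/
theorem finite_node_ideals [IsLocalRing R] (π : R) (hπ : ∀ r : R, ¬ IsUnit r → π ∣ r) (t : F)
    (B : Subalgebra R F) (O1 O2 : ValuationSubring F) (hB1 : ∀ b ∈ B, b ∈ O1)
    (hB2 : ∀ b ∈ B, b ∈ O2) (hπ1 : algebraMap R F π ∈ O1.nonunits) (ht : t ∈ B)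
    (hint : ∀ x ∈ B, IsIntegral (Algebra.adjoin R {t}) x)
    (hfin : ∃ (r : ℕ) (e : Fin r → F), (∀ i, e i ∈ B) ∧
      ∀ x ∈ B, ∃ P : Fin r → R[X], x = ∑ i, aeval t (P i) * e i)
    {e₂ : F} (he₂ : e₂ ∈ B) (he₂2 : e₂ ∈ O2.nonunits) (he₂1 : e₂ ∉ O1.nonunits) :
    {𝔪 : Ideal ↥B | 𝔪.IsMaximal ∧ compIdeal O1 B hB1 ≤ 𝔪 ∧ compIdeal O2 B hB2 ≤ 𝔪}.Finite := by
  classical
  have := compIdeal_isPrime O1 B hB1
  obtain ⟨r, e, he, hgen⟩ := hfin
  set tB : ↥B := ⟨t, ht⟩ with htB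
  have hcoe : ∀ P : R[X], ((aeval tB P : ↥B) : F) = aeval t P := fun P =>
    aeval_subalgebra_coe P B tB
  -- generators in `↥B`
  have hgenB : ∀ x : ↥B, ∃ P : Fin r → R[X], x = ∑ i, aeval tB (P i) * (⟨e i, he i⟩ : ↥B) := by
    intro x
    obtain ⟨P, hP⟩ := hgen x x.2
    refine ⟨P, Subtype.ext ?_⟩
    rw [hP, AddSubmonoidClass.coe_finsetSum]
    refine Finset.sum_congr rfl fun i _ => ?_
    rw [Subalgebra.coe_mul, hcoe]
  -- the monic equation of `e₂`
  obtain ⟨q, hqm, hq0⟩ := hint e₂ he₂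
  rw [eval₂_eq_sum_range] at hq0
  have hrange : ∀ i, ∃ f : R[X], aeval t f = ((q.coeff i : Algebra.adjoin R {t}) : F) := by
    intro i
    have hmem : ((q.coeff i : Algebra.adjoin R {t}) : F) ∈ (aeval (R := R) t).range := by
      rw [← Algebra.adjoin_singleton_eq_range_aeval]
      exact (q.coeff i).2
    exact hmem
  choose g hg using hrange
  have hmonic : aeval tB (g q.natDegree) = 1 := by
    apply Subtype.ext
    rw [hcoe, hg, ← leadingCoeff, hqm.leadingCoeff]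
    rfl
  have hrel : ∑ i ∈ Finset.range (q.natDegree + 1),
      aeval tB (g i) * (⟨e₂, he₂⟩ : ↥B) ^ i = 0 := by
    apply Subtype.ext
    rw [AddSubmonoidClass.coe_finsetSum, ZeroMemClass.coe_zero, ← hq0]
    refine Finset.sum_congr rfl fun i _ => ?_
    rw [Subalgebra.coe_mul, hcoe, hg, Subalgebra.coe_pow]
    rfl
  exact finite_maximal_above π hπ (compIdeal O1 B hB1) (compIdeal O2 B hB2) hπ1 tB
    (fun i => (⟨e i, he i⟩ : ↥B)) hgenB (e₂ := ⟨e₂, he₂⟩) he₂2 he₂1 q.natDegree g hmonic hrel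

/-- **Finitely many nodes in a chart** (`OffBranch` form of Programme N). -/
theorem finite_node_offBranch [IsLocalRing R] (π : R) (hπ : ∀ r : R, ¬ IsUnit r → π ∣ r) (t : F)
    (B : Subalgebra R F) (O1 O2 : ValuationSubring F) (hB1 : ∀ b ∈ B, b ∈ O1)
    (hB2 : ∀ b ∈ B, b ∈ O2) (hO₁ : GenMax π O1) (hO₂ : GenMax π O2)
    (hp0 : algebraMap R F π ≠ 0) (ht : t ∈ B)
    (hint : ∀ x ∈ B, IsIntegral (Algebra.adjoin R {t}) x)
    (hfin : ∃ (r : ℕ) (e : Fin r → F), (∀ i, e i ∈ B) ∧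
      ∀ x ∈ B, ∃ P : Fin r → R[X], x = ∑ i, aeval t (P i) * e i)
    {e₂ : F} (he₂ : e₂ ∈ B) (he₂2 : e₂ ∈ O2.nonunits) (he₂1 : e₂ ∉ O1.nonunits) :
    {𝔪 : Ideal ↥B | 𝔪.IsMaximal ∧ algebraMap R ↥B π ∈ 𝔪 ∧ ¬ OffBranch π B O1 𝔪 ∧
      ¬ OffBranch π B O2 𝔪}.Finite := by
  refine (finite_node_ideals π hπ t B O1 O2 hB1 hB2 hO₁.1 ht hint hfin he₂ he₂2 he₂1).subset ?_
  rintro 𝔪 ⟨hm, -, h1, h2⟩
  refine ⟨hm, ?_, ?_⟩
  · intro x hx
    by_contra hxm
    apply h1
    refine ⟨x, hxm, (algebraMap R F π)⁻¹ * (x : F), hO₁.2 _ hx, ?_⟩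
    rw [mul_inv_cancel_left₀ hp0]
  · intro x hx
    by_contra hxm
    apply h2
    refine ⟨x, hxm, (algebraMap R F π)⁻¹ * (x : F), hO₂.2 _ hx, ?_⟩
    rw [mul_inv_cancel_left₀ hp0]

/-- **Finitely many nodes in the chart `B0`** of Programme N's nodal two-chart model. -/
theorem finite_node_B0 [IsLocalRing R] (π : R) (hπ : ∀ r : R, ¬ IsUnit r → π ∣ r) (t : F)
    (B0 B1 : Subalgebra R F) (O1 O2 : ValuationSubring F)
    (M : NodalTwoChartModel R F π t B0 B1 O1 O2)
    {e₂ : F} (he₂ : e₂ ∈ B0) (he₂2 : e₂ ∈ O2.nonunits) (he₂1 : e₂ ∉ O1.nonunits) :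
    {𝔪 : Ideal ↥B0 | 𝔪.IsMaximal ∧ algebraMap R ↥B0 π ∈ 𝔪 ∧ ¬ OffBranch π B0 O1 𝔪 ∧
      ¬ OffBranch π B0 O2 𝔪}.Finite := by
  have hpB0 : algebraMap R F π ∈ B0 := B0.algebraMap_mem π
  exact finite_node_offBranch π hπ t B0 O1 O2 M.le_O1_0 M.le_O2_0
    (Fermat.Agent.ES.W33.ConnNodal14.genMax_of_fields (M.le_O1_0 _ hpB0) M.pi_nonunit1 M.pi_ne
      M.unif1)
    (Fermat.Agent.ES.W33.ConnNodal14.genMax_of_fields (M.le_O2_0 _ hpB0) M.pi_nonunit2 M.pi_ne
      M.unif2)
    M.pi_ne M.t_mem M.int0 M.fin0 he₂ he₂2 he₂1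

end Chart

end Fermat.Agent.ES.W33.NodeFinite14
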