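/-
Programme W (S33 by hand), chapter (B3′)/(B1′) support, helper14: **A NODE EXISTS, with NO
hypothesis beyond Programme N's deliverable `NumData13.NodalNumData`** (the bundle that
`ModelEnd4.modelInput_four/_nine` produce at every large number field `K`, `R = AK A K`).

`ConnNodal14.exists_node_offBranch` needs, on top of the contract `NodalTwoChartModel`:
* `R` local with `𝔪_R = (π)`  — from `dvrR` (every `r ≠ 0` is `π ^ k * unit`) and `pi_ne`;
* (H0) `B0 ⊓ B1 = R`          — `int0`, `int1` and `Constants18` give `x = c ∈ K` (`algClosed`);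
  `c ∈ R` because `R` is a valuation ring of `K` (`fracR` + `dvrR`) and `π` is not a unit of
  `O1 ⊇ B0` (`pi_nonunit1`).

EXITS
* `isLocalRing_of_dvrR`, `dvd_of_not_isUnit`, `const_of_mem_both`;
* **`exists_node_of_numData`** : `NodalNumData R K F π t B0 B1 O1 O2 →`
  `(∃ 𝔪 : Ideal B0, 𝔪.IsMaximal ∧ π ∈ 𝔪 ∧ ¬ OffBranch π B0 O1 𝔪 ∧ ¬ OffBranch π B0 O2 𝔪) ∨`
  `(∃ 𝔪 : Ideal B1, …)`;
* `exists_nodeCoords_of_numData` : the same with the node coordinates `NodeCoords π B_j 𝔪`
  (`node0`/`node1` of the bundle) attached;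
* `finite_node_B0_of_numData` : `NodeFinite14.finite_node_B0` from the bundle.
-/
import Mathlib
import Fermat.Agent.ES.N34.NumData13
import Fermat.Agent.RED.CORE.Constants18
import Fermat.Agent.ES.W33.ConnNodal14
import Fermat.Agent.ES.W33.NodeFinite14

set_option autoImplicit false

namespace Fermat.Agent.ES.W33.NodeExistsN14

open Fermat.Agent.ES.N34.NodalCore13 Fermat.Agent.ES.N34.NumData13

variable {R K F : Type*} [CommRing R] [Field K] [Field F] [Algebra R K] [Algebra K F]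
  [Algebra R F] [IsScalarTower R K F]

/-- a non-unit is divisible by `π`. -/
theorem dvd_of_not_isUnit {π : R}
    (dvrR : ∀ r : R, r ≠ 0 → ∃ (k : ℕ) (v : Rˣ), r = π ^ k * v) (r : R) (hr : ¬ IsUnit r) :
    π ∣ r := by
  by_cases h0 : r = 0
  · rw [h0]; exact dvd_zero π
  · obtain ⟨k, v, hkv⟩ := dvrR r h0
    rcases Nat.eq_zero_or_pos k with hk | hk
    · exfalso
      apply hr
      rw [hkv, hk, pow_zero, one_mul]
      exact v.isUnit
    · rw [hkv]
      exact Dvd.dvd.mul_right (dvd_pow_self π hk.ne') _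

/-- `R` is a local ring. -/
theorem isLocalRing_of_dvrR [Nontrivial R] {π : R}
    (dvrR : ∀ r : R, r ≠ 0 → ∃ (k : ℕ) (v : Rˣ), r = π ^ k * v) : IsLocalRing R := by
  refine IsLocalRing.of_isUnit_or_isUnit_one_sub_self fun a => ?_
  by_cases ha : IsUnit a
  · exact Or.inl ha
  · right
    obtain ⟨c, hc⟩ := dvd_of_not_isUnit dvrR a ha
    by_contra h1
    obtain ⟨d, hd⟩ := dvd_of_not_isUnit dvrR (1 - a) h1
    -- `π ∣ 1`, so `π` is a unit and so is everything
    have hπ1 : π ∣ 1 := ⟨c + d, by rw [mul_add, ← hc, ← hd]; ring⟩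
    have hπu : IsUnit π := isUnit_of_dvd_one hπ1
    apply ha
    by_cases h0 : a = 0
    · exfalso
      apply h1
      rw [h0, sub_zero]
      exact isUnit_one
    · obtain ⟨k, v, hkv⟩ := dvrR a h0
      rw [hkv]
      exact (hπu.pow k).mul v.isUnit

/-- **(H0)**: a function regular on both charts is a constant of `R`. -/
theorem const_of_mem_both {π : R} {t : F} {B0 B1 : Subalgebra R F} {O1 O2 : ValuationSubring F}
    (D : NodalNumData R K F π t B0 B1 O1 O2) {x : F} (hx0 : x ∈ B0) (hx1 : x ∈ B1) :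
    ∃ r : R, algebraMap R F r = x := by
  have M := D.model
  obtain ⟨c, hc⟩ := Fermat.Agent.RED.CORE.Constants18.exists_algebraMap_eq_of_isIntegral_both
    (R₀ := R) D.algClosed t x (M.int0 x hx0) (M.int1 x hx1)
  have := D.fracR
  have : Nontrivial R := ⟨⟨π, 0, fun h => M.pi_ne (by rw [h, map_zero])⟩⟩
  -- `c = a / b` with `a, b ∈ R`, `b ≠ 0`
  obtain ⟨a, b, hbm, hab⟩ := IsFractionRing.div_surjective (A := R) c
  have hb0 : (b : R) ≠ 0 := nonZeroDivisors.ne_zero hbm
  have hbK : algebraMap R K (b : R) ≠ 0 := by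
    intro h
    exact hb0 ((IsFractionRing.injective R K) (by rw [h, map_zero]))
  have hcb : c * algebraMap R K (b : R) = algebraMap R K a := by
    rw [← hab]; field_simp
  by_cases ha0 : a = 0
  · refine ⟨0, ?_⟩
    rw [ha0, map_zero] at hcb
    have : c = 0 := by
      rcases mul_eq_zero.mp hcb with h | h
      · exact h
      · exact absurd h hbK
    rw [map_zero, ← hc, this, map_zero]
  obtain ⟨k, v, hkv⟩ := D.dvrR a ha0
  obtain ⟨l, w, hlw⟩ := D.dvrR (b : R) hb0
  by_cases hkl : l ≤ k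
  · -- `c = π ^ (k - l) * v * w⁻¹ ∈ R`
    obtain ⟨d, rfl⟩ := Nat.exists_eq_add_of_le hkl
    refine ⟨π ^ d * v * ↑w⁻¹, ?_⟩
    rw [← hc, IsScalarTower.algebraMap_apply R K F]
    congr 1
    have hπK : algebraMap R K π ≠ 0 := by
      intro h
      apply hbK
      rw [hlw, map_mul, map_pow, h]
      rcases Nat.eq_zero_or_pos l with hl | hl
      · exfalso
        -- `π = 0` in `K` contradicts `pi_ne`
        apply M.pi_ne
        rw [IsScalarTower.algebraMap_apply R K F, h, map_zero]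
      · rw [zero_pow hl.ne', zero_mul]
    have hwK : algebraMap R K (w : R) ≠ 0 := by
      intro h
      have : algebraMap R K ((w : R) * (↑w⁻¹ : R)) = 0 := by rw [map_mul, h, zero_mul]
      rw [Units.mul_inv, map_one] at this
      exact one_ne_zero this
    have h1 : c * (algebraMap R K π ^ l * algebraMap R K (w : R)) =
        algebraMap R K π ^ (l + d) * algebraMap R K (v : R) := by
      rw [← map_pow, ← map_pow, ← map_mul, ← map_mul, ← hlw, ← hkv]
      exact hcb
    have h2 : algebraMap R K (π ^ d * v * ↑w⁻¹) * (algebraMap R K π ^ l * algebraMap R K (w : R)) =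
        algebraMap R K π ^ (l + d) * algebraMap R K (v : R) := by
      rw [← map_pow, ← map_pow, ← map_mul, ← map_mul, ← map_mul]
      congr 1
      have : (↑w⁻¹ : R) * (w : R) = 1 := Units.inv_mul w
      calc π ^ d * ↑v * ↑w⁻¹ * (π ^ l * ↑w) = π ^ (l + d) * ↑v * (↑w⁻¹ * ↑w) := by ring
        _ = π ^ (l + d) * ↑v := by rw [this, mul_one]
    have hne : algebraMap R K π ^ l * algebraMap R K (w : R) ≠ 0 :=
      mul_ne_zero (pow_ne_zero l hπK) hwK
    exact (mul_right_cancel₀ hne (h2.trans h1.symm))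
  · -- `k < l`: then `π ∣ 1` in `O1`, impossible
    exfalso
    rw [not_le] at hkl
    obtain ⟨d, rfl⟩ : ∃ d, l = k + (d + 1) := ⟨l - k - 1, by omega⟩
    -- `x * π ^ (d+1) * w = v` in `F`
    have hx : x * (algebraMap R F π ^ (d + 1) * algebraMap R F (w : R)) =
        algebraMap R F (v : R) := by
      have hπF : algebraMap R F π ≠ 0 := M.pi_ne
      have h1 : algebraMap K F (c * algebraMap R K (b : R)) =
          algebraMap K F (algebraMap R K a) := by
        rw [hcb]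
      rw [map_mul, hc, ← IsScalarTower.algebraMap_apply R K F,
        ← IsScalarTower.algebraMap_apply R K F, hlw, hkv, map_mul, map_mul, map_pow, map_pow,
        pow_add] at h1
      have h2 : algebraMap R F π ^ k * (x * (algebraMap R F π ^ (d + 1) * algebraMap R F (w : R))) =
          algebraMap R F π ^ k * algebraMap R F (v : R) := by
        rw [← h1]; ring
      exact mul_left_cancel₀ (pow_ne_zero k hπF) h2
    -- hence `π⁻¹ ∈ O1`
    apply M.pi_nonunit1
    have hvF : algebraMap R F (v : R) * algebraMap R F (↑v⁻¹ : R) = 1 := by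
      rw [← map_mul, Units.mul_inv, map_one]
    have hinv : (algebraMap R F π)⁻¹ =
        x * algebraMap R F π ^ d * algebraMap R F (w : R) * algebraMap R F (↑v⁻¹ : R) := by
      refine (eq_inv_of_mul_eq_one_left ?_).symm
      calc x * algebraMap R F π ^ d * algebraMap R F ↑w * algebraMap R F ↑v⁻¹ * algebraMap R F π
          = x * (algebraMap R F π ^ (d + 1) * algebraMap R F ↑w) * algebraMap R F ↑v⁻¹ := by
            rw [pow_succ]; ring
        _ = 1 := by rw [hx, hvF]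
    rw [hinv]
    have hO : ∀ r : R, algebraMap R F r ∈ O1 := fun r => M.le_O1_0 _ (B0.algebraMap_mem r)
    exact O1.mul_mem _ _ (O1.mul_mem _ _ (O1.mul_mem _ _ (M.le_O1_0 _ hx0) (pow_mem (hO π) d))
      (hO _)) (hO _)

/-- **A NODE EXISTS** in Programme N's model (no hypothesis beyond the bundle). -/
theorem exists_node_of_numData {π : R} {t : F} {B0 B1 : Subalgebra R F}
    {O1 O2 : ValuationSubring F} (D : NodalNumData R K F π t B0 B1 O1 O2) :
    (∃ 𝔪 : Ideal B0, 𝔪.IsMaximal ∧ algebraMap R B0 π ∈ 𝔪 ∧ ¬ OffBranch π B0 O1 𝔪 ∧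
        ¬ OffBranch π B0 O2 𝔪) ∨
      ∃ 𝔪 : Ideal B1, 𝔪.IsMaximal ∧ algebraMap R B1 π ∈ 𝔪 ∧ ¬ OffBranch π B1 O1 𝔪 ∧
        ¬ OffBranch π B1 O2 𝔪 := by
  have : Nontrivial R := by
    refine ⟨⟨π, 0, fun h => D.model.pi_ne (by rw [h, map_zero])⟩⟩
  have := isLocalRing_of_dvrR D.dvrR
  exact Fermat.Agent.ES.W33.ConnNodal14.exists_node_offBranch π (dvd_of_not_isUnit D.dvrR) t B0 B1
    O1 O2 D.model fun x h0 h1 => const_of_mem_both D h0 h1

/-- … with its node coordinates. -/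
theorem exists_nodeCoords_of_numData {π : R} {t : F} {B0 B1 : Subalgebra R F}
    {O1 O2 : ValuationSubring F} (D : NodalNumData R K F π t B0 B1 O1 O2) :
    (∃ 𝔪 : Ideal B0, 𝔪.IsMaximal ∧ algebraMap R B0 π ∈ 𝔪 ∧ ¬ OffBranch π B0 O1 𝔪 ∧
        ¬ OffBranch π B0 O2 𝔪 ∧ NodeCoords π B0 𝔪) ∨
      ∃ 𝔪 : Ideal B1, 𝔪.IsMaximal ∧ algebraMap R B1 π ∈ 𝔪 ∧ ¬ OffBranch π B1 O1 𝔪 ∧
        ¬ OffBranch π B1 O2 𝔪 ∧ NodeCoords π B1 𝔪 := by
  rcases exists_node_of_numData D with ⟨𝔪, hm, hπ, h1, h2⟩ | ⟨𝔪, hm, hπ, h1, h2⟩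
  · exact Or.inl ⟨𝔪, hm, hπ, h1, h2, D.node0 𝔪 hm hπ h1 h2⟩
  · exact Or.inr ⟨𝔪, hm, hπ, h1, h2, D.node1 𝔪 hm hπ h1 h2⟩

omit [IsScalarTower R K F] in
/-- **Finitely many nodes in the chart `B0`**, from the bundle and one function vanishing on the
second component but not on the first. -/
theorem finite_node_B0_of_numData {π : R} {t : F} {B0 B1 : Subalgebra R F}
    {O1 O2 : ValuationSubring F} (D : NodalNumData R K F π t B0 B1 O1 O2)
    {e₂ : F} (he₂ : e₂ ∈ B0) (he₂2 : e₂ ∈ O2.nonunits) (he₂1 : e₂ ∉ O1.nonunits) :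
    {𝔪 : Ideal ↥B0 | 𝔪.IsMaximal ∧ algebraMap R ↥B0 π ∈ 𝔪 ∧ ¬ OffBranch π B0 O1 𝔪 ∧
      ¬ OffBranch π B0 O2 𝔪}.Finite := by
  have : Nontrivial R := by
    refine ⟨⟨π, 0, fun h => D.model.pi_ne (by rw [h, map_zero])⟩⟩
  have := isLocalRing_of_dvrR D.dvrR
  exact Fermat.Agent.ES.W33.NodeFinite14.finite_node_B0 π (dvd_of_not_isUnit D.dvrR) t B0 B1 O1 O2
    D.model he₂ he₂2 he₂1

end Fermat.Agent.ES.W33.NodeExistsN14
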