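/-
Programme W (S33 by hand), chapter (B3′) support, helper14 (ruling w31/w35: "`0 < sN`"):
**THE TWO COMPONENTS OF THE SPECIAL FIBRE MEET IN ONE OF THE TWO `ℚ̄`-LEVEL CHARTS**
(`ker ρ₁ + ker ρ₂ ≠ ⊤` in `chart ↥A tN` or in `chart ↥A tN⁻¹`), at the function-level names of
`W33/NodalDefs3` (`O1`, `O2`, `rho1`, `rho2`, `tN` at the base `(4, 8)`).

`Split s` : there are `a, c ∈ chart ↥A s` with `a + c = 1`, `a` vanishing on the first component
(`a ∈ O1`, `rho1 a = 0`) and `c` on the second one (`c ∈ O2`, `rho2 c = 0`).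

**`not_split_both`** : `¬ (Split tN ∧ Split tN⁻¹)`.  PROOF.  The four functions descend to one large
Galois number field `K` (main's `ChartUnion1.exists_chart_descent`), into the charts `B0_K`, `B1_K`
of Programme N's nodal model (`ModelEnd4.modelInput_four`); they vanish on the corresponding level-`K`
components (`LevelCompare3.bc_mem_O1/O2` on inverses: a unit of `O_j,K` cannot reduce to `0`); so no
maximal ideal of `B0_K` and none of `B1_K` lies on both components, contradicting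
`NodeExistsN14.exists_node_of_numData` (connectedness of the nodal fibre at level `K`).

With `CentreLiftQ14.exists_node_place` (every maximal ideal of the `ℚ̄`-chart above `𝔪_A` is the
centre of a place) this gives a place through a node, hence `0 < sN`.
-/
import Mathlib
import Fermat.Agent.ES.N34.ModelEnd4
import Fermat.Agent.ES.RED.ChartUnion1
import Fermat.Agent.RED.CUSP.RankConcrete16
import Fermat.Agent.Lib.FrobeniusExists
import Fermat.Agent.ES.W33.LevelCompare3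
import Fermat.Agent.ES.W33.NodeExistsN14

set_option autoImplicit false
set_option linter.unusedSectionVars false
set_option linter.style.haveILetI false
set_option synthInstance.maxHeartbeats 400000
set_option maxHeartbeats 1000000

open HahnSeries ModularCurve IntermediateField

noncomputable section

namespace Fermat.Agent.ES.W33.NodeMeetN14

open Fermat.Agent.RED.Interface4 Fermat.Agent.RED.DESC.PlaceExtend27
  Fermat.Agent.RED.DESC.NumberFieldDVR27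
  Fermat.Agent.RED.PUR.ChartGeneric22 Fermat.Agent.RED.PUR.GaussGen8
  Fermat.Agent.RED.BASE.EtaQuot12 Fermat.Agent.RED.BASE.Hauptmodul12
  Fermat.Agent.ES.N34.ModelDefs9 Fermat.Agent.ES.N34.ModelInput13
  Fermat.Agent.ES.N34.NodalCore13 Fermat.Agent.ES.N34.NumData13

attribute [local instance 5000] HahnSeries.powerSeriesAlgebra SubalgebraClass.toAlgebra

/-! ### A function reducing to zero is not a unit -/

section Abstract

variable {F₀ F Ft : Type*} [Field F₀] [Field F] [Field Ft]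

/-- if `bc` maps `O_K` into `O` and `bc x` reduces to `0`, then `x` is not a unit of `O_K`. -/
theorem inv_notMem_of_rho_zero (bc : F₀ →+* F) (OK : ValuationSubring F₀) (O : Subring F)
    (ρ : ↥O →+* Ft) (hbc : ∀ y ∈ OK, bc y ∈ O) {x : F₀} (hx0 : x ≠ 0)
    (h : ∃ hX : bc x ∈ O, ρ ⟨bc x, hX⟩ = 0) : x⁻¹ ∉ OK := by
  intro hinv
  obtain ⟨hX, hρ⟩ := h
  have h' : bc x⁻¹ ∈ O := hbc _ hinv
  have hone : (⟨bc x, hX⟩ : ↥O) * ⟨bc x⁻¹, h'⟩ = 1 := by
    apply Subtype.ext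
    show bc x * bc x⁻¹ = 1
    rw [← map_mul, mul_inv_cancel₀ hx0, map_one]
  have := congrArg ρ hone
  rw [map_mul, hρ, zero_mul, map_one] at this
  exact zero_ne_one this

end Abstract

/-! ### The level-`K` step -/

section LevelK

variable {R F : Type*} [CommRing R] [Field F] [Algebra R F]

/-- a function of the chart vanishing on the component `O_j` lies in every maximal ideal through
which that component passes. -/
theorem mem_of_not_offBranch (π : R) (B : Subalgebra R F) (Oj : ValuationSubring F)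
    (unif : ∀ x ∈ Oj, x⁻¹ ∉ Oj → ∃ c ∈ Oj, x = algebraMap R F π * c)
    (𝔪 : Ideal ↥B) (hno : ¬ OffBranch π B Oj 𝔪) {x : F} (hxB : x ∈ B) (hxO : x ∈ Oj)
    (hx : x = 0 ∨ x⁻¹ ∉ Oj) : (⟨x, hxB⟩ : ↥B) ∈ 𝔪 := by
  rcases hx with rfl | hx
  · have : (⟨0, hxB⟩ : ↥B) = 0 := rfl
    rw [this]
    exact 𝔪.zero_mem
  · by_contra hnot
    obtain ⟨c, hc, hxc⟩ := unif x hxO hx
    exact hno ⟨⟨x, hxB⟩, hnot, c, hc, hxc⟩

end LevelK

/-! ### The statement at `NodalDefs3` -/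

/-- every number field inside `ℚ̄` is contained in one which is normal over `ℚ`. -/
theorem exists_galois_ge (K₁ : IntermediateField ℚ Qbar) [FiniteDimensional ℚ K₁] :
    ∃ K : IntermediateField ℚ Qbar, Normal ℚ K ∧ FiniteDimensional ℚ K ∧ K₁ ≤ K := by
  have hgal : IsGalois ℚ Qbar := Fermat.Agent.Lib.FrobeniusExists.isGalois_Qbar
  have hnorQ : Normal ℚ Qbar := hgal.to_normal
  have halgQ : Algebra.IsAlgebraic ℚ Qbar := isAlgebraic_Qbar
  exact ⟨IntermediateField.normalClosure ℚ K₁ Qbar, normalClosure.normal ℚ K₁ Qbar,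
    normalClosure.is_finiteDimensional ℚ K₁ Qbar, IntermediateField.le_normalClosure K₁⟩

variable (M' : ℕ) [NeZero M'] (p : ℕ) [Fact p.Prime] (A : ValuationSubring Qbar)

/-- the two components are disjoint in the chart of coordinate `s`: `1 = a + c`, `a` vanishing on the
first component and `c` on the second one. -/
def Split (s : ↥(Fbar (M' * p))) : Prop :=
  ∃ a c : ↥(Fbar (M' * p)), a ∈ chart ↥A s ∧ c ∈ chart ↥A s ∧
    (∃ h : a ∈ NodalDefs3.O1 M' p A, NodalDefs3.rho1 M' p A ⟨a, h⟩ = 0) ∧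
    (∃ h : c ∈ NodalDefs3.O2 M' p A, NodalDefs3.rho2 M' p A ⟨c, h⟩ = 0) ∧ a + c = 1

/-- **The two components meet in one of the two charts.** -/
theorem not_split_both (hpM : ¬ p ∣ M') (hp2 : p ≠ 2) (hM : 4 ∣ M') (hA : A.LiesOverPrime p) :
    ¬ (Split M' p A (NodalDefs3.tN 4 8 M' p baseHyp_four hM) ∧
      Split M' p A (NodalDefs3.tN 4 8 M' p baseHyp_four hM)⁻¹) := by
  classical
  have hp : p.Prime := Fact.out
  haveI : NeZero p := ⟨hp.ne_zero⟩
  rintro ⟨⟨a₀, c₀, ha₀, hc₀, hr₁, hr₂, hac₀⟩, ⟨a₁, c₁, ha₁, hc₁, hr₁', hr₂', hac₁⟩⟩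
  obtain ⟨K₀, hK₀, H⟩ := Fermat.Agent.ES.N34.ModelEnd4.modelInput_four p M' A hp hpM hp2 hM hA
  haveI := hK₀
  obtain ⟨K₁, hfin₁, hK₁, H₁⟩ := Fermat.Agent.ES.RED.ChartUnion1.exists_chart_descent A (M' * p) K₀
    (NodalDefs3.tN 4 8 M' p baseHyp_four hM) a₀ ha₀
  haveI := hfin₁
  obtain ⟨K₂, hfin₂, hK₂, H₂⟩ := Fermat.Agent.ES.RED.ChartUnion1.exists_chart_descent A (M' * p) K₁
    (NodalDefs3.tN 4 8 M' p baseHyp_four hM) c₀ hc₀
  haveI := hfin₂
  obtain ⟨K₃, hfin₃, hK₃, H₃⟩ := Fermat.Agent.ES.RED.ChartUnion1.exists_chart_descent A (M' * p) K₂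
    (NodalDefs3.tN 4 8 M' p baseHyp_four hM)⁻¹ a₁ ha₁
  haveI := hfin₃
  obtain ⟨K₄, hfin₄, hK₄, H₄⟩ := Fermat.Agent.ES.RED.ChartUnion1.exists_chart_descent A (M' * p) K₃
    (NodalDefs3.tN 4 8 M' p baseHyp_four hM)⁻¹ c₁ hc₁
  haveI := hfin₄
  -- a Galois number field above everything
  obtain ⟨K, hnorK, hfinK, hK₄K⟩ := exists_galois_ge K₄
  haveI := hnorK
  have h3K : K₃ ≤ K := hK₄.trans hK₄K
  have h2K : K₂ ≤ K := hK₃.trans h3K
  have h1K : K₁ ≤ K := hK₂.trans h2K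
  have h0K : K₀ ≤ K := hK₁.trans h1K
  obtain ⟨ht, hE, HK⟩ := @H K hnorK hfinK h0K
  have hdvr : IsDiscreteValuationRing ↥(AK A K) := isDiscreteValuationRing_AK A K hp.ne_zero hA
  obtain ⟨ϖ, hϖ⟩ := IsDiscreteValuationRing.exists_irreducible ↥(AK A K)
  have hu : IsUnif (AK A K) ϖ := isUnif_of_irreducible (AK A K) hϖ
  have hD := HK ϖ hu
  haveI := Fermat.Agent.RED.NumInst4.isScalarTower_OE (AK A K) (FK (M' * p) K)
  have hD' : NodalNumData ↥(AK A K) ↥K ↥(FK (M' * p) K) ϖ (tN p ht) (B0 A p ht) (B1 A p ht)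
      (O1 M' p hu hE) (O2 M' p hu hE) := hD
  have hm := hD'.model
  -- the coordinate
  have hbc : baseChangeHom (M' * p) K (tN p ht) = NodalDefs3.tN 4 8 M' p baseHyp_four hM :=
    Fermat.Agent.RED.CUSP.RankConcrete16.baseChangeHom_eq_tF (M' * p) K
      (tMem_of_dvd baseHyp_four (Dvd.dvd.mul_right hM p)) (tN p ht) (coe_tN p ht)
  have hbc' : baseChangeHom (M' * p) K (tN p ht)⁻¹ =
      (NodalDefs3.tN 4 8 M' p baseHyp_four hM)⁻¹ := by
    rw [map_inv₀, hbc]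
  have hinj := baseChangeHom_injective (M' * p) K
  -- the four functions at level `K`
  obtain ⟨a₀', ha₀', hbca₀⟩ := H₁ K h1K (tN p ht) hbc
  obtain ⟨c₀', hc₀', hbcc₀⟩ := H₂ K h2K (tN p ht) hbc
  obtain ⟨a₁', ha₁', hbca₁⟩ := H₃ K h3K (tN p ht)⁻¹ hbc'
  obtain ⟨c₁', hc₁', hbcc₁⟩ := H₄ K hK₄K (tN p ht)⁻¹ hbc'
  -- units cannot reduce to zero
  have hO1 : ∀ y ∈ O1 M' p hu hE, baseChangeHom (M' * p) K y ∈ NodalDefs3.O1 M' p A :=
    fun y hy => (LevelCompare3.bc_mem_O1 M' p A hp2 hpM hM hA hu hE y hy).1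
  have hO2 : ∀ y ∈ O2 M' p hu hE, baseChangeHom (M' * p) K y ∈ NodalDefs3.O2 M' p A :=
    fun y hy => (LevelCompare3.bc_mem_O2 M' p A hp2 hpM hM hA hu hE y hy).1
  have key₁ : ∀ x : ↥(FK (M' * p) K),
      (∃ h : baseChangeHom (M' * p) K x ∈ NodalDefs3.O1 M' p A,
        NodalDefs3.rho1 M' p A ⟨baseChangeHom (M' * p) K x, h⟩ = 0) →
      x = 0 ∨ x⁻¹ ∉ O1 M' p hu hE := by
    intro x hx
    by_cases hx0 : x = 0
    · exact Or.inl hx0
    · exact Or.inr (inv_notMem_of_rho_zero (baseChangeHom (M' * p) K : _ →+* _) (O1 M' p hu hE)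
        (NodalDefs3.O1 M' p A) (NodalDefs3.rho1 M' p A) hO1 hx0 hx)
  have key₂ : ∀ x : ↥(FK (M' * p) K),
      (∃ h : baseChangeHom (M' * p) K x ∈ NodalDefs3.O2 M' p A,
        NodalDefs3.rho2 M' p A ⟨baseChangeHom (M' * p) K x, h⟩ = 0) →
      x = 0 ∨ x⁻¹ ∉ O2 M' p hu hE := by
    intro x hx
    by_cases hx0 : x = 0
    · exact Or.inl hx0
    · exact Or.inr (inv_notMem_of_rho_zero (baseChangeHom (M' * p) K : _ →+* _) (O2 M' p hu hE)
        (NodalDefs3.O2 M' p A) (NodalDefs3.rho2 M' p A) hO2 hx0 hx)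
  rcases Fermat.Agent.ES.W33.NodeExistsN14.exists_node_of_numData hD' with
    ⟨𝔪, hmax, -, hn1, hn2⟩ | ⟨𝔪, hmax, -, hn1, hn2⟩
  · -- a node of chart 0
    have e1 : (⟨a₀', ha₀'⟩ : ↥(B0 A p ht)) ∈ 𝔪 :=
      mem_of_not_offBranch ϖ (B0 A p ht) (O1 M' p hu hE) hm.unif1 𝔪 hn1 ha₀'
        (hm.le_O1_0 _ ha₀') (key₁ a₀' (by rw [hbca₀]; exact hr₁))
    have e2 : (⟨c₀', hc₀'⟩ : ↥(B0 A p ht)) ∈ 𝔪 :=
      mem_of_not_offBranch ϖ (B0 A p ht) (O2 M' p hu hE) hm.unif2 𝔪 hn2 hc₀'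
        (hm.le_O2_0 _ hc₀') (key₂ c₀' (by rw [hbcc₀]; exact hr₂))
    have hsum : (⟨a₀', ha₀'⟩ : ↥(B0 A p ht)) + ⟨c₀', hc₀'⟩ = 1 := by
      apply Subtype.ext
      show a₀' + c₀' = 1
      apply hinj
      rw [map_add, hbca₀, hbcc₀, hac₀, map_one]
    have h1 : (1 : ↥(B0 A p ht)) ∈ 𝔪 := hsum ▸ 𝔪.add_mem e1 e2
    exact hmax.ne_top ((Ideal.eq_top_iff_one _).mpr h1)
  · -- a node of chart 1
    have e1 : (⟨a₁', ha₁'⟩ : ↥(B1 A p ht)) ∈ 𝔪 :=
      mem_of_not_offBranch ϖ (B1 A p ht) (O1 M' p hu hE) hm.unif1 𝔪 hn1 ha₁'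
        (hm.le_O1_1 _ ha₁') (key₁ a₁' (by rw [hbca₁]; exact hr₁'))
    have e2 : (⟨c₁', hc₁'⟩ : ↥(B1 A p ht)) ∈ 𝔪 :=
      mem_of_not_offBranch ϖ (B1 A p ht) (O2 M' p hu hE) hm.unif2 𝔪 hn2 hc₁'
        (hm.le_O2_1 _ hc₁') (key₂ c₁' (by rw [hbcc₁]; exact hr₂'))
    have hsum : (⟨a₁', ha₁'⟩ : ↥(B1 A p ht)) + ⟨c₁', hc₁'⟩ = 1 := by
      apply Subtype.ext
      show a₁' + c₁' = 1
      apply hinj
      rw [map_add, hbca₁, hbcc₁, hac₁, map_one]
    have h1 : (1 : ↥(B1 A p ht)) ∈ 𝔪 := hsum ▸ 𝔪.add_mem e1 e2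
    exact hmax.ne_top ((Ideal.eq_top_iff_one _).mpr h1)

/-- the same as a disjunction: the components meet in chart `0` or in chart `1`. -/
theorem not_split_or (hpM : ¬ p ∣ M') (hp2 : p ≠ 2) (hM : 4 ∣ M') (hA : A.LiesOverPrime p) :
    ¬ Split M' p A (NodalDefs3.tN 4 8 M' p baseHyp_four hM) ∨
      ¬ Split M' p A (NodalDefs3.tN 4 8 M' p baseHyp_four hM)⁻¹ :=
  not_and_or.mp (not_split_both M' p A hpM hp2 hM hA)

end Fermat.Agent.ES.W33.NodeMeetN14
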