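/-
Programme W (S33 by hand), chapter (B3′)/(B1′) support, helper14 (rulings w31/w35, helper3's leaf 18):
**`0 < sN`** — the nodal fibre has at least one node — at the names of `W33/NodalDefs3` (v3), from
helper20's leaf bundle `NodalCtxRN20.RNLeaves` (its `no_node1` field is used only for a node in the
chart at `t = ∞`).

PROOF.  `NodeMeetN14.not_split_or` : the two components meet in `chart ↥A tN` or in
`chart ↥A tN⁻¹` (connectedness of the level-`K` nodal fibre + descent).  `CentreLiftQ14.exists_node_place` :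
in that chart some place is centred on both components (`ℚ̄`-level centre lifting: going down +
Chevalley).  A node of chart 1 lies in chart 0 (`no_node1`) and is a node there (`on₁_iff`, `on₂_iff`).
`RNLeaves.sN_pos` (helper20) concludes.

* `polyHom_isIntegral` : the chart ring is integral over `A[X]` (the input `hint` of `CentreLiftQ14`);
* **`sN_pos`** : `0 < sN 4 8 M' p hpM baseHyp_four hM A hA`.
-/
import Mathlib
import Fermat.Agent.ES.W33.NodalCtxRN20
import Fermat.Agent.ES.W33.CentreLiftQ14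
import Fermat.Agent.ES.W33.NodeMeetN14

set_option autoImplicit false
set_option linter.unusedSectionVars false
set_option linter.style.haveILetI false
set_option synthInstance.maxHeartbeats 400000
set_option maxHeartbeats 1000000

open HahnSeries ModularCurve AlgebraicCurve Polynomial IntermediateField

noncomputable section

namespace Fermat.Agent.ES.W33.NodeCountPos14

open Fermat.Agent.RED.Interface4 Fermat.Agent.RED.BASE.Interface12 Fermat.Agent.RED.BASE.Hauptmodul12
  Fermat.Agent.RED.PUR.ChartGeneric22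
  Fermat.Agent.ES.RED.Contract8 Fermat.Agent.ES.RED.ModelInst4
  Fermat.Agent.X0 Fermat.Agent.X0.FF
  Fermat.Agent.ES.V19.InstNames3 Fermat.Agent.ES.W33.NodalDefs3
open Fermat.Agent.ES.W33.CentreN20 Fermat.Agent.ES.W33.NodalChart20 Fermat.Agent.ES.W33.TwoChartsN20
  Fermat.Agent.ES.W33.TwoChartsNInst20 Fermat.Agent.ES.W33.NodalCtxRN20
  Fermat.Agent.ES.W33.CentreLiftQ14 Fermat.Agent.ES.W33.NodeMeetN14

attribute [local instance 5000] HahnSeries.powerSeriesAlgebra SubalgebraClass.toAlgebra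

/-! ### The chart ring is integral over `A[X]` -/

section Integral

variable {L : Type*} [Field L] [IsAlgClosed L] {A : ValuationSubring L}
variable {F : Type*} [Field F] [Algebra L F] {x : F} {hx : IsGen L x}
variable {Ft₁ Ft₂ : Type*} [Field Ft₁] [Algebra (kA A) Ft₁] [Field Ft₂] [Algebra (kA A) Ft₂]

/-- if every element of the chart ring is integral over `A[s]`, the evaluation `A[X] → B` is an
integral ring homomorphism. -/
theorem polyHom_isIntegral [Algebra ↥A F] [IsScalarTower ↥A L F] (S : NodalChart A hx Ft₁ Ft₂)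
    (hB : ∀ b ∈ S.B, IsIntegral (Algebra.adjoin ↥A {S.s}) b) : (polyHom S).IsIntegral := by
  intro b
  have hb := hB b b.2
  rw [isIntegral_subalgebra_iff] at hb
  obtain ⟨P, hP, hcoeff, hPb⟩ := hb
  let g : (↥A)[X] →+* F := ((aeval S.s : (↥A)[X] →ₐ[↥A] F) : (↥A)[X] →+* F)
  have hg : ∀ q : (↥A)[X], ((polyHom S q : ↥S.B) : F) = g q := by
    intro q
    rw [coe_polyHom]
    have : q.map A.subtype = q.map (algebraMap ↥A L) := rfl
    rw [this, aeval_map_algebraMap]
    rfl
  have hl : P ∈ lifts g := by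
    rw [lifts_iff_coeff_lifts]
    intro i
    obtain ⟨q, hq⟩ := Algebra.adjoin_mem_exists_aeval ↥A S.s (hcoeff i)
    exact ⟨q, hq⟩
  obtain ⟨Q, hQ, -, hQm⟩ := lifts_and_degree_eq_and_monic hl hP
  refine ⟨Q, hQm, ?_⟩
  apply Subtype.ext
  have hcomp : S.B.subtype.comp (polyHom S) = g := RingHom.ext hg
  have h1 : S.B.subtype (eval₂ (polyHom S) b Q) = eval₂ g (b : F) Q := by
    rw [hom_eval₂, hcomp]
    rfl
  show S.B.subtype (eval₂ (polyHom S) b Q) = 0
  rw [h1, ← eval_map, hQ]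
  exact hPb

end Integral

/-! ### `0 < sN` -/

variable (M' : ℕ) [NeZero M'] (p : ℕ) [Fact p.Prime] (hpM : ¬ p ∣ M') (hM : 4 ∣ M')
  (A : ValuationSubring Qbar) (hA : A.LiesOverPrime p)

/-- **The nodal fibre has a node.** -/
theorem sN_pos (hp2 : p ≠ 2) (H : RNLeaves 4 8 M' p hpM baseHyp_four hM A hA) :
    0 < sN 4 8 M' p hpM baseHyp_four hM A hA := by
  haveI : IsAlgClosed (kA A) := Fermat.Agent.ES.V19.InstNames3.isAlgClosed_kA A
  have hx : IsGen Qbar (tN 4 8 M' p baseHyp_four hM) := hxN 4 8 M' p baseHyp_four hM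
  have hx' : IsGen Qbar (tN 4 8 M' p baseHyp_four hM)⁻¹ := IsGen.inv hx
  haveI : FiniteDimensional Qbar⟮tN 4 8 M' p baseHyp_four hM⟯ ↥(Fbar (M' * p)) := hx.finite
  haveI : FiniteDimensional Qbar⟮(tN 4 8 M' p baseHyp_four hM)⁻¹⟯ ↥(Fbar (M' * p)) := hx'.finite
  haveI : Algebra.IsSeparable Qbar⟮(S0N H.L).s⟯ ↥(Fbar (M' * p)) :=
    inferInstanceAs (Algebra.IsSeparable Qbar⟮tN 4 8 M' p baseHyp_four hM⟯ ↥(Fbar (M' * p)))
  haveI : Algebra.IsSeparable Qbar⟮(S1N H.L).s⟯ ↥(Fbar (M' * p)) :=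
    inferInstanceAs (Algebra.IsSeparable Qbar⟮(tN 4 8 M' p baseHyp_four hM)⁻¹⟯ ↥(Fbar (M' * p)))
  rcases not_split_or M' p A hpM hp2 hM hA with h | h
  · -- the components meet in chart 0
    have hI : ∀ a c : ↥(S0N H.L).B, (S0N H.L).ρ₁ a = 0 → (S0N H.L).ρ₂ c = 0 → a + c ≠ 1 := by
      intro a c ha hc hac
      exact h ⟨a, c, a.2, c.2, ⟨_, ha⟩, ⟨_, hc⟩, congrArg Subtype.val hac⟩
    obtain ⟨P, h0, h1, h2⟩ := exists_node_place (S0N H.L) hx
      (polyHom_isIntegral (S0N H.L) (fun b hb => hb)) hI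
    exact H.sN_pos h0 h1 h2
  · -- the components meet in chart 1
    have hI : ∀ a c : ↥(S1N H.L).B, (S1N H.L).ρ₁ a = 0 → (S1N H.L).ρ₂ c = 0 → a + c ≠ 1 := by
      intro a c ha hc hac
      exact h ⟨a, c, a.2, c.2, ⟨_, ha⟩, ⟨_, hc⟩, congrArg Subtype.val hac⟩
    obtain ⟨P, h1c, h1, h2⟩ := exists_node_place (S1N H.L) hx'
      (polyHom_isIntegral (S1N H.L) (fun b hb => hb)) hI
    by_cases h0 : (S0N H.L).InChart P
    · exact H.sN_pos h0 ((H.T.on₁_iff P h0 h1c).mpr h1) ((H.T.on₂_iff P h0 h1c).mpr h2)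
    · exact absurd ⟨h1, h2⟩ (H.no_node1 P h1c h0)

end Fermat.Agent.ES.W33.NodeCountPos14
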