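/-
Programme W (S33 by hand), chapter (B2′), helper14: **THE INSTANCE SIDE of (B2′)**.

Both components of the nodal fibre of the model of level `N' = M' * p` at `p` are copies of the
special fibre `F̃ := Ft M' A = ↥(modularFunctionFieldFullC (kA A) M')` of the GOOD level `M'`
(rulings w14, j2), so the curve-theoretic hypotheses of helper9's
`NodalChartPts9.exists_chart_points` are supplied by
Programme V: `LHypFt13.lHyp_Ft`, `LHypFt13.riemann_inequality_Ft`, `GoodCofinite16.infinite_place`.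

* `exists_chart_points_cofinite` (any two function fields with `LHyp`, Riemann's inequality and
  infinitely many places): for COFINITE sets `U₁`, `U₂` of places (the consumer's GOOD places),
  `g = (g₁ + s - 1) + g₂` distinct smooth points `Q̄_i` in `U₁ ⊔ U₂` with `const_E0bar`, PLUS one
  more smooth point `Q̄_⋆` in `U₁` different from all `Q̄_i` (the point `aux` of
  `XiIfaceN29.ChartHypN`);
* `lHyp_FtV`, `riemann_FtV`, `infinite_place_FtV` : the three facts for `F̃ = Ft M' A` at the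
  parameters of `InstNames3` (with `ℓ := p`, `M := M'`);
* **`exists_chart_points_Ft`** : the exit at the instance: for EVERY node datum
  `N : Nodes (kA A) (Ft M' A) (Ft M' A) s` with `0 < s` and `N.ν₁` injective.
-/
import Mathlib
import Fermat.Agent.ES.W33.NodalChartPts9
import Fermat.Agent.ES.V19.InstNames3
import Fermat.Agent.ES.V19.LHypFt13
import Fermat.Agent.ES.V19.GoodCofinite16

set_option autoImplicit false
set_option synthInstance.maxHeartbeats 400000
set_option linter.unusedSectionVars false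

open AlgebraicCurve ModularCurve

noncomputable section

namespace Fermat.Agent.ES.W33.NodalInst14

open Fermat.Agent.RR.LSpace Fermat.Agent.ES.W33.XiIfaceN29

attribute [local instance 5000] HahnSeries.powerSeriesAlgebra SubalgebraClass.toAlgebra

/-! ### Cofinite form of the exit of (B2′), with the auxiliary point -/

section Generic

variable {k Ft₁ Ft₂ : Type*} [Field k] [Field Ft₁] [Algebra k Ft₁] [Field Ft₂] [Algebra k Ft₂]

/-- a cofinite set of places minus the (finitely many) node places is infinite. -/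
theorem infinite_diff_range {Ft : Type*} [Field Ft] [Algebra k Ft] [Infinite (Place k Ft)]
    {U : Set (Place k Ft)} (hU : Uᶜ.Finite) {s : ℕ} (ν : Fin s → Place k Ft) :
    (U \ Set.range ν).Infinite := by
  have hfin : (Uᶜ ∪ Set.range ν).Finite := hU.union (Set.finite_range ν)
  have h := hfin.infinite_compl
  have heq : (Uᶜ ∪ Set.range ν)ᶜ = U \ Set.range ν := by
    ext v
    simp only [Set.mem_compl_iff, Set.mem_union, not_or, not_not, Set.mem_sdiff]
  rwa [heq] at h

variable (HL₁ : LHyp k Ft₁)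
  (hR₁ : ∃ γ : ℤ, ∀ D : Divisor k Ft₁,
    Divisor.degree D + 1 - γ ≤ (Module.finrank k (riemannRochSpace D) : ℤ))
  (HL₂ : LHyp k Ft₂)
  (hR₂ : ∃ γ : ℤ, ∀ D : Divisor k Ft₂,
    Divisor.degree D + 1 - γ ≤ (Module.finrank k (riemannRochSpace D) : ℤ))

include HL₁ hR₁ HL₂ hR₂ in
/-- **(B2′), cofinite form**: chart points inside cofinite sets `U₁`, `U₂`, and one more smooth
point of the first component off `Ē₀`. -/
theorem exists_chart_points_cofinite [Infinite (Place k Ft₁)] [Infinite (Place k Ft₂)] {s : ℕ}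
    (hs : 0 < s) (N : Nodes k Ft₁ Ft₂ s) (hν₁ : Function.Injective N.ν₁)
    {U₁ : Set (Place k Ft₁)} (hU₁ : U₁ᶜ.Finite) {U₂ : Set (Place k Ft₂)} (hU₂ : U₂ᶜ.Finite)
    {g : ℕ} (hg : g = genusFF k Ft₁ + s - 1 + genusFF k Ft₂) :
    ∃ Qbar : Fin g → SPt k Ft₁ Ft₂, Function.Injective Qbar ∧ (∀ i, N.IsSmooth (Qbar i)) ∧
      (∀ i, (∃ Q ∈ U₁, Qbar i = Sum.inl Q) ∨ ∃ Q ∈ U₂, Qbar i = Sum.inr Q) ∧
      (∀ f ∈ N.LN (∑ i, Finsupp.single (Qbar i) (1 : ℤ)),
        ∃ c : k, f = (algebraMap k Ft₁ c, algebraMap k Ft₂ c)) ∧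
      ∃ Qs : Place k Ft₁, Qs ∈ U₁ ∧ N.IsSmooth (Sum.inl Qs) ∧ ∀ i, Qbar i ≠ Sum.inl Qs := by
  classical
  have hT₁ := infinite_diff_range hU₁ N.ν₁
  have hT₂ := infinite_diff_range hU₂ N.ν₂
  obtain ⟨Qbar, hinj, hsm, hmem, hconst⟩ :=
    Fermat.Agent.ES.W33.NodalChartPts9.exists_chart_points HL₁ hR₁ HL₂ hR₂ hs N hν₁ hT₁
      (fun v hv j h => hv.2 ⟨j, h.symm⟩) hT₂ (fun v hv j h => hv.2 ⟨j, h.symm⟩) hg
  refine ⟨Qbar, hinj, hsm, ?_, hconst, ?_⟩
  · intro i
    rcases hmem i with ⟨Q, hQ, h⟩ | ⟨Q, hQ, h⟩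
    · exact Or.inl ⟨Q, hQ.1, h⟩
    · exact Or.inr ⟨Q, hQ.1, h⟩
  · -- one more point: `U₁ \ ν₁` is infinite, the `Q̄_i` are finitely many
    have hfin : {Q : Place k Ft₁ | ∃ i, Qbar i = Sum.inl Q}.Finite := by
      have : {Q : Place k Ft₁ | ∃ i, Qbar i = Sum.inl Q} ⊆
          (Sum.inl ⁻¹' Set.range Qbar : Set (Place k Ft₁)) := by
        rintro Q ⟨i, hi⟩
        exact ⟨i, hi⟩
      exact ((Set.finite_range Qbar).preimage Sum.inl_injective.injOn).subset this
    obtain ⟨Qs, hQs, hQsn⟩ := (hT₁.sdiff hfin).nonempty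
    refine ⟨Qs, hQs.1, fun j h => hQs.2 ⟨j, h.symm⟩, fun i h => hQsn ⟨i, h⟩⟩

end Generic

/-! ### The instance: both components are `Ft M' A` -/

section Instance

open Fermat.Agent.RED.Interface4 Fermat.Agent.RED.BASE.Interface12
  Fermat.Agent.RED.BASE.Hauptmodul12 Fermat.Agent.ES.RED.SpecialGen25
  Fermat.Agent.ES.RED.Contract8 Fermat.Agent.ES.RED.ModelInst4
  Fermat.Agent.ES.V19.InstNames3

variable (n e M' : ℕ) [NeZero n] [NeZero M'] (p : ℕ) [Fact p.Prime] (hpM : ¬ p ∣ M')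
  (hb : BaseHyp n e) (hnM : n ∣ M') (A : ValuationSubring Qbar) (hA : A.LiesOverPrime p)

include hpM hb hnM hA

/-- `LHyp` for the special fibre of the good level `M'`. -/
theorem lHyp_FtV : LHyp (kA A) (Ft M' A) :=
  Fermat.Agent.ES.V19.LHypFt13.lHyp_Ft n e M' p hpM (tMem_of_dvd hb hnM) (tGenBase' hb) A hA
    (hrV n e M' p hpM hb hnM A hA)

/-- Riemann's inequality for the special fibre of the good level `M'`. -/
theorem riemann_FtV : ∃ γ : ℤ, ∀ D : Divisor (kA A) (Ft M' A),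
    Divisor.degree D + 1 - γ ≤ (Module.finrank (kA A) (riemannRochSpace D) : ℤ) :=
  Fermat.Agent.ES.V19.LHypFt13.riemann_inequality_Ft n e M' p hpM (tMem_of_dvd hb hnM)
    (tGenBase' hb) A hA (hrV n e M' p hpM hb hnM A hA)

/-- the special fibre of the good level `M'` has infinitely many places. -/
theorem infinite_place_FtV : Infinite (Place (kA A) (Ft M' A)) :=
  haveI : IsAlgClosed (kA A) := isAlgClosed_kA A
  Fermat.Agent.ES.V19.GoodCofinite16.infinite_place (inputs0V n e M' p hpM hb hnM A hA).gent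
    (inputs0V n e M' p hpM hb hnM A hA).sep

/-- **(B2′) AT THE INSTANCE.**  For every node datum on two copies of `F̃ = Ft M' A` with `0 < s`
and `ν₁` injective, and cofinite sets `U₁`, `U₂` of places of `F̃`: `g = 2 g' + s - 1` distinct
smooth points `Q̄_i` in `U₁ ⊔ U₂` with `const_E0bar` (the fields `inj`, `smooth`, `const_E0bar` of
`XiIfaceN29.ChartHypN`), and one more smooth point of the first component in `U₁` off `Ē₀`
(`aux`). -/
theorem exists_chart_points_Ft {s : ℕ} (hs : 0 < s) (N : Nodes (kA A) (Ft M' A) (Ft M' A) s)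
    (hν₁ : Function.Injective N.ν₁) {U₁ U₂ : Set (Place (kA A) (Ft M' A))} (hU₁ : U₁ᶜ.Finite)
    (hU₂ : U₂ᶜ.Finite) {g : ℕ}
    (hg : g = genusFF (kA A) (Ft M' A) + s - 1 + genusFF (kA A) (Ft M' A)) :
    ∃ Qbar : Fin g → SPt (kA A) (Ft M' A) (Ft M' A), Function.Injective Qbar ∧
      (∀ i, N.IsSmooth (Qbar i)) ∧
      (∀ i, (∃ Q ∈ U₁, Qbar i = Sum.inl Q) ∨ ∃ Q ∈ U₂, Qbar i = Sum.inr Q) ∧
      (∀ f ∈ N.LN (∑ i, Finsupp.single (Qbar i) (1 : ℤ)),
        ∃ c : kA A, f = (algebraMap (kA A) (Ft M' A) c, algebraMap (kA A) (Ft M' A) c)) ∧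
      ∃ Qs : Place (kA A) (Ft M' A), Qs ∈ U₁ ∧ N.IsSmooth (Sum.inl Qs) ∧
        ∀ i, Qbar i ≠ Sum.inl Qs := by
  have := infinite_place_FtV n e M' p hpM hb hnM A hA
  exact exists_chart_points_cofinite (lHyp_FtV n e M' p hpM hb hnM A hA)
    (riemann_FtV n e M' p hpM hb hnM A hA) (lHyp_FtV n e M' p hpM hb hnM A hA)
    (riemann_FtV n e M' p hpM hb hnM A hA) hs N hν₁ hU₁ hU₂ hg

end Instance

end Fermat.Agent.ES.W33.NodalInst14
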