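/-
Programme W (S33 by hand), chapter (B3′) support, helper14 (ruling w35 + helper20's #27351 (3):
"`Finite nodeCentres` = helper14"): **THE NODE CENTRES OF A NODAL CHART ARE FINITELY MANY**, in the
vocabulary of helper20's `CentreN20` / `NodalChart20` (centres `χ : B →+* k`, component reductions
`ρ₁, ρ₂`, local rings `cSubring χ ρᵢ`).

THE ARGUMENT.  A node centre `χ` lies on both components: `ker ρ₁ ⊆ ker χ` and `ker ρ₂ ⊆ ker χ`.
Take ONE function `c ∈ B` vanishing identically on the second component but not on the first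
(`ρ₂ c = 0`, `ρ₁ c ≠ 0`): e.g. `c = t - yᵖ` (Kronecker), or ANY witness of "some point of the first
component is not on the second one" (`exists_sep_of_smooth`).  Then `χ c = 0`, so by (R1) the
first-branch place `Q_χ` of the centre (`O_{Q_χ} = cSubring χ ρ₁`) is a ZERO of the non-zero
function `ρ₁ c ∈ Ft₁`: finitely many places (`LHyp.principal`).  And `χ` is determined by `Q_χ`
((R1) again: `χ f = (ρ₁ f)(Q_χ)`, `CentreN20.IsCentre.chi_eq_of_place_eq`).  No noetherian
hypothesis on `B` (at the `ℚ̄`-level `B = chart ↥A t` is not noetherian), no level `K`.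

* `finite_zeros` : a non-zero function has finitely many zeros;
* **`finite_centres`** : abstract form (`B` any ring, `X` any set of two-branch centres each having
  a first-branch place);
* `exists_sep_of_smooth` : a point of the first component off the second one gives `c`;
* **`finite_nodeCentres`** : the set `{χ | ∃ P h0, On₁ ∧ On₂ ∧ χ = S.chi P h0}` of a `NodalChart`
  is finite (first-branch places given as places);  `finite_nodeCentres_of_val` : the same from
  (VAL) + (PIR) at the node centres on the first branch (the shape of `HasPlaces₁`);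
  `finite_nodeCentres_of_smooth` : with `c` produced from a smooth point;
* `card_nodeCentres_pos` : `0 < Nat.card` as soon as there is one node.
-/
import Mathlib
import Fermat.Agent.RR.LSpace
import Fermat.Agent.ES.W33.NodalChart20

set_option autoImplicit false

open AlgebraicCurve

namespace Fermat.Agent.ES.W33.NodeCentresFinite14

open Fermat.Agent.RR.LSpace Fermat.Agent.X0.FF Fermat.Agent.ES.RED.PlaceValue13
  Fermat.Agent.ES.RED.Contract8 Fermat.Agent.ES.W33.CentreN20 Fermat.Agent.ES.W33.NodalChart20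

/-! ### Zeros of a non-zero function -/

section Zeros

variable {k Ft : Type*} [Field k] [Field Ft] [Algebra k Ft]

/-- a non-zero function has finitely many zeros. -/
theorem finite_zeros (HL : LHyp k Ft) {h : Ft} (hh : h ≠ 0) :
    {Q : Place k Ft | 0 < Q.ord h}.Finite := by
  obtain ⟨D, hD, -⟩ := HL.principal h hh
  refine (D.support.finite_toSet).subset ?_
  intro Q hQ
  rw [Finset.mem_coe, Finsupp.mem_support_iff, hD Q]
  exact (ne_of_gt hQ)

end Zeros

/-! ### The abstract statement -/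

section Abstract

variable {k : Type*} [Field k] [IsAlgClosed k] {B : Type*} [CommRing B]
  {Ft₁ : Type*} [Field Ft₁] [Algebra k Ft₁] {Ft₂ : Type*} [Field Ft₂]

/-- **Finitely many two-branch centres.**  `X` a set of centres on the first component (`IsCentre`),
each lying also on the second component and each having a first-branch place; `c` vanishes on the
second component and not on the first. -/
theorem finite_centres {xt : Ft₁} (hxt : IsGen k xt) (HL : LHyp k Ft₁) (ρ₁ : B →+* Ft₁)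
    (ρ₂ : B →+* Ft₂) {c : B} (hc2 : ρ₂ c = 0) (hc1 : ρ₁ c ≠ 0) (X : Set (B →+* k))
    (h1 : ∀ χ ∈ X, IsCentre χ ρ₁) (h2 : ∀ χ ∈ X, ∀ b : B, ρ₂ b = 0 → χ b = 0)
    (hQ : ∀ χ ∈ X, ∃ Q : Place k Ft₁, ∀ y : Ft₁, y ∈ Q.toValuationSubring ↔ y ∈ cSubring χ ρ₁) :
    X.Finite := by
  classical
  have hZ : {Q : Place k Ft₁ | 0 < Q.ord (ρ₁ c)}.Finite := finite_zeros HL hc1
  have : Finite ↥{Q : Place k Ft₁ | 0 < Q.ord (ρ₁ c)} := hZ.to_subtype
  -- the first-branch place of a centre is a zero of `ρ₁ c`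
  have hmem : ∀ χ : ↥X, (hQ χ.1 χ.2).choose ∈ {Q : Place k Ft₁ | 0 < Q.ord (ρ₁ c)} := by
    intro χ
    have hval := (h1 χ.1 χ.2).valueHom_rho_of_eq hxt (hQ χ.1 χ.2).choose
      (hQ χ.1 χ.2).choose_spec c
    rw [h2 χ.1 χ.2 c hc2, valueHom_eq_zero_iff_ord] at hval
    rcases hval with h0 | h0
    · exact absurd h0 hc1
    · exact h0
  have hinj : Function.Injective
      (fun χ : ↥X => (⟨(hQ χ.1 χ.2).choose, hmem χ⟩ : ↥{Q : Place k Ft₁ | 0 < Q.ord (ρ₁ c)})) := by
    intro χ χ' h
    have hq : (hQ χ.1 χ.2).choose = (hQ χ'.1 χ'.2).choose := congrArg Subtype.val h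
    apply Subtype.ext
    refine (h1 χ.1 χ.2).chi_eq_of_place_eq hxt (h1 χ'.1 χ'.2) (hQ χ.1 χ.2).choose
      (hQ χ.1 χ.2).choose_spec ?_
    rw [hq]
    exact (hQ χ'.1 χ'.2).choose_spec
  have : Finite ↥X := Finite.of_injective _ hinj
  exact Set.toFinite X

end Abstract

/-! ### At a nodal chart -/

section Chart

variable {L : Type*} [Field L] [IsAlgClosed L] {A : ValuationSubring L}
variable {F : Type*} [Field F] [Algebra L F] {x : F} {hx : IsGen L x}
variable {Ft₁ Ft₂ : Type*} [Field Ft₁] [Algebra (kA A) Ft₁] [Field Ft₂] [Algebra (kA A) Ft₂]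
variable (S : NodalChart A hx Ft₁ Ft₂)

/-- the set of node centres of the chart: the centres of the places lying on both components. -/
def nodeCentres : Set (↥S.B →+* kA A) :=
  {χ | ∃ (P : Place L F) (h0 : S.InChart P), S.On₁ P h0 ∧ S.On₂ P h0 ∧ χ = S.chi P h0}

theorem mem_nodeCentres_iff (χ : ↥S.B →+* kA A) :
    χ ∈ nodeCentres S ↔
      ∃ (P : Place L F) (h0 : S.InChart P), S.On₁ P h0 ∧ S.On₂ P h0 ∧ χ = S.chi P h0 :=
  Iff.rfl

/-- a point of the first component which is not on the second one gives a function vanishing on the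
second component and not on the first. -/
theorem exists_sep_of_smooth {P₀ : Place L F} {h₀ : S.InChart P₀} (h1 : S.On₁ P₀ h₀)
    (h2 : ¬ S.On₂ P₀ h₀) : ∃ c : ↥S.B, S.ρ₂ c = 0 ∧ S.ρ₁ c ≠ 0 := by
  unfold NodalChart.On₂ at h2
  rw [not_forall] at h2
  obtain ⟨c, hc⟩ := h2
  rw [Classical.not_imp] at hc
  exact ⟨c, hc.1, fun h => hc.2 (h1 c h)⟩

variable [IsAlgClosed (kA A)]

/-- **`Finite nodeCentres`**, the first-branch places of the node centres given as places. -/
theorem finite_nodeCentres {xt : Ft₁} (hxt : IsGen (kA A) xt) (HL : LHyp (kA A) Ft₁)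
    (hpl : ∀ (P : Place L F) (h0 : S.InChart P), S.On₁ P h0 → S.On₂ P h0 →
      ∃ Q : Place (kA A) Ft₁, ∀ y : Ft₁,
        y ∈ Q.toValuationSubring ↔ y ∈ cSubring (S.chi P h0) S.ρ₁)
    {c : ↥S.B} (hc2 : S.ρ₂ c = 0) (hc1 : S.ρ₁ c ≠ 0) : (nodeCentres S).Finite := by
  refine finite_centres hxt HL S.ρ₁ S.ρ₂ hc2 hc1 (nodeCentres S) ?_ ?_ ?_
  · rintro χ ⟨P, h0, h1, -, rfl⟩
    exact S.isCentre₁ P h0 h1
  · rintro χ ⟨P, h0, -, h2, rfl⟩
    exact h2
  · rintro χ ⟨P, h0, h1, h2, rfl⟩
    exact hpl P h0 h1 h2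

/-- **`Finite nodeCentres`** from (VAL) + (PIR) on the first branch at the node centres (the shape
of `NodalChart.HasPlaces₁`, at the nodes) and the transcendence of the coordinate. -/
theorem finite_nodeCentres_of_val {xt : Ft₁} (hxt : IsGen (kA A) xt) (HL : LHyp (kA A) Ft₁)
    (htr₁ : Transcendental (kA A) (S.ρ₁ S.sB))
    (hvp : ∀ (P : Place L F) (h0 : S.InChart P), S.On₁ P h0 → S.On₂ P h0 →
      ∃ hval : Val (S.chi P h0) S.ρ₁, IsPrincipalIdealRing ↥(cVS (S.chi P h0) S.ρ₁ hval))
    {c : ↥S.B} (hc2 : S.ρ₂ c = 0) (hc1 : S.ρ₁ c ≠ 0) : (nodeCentres S).Finite := by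
  refine finite_nodeCentres S hxt HL ?_ hc2 hc1
  intro P h0 h1 h2
  obtain ⟨hval, hpir⟩ := hvp P h0 h1 h2
  exact ⟨(S.isCentre₁ P h0 h1).cPlace hval
    ((S.isCentre₁ P h0 h1).cVS_ne_top hval (S.chi_sSub P h0) (S.ρ₁_sSub_ne_zero P h0 htr₁)) hpir,
    fun y => Iff.rfl⟩

/-- **`Finite nodeCentres`** with the separating function produced from one smooth point of the
first component in the chart. -/
theorem finite_nodeCentres_of_smooth {xt : Ft₁} (hxt : IsGen (kA A) xt) (HL : LHyp (kA A) Ft₁)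
    (htr₁ : Transcendental (kA A) (S.ρ₁ S.sB))
    (hvp : ∀ (P : Place L F) (h0 : S.InChart P), S.On₁ P h0 → S.On₂ P h0 →
      ∃ hval : Val (S.chi P h0) S.ρ₁, IsPrincipalIdealRing ↥(cVS (S.chi P h0) S.ρ₁ hval))
    {P₀ : Place L F} {h₀ : S.InChart P₀} (h1 : S.On₁ P₀ h₀) (h2 : ¬ S.On₂ P₀ h₀) :
    (nodeCentres S).Finite := by
  obtain ⟨c, hc2, hc1⟩ := exists_sep_of_smooth S h1 h2
  exact finite_nodeCentres_of_val S hxt HL htr₁ hvp hc2 hc1

omit [IsAlgClosed (kA A)] in
/-- `0 < Nat.card ↥nodeCentres` as soon as the set is finite and there is one node. -/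
theorem card_nodeCentres_pos (hfin : (nodeCentres S).Finite) {P : Place L F} {h0 : S.InChart P}
    (h1 : S.On₁ P h0) (h2 : S.On₂ P h0) : 0 < Nat.card ↥(nodeCentres S) := by
  have : Finite ↥(nodeCentres S) := hfin.to_subtype
  have : Nonempty ↥(nodeCentres S) := ⟨⟨S.chi P h0, P, h0, h1, h2, rfl⟩⟩
  exact Nat.card_pos

end Chart

end Fermat.Agent.ES.W33.NodeCentresFinite14
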