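/-
Programme W (S33 by hand), chapter (B3′), helper14, LEAF 7 (`RNLeaves.fin`):
**THE NODE CENTRES OF THE INSTANCE CHART `S0N L` ARE FINITELY MANY**, in the literal of the field
`fin` of helper20's `NodalCtxRN20.RNLeaves` / `TwoChartsNInst20.PlaceLeaves`, from the chart leaves
`L`, the second-branch places `ex₂0` (literal of `RNLeaves.ex₂0`) and the transcendence `tr₂` of the
coordinate on the second component (literal of `RNLeaves.tr₂`).

THE ARGUMENT.  helper1's `NoNodeQbar1.exists_nodeData` gives `y, f ∈ chart ↥A tN` with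
`rho1 (f - 1) = 0`, `rho2 (tN - y ^ p) = 0`, `rho2 (f - y ^ (p² - 1)) = 0` (`y = t(q^p)`,
`f = t^p / y`, Kronecker).  So `c := f - 1` vanishes identically on the FIRST component, and not on
the SECOND one: otherwise `rho2 y ^ (p² - 1) = 1`, `rho2 y` is algebraic over `k̄`, and so is
`rho2 tN = rho2 y ^ p`, against `tr₂`.  Then `NodeCentresFinite14.finite_centres` with the roles of
the two components exchanged: a node centre `χ` kills `c` (`On₁`), so its second-branch place
(`ex₂0`) is a zero of the non-zero function `rho2 c`, and `χ` is determined by that place.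

* `finite_nodeCentres_snd` : the abstract statement for a `NodalChart` (second-branch places);
* `exists_sep` : the separating function `c` of the instance;
* **`finite_nodeCentres`**, **`fin`** : the set `nodeCentres (S0N L)` is finite / `Finite ↥_`.
-/
import Mathlib
import Fermat.Agent.ES.W33.NodeCentresFinite14
import Fermat.Agent.ES.W33.NodalInst14
import Fermat.Agent.ES.W33.TwoChartsNInst20
import Fermat.Agent.ES.W33.NoNodeQbar1

set_option autoImplicit false
set_option linter.unusedSectionVars false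
set_option linter.style.haveILetI false
set_option synthInstance.maxHeartbeats 400000
set_option maxHeartbeats 1000000

open HahnSeries ModularCurve AlgebraicCurve

noncomputable section

namespace Fermat.Agent.ES.W33.NodeFinN14

open Fermat.Agent.RR.LSpace
open Fermat.Agent.RED.Interface4 Fermat.Agent.RED.BASE.Interface12 Fermat.Agent.RED.BASE.Hauptmodul12
  Fermat.Agent.RED.PUR.ChartGeneric22
  Fermat.Agent.ES.RED.Contract8 Fermat.Agent.ES.RED.ModelInst4
  Fermat.Agent.X0 Fermat.Agent.X0.FF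
  Fermat.Agent.ES.V19.InstNames3 Fermat.Agent.ES.W33.NodalDefs3
open Fermat.Agent.ES.W33.CentreN20 Fermat.Agent.ES.W33.NodalChart20
  Fermat.Agent.ES.W33.TwoChartsNInst20 Fermat.Agent.ES.W33.NodeCentresFinite14

attribute [local instance 5000] HahnSeries.powerSeriesAlgebra SubalgebraClass.toAlgebra

/-! ### The abstract statement, second-branch places -/

section Abstract

variable {L : Type*} [Field L] [IsAlgClosed L] {A : ValuationSubring L}
variable {F : Type*} [Field F] [Algebra L F] {x : F} {hx : IsGen L x}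
variable {Ft₁ Ft₂ : Type*} [Field Ft₁] [Algebra (kA A) Ft₁] [Field Ft₂] [Algebra (kA A) Ft₂]
variable [IsAlgClosed (kA A)]

/-- **`Finite nodeCentres`**, the SECOND-branch places of the node centres given as places, and a
function vanishing on the first component and not on the second one. -/
theorem finite_nodeCentres_snd (S : NodalChart A hx Ft₁ Ft₂) {xt : Ft₂} (hxt : IsGen (kA A) xt)
    (HL : LHyp (kA A) Ft₂)
    (hpl : ∀ (P : Place L F) (h0 : S.InChart P), S.On₂ P h0 →
      ∃ Q : Place (kA A) Ft₂, ∀ y : Ft₂,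
        y ∈ Q.toValuationSubring ↔ y ∈ cSubring (S.chi P h0) S.ρ₂)
    {c : ↥S.B} (hc1 : S.ρ₁ c = 0) (hc2 : S.ρ₂ c ≠ 0) : (nodeCentres S).Finite := by
  refine finite_centres hxt HL S.ρ₂ S.ρ₁ hc1 hc2 (nodeCentres S) ?_ ?_ ?_
  · rintro χ ⟨P, h0, -, h2, rfl⟩
    exact S.isCentre₂ P h0 h2
  · rintro χ ⟨P, h0, h1, -, rfl⟩
    exact h1
  · rintro χ ⟨P, h0, -, h2, rfl⟩
    exact hpl P h0 h2

end Abstract

/-! ### The instance -/

variable (M' : ℕ) [NeZero M'] (p : ℕ) [Fact p.Prime] [NeZero p] (hpM : ¬ p ∣ M') (hM : 4 ∣ M')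
  (A : ValuationSubring Qbar) (hA : A.LiesOverPrime p)

include hpM hA in
/-- **the separating function** `c = f - 1` (`f = t^p / t(q^p)`): it vanishes on the first component
and not on the second one. -/
theorem exists_sep (hp2 : p ≠ 2) (L : ChartLeaves 4 8 M' p baseHyp_four hM A)
    (tr₂ : Transcendental (kA A) ((S0N L).ρ₂ (S0N L).sB)) :
    ∃ c : ↥(S0N L).B, (S0N L).ρ₁ c = 0 ∧ (S0N L).ρ₂ c ≠ 0 := by
  obtain ⟨⟨y, f, hy, hf, ⟨h1, e1⟩, ⟨h2, e2⟩, ⟨h3, e3⟩⟩, -⟩ :=
    Fermat.Agent.ES.W33.NoNodeQbar1.exists_nodeData M' p A hp2 hpM hM hA baseHyp_four hM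
  let yB : ↥(S0N L).B := ⟨y, hy⟩
  let fB : ↥(S0N L).B := ⟨f, hf⟩
  have e1' : (S0N L).ρ₁ (fB - 1) = 0 := e1
  have e2' : (S0N L).ρ₂ ((S0N L).sB - yB ^ p) = 0 := e2
  have e3' : (S0N L).ρ₂ (fB - yB ^ (p * p - 1)) = 0 := e3
  refine ⟨fB - 1, e1', ?_⟩
  intro h
  rw [map_sub, map_one, sub_eq_zero] at h
  rw [map_sub, map_pow, sub_eq_zero] at e2' e3'
  have hp : p.Prime := Fact.out
  have hpos : 0 < p * p - 1 := by
    have := hp.two_le
    have : 4 ≤ p * p := by nlinarith
    omega
  have hy1 : ((S0N L).ρ₂ yB) ^ (p * p - 1) = 1 := by rw [← e3', h]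
  have halg : IsAlgebraic (kA A) ((S0N L).ρ₂ yB) :=
    IsAlgebraic.of_pow hpos (by rw [hy1]; exact isAlgebraic_one)
  exact tr₂ (by rw [e2']; exact halg.pow p)

include hpM hA in
/-- **LEAF 7, set form**: the node centres of chart 0 of the instance are finitely many. -/
theorem finite_nodeCentres (hp2 : p ≠ 2) (L : ChartLeaves 4 8 M' p baseHyp_four hM A)
    (ex₂0 : ∀ (P : Place Qbar ↥(Fbar (M' * p))) (hP : (S0N L).InChart P), (S0N L).On₂ P hP →
      ∃ X : Place (kA A) (Ft M' A), ∀ y, y ∈ X.toValuationSubring ↔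
        y ∈ cSubring ((S0N L).chi P hP) (S0N L).ρ₂)
    (tr₂ : Transcendental (kA A) ((S0N L).ρ₂ (S0N L).sB)) :
    (nodeCentres (S0N L)).Finite := by
  haveI : IsAlgClosed (kA A) := Fermat.Agent.ES.V19.InstNames3.isAlgClosed_kA A
  obtain ⟨c, hc1, hc2⟩ := exists_sep M' p hpM hM A hA hp2 L tr₂
  exact finite_nodeCentres_snd (S0N L) (hxtV 4 8 M' p hpM baseHyp_four hM A hA)
    (Fermat.Agent.ES.W33.NodalInst14.lHyp_FtV 4 8 M' p hpM baseHyp_four hM A hA) ex₂0 hc1 hc2

include hpM hA in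
/-- **LEAF 7** in the literal of `RNLeaves.fin` / `PlaceLeaves.fin`. -/
theorem fin (hp2 : p ≠ 2) (L : ChartLeaves 4 8 M' p baseHyp_four hM A)
    (ex₂0 : ∀ (P : Place Qbar ↥(Fbar (M' * p))) (hP : (S0N L).InChart P), (S0N L).On₂ P hP →
      ∃ X : Place (kA A) (Ft M' A), ∀ y, y ∈ X.toValuationSubring ↔
        y ∈ cSubring ((S0N L).chi P hP) (S0N L).ρ₂)
    (tr₂ : Transcendental (kA A) ((S0N L).ρ₂ (S0N L).sB)) :
    Finite ↥(Fermat.Agent.ES.W33.TwoChartsNCore20.nodeCentres (S0N L)) :=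
  (finite_nodeCentres M' p hpM hM A hA hp2 L ex₂0 tr₂).to_subtype

end Fermat.Agent.ES.W33.NodeFinN14
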