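/-
Programme W (S33), chapter (B3′), leaf 11 `(hpts)` — helper27 (ruling w65 (3)):
**THE GOOD-LEVEL (R2) IN `push` FORM, AT EVERY POINT `Q`** — the field `hgood` of
`R2RelCtxN22.RelPoint` (`∀ a : A, push hfin rV (x0 - a) Q = m0 a`) for the two coordinates
`x0 := tV` (`m0 a := Q.ord (t̃ - ā)`) and `x0 := tV⁻¹` (`m0 a := Q.ord (t̃⁻¹ - ā)`).

No chart hypothesis on `Q` is needed: main's reduction map of the GOOD level `rV = (TV …).r` satisfies
(R2) for every Gauss-integral function at EVERY `Q` (`RedCtxInst15.redCtx_gaussInt`, field `r1`).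

PARAMETERS: the `variable` block of `V19/InstNames3` / `W33/NodalDefs3` (good level `M'`, prime `p ∤ M'`).
EXPORTS
* `push_rV_of_isRedOf` : `IsRedOf B₀ red₀ f φ → φ ≠ 0 → push hfin rV f Q = Q.ord φ`
  (`B₀ = (TV …).S0.B` the chart ring, fractions allowed: this is (R2) on `GV = gaussInt B₀ red₀`);
* `push_rV_gaussInt`   : the same for `g : ↥GV` with `gredV g ≠ 0`;
* `isRedOf_tV`, `isRedOf_const`, `isRedOf_tV_sub`, `isRedOf_tV_inv_sub` : the reductions;
* `tResV_sub_ne_zero`, `tResV_inv_sub_ne_zero` : `t̃^{±1} - ā ≠ 0` (transcendence of `t̃`);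
* **`hgood0`** : `push hfin rV (tV - a) Q = Q.ord (t̃ - ā)`;
* **`hgood1`** : `push hfin rV (tV⁻¹ - a) Q = Q.ord (t̃⁻¹ - ā)`.
-/
import Mathlib
import Fermat.Agent.ES.RED.R2Abstract14
import Fermat.Agent.ES.V19.InstNames3
import Fermat.Agent.ES.V19.RedCtxInst15

set_option autoImplicit false
set_option synthInstance.maxHeartbeats 400000
set_option linter.unusedSectionVars false

open HahnSeries ModularCurve AlgebraicCurve

noncomputable section

namespace Fermat.Agent.ES.W33.GoodR2V27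

open Fermat.Agent.RED.Interface4 Fermat.Agent.RED.BASE.Interface12 Fermat.Agent.RED.BASE.Hauptmodul12
  Fermat.Agent.ES.RED.Contract8 Fermat.Agent.ES.RED.TwoCharts8 Fermat.Agent.ES.RED.GaloisInst21
  Fermat.Agent.ES.RED.ModelInst4 Fermat.Agent.ES.RED.R2Abstract14
  Fermat.Agent.X0 Fermat.Agent.X0.FF
  Fermat.Agent.ES.V19.GaussFrac15 Fermat.Agent.ES.V19.DiscIface3 Fermat.Agent.ES.V19.InstNames3
  Fermat.Agent.ES.V19.SupTrick15

attribute [local instance 5000] HahnSeries.powerSeriesAlgebra SubalgebraClass.toAlgebra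

variable (n e M' : ℕ) [NeZero n] [NeZero M'] (p : ℕ) [Fact p.Prime] (hpM : ¬ p ∣ M')
  (hb : BaseHyp n e) (hnM : n ∣ M') (A : ValuationSubring Qbar) (hA : A.LiesOverPrime p)

/-- `RedCtx` of the good level at `(GV, gredV, rV)` (main, `RedCtxInst15.redCtx_gaussInt`). -/
theorem redCtxV :
    RedCtx A (resA A) (GV n e M' p hpM hb hnM A hA) (gredV n e M' p hpM hb hnM A hA)
      (rV n e M' p hpM hb hnM A hA) :=
  Fermat.Agent.ES.V19.RedCtxInst15.redCtx_gaussInt p hpM A hA (TV n e M' p hpM hb hnM A hA)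
    (hrV n e M' p hpM hb hnM A hA) (hS0V n e M' p hpM hb hnM A hA)

/-- **(R2) of the good level, `push` form, on `GV`, at every `Q`.** -/
theorem push_rV_gaussInt (hfin : FinDiv Qbar ↥(Fbar M'))
    (g : ↥(GV n e M' p hpM hb hnM A hA)) (hg : gredV n e M' p hpM hb hnM A hA g ≠ 0)
    (Q : Place (kA A) (Ft M' A)) :
    push hfin (rV n e M' p hpM hb hnM A hA) (g : ↥(Fbar M')) Q =
      Q.ord (gredV n e M' p hpM hb hnM A hA g) :=
  (redCtxV n e M' p hpM hb hnM A hA).r1 g hg (divOf hfin (g : ↥(Fbar M')))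
    (fun P => divOf_apply hfin _ P) Q

/-- **(R2) of the good level, `push` form, for fractions of chart elements.** -/
theorem push_rV_of_isRedOf (hfin : FinDiv Qbar ↥(Fbar M')) {f : ↥(Fbar M')} {φ : Ft M' A}
    (h : IsRedOf (TV n e M' p hpM hb hnM A hA).S0.B (TV n e M' p hpM hb hnM A hA).S0.red f φ)
    (hφ : φ ≠ 0) (Q : Place (kA A) (Ft M' A)) :
    push hfin (rV n e M' p hpM hb hnM A hA) f Q = Q.ord φ := by
  have hρ : gredV n e M' p hpM hb hnM A hA ⟨f, h.isGI⟩ = φ := rho_eq_of_isRedOf h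
  have := push_rV_gaussInt n e M' p hpM hb hnM A hA hfin ⟨f, h.isGI⟩ (by rw [hρ]; exact hφ) Q
  rw [hρ] at this
  exact this

/-- `t` reduces to `t̃`. -/
theorem isRedOf_tV :
    IsRedOf (TV n e M' p hpM hb hnM A hA).S0.B (TV n e M' p hpM hb hnM A hA).S0.red
      (tV n e M' hb hnM) (tResV n e M' p hpM hb hnM A hA) := by
  have h := isRedOf_of_mem (G := (TV n e M' p hpM hb hnM A hA).S0.B)
    (red := (TV n e M' p hpM hb hnM A hA).S0.red) (TV n e M' p hpM hb hnM A hA).S0.sB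
  rw [red_sB_V n e M' p hpM hb hnM A hA] at h
  exact h

/-- the constant `a ∈ A` reduces to `ā`. -/
theorem isRedOf_const (a : ↥A) :
    IsRedOf (TV n e M' p hpM hb hnM A hA).S0.B (TV n e M' p hpM hb hnM A hA).S0.red
      (algebraMap Qbar ↥(Fbar M') (a : Qbar)) (algebraMap (kA A) (Ft M' A) (resA A a)) := by
  have h := isRedOf_of_mem (G := (TV n e M' p hpM hb hnM A hA).S0.B)
    (red := (TV n e M' p hpM hb hnM A hA).S0.red)
    ⟨algebraMap Qbar ↥(Fbar M') (a : Qbar), (TV n e M' p hpM hb hnM A hA).S0.const_mem a⟩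
  rw [(TV n e M' p hpM hb hnM A hA).S0.red_const a] at h
  exact h

/-- `t - a` reduces to `t̃ - ā`. -/
theorem isRedOf_tV_sub (a : ↥A) :
    IsRedOf (TV n e M' p hpM hb hnM A hA).S0.B (TV n e M' p hpM hb hnM A hA).S0.red
      (tV n e M' hb hnM - algebraMap Qbar ↥(Fbar M') (a : Qbar))
      (tResV n e M' p hpM hb hnM A hA - algebraMap (kA A) (Ft M' A) (resA A a)) :=
  (isRedOf_tV n e M' p hpM hb hnM A hA).sub (isRedOf_const n e M' p hpM hb hnM A hA a)

/-- `t̃ ≠ 0`. -/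
theorem tResV_ne_zero : tResV n e M' p hpM hb hnM A hA ≠ 0 := by
  intro h
  have htr := (hxtV n e M' p hpM hb hnM A hA).transcendental
  rw [h] at htr
  exact htr isAlgebraic_zero

/-- `t⁻¹ - a` reduces to `t̃⁻¹ - ā`. -/
theorem isRedOf_tV_inv_sub (a : ↥A) :
    IsRedOf (TV n e M' p hpM hb hnM A hA).S0.B (TV n e M' p hpM hb hnM A hA).S0.red
      ((tV n e M' hb hnM)⁻¹ - algebraMap Qbar ↥(Fbar M') (a : Qbar))
      ((tResV n e M' p hpM hb hnM A hA)⁻¹ - algebraMap (kA A) (Ft M' A) (resA A a)) :=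
  ((isRedOf_tV n e M' p hpM hb hnM A hA).inv (tResV_ne_zero n e M' p hpM hb hnM A hA)).sub
    (isRedOf_const n e M' p hpM hb hnM A hA a)

/-- `t̃ - c ≠ 0` for every constant `c` (`t̃` is transcendental over `k̄`). -/
theorem tResV_sub_ne_zero (c : kA A) :
    tResV n e M' p hpM hb hnM A hA - algebraMap (kA A) (Ft M' A) c ≠ 0 := by
  intro h
  have htr := (hxtV n e M' p hpM hb hnM A hA).transcendental
  rw [sub_eq_zero] at h
  rw [h] at htr
  exact htr (isAlgebraic_algebraMap c)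

/-- `t̃⁻¹ - c ≠ 0` for every constant `c`. -/
theorem tResV_inv_sub_ne_zero (c : kA A) :
    (tResV n e M' p hpM hb hnM A hA)⁻¹ - algebraMap (kA A) (Ft M' A) c ≠ 0 := by
  intro h
  have htr := (hxtV n e M' p hpM hb hnM A hA).transcendental
  rw [sub_eq_zero] at h
  have h2 : tResV n e M' p hpM hb hnM A hA = algebraMap (kA A) (Ft M' A) c⁻¹ := by
    rw [map_inv₀, ← h, inv_inv]
  rw [h2] at htr
  exact htr (isAlgebraic_algebraMap _)

/-- **`hgood` for the coordinate `x0 = t`** (chart 0): the good-level (R2) for `t - a` at `Q`. -/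
theorem hgood0 (hfin : FinDiv Qbar ↥(Fbar M')) (Q : Place (kA A) (Ft M' A)) (a : ↥A) :
    push hfin (rV n e M' p hpM hb hnM A hA)
        (tV n e M' hb hnM - algebraMap Qbar ↥(Fbar M') (a : Qbar)) Q =
      Q.ord (tResV n e M' p hpM hb hnM A hA - algebraMap (kA A) (Ft M' A) (resA A a)) :=
  push_rV_of_isRedOf n e M' p hpM hb hnM A hA hfin (isRedOf_tV_sub n e M' p hpM hb hnM A hA a)
    (tResV_sub_ne_zero n e M' p hpM hb hnM A hA _) Q

/-- **`hgood` for the coordinate `x0 = t⁻¹`** (chart 1): the good-level (R2) for `t⁻¹ - a` at `Q`. -/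
theorem hgood1 (hfin : FinDiv Qbar ↥(Fbar M')) (Q : Place (kA A) (Ft M' A)) (a : ↥A) :
    push hfin (rV n e M' p hpM hb hnM A hA)
        ((tV n e M' hb hnM)⁻¹ - algebraMap Qbar ↥(Fbar M') (a : Qbar)) Q =
      Q.ord ((tResV n e M' p hpM hb hnM A hA)⁻¹ - algebraMap (kA A) (Ft M' A) (resA A a)) :=
  push_rV_of_isRedOf n e M' p hpM hb hnM A hA hfin (isRedOf_tV_inv_sub n e M' p hpM hb hnM A hA a)
    (tResV_inv_sub_ne_zero n e M' p hpM hb hnM A hA _) Q

end Fermat.Agent.ES.W33.GoodR2V27
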