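/-
Programme W (S33), chapter (B3′) "reduction of places on the nodal model" — helper22:
**THE LEAF (hpts) OF `NodalCtxAsm26.CtxLeaves.rel` AT THE INSTANCE**: for every smooth point `Q` of
the first component, the per-point data `R2RelCtxN22.RelPoint` of the relative count along
`alphaN : F_{M'} → F_{M' p}`, with the partner `Φ⁻¹ Q`, `Φ := phi (wBar)` (helper15's
`BranchTwoPhi15.phi` at helper8's `FrickeBar8.wBar`) — FROM THE LOCALISED ONE-COMPONENT CHARTS ALONE.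

GENERIC (no instance name):
* `HasLoc₁ S r b₀ Q` : some localised chart `S'` of the two-component chart `S` off the second
  component (`LocPointN22.LocAt₁ S S' e₀`) contains the point `Q` (`ρ₁ e₀ ≠ 0`, `ord_Q (ρ₁ e₀) = 0`)
  and satisfies (PEEL-a) on the disc `{P | r P = b₀}`;  twin `HasLoc₂`;
* `locAt₁_locChart`, `locAt₂_locChart` : helper9's `LocChartGenN9.locChart S e ρ_i …` IS such a
  localisation;  `hasLoc₁_of_locChart`, `hasLoc₂_of_locChart`.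
INSTANCE (binders of `NodalDefs3`; `H : NodalCtxRN20.RNLeaves …`, `T := H.T`, `T.r = rN`):
* `inv_mem_O1`, `inv_mem_O2` : the two Gauss rings are local with residue maps `rho1`, `rho2`;
* `PtLeaves H` : FOUR fields = the localised charts at the smooth points
  (`loc₁0` : `Q` on `C₁`, `t̃(Q) ≠ ∞`, chart `tN`;  `loc₁1` : `t̃(Q) = ∞`, chart `tN⁻¹`;  `loc₂0`, `loc₂1`
  the same on `C₂` with `rho2 tN`);
* `relPoint₀`, `relPoint₁` : `RelPoint` at `Q` with `x0 := tV` resp. `tV⁻¹`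
  (`PointHyp` ×2 by `LocPointN22.LocAt_i.pointHyp` + `disc_i_j`;  `hgood` = helper27's
  `GoodR2V27.hgood0/1`;  `hord` : `ord_Q (t̃ − ā) + ord_{Q₂} (V_p (wBar t̃) − ā) = (1 + p) · ord_Q (t̃ − ā)`
  by helper15's `ord_phi`, helper8's `rho1_alpha / rho2_alpha`, helper26's `degAlpha_eq`);
* **`hpts_of H PL cN`** : the literal third component of `CtxLeaves.rel`;
  **`ctxLeaves_of H PL c2 cN : NodalCtxAsm26.CtxLeaves …`**.
-/
import Mathlib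
import Fermat.Agent.ES.W33.LocPointN22
import Fermat.Agent.ES.W33.LocChartGenN9
import Fermat.Agent.ES.W33.NodalCtxAsm26
import Fermat.Agent.ES.W33.FrickeBar8
import Fermat.Agent.ES.W33.BranchTwoPhi15
import Fermat.Agent.ES.W33.GoodR2V27

set_option autoImplicit false
set_option linter.unusedSectionVars false
set_option linter.style.haveILetI false
set_option synthInstance.maxHeartbeats 400000

open HahnSeries ModularCurve AlgebraicCurve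
open scoped MatrixGroups

noncomputable section

namespace Fermat.Agent.ES.W33.R2PtsN22

open Fermat.Agent.RED.Interface4 Fermat.Agent.RED.BASE.Interface12 Fermat.Agent.RED.BASE.Hauptmodul12
  Fermat.Agent.RED.PUR.ChartGeneric22
  Fermat.Agent.ES.RED.Contract8 Fermat.Agent.ES.RED.ModelInst4
  Fermat.Agent.ES.RED.PlaceValue13 Fermat.Agent.ES.RED.R2Abstract14
  Fermat.Agent.X0 Fermat.Agent.X0.FF
  Fermat.Agent.ES.V19.GaussFrac15 Fermat.Agent.ES.V19.InstNames3 Fermat.Agent.ES.W33.XiIfaceN29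
  Fermat.Agent.ES.W33.NodalDefs3 Fermat.Agent.ES.W33.ValAt29
open Fermat.Agent.ES.W33.CentreN20 Fermat.Agent.ES.W33.NodalChart20 Fermat.Agent.ES.W33.TwoChartsN20
  Fermat.Agent.ES.W33.TwoChartsNInst20 Fermat.Agent.ES.W33.TwoChartsNRN20
  Fermat.Agent.ES.W33.NodalCtxRN20 Fermat.Agent.ES.W33.NodalCtxAsm26
  Fermat.Agent.ES.W33.ContractP3 Fermat.Agent.ES.W33.LocPointN22 Fermat.Agent.ES.W33.LocChartGenN9
  Fermat.Agent.ES.W33.R2PointP22 Fermat.Agent.ES.W33.R2RelCtxN22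
  Fermat.Agent.ES.W33.BetaRed15 Fermat.Agent.ES.W33.BranchTwoPhi15

attribute [local instance 5000] HahnSeries.powerSeriesAlgebra SubalgebraClass.toAlgebra

/-! ### generic: localised charts at a point -/

section Generic

variable {L : Type*} [Field L] [IsAlgClosed L] {A : ValuationSubring L}
variable {F : Type*} [Field F] [Algebra L F] {x : F} {hx : IsGen L x}
variable {Ft₁ Ft₂ : Type*} [Field Ft₁] [Algebra (kA A) Ft₁] [Field Ft₂] [Algebra (kA A) Ft₂]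
variable {β : Type*}

/-- **a localised chart of `S` off the second component through the point `Q`**, with (PEEL-a) on
the disc of `Q`. -/
def HasLoc₁ (S : NodalChart A hx Ft₁ Ft₂) (r : Place L F → β) (b₀ : β)
    (Q : Place (kA A) Ft₁) : Prop :=
  ∃ (S' : ChartSpecP A hx Ft₁) (e₀ : ↥S.B), LocAt₁ S S' e₀ ∧ S.ρ₁ e₀ ≠ 0 ∧
    Q.ord (S.ρ₁ e₀) = 0 ∧
    ∀ (P : Place L F) (hP : S'.InChart P), r P = b₀ → S'.PeelA P hP

/-- **a localised chart of `S` off the first component through the point `Q`**, with (PEEL-a) on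
the disc of `Q`. -/
def HasLoc₂ (S : NodalChart A hx Ft₁ Ft₂) (r : Place L F → β) (b₀ : β)
    (Q : Place (kA A) Ft₂) : Prop :=
  ∃ (S' : ChartSpecP A hx Ft₂) (e₀ : ↥S.B), LocAt₂ S S' e₀ ∧ S.ρ₂ e₀ ≠ 0 ∧
    Q.ord (S.ρ₂ e₀) = 0 ∧
    ∀ (P : Place L F) (hP : S'.InChart P), r P = b₀ → S'.PeelA P hP

variable (S : NodalChart A hx Ft₁ Ft₂) (e₀ : ↥S.B)

/-- helper9's `locChart S e₀ ρ₁` is a localisation off the second component. -/
theorem locAt₁_locChart (hρ : S.ρ₁ e₀ ≠ 0) (he₂ : S.ρ₂ e₀ = 0)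
    (hsat : ∀ b : ↥S.B, b ≠ 0 → ∃ (k : ℕ) (c : ↥A) (b' : ↥S.B),
      (e₀ : F) ^ k * (b : F) = algebraMap L F (c : L) * (b' : F) ∧ S.ρ₁ b' ≠ 0) :
    LocAt₁ S (locChart S e₀ S.ρ₁ S.ρ₁_const hρ hsat) e₀ where
  le := le_locRing S e₀
  red_eq := fun b => locRed_coe S e₀ S.ρ₁ hρ b
  s_eq := rfl
  off := he₂
  pow := fun b' => by
    obtain ⟨k, hk⟩ := b'.2
    exact ⟨k, ⟨_, hk⟩, rfl⟩
  in_iff := fun _ => Iff.rfl

/-- helper9's `locChart S e₀ ρ₂` is a localisation off the first component. -/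
theorem locAt₂_locChart (hρ : S.ρ₂ e₀ ≠ 0) (he₁ : S.ρ₁ e₀ = 0)
    (hsat : ∀ b : ↥S.B, b ≠ 0 → ∃ (k : ℕ) (c : ↥A) (b' : ↥S.B),
      (e₀ : F) ^ k * (b : F) = algebraMap L F (c : L) * (b' : F) ∧ S.ρ₂ b' ≠ 0) :
    LocAt₂ S (locChart S e₀ S.ρ₂ S.ρ₂_const hρ hsat) e₀ where
  le := le_locRing S e₀
  red_eq := fun b => locRed_coe S e₀ S.ρ₂ hρ b
  s_eq := rfl
  off := he₁
  pow := fun b' => by
    obtain ⟨k, hk⟩ := b'.2
    exact ⟨k, ⟨_, hk⟩, rfl⟩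
  in_iff := fun _ => Iff.rfl

/-- `HasLoc₁` from helper9's chart. -/
theorem hasLoc₁_of_locChart (r : Place L F → β) (b₀ : β) (Q : Place (kA A) Ft₁)
    (hρ : S.ρ₁ e₀ ≠ 0) (he₂ : S.ρ₂ e₀ = 0)
    (hsat : ∀ b : ↥S.B, b ≠ 0 → ∃ (k : ℕ) (c : ↥A) (b' : ↥S.B),
      (e₀ : F) ^ k * (b : F) = algebraMap L F (c : L) * (b' : F) ∧ S.ρ₁ b' ≠ 0)
    (hQe : Q.ord (S.ρ₁ e₀) = 0)
    (hpeel : ∀ (P : Place L F) (hP : (locChart S e₀ S.ρ₁ S.ρ₁_const hρ hsat).InChart P),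
      r P = b₀ → (locChart S e₀ S.ρ₁ S.ρ₁_const hρ hsat).PeelA P hP) :
    HasLoc₁ S r b₀ Q :=
  ⟨_, e₀, locAt₁_locChart S e₀ hρ he₂ hsat, hρ, hQe, hpeel⟩

/-- `HasLoc₂` from helper9's chart. -/
theorem hasLoc₂_of_locChart (r : Place L F → β) (b₀ : β) (Q : Place (kA A) Ft₂)
    (hρ : S.ρ₂ e₀ ≠ 0) (he₁ : S.ρ₁ e₀ = 0)
    (hsat : ∀ b : ↥S.B, b ≠ 0 → ∃ (k : ℕ) (c : ↥A) (b' : ↥S.B),
      (e₀ : F) ^ k * (b : F) = algebraMap L F (c : L) * (b' : F) ∧ S.ρ₂ b' ≠ 0)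
    (hQe : Q.ord (S.ρ₂ e₀) = 0)
    (hpeel : ∀ (P : Place L F) (hP : (locChart S e₀ S.ρ₂ S.ρ₂_const hρ hsat).InChart P),
      r P = b₀ → (locChart S e₀ S.ρ₂ S.ρ₂_const hρ hsat).PeelA P hP) :
    HasLoc₂ S r b₀ Q :=
  ⟨_, e₀, locAt₂_locChart S e₀ hρ he₁ hsat, hρ, hQe, hpeel⟩

end Generic

/-! ### the instance -/

variable (n e M' : ℕ) [NeZero n] [NeZero M'] (p : ℕ) [Fact p.Prime] (hpM : ¬ p ∣ M')
  (hb : BaseHyp n e) (hnM : n ∣ M') (A : ValuationSubring Qbar) (hA : A.LiesOverPrime p)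

/-- the first Gauss ring is local with residue map `rho1`. -/
theorem inv_mem_O1 (g : ↥(O1 M' p A)) (hg : rho1 M' p A g ≠ 0) :
    (g : ↥(Fbar (M' * p)))⁻¹ ∈ O1 M' p A :=
  inv_mem_gaussInt_of_isGU ((isGU_iff_rho_ne_zero g).2 hg)

/-- the second Gauss ring is local with residue map `rho2`. -/
theorem inv_mem_O2 (g : ↥(O2 M' p A)) (hg : rho2 M' p A g ≠ 0) :
    (g : ↥(Fbar (M' * p)))⁻¹ ∈ O2 M' p A := by
  rw [mem_O2_iff, map_inv₀]
  exact inv_mem_O1 M' p A ⟨frickeN M' p (g : ↥(Fbar (M' * p))), g.2⟩ hg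

/-- **the partner bijection** `Φ = wBar⁻¹ ∘ Fr` (helper15's `phi` at helper8's `wBar`). -/
abbrev PhiN : Place (kA A) (Ft M' A) ≃ Place (kA A) (Ft M' A) :=
  phi M' p A hA (Fermat.Agent.ES.W33.FrickeBar8.wBar M' p A hA hpM)

variable {n e M' p hpM hb hnM A hA}

/-- **THE OPEN LEAVES OF (hpts)**: a localised one-component chart with (PEEL-a) through every smooth
point of the special fibre (chart `tN` where the coordinate is finite, chart `tN⁻¹` at its poles). -/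
structure PtLeaves (H : RNLeaves n e M' p hpM hb hnM A hA) : Prop where
  loc₁0 : ∀ Q : Place (kA A) (Ft M' A),
    (nodesN n e M' p hpM hb hnM A hA).IsSmooth (Sum.inl Q) →
    0 ≤ Q.ord (tResV n e M' p hpM hb hnM A hA) →
    HasLoc₁ (S0N H.L) (rN n e M' p hpM hb hnM A hA) (Sum.inl (Sum.inl Q)) Q
  loc₁1 : ∀ Q : Place (kA A) (Ft M' A),
    (nodesN n e M' p hpM hb hnM A hA).IsSmooth (Sum.inl Q) →
    Q.ord (tResV n e M' p hpM hb hnM A hA) < 0 →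
    HasLoc₁ (S1N H.L) (rN n e M' p hpM hb hnM A hA) (Sum.inl (Sum.inl Q)) Q
  loc₂0 : ∀ Q₂ : Place (kA A) (Ft M' A),
    (nodesN n e M' p hpM hb hnM A hA).IsSmooth (Sum.inr Q₂) →
    0 ≤ Q₂.ord ((S0N H.L).ρ₂ (S0N H.L).sB) →
    HasLoc₂ (S0N H.L) (rN n e M' p hpM hb hnM A hA) (Sum.inl (Sum.inr Q₂)) Q₂
  loc₂1 : ∀ Q₂ : Place (kA A) (Ft M' A),
    (nodesN n e M' p hpM hb hnM A hA).IsSmooth (Sum.inr Q₂) →
    Q₂.ord ((S0N H.L).ρ₂ (S0N H.L).sB) < 0 →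
    HasLoc₂ (S1N H.L) (rN n e M' p hpM hb hnM A hA) (Sum.inl (Sum.inr Q₂)) Q₂

section Point

variable (H : RNLeaves n e M' p hpM hb hnM A hA)

/-- `ρ₁ tN = t̃`. -/
theorem S0N_ρ₁_s : (S0N H.L).ρ₁ (S0N H.L).sB = tResV n e M' p hpM hb hnM A hA := by
  obtain ⟨h1, e1⟩ := Fermat.Agent.ES.W33.FrickeBar8.rho1_tN M' p A hA hpM n e hb hnM
  rw [← e1]
  rfl

/-- `ρ₂ tN = V_p (wBar t̃)`. -/
theorem S0N_ρ₂_s : (S0N H.L).ρ₂ (S0N H.L).sB =
    vpFt M' p A hA (Fermat.Agent.ES.W33.FrickeBar8.wBar M' p A hA hpM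
      (tResV n e M' p hpM hb hnM A hA)) := by
  obtain ⟨h2, e2⟩ := Fermat.Agent.ES.W33.FrickeBar8.rho2_tN M' p A hA hpM n e hb hnM
  rw [← e2]
  rfl

/-- `ρ₁ tN⁻¹ = t̃⁻¹`. -/
theorem S1N_ρ₁_s : (S1N H.L).ρ₁ (S1N H.L).sB = (tResV n e M' p hpM hb hnM A hA)⁻¹ := by
  have h : (S1N H.L).ρ₁ (S1N H.L).sB = ((S0N H.L).ρ₁ (S0N H.L).sB)⁻¹ := H.T.ρ₁_s1_eq
  rw [h, S0N_ρ₁_s H]

/-- `ρ₂ tN⁻¹ = (ρ₂ tN)⁻¹`. -/
theorem S1N_ρ₂_s : (S1N H.L).ρ₂ (S1N H.L).sB = ((S0N H.L).ρ₂ (S0N H.L).sB)⁻¹ :=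
  H.T.ρ₂_s1_eq

/-- the order of `ρ₂ tN` at the partner of `Q`. -/
theorem ord_ρ₂_s_partner (Q : Place (kA A) (Ft M' A)) :
    ((PhiN M' p hpM A hA).symm Q).ord ((S0N H.L).ρ₂ (S0N H.L).sB) =
      p * Q.ord (tResV n e M' p hpM hb hnM A hA) := by
  have h := ord_phi M' p A hA (Fermat.Agent.ES.W33.FrickeBar8.wBar M' p A hA hpM)
    (tResV n e M' p hpM hb hnM A hA) 0 ((PhiN M' p hpM A hA).symm Q)
  rw [map_zero, sub_zero, sub_zero, Equiv.apply_symm_apply] at h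
  rw [S0N_ρ₂_s H, h]

end Point

section Rel

variable (H : RNLeaves n e M' p hpM hb hnM A hA)

/-- **`RelPoint` at a point `Q` of the first component with `t̃(Q) ≠ ∞`**: coordinate `x0 := tV`,
charts `tN`. -/
theorem relPoint₀ (Q : Place (kA A) (Ft M' A))
    (hQ0 : 0 ≤ Q.ord (tResV n e M' p hpM hb hnM A hA))
    (h₁ : HasLoc₁ (S0N H.L) (rN n e M' p hpM hb hnM A hA) (Sum.inl (Sum.inl Q)) Q)
    (h₂ : HasLoc₂ (S0N H.L) (rN n e M' p hpM hb hnM A hA)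
      (Sum.inl (Sum.inr ((PhiN M' p hpM A hA).symm Q))) ((PhiN M' p hpM A hA).symm Q)) :
    haveI := Fermat.Agent.RED.TOP.FbarFacts20.hasPrincipalDivisors_bar (M' * p)
    RelPoint (alphaN M' p) (finDivGood M') (degAlpha M' p) A (resA A)
      (O1 M' p A) (O2 M' p A) (rho1 M' p A) (rho2 M' p A)
      (rN n e M' p hpM hb hnM A hA) (rV n e M' p hpM hb hnM A hA) Q
      ((PhiN M' p hpM A hA).symm Q) := by
  haveI := Fermat.Agent.RED.TOP.FbarFacts20.hasPrincipalDivisors_bar (M' * p)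
  haveI := isAlgClosed_kA A
  obtain ⟨S₁, e₁, HL₁, he₁, hQe₁, hpeel₁⟩ := h₁
  obtain ⟨S₂, e₂, HL₂, he₂, hQe₂, hpeel₂⟩ := h₂
  have hred := Fermat.Agent.ES.W33.FrickeBar8.isRedOf_tV M' p A hA hpM n e hb hnM
  obtain ⟨h1, e1⟩ := Fermat.Agent.ES.W33.FrickeBar8.rho1_alpha M' p A hred
  obtain ⟨h2, e2⟩ := Fermat.Agent.ES.W33.FrickeBar8.rho2_alpha M' p A hA hpM hred
  have hΦ : phi M' p A hA (Fermat.Agent.ES.W33.FrickeBar8.wBar M' p A hA hpM)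
      ((PhiN M' p hpM A hA).symm Q) = Q := Equiv.apply_symm_apply _ _
  -- the chart facts
  have hs : Transcendental Qbar (S0N H.L).s := (hxN n e M' p hb hnM).transcendental
  have hsne : ∀ a : ↥A, (S0N H.L).s ≠ algebraMap Qbar ↥(Fbar (M' * p)) (a : Qbar) := fun a h0 =>
    hs (by rw [h0]; exact isAlgebraic_algebraMap _)
  have hrne₁ : ∀ c : kA A, (S0N H.L).ρ₁ (S0N H.L).sB ≠ algebraMap (kA A) (Ft M' A) c :=
    fun c h0 => H.tr₁ (by rw [h0]; exact isAlgebraic_algebraMap _)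
  have hrne₂ : ∀ c : kA A, (S0N H.L).ρ₂ (S0N H.L).sB ≠ algebraMap (kA A) (Ft M' A) c :=
    fun c h0 => H.tr₂ (by rw [h0]; exact isAlgebraic_algebraMap _)
  have hQs₁ : 0 ≤ Q.ord ((S0N H.L).ρ₁ (S0N H.L).sB) := by
    rw [S0N_ρ₁_s H]
    exact hQ0
  have hQs₂ : 0 ≤ ((PhiN M' p hpM A hA).symm Q).ord ((S0N H.L).ρ₂ (S0N H.L).sB) := by
    rw [ord_ρ₂_s_partner H Q]
    exact mul_nonneg (Int.natCast_nonneg p) hQ0
  -- the discs
  have hD₁ : ∀ P : Place Qbar ↥(Fbar (M' * p)),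
      rN n e M' p hpM hb hnM A hA P = Sum.inl (Sum.inl Q) →
      ∃ hP : (S0N H.L).InChart P, (S0N H.L).On₁ P hP ∧
        ∀ y, y ∈ Q.toValuationSubring ↔ y ∈ cSubring ((S0N H.L).chi P hP) (S0N H.L).ρ₁ :=
    fun P hP => disc₁_0 H.T Q hQs₁ P (by rw [H.T_r]; exact hP)
  have hD₂ : ∀ P : Place Qbar ↥(Fbar (M' * p)),
      rN n e M' p hpM hb hnM A hA P = Sum.inl (Sum.inr ((PhiN M' p hpM A hA).symm Q)) →
      ∃ hP : (S0N H.L).InChart P, (S0N H.L).On₂ P hP ∧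
        ∀ y, y ∈ ((PhiN M' p hpM A hA).symm Q).toValuationSubring ↔
          y ∈ cSubring ((S0N H.L).chi P hP) (S0N H.L).ρ₂ :=
    fun P hP => disc₂_0 H.T _ hQs₂ P (by rw [H.T_r]; exact hP)
  have hp₁ := HL₁.pointHyp Q (rN n e M' p hpM hb hnM A hA) (Sum.inl (Sum.inl Q)) hD₁
    (hxtV n e M' p hpM hb hnM A hA) (fun _ => Iff.rfl) (O1 M' p A) (rho1 M' p A)
    (fun b hb' => GN_le_O1 M' p A (H.L.h0 b hb')) (fun _ => rfl) (inv_mem_O1 M' p A)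
    hs hsne hrne₁ hQs₁ he₁ hQe₁ hpeel₁
  have hp₂ := HL₂.pointHyp ((PhiN M' p hpM A hA).symm Q) (rN n e M' p hpM hb hnM A hA)
    (Sum.inl (Sum.inr ((PhiN M' p hpM A hA).symm Q))) hD₂
    (hxtV n e M' p hpM hb hnM A hA) (fun _ => Iff.rfl) (O2 M' p A) (rho2 M' p A)
    (fun b hb' => GN_le_O2 M' p A (H.L.h0 b hb')) (fun _ => rfl) (inv_mem_O2 M' p A)
    hs hsne hrne₂ hQs₂ he₂ hQe₂ hpeel₂
  have hx₁ : (⟨alphaN M' p (tV n e M' hb hnM), h1⟩ : ↥(O1 M' p A)) =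
      ⟨(S0N H.L).s, GN_le_O1 M' p A (H.L.h0 _ (S0N H.L).s_mem)⟩ :=
    Subtype.ext (alphaN_tV n e M' p hb hnM)
  have hx₂ : (⟨alphaN M' p (tV n e M' hb hnM), h2⟩ : ↥(O2 M' p A)) =
      ⟨(S0N H.L).s, GN_le_O2 M' p A (H.L.h0 _ (S0N H.L).s_mem)⟩ :=
    Subtype.ext (alphaN_tV n e M' p hb hnM)
  refine ⟨tV n e M' hb hnM, h1, h2, S₁.B, S₂.B,
    fun a => Q.ord (tResV n e M' p hpM hb hnM A hA - algebraMap (kA A) (Ft M' A) (resA A a)),
    ?_, ?_, fun a => Fermat.Agent.ES.W33.GoodR2V27.hgood0 n e M' p hpM hb hnM A hA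
      (finDivGood M') Q a, fun a => ?_⟩
  · rw [hx₁]
    exact hp₁
  · rw [hx₂]
    exact hp₂
  · rw [e1, e2, ord_phi M' p A hA _ _ _ ((PhiN M' p hpM A hA).symm Q), hΦ, degAlpha_eq M' p hpM]
    exact le_of_eq (by ring)

/-- **`RelPoint` at a point `Q` of the first component with `t̃(Q) = ∞`**: coordinate `x0 := tV⁻¹`,
charts `tN⁻¹`. -/
theorem relPoint₁ (Q : Place (kA A) (Ft M' A))
    (hQ0 : Q.ord (tResV n e M' p hpM hb hnM A hA) < 0)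
    (h₁ : HasLoc₁ (S1N H.L) (rN n e M' p hpM hb hnM A hA) (Sum.inl (Sum.inl Q)) Q)
    (h₂ : HasLoc₂ (S1N H.L) (rN n e M' p hpM hb hnM A hA)
      (Sum.inl (Sum.inr ((PhiN M' p hpM A hA).symm Q))) ((PhiN M' p hpM A hA).symm Q)) :
    haveI := Fermat.Agent.RED.TOP.FbarFacts20.hasPrincipalDivisors_bar (M' * p)
    RelPoint (alphaN M' p) (finDivGood M') (degAlpha M' p) A (resA A)
      (O1 M' p A) (O2 M' p A) (rho1 M' p A) (rho2 M' p A)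
      (rN n e M' p hpM hb hnM A hA) (rV n e M' p hpM hb hnM A hA) Q
      ((PhiN M' p hpM A hA).symm Q) := by
  haveI := Fermat.Agent.RED.TOP.FbarFacts20.hasPrincipalDivisors_bar (M' * p)
  haveI := isAlgClosed_kA A
  obtain ⟨S₁, e₁, HL₁, he₁, hQe₁, hpeel₁⟩ := h₁
  obtain ⟨S₂, e₂, HL₂, he₂, hQe₂, hpeel₂⟩ := h₂
  have hred := (Fermat.Agent.ES.W33.FrickeBar8.isRedOf_tV M' p A hA hpM n e hb hnM).inv
    (Fermat.Agent.ES.W33.GoodR2V27.tResV_ne_zero n e M' p hpM hb hnM A hA)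
  obtain ⟨h1, e1⟩ := Fermat.Agent.ES.W33.FrickeBar8.rho1_alpha M' p A hred
  obtain ⟨h2, e2⟩ := Fermat.Agent.ES.W33.FrickeBar8.rho2_alpha M' p A hA hpM hred
  have hΦ : phi M' p A hA (Fermat.Agent.ES.W33.FrickeBar8.wBar M' p A hA hpM)
      ((PhiN M' p hpM A hA).symm Q) = Q := Equiv.apply_symm_apply _ _
  -- the chart facts
  have hs : Transcendental Qbar (S1N H.L).s := (IsGen.inv (hxN n e M' p hb hnM)).transcendental
  have hsne : ∀ a : ↥A, (S1N H.L).s ≠ algebraMap Qbar ↥(Fbar (M' * p)) (a : Qbar) := fun a h0 =>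
    hs (by rw [h0]; exact isAlgebraic_algebraMap _)
  have hrne₁ : ∀ c : kA A, (S1N H.L).ρ₁ (S1N H.L).sB ≠ algebraMap (kA A) (Ft M' A) c :=
    fun c h0 => H.T.tr₁1 (by
      have h0' : H.T.S1.ρ₁ H.T.S1.sB = algebraMap (kA A) (Ft M' A) c := h0
      rw [h0']; exact isAlgebraic_algebraMap _)
  have hrne₂ : ∀ c : kA A, (S1N H.L).ρ₂ (S1N H.L).sB ≠ algebraMap (kA A) (Ft M' A) c :=
    fun c h0 => H.T.tr₂1 (by
      have h0' : H.T.S1.ρ₂ H.T.S1.sB = algebraMap (kA A) (Ft M' A) c := h0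
      rw [h0']; exact isAlgebraic_algebraMap _)
  have hQs₁ : 0 ≤ Q.ord ((S1N H.L).ρ₁ (S1N H.L).sB) := by
    rw [S1N_ρ₁_s H, Place.ord_inv]
    omega
  have hQs₂ : 0 ≤ ((PhiN M' p hpM A hA).symm Q).ord ((S1N H.L).ρ₂ (S1N H.L).sB) := by
    rw [S1N_ρ₂_s H, Place.ord_inv, ord_ρ₂_s_partner H Q]
    have := mul_nonneg (Int.natCast_nonneg p) (le_of_lt (neg_pos.mpr hQ0))
    rw [mul_neg] at this
    exact this
  -- the discs
  have hD₁ : ∀ P : Place Qbar ↥(Fbar (M' * p)),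
      rN n e M' p hpM hb hnM A hA P = Sum.inl (Sum.inl Q) →
      ∃ hP : (S1N H.L).InChart P, (S1N H.L).On₁ P hP ∧
        ∀ y, y ∈ Q.toValuationSubring ↔ y ∈ cSubring ((S1N H.L).chi P hP) (S1N H.L).ρ₁ :=
    fun P hP => disc₁_1 H.T Q hQs₁ P (by rw [H.T_r]; exact hP)
  have hD₂ : ∀ P : Place Qbar ↥(Fbar (M' * p)),
      rN n e M' p hpM hb hnM A hA P = Sum.inl (Sum.inr ((PhiN M' p hpM A hA).symm Q)) →
      ∃ hP : (S1N H.L).InChart P, (S1N H.L).On₂ P hP ∧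
        ∀ y, y ∈ ((PhiN M' p hpM A hA).symm Q).toValuationSubring ↔
          y ∈ cSubring ((S1N H.L).chi P hP) (S1N H.L).ρ₂ :=
    fun P hP => disc₂_1 H.T _ hQs₂ P (by rw [H.T_r]; exact hP)
  have hp₁ := HL₁.pointHyp Q (rN n e M' p hpM hb hnM A hA) (Sum.inl (Sum.inl Q)) hD₁
    (hxtV n e M' p hpM hb hnM A hA) (fun _ => Iff.rfl) (O1 M' p A) (rho1 M' p A)
    (fun b hb' => GN_le_O1 M' p A (H.L.h1 b hb')) (fun _ => rfl) (inv_mem_O1 M' p A)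
    hs hsne hrne₁ hQs₁ he₁ hQe₁ hpeel₁
  have hp₂ := HL₂.pointHyp ((PhiN M' p hpM A hA).symm Q) (rN n e M' p hpM hb hnM A hA)
    (Sum.inl (Sum.inr ((PhiN M' p hpM A hA).symm Q))) hD₂
    (hxtV n e M' p hpM hb hnM A hA) (fun _ => Iff.rfl) (O2 M' p A) (rho2 M' p A)
    (fun b hb' => GN_le_O2 M' p A (H.L.h1 b hb')) (fun _ => rfl) (inv_mem_O2 M' p A)
    hs hsne hrne₂ hQs₂ he₂ hQe₂ hpeel₂
  have hxs : alphaN M' p (tV n e M' hb hnM)⁻¹ = (S1N H.L).s := by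
    rw [map_inv₀, alphaN_tV n e M' p hb hnM]
    rfl
  have hx₁ : (⟨alphaN M' p (tV n e M' hb hnM)⁻¹, h1⟩ : ↥(O1 M' p A)) =
      ⟨(S1N H.L).s, GN_le_O1 M' p A (H.L.h1 _ (S1N H.L).s_mem)⟩ := Subtype.ext hxs
  have hx₂ : (⟨alphaN M' p (tV n e M' hb hnM)⁻¹, h2⟩ : ↥(O2 M' p A)) =
      ⟨(S1N H.L).s, GN_le_O2 M' p A (H.L.h1 _ (S1N H.L).s_mem)⟩ := Subtype.ext hxs
  refine ⟨(tV n e M' hb hnM)⁻¹, h1, h2, S₁.B, S₂.B,
    fun a => Q.ord ((tResV n e M' p hpM hb hnM A hA)⁻¹ -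
      algebraMap (kA A) (Ft M' A) (resA A a)),
    ?_, ?_, fun a => Fermat.Agent.ES.W33.GoodR2V27.hgood1 n e M' p hpM hb hnM A hA
      (finDivGood M') Q a, fun a => ?_⟩
  · rw [hx₁]
    exact hp₁
  · rw [hx₂]
    exact hp₂
  · rw [e1, e2, ord_phi M' p A hA _ _ _ ((PhiN M' p hpM A hA).symm Q), hΦ, degAlpha_eq M' p hpM]
    exact le_of_eq (by ring)

/-- **(hpts)**: the per-point data of the relative count at every smooth point of the first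
component — the literal third component of `NodalCtxAsm26.CtxLeaves.rel` at `Φ := PhiN`. -/
theorem hpts_of (PL : PtLeaves H)
    (cN : ∀ j : Fin (sN n e M' p hpM hb hnM A hA),
      (nodesN n e M' p hpM hb hnM A hA).ν₁ j =
        PhiN M' p hpM A hA ((nodesN n e M' p hpM hb hnM A hA).ν₂ j)) :
    ∀ Q : Place (kA A) (Ft M' A), (nodesN n e M' p hpM hb hnM A hA).IsSmooth (Sum.inl Q) →
      haveI := Fermat.Agent.RED.TOP.FbarFacts20.hasPrincipalDivisors_bar (M' * p)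
      RelPoint (alphaN M' p) (finDivGood M') (degAlpha M' p) A (resA A)
        (O1 M' p A) (O2 M' p A) (rho1 M' p A) (rho2 M' p A)
        (rN n e M' p hpM hb hnM A hA) (rV n e M' p hpM hb hnM A hA) Q
        ((PhiN M' p hpM A hA).symm Q) := by
  intro Q hQ
  have hQ₂ := smooth_partner (nodesN n e M' p hpM hb hnM A hA) (PhiN M' p hpM A hA) cN hQ
  by_cases h0 : 0 ≤ Q.ord (tResV n e M' p hpM hb hnM A hA)
  · refine relPoint₀ H Q h0 (PL.loc₁0 Q hQ h0) (PL.loc₂0 _ hQ₂ ?_)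
    rw [ord_ρ₂_s_partner H Q]
    exact mul_nonneg (Int.natCast_nonneg p) h0
  · have h0' : Q.ord (tResV n e M' p hpM hb hnM A hA) < 0 := not_le.mp h0
    refine relPoint₁ H Q h0' (PL.loc₁1 Q hQ h0') (PL.loc₂1 _ hQ₂ ?_)
    rw [ord_ρ₂_s_partner H Q]
    exact mul_neg_of_pos_of_neg (Int.natCast_pos.mpr (Fact.out : p.Prime).pos) h0'

/-- **`CtxLeaves` from helper20's bundle, the localised charts, and the two compatibilities of `Φ`.** -/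
theorem ctxLeaves_of (PL : PtLeaves H)
    (c2 : ∀ (P : Place Qbar ↥(Fbar (M' * p))) (Q₂ : Place (kA A) (Ft M' A)),
      rN n e M' p hpM hb hnM A hA P = Sum.inl (Sum.inr Q₂) →
        rV n e M' p hpM hb hnM A hA (P.restrictAlong (alphaN M' p) (alphaN_isIntegral M' p)) =
          PhiN M' p hpM A hA Q₂)
    (cN : ∀ j : Fin (sN n e M' p hpM hb hnM A hA),
      (nodesN n e M' p hpM hb hnM A hA).ν₁ j =
        PhiN M' p hpM A hA ((nodesN n e M' p hpM hb hnM A hA).ν₂ j)) :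
    CtxLeaves n e M' p hpM hb hnM A hA :=
  ⟨H, PhiN M' p hpM A hA, c2, cN, hpts_of H PL cN⟩

end Rel

end Fermat.Agent.ES.W33.R2PtsN22
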