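/-
Programme W (S33), chapter (B3′)/(R2), helper8: **EXISTENCE OF THE LOCALISING ELEMENT `e₀` AT EVERY
SMOOTH POINT** of the nodal fibre (input of helper22's `R2PtsN22.PtLeaves` / `HasLoc_i`).

For a place `Q` of a component with `ρ_i (chart ring) ⊆ O_Q` which is NOT a node place there is
`e₀` in the chart ring vanishing identically on the OTHER component, with `ρ_i e₀` a unit at `Q`.

PROOF.  Otherwise `𝔫 := {b | ρ_i b ∈ 𝔪_Q}` contains `ker ρ₁ + ker ρ₂`; it is a maximal ideal over `𝔪_A`,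
so helper14's `CentreLiftQ14.exists_place_of_maximal` gives a place `P` centred at `𝔫`: its centre
lies on both components, so `P` reduces to a node `j`, and the local ring of the component at the
centre, `cSubring χ_P ρ_i = O_{ν_i j}` (`R1Leaves` / `node₂`), is contained in `O_Q`; discrete
valuation rings being maximal, `ν_i j = Q`.

* `exists_place_of_point` (generic) : the place centred at the point `Q` of a component;
* **`exists_sep₁0`, `exists_sep₁1`, `exists_sep₂0`, `exists_sep₂1`** : the four instances at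
  `S0N`/`S1N`, `nodesN`, from `H : RNLeaves n e …` (`exists_sep₁1'`, `exists_sep₂1'` : chart 1 from
  `ord_Q (ρ_i tN) < 0`).
-/
import Mathlib
import Fermat.Agent.ES.RED.ChartFacts9
import Fermat.Agent.ES.W33.NodeCountPos14

set_option autoImplicit false
set_option linter.unusedSectionVars false
set_option linter.style.haveILetI false
set_option synthInstance.maxHeartbeats 400000
set_option maxHeartbeats 1000000

open HahnSeries ModularCurve AlgebraicCurve Polynomial IntermediateField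

noncomputable section

namespace Fermat.Agent.ES.W33.SepElemN8

open Fermat.Agent.RED.Interface4 Fermat.Agent.RED.BASE.Interface12 Fermat.Agent.RED.BASE.Hauptmodul12
  Fermat.Agent.RED.PUR.ChartGeneric22
  Fermat.Agent.ES.RED.Contract8 Fermat.Agent.ES.RED.ModelInst4 Fermat.Agent.ES.RED.PlaceValue13
  Fermat.Agent.X0 Fermat.Agent.X0.FF
  Fermat.Agent.ES.V19.InstNames3 Fermat.Agent.ES.W33.NodalDefs3 Fermat.Agent.ES.W33.XiIfaceN29
open Fermat.Agent.ES.W33.CentreN20 Fermat.Agent.ES.W33.NodalChart20 Fermat.Agent.ES.W33.TwoChartsN20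
  Fermat.Agent.ES.W33.TwoChartsNInst20 Fermat.Agent.ES.W33.TwoChartsNRN20
  Fermat.Agent.ES.W33.NodalCtxRN20
  Fermat.Agent.ES.W33.CentreLiftQ14 Fermat.Agent.ES.W33.NodeCountPos14

/-! ### The place centred at a point of a component -/

section Generic

variable {L : Type*} [Field L] [IsAlgClosed L] {A : ValuationSubring L}
variable {F : Type*} [Field F] [Algebra L F] {x : F} {hx : IsGen L x}
variable {Ft₁ Ft₂ : Type*} [Field Ft₁] [Algebra (kA A) Ft₁] [Field Ft₂] [Algebra (kA A) Ft₂]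

/-- **the place centred at a point of a component.**  `ρ : B → Ft` a component of the special fibre
(compatible with the constants), `Q` a point of it at which all of `ρ B` is regular: some place `P`
of the chart has its centre at `Q`, i.e. every `b` with `b(P) ∈ Aˣ` has `ρ b` a unit at `Q`. -/
theorem exists_place_of_point [IsAlgClosed (kA A)] (S : NodalChart A hx Ft₁ Ft₂)
    (hsx : IsGen L S.s) [Algebra.IsSeparable L⟮S.s⟯ F] (hint : (polyHom S).IsIntegral)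
    {Ft : Type*} [Field Ft] [Algebra (kA A) Ft] {xt : Ft} (hxt : IsGen (kA A) xt)
    (ρ : ↥S.B →+* Ft) (hρc : ∀ a : ↥A, ρ (S.const a) = algebraMap (kA A) Ft (resA A a))
    (Q : Place (kA A) Ft) (hQ : ∀ b : ↥S.B, 0 ≤ Q.ord (ρ b)) :
    ∃ (P : Place L F) (h0 : S.InChart P),
      ∀ b : ↥S.B, S.chi P h0 b ≠ 0 → ρ b ≠ 0 ∧ Q.ord (ρ b) = 0 := by
  classical
  have hmem : ∀ b : ↥S.B, ρ b ∈ Q.toValuationSubring := fun b => FF.mem_of_ord_nonneg Q (hQ b)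
  let φ : ↥S.B →+* ↥Q.toValuationSubring := ρ.codRestrict Q.toValuationSubring hmem
  let ψ : ↥S.B →+* kA A := ((valueHom hxt Q : ↥Q.toValuationSubring →+* kA A)).comp φ
  have hψc : ∀ a : ↥A, ψ (S.const a) = resA A a := by
    intro a
    have h1 : φ (S.const a) = algebraMap (kA A) ↥Q.toValuationSubring (resA A a) :=
      Subtype.ext (hρc a)
    show valueHom hxt Q (φ (S.const a)) = resA A a
    rw [h1]
    exact (valueHom hxt Q).commutes _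
  have hsurj : Function.Surjective ψ := by
    intro c
    obtain ⟨a, rfl⟩ := NodalChart.exists_const (A := A) c
    exact ⟨S.const a, hψc a⟩
  haveI h𝔫 : (RingHom.ker ψ).IsMaximal := RingHom.ker_isMaximal_of_surjective ψ hsurj
  have hA𝔫 : ∀ a : ↥A, a ∈ IsLocalRing.maximalIdeal ↥A → S.const a ∈ RingHom.ker ψ := by
    intro a ha
    rw [RingHom.mem_ker, hψc]
    exact (IsLocalRing.residue_eq_zero_iff a).mpr ha
  obtain ⟨P, h0, hP⟩ := exists_place_of_maximal S hsx hint (RingHom.ker ψ) hA𝔫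
  refine ⟨P, h0, fun b hb => ?_⟩
  have hψb : ψ b ≠ 0 := fun h => hb (hP b (RingHom.mem_ker.mpr h))
  have h2 : ¬ ((ρ b = 0) ∨ 0 < Q.ord (ρ b)) := by
    intro h
    apply hψb
    show valueHom hxt Q (φ b) = 0
    rw [valueHom_eq_zero_iff_ord]
    exact h
  rw [not_or] at h2
  exact ⟨h2.1, le_antisymm (not_lt.mp h2.2) (hQ b)⟩

/-- all of `ρ B` is regular at `Q` as soon as `ρ s` is (main's (G1~)). -/
theorem ord_nonneg (S : NodalChart A hx Ft₁ Ft₂)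
    (hchart : ∀ z : F, z ∈ S.B ↔ z ∈ chart ↥A S.s)
    {Ft : Type*} [Field Ft] [Algebra (kA A) Ft]
    (ρ : ↥S.B →+* Ft) (hρc : ∀ a : ↥A, ρ (S.const a) = algebraMap (kA A) Ft (resA A a))
    (Q : Place (kA A) Ft) (hQs : 0 ≤ Q.ord (ρ S.sB)) (b : ↥S.B) : 0 ≤ Q.ord (ρ b) := by
  refine Fermat.Agent.ES.RED.ChartFacts9.ord_red_nonneg_of_mem_chart A (resA A) S.B ρ S.sB
    ?_ ?_ Q hQs b ((hchart _).1 b.2)
  · intro c hc
    exact (hchart c).2 (adjoin_le_chart S.s hc)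
  · intro a h
    exact hρc a

/-- **a point of a component whose local ring contains the local ring of the component at a centre
is the point at that centre** (discrete valuation rings are maximal). -/
theorem place_eq_of_centre {k : Type*} [Field k] {B : Type*} [CommRing B] {Ft : Type*} [Field Ft]
    [Algebra k Ft] {χ : B →+* k} {ρ : B →+* Ft} (X Q : Place k Ft)
    (hX : ∀ y, y ∈ X.toValuationSubring ↔ y ∈ cSubring χ ρ)
    (hQ : ∀ b : B, 0 ≤ Q.ord (ρ b))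
    (hP : ∀ b : B, χ b ≠ 0 → ρ b ≠ 0 ∧ Q.ord (ρ b) = 0) : Q = X := by
  have hle : X.toValuationSubring ≤ Q.toValuationSubring := by
    intro y hy
    obtain ⟨a, d, hd, hyd⟩ := (hX y).1 hy
    obtain ⟨hd0, hdQ⟩ := hP d hd
    by_cases hy0 : y = 0
    · rw [hy0]; exact zero_mem _
    apply FF.mem_of_ord_nonneg
    have h1 : Q.ord (y * ρ d) = Q.ord y + Q.ord (ρ d) := Q.ord_mul hy0 hd0
    rw [hyd, hdQ, add_zero] at h1
    rw [← h1]
    exact hQ a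
  have h := Fermat.Agent.ES.HECKE.FundIdentity19.valuationSubring_eq_of_le X Q.toValuationSubring
    hle Q.ne_top'
  exact Place.ext h

end Generic

/-! ### The instance -/

section Inst

variable {n e M' : ℕ} [NeZero n] [NeZero M'] {p : ℕ} [Fact p.Prime] {hpM : ¬ p ∣ M'}
  {hb : BaseHyp n e} {hnM : n ∣ M'} {A : ValuationSubring Qbar} {hA : A.LiesOverPrime p}

attribute [local instance 5000] HahnSeries.powerSeriesAlgebra SubalgebraClass.toAlgebra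

variable (H : RNLeaves n e M' p hpM hb hnM A hA)

/-- **branch 1, chart 0.** -/
theorem exists_sep₁0 (Q : Place (kA A) (Ft M' A))
    (hs : (nodesN n e M' p hpM hb hnM A hA).IsSmooth (Sum.inl Q))
    (hQs : 0 ≤ Q.ord ((S0N H.L).ρ₁ (S0N H.L).sB)) :
    ∃ e₀ : ↥(S0N H.L).B, (S0N H.L).ρ₂ e₀ = 0 ∧ (S0N H.L).ρ₁ e₀ ≠ 0 ∧
      Q.ord ((S0N H.L).ρ₁ e₀) = 0 := by
  haveI : IsAlgClosed (kA A) := Fermat.Agent.ES.V19.InstNames3.isAlgClosed_kA A
  have hx : IsGen Qbar (tN n e M' p hb hnM) := hxN n e M' p hb hnM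
  haveI : FiniteDimensional Qbar⟮tN n e M' p hb hnM⟯ ↥(Fbar (M' * p)) := hx.finite
  haveI : Algebra.IsSeparable Qbar⟮(S0N H.L).s⟯ ↥(Fbar (M' * p)) :=
    inferInstanceAs (Algebra.IsSeparable Qbar⟮tN n e M' p hb hnM⟯ ↥(Fbar (M' * p)))
  by_contra hcon
  have hQ : ∀ b, 0 ≤ Q.ord ((S0N H.L).ρ₁ b) :=
    ord_nonneg (S0N H.L) (fun z => Iff.rfl) _ (S0N H.L).ρ₁_const Q hQs
  obtain ⟨P, h0, hP⟩ := exists_place_of_point (S0N H.L) hx
    (polyHom_isIntegral (S0N H.L) (fun b hb => hb)) (hxtV n e M' p hpM hb hnM A hA)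
    (S0N H.L).ρ₁ (S0N H.L).ρ₁_const Q hQ
  have hon₁ : (S0N H.L).On₁ P h0 := fun b hb => by_contra fun h => (hP b h).1 hb
  have hon₂ : (S0N H.L).On₂ P h0 := fun b hb => by_contra fun h => hcon ⟨b, hb, (hP b h).1, (hP b h).2⟩
  obtain ⟨j, hj⟩ := exists_nodeFin_eq H.placeLeaves H.R h0 hon₁ hon₂
  have hν : (nodesN n e M' p hpM hb hnM A hA).ν₁ j = r1 n e M' p hpM hb hnM A hA P :=
    congrArg Prod.fst hj
  apply hs j
  rw [hν]
  exact place_eq_of_centre _ Q (H.R.r1₀ P h0 hon₁) hQ hP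

/-- **branch 1, chart 1.** -/
theorem exists_sep₁1 (Q : Place (kA A) (Ft M' A))
    (hs : (nodesN n e M' p hpM hb hnM A hA).IsSmooth (Sum.inl Q))
    (hQs : 0 ≤ Q.ord ((S1N H.L).ρ₁ (S1N H.L).sB)) :
    ∃ e₀ : ↥(S1N H.L).B, (S1N H.L).ρ₂ e₀ = 0 ∧ (S1N H.L).ρ₁ e₀ ≠ 0 ∧
      Q.ord ((S1N H.L).ρ₁ e₀) = 0 := by
  haveI : IsAlgClosed (kA A) := Fermat.Agent.ES.V19.InstNames3.isAlgClosed_kA A
  have hx : IsGen Qbar (tN n e M' p hb hnM) := hxN n e M' p hb hnM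
  have hx' : IsGen Qbar (tN n e M' p hb hnM)⁻¹ := IsGen.inv hx
  haveI : FiniteDimensional Qbar⟮(tN n e M' p hb hnM)⁻¹⟯ ↥(Fbar (M' * p)) := hx'.finite
  haveI : Algebra.IsSeparable Qbar⟮(S1N H.L).s⟯ ↥(Fbar (M' * p)) :=
    inferInstanceAs (Algebra.IsSeparable Qbar⟮(tN n e M' p hb hnM)⁻¹⟯ ↥(Fbar (M' * p)))
  by_contra hcon
  have hQ : ∀ b, 0 ≤ Q.ord ((S1N H.L).ρ₁ b) :=
    ord_nonneg (S1N H.L) (fun z => Iff.rfl) _ (S1N H.L).ρ₁_const Q hQs
  obtain ⟨P, h1c, hP⟩ := exists_place_of_point (S1N H.L) hx'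
    (polyHom_isIntegral (S1N H.L) (fun b hb => hb)) (hxtV n e M' p hpM hb hnM A hA)
    (S1N H.L).ρ₁ (S1N H.L).ρ₁_const Q hQ
  have hon₁ : (S1N H.L).On₁ P h1c := fun b hb => by_contra fun h => (hP b h).1 hb
  have hon₂ : (S1N H.L).On₂ P h1c :=
    fun b hb => by_contra fun h => hcon ⟨b, hb, (hP b h).1, (hP b h).2⟩
  by_cases h0 : (S0N H.L).InChart P
  · have hon₁0 : (S0N H.L).On₁ P h0 := (H.T.on₁_iff P h0 h1c).mpr hon₁
    have hon₂0 : (S0N H.L).On₂ P h0 := (H.T.on₂_iff P h0 h1c).mpr hon₂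
    obtain ⟨j, hj⟩ := exists_nodeFin_eq H.placeLeaves H.R h0 hon₁0 hon₂0
    have hν : (nodesN n e M' p hpM hb hnM A hA).ν₁ j = r1 n e M' p hpM hb hnM A hA P :=
      congrArg Prod.fst hj
    apply hs j
    rw [hν]
    exact place_eq_of_centre _ Q (H.R.r1₁ P h1c hon₁) hQ hP
  · exact H.no_node1 P h1c h0 ⟨hon₁, hon₂⟩

/-- **branch 2, chart 0.** -/
theorem exists_sep₂0 (Q : Place (kA A) (Ft M' A))
    (hs : (nodesN n e M' p hpM hb hnM A hA).IsSmooth (Sum.inr Q))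
    (hQs : 0 ≤ Q.ord ((S0N H.L).ρ₂ (S0N H.L).sB)) :
    ∃ e₀ : ↥(S0N H.L).B, (S0N H.L).ρ₁ e₀ = 0 ∧ (S0N H.L).ρ₂ e₀ ≠ 0 ∧
      Q.ord ((S0N H.L).ρ₂ e₀) = 0 := by
  haveI : IsAlgClosed (kA A) := Fermat.Agent.ES.V19.InstNames3.isAlgClosed_kA A
  have hx : IsGen Qbar (tN n e M' p hb hnM) := hxN n e M' p hb hnM
  haveI : FiniteDimensional Qbar⟮tN n e M' p hb hnM⟯ ↥(Fbar (M' * p)) := hx.finite
  haveI : Algebra.IsSeparable Qbar⟮(S0N H.L).s⟯ ↥(Fbar (M' * p)) :=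
    inferInstanceAs (Algebra.IsSeparable Qbar⟮tN n e M' p hb hnM⟯ ↥(Fbar (M' * p)))
  by_contra hcon
  have hQ : ∀ b, 0 ≤ Q.ord ((S0N H.L).ρ₂ b) :=
    ord_nonneg (S0N H.L) (fun z => Iff.rfl) _ (S0N H.L).ρ₂_const Q hQs
  obtain ⟨P, h0, hP⟩ := exists_place_of_point (S0N H.L) hx
    (polyHom_isIntegral (S0N H.L) (fun b hb => hb)) (hxtV n e M' p hpM hb hnM A hA)
    (S0N H.L).ρ₂ (S0N H.L).ρ₂_const Q hQ
  have hon₂ : (S0N H.L).On₂ P h0 := fun b hb => by_contra fun h => (hP b h).1 hb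
  have hon₁ : (S0N H.L).On₁ P h0 :=
    fun b hb => by_contra fun h => hcon ⟨b, hb, (hP b h).1, (hP b h).2⟩
  obtain ⟨j, hj⟩ := exists_nodeFin_eq H.placeLeaves H.R h0 hon₁ hon₂
  obtain ⟨X, hX⟩ := H.node₂ P h0 hon₁ hon₂
  have hR2 : IsR2 n e M' p hb hnM A P X := (isR2_iff₀ H.L h0 X).2 hX
  have hν : (nodesN n e M' p hpM hb hnM A hA).ν₂ j = X := by
    have h1 : (nodesN n e M' p hpM hb hnM A hA).ν₂ j = r2 n e M' p hpM hb hnM A hA P :=
      congrArg Prod.snd hj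
    rw [h1, r2_eq n e M' p hpM hb hnM A hA hR2]
  apply hs j
  rw [hν]
  exact place_eq_of_centre X Q hX hQ hP

/-- **branch 2, chart 1.** -/
theorem exists_sep₂1 (Q : Place (kA A) (Ft M' A))
    (hs : (nodesN n e M' p hpM hb hnM A hA).IsSmooth (Sum.inr Q))
    (hQs : 0 ≤ Q.ord ((S1N H.L).ρ₂ (S1N H.L).sB)) :
    ∃ e₀ : ↥(S1N H.L).B, (S1N H.L).ρ₁ e₀ = 0 ∧ (S1N H.L).ρ₂ e₀ ≠ 0 ∧
      Q.ord ((S1N H.L).ρ₂ e₀) = 0 := by
  haveI : IsAlgClosed (kA A) := Fermat.Agent.ES.V19.InstNames3.isAlgClosed_kA A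
  have hx : IsGen Qbar (tN n e M' p hb hnM) := hxN n e M' p hb hnM
  have hx' : IsGen Qbar (tN n e M' p hb hnM)⁻¹ := IsGen.inv hx
  haveI : FiniteDimensional Qbar⟮(tN n e M' p hb hnM)⁻¹⟯ ↥(Fbar (M' * p)) := hx'.finite
  haveI : Algebra.IsSeparable Qbar⟮(S1N H.L).s⟯ ↥(Fbar (M' * p)) :=
    inferInstanceAs (Algebra.IsSeparable Qbar⟮(tN n e M' p hb hnM)⁻¹⟯ ↥(Fbar (M' * p)))
  by_contra hcon
  have hQ : ∀ b, 0 ≤ Q.ord ((S1N H.L).ρ₂ b) :=
    ord_nonneg (S1N H.L) (fun z => Iff.rfl) _ (S1N H.L).ρ₂_const Q hQs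
  obtain ⟨P, h1c, hP⟩ := exists_place_of_point (S1N H.L) hx'
    (polyHom_isIntegral (S1N H.L) (fun b hb => hb)) (hxtV n e M' p hpM hb hnM A hA)
    (S1N H.L).ρ₂ (S1N H.L).ρ₂_const Q hQ
  have hon₂ : (S1N H.L).On₂ P h1c := fun b hb => by_contra fun h => (hP b h).1 hb
  have hon₁ : (S1N H.L).On₁ P h1c :=
    fun b hb => by_contra fun h => hcon ⟨b, hb, (hP b h).1, (hP b h).2⟩
  by_cases h0 : (S0N H.L).InChart P
  · have hon₁0 : (S0N H.L).On₁ P h0 := (H.T.on₁_iff P h0 h1c).mpr hon₁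
    have hon₂0 : (S0N H.L).On₂ P h0 := (H.T.on₂_iff P h0 h1c).mpr hon₂
    obtain ⟨j, hj⟩ := exists_nodeFin_eq H.placeLeaves H.R h0 hon₁0 hon₂0
    obtain ⟨X, hX⟩ := H.node₂ P h0 hon₁0 hon₂0
    have hR2 : IsR2 n e M' p hb hnM A P X := (isR2_iff₀ H.L h0 X).2 hX
    have hν : (nodesN n e M' p hpM hb hnM A hA).ν₂ j = X := by
      have h1 : (nodesN n e M' p hpM hb hnM A hA).ν₂ j = r2 n e M' p hpM hb hnM A hA P :=
        congrArg Prod.snd hj
      rw [h1, r2_eq n e M' p hpM hb hnM A hA hR2]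
    have hX' : ∀ y, y ∈ X.toValuationSubring ↔
        y ∈ cSubring ((S1N H.L).chi P h1c) (S1N H.L).ρ₂ := by
      intro y
      rw [hX y]
      have := H.T.cSubring₂_eq P h0 h1c
      exact ⟨fun h => this ▸ h, fun h => this.symm ▸ h⟩
    apply hs j
    rw [hν]
    exact place_eq_of_centre X Q hX' hQ hP
  · exact H.no_node1 P h1c h0 ⟨hon₁, hon₂⟩

/-- chart 1 from a pole of the chart-0 coordinate, branch 1. -/
theorem exists_sep₁1' (Q : Place (kA A) (Ft M' A))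
    (hs : (nodesN n e M' p hpM hb hnM A hA).IsSmooth (Sum.inl Q))
    (hQs : Q.ord ((S0N H.L).ρ₁ (S0N H.L).sB) < 0) :
    ∃ e₀ : ↥(S1N H.L).B, (S1N H.L).ρ₂ e₀ = 0 ∧ (S1N H.L).ρ₁ e₀ ≠ 0 ∧
      Q.ord ((S1N H.L).ρ₁ e₀) = 0 := by
  refine exists_sep₁1 H Q hs ?_
  have h1 : (S1N H.L).ρ₁ (S1N H.L).sB = ((S0N H.L).ρ₁ (S0N H.L).sB)⁻¹ := H.T.ρ₁_s1_eq
  rw [h1, Place.ord_inv]
  omega

/-- chart 1 from a pole of the chart-0 coordinate, branch 2. -/
theorem exists_sep₂1' (Q : Place (kA A) (Ft M' A))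
    (hs : (nodesN n e M' p hpM hb hnM A hA).IsSmooth (Sum.inr Q))
    (hQs : Q.ord ((S0N H.L).ρ₂ (S0N H.L).sB) < 0) :
    ∃ e₀ : ↥(S1N H.L).B, (S1N H.L).ρ₁ e₀ = 0 ∧ (S1N H.L).ρ₂ e₀ ≠ 0 ∧
      Q.ord ((S1N H.L).ρ₂ e₀) = 0 := by
  refine exists_sep₂1 H Q hs ?_
  have h1 : (S1N H.L).ρ₂ (S1N H.L).sB = ((S0N H.L).ρ₂ (S0N H.L).sB)⁻¹ := H.T.ρ₂_s1_eq
  rw [h1, Place.ord_inv]
  omega

end Inst

end Fermat.Agent.ES.W33.SepElemN8
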