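/-
Programme W (S33), chapter (B3′) "reduction of places on the nodal model" — helper22:
**THE INSTANCE OF `R2PtsN22.PtLeaves`: a localised one-component chart with (PEEL-a) THROUGH EVERY
SMOOTH POINT of the nodal fibre**, hence `NodalCtxAsm26.CtxLeaves` from (c2), (cN) alone, with NO
other hypothesis left at `(n, e) = (4, 8)`, `p` odd.

Pure assembly (no mathematics of its own) of
* helper8's `SepElemN8.exists_sep_i j` : the localising element `e₀` at a smooth point `Q`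
  (`ρ_other e₀ = 0`, `ρ_i e₀ ≠ 0`, `ord_Q (ρ_i e₀) = 0`);
* helper9's `LocSatInstN9.hsat_i_of` (`e₀`-saturation) and `locChart_i` (the localised chart);
* helper7's `LocPeelN7.peelA_i j` : (PEEL-a) at EVERY place of that chart, from Programme N's
  level-`K` nodal models `hMI : ModelInput n e p M' A`;
* my `R2PtsN22.hasLoc_i_of_locChart`, `R2PtsN22.ctxLeaves_of`.

EXPORTS
* **`ptLeaves_of H hp2 hM hMI : R2PtsN22.PtLeaves H`**;
* **`ptLeaves_four hp2 H : R2PtsN22.PtLeaves H`** at `(4, 8)` (`hMI := ChartGN16.modelInput_four`);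
* **`ctxLeaves_of H hp2 hM hMI c2 cN`**, **`ctxLeaves_four hp2 H c2 cN : NodalCtxAsm26.CtxLeaves …`**
  (c2, cN in the literal of `R2PtsN22.ctxLeaves_of`, i.e. helper15's `BranchTwoInst15.c2N`, `cNN`).
-/
import Mathlib
import Fermat.Agent.ES.W33.R2PtsN22
import Fermat.Agent.ES.W33.SepElemN8
import Fermat.Agent.ES.W33.LocPeelN7

set_option autoImplicit false
set_option linter.unusedSectionVars false
set_option linter.style.haveILetI false
set_option synthInstance.maxHeartbeats 400000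

open HahnSeries ModularCurve AlgebraicCurve
open scoped MatrixGroups

noncomputable section

namespace Fermat.Agent.ES.W33.PtLeavesInstN22

open Fermat.Agent.RED.Interface4 Fermat.Agent.RED.BASE.Interface12 Fermat.Agent.RED.BASE.Hauptmodul12
  Fermat.Agent.RED.PUR.ChartGeneric22
  Fermat.Agent.ES.RED.Contract8 Fermat.Agent.ES.RED.ModelInst4
  Fermat.Agent.ES.RED.PlaceValue13 Fermat.Agent.ES.RED.R2Abstract14
  Fermat.Agent.X0 Fermat.Agent.X0.FF
  Fermat.Agent.ES.V19.GaussFrac15 Fermat.Agent.ES.V19.InstNames3 Fermat.Agent.ES.W33.XiIfaceN29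
  Fermat.Agent.ES.N34.ModelInput13
  Fermat.Agent.ES.W33.NodalDefs3 Fermat.Agent.ES.W33.ValAt29
open Fermat.Agent.ES.W33.NodalChart20 Fermat.Agent.ES.W33.TwoChartsN20
  Fermat.Agent.ES.W33.TwoChartsNInst20 Fermat.Agent.ES.W33.TwoChartsNRN20
  Fermat.Agent.ES.W33.NodalCtxRN20 Fermat.Agent.ES.W33.NodalCtxAsm26
  Fermat.Agent.ES.W33.ContractP3
  Fermat.Agent.ES.W33.LocChartGenN9 Fermat.Agent.ES.W33.LocSatInstN9
  Fermat.Agent.ES.W33.LocPeelN7 Fermat.Agent.ES.W33.SepElemN8 Fermat.Agent.ES.W33.R2PtsN22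

attribute [local instance 5000] HahnSeries.powerSeriesAlgebra SubalgebraClass.toAlgebra

/-! ### the instance -/

section Inst

variable {n e M' : ℕ} [NeZero n] [NeZero M'] {p : ℕ} [Fact p.Prime] {hpM : ¬ p ∣ M'}
  {hb : BaseHyp n e} {hnM : n ∣ M'} {A : ValuationSubring Qbar} {hA : A.LiesOverPrime p}

variable (H : RNLeaves n e M' p hpM hb hnM A hA) (hp2 : p ≠ 2) (hM : 4 ∣ M')
  (hMI : ModelInput n e p M' A)

include hp2 hM hMI in
/-- **a localised one-component chart with (PEEL-a) through every smooth point of the nodal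
fibre.** -/
theorem ptLeaves_of : PtLeaves H where
  loc₁0 := fun Q hQsm hQs => by
    have hQs' : 0 ≤ Q.ord ((S0N H.L).ρ₁ (S0N H.L).sB) := by
      rw [S0N_ρ₁_s H]
      exact hQs
    obtain ⟨e₀, he', he, hQe⟩ := exists_sep₁0 H Q hQsm hQs'
    exact hasLoc₁_of_locChart (S0N H.L) e₀ _ _ Q he he'
      (hsat₁_of (S0N H.L) H.L.h0 (fun _ => rfl) (fun _ => rfl) hp2 hpM hM hA e₀ he he') hQe
      (fun P hP _ => peelA₁0 H.L hp2 hpM hM hA hMI e₀ he he' P hP)
  loc₁1 := fun Q hQsm hQs => by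
    have hQs' : Q.ord ((S0N H.L).ρ₁ (S0N H.L).sB) < 0 := by
      rw [S0N_ρ₁_s H]
      exact hQs
    obtain ⟨e₀, he', he, hQe⟩ := exists_sep₁1' H Q hQsm hQs'
    exact hasLoc₁_of_locChart (S1N H.L) e₀ _ _ Q he he'
      (hsat₁_of (S1N H.L) H.L.h1 (fun _ => rfl) (fun _ => rfl) hp2 hpM hM hA e₀ he he') hQe
      (fun P hP _ => peelA₁1 H.L hp2 hpM hM hA hMI e₀ he he' P hP)
  loc₂0 := fun Q hQsm hQs => by
    obtain ⟨e₀, he', he, hQe⟩ := exists_sep₂0 H Q hQsm hQs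
    exact hasLoc₂_of_locChart (S0N H.L) e₀ _ _ Q he he'
      (hsat₂_of (S0N H.L) H.L.h0 (fun _ => rfl) (fun _ => rfl) hp2 hpM hM hA e₀ he he') hQe
      (fun P hP _ => peelA₂0 H.L hp2 hpM hM hA hMI e₀ he he' P hP)
  loc₂1 := fun Q hQsm hQs => by
    obtain ⟨e₀, he', he, hQe⟩ := exists_sep₂1' H Q hQsm hQs
    exact hasLoc₂_of_locChart (S1N H.L) e₀ _ _ Q he he'
      (hsat₂_of (S1N H.L) H.L.h1 (fun _ => rfl) (fun _ => rfl) hp2 hpM hM hA e₀ he he') hQe
      (fun P hP _ => peelA₂1 H.L hp2 hpM hM hA hMI e₀ he he' P hP)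

include H hp2 hM hMI in
/-- **`CtxLeaves` from the bundle `RNLeaves`, the level-`K` nodal models, (c2) and (cN).** -/
theorem ctxLeaves_of
    (c2 : ∀ (P : Place Qbar ↥(Fbar (M' * p))) (Q₂ : Place (kA A) (Ft M' A)),
      rN n e M' p hpM hb hnM A hA P = Sum.inl (Sum.inr Q₂) →
        rV n e M' p hpM hb hnM A hA (P.restrictAlong (alphaN M' p) (alphaN_isIntegral M' p)) =
          PhiN M' p hpM A hA Q₂)
    (cN : ∀ j : Fin (sN n e M' p hpM hb hnM A hA),
      (nodesN n e M' p hpM hb hnM A hA).ν₁ j =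
        PhiN M' p hpM A hA ((nodesN n e M' p hpM hb hnM A hA).ν₂ j)) :
    CtxLeaves n e M' p hpM hb hnM A hA :=
  R2PtsN22.ctxLeaves_of H (ptLeaves_of H hp2 hM hMI) c2 cN

end Inst

/-! ### `(n, e) = (4, 8)` -/

section Four

variable {M' : ℕ} [NeZero M'] {p : ℕ} [Fact p.Prime] {hpM : ¬ p ∣ M'}
  {h4M : 4 ∣ M'} {A : ValuationSubring Qbar} {hA : A.LiesOverPrime p}

/-- **`PtLeaves` at `(4, 8)`, `p` odd: NO hypothesis left.** -/
theorem ptLeaves_four (hp2 : p ≠ 2) (H : RNLeaves 4 8 M' p hpM baseHyp_four h4M A hA) :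
    PtLeaves H :=
  ptLeaves_of H hp2 h4M
    (Fermat.Agent.ES.W33.ChartGN16.modelInput_four M' p hpM h4M A hA hp2)

/-- **`CtxLeaves` at `(4, 8)`, `p` odd, from (c2) and (cN).** -/
theorem ctxLeaves_four (hp2 : p ≠ 2) (H : RNLeaves 4 8 M' p hpM baseHyp_four h4M A hA)
    (c2 : ∀ (P : Place Qbar ↥(Fbar (M' * p))) (Q₂ : Place (kA A) (Ft M' A)),
      rN 4 8 M' p hpM baseHyp_four h4M A hA P = Sum.inl (Sum.inr Q₂) →
        rV 4 8 M' p hpM baseHyp_four h4M A hA
            (P.restrictAlong (alphaN M' p) (alphaN_isIntegral M' p)) =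
          PhiN M' p hpM A hA Q₂)
    (cN : ∀ j : Fin (sN 4 8 M' p hpM baseHyp_four h4M A hA),
      (nodesN 4 8 M' p hpM baseHyp_four h4M A hA).ν₁ j =
        PhiN M' p hpM A hA ((nodesN 4 8 M' p hpM baseHyp_four h4M A hA).ν₂ j)) :
    CtxLeaves 4 8 M' p hpM baseHyp_four h4M A hA :=
  R2PtsN22.ctxLeaves_of H (ptLeaves_four hp2 H) c2 cN

end Four

end Fermat.Agent.ES.W33.PtLeavesInstN22
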