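/-
Programme W (S33), chapter B1' leaf (M4) `SurjPropN`, support for (C5) component 2, helper24:
**the good-level series criterion at a number-field level, and three generic lemmas.**

* `reg_symm_of_reg` : `Reg` transports along an algebra automorphism of the function field
  (Prelude `SemilinearAut.ofAlgAut`);
* `isIntegral_map_chart` : a ring map out of a subalgebra `Bc ⊇ R[s]`, semilinear along `R → k`,
  maps an element integral over `R[s]` to an element integral over `k[ρ s]`;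
* `alphaN_bc`, `alphaN_mem_Gq1`, `redq1_alphaN`, `isRedOf_alphaN` : `α` is the identity on
  `q`-expansions, so it carries the Gauss ring of the good level into `Gq1` with the same reduction;
* **`isRedOf_bc_good`** : for `x ∈ K·F_{M'}` Gauss-integral at level `K` (`↑x ∈ gaussRing (A ∩ K)`),
  the coefficientwise reduction `coeffMap (resMap A K) (gaussRed x)` lies in `F̃_{M'}` and is THE
  fraction reduction of `bc x` at the `ℚ̄`-level (`IsRedOf G' red' (bc x) φ`) — from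
  `LevelCompare3.bc_mem_O1` (bad level, through `α`), `ScaleQbar8.exists_scale` and helper15's
  `BetaRed15.exists_red_of_scale` at `b := alphaN`, `v := id`;
* `rho2_bc_unif_mul` : `rho2 (bc (π · o)) = 0` for `o ∈ O2` at level `K`.
-/
import Mathlib
import Fermat.Agent.ES.V19.SurjPropInst17
import Fermat.Agent.ES.V19.LevelK24
import Fermat.Agent.ES.N34.ModelN4
import Fermat.Agent.ES.N35.NormBC1
import Fermat.Agent.RED.CUSP.RankConcrete16
import Fermat.Agent.ES.W33.LevelCompare3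
import Fermat.Agent.ES.W33.BetaRed15
import Fermat.Agent.ES.W33.SurjAsmN24
import Fermat.Agent.ES.N34.ModelEnd4
import Fermat.Agent.ES.V19.CechTw13

set_option autoImplicit false
set_option linter.unusedSectionVars false
set_option linter.dupNamespace false
set_option linter.style.haveILetI false
set_option synthInstance.maxHeartbeats 400000
set_option maxHeartbeats 1000000

open AlgebraicCurve ModularCurve IntermediateField HahnSeries

noncomputable section

namespace Fermat.Agent.ES.W33.RedGoodN24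

open Fermat.Agent.RED.Interface4 Fermat.Agent.RED.DESC.PlaceExtend27
  Fermat.Agent.RED.DESC.NumberFieldDVR27
  Fermat.Agent.RED.PUR.ChartGeneric22 Fermat.Agent.RED.PUR.GaussGen8
  Fermat.Agent.RED.PUR.GaussBridge10
  Fermat.Agent.RED.BASE.EtaQuot12 Fermat.Agent.RED.BASE.Interface12
  Fermat.Agent.RED.BASE.Hauptmodul12
  Fermat.Agent.ES.RED.Contract8 Fermat.Agent.ES.RED.ModelInst4 Fermat.Agent.ES.RED.FibreSurj17
  Fermat.Agent.ES.RED.SpecialGen25 Fermat.Agent.ES.RED.GaussRing15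
  Fermat.Agent.ES.V19.CechIface12 Fermat.Agent.ES.V19.GaussFrac15 Fermat.Agent.ES.N34.ModelDefs9
  Fermat.Agent.ES.W33.NodalDefs3 Fermat.Agent.ES.W33.SurjAsmN24

section Generic

/-- **`Reg` transports along an algebra automorphism.** -/
theorem reg_symm_of_reg {k F : Type*} [Field k] [Field F] [Algebra k F] (σ : F ≃ₐ[k] F) {t f : F}
    (h : Reg k (σ t) f) : Reg k t (σ.symm f) := by
  intro P hP
  have h1 : σ t ∈ (SemilinearAut.ofAlgAut σ • P).toValuationSubring := by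
    rw [SemilinearAut.smul_toValuationSubring,
      ValuationSubring.mem_pointwise_smul_iff_inv_smul_mem]
    have : (SemilinearAut.ofAlgAut σ)⁻¹ • σ t = t := by
      rw [← SemilinearAut.ofAlgAut_smul σ t, inv_smul_smul]
    rw [this]
    exact hP
  have h2 := h _ h1
  rw [SemilinearAut.smul_toValuationSubring,
    ValuationSubring.mem_pointwise_smul_iff_inv_smul_mem] at h2
  have : (SemilinearAut.ofAlgAut σ)⁻¹ • f = σ.symm f := by
    rw [SemilinearAut.inv_smul_def]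
    rfl
  rwa [this] at h2

/-- a semilinear ring map out of a subalgebra maps an element integral over `R[s]` to an element
integral over `k[ρ s]`. -/
theorem isIntegral_map_chart {R F : Type*} [CommRing R] [Field F] [Algebra R F]
    {k E : Type*} [Field k] [Field E] [Algebra k E]
    (Bc : Subalgebra R F) (ρ : ↥Bc →+* E) (res : R →+* k)
    (hρ : ∀ r : R, ρ (algebraMap R ↥Bc r) = algebraMap k E (res r))
    {s : F} (hs : s ∈ Bc) {b : F} (hb : b ∈ Bc) (hint : IsIntegral (Algebra.adjoin R {s}) b) :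
    IsIntegral (Algebra.adjoin k {ρ ⟨s, hs⟩}) (ρ ⟨b, hb⟩) := by
  have hle : Algebra.adjoin R {s} ≤ Bc := Algebra.adjoin_le (by
    intro y hy
    rw [Set.mem_singleton_iff] at hy
    subst hy
    exact hs)
  have hmem : ∀ y ∈ Algebra.adjoin R {s}, ∃ h : y ∈ Bc, ρ ⟨y, h⟩ ∈ Algebra.adjoin k {ρ ⟨s, hs⟩} := by
    intro y hy
    induction hy using Algebra.adjoin_induction with
    | mem x hx =>
      rw [Set.mem_singleton_iff] at hx
      subst hx
      exact ⟨hs, Algebra.self_mem_adjoin_singleton k _⟩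
    | algebraMap r =>
      refine ⟨Bc.algebraMap_mem r, ?_⟩
      have : (⟨algebraMap R F r, Bc.algebraMap_mem r⟩ : ↥Bc) = algebraMap R ↥Bc r := rfl
      rw [this, hρ]
      exact Subalgebra.algebraMap_mem _ _
    | add x y _ _ hx hy =>
      obtain ⟨hx1, hx2⟩ := hx
      obtain ⟨hy1, hy2⟩ := hy
      refine ⟨Bc.add_mem hx1 hy1, ?_⟩
      have : (⟨x + y, Bc.add_mem hx1 hy1⟩ : ↥Bc) = ⟨x, hx1⟩ + ⟨y, hy1⟩ := rfl
      rw [this, map_add]
      exact Subalgebra.add_mem _ hx2 hy2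
    | mul x y _ _ hx hy =>
      obtain ⟨hx1, hx2⟩ := hx
      obtain ⟨hy1, hy2⟩ := hy
      refine ⟨Bc.mul_mem hx1 hy1, ?_⟩
      have : (⟨x * y, Bc.mul_mem hx1 hy1⟩ : ↥Bc) = ⟨x, hx1⟩ * ⟨y, hy1⟩ := rfl
      rw [this, map_mul]
      exact Subalgebra.mul_mem _ hx2 hy2
  let ι : ↥(Algebra.adjoin R {s}) →+* ↥Bc := (Subalgebra.inclusion hle).toRingHom
  let φ : ↥(Algebra.adjoin R {s}) →+* ↥(Algebra.adjoin k {ρ ⟨s, hs⟩}) :=
    (ρ.comp ι).codRestrict (Algebra.adjoin k {ρ ⟨s, hs⟩}) (fun y => (hmem y y.2).2)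
  obtain ⟨P, hP, hev⟩ := hint
  refine ⟨P.map φ, hP.map φ, ?_⟩
  rw [Polynomial.eval₂_map]
  have h1 : (algebraMap ↥(Algebra.adjoin k {ρ ⟨s, hs⟩}) E).comp φ = ρ.comp ι := by
    ext y
    rfl
  rw [h1, ← Polynomial.hom_eval₂]
  have h2 : Polynomial.eval₂ ι ⟨b, hb⟩ P = 0 := by
    apply Subtype.ext
    have := Polynomial.hom_eval₂ P ι (Bc.subtype : ↥Bc →+* F) ⟨b, hb⟩
    rw [show ((Bc.subtype : ↥Bc →+* F) (Polynomial.eval₂ ι ⟨b, hb⟩ P)) =
      ((Polynomial.eval₂ ι ⟨b, hb⟩ P : ↥Bc) : F) from rfl] at this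
    rw [this]
    exact hev
  rw [h2, map_zero]

end Generic

variable (M' : ℕ) [NeZero M'] (p : ℕ) [Fact p.Prime] (A : ValuationSubring Qbar)

local notation "G'" => gaussRingN A (resA A) M'
local notation "red'" => gaussRedN A (resA A) M'

section Level

variable {M' p A}
variable {K : IntermediateField ℚ Qbar} [FiniteDimensional ℚ K]
  [IsDiscreteValuationRing ↥(AK A K)] {ϖ : ↥(AK A K)}

/-- `alphaN ∘ bc = bc ∘ alpha`. -/
theorem alphaN_bc (x : ↥(FK M' K)) :
    alphaN M' p (baseChangeHom M' K x) = baseChangeHom (M' * p) K (alpha K M' p x) := by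
  apply Subtype.ext
  rw [Fermat.Agent.ES.HECKE.LevelPullback12.coe_levelIncl, coe_baseChangeHom, coe_baseChangeHom,
    coe_alpha]

theorem alphaN_mem_Gq1 (g : ↥(Fbar M')) (hg : g ∈ G') : alphaN M' p g ∈ Gq1 M' p A := by
  obtain ⟨Y, hY, hYt⟩ := hg
  exact ⟨Y, by rw [hY]; exact (Fermat.Agent.ES.HECKE.LevelPullback12.coe_levelIncl _ g).symm, hYt⟩

theorem redq1_alphaN (g : ↥(Fbar M')) (hg : g ∈ G') :
    redq1 M' p A ⟨alphaN M' p g, alphaN_mem_Gq1 g hg⟩ = red' ⟨g, hg⟩ := by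
  apply Subtype.ext
  have hY := coeffMap_gaussLift A (resA A) (Fbar M') (modularFunctionFieldFullC (kA A) M') ⟨g, hg⟩
  have hY' : coeffMap A.subtype (gaussLift A (resA A) (Fbar M')
      (modularFunctionFieldFullC (kA A) M') ⟨g, hg⟩) = ((alphaN M' p g : ↥(Fbar (M' * p))) :
        LaurentSeries Qbar) := by
    rw [hY]
    exact (Fermat.Agent.ES.HECKE.LevelPullback12.coe_levelIncl _ g).symm
  rw [gaussRed_eq A (resA A) (Fbar (M' * p)) (modularFunctionFieldFullC (kA A) M') _ hY']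
  rfl

/-- `IsRedOf` along `alphaN`. -/
theorem isRedOf_alphaN {f : ↥(Fbar M')} {φ : Ft M' A} (h : IsRedOf G' red' f φ) :
    IsRedOf (Gq1 M' p A) (redq1 M' p A) (alphaN M' p f) φ := by
  obtain ⟨a, b, hb, hfb, hφ⟩ := h
  refine ⟨⟨alphaN M' p (a : ↥(Fbar M')), alphaN_mem_Gq1 _ a.2⟩,
    ⟨alphaN M' p (b : ↥(Fbar M')), alphaN_mem_Gq1 _ b.2⟩, ?_, ?_, ?_⟩
  · rw [redq1_alphaN _ b.2]
    exact hb
  · show alphaN M' p f * alphaN M' p (b : ↥(Fbar M')) = alphaN M' p (a : ↥(Fbar M'))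
    rw [← map_mul, hfb]
  · rw [redq1_alphaN _ b.2, redq1_alphaN _ a.2]
    exact hφ

/-- **the good-level series criterion at level `K`**: the `q`-expansion reduction of a
Gauss-integral function of `K·F_{M'}` is its fraction reduction at the `ℚ̄`-level. -/
theorem isRedOf_bc_good (hpM : ¬ p ∣ M') (hp2 : p ≠ 2) (hM : 4 ∣ M') (hA : A.LiesOverPrime p)
    (hϖ : Irreducible ϖ) (x : ↥(FK M' K)) (hx : (x : LaurentSeries K) ∈ gaussRing (AK A K)) :
    ∃ φ : Ft M' A,
      ((φ : Ft M' A) : LaurentSeries (kA A)) =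
        coeffMap (resMap A K) (gaussRed (AK A K) ⟨(x : LaurentSeries K), hx⟩) ∧
      IsRedOf G' red' (baseChangeHom M' K x) φ := by
  have hu : IsUnif (AK A K) ϖ := isUnif_of_irreducible (AK A K) hϖ
  have key : ∀ (y : ↥(FK M' K)) (hy : (y : LaurentSeries K) ∈ gaussRing (AK A K)),
      ∃ φ : Ft M' A, ((φ : Ft M' A) : LaurentSeries (kA A)) =
          coeffMap (resMap A K) (gaussRed (AK A K) ⟨(y : LaurentSeries K), hy⟩) ∧
        IsRedOf (Gq1 M' p A) (redq1 M' p A) (alphaN M' p (baseChangeHom M' K y)) φ := by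
    intro y hy
    have hy1 : alpha K M' p y ∈
        Fermat.Agent.ES.N34.ModelDefs9.O1 M' p hu (FK_le_fracField A K (M' * p)) := by
      rw [Fermat.Agent.ES.N34.ModelDefs9.mem_O1_iff, coe_alpha]
      exact hy
    obtain ⟨hX, hρ⟩ := Fermat.Agent.ES.W33.LevelCompare3.bc_mem_O1 M' p A hp2 hpM hM hA hu
      (FK_le_fracField A K (M' * p)) (alpha K M' p y) hy1
    refine ⟨rho1 M' p A ⟨_, hX⟩, ?_, ?_⟩
    · rw [hρ]
      congr 2
    · rw [alphaN_bc]
      exact isRedOf_rho (Gq1 M' p A) (redq1 M' p A) ⟨_, hX⟩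
  have main : ∀ (y : ↥(FK M' K)) (φ : Ft M' A), φ ≠ 0 →
      IsRedOf (Gq1 M' p A) (redq1 M' p A) (alphaN M' p (baseChangeHom M' K y)) φ →
      IsRedOf G' red' (baseChangeHom M' K y) φ := by
    intro y φ hφ0 hred
    have hw0 : baseChangeHom M' K y ≠ 0 := by
      intro h0
      rw [h0, map_zero] at hred
      exact hφ0 (hred.unique isRedOf_zero)
    obtain ⟨c, hc0, hgu⟩ := Fermat.Agent.ES.V19.ScaleQbar8.exists_scale A p hA M' hpM _ hw0
    obtain ⟨ψ, hψ0, hψ⟩ := hgu.exists_isRedOf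
    obtain ⟨u, -, hu1, hu2⟩ := Fermat.Agent.ES.W33.BetaRed15.exists_red_of_scale (resA A)
      (fun a ha => (IsLocalRing.residue_eq_zero_iff a).2 ha)
      (Fermat.Agent.ES.W33.BetaRed15.isRedOf_const_good M' A)
      (Fermat.Agent.ES.W33.BetaRed15.isRedOf_const_bad M' p A) (alphaN M' p)
      (RingHom.id (Ft M' A)) (fun c => rfl) (fun f φ h => isRedOf_alphaN h) hc0 hψ0 hψ hφ0 hred
    rw [hu2]
    exact hu1
  obtain ⟨φ, hφ, hred⟩ := key x hx
  refine ⟨φ, hφ, ?_⟩
  by_cases hφ0 : φ = 0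
  · have hx1 : ((x + 1 : ↥(FK M' K)) : LaurentSeries K) ∈ gaussRing (AK A K) := by
      have : ((x + 1 : ↥(FK M' K)) : LaurentSeries K) = (x : LaurentSeries K) + 1 := rfl
      rw [this]
      exact Subring.add_mem _ hx (Subring.one_mem _)
    obtain ⟨φ', hφ', hred'⟩ := key (x + 1) hx1
    have h1 : φ' = φ + 1 := by
      apply Subtype.ext
      rw [hφ']
      have : (⟨((x + 1 : ↥(FK M' K)) : LaurentSeries K), hx1⟩ : ↥(gaussRing (AK A K))) =
          ⟨(x : LaurentSeries K), hx⟩ + 1 := rfl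
      rw [this, map_add, map_add, map_one, map_one, ← hφ]
      rfl
    have h2 : φ' ≠ 0 := by
      rw [h1, hφ0, zero_add]
      exact one_ne_zero
    have h3 := (main (x + 1) φ' h2 hred').sub isRedOf_one
    rw [map_add, map_one, add_sub_cancel_right, h1, add_sub_cancel_right] at h3
    exact h3
  · exact main x φ hφ0 hred


/-- `rho2` kills `bc (π · o)`, `o ∈ O2` at level `K`. -/
theorem rho2_bc_unif_mul (hpM : ¬ p ∣ M') (hp2 : p ≠ 2) (hM : 4 ∣ M') (hA : A.LiesOverPrime p)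
    (hu : IsUnif (AK A K) ϖ) (o : ↥(FK (M' * p) K))
    (ho : o ∈ Fermat.Agent.ES.N34.ModelDefs9.O2 M' p hu (FK_le_fracField A K (M' * p)))
    (h : baseChangeHom (M' * p) K (algebraMap ↥(AK A K) ↥(FK (M' * p) K) ϖ * o) ∈ O2 M' p A) :
    rho2 M' p A ⟨baseChangeHom (M' * p) K (algebraMap ↥(AK A K) ↥(FK (M' * p) K) ϖ * o), h⟩ =
      0 := by
  obtain ⟨hO, -⟩ := Fermat.Agent.ES.W33.LevelCompare3.bc_mem_O2 M' p A hp2 hpM hM hA hu
    (FK_le_fracField A K (M' * p)) o ho
  have e : (⟨baseChangeHom (M' * p) K (algebraMap ↥(AK A K) ↥(FK (M' * p) K) ϖ * o), h⟩ :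
      ↥(O2 M' p A)) =
      ⟨algebraMap Qbar ↥(Fbar (M' * p)) ((incl A K ϖ : ↥A) : Qbar),
        Fermat.Agent.ES.W33.NodalGauss3.const_mem_O2 M' p A (incl A K ϖ)⟩ *
      ⟨baseChangeHom (M' * p) K o, hO⟩ := by
    apply Subtype.ext
    show baseChangeHom (M' * p) K (algebraMap ↥(AK A K) ↥(FK (M' * p) K) ϖ * o) =
      algebraMap Qbar ↥(Fbar (M' * p)) ((incl A K ϖ : ↥A) : Qbar) * baseChangeHom (M' * p) K o
    rw [map_mul, Fermat.Agent.ES.RED.ChartUnion1.baseChangeHom_algebraMap_AK A (M' * p) K ϖ]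
    rfl
  rw [e, map_mul, Fermat.Agent.ES.W33.NodalGauss3.rho2_const, ← resMap_residue]
  have : IsLocalRing.residue ↥(AK A K) ϖ = 0 := res0_unif hu
  rw [this, map_zero, map_zero, zero_mul]

end Level

end Fermat.Agent.ES.W33.RedGoodN24
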