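/-
Programme W (S33), chapter B1' leaf (M4) `SurjPropN`, piece **(C5) SPAN, COMPONENT 2**
(helper17's cut; ruling w42), helper24.

`p` odd, `p ∤ M'`, `4 ∣ M'`, base `(4, 8)`, `A ≤ ℚ̄` over `p`, `t := NodalDefs3.tN 4 8 M' p …`,
`t̃₂ := (redN t).2` (the reduction of the expansion at the cusp `0`).  Over every sufficiently large
GALOIS number field `K ⊂ ℚ̄`, for the two charts `Bc = chart (A ∩ K) tK^{±1}` of level `M' p`:

  every `f₂ ∈ F̃_{M'}` regular wherever `t̃₂^{±1}` is regular is a `k̄`-combination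
  `f₂ = ∑ ω_l • rhoK2 (b_l)`, `b_l ∈ Bc`                       (`hspan0₂`, `hspan1₂` of
                                                               `SurjAsmN24.surjPropN_of`).

INPUT (helper8's `FrickeBar8`, literals `wBar` and `rho2_beta` of ruling w65, entering as
hypotheses): a `k̄`-algebra automorphism `wBar` of `F̃_{M'}` with
`rho2 (β x) = wBar (x̄)` for every Gauss-integral `x` of the good level.

Proof (`s = tM^{±1}`, `y = β s = t(𝐪^p)^{±1}`, `R₂ = rhoK2`):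
* `y ∈ Bc` (main `ModelN4.ModEqItems`), so `β (chart s) ⊆ Bc` and `R₂ (β b⁰) = wBar (b̄⁰)`
  (`RedGoodN24.isRedOf_bc_good`: the coefficientwise reduction of a Gauss-integral function of
  `K·F_{M'}` is its fraction reduction over `ℚ̄` — from `LevelCompare3.bc_mem_O1`, `ScaleQbar8.exists_scale` and
  helper15's `BetaRed15.exists_red_of_scale`); in particular `ψ := R₂ y = wBar (s̄)`;
* Kronecker (main `ModelN4.KronItems`): `α s − (β c)^p ∈ π O2` with `c ∈ chart s`, so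
  `t̃₂^{±1} = R₂ (β c)^p` with `R₂ (β c)` integral over `k̄[ψ]`: `ψ` regular at `P` ⇒ `t̃₂^{±1}`
  regular at `P`; hence `Reg t̃₂^{±1} f₂ ⇒ Reg ψ f₂`;
* `Reg` transports along `wBar` (`RedGoodN24.reg_symm_of_reg`, Prelude `SemilinearAut.ofAlgAut`):
  `Reg s̄ (wBar⁻¹ f₂)`, so by helper17's special-fibre base change at the good level
  (`V19/SpecialSpanInst17.exists_sum_level0/1`) `wBar⁻¹ f₂ = ∑ ω_l b̄⁰_l`, and
  `f₂ = ∑ ω_l wBar (b̄⁰_l) = ∑ ω_l R₂ (β b⁰_l)`.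
-/
import Mathlib
import Fermat.Agent.ES.V19.SurjPropInst17
import Fermat.Agent.ES.V19.LevelK24
import Fermat.Agent.ES.N34.ModelN4
import Fermat.Agent.ES.N35.NormBC1
import Fermat.Agent.RED.CUSP.RankConcrete16
import Fermat.Agent.ES.W33.LevelCompare3
import Fermat.Agent.ES.W33.BetaRed15
import Fermat.Agent.ES.W33.SurjAsmN24
import Fermat.Agent.ES.W33.RedGoodN24
import Fermat.Agent.ES.N34.ModelEnd4
import Fermat.Agent.ES.V19.CechTw13

set_option autoImplicit false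
set_option linter.unusedSectionVars false
set_option linter.dupNamespace false
set_option linter.style.haveILetI false
set_option synthInstance.maxHeartbeats 400000
set_option maxHeartbeats 1000000

open AlgebraicCurve ModularCurve IntermediateField HahnSeries

noncomputable section

namespace Fermat.Agent.ES.W33.SpanTwoN24

open Fermat.Agent.RED.Interface4 Fermat.Agent.RED.DESC.PlaceExtend27
  Fermat.Agent.RED.DESC.NumberFieldDVR27
  Fermat.Agent.RED.PUR.ChartGeneric22 Fermat.Agent.RED.PUR.GaussGen8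
  Fermat.Agent.RED.PUR.GaussBridge10
  Fermat.Agent.RED.BASE.EtaQuot12 Fermat.Agent.RED.BASE.Interface12
  Fermat.Agent.RED.BASE.Hauptmodul12
  Fermat.Agent.ES.RED.Contract8 Fermat.Agent.ES.RED.ModelInst4 Fermat.Agent.ES.RED.FibreSurj17
  Fermat.Agent.ES.RED.SpecialGen25 Fermat.Agent.ES.RED.GaussRing15
  Fermat.Agent.ES.V19.CechIface12 Fermat.Agent.ES.V19.GaussFrac15 Fermat.Agent.ES.N34.ModelDefs9
  Fermat.Agent.ES.W33.NodalDefs3 Fermat.Agent.ES.W33.SurjAsmN24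
  Fermat.Agent.ES.W33.RedGoodN24

variable (M' : ℕ) [NeZero M'] (p : ℕ) [Fact p.Prime] (A : ValuationSubring Qbar)

local notation "G'" => gaussRingN A (resA A) M'
local notation "red'" => gaussRedN A (resA A) M'

section Level

variable {M' p A}
variable {K : IntermediateField ℚ Qbar} [FiniteDimensional ℚ K]
  [IsDiscreteValuationRing ↥(AK A K)] {ϖ : ↥(AK A K)}

/-- `R₂ (β x) = wBar (x̄)` for a Gauss-integral `x` of the good level with `β x` in the chart. -/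
theorem rhoK2_beta_eq (hpM : ¬ p ∣ M') (hp2 : p ≠ 2) (hM : 4 ∣ M') (hA : A.LiesOverPrime p)
    (hϖ : Irreducible ϖ) (wBar : Ft M' A ≃ₐ[kA A] Ft M' A)
    (hβ : ∀ (x : ↥(Fbar M')) (φ : Ft M' A), IsRedOf G' red' x φ →
      ∃ h : heckeBetaBar Qbar M' p x ∈ O2 M' p A,
        rho2 M' p A ⟨heckeBetaBar Qbar M' p x, h⟩ = wBar φ)
    (Bc : Subalgebra ↥(AK A K) ↥(FK (M' * p) K))
    (hB : ∀ b ∈ Bc, baseChangeHom (M' * p) K b ∈ GN M' p A)
    (x : ↥(FK M' K)) (hx : (x : LaurentSeries K) ∈ gaussRing (AK A K))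
    (hmem : beta K M' p x ∈ Bc) :
    ∃ φ : Ft M' A,
      ((φ : Ft M' A) : LaurentSeries (kA A)) =
        coeffMap (resMap A K) (gaussRed (AK A K) ⟨(x : LaurentSeries K), hx⟩) ∧
      IsRedOf G' red' (baseChangeHom M' K x) φ ∧
      rhoK2 M' p A K Bc hB ⟨beta K M' p x, hmem⟩ = wBar φ := by
  obtain ⟨φ, hφ, hred⟩ := isRedOf_bc_good hpM hp2 hM hA hϖ x hx
  refine ⟨φ, hφ, hred, ?_⟩
  obtain ⟨h, e⟩ := hβ _ _ hred
  rw [← e, rhoK2_apply, redN_snd]
  congr 1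
  apply Subtype.ext
  exact Fermat.Agent.ES.N35.NormBC1.baseChangeHom_beta K M' p x

/-- Kronecker on the second component: `x − y ^ p ∈ π O2` gives `R₂ x = (R₂ y) ^ p`. -/
theorem rhoK2_eq_pow (hpM : ¬ p ∣ M') (hp2 : p ≠ 2) (hM : 4 ∣ M') (hA : A.LiesOverPrime p)
    (hu : IsUnif (AK A K) ϖ)
    (Bc : Subalgebra ↥(AK A K) ↥(FK (M' * p) K))
    (hB : ∀ b ∈ Bc, baseChangeHom (M' * p) K b ∈ GN M' p A)
    (x y : ↥Bc) (o : ↥(FK (M' * p) K))
    (ho : o ∈ Fermat.Agent.ES.N34.ModelDefs9.O2 M' p hu (FK_le_fracField A K (M' * p)))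
    (hco : (x : ↥(FK (M' * p) K)) - (y : ↥(FK (M' * p) K)) ^ p =
      algebraMap ↥(AK A K) ↥(FK (M' * p) K) ϖ * o) :
    rhoK2 M' p A K Bc hB x = (rhoK2 M' p A K Bc hB y) ^ p := by
  have e : baseChangeHom (M' * p) K (((x - y ^ p : ↥Bc)) : ↥(FK (M' * p) K)) =
      baseChangeHom (M' * p) K (algebraMap ↥(AK A K) ↥(FK (M' * p) K) ϖ * o) := by
    rw [Subalgebra.coe_sub, Subalgebra.coe_pow, hco]
  have h1 : baseChangeHom (M' * p) K (((x - y ^ p : ↥Bc)) : ↥(FK (M' * p) K)) ∈ O2 M' p A :=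
    GN_le_O2 M' p A (hB _ (x - y ^ p).2)
  have h2 : baseChangeHom (M' * p) K (algebraMap ↥(AK A K) ↥(FK (M' * p) K) ϖ * o) ∈
      O2 M' p A := by
    rw [← e]
    exact h1
  have h0 : rhoK2 M' p A K Bc hB (x - y ^ p) = 0 := by
    have h3 : rhoK2 M' p A K Bc hB (x - y ^ p) =
        rho2 M' p A ⟨baseChangeHom (M' * p) K (((x - y ^ p : ↥Bc)) : ↥(FK (M' * p) K)), h1⟩ :=
      rfl
    have h4 : (⟨baseChangeHom (M' * p) K (((x - y ^ p : ↥Bc)) : ↥(FK (M' * p) K)), h1⟩ :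
        ↥(O2 M' p A)) =
        ⟨baseChangeHom (M' * p) K (algebraMap ↥(AK A K) ↥(FK (M' * p) K) ϖ * o), h2⟩ :=
      Subtype.ext e
    rw [h3, h4]
    exact rho2_bc_unif_mul hpM hp2 hM hA hu o ho h2
  rw [map_sub, map_pow, sub_eq_zero] at h0
  exact h0

/-- semilinearity of `R₂` on constants. -/
theorem rhoK2_algebraMap (Bc : Subalgebra ↥(AK A K) ↥(FK (M' * p) K))
    (hB : ∀ b ∈ Bc, baseChangeHom (M' * p) K b ∈ GN M' p A) (r : ↥(AK A K)) :
    rhoK2 M' p A K Bc hB (algebraMap ↥(AK A K) ↥Bc r) =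
      algebraMap (kA A) (Ft M' A) (((resMap A K).comp (res0 (AK A K))) r) := by
  have h1 := rhoK_smul₂ (M' := M') (p := p) (A := A) (K := K) hB r (1 : ↥Bc)
  rw [map_one, mul_one] at h1
  rw [Algebra.algebraMap_eq_smul_one, h1]
  rfl

set_option maxHeartbeats 4000000 in
/-- **the core of (C5), component 2, one chart** (`s = tM^{±1}`, `τ = tN^{±1} = α s`). -/
theorem span_two_core (hpM : ¬ p ∣ M') (hp2 : p ≠ 2) (hM : 4 ∣ M') (hA : A.LiesOverPrime p)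
    (hϖ : Irreducible ϖ) (wBar : Ft M' A ≃ₐ[kA A] Ft M' A)
    (hβ : ∀ (x : ↥(Fbar M')) (φ : Ft M' A), IsRedOf G' red' x φ →
      ∃ h : heckeBetaBar Qbar M' p x ∈ O2 M' p A,
        rho2 M' p A ⟨heckeBetaBar Qbar M' p x, h⟩ = wBar φ)
    (s : ↥(FK M' K)) (hs : (s : LaurentSeries K) ∈ gaussRing (AK A K))
    (τ : ↥(FK (M' * p) K)) (hτ : τ = alpha K M' p s)
    (hB : ∀ b ∈ chart ↥(AK A K) τ, baseChangeHom (M' * p) K b ∈ GN M' p A)
    (hy : beta K M' p s ∈ chart ↥(AK A K) τ)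
    (hkron : ∃ c : ↥(chart ↥(AK A K) s),
      ∃ o ∈ Fermat.Agent.ES.N34.ModelDefs9.O2 M' p (isUnif_of_irreducible (AK A K) hϖ)
        (FK_le_fracField A K (M' * p)),
        alpha K M' p s - (beta K M' p (c : ↥(FK M' K))) ^ p =
          algebraMap ↥(AK A K) ↥(FK (M' * p) K) ϖ * o)
    (σ : Ft M' A) (hσ : IsRedOf G' red' (baseChangeHom M' K s) σ)
    (hspan : ∀ g : Ft M' A, Reg (kA A) σ g →
      ∃ (m : ℕ) (ω : Fin m → kA A) (b₀ : Fin m → ↥(chart ↥(AK A K) s)),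
        ((g : Ft M' A) : LaurentSeries (kA A)) =
          ∑ j, algebraMap (kA A) (LaurentSeries (kA A)) (ω j) *
            coeffMap (resMap A K) (chartRed hϖ (FK_le_fracField A K M') s hs (b₀ j))) :
    ∀ f₂ : Ft M' A,
      Reg (kA A) (rhoK2 M' p A K _ hB ⟨τ, self_mem_chart τ⟩) f₂ →
      ∃ (m : ℕ) (ω : Fin m → kA A) (b : Fin m → ↥(chart ↥(AK A K) τ)),
        f₂ = ∑ l, ω l • rhoK2 M' p A K _ hB (b l) := by
  subst hτ
  have hu : IsUnif (AK A K) ϖ := isUnif_of_irreducible (AK A K) hϖ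
  have hsC : s ∈ chart ↥(AK A K) s := self_mem_chart s
  have hαC : alpha K M' p s ∈ chart ↥(AK A K) (alpha K M' p s) := self_mem_chart _
  -- `β (chart s) ⊆ chart (α s)`
  have hβmem : ∀ x : ↥(chart ↥(AK A K) s),
      beta K M' p (x : ↥(FK M' K)) ∈ chart ↥(AK A K) (alpha K M' p s) := fun x =>
    Fermat.Agent.ES.N34.ModelN4.map_mem_chart (beta K M' p : ↥(FK M' K) →+* ↥(FK (M' * p) K))
      (Fermat.Agent.ES.N34.ModelN4.algHom_algebraMap_O (AK A K) (FK M' K) (FK (M' * p) K)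
        (beta K M' p)) hy x.2
  -- `R₂ (β b⁰) = wBar (b̄⁰)`
  have H : ∀ x : ↥(chart ↥(AK A K) s), ∃ φ : Ft M' A,
      ((φ : Ft M' A) : LaurentSeries (kA A)) =
        coeffMap (resMap A K) (chartRed hϖ (FK_le_fracField A K M') s hs x) ∧
      IsRedOf G' red' (baseChangeHom M' K (x : ↥(FK M' K))) φ ∧
      rhoK2 M' p A K _ hB ⟨beta K M' p (x : ↥(FK M' K)), hβmem x⟩ = wBar φ := fun x =>
    rhoK2_beta_eq hpM hp2 hM hA hϖ wBar hβ _ hB (x : ↥(FK M' K))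
      (coe_mem_gaussRing hϖ (FK_le_fracField A K M') s hs x) (hβmem x)
  choose Φ hΦ1 hΦ2 hΦ3 using H
  -- `ψ = R₂ (β s) = wBar σ`
  have hψ : rhoK2 M' p A K _ hB ⟨beta K M' p s, hy⟩ = wBar σ := by
    have h1 := hΦ3 ⟨s, hsC⟩
    have h2 : Φ ⟨s, hsC⟩ = σ := (hΦ2 ⟨s, hsC⟩).unique hσ
    rw [h2] at h1
    exact h1
  -- Kronecker: `R₂ (α s) = R₂ (β c) ^ p`
  obtain ⟨c, o, ho, hco⟩ := hkron
  have hpow : rhoK2 M' p A K _ hB ⟨alpha K M' p s, hαC⟩ =
      (rhoK2 M' p A K _ hB ⟨beta K M' p (c : ↥(FK M' K)), hβmem c⟩) ^ p :=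
    rhoK2_eq_pow hpM hp2 hM hA hu _ hB ⟨alpha K M' p s, hαC⟩
      ⟨beta K M' p (c : ↥(FK M' K)), hβmem c⟩ o ho hco
  -- `R₂ (β c)` is integral over `k̄[ψ]`
  have hint : IsIntegral (Algebra.adjoin (kA A) {rhoK2 M' p A K _ hB ⟨beta K M' p s, hy⟩})
      (rhoK2 M' p A K _ hB ⟨beta K M' p (c : ↥(FK M' K)), hβmem c⟩) := by
    refine isIntegral_map_chart (chart ↥(AK A K) (alpha K M' p s)) (rhoK2 M' p A K _ hB)
      ((resMap A K).comp (res0 (AK A K))) (rhoK2_algebraMap _ hB) hy (hβmem c) ?_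
    exact mem_chart_iff.mp
      (Fermat.Agent.ES.N34.ModelN4.map_mem_chart
        (beta K M' p : ↥(FK M' K) →+* ↥(FK (M' * p) K))
        (Fermat.Agent.ES.N34.ModelN4.algHom_algebraMap_O (AK A K) (FK M' K) (FK (M' * p) K)
          (beta K M' p)) (self_mem_chart (beta K M' p s)) c.2)
  have hregc : Reg (kA A) (rhoK2 M' p A K _ hB ⟨beta K M' p s, hy⟩)
      (rhoK2 M' p A K _ hB ⟨beta K M' p (c : ↥(FK M' K)), hβmem c⟩) :=
    Fermat.Agent.ES.V19.CechTw13.reg_of_isIntegral hint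
  intro f₂ hf₂
  -- `Reg ψ f₂`
  have h1 : Reg (kA A) (wBar σ) f₂ := by
    rw [← hψ]
    intro P hP
    apply hf₂ P
    rw [hpow]
    exact pow_mem (hregc P hP) p
  have h2 : Reg (kA A) σ (wBar.symm f₂) := reg_symm_of_reg wBar h1
  obtain ⟨m, ω, b₀, hsum⟩ := hspan _ h2
  refine ⟨m, ω, fun l => ⟨beta K M' p ((b₀ l : ↥(chart ↥(AK A K) s)) : ↥(FK M' K)),
    hβmem (b₀ l)⟩, ?_⟩
  have h3 : wBar.symm f₂ = ∑ l, ω l • Φ (b₀ l) := by
    apply Subtype.ext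
    rw [hsum, AddSubmonoidClass.coe_finsetSum]
    refine Finset.sum_congr rfl fun l _ => ?_
    rw [IntermediateField.coe_smul, Algebra.smul_def, hΦ1]
  have h4 : f₂ = wBar (∑ l, ω l • Φ (b₀ l)) := by
    rw [← h3, AlgEquiv.apply_symm_apply]
  rw [h4, map_sum]
  refine Finset.sum_congr rfl fun l _ => ?_
  rw [map_smul, hΦ3]

end Level

/-- **(C5), component 2, both charts**, over all large Galois number fields, from the
Fricke-bar automorphism `wBar` of the special fibre (helper8's `FrickeBar8` literals). -/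
theorem hspan_two (hpM : ¬ p ∣ M') (hp2 : p ≠ 2) (hM : 4 ∣ M') (hA : A.LiesOverPrime p)
    (wBar : Ft M' A ≃ₐ[kA A] Ft M' A)
    (hβ : ∀ (x : ↥(Fbar M')) (φ : Ft M' A), IsRedOf G' red' x φ →
      ∃ h : heckeBetaBar Qbar M' p x ∈ O2 M' p A,
        rho2 M' p A ⟨heckeBetaBar Qbar M' p x, h⟩ = wBar φ) :
    ∃ K₀ : IntermediateField ℚ Qbar, FiniteDimensional ℚ K₀ ∧
      ∀ (K : IntermediateField ℚ Qbar) [Normal ℚ K], FiniteDimensional ℚ K → K₀ ≤ K →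
        ∀ (ht : tq ↥K 4 8 ∈ FK M' K)
          (hB0 : ∀ b ∈ chart ↥(AK A K) (tN p ht), baseChangeHom (M' * p) K b ∈ GN M' p A)
          (hB1 : ∀ b ∈ chart ↥(AK A K) (tN p ht)⁻¹, baseChangeHom (M' * p) K b ∈ GN M' p A)
          (htG : Fermat.Agent.ES.W33.NodalDefs3.tN 4 8 M' p baseHyp_four hM ∈ GN M' p A),
          (∀ f₂ : Ft M' A,
            Reg (kA A) (redN M' p A ⟨Fermat.Agent.ES.W33.NodalDefs3.tN 4 8 M' p baseHyp_four hM,
              htG⟩).2 f₂ →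
            ∃ (m : ℕ) (ω : Fin m → kA A) (b : Fin m → ↥(chart ↥(AK A K) (tN p ht))),
              f₂ = ∑ l, ω l • rhoK2 M' p A K _ hB0 (b l)) ∧
          (∀ f₂ : Ft M' A,
            Reg (kA A) (redN M' p A ⟨Fermat.Agent.ES.W33.NodalDefs3.tN 4 8 M' p baseHyp_four hM,
              htG⟩).2⁻¹ f₂ →
            ∃ (m : ℕ) (ω : Fin m → kA A) (b : Fin m → ↥(chart ↥(AK A K) (tN p ht)⁻¹)),
              f₂ = ∑ l, ω l • rhoK2 M' p A K _ hB1 (b l)) := by
  have hq : p.Prime := Fact.out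
  obtain ⟨K₁, hK₁, H⟩ := Fermat.Agent.ES.V19.LevelK24.exists_levelHyps (n := 4) (e := 8)
    (M := M') (A := A) (ℓ := p) hpM hA baseHyp_four hM
  have hJ : Fermat.Agent.RED.ModelTargets4.JTarget 4 8 :=
    Fermat.Agent.RED.ModelFinal4.jTarget
      (Fermat.Agent.RED.BASE.MainCusp12.base_four M' hM).1.genBase
  have hG := Fermat.Agent.ES.N34.ModelEnd4.glueItems (n := 4) (e := 8) (M' := M') (A := A) hq hpM
    hA hJ
  obtain ⟨K₂, hK₂, HM⟩ := Fermat.Agent.ES.N34.ItemsAd6.modEqItems_four hq hp2 hpM hA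
    (Fermat.Agent.ES.N34.ModelTop4.chartItems_four hM hq hA) hG
  obtain ⟨K₃, hK₃, HK⟩ := Fermat.Agent.ES.N34.KronItems15.kronItems (n := 4) (e := 8) (M' := M')
    (A := A) hq hpM hA
  haveI := hK₁
  haveI := hK₂
  haveI := hK₃
  refine ⟨K₁ ⊔ K₂ ⊔ K₃, inferInstance, fun K _ hK hle ht hB0 hB1 htG => ?_⟩
  haveI := hK
  have hle₁ : K₁ ≤ K := le_trans (le_trans le_sup_left le_sup_left) hle
  have hle₂ : K₂ ≤ K := le_trans (le_trans le_sup_right le_sup_left) hle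
  have hle₃ : K₃ ≤ K := le_trans le_sup_right hle
  obtain ⟨hdvr, H'⟩ := H K hK hle₁
  haveI := hdvr
  obtain ⟨ϖ, hϖ⟩ := IsDiscreteValuationRing.exists_irreducible ↥(AK A K)
  have LH := H' ϖ hϖ (tM ht) rfl
  have hu : IsUnif (AK A K) ϖ := isUnif_of_irreducible (AK A K) hϖ
  obtain ⟨nn, hn, hdeg, hirr⟩ := LH.hdeg
  have hmem : TMem 4 8 M' := tMem_of_dvd baseHyp_four hM
  have hgen : TGenBase 4 8 := tGenBase' baseHyp_four
  obtain ⟨hy0, hy1⟩ := HM K hK hle₂ ht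
  obtain ⟨hk0, -, hk1, -⟩ := HK K hK hle₃ ht (FK_le_fracField A K (M' * p)) ϖ hu
  have hbc : baseChangeHom (M' * p) K (tN p ht) =
      Fermat.Agent.ES.W33.NodalDefs3.tN 4 8 M' p baseHyp_four hM :=
    Fermat.Agent.RED.CUSP.RankConcrete16.baseChangeHom_eq_tF (M' * p) K
      (tMem_of_dvd baseHyp_four (Dvd.dvd.mul_right hM p)) (tN p ht) (coe_tN p ht)
  have hcoett := Fermat.Agent.ES.V19.SurjPropInst17.coe_tRes_eq_gaussRed 4 8 p hpM hmem hgen hA K
      (tM ht) rfl LH.ht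
  -- `IsRedOf (bc tM) tRes`
  have hσ0 : IsRedOf G' red' (baseChangeHom M' K (tM ht)) (tRes 4 8 M' p hpM hmem hgen A hA) := by
    obtain ⟨φ, hφ, hred⟩ := isRedOf_bc_good hpM hp2 hM hA hϖ (tM ht) LH.ht
    have : φ = tRes 4 8 M' p hpM hmem hgen A hA := by
      apply Subtype.ext
      rw [hφ, hcoett]
    rw [← this]
    exact hred
  have htRes0 : tRes 4 8 M' p hpM hmem hgen A hA ≠ 0 := by
    intro h0
    apply Fermat.Agent.ES.RED.SpecialInv25.transcendental_tRes 4 8 M' p hpM hmem hgen A hA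
    rw [h0]
    exact isAlgebraic_zero
  have hσ1 : IsRedOf G' red' (baseChangeHom M' K (tM ht)⁻¹)
      (tRes 4 8 M' p hpM hmem hgen A hA)⁻¹ := by
    rw [map_inv₀]
    exact hσ0.inv htRes0
  have hs1 : (((tM ht)⁻¹ : ↥(FK M' K)) : LaurentSeries K) ∈ gaussRing (AK A K) :=
    Fermat.Agent.RED.PUR.G1Package8.tinv_mem_gaussRing (tM ht) LH.ht LH.htr
  refine ⟨fun f₂ hf₂ => ?_, fun f₂ hf₂ => ?_⟩
  · -- chart 0
    have e0 : (redN M' p A ⟨Fermat.Agent.ES.W33.NodalDefs3.tN 4 8 M' p baseHyp_four hM, htG⟩).2 =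
        rhoK2 M' p A K _ hB0 ⟨tN p ht, self_mem_chart _⟩ := by
      rw [rhoK2_apply]
      congr 2
      exact Subtype.ext hbc.symm
    rw [e0] at hf₂
    refine span_two_core hpM hp2 hM hA hϖ wBar hβ (tM ht) LH.ht (tN p ht) rfl hB0 hy0
      ?_ (tRes 4 8 M' p hpM hmem hgen A hA) hσ0 ?_ f₂ hf₂
    · obtain ⟨c, o, ho, hco⟩ := hk0 ⟨tM ht, self_mem_chart _⟩
      exact ⟨c, o, ho, hco⟩
    · intro g hg
      have h1 := Fermat.Agent.ES.V19.SurjProp17.isIntegral_coe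
        (Fermat.Agent.ES.V19.SurjPropInst17.isIntegral_of_reg_tRes 4 8 M' p hpM hmem hgen A hA
          g hg)
      rw [hcoett] at h1
      exact Fermat.Agent.ES.V19.SpecialSpanInst17.exists_sum_level0 p hA hpM
        hϖ (tM ht) LH.ht LH.htr hn hdeg hirr LH.hsm0 g.2 h1
  · -- chart 1
    have hne : tN p ht ≠ 0 := by
      intro h0
      apply Fermat.Agent.RED.BASE.TBridge15.tq_ne_zero (↥K) 4 8
      rw [← coe_tN p ht, h0]
      rfl
    have e1 : (redN M' p A ⟨Fermat.Agent.ES.W33.NodalDefs3.tN 4 8 M' p baseHyp_four hM,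
        htG⟩).2⁻¹ = rhoK2 M' p A K _ hB1 ⟨(tN p ht)⁻¹, self_mem_chart _⟩ := by
      symm
      apply eq_inv_of_mul_eq_one_left
      rw [rhoK2_apply, ← Prod.snd_mul, ← map_mul]
      have h1 : bcG M' p A K _ hB1 ⟨(tN p ht)⁻¹, self_mem_chart _⟩ *
          (⟨Fermat.Agent.ES.W33.NodalDefs3.tN 4 8 M' p baseHyp_four hM, htG⟩ : ↥(GN M' p A)) =
          1 := by
        apply Subtype.ext
        show baseChangeHom (M' * p) K (tN p ht)⁻¹ *
          Fermat.Agent.ES.W33.NodalDefs3.tN 4 8 M' p baseHyp_four hM = 1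
        rw [← hbc, ← map_mul, inv_mul_cancel₀ hne, map_one]
      rw [h1, map_one]
      rfl
    rw [e1] at hf₂
    refine span_two_core hpM hp2 hM hA hϖ wBar hβ (tM ht)⁻¹ hs1 (tN p ht)⁻¹
      (map_inv₀ (alpha K M' p) (tM ht)).symm hB1 ?_ ?_
      (tRes 4 8 M' p hpM hmem hgen A hA)⁻¹ hσ1 ?_ f₂ hf₂
    · rw [map_inv₀]
      exact hy1
    · obtain ⟨c, o, ho, hco⟩ := hk1 ⟨(tM ht)⁻¹, self_mem_chart _⟩
      exact ⟨c, o, ho, hco⟩
    · intro g hg
      have h1 := Fermat.Agent.ES.V19.SurjProp17.isIntegral_coe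
        (Fermat.Agent.ES.V19.SurjPropInst17.isIntegral_of_reg_tRes_inv 4 8 M' p hpM hmem hgen A hA
          g hg)
      have h2 : ((((tRes 4 8 M' p hpM hmem hgen A hA)⁻¹ :
          ↥(modularFunctionFieldFullC (kA A) M')) : LaurentSeries (kA A))) =
          (coeffMap (resMap A K) (gaussRed (AK A K) ⟨((tM ht : ↥(FK M' K)) : LaurentSeries K),
            LH.ht⟩))⁻¹ := by
        rw [← hcoett]
        rfl
      rw [h2] at h1
      exact Fermat.Agent.ES.V19.SpecialSpanInst17.exists_sum_level1 p hA hpM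
        hϖ (tM ht) LH.ht LH.htr hn hdeg hirr LH.hsm1 g.2 h1

end Fermat.Agent.ES.W33.SpanTwoN24
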