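/-
Programme W (S33, SPINE v1.1), THE GEO JOIN, part 6 (helper23): **`GeoInput23.Open` from the NAMED
LEAVES**, i.e. the five open fields of `GeoInput23.Open` (ctx, nodes_inj, hfin, b1, ic) reduced, by the
chapter exits that have landed, to the leaves that are still owed:

* `ctx`, `nodes_inj`  ⇐ helper26's `NodalCtxAsm26.CtxLeaves` through helper22's `R2PtsN22.ctxLeaves_of H PL c2 cN`:
                         `H : RNLeaves` (helper20) is now HYPOTHESIS-FREE (`rnLeaves hp2`): `L` helper16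
                         `ChartLeavesN16.chartLeaves_four`, `R` helper8 `R1LeavesN8.r1Leaves`, `ex₂0/ex₂1` helper4
                         `ExTwoN4.ex₂0_four/ex₂1_four`, `tr₁/tr₂` helper4 `TransN4`, `no_node1` helper1 `NoNode1`,
                         `fin` helper14 `NodeFinN14.fin`, `inv_mem` helper3 `ChartQbar3.inv_mem_GN`;
                         `c2`, `cN` helper15 `BranchTwoInst15.c2N/cNN`; `PL` CLOSED: helper22's
                         `PtLeavesInstN22.ptLeaves_four` (e₀ helper8 `SepElemN8`, hsat helper9 `LocSatInstN9`,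
                         (PEEL-a) helper7 `LocPeelN7`) — so **`ctxLeaves hp2` IS HYPOTHESIS-FREE**;
* `hfin`              CLOSED: helper9's `GoodGenN9.hfin_inst` at `instCompat_base48`,
                         `w := FrickeBar8.wBar` (helper8), the two families of localised one-component charts by
                         helper26's `ChartAtInstN26.charts_four` with (PEEL-a) by helper7's `LocPeelN7.peelA₁0/₂0`;
* `b1`                ⇐ helper12's `B1ExitN12.b1Exit` : `hnode` CLOSED (helper1 `HnodeRN1.hnode`), `0 < sN`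
                         CLOSED (helper14 `NodeCountPos14.sN_pos`), `htr₁` CLOSED (`FrickeBar8.rho1_tN`), `htr₂`
                         CLOSED (`TransN4.transcendental_redN_snd`), `hM4` = (M4) by helper12's
                         `M4InstN12.hM4_of_leaves` : (C1) helper29, (C4) helper13, (C5) comp. 1 helper24 inside;
                         (C5) comp. 2 CLOSED here (helper24 `SpanTwoN24.hspan_two` at `FrickeBar8.wBar/rho2_beta`);
                         (C2) = the field `hC2`, CLOSED (v8): helper12's `HdInstN12.hC2_of_rnLeaves`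
                         (helper6 `HdNode6`/`NodeConvInst6`, helper17 `HdR1N17`, helper3 `HkerN3`, helper12
                         `HsepN12`, helper29 `TransInstN29`);
* `ic`                CLOSED: helper11's `IcInst11.ic_four`, through `GeoInst23.icHyp_of_ic`.

**v8: NO LEAF IS OWED.** `structure Leaves M' p hpM h4M A hA : Prop` (one field `hC2`: (C2) of (M4) of B1′,
every two-branch maximal ideal of the level-`K` charts is a node `ν₁ j`) is kept only as the interface of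
`S33OfLeaves19`; it is PROVED here: **`leaves_four (hp2 : p ≠ 2) : Leaves M' p hpM h4M A hA`**.
`chartLeaves`, `rnLeaves` (both hypothesis-free, `p ≠ 2`), `ctxLeaves`, `charts_base48`, `hfin_base48`,
`htr₁`, `hC5`,
`hM4_of_leaves`, `b1_of_leaves`,
`open_of_leaves : p ≠ 2 → Leaves … → Open …`; `geoInput_of_leaves : (∀ M' p …, Leaves …) → GeoW23.GeoInput`;
**`open_four (hp2 : p ≠ 2) : Open M' p hpM h4M A hA`** and **`geoInput_four : GeoW23.GeoInput`, HYPOTHESIS-FREE**
(the input of helper19's `S33OfGeo19.s33_of_geoInput`, i.e. of `Fermat/Agent/S33.lean`).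
-/
import Mathlib
import Fermat.Agent.ES.W33.GeoInput23
import Fermat.Agent.ES.W33.NodalCtxAsm26
import Fermat.Agent.ES.W33.HnodeRN1
import Fermat.Agent.ES.W33.NoNode1
import Fermat.Agent.ES.W33.NodeCountPos14
import Fermat.Agent.ES.W33.B1ExitN12
import Fermat.Agent.ES.W33.GoodGenN9
import Fermat.Agent.ES.W33.ScaleN1
import Fermat.Agent.ES.W33.FrickeBar8
import Fermat.Agent.ES.W33.TransN4
import Fermat.Agent.ES.W33.ChartQbar3
import Fermat.Agent.ES.W33.ChartLeavesN16
import Fermat.Agent.ES.W33.R1LeavesN8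
import Fermat.Agent.ES.W33.NodeFinN14
import Fermat.Agent.ES.W33.ExTwoN4
import Fermat.Agent.ES.W33.R2PtsN22
import Fermat.Agent.ES.W33.BranchTwoInst15
import Fermat.Agent.ES.W33.M4InstN12
import Fermat.Agent.ES.W33.HdInstN12
import Fermat.Agent.ES.W33.SpanTwoN24
import Fermat.Agent.ES.W33.ChartAtInstN26
import Fermat.Agent.ES.W33.LocPeelN7
import Fermat.Agent.ES.W33.PtLeavesInstN22
import Fermat.Agent.ES.W33.IcInst11

set_option autoImplicit false
set_option linter.unusedSectionVars false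
set_option linter.style.haveILetI false
set_option synthInstance.maxHeartbeats 400000

noncomputable section

open AlgebraicCurve ModularCurve IntermediateField

namespace Fermat.Agent.ES.W33.GeoLeaves23

open Fermat.Agent.X0 Fermat.Agent.X0.FF Fermat.Agent.RED.Interface4 Fermat.Agent.RED.BASE
  Fermat.Agent.RED.BASE.Interface12 Fermat.Agent.RED.BASE.Hauptmodul12
  Fermat.Agent.RED.BASE.EtaQuot12 Fermat.Agent.RED.DESC.PlaceExtend27
  Fermat.Agent.ES.RED.Contract8 Fermat.Agent.ES.RED.ModelInst4 Fermat.Agent.ES.RED.R2Abstract14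
  Fermat.Agent.ES.V19.InstNames3
  Fermat.Agent.ES.W33.XiIfaceN29 Fermat.Agent.ES.W33.GeoNames23 Fermat.Agent.ES.W33.GeoJoinGa23
  Fermat.Agent.ES.W33.GeoW23 Fermat.Agent.ES.W33.NodalDefs3 Fermat.Agent.ES.W33.GeoInst23
  Fermat.Agent.ES.W33.GoodPts23 Fermat.Agent.ES.W33.GeoInput23 Fermat.Agent.ES.W33.PtPkgOfDiscN21
  Fermat.Agent.ES.W33.GoodCofiniteN9 Fermat.Agent.ES.W33.NodalCtxAsm26
  Fermat.Agent.ES.W33.NodalCtxRN20 Fermat.Agent.ES.W33.TwoChartsNInst20
  Fermat.Agent.ES.W33.TwoChartsNRN20 Fermat.Agent.ES.W33.CechIfaceN24 Fermat.Agent.ES.W33.SurjAsmN24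
  Fermat.Agent.ES.W33.ValAt29 Fermat.Agent.ES.W33.NodalCech17 Fermat.Agent.ES.V19.CechIface12
  Fermat.Agent.RED.PUR.ChartGeneric22 Fermat.Agent.ES.W33.GlueCRT19

local notation "Qb" => AlgebraicClosure ℚ

variable (M' : ℕ) [NeZero M'] (p : ℕ) [Fact p.Prime] (hpM : ¬ p ∣ M') (h4M : 4 ∣ M')
  (A : ValuationSubring Qb) (hA : A.LiesOverPrime p)

/-- the instance `base48` is built on `GN`, `redN` (cast-free) and constants reduce to constants. -/
theorem instCompat_base48 : InstCompat (base48 M' p hpM h4M A hA) where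
  hG := fun _ => Iff.rfl
  hred := fun _ _ _ => rfl
  const_mem := Fermat.Agent.ES.W33.ScaleN1.const_memN M' p A
  red_const := Fermat.Agent.ES.W33.ScaleN1.red_constN M' p A

/-- **the last leaf** of `GeoInput23.Open` (hence of `GeoW23.GeoInput`, hence of S33); proved below
(`leaves_four`). -/
structure Leaves : Prop where
  /-- (B1′, (M4), (C2)) every two-branch maximal ideal of the two level-`K` charts is a node `ν₁ j`,
  over all large Galois number fields — helper12's `M4InstN12.hM4_of_leaves` input `hC2`, verbatim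
  (= `hD0 ∧ hD1` of helper24's `SurjAsmN24.surjPropN_of`); = helper12's `HdInstN12.hC2_of_rnLeaves` -/
  hC2 : haveI := neZero_four
    ∃ K₀ : IntermediateField ℚ Qb, FiniteDimensional ℚ K₀ ∧
      ∀ (K : IntermediateField ℚ Qb) [Normal ℚ K], FiniteDimensional ℚ K → K₀ ≤ K →
        ∀ (ht : tq ↥K 4 8 ∈ FK M' K)
          (h01 : M01LeGN M' p A K (Fermat.Agent.ES.N34.ModelDefs9.tN p ht))
          (h1le : M1 A (M' * p) K (Fermat.Agent.ES.N34.ModelDefs9.tN p ht) 0 ≤
            M01 A (M' * p) K (Fermat.Agent.ES.N34.ModelDefs9.tN p ht)),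
          (∀ 𝔪 : Ideal ↥(chart ↥(AK A K) (Fermat.Agent.ES.N34.ModelDefs9.tN p ht)),
            IsNode (RingHom.ker (rhoK1 M' p A K _ (hB0 h01)))
              (RingHom.ker (rhoK2 M' p A K _ (hB0 h01))) 𝔪 →
            ∃ j : Fin (sN 4 8 M' p hpM baseHyp_four h4M A hA),
              ∀ b : ↥(chart ↥(AK A K) (Fermat.Agent.ES.N34.ModelDefs9.tN p ht)),
                ValAt ((nodesN 4 8 M' p hpM baseHyp_four h4M A hA).ν₁ j)
                  (rhoK1 M' p A K _ (hB0 h01) b) 0 → b ∈ 𝔪) ∧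
          ∀ 𝔪 : Ideal ↥(chart ↥(AK A K) (Fermat.Agent.ES.N34.ModelDefs9.tN p ht)⁻¹),
            IsNode (RingHom.ker (rhoK1 M' p A K _ (hB1 h01 h1le)))
              (RingHom.ker (rhoK2 M' p A K _ (hB1 h01 h1le))) 𝔪 →
            ∃ j : Fin (sN 4 8 M' p hpM baseHyp_four h4M A hA),
              ∀ b : ↥(chart ↥(AK A K) (Fermat.Agent.ES.N34.ModelDefs9.tN p ht)⁻¹),
                ValAt ((nodesN 4 8 M' p hpM baseHyp_four h4M A hA).ν₁ j)
                  (rhoK1 M' p A K _ (hB1 h01 h1le) b) 0 → b ∈ 𝔪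

variable {M' p hpM h4M A hA}

variable (M' p hpM h4M A hA) in
include hpM hA in
/-- the two `ℚ̄`-charts (helper16's `ChartLeavesN16.chartLeaves_four`). -/
theorem chartLeaves (hp2 : p ≠ 2) :
    haveI := neZero_four
    ChartLeaves 4 8 M' p baseHyp_four h4M A :=
  haveI := neZero_four
  Fermat.Agent.ES.W33.ChartLeavesN16.chartLeaves_four M' p hpM baseHyp_four h4M A hA hp2

variable (M' p hpM h4M A hA) in
/-- **helper20's bundle `RNLeaves`, HYPOTHESIS-FREE**: `L` by helper16's `ChartLeavesN16`, `R` by helper8's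
`R1LeavesN8`, `ex₂0`, `ex₂1` by helper4's `ExTwoN4`, `tr₁`, `tr₂` by helper4's `TransN4`, `no_node1` by
helper1's `NoNode1`, `fin` by helper14's `NodeFinN14`, `inv_mem` by helper3's `ChartQbar3`. -/
theorem rnLeaves (hp2 : p ≠ 2) :
    haveI := neZero_four
    RNLeaves 4 8 M' p hpM baseHyp_four h4M A hA := by
  haveI := neZero_four
  haveI : NeZero p := ⟨(Fact.out : p.Prime).ne_zero⟩
  have L := chartLeaves M' p hpM h4M A hA hp2
  have e0 := Fermat.Agent.ES.W33.ExTwoN4.ex₂0_four hpM hA hp2 L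
  exact RNLeaves.of_exists 4 8 M' p hpM baseHyp_four h4M A hA L
    (Fermat.Agent.ES.W33.R1LeavesN8.r1Leaves M' p A hA 4 8 hpM baseHyp_four h4M L)
    e0 (Fermat.Agent.ES.W33.ExTwoN4.ex₂1_four hpM hA hp2 L)
    (Fermat.Agent.ES.W33.TransN4.tr₁ L) (Fermat.Agent.ES.W33.TransN4.tr₂ L hpM hA)
    (Fermat.Agent.ES.W33.NoNode1.no_node1 hp2 hpM hA L)
    (Fermat.Agent.ES.W33.NodeFinN14.fin M' p hpM h4M A hA hp2 L e0
      (Fermat.Agent.ES.W33.TransN4.tr₂ L hpM hA))
    (Fermat.Agent.ES.W33.ChartQbar3.inv_mem_GN M' p A)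

variable (M' p hpM h4M A hA) in
/-- **helper26's `CtxLeaves`, HYPOTHESIS-FREE** (helper22's `R2PtsN22.ctxLeaves_of` at
`PtLeavesInstN22.ptLeaves_four`; (c2), (cN) by helper15's `BranchTwoInst15`). -/
theorem ctxLeaves (hp2 : p ≠ 2) :
    haveI := neZero_four
    CtxLeaves 4 8 M' p hpM baseHyp_four h4M A hA := by
  haveI := neZero_four
  have HR := rnLeaves M' p hpM h4M A hA hp2
  exact Fermat.Agent.ES.W33.R2PtsN22.ctxLeaves_of HR
    (Fermat.Agent.ES.W33.PtLeavesInstN22.ptLeaves_four hp2 HR)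
    (Fermat.Agent.ES.W33.BranchTwoInst15.c2N HR.placeLeaves HR.R)
    (Fermat.Agent.ES.W33.BranchTwoInst15.cNN HR.placeLeaves HR.R HR.nodePlaces)

variable (M' p hpM h4M A hA) in
/-- **the localised one-component charts of the discs** (`Leaves.charts` of v1–v5, now a theorem):
helper26's `ChartAtInstN26.charts_four` with (PEEL-a) by helper7's `LocPeelN7`. -/
theorem charts_base48 (hp2 : p ≠ 2) :
    haveI := neZero_four
    haveI : IsAlgClosed (kA A) := isAlgClosed_kA A
    ∃ (x : ↥(Fbar (M' * p))) (hx : IsGen Qb x) (xt : Ft M' A)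
      (hxt : IsGen (kA A) xt) (hfin : FinDiv Qb ↥(Fbar (M' * p)))
      (E₁ E₂ : Set (Place (kA A) (Ft M' A))), E₁.Finite ∧ E₂.Finite ∧
      (∀ Q, Q ∉ E₁ → Nonempty (ChartAt₁ (base48 M' p hpM h4M A hA) hx hxt hfin
        (tResV 4 8 M' p hpM baseHyp_four h4M A hA) Q)) ∧
      ∀ Q, Q ∉ E₂ → Nonempty (ChartAt₂ (base48 M' p hpM h4M A hA) hx hxt hfin
        (Fermat.Agent.ES.W33.FrickeBar8.wBar M' p A hA hpM
          (tResV 4 8 M' p hpM baseHyp_four h4M A hA)) Q) := by
  haveI := neZero_four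
  have ctx := ctxLeaves M' p hpM h4M A hA hp2
  have hMI := Fermat.Agent.ES.W33.ChartGN16.modelInput_four M' p hpM h4M A hA hp2
  exact Fermat.Agent.ES.W33.ChartAtInstN26.charts_four M' p A hpM h4M hA hp2 ctx
    (fun P hP => Fermat.Agent.ES.W33.LocPeelN7.peelA₁0 ctx.H.L hp2 hpM h4M hA hMI _ _ _ P hP)
    (fun P hP => Fermat.Agent.ES.W33.LocPeelN7.peelA₂0 ctx.H.L hp2 hpM h4M hA hMI _ _ _ P hP)

variable (M' p hpM h4M A hA) in
/-- **the field `hfin` of `GeoInput23.Open`, HYPOTHESIS-FREE.** -/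
theorem hfin_base48 (hp2 : p ≠ 2) :
    {Q : SPtW M' A | IsEmpty (PtPkg (base48 M' p hpM h4M A hA) Q)}.Finite := by
  haveI := neZero_four
  haveI : IsAlgClosed (kA A) := isAlgClosed_kA A
  obtain ⟨x, hx, xt, hxt, hfin, E₁, E₂, hE₁, hE₂, hC₁, hC₂⟩ :=
    charts_base48 M' p hpM h4M A hA hp2
  exact Fermat.Agent.ES.W33.GoodGenN9.hfin_inst 4 8 M' p hpM baseHyp_four h4M A hA
    (instCompat_base48 M' p hpM h4M A hA) (Fermat.Agent.ES.W33.FrickeBar8.wBar M' p A hA hpM)
    hE₁ hE₂ hC₁ hC₂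

/-- (TRANS, strong form) the first reduction of `t` is `t̃` (helper8's `FrickeBar8.rho1_tN`). -/
theorem htr₁ (htG : haveI := neZero_four
      tN 4 8 M' p baseHyp_four h4M ∈ GN M' p A) :
    haveI := neZero_four
    (redN M' p A ⟨_, htG⟩).1 = tResV 4 8 M' p hpM baseHyp_four h4M A hA := by
  haveI := neZero_four
  obtain ⟨h1, e⟩ := Fermat.Agent.ES.W33.FrickeBar8.rho1_tN M' p A hA hpM 4 8 baseHyp_four h4M
  rw [redN_fst]
  exact e

variable (M' p hpM h4M A hA) in
include hpM hA in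
/-- **(C5), component 2** over all large Galois number fields: helper24's `SpanTwoN24.hspan_two` at
helper8's `FrickeBar8.wBar`, `FrickeBar8.rho2_beta`, in the literal `hC5` of helper12's
`M4InstN12.hM4_of_leaves`. -/
theorem hC5 (hp2 : p ≠ 2) :
    haveI := neZero_four
    ∃ K₀ : IntermediateField ℚ Qb, FiniteDimensional ℚ K₀ ∧
      ∀ (K : IntermediateField ℚ Qb) [Normal ℚ K], FiniteDimensional ℚ K → K₀ ≤ K →
        ∀ (ht : tq ↥K 4 8 ∈ FK M' K)
          (h01 : M01LeGN M' p A K (Fermat.Agent.ES.N34.ModelDefs9.tN p ht))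
          (h1le : M1 A (M' * p) K (Fermat.Agent.ES.N34.ModelDefs9.tN p ht) 0 ≤
            M01 A (M' * p) K (Fermat.Agent.ES.N34.ModelDefs9.tN p ht))
          (htG : tN 4 8 M' p baseHyp_four h4M ∈ GN M' p A),
          (∀ f₂ : Ft M' A,
            Reg (kA A) (redN M' p A ⟨tN 4 8 M' p baseHyp_four h4M, htG⟩).2 f₂ →
            ∃ (m : ℕ) (ω : Fin m → kA A)
              (b : Fin m → ↥(chart ↥(AK A K) (Fermat.Agent.ES.N34.ModelDefs9.tN p ht))),
              f₂ = ∑ l, ω l • rhoK2 M' p A K _ (hB0 h01) (b l)) ∧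
          ∀ f₂ : Ft M' A,
            Reg (kA A) (redN M' p A ⟨tN 4 8 M' p baseHyp_four h4M, htG⟩).2⁻¹ f₂ →
            ∃ (m : ℕ) (ω : Fin m → kA A)
              (b : Fin m → ↥(chart ↥(AK A K) (Fermat.Agent.ES.N34.ModelDefs9.tN p ht)⁻¹)),
              f₂ = ∑ l, ω l • rhoK2 M' p A K _ (hB1 h01 h1le) (b l) := by
  haveI := neZero_four
  obtain ⟨K₀, hK₀, H⟩ := Fermat.Agent.ES.W33.SpanTwoN24.hspan_two M' p A hpM hp2 h4M hA
    (Fermat.Agent.ES.W33.FrickeBar8.wBar M' p A hA hpM)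
    (fun _ _ h => Fermat.Agent.ES.W33.FrickeBar8.rho2_beta M' p A hA hpM h)
  exact ⟨K₀, hK₀, fun K _ hK hle ht h01 h1le htG =>
    H K hK hle ht (hB0 h01) (hB1 h01 h1le) htG⟩

/-- **(M4)** `Leaves.hM4` of v1–v4, now a theorem modulo (C2): helper12's `M4InstN12.hM4_of_leaves`. -/
theorem hM4_of_leaves (hp2 : p ≠ 2) (H : Leaves M' p hpM h4M A hA) :
    haveI := neZero_four
    ∃ K₁ : IntermediateField ℚ Qb, FiniteDimensional ℚ K₁ ∧
      ∀ (K : IntermediateField ℚ Qb) [Normal ℚ K], FiniteDimensional ℚ K → K₁ ≤ K →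
        ∀ (ht : tq ↥K 4 8 ∈ FK M' K) (htG : tN 4 8 M' p baseHyp_four h4M ∈ GN M' p A),
          Fermat.Agent.ES.W33.CechIfaceN24.SurjPropN M' p A K
            (Fermat.Agent.ES.N34.ModelDefs9.tN p ht) (nodesN 4 8 M' p hpM baseHyp_four h4M A hA)
            (redN M' p A ⟨_, htG⟩) := by
  haveI := neZero_four
  haveI : NeZero p := ⟨(Fact.out : p.Prime).ne_zero⟩
  have hC := ctxLeaves M' p hpM h4M A hA hp2
  exact Fermat.Agent.ES.W33.M4InstN12.hM4_of_leaves hp2 hC.H.placeLeaves hC.H.R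
    (Fermat.Agent.ES.W33.HnodeRN1.nodeChi_sB_ne_zero hp2 hC.H) (NodalCtxAsm26.redCtxN hC)
    H.hC2 (hC5 M' p hpM h4M A hA hp2)

/-- the field `b1` from the leaves. -/
theorem b1_of_leaves (hp2 : p ≠ 2) (H : Leaves M' p hpM h4M A hA) :
    B1Exit (base48 M' p hpM h4M A hA) := by
  haveI := neZero_four
  haveI : NeZero p := ⟨(Fact.out : p.Prime).ne_zero⟩
  have hC := ctxLeaves M' p hpM h4M A hA hp2
  exact Fermat.Agent.ES.W33.B1ExitN12.b1Exit M' p A hpM hp2 h4M hA
    (NodalCtxAsm26.redCtxN hC) (NodalCtxAsm26.nodes_inj hC)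
    (Fermat.Agent.ES.W33.HnodeRN1.hnode hp2 hC.H)
    (Fermat.Agent.ES.W33.NodeCountPos14.sN_pos M' p hpM h4M A hA hp2 hC.H)
    (fun htG => htr₁ htG)
    (fun htG => Fermat.Agent.ES.W33.TransN4.transcendental_redN_snd 4 8 M' p baseHyp_four h4M A
      hpM hA htG)
    (hM4_of_leaves hp2 H)

/-- **`GeoInput23.Open` from the leaves.** -/
theorem open_of_leaves (hp2 : p ≠ 2) (H : Leaves M' p hpM h4M A hA) : Open M' p hpM h4M A hA :=
  haveI := neZero_four
  { ctx := NodalCtxAsm26.redCtxN (ctxLeaves M' p hpM h4M A hA hp2)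
    nodes_inj := NodalCtxAsm26.nodes_inj (ctxLeaves M' p hpM h4M A hA hp2)
    hfin := hfin_base48 M' p hpM h4M A hA hp2
    b1 := b1_of_leaves hp2 H
    ic := haveI : NeZero p := ⟨(Fact.out : p.Prime).ne_zero⟩
      icHyp_of_ic 4 8 M' p hpM baseHyp_four h4M A hA _ _ _
        (Fermat.Agent.ES.W33.IcInst11.ic_four M' p hpM baseHyp_four h4M A hA hp2) }

variable (M' p hpM h4M A hA) in
/-- **the last leaf (C2), PROVED**: helper12's `HdInstN12.hC2_of_rnLeaves` at `rnLeaves`. -/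
theorem leaves_four (hp2 : p ≠ 2) : Leaves M' p hpM h4M A hA :=
  haveI := neZero_four
  ⟨Fermat.Agent.ES.W33.HdInstN12.hC2_of_rnLeaves M' p A hp2 (rnLeaves M' p hpM h4M A hA hp2)⟩

variable (M' p hpM h4M A hA) in
/-- **`GeoInput23.Open`, HYPOTHESIS-FREE** (`p ≠ 2`). -/
theorem open_four (hp2 : p ≠ 2) : Open M' p hpM h4M A hA :=
  open_of_leaves hp2 (leaves_four M' p hpM h4M A hA hp2)

/-- **`GeoInput` from the leaves.** -/
theorem geoInput_of_leaves
    (H : ∀ (M' : ℕ) [NeZero M'] (p : ℕ) [Fact p.Prime], p ≠ 2 → ∀ (hpM : ¬ p ∣ M') (h4M : 4 ∣ M')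
      (A : ValuationSubring Qb) (hA : A.LiesOverPrime p), Leaves M' p hpM h4M A hA) :
    GeoInput :=
  geoInput_of_open fun M' _ p _ hp2 hpM h4M A hA => open_of_leaves hp2 (H M' p hp2 hpM h4M A hA)

/-- **THE GEO JOIN, HYPOTHESIS-FREE: `GeoW23.GeoInput`** — the input of helper19's
`S33OfGeo19.s33_of_geoInput`. -/
theorem geoInput_four : GeoInput :=
  geoInput_of_open fun M' _ p _ hp2 hpM h4M A hA => open_four M' p hpM h4M A hA hp2

end Fermat.Agent.ES.W33.GeoLeaves23
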