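/-
Programme W (S33), chapter (B3′), input (HARTOGS_j) of `NodalGlue20.GaussExt` (ruling w26), helper13:
**(HARTOGS_j) AT THE `ℚ̄`-LEVEL, inside helper20's abstract contract** — it is NOT an instance
obligation any more: it follows from the other fields of `TwoChartsN` / `GaussExt` plus
"`B0` is commensurable with the integral closure of `A[s]`".

PART A  `exists_den_of_sat` (pure algebra, no noetherian hypothesis; the `ℚ̄`-level form of main's
  `N34/NodalStart13.exists_den_of_horizontal`): `B ≤ G ≤ F` subrings, constants `κ : A₀ → B`,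
  SATURATION `c ≠ 0 → y ∈ G → κ c * y ∈ B → y ∈ B`, `F = Frac B`, `𝔐` a prime of `B`, `g ∈ G` with
  `g ∈ B_𝔭` at every nonzero HORIZONTAL prime `𝔭 ≤ 𝔐` (no nonzero constant in `𝔭`) ⊢ `g ∈ B_𝔐`.
  (The denominator ideal of `g` relative to `B ⊗ Frac A₀` has a minimal prime inside `𝔐`; it is
  horizontal.)
PART B  `exists_place_of_horizontal_A` : `L` a field of characteristic zero, `A` a valuation
  subring with `Frac A = L`, `F / L` finite over `L(s)`, `B` a subring of `F` with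
  `B ⊆ chart L s` and `chart L s ⊆ (A ∖ 0)⁻¹ B`: a nonzero horizontal prime `𝔭` of `B` is the centre
  of a place `P` of `F / L` with `O_P = B_𝔭`  (main's `N34/HorizPlace13.exists_place_of_horizontal`
  applied to the DEDEKIND chart `chart L s`, `R := L`, `π := 1`).
  `mem_chartL_of_mem_chartA`, `exists_const_mul_mem_chartA` : both hypotheses hold for
  `B = chart ↥A s`.
PART C  **`hartogs`** : for `T : TwoChartsN A hx Ft₁ Ft₂ nn`, `G`, `red` with `B0 ≤ G`, `red` extending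
  `T.S0.red`, and `nodeChi j` equal to the residue map on the constants: the LITERAL field
  `GaussExt.hartogs`.  (SAT) is derived from the PAIR saturation `NodalChart.sat`; the place of a
  horizontal prime `𝔭 ≤ ker (nodeChi j)` is in chart 0 with centre `nodeChi j`, i.e.
  `T.r P = Sum.inr j` (`TwoChartsN.r_eq_inr_iff`).  `gaussExt_of` packages `GaussExt`.
-/
import Mathlib
import Fermat.Agent.ES.N34.HorizPlace13
import Fermat.Agent.ES.N34.ChartN26
import Fermat.Agent.RED.CUSP.CharZeroInj9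
import Fermat.Agent.ES.W33.NodalGlue20

set_option autoImplicit false
set_option linter.unusedSectionVars false

noncomputable section

open AlgebraicCurve

namespace Fermat.Agent.ES.W33.HartogsN13

/-! ### Part A: Hartogs by saturation -/

section PartA

variable {F : Type*} [Field F] {A₀ : Type*} [CommRing A₀] [IsDomain A₀]

/-- **Hartogs by saturation.** -/
theorem exists_den_of_sat (B G : Subring F) (hBG : B ≤ G) (κ : A₀ →+* ↥B)
    (sat : ∀ c : A₀, c ≠ 0 → ∀ y ∈ G, ((κ c : ↥B) : F) * y ∈ B → y ∈ B)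
    (frac : ∀ y : F, ∃ a b : ↥B, b ≠ 0 ∧ y * (b : F) = (a : F))
    (𝔐 : Ideal ↥B) [𝔐.IsPrime] (g : F) (hg : g ∈ G)
    (hhor : ∀ 𝔭 : Ideal ↥B, 𝔭.IsPrime → 𝔭 ≠ ⊥ → 𝔭 ≤ 𝔐 → (∀ c : A₀, κ c ∈ 𝔭 → c = 0) →
      ∃ a s : ↥B, s ∉ 𝔭 ∧ g * (s : F) = (a : F)) :
    ∃ a d : ↥B, d ∉ 𝔐 ∧ g * (d : F) = (a : F) := by
  classical
  -- the denominator ideal of `g` relative to `B ⊗ Frac A₀`
  let I : Ideal ↥B :=
    { carrier := {b | ∃ c : A₀, c ≠ 0 ∧ ((κ c : ↥B) : F) * ((b : F) * g) ∈ B}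
      zero_mem' := ⟨1, one_ne_zero, by simp [B.zero_mem]⟩
      add_mem' := by
        rintro b₁ b₂ ⟨c₁, hc₁, h₁⟩ ⟨c₂, hc₂, h₂⟩
        refine ⟨c₁ * c₂, mul_ne_zero hc₁ hc₂, ?_⟩
        have : ((κ (c₁ * c₂) : ↥B) : F) * (((b₁ + b₂ : ↥B) : F) * g)
            = ((κ c₂ : ↥B) : F) * (((κ c₁ : ↥B) : F) * ((b₁ : F) * g))
              + ((κ c₁ : ↥B) : F) * (((κ c₂ : ↥B) : F) * ((b₂ : F) * g)) := by
          rw [map_mul]; push_cast; ring
        rw [this]
        exact B.add_mem (B.mul_mem (κ c₂).2 h₁) (B.mul_mem (κ c₁).2 h₂)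
      smul_mem' := by
        rintro x b ⟨c, hc, h⟩
        refine ⟨c, hc, ?_⟩
        have : ((κ c : ↥B) : F) * (((x • b : ↥B) : F) * g)
            = (x : F) * (((κ c : ↥B) : F) * ((b : F) * g)) := by
          rw [smul_eq_mul]; push_cast; ring
        rw [this]
        exact B.mul_mem x.2 h }
  have memI : ∀ b : ↥B, b ∈ I ↔ ∃ c : A₀, c ≠ 0 ∧ ((κ c : ↥B) : F) * ((b : F) * g) ∈ B :=
    fun b => Iff.rfl
  have hone : ∀ b a : ↥B, g * (b : F) = (a : F) → b ∈ I := by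
    intro b a hba
    refine ⟨1, one_ne_zero, ?_⟩
    rw [map_one, mul_comm (b : F) g, hba]
    exact B.mul_mem (1 : ↥B).2 a.2
  by_cases hI : I ≤ 𝔐
  · exfalso
    obtain ⟨𝔭, h𝔭, h𝔭𝔐⟩ := Ideal.exists_minimalPrimes_le hI
    have h𝔭prime : 𝔭.IsPrime := h𝔭.1.1
    have hI𝔭 : I ≤ 𝔭 := h𝔭.1.2
    obtain ⟨a, b, hb0, hab⟩ := frac g
    have h𝔭bot : 𝔭 ≠ ⊥ := by
      intro h0
      have : b ∈ 𝔭 := hI𝔭 (hone b a hab)
      rw [h0, Ideal.mem_bot] at this
      exact hb0 this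
    have hhorz : ∀ c : A₀, κ c ∈ 𝔭 → c = 0 := by
      intro c hmem
      by_contra hc0
      obtain ⟨y, hyI, hxy⟩ := Ideal.exists_mul_mem_of_mem_minimalPrimes h𝔭 hmem
      apply hyI
      obtain ⟨c', hc', hk⟩ := hxy
      refine ⟨c' * c, mul_ne_zero hc' hc0, ?_⟩
      have : ((κ (c' * c) : ↥B) : F) * ((y : F) * g)
          = ((κ c' : ↥B) : F) * (((κ c * y : ↥B) : F) * g) := by
        rw [map_mul]; push_cast; ring
      rw [this]; exact hk
    obtain ⟨a', s, hs, has⟩ := hhor 𝔭 h𝔭prime h𝔭bot h𝔭𝔐 hhorz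
    exact hs (hI𝔭 (hone s a' has))
  · obtain ⟨b, hbI, hb𝔐⟩ := Set.not_subset.mp hI
    obtain ⟨c, hc, hk⟩ := hbI
    have hy : (b : F) * g ∈ B := sat c hc _ (G.mul_mem (hBG b.2) hg) hk
    exact ⟨⟨_, hy⟩, b, hb𝔐, mul_comm _ _⟩

end PartA

/-! ### Part B: horizontal primes of a chart over `A` are places -/

section PartB

open Fermat.Agent.RED.PUR.ChartGeneric22 Fermat.Agent.ES.N34.HorizPlace13
  Fermat.Agent.ES.N34.ChartN26

variable {L F : Type*} [Field L] [CharZero L] [Field F] [Algebra L F] (A : ValuationSubring L)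

/-- **The place of a horizontal prime** of a ring `B` commensurable with the integral closure of
`A[s]`. -/
theorem exists_place_of_horizontal_A {s : F} (htr : Transcendental L s)
    [FiniteDimensional (IntermediateField.adjoin L {s}) F]
    (B : Subring F) (hcst : ∀ a : ↥A, algebraMap L F (a : L) ∈ B)
    (hint : ∀ b ∈ B, b ∈ chart L s)
    (hclr : ∀ f ∈ chart L s, ∃ c : ↥A, c ≠ 0 ∧ algebraMap L F (c : L) * f ∈ B)
    (𝔭 : Ideal ↥B) [h𝔭 : 𝔭.IsPrime] (hne : 𝔭 ≠ ⊥)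
    (hhorz : ∀ c : ↥A, (⟨algebraMap L F (c : L), hcst c⟩ : ↥B) ∈ 𝔭 → c = 0) :
    ∃ P : Place L F, ∀ x : F,
      x ∈ P.toValuationSubring ↔ ∃ a s' : ↥B, s' ∉ 𝔭 ∧ x * (s' : F) = (a : F) := by
  classical
  have : IsFractionRing L L := IsFractionRing.of_field L L fun z => ⟨z, 1, by simp⟩
  -- constants of `A` in `B`
  let cB : ↥A → ↥B := fun c => ⟨algebraMap L F (c : L), hcst c⟩
  have hcB : ∀ c : ↥A, ((cB c : ↥B) : F) = algebraMap L F (c : L) := fun _ => rfl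
  have hcB_notMem : ∀ c : ↥A, c ≠ 0 → cB c ∉ 𝔭 := fun c hc h => hc (hhorz c h)
  have hcne : ∀ c : ↥A, c ≠ 0 → algebraMap L F (c : L) ≠ 0 := by
    intro c hc
    rw [Ne, map_eq_zero]
    exact fun h => hc (Subtype.ext h)
  set B' : Subalgebra L F := chart L s with hB'
  obtain ⟨noeth, -, frac, -⟩ := chart_noeth_frac (R := L) (K := L) (F := F) htr
  -- the prime of `B'`
  let 𝔭' : Ideal ↥B' :=
    { carrier := {f | ∃ c : ↥A, c ≠ 0 ∧ ∃ h : algebraMap L F (c : L) * (f : F) ∈ B,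
        (⟨_, h⟩ : ↥B) ∈ 𝔭}
      zero_mem' := ⟨1, one_ne_zero, by simp [B.zero_mem], by
        have : (⟨algebraMap L F ((1 : ↥A) : L) * ((0 : ↥B') : F), by simp [B.zero_mem]⟩ : ↥B)
            = 0 := Subtype.ext (by simp)
        rw [this]; exact 𝔭.zero_mem⟩
      add_mem' := by
        rintro f₁ f₂ ⟨c₁, hc₁, h₁, m₁⟩ ⟨c₂, hc₂, h₂, m₂⟩
        have e : algebraMap L F ((c₁ * c₂ : ↥A) : L) * ((f₁ + f₂ : ↥B') : F)
            = ((cB c₂ * ⟨_, h₁⟩ + cB c₁ * ⟨_, h₂⟩ : ↥B) : F) := by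
          show algebraMap L F ((c₁ : L) * (c₂ : L)) * ((f₁ : F) + (f₂ : F)) =
            algebraMap L F (c₂ : L) * (algebraMap L F (c₁ : L) * (f₁ : F)) +
              algebraMap L F (c₁ : L) * (algebraMap L F (c₂ : L) * (f₂ : F))
          rw [map_mul]; ring
        refine ⟨c₁ * c₂, mul_ne_zero hc₁ hc₂, e ▸ Subtype.coe_prop _, ?_⟩
        have : (⟨algebraMap L F ((c₁ * c₂ : ↥A) : L) * ((f₁ + f₂ : ↥B') : F),
            e ▸ Subtype.coe_prop _⟩ : ↥B) = cB c₂ * ⟨_, h₁⟩ + cB c₁ * ⟨_, h₂⟩ := Subtype.ext e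
        rw [this]
        exact 𝔭.add_mem (𝔭.mul_mem_left _ m₁) (𝔭.mul_mem_left _ m₂)
      smul_mem' := by
        rintro x f ⟨c, hc, h, m⟩
        obtain ⟨c', hc', hx⟩ := hclr (x : F) x.2
        have e : algebraMap L F ((c' * c : ↥A) : L) * ((x • f : ↥B') : F)
            = (((⟨_, hx⟩ : ↥B) * ⟨_, h⟩ : ↥B) : F) := by
          show algebraMap L F ((c' : L) * (c : L)) * ((x : F) * (f : F)) =
            algebraMap L F (c' : L) * (x : F) * (algebraMap L F (c : L) * (f : F))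
          rw [map_mul]; ring
        refine ⟨c' * c, mul_ne_zero hc' hc, e ▸ Subtype.coe_prop _, ?_⟩
        have : (⟨algebraMap L F ((c' * c : ↥A) : L) * ((x • f : ↥B') : F),
            e ▸ Subtype.coe_prop _⟩ : ↥B) = (⟨_, hx⟩ : ↥B) * ⟨_, h⟩ := Subtype.ext e
        rw [this]
        exact 𝔭.mul_mem_left _ m }
  have mem𝔭' : ∀ f : ↥B', f ∈ 𝔭' ↔ ∃ c : ↥A, c ≠ 0 ∧
      ∃ h : algebraMap L F (c : L) * (f : F) ∈ B, (⟨_, h⟩ : ↥B) ∈ 𝔭 := fun _ => Iff.rfl
  -- elements of `B` in `𝔭'`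
  have mem_of_B : ∀ (b : ↥B) (hb : (b : F) ∈ B'), (⟨(b : F), hb⟩ : ↥B') ∈ 𝔭' ↔ b ∈ 𝔭 := by
    intro b hb
    rw [mem𝔭']
    constructor
    · rintro ⟨c, hc, h, m⟩
      have : (⟨_, h⟩ : ↥B) = cB c * b := Subtype.ext rfl
      rw [this] at m
      exact (h𝔭.mem_or_mem m).resolve_left (hcB_notMem c hc)
    · intro hb𝔭
      refine ⟨1, one_ne_zero, by simp, ?_⟩
      have : (⟨algebraMap L F ((1 : ↥A) : L) * (b : F), by simp⟩ : ↥B) = b :=
        Subtype.ext (by simp)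
      rw [this]; exact hb𝔭
  have h𝔭'prime : 𝔭'.IsPrime := by
    refine ⟨?_, ?_⟩
    · intro htop
      have h1 : (1 : ↥B') ∈ 𝔭' := by rw [htop]; exact Submodule.mem_top
      have h2 : (⟨((1 : ↥B) : F), B'.one_mem⟩ : ↥B') ∈ 𝔭' := h1
      have := (mem_of_B 1 B'.one_mem).1 h2
      exact h𝔭.ne_top ((Ideal.eq_top_iff_one 𝔭).2 this)
    · intro f g hfg
      obtain ⟨c, hc, h, m⟩ := hfg
      obtain ⟨c₁, hc₁, hf⟩ := hclr (f : F) f.2
      obtain ⟨c₂, hc₂, hg⟩ := hclr (g : F) g.2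
      have e : ((⟨_, hf⟩ : ↥B) * ⟨_, hg⟩ * cB c : ↥B) = cB c₁ * cB c₂ * ⟨_, h⟩ := by
        apply Subtype.ext
        show algebraMap L F (c₁ : L) * (f : F) * (algebraMap L F (c₂ : L) * (g : F)) *
            algebraMap L F (c : L) = algebraMap L F (c₁ : L) * algebraMap L F (c₂ : L) *
              (algebraMap L F (c : L) * ((f : F) * (g : F)))
        ring
      have hm : ((⟨_, hf⟩ : ↥B) * ⟨_, hg⟩ * cB c : ↥B) ∈ 𝔭 := by
        rw [e]; exact 𝔭.mul_mem_left _ m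
      rcases h𝔭.mem_or_mem hm with h1 | h1
      · rcases h𝔭.mem_or_mem h1 with h2 | h2
        · exact Or.inl ⟨c₁, hc₁, hf, h2⟩
        · exact Or.inr ⟨c₂, hc₂, hg, h2⟩
      · exact absurd h1 (hcB_notMem c hc)
  have hne' : 𝔭' ≠ ⊥ := by
    obtain ⟨b, hb𝔭, hb0⟩ : ∃ b ∈ 𝔭, b ≠ 0 := by
      by_contra hcon
      push Not at hcon
      exact hne ((Submodule.eq_bot_iff 𝔭).mpr hcon)
    intro h0
    have h1 : (⟨(b : F), hint _ b.2⟩ : ↥B') ∈ 𝔭' := (mem_of_B b (hint _ b.2)).2 hb𝔭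
    rw [h0, Ideal.mem_bot] at h1
    exact hb0 (Subtype.ext (congrArg (fun z : ↥B' => (z : F)) h1))
  have hone : algebraMap L ↥B' (1 : L) ∉ 𝔭' := by
    rw [map_one]
    exact fun h => h𝔭'prime.ne_top ((Ideal.eq_top_iff_one 𝔭').2 h)
  obtain ⟨v, hv⟩ := exists_place_of_horizontal (R := L) (K := L) (1 : L) s B' (self_mem_chart s)
    noeth inferInstance (fun r hr => ⟨0, Units.mk0 r hr, by simp⟩)
    (by rw [map_one]; exact one_ne_zero) (chart_intcl s) (fun x hx => hx) frac 𝔭' hne' hone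
  refine ⟨v, fun x => ?_⟩
  rw [hv x]
  constructor
  · rintro ⟨a', s', hs', hx⟩
    obtain ⟨c₁, hc₁, hs⟩ := hclr (s' : F) s'.2
    obtain ⟨c₂, hc₂, ha⟩ := hclr (a' : F) a'.2
    refine ⟨cB c₁ * ⟨_, ha⟩, cB c₂ * ⟨_, hs⟩, ?_, ?_⟩
    · intro hmem
      rcases h𝔭.mem_or_mem hmem with h1 | h1
      · exact hcB_notMem c₂ hc₂ h1
      · exact hs' ⟨c₁, hc₁, hs, h1⟩
    · show x * (algebraMap L F (c₂ : L) * (algebraMap L F (c₁ : L) * (s' : F))) =
        algebraMap L F (c₁ : L) * (algebraMap L F (c₂ : L) * (a' : F))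
      rw [← hx]
      ring
  · rintro ⟨a, s', hs', hx⟩
    refine ⟨⟨(a : F), hint _ a.2⟩, ⟨(s' : F), hint _ s'.2⟩, ?_, hx⟩
    rw [mem_of_B s' (hint _ s'.2)]
    exact hs'

/-- `A[s] ⊆ L[s]`. -/
theorem adjoinA_le_adjoinL {s : F} :
    ∀ c ∈ Algebra.adjoin ↥A {s}, c ∈ Algebra.adjoin L {s} := by
  intro c hc
  induction hc using Algebra.adjoin_induction with
  | mem y hy => exact Algebra.subset_adjoin hy
  | algebraMap a => exact Subalgebra.algebraMap_mem _ (a : L)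
  | add y z _ _ hy hz => exact add_mem hy hz
  | mul y z _ _ hy hz => exact mul_mem hy hz

/-- integrality over `A[s]` implies integrality over `L[s]`. -/
theorem isIntegral_adjoinL_of_adjoinA {s b : F} (hb : IsIntegral (Algebra.adjoin ↥A {s}) b) :
    IsIntegral (Algebra.adjoin L {s}) b := by
  let φ : ↥(Algebra.adjoin ↥A {s}) →+* ↥(Algebra.adjoin L {s}) :=
    (algebraMap ↥(Algebra.adjoin ↥A {s}) F).codRestrict (Algebra.adjoin L {s})
      (fun c => adjoinA_le_adjoinL A (c : F) c.2)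
  have hφ : (algebraMap ↥(Algebra.adjoin L {s}) F).comp φ =
      algebraMap ↥(Algebra.adjoin ↥A {s}) F := RingHom.ext fun _ => rfl
  obtain ⟨p, hp, hpb⟩ := hb
  refine ⟨p.map φ, hp.map φ, ?_⟩
  rw [Polynomial.eval₂_map, hφ]
  exact hpb

/-- the integral closure of `A[s]` lies in the integral closure of `L[s]`. -/
theorem mem_chartL_of_mem_chartA {s b : F} (hb : b ∈ chart ↥A s) : b ∈ chart L s :=
  mem_chart_iff.2 (isIntegral_adjoinL_of_adjoinA A (mem_chart_iff.1 hb))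

/-- clearing denominators: `chart L s ⊆ (A ∖ 0)⁻¹ chart A s`. -/
theorem exists_const_mul_mem_chartA {s f : F} (hf : f ∈ chart L s) :
    ∃ c : ↥A, c ≠ 0 ∧ algebraMap L F (c : L) * f ∈ chart ↥A s := by
  obtain ⟨c, hc, hcf⟩ :=
    Fermat.Agent.RED.CUSP.CharZeroInj9.exists_smul_isIntegral (A := ↥A) (K := L) s f
      (mem_chart_iff.1 hf)
  exact ⟨c, hc, mem_chart_iff.2 hcf⟩

end PartB

/-! ### Part C: (HARTOGS_j) in helper20's contract -/

section PartC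

open Fermat.Agent.X0.FF Fermat.Agent.ES.RED.PlaceValue13 Fermat.Agent.ES.RED.Contract8
open Fermat.Agent.ES.W33.NodalChart20 Fermat.Agent.ES.W33.TwoChartsN20
  Fermat.Agent.ES.W33.NodalGlue20 Fermat.Agent.RED.PUR.ChartGeneric22

variable {L : Type*} [Field L] [IsAlgClosed L] {A : ValuationSubring L}
variable {F : Type*} [Field F] [Algebra L F] {x : F} {hx : IsGen L x}
variable {Ft₁ Ft₂ : Type*} [Field Ft₁] [Algebra (kA A) Ft₁] [Field Ft₂] [Algebra (kA A) Ft₂]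

/-- a nonunit of `A` has residue zero. -/
theorem resA_eq_zero_of_inv_notMem {u : ↥A} (hu : ((u : L))⁻¹ ∉ A) : resA A u = 0 := by
  rw [IsLocalRing.residue_eq_zero_iff, IsLocalRing.mem_maximalIdeal, mem_nonunits_iff]
  intro hunit
  obtain ⟨w, hw⟩ := hunit.exists_right_inv
  have hw' : (u : L) * (w : L) = 1 := congrArg Subtype.val hw
  apply hu
  rw [inv_eq_of_mul_eq_one_right hw']
  exact w.2

/-- **(SAT) from the PAIR saturation**: `c ≠ 0`, `y ∈ G`, `c y ∈ B` imply `y ∈ B`. -/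
theorem sat_of_pair (S : NodalChart A hx Ft₁ Ft₂) {G : Subring F} {red : ↥G →+* Ft₁ × Ft₂}
    (B_le : S.B ≤ G) (red_ext : ∀ b : ↥S.B, red ⟨(b : F), B_le b.2⟩ = S.red b)
    (c : ↥A) (hc : c ≠ 0) (y : F) (hy : y ∈ G)
    (hcy : ((S.const c : ↥S.B) : F) * y ∈ S.B) : y ∈ S.B := by
  rcases eq_or_ne y 0 with rfl | hy0
  · exact S.B.zero_mem
  have hcL : (c : L) ≠ 0 := fun h => hc (Subtype.ext h)
  have hcF : algebraMap L F (c : L) ≠ 0 := (map_ne_zero (algebraMap L F)).2 hcL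
  have hb0 : (⟨_, hcy⟩ : ↥S.B) ≠ 0 := by
    intro h
    have := congrArg Subtype.val h
    exact mul_ne_zero hcF hy0 this
  obtain ⟨c₁, b', hbc, hb'⟩ := S.sat ⟨_, hcy⟩ hb0
  have hbc' : algebraMap L F (c : L) * y = algebraMap L F (c₁ : L) * (b' : F) := hbc
  by_cases h : (c₁ : L) / (c : L) ∈ A
  · have e : y = ((S.const ⟨_, h⟩ * b' : ↥S.B) : F) := by
      show y = algebraMap L F ((c₁ : L) / (c : L)) * (b' : F)
      rw [map_div₀, div_mul_eq_mul_div, ← hbc', mul_div_cancel_left₀ _ hcF]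
    rw [e]
    exact Subtype.coe_prop _
  · exfalso
    have hinv : ((c₁ : L) / (c : L))⁻¹ ∈ A := (A.mem_or_inv_mem _).resolve_left h
    have hc₁L : (c₁ : L) ≠ 0 := by
      intro h0
      apply h
      rw [h0, zero_div]
      exact A.zero_mem
    have hc₁F : algebraMap L F (c₁ : L) ≠ 0 := (map_ne_zero (algebraMap L F)).2 hc₁L
    set u : ↥A := ⟨_, hinv⟩ with hu
    have hres : resA A u = 0 := resA_eq_zero_of_inv_notMem (by rwa [hu, inv_inv])
    have e : (b' : F) = ((S.const u : ↥S.B) : F) * y := by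
      show (b' : F) = algebraMap L F (((c₁ : L) / (c : L))⁻¹) * y
      rw [inv_div, map_div₀, div_mul_eq_mul_div, hbc', mul_div_cancel_left₀ _ hc₁F]
    have e' : (⟨(b' : F), B_le b'.2⟩ : ↥G) =
        ⟨((S.const u : ↥S.B) : F), B_le (S.const u).2⟩ * ⟨y, hy⟩ := Subtype.ext e
    apply hb'
    rw [← red_ext b', e', map_mul, red_ext (S.const u), S.red_const', hres, map_zero, map_zero]
    exact Prod.ext (zero_mul _) (zero_mul _)

variable {nn : ℕ} (T : TwoChartsN A hx Ft₁ Ft₂ nn)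

/-- **The place of a horizontal prime inside the node `j` is centred at the node `j`.** -/
theorem redToNode_of_prime (j : Fin nn)
    (hnc : ∀ a : ↥A, T.nodeChi j (T.S0.const a) = resA A a)
    (𝔭 : Ideal ↥T.S0.B) [h𝔭 : 𝔭.IsPrime] (h𝔭𝔐 : 𝔭 ≤ RingHom.ker (T.nodeChi j))
    (P : Place L F)
    (hP : ∀ y : F, y ∈ P.toValuationSubring ↔
      ∃ a s' : ↥T.S0.B, s' ∉ 𝔭 ∧ y * (s' : F) = (a : F)) :
    T.RedToNode P j := by
  have hone : (1 : ↥T.S0.B) ∉ 𝔭 := fun h => h𝔭.ne_top ((Ideal.eq_top_iff_one 𝔭).2 h)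
  -- (i) `B ⊆ O_P`
  have hmem : ∀ b : ↥T.S0.B, (b : F) ∈ P.toValuationSubring := fun b =>
    (hP _).2 ⟨b, 1, hone, by simp⟩
  -- (ii) value zero implies membership in `𝔭`
  have hval0 : ∀ b : ↥T.S0.B, valueHom hx P ⟨(b : F), hmem b⟩ = 0 → b ∈ 𝔭 := by
    intro b hb
    by_contra hb𝔭
    have hb0 : (b : F) ≠ 0 := by
      intro h0
      apply hb𝔭
      have : b = 0 := Subtype.ext h0
      rw [this]; exact 𝔭.zero_mem
    have hinv : ((b : F))⁻¹ ∈ P.toValuationSubring :=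
      (hP _).2 ⟨1, b, hb𝔭, by simp [inv_mul_cancel₀ hb0]⟩
    rcases (valueHom_eq_zero_iff_ord hx P ⟨(b : F), hmem b⟩).1 hb with h0 | hpos
    · exact hb0 h0
    · have h1 : 0 ≤ P.ord ((b : F))⁻¹ := (ffp_mem_iff_ord_nonneg P).1 hinv
      rw [P.ord_inv] at h1
      have h2 : 0 < P.ord (b : F) := hpos
      omega
  have hker : ∀ b : ↥T.S0.B, b ∈ 𝔭 → T.nodeChi j b = 0 := fun b hb => h𝔭𝔐 hb
  -- (iii) the values of `B` at `P` lie in `A`
  have hvalA : ∀ b : ↥T.S0.B, valueHom hx P ⟨(b : F), hmem b⟩ ∈ A := by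
    intro b
    by_contra hv
    set v : L := valueHom hx P ⟨(b : F), hmem b⟩ with hvdef
    have hv0 : v ≠ 0 := by
      intro h0; apply hv; rw [h0]; exact A.zero_mem
    have hu : v⁻¹ ∈ A := (A.mem_or_inv_mem v).resolve_left hv
    set u : ↥A := ⟨v⁻¹, hu⟩ with hudef
    have hres : resA A u = 0 := resA_eq_zero_of_inv_notMem (by rwa [hudef, inv_inv])
    have he : valueHom hx P ⟨((T.S0.const u * b - 1 : ↥T.S0.B) : F),
        hmem (T.S0.const u * b - 1)⟩ = 0 := by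
      have h1 : (⟨((T.S0.const u * b - 1 : ↥T.S0.B) : F), hmem (T.S0.const u * b - 1)⟩ :
          ↥P.toValuationSubring) =
          algebraMap L ↥P.toValuationSubring (v⁻¹) * ⟨(b : F), hmem b⟩ - 1 := Subtype.ext rfl
      rw [h1, map_sub, map_mul, map_one, (valueHom hx P).commutes, ← hvdef]
      show v⁻¹ * v - 1 = 0
      rw [inv_mul_cancel₀ hv0, sub_self]
    have h2 := hker _ (hval0 _ he)
    rw [map_sub, map_mul, map_one, hnc, hres, zero_mul, zero_sub, neg_eq_zero] at h2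
    exact one_ne_zero h2
  have h0 : T.S0.InChart P := ⟨hmem T.S0.sB, hvalA T.S0.sB⟩
  refine ⟨h0, RingHom.ext fun b => ?_⟩
  -- (iv) the centre of `P` is `nodeChi j`
  have he := T.S0.ev_sub_const P h0 b
  have h1 : valueHom hx P ⟨((b - T.S0.const (T.S0.ev P h0 b) : ↥T.S0.B) : F),
      hmem (b - T.S0.const (T.S0.ev P h0 b))⟩ = 0 := by
    have := congrArg (fun z : ↥A => (z : L)) he
    rwa [T.S0.coe_ev] at this
  have h2 := hker _ (hval0 _ h1)
  rw [map_sub, sub_eq_zero, hnc] at h2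
  rw [T.S0.chi_apply, h2]

/-- **(HARTOGS_j)**: the literal field `NodalGlue20.GaussExt.hartogs`, from the other fields of
the contract, `nodeChi j = res` on the constants, and `B0` commensurable with the integral closure
of `A[s]` (`hint`, `hclr`; both hold for `B0 = chart ↥A s`: `mem_chartL_of_mem_chartA`,
`exists_const_mul_mem_chartA`). -/
theorem hartogs [CharZero L] {G : Subring F} {red : ↥G →+* Ft₁ × Ft₂}
    (B0_le : T.S0.B ≤ G) (red_ext : ∀ b : ↥T.S0.B, red ⟨(b : F), B0_le b.2⟩ = T.S0.red b)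
    (hnc : ∀ (j : Fin nn) (a : ↥A), T.nodeChi j (T.S0.const a) = resA A a)
    (htr : Transcendental L T.S0.s) [FiniteDimensional (IntermediateField.adjoin L {T.S0.s}) F]
    (hint : ∀ b ∈ T.S0.B, b ∈ chart L T.S0.s)
    (hclr : ∀ f ∈ chart L T.S0.s, ∃ c : ↥A, c ≠ 0 ∧ algebraMap L F (c : L) * f ∈ T.S0.B) :
    ∀ (j : Fin nn) (g : ↥G), (∀ P : Place L F, T.r P = Sum.inr j → 0 ≤ P.ord (g : F)) →
      ∃ a d : ↥T.S0.B, T.nodeChi j d ≠ 0 ∧ (g : F) * (d : F) = (a : F) := by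
  intro j g hg
  have : (RingHom.ker (T.nodeChi j)).IsPrime := RingHom.ker_isPrime _
  obtain ⟨a, d, hd, had⟩ := exists_den_of_sat T.S0.B G B0_le T.S0.constHom
    (fun c hc y hy h => sat_of_pair T.S0 B0_le red_ext c hc y hy h) T.S0.frac
    (RingHom.ker (T.nodeChi j)) (g : F) g.2 (by
      intro 𝔭 h𝔭 hne hle hhorz
      obtain ⟨P, hP⟩ := exists_place_of_horizontal_A A htr T.S0.B T.S0.const_mem hint hclr 𝔭 hne
        (fun c hc => hhorz c hc)
      have hnode : T.RedToNode P j := redToNode_of_prime T j (hnc j) 𝔭 hle P hP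
      exact (hP _).1 ((ffp_mem_iff_ord_nonneg P).2 (hg P (T.r_eq_of_redToNode hnode))))
  exact ⟨a, d, fun h0 => hd ((RingHom.mem_ker).2 h0), had⟩

/-- **`GaussExt` without the field (HARTOGS_j).** -/
theorem gaussExt_of [CharZero L] {G : Subring F} {red : ↥G →+* Ft₁ × Ft₂}
    (B0_le : T.S0.B ≤ G) (red_ext : ∀ b : ↥T.S0.B, red ⟨(b : F), B0_le b.2⟩ = T.S0.red b)
    (inv_mem : ∀ g : ↥G, (red g).1 ≠ 0 → (red g).2 ≠ 0 → (g : F)⁻¹ ∈ G)
    (hnc : ∀ (j : Fin nn) (a : ↥A), T.nodeChi j (T.S0.const a) = resA A a)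
    (htr : Transcendental L T.S0.s) [FiniteDimensional (IntermediateField.adjoin L {T.S0.s}) F]
    (hint : ∀ b ∈ T.S0.B, b ∈ chart L T.S0.s)
    (hclr : ∀ f ∈ chart L T.S0.s, ∃ c : ↥A, c ≠ 0 ∧ algebraMap L F (c : L) * f ∈ T.S0.B) :
    GaussExt T G red where
  B0_le := B0_le
  red_ext := red_ext
  inv_mem := inv_mem
  hartogs := hartogs T B0_le red_ext hnc htr hint hclr

end PartC

end Fermat.Agent.ES.W33.HartogsN13
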