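/-
Programme W (S33), chapter B1′, leaf (M4) `SurjPropN`, piece (C2) `hD`, sub-piece **`hR1`**
(helper17): THE NODE DICTIONARY AT LEVEL `K`, in the literal of helper6's `HdNode6.hD_B0 / hD_B1`
(hypothesis `hR1`), at `N := nodesN`, `s := sN` of `NodalDefs3`.

`Bc = chart ↥(AK A K) tK` (chart 0, `bc tK = tN`) resp. `chart ↥(AK A K) tK⁻¹` (chart 1), `P` a place of
`ℚ̄·F_{M'p}` regular on `Bc` with values in `A` (`NodeCentre11.RegAt`).  If the centre of `P` lies on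
BOTH components AT THE `ℚ̄`-LEVEL (`hon1`, `hon2`: every function of the `ℚ̄`-chart ring with zero
reduction on the component `i` has a non-unit value at `P` — the exit literal of helper6's
`NodeConv6`, the inter-level converse), then `P` reduces to a node `j` of `nodesN`
(`TwoChartsNRN20.TR`, `TR_r`, `RNUnfold20.rN_eq_inr`), `ν₁ j = r1 P`, and the value of `rhoK1 b` at
`ν₁ j` is the centre value `chiK h b` ((R1) at the node: `R.r1₀ / r1₁` + `valAt_of_isCentre`).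

* `inChart0`, `inChart1`, `on₁_0 … on₂_1` : the `NodalChart20` predicates from the function-level ones;
* `chiK_eq_chi0`, `chiK_eq_chi1` : the level-`K` centre character is the `ℚ̄`-level one;
* **`exists_node_B0`**, **`exists_node_B1`** : the conclusion of `hR1` for ONE place;
* **`hR1_B0`**, **`hR1_B1`** : `hR1` of `HdNode6.hD_B0 / hD_B1`, from the two converses quantified
  over places (shape of `NodeConv6`, after `hbc`).
Inputs: helper20's `L' : PlaceLeaves L`, `R : R1Leaves … L`.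
-/
import Mathlib
import Fermat.Agent.ES.W33.TwoChartsNRN20
import Fermat.Agent.ES.W33.RNUnfold20
import Fermat.Agent.ES.W33.NodeCentre11
import Fermat.Agent.ES.W33.SurjAsmN24
import Fermat.Agent.ES.RED.ChartUnion1

set_option autoImplicit false
set_option synthInstance.maxHeartbeats 400000
set_option linter.unusedSectionVars false

open AlgebraicCurve ModularCurve HahnSeries

noncomputable section

namespace Fermat.Agent.ES.W33.HdR1N17

open Fermat.Agent.RED.Interface4 Fermat.Agent.RED.BASE.Hauptmodul12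
  Fermat.Agent.RED.DESC.PlaceExtend27 Fermat.Agent.RED.DESC.NumberFieldDVR27
  Fermat.Agent.RED.PUR.ChartGeneric22 Fermat.Agent.RED.PUR.GaussGen8
  Fermat.Agent.ES.RED.Contract8 Fermat.Agent.ES.RED.ModelInst4 Fermat.Agent.ES.RED.PlaceValue13
  Fermat.Agent.X0 Fermat.Agent.X0.FF
  Fermat.Agent.ES.W33.XiIfaceN29 Fermat.Agent.ES.W33.ValAt29 Fermat.Agent.ES.W33.NodalDefs3
open Fermat.Agent.ES.W33.CentreN20 Fermat.Agent.ES.W33.NodalChart20 Fermat.Agent.ES.W33.TwoChartsN20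
  Fermat.Agent.ES.W33.NodalGlue20 Fermat.Agent.ES.W33.TwoChartsNInst20
  Fermat.Agent.ES.W33.TwoChartsNRN20 Fermat.Agent.ES.W33.NodeCentre11
  Fermat.Agent.ES.W33.SurjAsmN24

variable {n e M' : ℕ} [NeZero n] [NeZero M'] {p : ℕ} [Fact p.Prime] {hpM : ¬ p ∣ M'}
  {hb : BaseHyp n e} {hnM : n ∣ M'} {A : ValuationSubring Qbar} {hA : A.LiesOverPrime p}
  {L : ChartLeaves n e M' p hb hnM A}
  {K : IntermediateField ℚ Qbar} {tK : ↥(FK (M' * p) K)}


/-! ### the `NodalChart20` predicates from the function-level ones -/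

section Pred

variable (L) (P : Place Qbar ↥(Fbar (M' * p)))

/-- `P` regular on the level-`K` chart 0 lies in the `ℚ̄`-chart 0. -/
theorem inChart0 (hbc : baseChangeHom (M' * p) K tK = tN n e M' p hb hnM)
    (h : RegAt A (hxN n e M' p hb hnM) (baseChangeHom (M' * p) K) (chart ↥(AK A K) tK) P) :
    (S0N L).InChart P := by
  obtain ⟨hs, hv⟩ := h tK (self_mem_chart (R := ↥(AK A K)) tK)
  have key : ∀ (z : ↥(Fbar (M' * p))) (hz : z = baseChangeHom (M' * p) K tK)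
      (hm : baseChangeHom (M' * p) K tK ∈ P.toValuationSubring),
      valueHom (hxN n e M' p hb hnM) P ⟨baseChangeHom (M' * p) K tK, hm⟩ ∈ A →
      ∃ hs' : z ∈ P.toValuationSubring, valueHom (hxN n e M' p hb hnM) P ⟨z, hs'⟩ ∈ A := by
    rintro z rfl hm hv'
    exact ⟨hm, hv'⟩
  exact key _ hbc.symm hs hv

/-- `P` regular on the level-`K` chart 1 lies in the `ℚ̄`-chart 1. -/
theorem inChart1 (hbc : baseChangeHom (M' * p) K tK = tN n e M' p hb hnM)
    (h : RegAt A (hxN n e M' p hb hnM) (baseChangeHom (M' * p) K) (chart ↥(AK A K) tK⁻¹) P) :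
    (S1N L).InChart P := by
  obtain ⟨hs, hv⟩ := h tK⁻¹ (self_mem_chart (R := ↥(AK A K)) tK⁻¹)
  have hbc' : baseChangeHom (M' * p) K tK⁻¹ = (tN n e M' p hb hnM)⁻¹ := by
    rw [map_inv₀, hbc]
  have key : ∀ (z : ↥(Fbar (M' * p))) (hz : z = baseChangeHom (M' * p) K tK⁻¹)
      (hm : baseChangeHom (M' * p) K tK⁻¹ ∈ P.toValuationSubring),
      valueHom (hxN n e M' p hb hnM) P ⟨baseChangeHom (M' * p) K tK⁻¹, hm⟩ ∈ A →
      ∃ hs' : z ∈ P.toValuationSubring, valueHom (hxN n e M' p hb hnM) P ⟨z, hs'⟩ ∈ A := by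
    rintro z rfl hm hv'
    exact ⟨hm, hv'⟩
  exact key _ hbc'.symm hs hv

/-- a non-unit of `A` has zero residue class. -/
theorem resA_eq_zero_of_nonunit (a : ↥A) (ha : (a : Qbar) ∈ A.nonunits) : resA A a = 0 := by
  rw [IsLocalRing.residue_eq_zero_iff, IsLocalRing.mem_maximalIdeal, mem_nonunits_iff]
  intro hu
  rw [ValuationSubring.mem_nonunits_iff_exists_mem_maximalIdeal] at ha
  obtain ⟨ha', hmax⟩ := ha
  rw [IsLocalRing.mem_maximalIdeal, mem_nonunits_iff] at hmax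
  exact hmax hu

/-- chart 0: the centre of `P` lies on the first component (`ℚ̄`-level) as soon as the functions of
`chart ↥A tN` with zero first reduction have non-unit values at `P`. -/
theorem on₁_0 (h0 : (S0N L).InChart P)
    (hon1 : ∀ f ∈ chart ↥A (tN n e M' p hb hnM), ∀ h1 : f ∈ O1 M' p A, rho1 M' p A ⟨f, h1⟩ = 0 →
      ∀ hf : f ∈ P.toValuationSubring,
        valueHom (hxN n e M' p hb hnM) P ⟨f, hf⟩ ∈ A.nonunits) :
    (S0N L).On₁ P h0 := fun b hb0 => by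
  rw [NodalChart.chi_apply]
  apply resA_eq_zero_of_nonunit
  rw [NodalChart.coe_ev]
  exact hon1 (b : ↥(Fbar (M' * p))) b.2 (GN_le_O1 M' p A (L.h0 _ b.2)) hb0 _

/-- chart 0, second component. -/
theorem on₂_0 (h0 : (S0N L).InChart P)
    (hon2 : ∀ f ∈ chart ↥A (tN n e M' p hb hnM), ∀ h2 : f ∈ O2 M' p A, rho2 M' p A ⟨f, h2⟩ = 0 →
      ∀ hf : f ∈ P.toValuationSubring,
        valueHom (hxN n e M' p hb hnM) P ⟨f, hf⟩ ∈ A.nonunits) :
    (S0N L).On₂ P h0 := fun b hb0 => by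
  rw [NodalChart.chi_apply]
  apply resA_eq_zero_of_nonunit
  rw [NodalChart.coe_ev]
  exact hon2 (b : ↥(Fbar (M' * p))) b.2 (GN_le_O2 M' p A (L.h0 _ b.2)) hb0 _

/-- chart 1, first component. -/
theorem on₁_1 (h1c : (S1N L).InChart P)
    (hon1 : ∀ f ∈ chart ↥A (tN n e M' p hb hnM)⁻¹, ∀ h1 : f ∈ O1 M' p A,
      rho1 M' p A ⟨f, h1⟩ = 0 → ∀ hf : f ∈ P.toValuationSubring,
        valueHom (hxN n e M' p hb hnM) P ⟨f, hf⟩ ∈ A.nonunits) :
    (S1N L).On₁ P h1c := fun b hb0 => by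
  rw [NodalChart.chi_apply]
  apply resA_eq_zero_of_nonunit
  rw [NodalChart.coe_ev]
  exact hon1 (b : ↥(Fbar (M' * p))) b.2 (GN_le_O1 M' p A (L.h1 _ b.2)) hb0 _

/-- chart 1, second component. -/
theorem on₂_1 (h1c : (S1N L).InChart P)
    (hon2 : ∀ f ∈ chart ↥A (tN n e M' p hb hnM)⁻¹, ∀ h2 : f ∈ O2 M' p A,
      rho2 M' p A ⟨f, h2⟩ = 0 → ∀ hf : f ∈ P.toValuationSubring,
        valueHom (hxN n e M' p hb hnM) P ⟨f, hf⟩ ∈ A.nonunits) :
    (S1N L).On₂ P h1c := fun b hb0 => by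
  rw [NodalChart.chi_apply]
  apply resA_eq_zero_of_nonunit
  rw [NodalChart.coe_ev]
  exact hon2 (b : ↥(Fbar (M' * p))) b.2 (GN_le_O2 M' p A (L.h1 _ b.2)) hb0 _

end Pred

/-! ### the level-`K` centre character is the `ℚ̄`-level one -/

section Chi

variable (L) {P : Place Qbar ↥(Fbar (M' * p))}

/-- chart 0: `chiK h b = χ_P (bc b)`. -/
theorem chiK_eq_chi0
    (h : RegAt A (hxN n e M' p hb hnM) (baseChangeHom (M' * p) K) (chart ↥(AK A K) tK) P)
    (h0 : (S0N L).InChart P) (b : ↥(chart ↥(AK A K) tK))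
    (hzB : baseChangeHom (M' * p) K (b : ↥(FK (M' * p) K)) ∈ (S0N L).B) :
    chiK h b = (S0N L).chi P h0 ⟨baseChangeHom (M' * p) K (b : ↥(FK (M' * p) K)), hzB⟩ := by
  rw [chiK_apply, NodalChart.chi_apply]
  congr 1

/-- chart 1: `chiK h b = χ_P (bc b)`. -/
theorem chiK_eq_chi1
    (h : RegAt A (hxN n e M' p hb hnM) (baseChangeHom (M' * p) K) (chart ↥(AK A K) tK⁻¹) P)
    (h1c : (S1N L).InChart P) (b : ↥(chart ↥(AK A K) tK⁻¹))
    (hzB : baseChangeHom (M' * p) K (b : ↥(FK (M' * p) K)) ∈ (S1N L).B) :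
    chiK h b = (S1N L).chi P h1c ⟨baseChangeHom (M' * p) K (b : ↥(FK (M' * p) K)), hzB⟩ := by
  rw [chiK_apply, NodalChart.chi_apply]
  congr 1

end Chi

/-! ### `hR1` for one place -/

section Node

variable (L' : PlaceLeaves L) (R : R1Leaves n e M' p hpM hb hnM A hA L)

include L' R in
/-- **chart 0**: a place regular on the level-`K` chart 0 whose centre lies on both components at the
`ℚ̄`-level reduces to a node `j`, and `rhoK1 b` has the value `chiK h b` at `ν₁ j`. -/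
theorem exists_node_B0 (hbc : baseChangeHom (M' * p) K tK = tN n e M' p hb hnM)
    (hB : ∀ b ∈ chart ↥(AK A K) tK, baseChangeHom (M' * p) K b ∈ GN M' p A)
    (P : Place Qbar ↥(Fbar (M' * p)))
    (h : RegAt A (hxN n e M' p hb hnM) (baseChangeHom (M' * p) K) (chart ↥(AK A K) tK) P)
    (hon1 : ∀ f ∈ chart ↥A (tN n e M' p hb hnM), ∀ h1 : f ∈ O1 M' p A, rho1 M' p A ⟨f, h1⟩ = 0 →
      ∀ hf : f ∈ P.toValuationSubring,
        valueHom (hxN n e M' p hb hnM) P ⟨f, hf⟩ ∈ A.nonunits)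
    (hon2 : ∀ f ∈ chart ↥A (tN n e M' p hb hnM), ∀ h2 : f ∈ O2 M' p A, rho2 M' p A ⟨f, h2⟩ = 0 →
      ∀ hf : f ∈ P.toValuationSubring,
        valueHom (hxN n e M' p hb hnM) P ⟨f, hf⟩ ∈ A.nonunits) :
    ∃ j : Fin (sN n e M' p hpM hb hnM A hA), ∀ b : ↥(chart ↥(AK A K) tK),
      ValAt ((nodesN n e M' p hpM hb hnM A hA).ν₁ j) (rhoK1 M' p A K _ hB b) (chiK h b) := by
  have h0 : (S0N L).InChart P := inChart0 L P hbc h
  have ho1 : (S0N L).On₁ P h0 := on₁_0 L P h0 hon1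
  have ho2 : (S0N L).On₂ P h0 := on₂_0 L P h0 hon2
  have hr : rN n e M' p hpM hb hnM A hA P = Sum.inr ((TR L' R).nodeIdx P h0 ho1 ho2) := by
    rw [← TR_r L' R P]
    exact (TR L' R).r_eq_node P h0 ho1 ho2
  obtain ⟨hν₁, -⟩ := Fermat.Agent.ES.W33.RNUnfold20.rN_eq_inr n e M' p hpM hb hnM A hA hr
  refine ⟨(TR L' R).nodeIdx P h0 ho1 ho2, fun b => ?_⟩
  have hzB : baseChangeHom (M' * p) K (b : ↥(FK (M' * p) K)) ∈ (S0N L).B := by
    have hh := Fermat.Agent.ES.RED.ChartUnion1.baseChangeHom_mem_chart A (M' * p) K tK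
      (b : ↥(FK (M' * p) K)) b.2
    rw [hbc] at hh
    exact hh
  rw [hν₁, chiK_eq_chi0 L h h0 b hzB]
  exact valAt_of_isCentre ((S0N L).isCentre₁ P h0 ho1) _ (R.r1₀ P h0 ho1)
    ⟨baseChangeHom (M' * p) K (b : ↥(FK (M' * p) K)), hzB⟩

include L' R in
/-- **chart 1**: the same on the level-`K` chart 1 (a centre on both components lies in chart 0 by
`PlaceLeaves.no_node1`). -/
theorem exists_node_B1 (hbc : baseChangeHom (M' * p) K tK = tN n e M' p hb hnM)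
    (hB : ∀ b ∈ chart ↥(AK A K) tK⁻¹, baseChangeHom (M' * p) K b ∈ GN M' p A)
    (P : Place Qbar ↥(Fbar (M' * p)))
    (h : RegAt A (hxN n e M' p hb hnM) (baseChangeHom (M' * p) K) (chart ↥(AK A K) tK⁻¹) P)
    (hon1 : ∀ f ∈ chart ↥A (tN n e M' p hb hnM)⁻¹, ∀ h1 : f ∈ O1 M' p A,
      rho1 M' p A ⟨f, h1⟩ = 0 → ∀ hf : f ∈ P.toValuationSubring,
        valueHom (hxN n e M' p hb hnM) P ⟨f, hf⟩ ∈ A.nonunits)
    (hon2 : ∀ f ∈ chart ↥A (tN n e M' p hb hnM)⁻¹, ∀ h2 : f ∈ O2 M' p A,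
      rho2 M' p A ⟨f, h2⟩ = 0 → ∀ hf : f ∈ P.toValuationSubring,
        valueHom (hxN n e M' p hb hnM) P ⟨f, hf⟩ ∈ A.nonunits) :
    ∃ j : Fin (sN n e M' p hpM hb hnM A hA), ∀ b : ↥(chart ↥(AK A K) tK⁻¹),
      ValAt ((nodesN n e M' p hpM hb hnM A hA).ν₁ j) (rhoK1 M' p A K _ hB b) (chiK h b) := by
  have h1c : (S1N L).InChart P := inChart1 L P hbc h
  have ho1' : (S1N L).On₁ P h1c := on₁_1 L P h1c hon1
  have ho2' : (S1N L).On₂ P h1c := on₂_1 L P h1c hon2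
  have h0 : (S0N L).InChart P := by
    by_contra h0
    exact L'.no_node1 P h1c h0 ⟨ho1', ho2'⟩
  have ho1 : (S0N L).On₁ P h0 := ((TR L' R).on₁_iff P h0 h1c).2 ho1'
  have ho2 : (S0N L).On₂ P h0 := ((TR L' R).on₂_iff P h0 h1c).2 ho2'
  have hr : rN n e M' p hpM hb hnM A hA P = Sum.inr ((TR L' R).nodeIdx P h0 ho1 ho2) := by
    rw [← TR_r L' R P]
    exact (TR L' R).r_eq_node P h0 ho1 ho2
  obtain ⟨hν₁, -⟩ := Fermat.Agent.ES.W33.RNUnfold20.rN_eq_inr n e M' p hpM hb hnM A hA hr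
  refine ⟨(TR L' R).nodeIdx P h0 ho1 ho2, fun b => ?_⟩
  have hzB : baseChangeHom (M' * p) K (b : ↥(FK (M' * p) K)) ∈ (S1N L).B := by
    have hh := Fermat.Agent.ES.RED.ChartUnion1.baseChangeHom_mem_chart A (M' * p) K tK⁻¹
      (b : ↥(FK (M' * p) K)) b.2
    rw [map_inv₀, hbc] at hh
    exact hh
  rw [hν₁, chiK_eq_chi1 L h h1c b hzB]
  exact valAt_of_isCentre ((S1N L).isCentre₁ P h1c ho1') _ (R.r1₁ P h1c ho1')
    ⟨baseChangeHom (M' * p) K (b : ↥(FK (M' * p) K)), hzB⟩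

end Node

/-! ### `hR1` of `HdNode6.hD_B0 / hD_B1` -/

section HR1

variable (L' : PlaceLeaves L) (R : R1Leaves n e M' p hpM hb hnM A hA L)

include L' R in
/-- **`hR1` of `HdNode6.hD_B0`** (at `N := nodesN`), from the two inter-level converses in the shape
of `NodeConv6`: a centre on the level-`K` branch `i` is a centre on the `ℚ̄`-level branch `i`. -/
theorem hR1_B0 (hbc : baseChangeHom (M' * p) K tK = tN n e M' p hb hnM)
    (hB : ∀ b ∈ chart ↥(AK A K) tK, baseChangeHom (M' * p) K b ∈ GN M' p A)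
    (hconv1 : ∀ (P : Place Qbar ↥(Fbar (M' * p)))
      (h : RegAt A (hxN n e M' p hb hnM) (baseChangeHom (M' * p) K) (chart ↥(AK A K) tK) P),
      RingHom.ker (rhoK1 M' p A K _ hB) ≤ centreK h →
      ∀ f ∈ chart ↥A (baseChangeHom (M' * p) K tK), ∀ h1 : f ∈ O1 M' p A,
        rho1 M' p A ⟨f, h1⟩ = 0 → ∀ hf : f ∈ P.toValuationSubring,
          valueHom (hxN n e M' p hb hnM) P ⟨f, hf⟩ ∈ A.nonunits)
    (hconv2 : ∀ (P : Place Qbar ↥(Fbar (M' * p)))
      (h : RegAt A (hxN n e M' p hb hnM) (baseChangeHom (M' * p) K) (chart ↥(AK A K) tK) P),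
      RingHom.ker (rhoK2 M' p A K _ hB) ≤ centreK h →
      ∀ f ∈ chart ↥A (baseChangeHom (M' * p) K tK), ∀ h2 : f ∈ O2 M' p A,
        rho2 M' p A ⟨f, h2⟩ = 0 → ∀ hf : f ∈ P.toValuationSubring,
          valueHom (hxN n e M' p hb hnM) P ⟨f, hf⟩ ∈ A.nonunits) :
    ∀ (P : Place Qbar ↥(Fbar (M' * p)))
      (h : RegAt A (hxN n e M' p hb hnM) (baseChangeHom (M' * p) K) (chart ↥(AK A K) tK) P),
      RingHom.ker (rhoK1 M' p A K _ hB) ≤ centreK h →
      RingHom.ker (rhoK2 M' p A K _ hB) ≤ centreK h →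
      ∃ j : Fin (sN n e M' p hpM hb hnM A hA), ∀ b : ↥(chart ↥(AK A K) tK),
        ValAt ((nodesN n e M' p hpM hb hnM A hA).ν₁ j) (rhoK1 M' p A K _ hB b) (chiK h b) :=
  fun P h hk1 hk2 => exists_node_B0 L' R hbc hB P h
    (fun f hf => hconv1 P h hk1 f (by rw [hbc]; exact hf))
    (fun f hf => hconv2 P h hk2 f (by rw [hbc]; exact hf))

include L' R in
/-- **`hR1` of `HdNode6.hD_B1`** (at `N := nodesN`). -/
theorem hR1_B1 (hbc : baseChangeHom (M' * p) K tK = tN n e M' p hb hnM)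
    (hB : ∀ b ∈ chart ↥(AK A K) tK⁻¹, baseChangeHom (M' * p) K b ∈ GN M' p A)
    (hconv1 : ∀ (P : Place Qbar ↥(Fbar (M' * p)))
      (h : RegAt A (hxN n e M' p hb hnM) (baseChangeHom (M' * p) K) (chart ↥(AK A K) tK⁻¹) P),
      RingHom.ker (rhoK1 M' p A K _ hB) ≤ centreK h →
      ∀ f ∈ chart ↥A (baseChangeHom (M' * p) K tK⁻¹), ∀ h1 : f ∈ O1 M' p A,
        rho1 M' p A ⟨f, h1⟩ = 0 → ∀ hf : f ∈ P.toValuationSubring,
          valueHom (hxN n e M' p hb hnM) P ⟨f, hf⟩ ∈ A.nonunits)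
    (hconv2 : ∀ (P : Place Qbar ↥(Fbar (M' * p)))
      (h : RegAt A (hxN n e M' p hb hnM) (baseChangeHom (M' * p) K) (chart ↥(AK A K) tK⁻¹) P),
      RingHom.ker (rhoK2 M' p A K _ hB) ≤ centreK h →
      ∀ f ∈ chart ↥A (baseChangeHom (M' * p) K tK⁻¹), ∀ h2 : f ∈ O2 M' p A,
        rho2 M' p A ⟨f, h2⟩ = 0 → ∀ hf : f ∈ P.toValuationSubring,
          valueHom (hxN n e M' p hb hnM) P ⟨f, hf⟩ ∈ A.nonunits) :
    ∀ (P : Place Qbar ↥(Fbar (M' * p)))
      (h : RegAt A (hxN n e M' p hb hnM) (baseChangeHom (M' * p) K) (chart ↥(AK A K) tK⁻¹) P),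
      RingHom.ker (rhoK1 M' p A K _ hB) ≤ centreK h →
      RingHom.ker (rhoK2 M' p A K _ hB) ≤ centreK h →
      ∃ j : Fin (sN n e M' p hpM hb hnM A hA), ∀ b : ↥(chart ↥(AK A K) tK⁻¹),
        ValAt ((nodesN n e M' p hpM hb hnM A hA).ν₁ j) (rhoK1 M' p A K _ hB b) (chiK h b) := by
  have hbc' : baseChangeHom (M' * p) K tK⁻¹ = (tN n e M' p hb hnM)⁻¹ := by rw [map_inv₀, hbc]
  exact fun P h hk1 hk2 => exists_node_B1 L' R hbc hB P h
    (fun f hf => hconv1 P h hk1 f (by rw [hbc']; exact hf))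
    (fun f hf => hconv2 P h hk2 f (by rw [hbc']; exact hf))

end HR1

end Fermat.Agent.ES.W33.HdR1N17
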