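/-
Programme W (S33), chapter B1′ (helper12, assembly): **the abstract lifting theorem** — the junction
of `V19/CechNakayama12` (Nakayama + lifting over a local ring) with `V19/IndepLift12` (lifts of
residually independent vectors are independent), with NO reference to a model.  Mathlib + the two
abstract V19 files only.

`L` a field, `A` a valuation subring of `L`, `k` a field with `res : A →+* k` killing `𝔪_A`;
`E` an `L`-vector space (the function field of the generic fibre), `N₀, N₁ ≤ N₀₁` `A`-submodules of `E`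
(sections over the two charts and the overlap), `S ⊆ E` an `A`-stable additive subgroup containing
`N₀₁` (the integral elements) with `ρ : S →+ Eb` semilinear along `res` (`Eb` a `k`-vector space: the
total ring of fractions `F̃₁ × F̃₂` of the special fibre).  Suppose

* (I1) `N₀₁ / (N₀ + N₁)` is generated by finitely many elements of `N₀₁`;
* (I2) `x ∈ N₀₁`, `ρ x = 0 ⟹ x ∈ 𝔪_A • N₀₁`;
* (H¹ = 0 on the special fibre) `ρ N₀₁ ⊆ ρ N₀ + ρ N₁`;
* `V ⊆ Eb` a `k`-subspace each of whose elements is `ρ a = ρ b` with `a ∈ N₀`, `b ∈ N₁`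
  (the glued space of sections on the special fibre, by (I3));
* `W ⊆ E` an `L`-subspace containing `N₀ ⊓ N₁` (the space `L(n D∞)` of the generic fibre).

Then `dim_k V ≤ dim_L W`.
-/
import Mathlib
import Fermat.Agent.ES.V19.CechNakayama12
import Fermat.Agent.ES.V19.IndepLift12

set_option autoImplicit false

namespace Fermat.Agent.ES.W33.LiftAbs12

open IsLocalRing

variable {L k E Eb : Type*} [Field L] [Field k] [AddCommGroup E] [Module L E]
  [AddCommGroup Eb] [Module k Eb]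

/-- **Sections of the special fibre lift, dimension form.** -/
theorem finrank_le_of_lift (A : ValuationSubring L) (res : ↥A →+* k)
    (hres : ∀ c : ↥A, c ∈ maximalIdeal ↥A → res c = 0)
    (S : AddSubgroup E) (hS : ∀ (a : ↥A) (x : E), x ∈ S → (a : L) • x ∈ S)
    (ρ : ↥S →+ Eb)
    (hρ : ∀ (a : ↥A) (x : ↥S), ρ ⟨(a : L) • (x : E), hS a x x.2⟩ = res a • ρ x)
    (N0 N1 N01 : Submodule ↥A E) (h0 : N0 ≤ N01) (h1 : N1 ≤ N01)
    (h01 : ∀ x ∈ N01, x ∈ S)
    (G : Finset E) (hGmem : ∀ g ∈ G, g ∈ N01)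
    (hG : N01 ≤ Submodule.span ↥A (G : Set E) ⊔ (N0 ⊔ N1))
    (hker : ∀ (x : E) (hx : x ∈ N01), ρ ⟨x, h01 x hx⟩ = 0 → x ∈ maximalIdeal ↥A • N01)
    (hsum : ∀ (x : E) (hx : x ∈ N01), ∃ (a : E) (ha : a ∈ N0) (b : E) (hb : b ∈ N1),
      ρ ⟨x, h01 x hx⟩ = ρ ⟨a, h01 a (h0 ha)⟩ + ρ ⟨b, h01 b (h1 hb)⟩)
    (V : Submodule k Eb) [FiniteDimensional k V]
    (hV : ∀ v ∈ V, ∃ (a : E) (ha : a ∈ N0) (b : E) (hb : b ∈ N1),
      ρ ⟨a, h01 a (h0 ha)⟩ = v ∧ ρ ⟨b, h01 b (h1 hb)⟩ = v)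
    (W : Submodule L E) [FiniteDimensional L W]
    (hW : ∀ x, x ∈ N0 → x ∈ N1 → x ∈ W) :
    Module.finrank k V ≤ Module.finrank L W := by
  classical
  -- the reduction on `N01`
  let ρ' : ↥N01 →+ Eb :=
    { toFun := fun x => ρ ⟨x.1, h01 x.1 x.2⟩
      map_zero' := by
        have : (⟨((0 : ↥N01) : E), h01 _ (0 : ↥N01).2⟩ : ↥S) = 0 := rfl
        rw [this, map_zero]
      map_add' := fun x y => by
        have : (⟨((x + y : ↥N01) : E), h01 _ (x + y).2⟩ : ↥S) =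
            ⟨x.1, h01 x.1 x.2⟩ + ⟨y.1, h01 y.1 y.2⟩ := rfl
        rw [this, map_add] }
  have hρ' : ∀ (x : E) (hx : x ∈ N01), ρ' ⟨x, hx⟩ = ρ ⟨x, h01 x hx⟩ := fun _ _ => rfl
  -- `ρ'` kills `𝔪 • N01`
  have hρm : ∀ (c : ↥A) (x : ↥N01), c ∈ maximalIdeal ↥A → ρ' (c • x) = 0 := by
    intro c x hc
    have h2 : ρ' (c • x) = ρ ⟨(c : L) • (x : E), hS c x.1 (h01 x.1 x.2)⟩ := rfl
    rw [h2, hρ c ⟨x.1, h01 x.1 x.2⟩, hres c hc, zero_smul]
  have hker' : ∀ x : ↥N01, ρ' x = 0 → (x : E) ∈ maximalIdeal ↥A • N01 :=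
    fun x hx => hker x.1 x.2 hx
  have hsum' : ∀ x : ↥N01, ∃ (a : E) (ha : a ∈ N0) (b : E) (hb : b ∈ N1),
      ρ' x = ρ' ⟨a, h0 ha⟩ + ρ' ⟨b, h1 hb⟩ := fun x => hsum x.1 x.2
  -- `H¹ = 0`
  have hle : N01 ≤ N0 ⊔ N1 :=
    Fermat.Agent.ES.V19.CechNakayama12.le_sup N0 N1 N01 h0 h1 ρ' hker' G hGmem hG hsum'
  -- lift a basis of `V`
  let bs := Module.finBasis k V
  have hlift : ∀ i, ∃ (x : E) (hx0 : x ∈ N0) (_ : x ∈ N1),
      ρ ⟨x, h01 x (h0 hx0)⟩ = ((bs i : V) : Eb) := by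
    intro i
    obtain ⟨a, ha, b, hb, hav, hbv⟩ := hV _ (bs i).2
    have hab : ρ' ⟨a, h0 ha⟩ = ρ' ⟨b, h1 hb⟩ := by rw [hρ', hρ', hav, hbv]
    obtain ⟨x, hx0, hx1, hx⟩ :=
      Fermat.Agent.ES.V19.CechNakayama12.exists_lift N0 N1 N01 h0 h1 ρ' hρm hker' hle a ha b hb hab
    exact ⟨x, hx0, hx1, by rw [← hρ' x (h0 hx0), hx, hρ', hav]⟩
  choose x hx0 hx1 hx using hlift
  -- the lifts are independent
  let f : Fin (Module.finrank k V) → ↥S := fun i => ⟨x i, h01 _ (h0 (hx0 i))⟩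
  have hli : LinearIndependent k fun i => ρ (f i) := by
    have h5 : (fun i => ρ (f i)) = fun i => ((bs i : V) : Eb) := by
      funext i
      exact hx i
    rw [h5]
    exact bs.linearIndependent.map' (Submodule.subtype _) (Submodule.ker_subtype _)
  have hindep : LinearIndependent L fun i => ((f i : ↥S) : E) :=
    Fermat.Agent.ES.V19.IndepLift12.linearIndependent_of_reduction A res S hS ρ hρ f hli
  -- they lie in `W`
  let y : Fin (Module.finrank k V) → W := fun i => ⟨x i, hW _ (hx0 i) (hx1 i)⟩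
  have hy : LinearIndependent L y := by
    apply LinearIndependent.of_comp (Submodule.subtype W)
    exact hindep
  have := hy.fintype_card_le_finrank
  simpa using this

end Fermat.Agent.ES.W33.LiftAbs12
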