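/-
Programme W (S33), chapter (B3′), leaf w67 (2), helper1: **THE TWO GLOBAL LOCALISING ELEMENTS of the
chart `chart ↥A tN` of the bad level.**

`p` odd, `p ∤ M'`, `4 ∣ M'`, `A ≤ ℚ̄` over `p`; `t := tN 4 8 M' p hb hnM`,
`y := heckeBetaBar ℚ̄ M' p (tV 4 8 M' hb hnM)` (`q`-expansion `t(q^p)`; helper9's `CoordFixN9` term);
**`e₁ := t - y^p`** (vanishes on the SECOND component), **`e₂ := y - t^p`** (vanishes on the FIRST).

LEVEL `K` (`N34/ModelDefs9` names):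
* `locElem_at` : at one number field `K` (from `NodalDataAt` + the Kronecker inputs):
  `yN ∈ B0`, `yN⁻¹ ∈ B1`, and the four Kronecker congruences (`PowQuot1.kron_tN_yN`);
* `e1K_mem`, `e2K_mem` : `tN - yN^q`, `yN - tN^q ∈ B0` once `yN ∈ B0`;
* **`locElem_four`** : the same for all large normal `K` (`ModelN4.Large`), NO hypotheses left;
* `bc_yN`, `bc_e1`, `bc_e2`, `bc_e1_inv`, `bc_e2_inv` : base change of the level-`K` elements.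
LEVEL `ℚ̄` (`W33/NodalDefs3` names):
* **`locElem_qbar`** : `y ∈ chart ↥A t`, `y⁻¹ ∈ chart ↥A t⁻¹`, `e₂ = y - t^p ∈ O1` with `rho1 e₂ = 0`,
  `e₁ = t - y^p ∈ O2` with `rho2 e₁ = 0`, and the chart-1 twins (`y⁻¹ - (t⁻¹)^p`, `t⁻¹ - (y⁻¹)^p`).
ABSTRACT: `sub_pow_ne_zero` (`τ - τ^m ≠ 0` for `τ` transcendental, `m ≠ 1`), `pair_ne_zero`
  (`ρ₁ (y - t^m) = 0`, `ρ₂ (t - y^m) = 0`, `ρ₁ t`, `ρ₂ t` transcendental ⇒ `ρ₁ (t - y^m) ≠ 0`,
  `ρ₂ (y - t^m) ≠ 0`: `ρ₁ y = (ρ₁ t)^m`, so `ρ₁ (t - y^m) = t̃ - t̃^(m²)`).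
CHART VOCABULARY (`TwoChartsNInst20.S0N`, `L : ChartLeaves 4 8 M' p hb hnM A`):
* **`yN_mem_B`** (`y ∈ (S0N L).B`), `yN_inv_mem_B`; `yB`, **`e1N`**, **`e2N`** `: ↥(S0N L).B` with `coe_yB`,
  `coe_e1N`, `coe_e2N` (`rfl`);
* **`ρ₂_e1N : (S0N L).ρ₂ e1N = 0`**, **`ρ₁_e1N_ne_zero`**, **`ρ₁_e2N : (S0N L).ρ₁ e2N = 0`**,
  **`ρ₂_e2N_ne_zero`**; `exists_locElem` (packaged).
-/
import Mathlib
import Fermat.Agent.ES.W33.NoNodeQbar1
import Fermat.Agent.ES.W33.TransN4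

set_option autoImplicit false
set_option synthInstance.maxHeartbeats 400000
set_option linter.unusedSectionVars false
set_option linter.style.haveILetI false

open HahnSeries ModularCurve AlgebraicCurve

noncomputable section

namespace Fermat.Agent.ES.W33.LocElemN1

/-! ### level `K` -/

section LevelK

open Fermat.Agent.ES.N34.ModelDefs9 Fermat.Agent.ES.N34.KronChart15 Fermat.Agent.ES.N34.FrickeFK8
  Fermat.Agent.ES.N34.FrickeV11 Fermat.Agent.ES.N34.YMem11 Fermat.Agent.ES.N34.NodalCore13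
  Fermat.Agent.ES.N34.KronN14
  Fermat.Agent.ES.N34.ModelInput13 Fermat.Agent.ES.N34.ModEq23
  Fermat.Agent.RED.Interface4 Fermat.Agent.RED.PUR.GaussGen8 Fermat.Agent.RED.PUR.ChartGeneric22
  Fermat.Agent.RED.BASE.Interface12 Fermat.Agent.RED.BASE.Hauptmodul12
  Fermat.Agent.RED.BASE.EtaQuot12 Fermat.Agent.ES.N34.ModEqBar23
  Fermat.Agent.ES.KRON.Conjugates11 Fermat.Agent.ES.W33.PowQuot1

variable {A : ValuationSubring Qbar} {K : IntermediateField ℚ Qbar} (M' q : ℕ) [NeZero M'] [NeZero q]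
  {n e : ℕ} [NeZero n]

/-- **the localising data at one number field `K`**: `yN ∈ B0`, `yN⁻¹ ∈ B1` and the four Kronecker
congruences. -/
theorem locElem_at [hq : Fact q.Prime] [CharP (Res (AK A K)) q]
    (hb : BaseHyp n e) (hqn : ¬ q ∣ n) {π : ↥(AK A K)} (hπ : IsUnif (AK A K) π)
    (hE : FK (M' * q) K ≤ fracField (AK A K)) (ψ : K ≃ₐ[ℚ] K)
    (hψO : ∀ x ∈ AK A K, ((ψ : K ≃ₐ[ℚ] K) : K →+* K) x ∈ AK A K)
    (hψ : ∀ x : ↥(AK A K),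
      res0 (AK A K) (restrictO (AK A K) ((ψ : K ≃ₐ[ℚ] K) : K →+* K) hψO x) ^ q = res0 (AK A K) x)
    (ht : tq (↥K) n e ∈ FK M' K)
    (hiso : ∀ x : FK M' K, (x : LaurentSeries K) ∈ gaussRing (AK A K) →
      ((frickeFK M' K x : FK M' K) : LaurentSeries K) ∈ gaussRing (AK A K))
    (D : NodalDataAt (AK A K) (FK (M' * q) K) π (tN q ht) (B0 A q ht) (B1 A q ht)
      (O1 M' q hπ hE) (O2 M' q hπ hE)) :
    yN q ht ∈ B0 A q ht ∧ (yN q ht)⁻¹ ∈ B1 A q ht ∧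
    (∃ o ∈ O1 M' q hπ hE,
      yN q ht - tN q ht ^ q = algebraMap ↥(AK A K) ↥(FK (M' * q) K) π * o) ∧
    (∃ o ∈ O2 M' q hπ hE,
      tN q ht - yN q ht ^ q = algebraMap ↥(AK A K) ↥(FK (M' * q) K) π * o) ∧
    (∃ o ∈ O1 M' q hπ hE,
      (yN q ht)⁻¹ - ((tN q ht)⁻¹) ^ q = algebraMap ↥(AK A K) ↥(FK (M' * q) K) π * o) ∧
    (∃ o ∈ O2 M' q hπ hE,
      (tN q ht)⁻¹ - ((yN q ht)⁻¹) ^ q = algebraMap ↥(AK A K) ↥(FK (M' * q) K) π * o) := by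
  haveI := Fermat.Agent.RED.NumInst4.isScalarTower_OE (AK A K) (FK (M' * q) K)
  have DD := (nodalDataAt_iff (AK A K) (FK (M' * q) K) π (tN q ht) (B0 A q ht) (B1 A q ht)
    (O1 M' q hπ hE) (O2 M' q hπ hE)).mp D
  have M := DD.model
  obtain ⟨k1, k2, k3, k4⟩ := kron_tN_yN M' q hπ hE ψ hψO hψ ht hiso
  have y1 := yN_mem_O1 q ht hπ hE
  have yi1 := yN_inv_mem_O1 q ht hπ hE
  have y2 := yN_mem_O2 q ht hπ hE hiso
  have yi2 := yN_inv_mem_O2 q ht hπ hE hiso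
  have hπ1 : algebraMap ↥(AK A K) ↥(FK (M' * q) K) π ∈ O1 M' q hπ hE :=
    M.le_O1_0 _ (Subalgebra.algebraMap_mem _ π)
  have hπ2 : algebraMap ↥(AK A K) ↥(FK (M' * q) K) π ∈ O2 M' q hπ hE :=
    M.le_O2_0 _ (Subalgebra.algebraMap_mem _ π)
  exact ⟨yN_mem_B0 A q hb hq.out hqn ht π DD.dvrR _ _ hπ1 hπ2 M.sat0 y1 y2,
    inv_yN_mem_B1 A q hb hq.out hqn ht π DD.dvrR _ _ hπ1 hπ2 M.sat1 yi1 yi2, k1, k2, k3, k4⟩

/-- the level-`K` element `e₁_K = tN - yN^q` lies in the chart ring. -/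
theorem e1K_mem (ht : tq (↥K) n e ∈ FK M' K) (hy : yN q ht ∈ B0 A q ht) :
    tN q ht - yN q ht ^ q ∈ B0 A q ht :=
  sub_mem (show tN q ht ∈ chart ↥(AK A K) (tN q ht) from self_mem_chart _) (pow_mem hy q)

/-- the level-`K` element `e₂_K = yN - tN^q` lies in the chart ring. -/
theorem e2K_mem (ht : tq (↥K) n e ∈ FK M' K) (hy : yN q ht ∈ B0 A q ht) :
    yN q ht - tN q ht ^ q ∈ B0 A q ht :=
  sub_mem hy (pow_mem (show tN q ht ∈ chart ↥(AK A K) (tN q ht) from self_mem_chart _) q)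

/-- **the localising data, for all large normal `K`** (`q` odd, `4 ∣ M'`; NO hypotheses left). -/
theorem locElem_four (A : ValuationSubring Qbar) (hq : q.Prime) (hqM : ¬ q ∣ M') (hq2 : q ≠ 2)
    (hM : 4 ∣ M') (hA : A.LiesOverPrime q) :
    Fermat.Agent.ES.N34.ModelN4.Large (fun K : IntermediateField ℚ Qbar =>
      ∃ (ht : tq (↥K) 4 8 ∈ FK M' K) (hE : FK (M' * q) K ≤ fracField (AK A K)),
        ∀ (π : ↥(AK A K)) (hπ : IsUnif (AK A K) π),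
          yN q ht ∈ B0 A q ht ∧ (yN q ht)⁻¹ ∈ B1 A q ht ∧
          (∃ o ∈ O1 M' q hπ hE,
            yN q ht - tN q ht ^ q = algebraMap ↥(AK A K) ↥(FK (M' * q) K) π * o) ∧
          (∃ o ∈ O2 M' q hπ hE,
            tN q ht - yN q ht ^ q = algebraMap ↥(AK A K) ↥(FK (M' * q) K) π * o) ∧
          (∃ o ∈ O1 M' q hπ hE,
            (yN q ht)⁻¹ - ((tN q ht)⁻¹) ^ q = algebraMap ↥(AK A K) ↥(FK (M' * q) K) π * o) ∧
          (∃ o ∈ O2 M' q hπ hE,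
            (tN q ht)⁻¹ - ((yN q ht)⁻¹) ^ q =
              algebraMap ↥(AK A K) ↥(FK (M' * q) K) π * o)) := by
  obtain ⟨K₁, hK₁, hmodel⟩ := Fermat.Agent.ES.N34.ModelEnd4.modelInput_four q M' A hq hqM hq2 hM hA
  refine ⟨K₁, hK₁, fun K _ hfd hle => ?_⟩
  obtain ⟨ht, hE, hmod⟩ := hmodel K hfd hle
  refine ⟨ht, hE, fun π hπ => ?_⟩
  haveI := hfd
  have hdvr : IsDiscreteValuationRing ↥(AK A K) :=
    Fermat.Agent.RED.DESC.NumberFieldDVR27.isDiscreteValuationRing_AK A K hq.ne_zero hA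
  have hirr : Irreducible π := (IsDiscreteValuationRing.irreducible_iff_uniformizer π).mpr hπ.max_eq
  haveI : Fact q.Prime := ⟨hq⟩
  haveI : CharP (Res (AK A K)) q := charP_res A K q hq hA
  obtain ⟨ψ, hψO, hψ⟩ := exists_frobInv A K q hq hA
  have hiso : ∀ x : FK M' K, (x : LaurentSeries K) ∈ gaussRing (AK A K) →
      ((frickeFK M' K x : FK M' K) : LaurentSeries K) ∈ gaussRing (AK A K) :=
    fun x hx => (Fermat.Agent.ES.N34.IsoM25.isoM A K M' q hirr hqM x).mp hx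
  have hqn : ¬ q ∣ 4 := by
    intro h
    have h2 : q ∣ 2 := hq.dvd_of_dvd_pow (show q ∣ 2 ^ 2 by norm_num; exact h)
    exact hq2 ((Nat.prime_dvd_prime_iff_eq hq Nat.prime_two).mp h2)
  exact locElem_at M' q baseHyp_four hqn hπ hE ψ hψO hψ ht hiso (hmod π hπ)

end LevelK

/-! ### an abstract lemma: `τ - τ^(m*m) ≠ 0` on both components -/

section Abstract

variable {k Ft : Type*} [Field k] [Field Ft] [Algebra k Ft]

/-- a transcendental element is not a root of `X - X^m`, `m ≠ 1`. -/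
theorem sub_pow_ne_zero {τ : Ft} (hτ : Transcendental k τ) {m : ℕ} (hm : m ≠ 1) :
    τ - τ ^ m ≠ 0 := by
  intro h0
  apply hτ
  refine ⟨Polynomial.X - Polynomial.X ^ m, ?_, ?_⟩
  · intro hP
    have h1 := congrArg (fun P : Polynomial k => P.coeff 1) hP
    have h2 : (Polynomial.X - Polynomial.X ^ m : Polynomial k).coeff 1 = 1 := by
      rw [Polynomial.coeff_sub, Polynomial.coeff_X_one, Polynomial.coeff_X_pow,
        if_neg (fun h => hm h.symm), sub_zero]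
    have h3 : (1 : k) = 0 := by
      rw [← h2]
      exact h1
    exact one_ne_zero h3
  · rw [map_sub, map_pow, Polynomial.aeval_X]
    exact h0

/-- **the abstract localising pair**: `ρ₁ (y - t^m) = 0`, `ρ₂ (t - y^m) = 0`, `ρ₁ t`, `ρ₂ t`
transcendental, `m ≥ 2`: then `ρ₁ (t - y^m) ≠ 0` and `ρ₂ (y - t^m) ≠ 0`. -/
theorem pair_ne_zero {B : Type*} [CommRing B] (ρ₁ ρ₂ : B →+* Ft) (t y : B) {m : ℕ} (hm : 2 ≤ m)
    (h1 : ρ₁ (y - t ^ m) = 0) (h2 : ρ₂ (t - y ^ m) = 0)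
    (tr1 : Transcendental k (ρ₁ t)) (tr2 : Transcendental k (ρ₂ t)) :
    ρ₁ (t - y ^ m) ≠ 0 ∧ ρ₂ (y - t ^ m) ≠ 0 := by
  have hmm : m * m ≠ 1 := by
    intro h
    have h4 : 2 * 2 ≤ m * m := Nat.mul_le_mul hm hm
    rw [h] at h4
    exact absurd h4 (by decide)
  have e1 : ρ₁ y = ρ₁ t ^ m := by
    have := h1
    rw [map_sub, map_pow, sub_eq_zero] at this
    exact this
  have e2 : ρ₂ t = ρ₂ y ^ m := by
    have := h2
    rw [map_sub, map_pow, sub_eq_zero] at this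
    exact this
  constructor
  · rw [map_sub, map_pow, e1, ← pow_mul]
    exact sub_pow_ne_zero tr1 hmm
  · have tr2' : Transcendental k (ρ₂ y) := by
      intro halg
      apply tr2
      rw [e2]
      exact halg.pow m
    rw [map_sub, map_pow, e2, ← pow_mul]
    exact sub_pow_ne_zero tr2' hmm

end Abstract

/-! ### level `ℚ̄` -/

section Qbar

open Fermat.Agent.RED.Interface4 Fermat.Agent.RED.DESC Fermat.Agent.RED.DESC.NumberFieldDVR27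
  Fermat.Agent.RED.DESC.PlaceExtend27 Fermat.Agent.RED.BASE.Interface12
  Fermat.Agent.RED.BASE.Hauptmodul12 Fermat.Agent.RED.BASE.EtaQuot12
  Fermat.Agent.RED.PUR.GaussGen8 Fermat.Agent.RED.PUR.ChartGeneric22
  Fermat.Agent.ES.RED.Contract8 Fermat.Agent.ES.RED.GaussUnit25
  Fermat.Agent.ES.RED.ModelInst4 Fermat.Agent.ES.N34.FrickeFK8
  Fermat.Agent.ES.V19.GaussFrac15 Fermat.Agent.ES.V19.InstNames3
  Fermat.Agent.ES.W33.NodalDefs3 Fermat.Agent.ES.W33.NodalGauss3 Fermat.Agent.ES.W33.LevelCompare3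
  Fermat.Agent.ES.W33.NoNodeQbar1

attribute [local instance 5000] HahnSeries.powerSeriesAlgebra SubalgebraClass.toAlgebra

variable (M' : ℕ) [NeZero M'] (p : ℕ) [Fact p.Prime] (A : ValuationSubring Qbar)
  {K : IntermediateField ℚ Qbar}

/-- `bc yN_K = β tV`. -/
theorem bc_yN [NeZero p] (hb : BaseHyp 4 8) (hnM : 4 ∣ M') (ht : tq (↥K) 4 8 ∈ FK M' K) :
    baseChangeHom (M' * p) K (Fermat.Agent.ES.N34.ModelDefs9.yN p ht) =
      heckeBetaBar Qbar M' p (tV 4 8 M' hb hnM) := by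
  apply Subtype.ext
  rw [coe_baseChangeHom, Fermat.Agent.ES.N34.ModelDefs9.coe_yN, ModularCurve.coeffMap_qExpand,
    coeffMap_tq]
  rfl

/-- `bc (tN_K - yN_K^p) = e₁`. -/
theorem bc_e1 [NeZero p] (hb : BaseHyp 4 8) (hnM : 4 ∣ M') (ht : tq (↥K) 4 8 ∈ FK M' K) :
    baseChangeHom (M' * p) K (Fermat.Agent.ES.N34.ModelDefs9.tN p ht -
        Fermat.Agent.ES.N34.ModelDefs9.yN p ht ^ p) =
      tN 4 8 M' p hb hnM - heckeBetaBar Qbar M' p (tV 4 8 M' hb hnM) ^ p := by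
  rw [map_sub, map_pow, bc_tN M' p hb hnM ht, bc_yN M' p hb hnM ht]

/-- `bc (yN_K - tN_K^p) = e₂`. -/
theorem bc_e2 [NeZero p] (hb : BaseHyp 4 8) (hnM : 4 ∣ M') (ht : tq (↥K) 4 8 ∈ FK M' K) :
    baseChangeHom (M' * p) K (Fermat.Agent.ES.N34.ModelDefs9.yN p ht -
        Fermat.Agent.ES.N34.ModelDefs9.tN p ht ^ p) =
      heckeBetaBar Qbar M' p (tV 4 8 M' hb hnM) - tN 4 8 M' p hb hnM ^ p := by
  rw [map_sub, map_pow, bc_tN M' p hb hnM ht, bc_yN M' p hb hnM ht]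

/-- chart-1 twin of `bc_e1`. -/
theorem bc_e1_inv [NeZero p] (hb : BaseHyp 4 8) (hnM : 4 ∣ M') (ht : tq (↥K) 4 8 ∈ FK M' K) :
    baseChangeHom (M' * p) K ((Fermat.Agent.ES.N34.ModelDefs9.tN p ht)⁻¹ -
        ((Fermat.Agent.ES.N34.ModelDefs9.yN p ht)⁻¹) ^ p) =
      (tN 4 8 M' p hb hnM)⁻¹ - ((heckeBetaBar Qbar M' p (tV 4 8 M' hb hnM))⁻¹) ^ p := by
  rw [map_sub, map_pow, map_inv₀, map_inv₀, bc_tN M' p hb hnM ht, bc_yN M' p hb hnM ht]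

/-- chart-1 twin of `bc_e2`. -/
theorem bc_e2_inv [NeZero p] (hb : BaseHyp 4 8) (hnM : 4 ∣ M') (ht : tq (↥K) 4 8 ∈ FK M' K) :
    baseChangeHom (M' * p) K ((Fermat.Agent.ES.N34.ModelDefs9.yN p ht)⁻¹ -
        ((Fermat.Agent.ES.N34.ModelDefs9.tN p ht)⁻¹) ^ p) =
      (heckeBetaBar Qbar M' p (tV 4 8 M' hb hnM))⁻¹ - ((tN 4 8 M' p hb hnM)⁻¹) ^ p := by
  rw [map_sub, map_pow, map_inv₀, map_inv₀, bc_tN M' p hb hnM ht, bc_yN M' p hb hnM ht]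

set_option maxHeartbeats 1600000 in
/-- **THE LOCALISING DATA over `ℚ̄`** (see the file header). -/
theorem locElem_qbar (hp2 : p ≠ 2) (hpM : ¬ p ∣ M') (hA : A.LiesOverPrime p)
    (hb : BaseHyp 4 8) (hnM : 4 ∣ M') :
    heckeBetaBar Qbar M' p (tV 4 8 M' hb hnM) ∈ chart ↥A (tN 4 8 M' p hb hnM) ∧
    (heckeBetaBar Qbar M' p (tV 4 8 M' hb hnM))⁻¹ ∈ chart ↥A (tN 4 8 M' p hb hnM)⁻¹ ∧
    (∃ h : heckeBetaBar Qbar M' p (tV 4 8 M' hb hnM) - tN 4 8 M' p hb hnM ^ p ∈ O1 M' p A,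
      rho1 M' p A ⟨_, h⟩ = 0) ∧
    (∃ h : tN 4 8 M' p hb hnM - heckeBetaBar Qbar M' p (tV 4 8 M' hb hnM) ^ p ∈ O2 M' p A,
      rho2 M' p A ⟨_, h⟩ = 0) ∧
    (∃ h : (heckeBetaBar Qbar M' p (tV 4 8 M' hb hnM))⁻¹ - ((tN 4 8 M' p hb hnM)⁻¹) ^ p ∈
        O1 M' p A, rho1 M' p A ⟨_, h⟩ = 0) ∧
    (∃ h : (tN 4 8 M' p hb hnM)⁻¹ - ((heckeBetaBar Qbar M' p (tV 4 8 M' hb hnM))⁻¹) ^ p ∈
        O2 M' p A, rho2 M' p A ⟨_, h⟩ = 0) := by
  have hp : p.Prime := Fact.out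
  haveI : NeZero p := ⟨hp.ne_zero⟩
  obtain ⟨K₀, hK₀, H⟩ := locElem_four M' p A hp hpM hp2 hnM hA
  haveI := hK₀
  -- a normal number field containing `K₀`
  have hgal : IsGalois ℚ Qbar := Fermat.Agent.Lib.FrobeniusExists.isGalois_Qbar
  haveI hnorQ : Normal ℚ Qbar := hgal.to_normal
  haveI halgQ : Algebra.IsAlgebraic ℚ Qbar := isAlgebraic_Qbar
  let K : IntermediateField ℚ Qbar := IntermediateField.normalClosure ℚ K₀ Qbar
  have hK₀K : K₀ ≤ K := IntermediateField.le_normalClosure K₀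
  haveI hfinK : FiniteDimensional ℚ K := normalClosure.is_finiteDimensional ℚ K₀ Qbar
  obtain ⟨ht, hE, h⟩ := @H K (normalClosure.normal ℚ K₀ Qbar) hfinK hK₀K
  haveI hdvr : IsDiscreteValuationRing ↥(AK A K) := isDiscreteValuationRing_AK A K hp.ne_zero hA
  obtain ⟨ϖ, hϖ⟩ := IsDiscreteValuationRing.exists_irreducible ↥(AK A K)
  have hπ : IsUnif (AK A K) ϖ := isUnif_of_irreducible (AK A K) hϖ
  obtain ⟨hy, hyi, k1, k2, k3, k4⟩ := h ϖ hπ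
  have hbc := bc_tN M' p (K := K) hb hnM ht
  have hbci : baseChangeHom (M' * p) K (Fermat.Agent.ES.N34.ModelDefs9.tN p ht)⁻¹ =
      (tN 4 8 M' p hb hnM)⁻¹ := by rw [map_inv₀, hbc]
  have hby := bc_yN M' p (K := K) hb hnM ht
  have hbyi : baseChangeHom (M' * p) K (Fermat.Agent.ES.N34.ModelDefs9.yN p ht)⁻¹ =
      (heckeBetaBar Qbar M' p (tV 4 8 M' hb hnM))⁻¹ := by rw [map_inv₀, hby]
  refine ⟨?_, ?_, ?_, ?_, ?_, ?_⟩
  · rw [← hbc, ← hby]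
    exact Fermat.Agent.ES.RED.ChartUnion1.baseChangeHom_mem_chart A (M' * p) K _ _ hy
  · rw [← hbci, ← hbyi]
    exact Fermat.Agent.ES.RED.ChartUnion1.baseChangeHom_mem_chart A (M' * p) K _ _ hyi
  · obtain ⟨hX, hρ⟩ := rho1_bc_eq_zero M' p A hp2 hpM hnM hA hπ hE _ k1
    have e := bc_e2 M' p (K := K) hb hnM ht
    exact ⟨e ▸ hX, by
      have : (⟨heckeBetaBar Qbar M' p (tV 4 8 M' hb hnM) - tN 4 8 M' p hb hnM ^ p, e ▸ hX⟩ :
          ↥(O1 M' p A)) = ⟨baseChangeHom (M' * p) K (Fermat.Agent.ES.N34.ModelDefs9.yN p ht -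
            Fermat.Agent.ES.N34.ModelDefs9.tN p ht ^ p), hX⟩ := Subtype.ext e.symm
      rw [this]; exact hρ⟩
  · obtain ⟨hX, hρ⟩ := rho2_bc_eq_zero M' p A hp2 hpM hnM hA hπ hE _ k2
    have e := bc_e1 M' p (K := K) hb hnM ht
    exact ⟨e ▸ hX, by
      have : (⟨tN 4 8 M' p hb hnM - heckeBetaBar Qbar M' p (tV 4 8 M' hb hnM) ^ p, e ▸ hX⟩ :
          ↥(O2 M' p A)) = ⟨baseChangeHom (M' * p) K (Fermat.Agent.ES.N34.ModelDefs9.tN p ht -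
            Fermat.Agent.ES.N34.ModelDefs9.yN p ht ^ p), hX⟩ := Subtype.ext e.symm
      rw [this]; exact hρ⟩
  · obtain ⟨hX, hρ⟩ := rho1_bc_eq_zero M' p A hp2 hpM hnM hA hπ hE _ k3
    have e := bc_e2_inv M' p (K := K) hb hnM ht
    exact ⟨e ▸ hX, by
      have : (⟨(heckeBetaBar Qbar M' p (tV 4 8 M' hb hnM))⁻¹ - ((tN 4 8 M' p hb hnM)⁻¹) ^ p,
          e ▸ hX⟩ : ↥(O1 M' p A)) =
          ⟨baseChangeHom (M' * p) K ((Fermat.Agent.ES.N34.ModelDefs9.yN p ht)⁻¹ -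
            ((Fermat.Agent.ES.N34.ModelDefs9.tN p ht)⁻¹) ^ p), hX⟩ := Subtype.ext e.symm
      rw [this]; exact hρ⟩
  · obtain ⟨hX, hρ⟩ := rho2_bc_eq_zero M' p A hp2 hpM hnM hA hπ hE _ k4
    have e := bc_e1_inv M' p (K := K) hb hnM ht
    exact ⟨e ▸ hX, by
      have : (⟨(tN 4 8 M' p hb hnM)⁻¹ - ((heckeBetaBar Qbar M' p (tV 4 8 M' hb hnM))⁻¹) ^ p,
          e ▸ hX⟩ : ↥(O2 M' p A)) =
          ⟨baseChangeHom (M' * p) K ((Fermat.Agent.ES.N34.ModelDefs9.tN p ht)⁻¹ -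
            ((Fermat.Agent.ES.N34.ModelDefs9.yN p ht)⁻¹) ^ p), hX⟩ := Subtype.ext e.symm
      rw [this]; exact hρ⟩

end Qbar

/-! ### chart vocabulary (`TwoChartsNInst20.S0N`) -/

section Chart

open Fermat.Agent.RED.Interface4 Fermat.Agent.RED.BASE.Interface12
  Fermat.Agent.RED.BASE.Hauptmodul12 Fermat.Agent.RED.BASE.EtaQuot12
  Fermat.Agent.RED.PUR.ChartGeneric22
  Fermat.Agent.ES.RED.Contract8 Fermat.Agent.ES.V19.InstNames3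
  Fermat.Agent.ES.W33.NodalDefs3 Fermat.Agent.ES.W33.NodalGauss3
  Fermat.Agent.ES.W33.NodalChart20 Fermat.Agent.ES.W33.TwoChartsNInst20

attribute [local instance 5000] HahnSeries.powerSeriesAlgebra SubalgebraClass.toAlgebra

variable {M' : ℕ} [NeZero M'] {p : ℕ} [Fact p.Prime] {hb : BaseHyp 4 8} {hnM : 4 ∣ M'}
  {A : ValuationSubring Qbar} (L : ChartLeaves 4 8 M' p hb hnM A)

/-- **`yN` lies in the chart ring of `S0N`** (helper26's `hs₂`, with `LocChartGenN9.le_locRing`). -/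
theorem yN_mem_B (hp2 : p ≠ 2) (hpM : ¬ p ∣ M') (hA : A.LiesOverPrime p) :
    heckeBetaBar Qbar M' p (tV 4 8 M' hb hnM) ∈ (S0N L).B :=
  (locElem_qbar M' p A hp2 hpM hA hb hnM).1

/-- `yN⁻¹` lies in the chart ring of `S1N`. -/
theorem yN_inv_mem_B (hp2 : p ≠ 2) (hpM : ¬ p ∣ M') (hA : A.LiesOverPrime p) :
    (heckeBetaBar Qbar M' p (tV 4 8 M' hb hnM))⁻¹ ∈ (S1N L).B :=
  (locElem_qbar M' p A hp2 hpM hA hb hnM).2.1

/-- `yN` as an element of the chart ring of `S0N`. -/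
def yB (hp2 : p ≠ 2) (hpM : ¬ p ∣ M') (hA : A.LiesOverPrime p) : ↥(S0N L).B :=
  ⟨heckeBetaBar Qbar M' p (tV 4 8 M' hb hnM), yN_mem_B L hp2 hpM hA⟩

/-- **`e₁ = tN - yN^p`** (vanishes on the second component). -/
def e1N (hp2 : p ≠ 2) (hpM : ¬ p ∣ M') (hA : A.LiesOverPrime p) : ↥(S0N L).B :=
  (S0N L).sB - yB L hp2 hpM hA ^ p

/-- **`e₂ = yN - tN^p`** (vanishes on the first component). -/
def e2N (hp2 : p ≠ 2) (hpM : ¬ p ∣ M') (hA : A.LiesOverPrime p) : ↥(S0N L).B :=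
  yB L hp2 hpM hA - (S0N L).sB ^ p

theorem coe_yB (hp2 : p ≠ 2) (hpM : ¬ p ∣ M') (hA : A.LiesOverPrime p) :
    ((yB L hp2 hpM hA : ↥(S0N L).B) : ↥(Fbar (M' * p))) =
      heckeBetaBar Qbar M' p (tV 4 8 M' hb hnM) := rfl

theorem coe_e1N (hp2 : p ≠ 2) (hpM : ¬ p ∣ M') (hA : A.LiesOverPrime p) :
    ((e1N L hp2 hpM hA : ↥(S0N L).B) : ↥(Fbar (M' * p))) =
      tN 4 8 M' p hb hnM - heckeBetaBar Qbar M' p (tV 4 8 M' hb hnM) ^ p := rfl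

theorem coe_e2N (hp2 : p ≠ 2) (hpM : ¬ p ∣ M') (hA : A.LiesOverPrime p) :
    ((e2N L hp2 hpM hA : ↥(S0N L).B) : ↥(Fbar (M' * p))) =
      heckeBetaBar Qbar M' p (tV 4 8 M' hb hnM) - tN 4 8 M' p hb hnM ^ p := rfl

/-- **`e₁` vanishes on the second component.** -/
theorem ρ₂_e1N (hp2 : p ≠ 2) (hpM : ¬ p ∣ M') (hA : A.LiesOverPrime p) :
    (S0N L).ρ₂ (e1N L hp2 hpM hA) = 0 := by
  obtain ⟨h, hρ⟩ := (locElem_qbar M' p A hp2 hpM hA hb hnM).2.2.2.1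
  rw [S0N_ρ₂]
  exact hρ

/-- **`e₂` vanishes on the first component.** -/
theorem ρ₁_e2N (hp2 : p ≠ 2) (hpM : ¬ p ∣ M') (hA : A.LiesOverPrime p) :
    (S0N L).ρ₁ (e2N L hp2 hpM hA) = 0 := by
  obtain ⟨h, hρ⟩ := (locElem_qbar M' p A hp2 hpM hA hb hnM).2.2.1
  rw [S0N_ρ₁]
  exact hρ

/-- **`e₁` does not vanish on the first component, `e₂` does not vanish on the second.** -/
theorem ρ_ne_zero (hp2 : p ≠ 2) (hpM : ¬ p ∣ M') (hA : A.LiesOverPrime p) :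
    (S0N L).ρ₁ (e1N L hp2 hpM hA) ≠ 0 ∧ (S0N L).ρ₂ (e2N L hp2 hpM hA) ≠ 0 :=
  pair_ne_zero (k := kA A) (S0N L).ρ₁ (S0N L).ρ₂ (S0N L).sB (yB L hp2 hpM hA)
    (Fact.out : p.Prime).two_le (ρ₁_e2N L hp2 hpM hA) (ρ₂_e1N L hp2 hpM hA)
    (Fermat.Agent.ES.W33.TransN4.tr₁ L) (Fermat.Agent.ES.W33.TransN4.tr₂ L hpM hA)

theorem ρ₁_e1N_ne_zero (hp2 : p ≠ 2) (hpM : ¬ p ∣ M') (hA : A.LiesOverPrime p) :
    (S0N L).ρ₁ (e1N L hp2 hpM hA) ≠ 0 := (ρ_ne_zero L hp2 hpM hA).1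

theorem ρ₂_e2N_ne_zero (hp2 : p ≠ 2) (hpM : ¬ p ∣ M') (hA : A.LiesOverPrime p) :
    (S0N L).ρ₂ (e2N L hp2 hpM hA) ≠ 0 := (ρ_ne_zero L hp2 hpM hA).2

/-- **the packaged form**: the coordinate `yN` and the two localising elements in the chart ring. -/
theorem exists_locElem (hp2 : p ≠ 2) (hpM : ¬ p ∣ M') (hA : A.LiesOverPrime p) :
    ∃ y e₁ e₂ : ↥(S0N L).B,
      (y : ↥(Fbar (M' * p))) = heckeBetaBar Qbar M' p (tV 4 8 M' hb hnM) ∧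
      (e₁ : ↥(Fbar (M' * p))) =
        tN 4 8 M' p hb hnM - heckeBetaBar Qbar M' p (tV 4 8 M' hb hnM) ^ p ∧
      (e₂ : ↥(Fbar (M' * p))) =
        heckeBetaBar Qbar M' p (tV 4 8 M' hb hnM) - tN 4 8 M' p hb hnM ^ p ∧
      (S0N L).ρ₂ e₁ = 0 ∧ (S0N L).ρ₁ e₁ ≠ 0 ∧ (S0N L).ρ₁ e₂ = 0 ∧ (S0N L).ρ₂ e₂ ≠ 0 :=
  ⟨yB L hp2 hpM hA, e1N L hp2 hpM hA, e2N L hp2 hpM hA, rfl, rfl, rfl, ρ₂_e1N L hp2 hpM hA,
    ρ₁_e1N_ne_zero L hp2 hpM hA, ρ₁_e2N L hp2 hpM hA, ρ₂_e2N_ne_zero L hp2 hpM hA⟩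

end Chart

end Fermat.Agent.ES.W33.LocElemN1
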