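/-
Programme W (S33), chapter (B3′), leaf (Q2), the `e`-SATURATION — helper9:
**the input `hsat` of `LocChartGenN9.locChart`, from the two Gauss valuations** (model-free).

SETTING.  `B ⊆ O ⊓ O'` a chart ring inside two "Gauss rings" `(O, r)`, `(O', r')` (reductions into fields,
residue map on the constants of `A`), each with SCALING (`scale`: every nonzero function is a nonzero
constant times an element of `O` with nonzero reduction), `A` of RANK ONE (`arch`: every nonzero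
`d ∈ A` divides a power of any `m ∈ 𝔪_A`), `B` SATURATED in `O ⊓ O'` (`hBsat`).
`e ∈ B` with `r e ≠ 0`, `r' e = 0` (a function of the chart vanishing identically on the OTHER
component).

* `const_of_scale` : in `f = c · u` with `f ∈ O`, `u ∈ O`, `r u ≠ 0` the constant `c` lies in `A`;
* `nonunit_of_scale` : if moreover `r f = 0`, then `c ∈ 𝔪_A`;
* **`esat`** : every nonzero `b ∈ B` satisfies `e ^ k * b = c * g` with `c ∈ A`, `g ∈ B`, `r g ≠ 0`;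
* `sat_of_content` : `hBsat` from PAIR content (`NodalChart.sat`);
* **`hsat₁`, `hsat₂`** : the literal input `hsat` of `LocChartGenN9.locChart S₀ e S₀.ρ₁ …` resp.
  `… S₀.ρ₂ …` for `S₀ : NodalChart20.NodalChart`.
-/
import Mathlib
import Fermat.Agent.ES.W33.LocChartGenN9

set_option autoImplicit false
set_option linter.unusedSectionVars false

noncomputable section

open AlgebraicCurve

namespace Fermat.Agent.ES.W33.LocSatN9

open Fermat.Agent.X0.FF Fermat.Agent.ES.RED.Contract8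
open Fermat.Agent.ES.W33.NodalChart20

variable {L : Type*} [Field L] {A : ValuationSubring L}
variable {F : Type*} [Field F] [Algebra L F]

/-! ### one Gauss ring -/

section One

variable {Ft : Type*} [Field Ft] [Algebra (kA A) Ft]
variable (O : Subring F) (r : ↥O →+* Ft)
  (hc : ∀ a : ↥A, algebraMap L F (a : L) ∈ O)
  (hrc : ∀ a : ↥A, r ⟨algebraMap L F (a : L), hc a⟩ = algebraMap (kA A) Ft (resA A a))

include hrc in
/-- a nonunit constant kills the reduction. -/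
theorem r_nonunit_mul (a : ↥A) (ha : ¬ IsUnit a) (g : ↥O) :
    r (⟨algebraMap L F (a : L), hc a⟩ * g) = 0 := by
  rw [map_mul, hrc, (IsLocalRing.residue_eq_zero_iff a).2 ((IsLocalRing.mem_maximalIdeal a).2 ha),
    map_zero, zero_mul]

include hrc in
/-- in `f = c · u` with `f, u ∈ O` and `r u ≠ 0`, the constant `c` lies in `A`. -/
theorem const_of_scale {f : F} (hf : f ∈ O) {c : L} (hc0 : c ≠ 0)
    (hu : (algebraMap L F c)⁻¹ * f ∈ O) (hru : r ⟨_, hu⟩ ≠ 0) : c ∈ A := by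
  by_contra hcA
  have hci : c⁻¹ ∈ A := (A.mem_or_inv_mem c).resolve_left hcA
  have hnu : ¬ IsUnit (⟨c⁻¹, hci⟩ : ↥A) := by
    intro hu'
    apply hcA
    obtain ⟨x, hx⟩ := hu'.exists_right_inv
    have hx' : c⁻¹ * (x : L) = 1 := congrArg Subtype.val hx
    have : (x : L) = c := by
      rw [← mul_one c, ← hx', ← mul_assoc, mul_inv_cancel₀ hc0, one_mul]
    rw [← this]
    exact x.2
  apply hru
  have h1 := r_nonunit_mul O r hc hrc ⟨c⁻¹, hci⟩ hnu ⟨f, hf⟩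
  have h2 : (⟨(algebraMap L F c)⁻¹ * f, hu⟩ : ↥O) =
      ⟨algebraMap L F ((⟨c⁻¹, hci⟩ : ↥A) : L), hc ⟨c⁻¹, hci⟩⟩ * ⟨f, hf⟩ := by
    apply Subtype.ext
    show (algebraMap L F c)⁻¹ * f = algebraMap L F c⁻¹ * f
    rw [map_inv₀]
  rw [h2]
  exact h1

include hrc in
/-- if moreover `r f = 0`, the constant is a nonunit of `A`. -/
theorem nonunit_of_scale {f : F} (hf : f ∈ O) (hrf : r ⟨f, hf⟩ = 0) {c : L} (hc0 : c ≠ 0)
    (hcA : c ∈ A) (hu : (algebraMap L F c)⁻¹ * f ∈ O) (hru : r ⟨_, hu⟩ ≠ 0) :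
    ¬ IsUnit (⟨c, hcA⟩ : ↥A) := by
  intro hunit
  apply hru
  have hcF : algebraMap L F c ≠ 0 := by rw [Ne, map_eq_zero]; exact hc0
  have h2 : (⟨f, hf⟩ : ↥O) =
      ⟨algebraMap L F ((⟨c, hcA⟩ : ↥A) : L), hc ⟨c, hcA⟩⟩ * ⟨(algebraMap L F c)⁻¹ * f, hu⟩ := by
    apply Subtype.ext
    show f = algebraMap L F c * ((algebraMap L F c)⁻¹ * f)
    rw [mul_inv_cancel_left₀ hcF]
  rw [h2, map_mul, hrc] at hrf
  have hres : resA A ⟨c, hcA⟩ ≠ 0 := by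
    rw [Ne, IsLocalRing.residue_eq_zero_iff, IsLocalRing.mem_maximalIdeal, mem_nonunits_iff,
      not_not]
    exact hunit
  have hres' : algebraMap (kA A) Ft (resA A ⟨c, hcA⟩) ≠ 0 := by
    rwa [Ne, map_eq_zero]
  exact (mul_eq_zero.mp hrf).resolve_left hres'

end One

/-! ### the `e`-saturation -/

section Two

variable {Ft Ft' : Type*} [Field Ft] [Algebra (kA A) Ft] [Field Ft'] [Algebra (kA A) Ft']
variable (B O O' : Subring F) (r : ↥O →+* Ft) (r' : ↥O' →+* Ft')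
  (hconst : ∀ a : ↥A, algebraMap L F (a : L) ∈ B) (hB : B ≤ O) (hB' : B ≤ O')
  (hrc : ∀ a : ↥A, r ⟨algebraMap L F (a : L), hB (hconst a)⟩ = algebraMap (kA A) Ft (resA A a))
  (hrc' : ∀ a : ↥A,
    r' ⟨algebraMap L F (a : L), hB' (hconst a)⟩ = algebraMap (kA A) Ft' (resA A a))
  (scale : ∀ f : F, f ≠ 0 → ∃ c : L, c ≠ 0 ∧ ∃ h : (algebraMap L F c)⁻¹ * f ∈ O, r ⟨_, h⟩ ≠ 0)
  (scale' : ∀ f : F, f ≠ 0 → ∃ c : L, c ≠ 0 ∧ ∃ h : (algebraMap L F c)⁻¹ * f ∈ O', r' ⟨_, h⟩ ≠ 0)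
  (arch : ∀ m : ↥A, ¬ IsUnit m → ∀ d : ↥A, d ≠ 0 → ∃ N : ℕ, d ∣ m ^ N)
  (hBsat : ∀ (c : ↥A) (g : F), c ≠ 0 → g ∈ O → g ∈ O' → algebraMap L F (c : L) * g ∈ B → g ∈ B)

include hrc hrc' scale scale' arch hBsat in
/-- **the `e`-saturation**: after multiplication by a power of `e` (which vanishes identically on the
other component), the content of `b` is computed by the FIRST Gauss valuation alone. -/
theorem esat (e : F) (heB : e ∈ B) (he : r ⟨e, hB heB⟩ ≠ 0) (he' : r' ⟨e, hB' heB⟩ = 0)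
    (b : F) (hb : b ∈ B) (hb0 : b ≠ 0) :
    ∃ (k : ℕ) (c : ↥A) (g : F) (hg : g ∈ B),
      e ^ k * b = algebraMap L F (c : L) * g ∧ r ⟨g, hB hg⟩ ≠ 0 := by
  have he0 : e ≠ 0 := by
    rintro rfl
    apply he
    exact map_zero r
  -- the content of `b` for the first valuation
  obtain ⟨c₁, hc₁0, hu₁, hru₁⟩ := scale b hb0
  have hc₁A : c₁ ∈ A :=
    const_of_scale O r (fun a => hB (hconst a)) hrc (hB hb) hc₁0 hu₁ hru₁
  -- `e = m · e'` with `m ∈ 𝔪_A`, `e' ∈ O'`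
  obtain ⟨m, hm0, he'mem, hre'⟩ := scale' e he0
  have hmA : m ∈ A :=
    const_of_scale O' r' (fun a => hB' (hconst a)) hrc' (hB' heB) hm0 he'mem hre'
  have hmnu : ¬ IsUnit (⟨m, hmA⟩ : ↥A) :=
    nonunit_of_scale O' r' (fun a => hB' (hconst a)) hrc' (hB' heB) he' hm0 hmA he'mem hre'
  -- rank one
  have hc₁0' : (⟨c₁, hc₁A⟩ : ↥A) ≠ 0 := fun h => hc₁0 (congrArg Subtype.val h)
  obtain ⟨k, a, hka⟩ := arch ⟨m, hmA⟩ hmnu ⟨c₁, hc₁A⟩ hc₁0'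
  have hka' : m ^ k = c₁ * (a : L) := by
    have := congrArg Subtype.val hka
    simpa using this
  have hc₁F : algebraMap L F c₁ ≠ 0 := by rw [Ne, map_eq_zero]; exact hc₁0
  have hmF : algebraMap L F m ≠ 0 := by rw [Ne, map_eq_zero]; exact hm0
  -- the candidate
  set g : F := (algebraMap L F c₁)⁻¹ * (e ^ k * b) with hg
  have hg1 : g = e ^ k * ((algebraMap L F c₁)⁻¹ * b) := by rw [hg]; ring
  have hgO : g ∈ O := by
    rw [hg1]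
    exact O.mul_mem (O.pow_mem (hB heB) k) hu₁
  have hg2 : g = algebraMap L F (a : L) * (((algebraMap L F m)⁻¹ * e) ^ k * b) := by
    have h1 : e = algebraMap L F m * ((algebraMap L F m)⁻¹ * e) := by
      rw [mul_inv_cancel_left₀ hmF]
    have h2 : e ^ k = algebraMap L F c₁ * algebraMap L F (a : L) *
        ((algebraMap L F m)⁻¹ * e) ^ k := by
      conv_lhs => rw [h1, mul_pow, ← map_pow, hka', map_mul]
    rw [hg, h2]
    field_simp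
  have hgO' : g ∈ O' := by
    rw [hg2]
    exact O'.mul_mem (hB' (hconst a)) (O'.mul_mem (O'.pow_mem he'mem k) (hB' hb))
  have hcg : algebraMap L F ((⟨c₁, hc₁A⟩ : ↥A) : L) * g = e ^ k * b := by
    rw [hg]
    exact mul_inv_cancel_left₀ hc₁F _
  have hgB : g ∈ B := by
    refine hBsat ⟨c₁, hc₁A⟩ g hc₁0' hgO hgO' ?_
    rw [hcg]
    exact B.mul_mem (B.pow_mem heB k) hb
  refine ⟨k, ⟨c₁, hc₁A⟩, g, hgB, hcg.symm, ?_⟩
  have h3 : (⟨g, hB hgB⟩ : ↥O) = ⟨e, hB heB⟩ ^ k * ⟨(algebraMap L F c₁)⁻¹ * b, hu₁⟩ := by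
    apply Subtype.ext
    show g = e ^ k * ((algebraMap L F c₁)⁻¹ * b)
    exact hg1
  rw [h3, map_mul, map_pow]
  exact mul_ne_zero (pow_ne_zero k he) hru₁

include hrc hrc' in
/-- **saturation of `B` in `O ⊓ O'` from PAIR content.** -/
theorem sat_of_content
    (hcont : ∀ b : F, b ∈ B → b ≠ 0 → ∃ (c : ↥A) (b' : F) (hb' : b' ∈ B),
      b = algebraMap L F (c : L) * b' ∧ (r ⟨b', hB hb'⟩ ≠ 0 ∨ r' ⟨b', hB' hb'⟩ ≠ 0))
    (c : ↥A) (g : F) (hc0 : c ≠ 0) (hgO : g ∈ O) (hgO' : g ∈ O')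
    (hcg : algebraMap L F (c : L) * g ∈ B) : g ∈ B := by
  rcases eq_or_ne g 0 with rfl | hg0
  · exact B.zero_mem
  have hcL : (c : L) ≠ 0 := fun h => hc0 (Subtype.ext h)
  have hcF : algebraMap L F (c : L) ≠ 0 := by rw [Ne, map_eq_zero]; exact hcL
  obtain ⟨c₀, b₀, hb₀, hcb, hrb⟩ := hcont _ hcg (mul_ne_zero hcF hg0)
  have hc₀L : (c₀ : L) ≠ 0 := by
    intro h
    rw [h, map_zero, zero_mul] at hcb
    exact mul_ne_zero hcF hg0 hcb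
  rcases A.mem_or_inv_mem ((c : L)⁻¹ * (c₀ : L)) with hd | hd
  · -- `c ∣ c₀`: `g = (c₀ / c) · b₀`
    have h1 : g = algebraMap L F ((⟨_, hd⟩ : ↥A) : L) * b₀ := by
      show g = algebraMap L F ((c : L)⁻¹ * (c₀ : L)) * b₀
      rw [map_mul, map_inv₀, mul_assoc, ← hcb, inv_mul_cancel_left₀ hcF]
    rw [h1]
    exact B.mul_mem (hconst _) hb₀
  · -- `c₀ ∣ c` with quotient `a`; if `a` is a unit we are back in the first case
    rw [mul_inv_rev, inv_inv] at hd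
    set a : ↥A := ⟨(c₀ : L)⁻¹ * (c : L), hd⟩ with ha
    have hb₀g : b₀ = algebraMap L F ((a : ↥A) : L) * g := by
      show b₀ = algebraMap L F ((c₀ : L)⁻¹ * (c : L)) * g
      have hc₀F : algebraMap L F (c₀ : L) ≠ 0 := by rw [Ne, map_eq_zero]; exact hc₀L
      rw [map_mul, map_inv₀, mul_assoc, hcb, inv_mul_cancel_left₀ hc₀F]
    by_cases hau : IsUnit a
    · obtain ⟨x, hx⟩ := hau.exists_right_inv
      have hx' : ((a : ↥A) : L) * (x : L) = 1 := congrArg Subtype.val hx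
      have haF : algebraMap L F ((a : ↥A) : L) ≠ 0 := by
        rw [Ne, map_eq_zero]
        intro h0
        rw [h0, zero_mul] at hx'
        exact zero_ne_one hx'
      have h1 : g = algebraMap L F ((x : ↥A) : L) * b₀ := by
        rw [hb₀g, ← mul_assoc, ← map_mul, mul_comm (x : L), hx', map_one, one_mul]
      rw [h1]
      exact B.mul_mem (hconst _) hb₀
    · exfalso
      have e1 : (⟨b₀, hB hb₀⟩ : ↥O) =
          ⟨algebraMap L F ((a : ↥A) : L), hB (hconst a)⟩ * ⟨g, hgO⟩ := Subtype.ext hb₀g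
      have e2 : (⟨b₀, hB' hb₀⟩ : ↥O') =
          ⟨algebraMap L F ((a : ↥A) : L), hB' (hconst a)⟩ * ⟨g, hgO'⟩ := Subtype.ext hb₀g
      rcases hrb with h | h
      · apply h
        rw [e1]
        exact r_nonunit_mul O r (fun a => hB (hconst a)) hrc a hau ⟨g, hgO⟩
      · apply h
        rw [e2]
        exact r_nonunit_mul O' r' (fun a => hB' (hconst a)) hrc' a hau ⟨g, hgO'⟩

end Two

/-! ### the literal input `hsat` of `LocChartGenN9.locChart` -/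

section Chart

variable [IsAlgClosed L] {x : F} {hx : IsGen L x}
variable {Ft₁ Ft₂ : Type*} [Field Ft₁] [Algebra (kA A) Ft₁] [Field Ft₂] [Algebra (kA A) Ft₂]
variable (S₀ : NodalChart A hx Ft₁ Ft₂) (O₁ O₂ : Subring F) (r₁ : ↥O₁ →+* Ft₁) (r₂ : ↥O₂ →+* Ft₂)
  (hB₁ : S₀.B ≤ O₁) (hB₂ : S₀.B ≤ O₂)
  (hr₁ : ∀ b : ↥S₀.B, r₁ ⟨(b : F), hB₁ b.2⟩ = S₀.ρ₁ b)
  (hr₂ : ∀ b : ↥S₀.B, r₂ ⟨(b : F), hB₂ b.2⟩ = S₀.ρ₂ b)
  (scale₁ : ∀ f : F, f ≠ 0 → ∃ c : L, c ≠ 0 ∧ ∃ h : (algebraMap L F c)⁻¹ * f ∈ O₁, r₁ ⟨_, h⟩ ≠ 0)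
  (scale₂ : ∀ f : F, f ≠ 0 → ∃ c : L, c ≠ 0 ∧ ∃ h : (algebraMap L F c)⁻¹ * f ∈ O₂, r₂ ⟨_, h⟩ ≠ 0)
  (arch : ∀ m : ↥A, ¬ IsUnit m → ∀ d : ↥A, d ≠ 0 → ∃ N : ℕ, d ∣ m ^ N)

include hr₁ hr₂ in
theorem content_chart (b : F) (hb : b ∈ S₀.B) (hb0 : b ≠ 0) :
    ∃ (c : ↥A) (b' : F) (hb' : b' ∈ S₀.B),
      b = algebraMap L F (c : L) * b' ∧ (r₁ ⟨b', hB₁ hb'⟩ ≠ 0 ∨ r₂ ⟨b', hB₂ hb'⟩ ≠ 0) := by
  have hb0' : (⟨b, hb⟩ : ↥S₀.B) ≠ 0 := fun h => hb0 (congrArg Subtype.val h)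
  obtain ⟨c, b', hbc, hred⟩ := S₀.sat ⟨b, hb⟩ hb0'
  refine ⟨c, (b' : F), b'.2, hbc, ?_⟩
  by_contra hcon
  rw [not_or, not_not, not_not] at hcon
  apply hred
  rw [S₀.red_eq_zero_iff]
  exact ⟨(hr₁ b').symm.trans hcon.1, (hr₂ b').symm.trans hcon.2⟩

include hr₁ hr₂ scale₁ scale₂ arch in
/-- **`hsat` for the localisation off the SECOND component** (`ρ := S₀.ρ₁`). -/
theorem hsat₁ (e : ↥S₀.B) (he : S₀.ρ₁ e ≠ 0) (he' : S₀.ρ₂ e = 0) :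
    ∀ b : ↥S₀.B, b ≠ 0 → ∃ (k : ℕ) (c : ↥A) (b' : ↥S₀.B),
      (e : F) ^ k * (b : F) = algebraMap L F (c : L) * (b' : F) ∧ S₀.ρ₁ b' ≠ 0 := by
  intro b hb0
  have hrc₁ : ∀ a : ↥A, r₁ ⟨algebraMap L F (a : L), hB₁ (S₀.const_mem a)⟩ =
      algebraMap (kA A) Ft₁ (resA A a) := fun a => (hr₁ (S₀.const a)).trans (S₀.ρ₁_const a)
  have hrc₂ : ∀ a : ↥A, r₂ ⟨algebraMap L F (a : L), hB₂ (S₀.const_mem a)⟩ =
      algebraMap (kA A) Ft₂ (resA A a) := fun a => (hr₂ (S₀.const a)).trans (S₀.ρ₂_const a)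
  have hb0' : (b : F) ≠ 0 := fun h => hb0 (Subtype.ext h)
  obtain ⟨k, c, g, hg, h1, h2⟩ := esat S₀.B O₁ O₂ r₁ r₂ S₀.const_mem hB₁ hB₂ hrc₁ hrc₂
    scale₁ scale₂ arch
    (sat_of_content S₀.B O₁ O₂ r₁ r₂ S₀.const_mem hB₁ hB₂ hrc₁ hrc₂
      (content_chart S₀ O₁ O₂ r₁ r₂ hB₁ hB₂ hr₁ hr₂))
    (e : F) e.2 (by rw [hr₁ e]; exact he) (by rw [hr₂ e]; exact he') (b : F) b.2 hb0'
  exact ⟨k, c, ⟨g, hg⟩, h1, by rw [← hr₁ ⟨g, hg⟩]; exact h2⟩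

include hr₁ hr₂ scale₁ scale₂ arch in
/-- **`hsat` for the localisation off the FIRST component** (`ρ := S₀.ρ₂`). -/
theorem hsat₂ (e : ↥S₀.B) (he : S₀.ρ₂ e ≠ 0) (he' : S₀.ρ₁ e = 0) :
    ∀ b : ↥S₀.B, b ≠ 0 → ∃ (k : ℕ) (c : ↥A) (b' : ↥S₀.B),
      (e : F) ^ k * (b : F) = algebraMap L F (c : L) * (b' : F) ∧ S₀.ρ₂ b' ≠ 0 := by
  intro b hb0
  have hrc₁ : ∀ a : ↥A, r₁ ⟨algebraMap L F (a : L), hB₁ (S₀.const_mem a)⟩ =
      algebraMap (kA A) Ft₁ (resA A a) := fun a => (hr₁ (S₀.const a)).trans (S₀.ρ₁_const a)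
  have hrc₂ : ∀ a : ↥A, r₂ ⟨algebraMap L F (a : L), hB₂ (S₀.const_mem a)⟩ =
      algebraMap (kA A) Ft₂ (resA A a) := fun a => (hr₂ (S₀.const a)).trans (S₀.ρ₂_const a)
  have hb0' : (b : F) ≠ 0 := fun h => hb0 (Subtype.ext h)
  obtain ⟨k, c, g, hg, h1, h2⟩ := esat S₀.B O₂ O₁ r₂ r₁ S₀.const_mem hB₂ hB₁ hrc₂ hrc₁
    scale₂ scale₁ arch
    (fun c g hc0 hg2 hg1 hcg =>
      sat_of_content S₀.B O₁ O₂ r₁ r₂ S₀.const_mem hB₁ hB₂ hrc₁ hrc₂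
        (content_chart S₀ O₁ O₂ r₁ r₂ hB₁ hB₂ hr₁ hr₂) c g hc0 hg1 hg2 hcg)
    (e : F) e.2 (by rw [hr₂ e]; exact he) (by rw [hr₁ e]; exact he') (b : F) b.2 hb0'
  exact ⟨k, c, ⟨g, hg⟩, h1, by rw [← hr₂ ⟨g, hg⟩]; exact h2⟩

end Chart

end Fermat.Agent.ES.W33.LocSatN9
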