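/-
Programme W (S33), chapter TOP/LVL, step (iii) (helper26): **the order-level literal (O) descends from
the auxiliary level to level `N`.**

* `hasConnOrder_of_dvd` : for `N ∣ M` with `π^* = torsPullback : J₀(N)[p^m] → J₀(M)[p^m]` injective,
  `HasConnOrder p M m A → HasConnOrder p N m A` (same level `f`):
  `X := ι'⁻¹(range π^*) ≤ X'`, `ι := (π^*)⁻¹ ∘ ι'`, the order is the restriction `subOrder H' (X ↪ X')`
  (`OrderSub4.isEquivOrder_subOrder`, `ConnSubquot8.isConnOrderV_subOrder`); the mixed second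
  differences commute with `π^*` (`TopLevel19.torsPullback_smul`).
* `hasConnOrder_of_auxLevel` : the case `M = auxLevel p N` (`TopLevel19.torsPullback_auxLevel_injective`).
-/
import Mathlib
import Fermat.Agent.ES.W33.WIface8
import Fermat.Agent.ES.W33.ConnSubquot8

set_option autoImplicit false
set_option linter.unusedSectionVars false
set_option linter.style.haveILetI false

noncomputable section

namespace Fermat.Agent.ES.W33.LvlConn26

open ModularCurve
open Fermat.Agent.ES.V19.OrderHyp4 Fermat.Agent.ES.V19.OrderSub4 Fermat.Agent.ES.V19.TopLevel19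
  Fermat.Agent.ES.V19.GammaF16 Fermat.Agent.ES.V19.TraceDescent26
  Fermat.Agent.ES.W33.WIface8 Fermat.Agent.ES.W33.ConnSubquot8
open Fermat.Agent.RED.Interface4 (auxLevel dvd_auxLevel)

local notation "Qbar" => AlgebraicClosure ℚ
local notation "GQ" => (AlgebraicClosure ℚ ≃ₐ[ℚ] AlgebraicClosure ℚ)

variable {p N M m : ℕ} [NeZero N] [NeZero M] {A : ValuationSubring Qbar}

/-- **(O) descends along an injective `π^*`.** -/
theorem hasConnOrder_of_dvd (h : N ∣ M)
    (hinj : Function.Injective (torsPullback (ℓ := p) (k := m) h))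
    (hO : HasConnOrder p M m A) : HasConnOrder p N m A := by
  intro f₀ hf₀
  obtain ⟨f, hf, hdvd, X', iAdd, iFin, iAct, ι', hι'inj, hι'eq, hι'sd, H', hH', hconn'⟩ := hO f₀ hf₀
  refine ⟨f, hf, hdvd, ?_⟩
  set π : Tors N p m →+ Tors M p m := torsPullback (ℓ := p) (k := m) h with hπ
  -- `π^*` commutes with the Galois action
  have hπσ : ∀ (σ : GQ) (x : Tors N p m), π (σ • x) = σ • π x := fun σ x => torsPullback_smul h σ x
  -- the subgroup `X`
  let S : AddSubgroup X' := π.range.comap ι'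
  have hstab : ∀ (σ : ↥(gammaF A p f)) (x : X'), x ∈ S → σ • x ∈ S := by
    intro σ x hx
    obtain ⟨y, hy⟩ := (AddSubgroup.mem_comap.mp hx)
    refine AddSubgroup.mem_comap.mpr ⟨(σ : GQ) • y, ?_⟩
    rw [hπσ, hy, hι'eq]
  letI iSMul : SMul ↥(gammaF A p f) ↥S := ⟨fun σ x => ⟨σ • (x : X'), hstab σ x x.2⟩⟩
  have hcoe : ∀ (σ : ↥(gammaF A p f)) (x : ↥S), ((σ • x : ↥S) : X') = σ • (x : X') := fun _ _ => rfl
  letI iDMA : DistribMulAction ↥(gammaF A p f) ↥S :=
    { one_smul := fun x => Subtype.ext (by rw [hcoe, one_smul])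
      mul_smul := fun σ τ x => Subtype.ext (by rw [hcoe, hcoe, hcoe, mul_smul])
      smul_zero := fun σ => Subtype.ext (by rw [hcoe, AddSubgroup.coe_zero, smul_zero])
      smul_add := fun σ x y => Subtype.ext (by
        rw [hcoe, AddSubgroup.coe_add, AddSubgroup.coe_add, hcoe, hcoe, smul_add]) }
  -- the map `ι`
  let e : Tors N p m ≃+ π.range := AddMonoidHom.ofInjective hinj
  let ι₀ : ↥S →+ π.range := (ι'.comp S.subtype).codRestrict π.range (fun x => x.2)
  let ι : ↥S →+ Tors N p m := e.symm.toAddMonoidHom.comp ι₀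
  have hπι : ∀ x : ↥S, π (ι x) = ι' (x : X') := by
    intro x
    have h1 : (e (e.symm (ι₀ x)) : Tors M p m) = (ι₀ x : Tors M p m) := by
      rw [AddEquiv.apply_symm_apply]
    exact h1
  refine ⟨↥S, inferInstance, inferInstance, iDMA, ι, ?_, ?_, ?_, ?_⟩
  · -- injectivity
    intro x y hxy
    apply Subtype.ext
    apply hι'inj
    rw [← hπι x, ← hπι y, hxy]
  · -- equivariance
    intro σ x
    apply hinj
    show π (ι (σ • x)) = π ((σ : GQ) • ι x)
    rw [hπι, hπσ, hπι, hcoe, hι'eq]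
  · -- mixed second differences
    intro τ hτ τ' hτ' x
    obtain ⟨y', hy'⟩ := hι'sd τ hτ τ' hτ' (π x)
    have hy'π : ι' y' = π (τ' • (τ • x - x) - (τ • x - x)) := by
      rw [hy', map_sub, hπσ, map_sub, hπσ]
    have hy'S : y' ∈ S := AddSubgroup.mem_comap.mpr ⟨_, hy'π.symm⟩
    refine ⟨⟨y', hy'S⟩, ?_⟩
    apply hinj
    show π (ι ⟨y', hy'S⟩) = π (τ' • (τ • x - x) - (τ • x - x))
    rw [hπι, hy'π]
  · -- the order
    refine ⟨subOrder H' (S.subtype : ↥S → X'), ?_, ?_⟩
    · exact isEquivOrder_subOrder hH' S.subtype Subtype.val_injective (fun σ x => rfl)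
    · exact isConnOrderV_subOrder hconn' _

/-- **(O) at level `auxLevel p N` ⇒ (O) at level `N`.** -/
theorem hasConnOrder_of_auxLevel (hp0 : p ≠ 0)
    (hO : HasConnOrder p (auxLevel p N) m A) : HasConnOrder p N m A := by
  haveI := neZero_auxLevel19 p N
  exact hasConnOrder_of_dvd (dvd_auxLevel p N) (torsPullback_auxLevel_injective p N m hp0) hO

end Fermat.Agent.ES.W33.LvlConn26
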