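/-
Programme W (S33), chapter (Ga)/(I-c) + (B3′), brick (Ic-3) "NODE DICTIONARY", part 3 (helper11):
**(T3) AT THE INSTANCE: for places on the first branch, the centre on the level-`K` chart depends only
on the point `r1 P` of the first component.**

Instance = `NodalDefs3` (bad level `M' * p`, good level `M'`, `alphaN`, `resAlpha`, `r1 = rV ∘ resAlpha`)
and Programme N's level-`K` objects (`ModelDefs9`: `tM ht`, `tN p ht`, `alpha`, `B0 = chart (A ∩ K) tN`,
`B0M = chart (A ∩ K) tM`, `O1`).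

* `valueHom_restrictAlong` (generic) : the value of `φ a` at `w` is the value of `a` at `w|_φ`;
* `bc_tN`, `bc_tM`, `bc_alpha` : the level-`K` names are carried to the `ℚ̄`-names by `baseChangeHom`;
* `mem_resAlpha_iff`, `value_resAlpha`, `value_alpha` : values along `alpha`;
* `inCh_resAlpha` : if `P` lies in the chart `t` of the bad level then `resAlpha P` lies in the chart
  `t` of the good level;
* `bc_mem_S0`, `inChart_of_inCh`, `chiAt_good_eq` : the level-`K` good chart inside main's `TV … .S0`;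
* `chiAt_good_eq_of_rV_eq` : **good-level (R1)**: if `rV Q = rV Q'` then the values of every
  `b₀ ∈ B0M` at `Q`, `Q'` agree modulo `𝔪_A`;
* `alpha_mem_B0`, `chiAt_alpha`;
* **`chiAt_eq_of_r1_eq`** : `r1 P = r1 P'`, both centres on the branch `O1`, `SurjVia alpha`
  (`CompRedN16`) `⊢ chiAt h = chiAt h'` (chart `0`).
-/
import Mathlib
import Fermat.Agent.ES.W33.NodeDict11
import Fermat.Agent.ES.W33.NodalDefs3
import Fermat.Agent.ES.W33.CompRedN16
import Fermat.Agent.RED.CUSP.RankConcrete16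
import Fermat.Agent.J.DESC.ExtPicHecke22

set_option autoImplicit false
set_option synthInstance.maxHeartbeats 400000
set_option linter.unusedSectionVars false

open HahnSeries ModularCurve AlgebraicCurve

noncomputable section

namespace Fermat.Agent.ES.W33.NodeDictT11

open Fermat.Agent.X0 Fermat.Agent.X0.FF Fermat.Agent.RED.Interface4 Fermat.Agent.RED.DESC
  Fermat.Agent.RED.BASE.Interface12 Fermat.Agent.RED.BASE.Hauptmodul12
  Fermat.Agent.RED.BASE.EtaQuot12
  Fermat.Agent.RED.PUR.GaussGen8 Fermat.Agent.RED.PUR.ChartGeneric22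
  Fermat.Agent.ES.RED.PlaceValue13 Fermat.Agent.ES.RED.Contract8 Fermat.Agent.ES.RED.TwoCharts8
  Fermat.Agent.ES.HECKE.LevelPullback12
  Fermat.Agent.ES.N34.NodalCore13 Fermat.Agent.ES.N34.NodeAsm6 Fermat.Agent.ES.N34.ModelDefs9
  Fermat.Agent.ES.V19.InstNames3
  Fermat.Agent.ES.W33.NodeCentre11 Fermat.Agent.ES.W33.NodeDict11 Fermat.Agent.ES.W33.NodalDefs3
  Fermat.Agent.ES.W33.CompRedN16

attribute [local instance 5000] HahnSeries.powerSeriesAlgebra SubalgebraClass.toAlgebra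

/-! ### values along a restriction -/

section Generic

variable {K F F' : Type*} [Field K] [IsAlgClosed K] [Field F] [Field F'] [Algebra K F]
  [Algebra K F']

/-- the value of `φ a` at `w` is the value of `a` at the restriction of `w` along `φ`.
(The two membership proofs are SEPARATE arguments: at concrete function fields the kernel must never
be asked to compare `a ∈ O_{w|φ}` with `φ a ∈ O_w` by unfolding.) -/
theorem valueHom_restrictAlong {x : F} (hx : IsGen K x) {x' : F'} (hx' : IsGen K x')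
    (φ : F →ₐ[K] F') (hφ : φ.toRingHom.IsIntegral) (w : Place K F') (a : F)
    (ha' : a ∈ (w.restrictAlong φ hφ).toValuationSubring) (ha : φ a ∈ w.toValuationSubring) :
    valueHom hx (w.restrictAlong φ hφ) ⟨a, ha'⟩ = valueHom hx' w ⟨φ a, ha⟩ := by
  set c := valueHom hx' w ⟨φ a, ha⟩ with hc
  have h1 := (valueHom_eq_iff hx' w ⟨φ a, ha⟩ c).mp rfl
  rw [valueHom_eq_iff]
  rcases h1 with h1 | h1
  · left
    have h2 : φ a = φ (algebraMap K F c) := by rw [φ.commutes]; exact h1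
    exact φ.toRingHom.injective h2
  · right
    have h2 : φ a - algebraMap K F' c = φ (a - algebraMap K F c) := by
      rw [map_sub, φ.commutes]
    change 0 < w.ord (φ a - algebraMap K F' c) at h1
    rw [h2, Place.ord_restrictAlong φ hφ] at h1
    have hpos : 0 < Place.ramificationIndexAlong φ w :=
      Fermat.Agent.J.DESC.ExtPicHecke22.ramificationIndexAlong_pos φ hφ w
    change 0 < (w.restrictAlong φ hφ).ord (a - algebraMap K F c)
    by_contra hneg
    rw [not_lt] at hneg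
    have : (Place.ramificationIndexAlong φ w : ℤ) * (w.restrictAlong φ hφ).ord (a - algebraMap K F c)
        ≤ 0 := mul_nonpos_of_nonneg_of_nonpos (by positivity) hneg
    omega

end Generic

/-! ### the instance -/

variable (n e M' : ℕ) [NeZero n] [NeZero M'] (p : ℕ) [Fact p.Prime] (hpM : ¬ p ∣ M')
  (hb : BaseHyp n e) (hnM : n ∣ M') (A : ValuationSubring Qbar) (hA : A.LiesOverPrime p)
  (K : IntermediateField ℚ Qbar)

/-- `bc (tN_K) = tN`. -/
theorem bc_tN (ht : tq (↥K) n e ∈ FK M' K) :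
    PlaceExtend27.baseChangeHom (M' * p) K (Fermat.Agent.ES.N34.ModelDefs9.tN p ht) =
      Fermat.Agent.ES.W33.NodalDefs3.tN n e M' p hb hnM :=
  Fermat.Agent.RED.CUSP.RankConcrete16.baseChangeHom_eq_tF (M' * p) K
    (tMem_of_dvd hb (Dvd.dvd.mul_right hnM p)) _ (coe_tN p ht)

/-- `bc (tM_K) = tV`. -/
theorem bc_tM (ht : tq (↥K) n e ∈ FK M' K) :
    PlaceExtend27.baseChangeHom M' K (tM ht) = tV n e M' hb hnM :=
  Fermat.Agent.RED.CUSP.RankConcrete16.baseChangeHom_eq_tF M' K (tMem_of_dvd hb hnM) _ (coe_tM ht)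

/-- `bc ∘ alpha_K = alphaN ∘ bc`. -/
theorem bc_alpha (z : FK M' K) :
    PlaceExtend27.baseChangeHom (M' * p) K (alpha K M' p z) =
      alphaN M' p (PlaceExtend27.baseChangeHom M' K z) := by
  apply Subtype.ext
  rw [PlaceExtend27.coe_baseChangeHom, coe_alpha]
  show _ = ((levelIncl (Dvd.intro p rfl) (PlaceExtend27.baseChangeHom M' K z) :
    modularFunctionFieldBar (M' * p)) : LaurentSeries (AlgebraicClosure ℚ))
  rw [coe_levelIncl]
  rfl

/-- membership in `resAlpha P`. -/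
theorem mem_resAlpha_iff (P : Place Qbar ↥(Fbar (M' * p))) (a : ↥(Fbar M')) :
    a ∈ (resAlpha M' p P).toValuationSubring ↔ alphaN M' p a ∈ P.toValuationSubring :=
  Fermat.Agent.J.DESC.ExtPicHecke22.mem_restrictAlong_iff (alphaN M' p) (alphaN_isIntegral M' p) P a

/-- values at `resAlpha P`. -/
theorem value_resAlpha (P : Place Qbar ↥(Fbar (M' * p))) (a : ↥(Fbar M'))
    (ha' : a ∈ (resAlpha M' p P).toValuationSubring)
    (ha : alphaN M' p a ∈ P.toValuationSubring) :
    valueHom (Fermat.Agent.RED.TOP.FbarFacts20.isGen_j M') (resAlpha M' p P) ⟨a, ha'⟩ =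
      valueHom (Fermat.Agent.RED.TOP.FbarFacts20.isGen_j (M' * p)) P ⟨alphaN M' p a, ha⟩ :=
  valueHom_restrictAlong (Fermat.Agent.RED.TOP.FbarFacts20.isGen_j M')
    (Fermat.Agent.RED.TOP.FbarFacts20.isGen_j (M' * p)) (alphaN M' p) (alphaN_isIntegral M' p) P a
    ha' ha


/-- **values along `alpha`**: the value of `bc (alpha z)` at `P` is the value of `bc z` at
`resAlpha P`. -/
theorem value_alpha (P : Place Qbar ↥(Fbar (M' * p))) (z : FK M' K)
    (hz : PlaceExtend27.baseChangeHom (M' * p) K (alpha K M' p z) ∈ P.toValuationSubring) :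
    ∃ hz' : PlaceExtend27.baseChangeHom M' K z ∈ (resAlpha M' p P).toValuationSubring,
      valueHom (Fermat.Agent.RED.TOP.FbarFacts20.isGen_j (M' * p)) P ⟨_, hz⟩ =
        valueHom (Fermat.Agent.RED.TOP.FbarFacts20.isGen_j M') (resAlpha M' p P) ⟨_, hz'⟩ := by
  have hz2 : alphaN M' p (PlaceExtend27.baseChangeHom M' K z) ∈ P.toValuationSubring := by
    rw [← bc_alpha]; exact hz
  have hz' : PlaceExtend27.baseChangeHom M' K z ∈ (resAlpha M' p P).toValuationSubring :=
    (mem_resAlpha_iff M' p P _).mpr hz2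
  refine ⟨hz', ?_⟩
  have key : (⟨PlaceExtend27.baseChangeHom (M' * p) K (alpha K M' p z), hz⟩ :
      ↥P.toValuationSubring) = ⟨alphaN M' p (PlaceExtend27.baseChangeHom M' K z), hz2⟩ :=
    Subtype.ext (bc_alpha M' p K z)
  rw [key]
  exact (value_resAlpha M' p P _ hz' hz2).symm

/-- `P` in the chart `t` of the bad level ⇒ `resAlpha P` in the chart `t` of the good level. -/
theorem inCh_resAlpha {ht : tq (↥K) n e ∈ FK M' K} {P : Place Qbar ↥(Fbar (M' * p))}
    (h : InCh (M' * p) A K (Fermat.Agent.ES.N34.ModelDefs9.tN p ht) P) :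
    InCh M' A K (tM ht) (resAlpha M' p P) := by
  obtain ⟨hs, hsA⟩ := h
  obtain ⟨hs', hval⟩ := value_alpha M' p K P (tM ht) hs
  exact ⟨hs', by rw [← hval]; exact hsA⟩


/-- the value at equal places. -/
theorem valueHom_congr_place {k Ft : Type*} [Field k] [IsAlgClosed k] [Field Ft] [Algebra k Ft]
    {xt : Ft} (hxt : IsGen k xt) {R R' : Place k Ft} (hR : R = R') (y : Ft)
    (hy : y ∈ R.toValuationSubring) (hy' : y ∈ R'.toValuationSubring) :
    valueHom hxt R ⟨y, hy⟩ = valueHom hxt R' ⟨y, hy'⟩ := by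
  subst hR
  rfl

/-- the level-`K` good chart lands in the `ℚ̄`-level good chart. -/
theorem bc_mem_S0 (ht : tq (↥K) n e ∈ FK M' K) (b₀ : ↥(B0M A ht)) :
    PlaceExtend27.baseChangeHom M' K (b₀ : FK M' K) ∈ (TV n e M' p hpM hb hnM A hA).S0.B := by
  have h1 := Fermat.Agent.ES.RED.ChartUnion1.baseChangeHom_mem_chart A M' K (tM ht) b₀ b₀.2
  rw [bc_tM n e M' hb hnM K ht] at h1
  exact h1

/-- `InCh` at the good level is `InChart` of the `ℚ̄`-level chart `0`. -/
theorem inChart_of_inCh {ht : tq (↥K) n e ∈ FK M' K} {Q : Place Qbar ↥(Fbar M')}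
    (hQ : InCh M' A K (tM ht) Q) : (TV n e M' p hpM hb hnM A hA).S0.InChart Q := by
  obtain ⟨hs, hsA⟩ := hQ
  have hs' : tV n e M' hb hnM ∈ Q.toValuationSubring := by
    rw [← bc_tM n e M' hb hnM K ht]; exact hs
  refine ⟨hs', ?_⟩
  have key : (⟨tV n e M' hb hnM, hs'⟩ : ↥Q.toValuationSubring) =
      ⟨PlaceExtend27.baseChangeHom M' K (tM ht), hs⟩ := Subtype.ext (bc_tM n e M' hb hnM K ht).symm
  show valueHom (hxV n e M' hb hnM) Q ⟨tV n e M' hb hnM, hs'⟩ ∈ A
  rw [key, valueHom_congr (hxV n e M' hb hnM) Q (Fermat.Agent.RED.TOP.FbarFacts20.isGen_j M')]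
  exact hsA


/-- the level-`K` centre homomorphism at the good level is the `ℚ̄`-level one. -/
theorem chiAt_good_eq {ht : tq (↥K) n e ∈ FK M' K} {Q : Place Qbar ↥(Fbar M')}
    (hQ : InCh M' A K (tM ht) Q) (b₀ : ↥(B0M A ht)) :
    chiAt hQ b₀ = (TV n e M' p hpM hb hnM A hA).S0.chi Q (inChart_of_inCh n e M' p hpM hb hnM A hA K hQ)
      ⟨PlaceExtend27.baseChangeHom M' K (b₀ : FK M' K), bc_mem_S0 n e M' p hpM hb hnM A hA K ht b₀⟩ := by
  rfl

/-- **good-level (R1)**: if `rV Q = rV Q'`, the values of every `b₀ ∈ B0M` at `Q`, `Q'` agree modulo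
`𝔪_A`. -/
theorem chiAt_good_eq_of_rV_eq {ht : tq (↥K) n e ∈ FK M' K} {Q Q' : Place Qbar ↥(Fbar M')}
    (hQ : InCh M' A K (tM ht) Q) (hQ' : InCh M' A K (tM ht) Q')
    (hr : rV n e M' p hpM hb hnM A hA Q = rV n e M' p hpM hb hnM A hA Q') (b₀ : ↥(B0M A ht)) :
    chiAt hQ b₀ = chiAt hQ' b₀ := by
  have := isAlgClosed_kA A
  rw [chiAt_good_eq n e M' p hpM hb hnM A hA K hQ, chiAt_good_eq n e M' p hpM hb hnM A hA K hQ']
  set T := TV n e M' p hpM hb hnM A hA with hT
  have h0 := inChart_of_inCh n e M' p hpM hb hnM A hA K hQ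
  have h0' := inChart_of_inCh n e M' p hpM hb hnM A hA K hQ'
  have e1 := valueHom_rAt (hxtV n e M' p hpM hb hnM A hA) T.places0 T.tr0 Q h0
    ⟨PlaceExtend27.baseChangeHom M' K (b₀ : FK M' K), bc_mem_S0 n e M' p hpM hb hnM A hA K ht b₀⟩
  have e2 := valueHom_rAt (hxtV n e M' p hpM hb hnM A hA) T.places0 T.tr0 Q' h0'
    ⟨PlaceExtend27.baseChangeHom M' K (b₀ : FK M' K), bc_mem_S0 n e M' p hpM hb hnM A hA K ht b₀⟩
  rw [← e1, ← e2]
  apply valueHom_congr_place
  rw [← T.r_eq0 Q h0, ← T.r_eq0 Q' h0']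
  exact hr


/-- `alpha` maps the level-`K` good chart into the level-`K` bad chart. -/
theorem alpha_mem_B0 (ht : tq (↥K) n e ∈ FK M' K) (b₀ : ↥(B0M A ht)) :
    alpha K M' p (b₀ : FK M' K) ∈ B0 A p ht :=
  Fermat.Agent.ES.N34.ModelN4.map_mem_chart (alpha K M' p : ↥(FK M' K) →+* ↥(FK (M' * p) K))
    (Fermat.Agent.ES.N34.ModelN4.algHom_algebraMap_O (AK A K) (FK M' K) (FK (M' * p) K)
      (alpha K M' p))
    (self_mem_chart (alpha K M' p (tM ht))) b₀.2

/-- the centre homomorphism of `P` on `alpha (B0M)` is the good-level centre homomorphism of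
`resAlpha P`. -/
theorem chiAt_alpha {ht : tq (↥K) n e ∈ FK M' K} {P : Place Qbar ↥(Fbar (M' * p))}
    (h : InCh (M' * p) A K (Fermat.Agent.ES.N34.ModelDefs9.tN p ht) P) (b₀ : ↥(B0M A ht))
    (hs : alpha K M' p (b₀ : FK M' K) ∈ chart ↥(AK A K) (Fermat.Agent.ES.N34.ModelDefs9.tN p ht)) :
    chiAt h ⟨alpha K M' p (b₀ : FK M' K), hs⟩ = chiAt (inCh_resAlpha n e M' p A K h) b₀ := by
  obtain ⟨hz', hval⟩ := value_alpha M' p K P (b₀ : FK M' K)
    (regAt_chart h _ hs).1
  have key : evK (regAt_chart h) ⟨alpha K M' p (b₀ : FK M' K), hs⟩ =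
      evK (regAt_chart (inCh_resAlpha n e M' p A K h)) b₀ :=
    Subtype.ext hval
  show resA A (evK (regAt_chart h) ⟨alpha K M' p (b₀ : FK M' K), hs⟩) =
    resA A (evK (regAt_chart (inCh_resAlpha n e M' p A K h)) b₀)
  rw [key]

/-- **(T3) at the instance, chart `0`**: for places on the first branch, the centre on the level-`K`
chart `B0` depends only on `r1 P`. -/
theorem chiAt_eq_of_r1_eq (ht : tq (↥K) n e ∈ FK M' K)
    (hE : FK (M' * p) K ≤ fracField (AK A K)) {π : ↥(AK A K)} (hπ : IsUnif (AK A K) π)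
    (hsurj : SurjVia (fun x : ↥(B0M A ht) => alpha K M' p (x : ↥(FK M' K))) π (B0 A p ht)
      (O1 M' p hπ hE))
    {P P' : Place Qbar ↥(Fbar (M' * p))}
    (h : InCh (M' * p) A K (Fermat.Agent.ES.N34.ModelDefs9.tN p ht) P)
    (h' : InCh (M' * p) A K (Fermat.Agent.ES.N34.ModelDefs9.tN p ht) P')
    (hno : ¬ OffBranch π (B0 A p ht) (O1 M' p hπ hE) (centreAt h))
    (hno' : ¬ OffBranch π (B0 A p ht) (O1 M' p hπ hE) (centreAt h'))
    (hr : r1 n e M' p hpM hb hnM A hA P = r1 n e M' p hpM hb hnM A hA P') :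
    chiAt h = chiAt h' := by
  refine chiAt_eq_of_surj h h' π (O1 M' p hπ hE)
    (Set.range fun b₀ : ↥(B0M A ht) => alpha K M' p (b₀ : FK M' K)) ?_ hno hno' ?_
  · intro y hy
    obtain ⟨b, c, hc, hyc⟩ := hsurj y hy
    exact ⟨alpha K M' p (b : FK M' K), ⟨b, rfl⟩, alpha_mem_B0 n e M' p A K ht b, c, hc, hyc⟩
  · rintro s hs ⟨b₀, rfl⟩
    rw [chiAt_alpha n e M' p A K h b₀ hs, chiAt_alpha n e M' p A K h' b₀ hs]
    exact chiAt_good_eq_of_rV_eq n e M' p hpM hb hnM A hA K _ _ hr b₀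

end Fermat.Agent.ES.W33.NodeDictT11
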