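/-
S33, chapter (Alg), helper26: **the kernel of a surjection `V → T` from a free module of rank two over a
local ring is a line spanned by the first vector of a basis.**

* `exists_basis_ker_eq_span` : `T` local, `V` free of rank `2`, `φ : V →ₗ[T] T` surjective ⇒
  `∃ b : Basis (Fin 2) T V, ker φ = T ∙ b 0`.
-/
import Mathlib

set_option autoImplicit false
set_option linter.unusedSectionVars false
set_option linter.style.haveILetI false

open Module

namespace Fermat.Agent.ES.W33.RankOneKer26

variable {T : Type*} [CommRing T] [IsLocalRing T] {V : Type*} [AddCommGroup V] [Module T V]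
  [Module.Free T V] [Module.Finite T V]

/-- the splitting `V ≃ ker φ × T` given by a vector `v₁` with `φ v₁ = 1`. -/
noncomputable def splitEquiv (φ : V →ₗ[T] T) {v₁ : V} (h1 : φ v₁ = 1) :
    V ≃ₗ[T] (LinearMap.ker φ × T) where
  toFun v := (⟨v - φ v • v₁, by
    rw [LinearMap.mem_ker, map_sub, map_smul, h1, smul_eq_mul, mul_one, sub_self]⟩, φ v)
  map_add' x y := by
    apply Prod.ext
    · apply Subtype.ext
      show x + y - φ (x + y) • v₁ = (x - φ x • v₁) + (y - φ y • v₁)
      rw [map_add, add_smul]; abel
    · show φ (x + y) = φ x + φ y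
      rw [map_add]
  map_smul' a x := by
    apply Prod.ext
    · apply Subtype.ext
      show a • x - φ (a • x) • v₁ = a • (x - φ x • v₁)
      rw [map_smul, smul_sub, smul_eq_mul, mul_smul]
    · show φ (a • x) = a • φ x
      rw [map_smul]
  invFun w := (w.1 : V) + w.2 • v₁
  left_inv v := by
    show v - φ v • v₁ + φ v • v₁ = v
    rw [sub_add_cancel]
  right_inv w := by
    obtain ⟨⟨k, hk⟩, t⟩ := w
    have hk' : φ k = 0 := hk
    apply Prod.ext
    · apply Subtype.ext
      show k + t • v₁ - φ (k + t • v₁) • v₁ = k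
      rw [map_add, map_smul, hk', h1, zero_add, smul_eq_mul, mul_one, add_sub_cancel_right]
    · show φ (k + t • v₁) = t
      rw [map_add, map_smul, hk', h1, zero_add, smul_eq_mul, mul_one]

theorem splitEquiv_symm_apply (φ : V →ₗ[T] T) {v₁ : V} (h1 : φ v₁ = 1)
    (w : LinearMap.ker φ × T) : (splitEquiv φ h1).symm w = (w.1 : V) + w.2 • v₁ := rfl

/-- **the kernel is the line spanned by the first vector of a basis.** -/
theorem exists_basis_ker_eq_span (h2 : Module.finrank T V = 2) (φ : V →ₗ[T] T)
    (hφ : Function.Surjective φ) :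
    ∃ b : Basis (Fin 2) T V, LinearMap.ker φ = Submodule.span T {b 0} := by
  obtain ⟨v₁, h1⟩ := hφ 1
  set e := splitEquiv φ h1 with he
  -- the kernel is finite projective, hence free, of rank one
  haveI : Module.Projective T (LinearMap.ker φ × T) := Module.Projective.of_equiv e
  haveI : Module.Finite T (LinearMap.ker φ × T) := Module.Finite.equiv e
  haveI : Module.Finite T (LinearMap.ker φ) :=
    Module.Finite.of_surjective (LinearMap.fst T (LinearMap.ker φ) T) LinearMap.fst_surjective
  haveI : Module.Projective T (LinearMap.ker φ) :=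
    Module.Projective.of_split (LinearMap.inl T (LinearMap.ker φ) T)
      (LinearMap.fst T (LinearMap.ker φ) T) (by ext x; rfl)
  haveI : Module.Free T (LinearMap.ker φ) := Module.free_of_flat_of_isLocalRing
  have hrank : Module.finrank T (LinearMap.ker φ) = 1 := by
    have h := LinearEquiv.finrank_eq e
    rw [h2, Module.finrank_prod, Module.finrank_self] at h
    omega
  let bK : Basis (Fin 1) T (LinearMap.ker φ) := Module.finBasisOfFinrankEq T _ hrank
  let bT : Basis (Fin 1) T T := Basis.singleton (Fin 1) T
  let b' : Basis (Fin 1 ⊕ Fin 1) T (LinearMap.ker φ × T) := bK.prod bT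
  let b : Basis (Fin 2) T V := (b'.map e.symm).reindex finSumFinEquiv
  refine ⟨b, ?_⟩
  have hb0 : b 0 = ((bK 0 : LinearMap.ker φ) : V) := by
    have h0 : (finSumFinEquiv (m := 1) (n := 1)).symm 0 = Sum.inl 0 := by decide
    show (b'.map e.symm).reindex finSumFinEquiv 0 = _
    rw [Basis.reindex_apply, h0, Basis.map_apply, splitEquiv_symm_apply]
    show ((bK.prod bT (Sum.inl 0)).1 : V) + (bK.prod bT (Sum.inl 0)).2 • v₁ = _
    rw [Basis.prod_apply_inl_fst, Basis.prod_apply_inl_snd, zero_smul, add_zero]
  rw [hb0]
  apply le_antisymm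
  · intro x hx
    have hrepr := bK.sum_repr ⟨x, hx⟩
    rw [Fin.sum_univ_one] at hrepr
    rw [Submodule.mem_span_singleton]
    refine ⟨bK.repr ⟨x, hx⟩ 0, ?_⟩
    have := congrArg (Subtype.val) hrepr
    simpa using this
  · rw [Submodule.span_singleton_le_iff_mem]
    exact (bK 0).2

end Fermat.Agent.ES.W33.RankOneKer26
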