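/-
S33, chapter (Alg), helper26: **the ordinary line from cyclic faithful inertia coinvariants.**

`T` local, `V` free of rank two, `ρ : Γ →* End_T V`, `I, D ≤ Γ` with `D` normalising `I`.  If the module
of `I`-coinvariants `V ⧸ augSub ρ I` is generated by (the class of) one vector `v₀` and is faithful, then
`L := augSub ρ I` is a line of the shape demanded by the frozen `GaloisRepAdic.IsOrdinaryAt`:
spanned by the first vector of a basis, `D`-stable, with `I` acting trivially on `V ⧸ L`.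
-/
import Mathlib
import Fermat.Agent.ES.W33.CoinvLine26
import Fermat.Agent.ES.W33.RankOneKer26
import Fermat.Agent.ES.W33.CyclicFaithful26

set_option autoImplicit false
set_option linter.unusedSectionVars false

open Module

namespace Fermat.Agent.ES.W33.OrdLine26

open Fermat.Agent.ES.W33.CoinvLine26 Fermat.Agent.ES.W33.RankOneKer26
  Fermat.Agent.ES.W33.CyclicFaithful26

variable {T : Type*} [CommRing T] [IsLocalRing T] {V : Type*} [AddCommGroup V] [Module T V]
  [Module.Free T V] [Module.Finite T V] {Γ : Type*} [Group Γ]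

/-- **the ordinary line.** -/
theorem exists_line (h2 : Module.finrank T V = 2) (ρ : Γ →* Module.End T V) (I D : Subgroup Γ)
    (hnorm : ∀ δ ∈ D, ∀ σ ∈ I, δ * σ * δ⁻¹ ∈ I) (v₀ : V)
    (hgen : (⊤ : Submodule T V) ≤ Submodule.span T {v₀} ⊔ augSub ρ I)
    (hfaith : ∀ t : T, (∀ v : V, t • v ∈ augSub ρ I) → t = 0) :
    ∃ L : Submodule T V,
      (∃ b : Basis (Fin 2) T V, L = Submodule.span T {b 0}) ∧
      (∀ δ ∈ D, ∀ v ∈ L, ρ δ v ∈ L) ∧
      (∀ σ ∈ I, ∀ v : V, ρ σ v - v ∈ L) := by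
  obtain ⟨φ, hφ, hker⟩ := exists_surjective_ker_eq (augSub ρ I) v₀ hgen hfaith
  obtain ⟨b, hb⟩ := exists_basis_ker_eq_span h2 φ hφ
  refine ⟨augSub ρ I, ⟨b, ?_⟩, ?_, ?_⟩
  · rw [← hker, hb]
  · intro δ hδ v hv
    exact map_mem_augSub ρ I (hnorm δ hδ) hv
  · intro σ hσ v
    exact sub_mem_augSub ρ I hσ v

end Fermat.Agent.ES.W33.OrdLine26
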