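/-
Programme W (S33), chapter (B3′), (R2): **THE LEAF (Φ, c2, cN)** of helper22's `R2RelCtxN22` /
helper26's `NodalCtxAsm26.CtxLeaves.rel` (helper20, ruling w65).

`Φ = phiN wBar : Place k̄ F̃ ≃ Place k̄ F̃`, `Φ X := (wBar)⁻¹ • Fr X`, i.e.
  `y ∈ O_{Φ X} ↔ V_p (wBar y) ∈ O_X`                                   (`mem_phiN_iff`),
the map induced on points by `α` on the SECOND component (`rho2 (α x) = V_p (wBar x̄)`, the named
input `Rho2Alpha` = helper8's `FrickeBar8.rho2_alpha`, literally).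

MASTER (`r1_eq_phiN₀`, `r1_eq_phiN₁`, `r1_eq_phiN_of_isR2`): for EVERY place `P` of the bad level and
every place `X` of `F̃` whose valuation ring is the local ring `cSubring χ_P ρ₂` of the second
component at the centre of `P`,
  `r1 P = rV (resAlpha P) = Φ X`.
Proof: the good-level description `O_{rV P⁰} = {ā/d̄ : a, d ∈ chart ↥A tV^{±1}, d(P⁰) ∈ Aˣ}` (main,
`RedMain15.hr0/hr1`), `α (chart ↥A tV^{±1}) ⊆ chart ↥A tN^{±1}` (`map_mem_chart`),
`(α b)(P) = b(resAlpha P)` (`valueHom_restrictAlong`), `rho2 (α b) = V_p (wBar b̄)`; so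
`O_{rV P⁰} ⊆ O_{Φ X}`, and a discrete valuation ring is a maximal subring
(`FundIdentity19.valuationSubring_eq_of_le`).  No value computation, no separability.

EXITS, in the literals of `NodalCtxAsm26.CtxLeaves.rel` (`H : NodalCtxRN20.RNLeaves …`):
* **`c2_rN`** : `rN P = inl (inr Q₂) → rV (P.restrictAlong alphaN _) = phiN … wBar Q₂`;
* **`cN_rN`** : `nodesN.ν₁ j = phiN … wBar (nodesN.ν₂ j)`;
* `c2_cN` : both.
-/
import Mathlib
import Fermat.Agent.ES.W33.NodalCtxRN20
import Fermat.Agent.ES.W33.BetaRed15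
import Fermat.Agent.ES.HECKE.FundIdentity19
import Fermat.Agent.ES.RED.RedMain15

set_option autoImplicit false
set_option synthInstance.maxHeartbeats 400000
set_option linter.unusedSectionVars false
set_option linter.style.haveILetI false

open HahnSeries ModularCurve AlgebraicCurve Polynomial
open scoped MatrixGroups

noncomputable section

namespace Fermat.Agent.ES.W33.PhiLeafN20

open Fermat.Agent.RED.Interface4 Fermat.Agent.RED.BASE.Interface12 Fermat.Agent.RED.BASE.Hauptmodul12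
  Fermat.Agent.RED.PUR.ChartGeneric22
  Fermat.Agent.ES.RED.Contract8 Fermat.Agent.ES.RED.TwoCharts8 Fermat.Agent.ES.RED.ModelInst4
  Fermat.Agent.ES.RED.GaussRing15 Fermat.Agent.ES.RED.RedCharts15 Fermat.Agent.ES.RED.RedMain15
  Fermat.Agent.ES.RED.PlaceValue13
  Fermat.Agent.X0 Fermat.Agent.X0.FF
  Fermat.Agent.ES.V19.GaussFrac15 Fermat.Agent.ES.V19.InstNames3 Fermat.Agent.ES.W33.XiIfaceN29
  Fermat.Agent.ES.W33.NodalDefs3 Fermat.Agent.ES.KRON.FrobPlace13 Fermat.Agent.ES.W33.BetaRed15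
open Fermat.Agent.ES.W33.CentreN20 Fermat.Agent.ES.W33.NodalChart20 Fermat.Agent.ES.W33.TwoChartsN20
  Fermat.Agent.ES.W33.TwoChartsNInst20 Fermat.Agent.ES.W33.TwoChartsNRN20
  Fermat.Agent.ES.W33.NodalCtxRN20

attribute [local instance 5000] HahnSeries.powerSeriesAlgebra SubalgebraClass.toAlgebra

/-! ### §0 generic lemmas -/

section Value

variable {K F F' : Type*} [Field K] [IsAlgClosed K] [Field F] [Field F'] [Algebra K F] [Algebra K F']

/-- **the value of `φ f` at `w` is the value of `f` at the restriction of `w` along `φ`.** -/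
theorem valueHom_restrictAlong (φ : F →ₐ[K] F') (hφ : φ.toRingHom.IsIntegral) (w : Place K F')
    {x : F} (hx : IsGen K x) {x' : F'} (hx' : IsGen K x') (f : F)
    (hf : f ∈ (w.restrictAlong φ hφ).toValuationSubring) (hf' : φ f ∈ w.toValuationSubring) :
    valueHom hx (w.restrictAlong φ hφ) ⟨f, hf⟩ = valueHom hx' w ⟨φ f, hf'⟩ := by
  set c : K := valueHom hx' w ⟨φ f, hf'⟩ with hc
  have h1 := (valueHom_eq_iff hx' w ⟨φ f, hf'⟩ c).1 hc.symm
  rw [valueHom_eq_iff]
  rcases h1 with h1 | h1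
  · left
    apply φ.toRingHom.injective
    show φ f = φ (algebraMap K F c)
    rw [AlgHom.commutes]
    exact h1
  · right
    have h2 : w.ord (φ (f - algebraMap K F c)) =
        Place.ramificationIndexAlong φ w * (w.restrictAlong φ hφ).ord (f - algebraMap K F c) :=
      Place.ord_restrictAlong φ hφ w _
    rw [map_sub, AlgHom.commutes] at h2
    have h3 : (0 : ℤ) < Place.ramificationIndexAlong φ w *
        (w.restrictAlong φ hφ).ord (f - algebraMap K F c) := by
      rw [← h2]; exact h1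
    by_contra hle
    have hle' : (w.restrictAlong φ hφ).ord (f - algebraMap K F c) ≤ 0 := not_lt.mp hle
    have : (Place.ramificationIndexAlong φ w : ℤ) *
        (w.restrictAlong φ hφ).ord (f - algebraMap K F c) ≤ 0 :=
      mul_nonpos_of_nonneg_of_nonpos (Int.natCast_nonneg _) hle'
    omega

/-- chart membership descends along `φ`: if `(φ f)(w) ∈ A` then `f(w|φ) ∈ A`. -/
theorem exists_mem_restrictAlong (φ : F →ₐ[K] F') (hφ : φ.toRingHom.IsIntegral) (w : Place K F')
    {x : F} (hx : IsGen K x) {x' : F'} (hx' : IsGen K x') (A : ValuationSubring K) (f : F)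
    (hf' : φ f ∈ w.toValuationSubring) (hv : valueHom hx' w ⟨φ f, hf'⟩ ∈ A) :
    ∃ hf : f ∈ (w.restrictAlong φ hφ).toValuationSubring,
      valueHom hx (w.restrictAlong φ hφ) ⟨f, hf⟩ ∈ A := by
  refine ⟨hf', ?_⟩
  rw [valueHom_restrictAlong φ hφ w hx hx' f hf' hf']
  exact hv

end Value

section Chart

variable {L : Type*} [Field L] (A : ValuationSubring L)
variable {F F' : Type*} [Field F] [Field F'] [Algebra L F] [Algebra L F']

/-- **an `L`-algebra homomorphism maps the chart of `t` into the chart of `φ t`.** -/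
theorem map_mem_chart (φ : F →ₐ[L] F') {t x : F} (hx : x ∈ chart ↥A t) :
    φ x ∈ chart ↥A (φ t) := by
  rw [mem_chart_iff, isIntegral_subalgebra_iff] at hx ⊢
  obtain ⟨P, hP, hcoeff, hx⟩ := hx
  refine ⟨P.map φ.toRingHom, hP.map _, fun i => ?_, ?_⟩
  · rw [coeff_map]
    have h1 := hcoeff i
    have : (Algebra.adjoin ↥A {t}).map (φ.restrictScalars ↥A) = Algebra.adjoin ↥A {φ t} := by
      rw [AlgHom.map_adjoin, Set.image_singleton]
      rfl
    rw [← this]
    exact ⟨_, h1, rfl⟩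
  · rw [eval_map]
    show eval₂ φ.toRingHom (φ.toRingHom x) P = 0
    rw [eval₂_at_apply, hx, map_zero]

end Chart

section Twist

variable {k : Type*} [Field k] {B B' : Type*} [CommRing B] [CommRing B'] {Ft : Type*} [Field Ft]
  [Algebra k Ft]

/-- **the point under a twisted section**: `a : B' → B` with `χ ∘ a = χ'` and `ρ ∘ a = ι ∘ ρ'`; if
`O_X` is the local ring of `(χ, ρ)`, `O_{X'}` the local ring of `(χ', ρ')` and `O_Y = ι⁻¹ O_X`, then
`X' = Y` (`O_{X'} ⊆ O_Y`, and discrete valuation rings are maximal subrings). -/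
theorem place_eq_of_twist {χ : B →+* k} {ρ : B →+* Ft} {χ' : B' →+* k} {ρ' : B' →+* Ft}
    (a : B' → B) (ι : Ft →+* Ft) (hρ : ∀ b', ρ (a b') = ι (ρ' b')) (hχ : ∀ b', χ (a b') = χ' b')
    (X X' Y : Place k Ft)
    (hX : ∀ y, y ∈ X.toValuationSubring ↔ y ∈ cSubring χ ρ)
    (hX' : ∀ y, y ∈ X'.toValuationSubring ↔ y ∈ cSubring χ' ρ')
    (hY : ∀ y, y ∈ Y.toValuationSubring ↔ ι y ∈ X.toValuationSubring) : X' = Y := by
  apply Place.ext
  symm
  apply Fermat.Agent.ES.HECKE.FundIdentity19.valuationSubring_eq_of_le X' Y.toValuationSubring _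
    Y.ne_top'
  intro y hy
  obtain ⟨n, d, hd, he⟩ := (hX' y).1 hy
  rw [hY, hX]
  exact ⟨a n, a d, by rw [hχ]; exact hd, by rw [hρ, hρ, ← map_mul, he]⟩

end Twist

section PowMem

variable {F : Type*} [Field F]

/-- valuation rings are integrally closed, the only case needed. -/
theorem pow_mem_valuationSubring_iff (V : ValuationSubring F) (z : F) {m : ℕ} (hm : 0 < m) :
    z ^ m ∈ V ↔ z ∈ V := by
  refine ⟨fun h => ?_, fun h => pow_mem h m⟩
  rcases V.mem_or_inv_mem z with hz | hz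
  · exact hz
  · by_cases hz0 : z = 0
    · rw [hz0]; exact V.zero_mem
    have h1 : z = z ^ m * (z⁻¹) ^ (m - 1) := by
      obtain ⟨m', rfl⟩ : ∃ m', m = m' + 1 := ⟨m - 1, by omega⟩
      rw [Nat.add_sub_cancel, pow_succ, inv_pow, mul_comm (z ^ m') z, mul_assoc,
        mul_inv_cancel₀ (pow_ne_zero _ hz0), mul_one]
    rw [h1]
    exact V.mul_mem _ _ h (pow_mem hz _)

end PowMem

/-! ### §1 the partner bijection `Φ` -/

variable (M' : ℕ) [NeZero M'] (p : ℕ) [Fact p.Prime] (A : ValuationSubring Qbar)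
  (hA : A.LiesOverPrime p)

/-- **THE PARTNER BIJECTION** `Φ X = wBar⁻¹ • Fr X` on the places of `F̃`: the map on points induced
by `α` on the second component (`rho2 ∘ α = V_p ∘ wBar ∘ red'`). -/
def phiN (wBar : Ft M' A ≃ₐ[kA A] Ft M' A) :
    Place (kA A) (Ft M' A) ≃ Place (kA A) (Ft M' A) :=
  haveI := isAlgClosed_kA A
  haveI := charP_kA p A hA
  haveI : ExpChar (kA A) p := ExpChar.prime (Fact.out : p.Prime)
  (frobPlace (kA A) p M').trans (MulAction.toPerm (SemilinearAut.ofAlgAut wBar)⁻¹)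

/-- **`y ∈ O_{Φ X} ↔ V_p (wBar y) ∈ O_X`.** -/
theorem mem_phiN_iff (wBar : Ft M' A ≃ₐ[kA A] Ft M' A) (X : Place (kA A) (Ft M' A))
    (y : Ft M' A) :
    y ∈ (phiN M' p A hA wBar X).toValuationSubring ↔
      vpFt M' p A hA (wBar y) ∈ X.toValuationSubring := by
  haveI := isAlgClosed_kA A
  haveI := charP_kA p A hA
  haveI : ExpChar (kA A) p := ExpChar.prime (Fact.out : p.Prime)
  have h1 : y ∈ (phiN M' p A hA wBar X).toValuationSubring ↔
      (frobSemi (kA A) p M')⁻¹ • (wBar y) ∈ X.toValuationSubring := by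
    show y ∈ ((SemilinearAut.ofAlgAut wBar)⁻¹ • (frobSemi (kA A) p M' • X)).toValuationSubring ↔ _
    rw [SemilinearAut.smul_toValuationSubring,
      ValuationSubring.mem_pointwise_smul_iff_inv_smul_mem, inv_inv,
      SemilinearAut.smul_toValuationSubring,
      ValuationSubring.mem_pointwise_smul_iff_inv_smul_mem]
    rfl
  rw [h1, vpFt_eq_pow M' p A hA (wBar y),
    pow_mem_valuationSubring_iff _ _ (Fact.out : p.Prime).pos]

/-! ### §2 the named input and the master statement -/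

variable (n e : ℕ) [NeZero n] (hpM : ¬ p ∣ M') (hb : BaseHyp n e) (hnM : n ∣ M')

/-- **THE NAMED INPUT** (helper8's `FrickeBar8.rho2_alpha`, literally): the second-component
reduction of `α x` is `V_p (wBar x̄)`. -/
def Rho2Alpha (wBar : Ft M' A ≃ₐ[kA A] Ft M' A) : Prop :=
  ∀ (x : ↥(Fbar M')) (φ : Ft M' A),
    IsRedOf (gaussRingN A (resA A) M') (gaussRedN A (resA A) M') x φ →
      ∃ h : alphaN M' p x ∈ O2 M' p A, rho2 M' p A ⟨_, h⟩ = vpFt M' p A hA (wBar φ)

variable {M' p A hA n e hpM hb hnM}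

/-- an element of a good-level chart ring is Gauss-integral with its chart reduction. -/
theorem isRedOf_of_compat {S' : ChartSpec A (hxV n e M' hb hnM) (Ft M' A)}
    (hS' : Compat A M' S') (b' : ↥S'.B) :
    IsRedOf (gaussRingN A (resA A) M') (gaussRedN A (resA A) M') (b' : ↥(Fbar M')) (S'.red b') := by
  refine ⟨⟨(b' : ↥(Fbar M')), hS'.le_gaussRingN b'.2⟩, 1, ?_, ?_, ?_⟩
  · rw [map_one]; exact one_ne_zero
  · rw [OneMemClass.coe_one, mul_one]
  · rw [map_one, mul_one, hS'.gaussRedN_eq _ b'.2]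

section Master

variable {wBar : Ft M' A ≃ₐ[kA A] Ft M' A} (hw : Rho2Alpha M' p A hA wBar)
variable (S : NodalChart A (hxN n e M' p hb hnM) (Ft M' A) (Ft M' A))
  (S' : ChartSpec A (hxV n e M' hb hnM) (Ft M' A))
  (hs : S.s = alphaN M' p S'.s) (hB : ∀ b' ∈ S'.B, alphaN M' p b' ∈ S.B)
  (hS' : Compat A M' S')
  (hρ₂ : ∀ b : ↥S.B, ∃ h : (b : ↥(Fbar (M' * p))) ∈ O2 M' p A, S.ρ₂ b = rho2 M' p A ⟨_, h⟩)

include hs in
/-- a place in the chart of the bad level restricts to a place in the chart of the good level. -/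
theorem inChart_resAlpha {P : Place Qbar ↥(Fbar (M' * p))} (hP : S.InChart P) :
    S'.InChart (resAlpha M' p P) := by
  have key : ∀ (s : ↥(Fbar (M' * p))), s = alphaN M' p S'.s →
      (∃ hsP : s ∈ P.toValuationSubring, valueHom (hxN n e M' p hb hnM) P ⟨s, hsP⟩ ∈ A) →
      S'.InChart (resAlpha M' p P) := by
    intro s hss
    subst hss
    rintro ⟨hsP, hv⟩
    exact exists_mem_restrictAlong (alphaN M' p) (alphaN_isIntegral M' p) P (hxV n e M' hb hnM)
      (hxN n e M' p hb hnM) A S'.s hsP hv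
  exact key S.s hs hP

include hs in
/-- `χ_P (α b') = χ_{resAlpha P} b'`. -/
theorem chi_alpha {P : Place Qbar ↥(Fbar (M' * p))} (hP : S.InChart P) (b' : ↥S'.B) :
    S.chi P hP ⟨alphaN M' p b', hB _ b'.2⟩ =
      S'.chi (resAlpha M' p P) (inChart_resAlpha S S' hs hP) b' := by
  have h := valueHom_restrictAlong (alphaN M' p) (alphaN_isIntegral M' p) P (hxV n e M' hb hnM)
    (hxN n e M' p hb hnM) (b' : ↥(Fbar M'))
    (S'.mem_place _ (inChart_resAlpha S S' hs hP) _ b'.2) (S.mem_place P hP _ (hB _ b'.2))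
  have h2 : S.ev P hP ⟨alphaN M' p b', hB _ b'.2⟩ =
      S'.ev (resAlpha M' p P) (inChart_resAlpha S S' hs hP) b' :=
    Subtype.ext ((S.coe_ev P hP _).trans (h.symm.trans (S'.coe_ev _ _ _).symm))
  rw [NodalChart.chi_apply, ChartSpec.chi_apply, h2]

include hw hB hS' hρ₂ in
/-- `ρ₂ (α b') = V_p (wBar b̄')`. -/
theorem rho2_alpha_chart (b' : ↥S'.B) :
    S.ρ₂ ⟨alphaN M' p b', hB _ b'.2⟩ = vpFt M' p A hA (wBar (S'.red b')) := by
  obtain ⟨h, he⟩ := hρ₂ ⟨alphaN M' p b', hB _ b'.2⟩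
  obtain ⟨h', he'⟩ := hw _ _ (isRedOf_of_compat hS' b')
  rw [he, ← he']

include hw hs hB hS' hρ₂ in
/-- **MASTER, chart form**: if `O_X` is the local ring of the second component at the centre of `P`
(computed in the chart `S`), and `O_{X'}` the good-level local ring at the centre of `resAlpha P`
(computed in the chart `S'`), then `X' = Φ X`. -/
theorem eq_phiN_of_charts {P : Place Qbar ↥(Fbar (M' * p))} (hP : S.InChart P)
    {X : Place (kA A) (Ft M' A)}
    (hX : ∀ y, y ∈ X.toValuationSubring ↔ y ∈ cSubring (S.chi P hP) S.ρ₂)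
    (X' : Place (kA A) (Ft M' A))
    (hX' : ∀ y, y ∈ X'.toValuationSubring ↔
      y ∈ S'.rSubring (resAlpha M' p P) (inChart_resAlpha S S' hs hP)) :
    X' = phiN M' p A hA wBar X :=
  place_eq_of_twist (χ := S.chi P hP) (ρ := S.ρ₂)
    (χ' := S'.chi (resAlpha M' p P) (inChart_resAlpha S S' hs hP)) (ρ' := S'.red)
    (fun b' => ⟨alphaN M' p b', hB _ b'.2⟩)
    ((vpFt M' p A hA).comp (wBar : Ft M' A →+* Ft M' A))
    (fun b' => rho2_alpha_chart hw S S' hB hS' hρ₂ b')
    (fun b' => chi_alpha S S' hs hB hP b') X X' (phiN M' p A hA wBar X) hX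
    (fun y => (hX' y).trans (S'.mem_rSubring_iff _ _ y))
    (fun y => mem_phiN_iff M' p A hA wBar X y)

end Master

/-! ### §3 the two charts of the instance -/

section Inst

variable {wBar : Ft M' A ≃ₐ[kA A] Ft M' A} (hw : Rho2Alpha M' p A hA wBar)
variable (L : ChartLeaves n e M' p hb hnM A)

/-- `α` maps `chart ↥A tV` into `chart ↥A tN`. -/
theorem alpha_mem_chart0 (b' : ↥(Fbar M')) (hb' : b' ∈ (TV n e M' p hpM hb hnM A hA).S0.B) :
    alphaN M' p b' ∈ (S0N L).B :=
  map_mem_chart A (alphaN M' p) (t := tV n e M' hb hnM) hb'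

/-- `α` maps `chart ↥A tV⁻¹` into `chart ↥A tN⁻¹`. -/
theorem alpha_mem_chart1 (b' : ↥(Fbar M')) (hb' : b' ∈ (TV n e M' p hpM hb hnM A hA).S1.B) :
    alphaN M' p b' ∈ (S1N L).B := by
  have h := map_mem_chart A (alphaN M' p) (t := (tV n e M' hb hnM)⁻¹) hb'
  rw [map_inv₀] at h
  exact h

include hw in
/-- **MASTER, chart 0**: if `O_X` is the local ring of the second component at the centre of `P`
(a place of chart 0), then `r1 P = Φ X`. -/
theorem r1_eq_phiN₀ {P : Place Qbar ↥(Fbar (M' * p))} (h0 : (S0N L).InChart P)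
    {X : Place (kA A) (Ft M' A)}
    (hX : ∀ y, y ∈ X.toValuationSubring ↔ y ∈ cSubring ((S0N L).chi P h0) (S0N L).ρ₂) :
    r1 n e M' p hpM hb hnM A hA P = phiN M' p A hA wBar X :=
  eq_phiN_of_charts hw (S0N L) (TV n e M' p hpM hb hnM A hA).S0 rfl
    (alpha_mem_chart0 (hpM := hpM) (hA := hA) L)
    (inputs0V n e M' p hpM hb hnM A hA).compat
    (fun b => ⟨GN_le_O2 M' p A (L.h0 _ b.2), S0N_ρ₂ L b⟩) h0 hX _
    (fun y => hr0 (TV n e M' p hpM hb hnM A hA) (resAlpha M' p P) _ y)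

include hw in
/-- **MASTER, chart 1**. -/
theorem r1_eq_phiN₁ {P : Place Qbar ↥(Fbar (M' * p))} (h1 : (S1N L).InChart P)
    {X : Place (kA A) (Ft M' A)}
    (hX : ∀ y, y ∈ X.toValuationSubring ↔ y ∈ cSubring ((S1N L).chi P h1) (S1N L).ρ₂) :
    r1 n e M' p hpM hb hnM A hA P = phiN M' p A hA wBar X :=
  haveI := isAlgClosed_kA A
  eq_phiN_of_charts hw (S1N L) (TV n e M' p hpM hb hnM A hA).S1
    (map_inv₀ (alphaN M' p) (tV n e M' hb hnM)).symm
    (alpha_mem_chart1 (hpM := hpM) (hA := hA) L)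
    (inputs1V n e M' p hpM hb hnM A hA).compat
    (fun b => ⟨GN_le_O2 M' p A (L.h1 _ b.2), S1N_ρ₂ L b⟩) h1 hX _
    (fun y => hr1 (TV n e M' p hpM hb hnM A hA) (hxtV n e M' p hpM hb hnM A hA)
      (resAlpha M' p P) _ y)

end Inst

/-! ### §4 the exits `c2`, `cN` in the literals of `NodalCtxAsm26.CtxLeaves.rel` -/

section Exits

variable {wBar : Ft M' A ≃ₐ[kA A] Ft M' A} (hw : Rho2Alpha M' p A hA wBar)
variable (H : RNLeaves n e M' p hpM hb hnM A hA)

include hw H in
/-- **MASTER, `NodalDefs3` form**: `IsR2 P X → r1 P = Φ X`. -/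
theorem r1_eq_phiN_of_isR2 {P : Place Qbar ↥(Fbar (M' * p))} {X : Place (kA A) (Ft M' A)}
    (hX : IsR2 n e M' p hb hnM A P X) :
    r1 n e M' p hpM hb hnM A hA P = phiN M' p A hA wBar X := by
  by_cases h0 : (S0N H.L).InChart P
  · exact r1_eq_phiN₀ hw H.L h0 ((isR2_iff₀ H.L h0 X).1 hX)
  · have h1 : (S1N H.L).InChart P := (H.T.inChart_or P).resolve_left h0
    exact r1_eq_phiN₁ hw H.L h1 ((isR2_iff₁ H.L h0 h1 X).1 hX)

include hw H in
/-- **(c2)**: a place reducing to a smooth point `Q₂` of the SECOND component restricts, along `α`,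
to a place of the good level reducing to `Φ Q₂`. -/
theorem c2_rN (P : Place Qbar ↥(Fbar (M' * p))) (Q₂ : Place (kA A) (Ft M' A))
    (h : rN n e M' p hpM hb hnM A hA P = Sum.inl (Sum.inr Q₂)) :
    rV n e M' p hpM hb hnM A hA (P.restrictAlong (alphaN M' p) (alphaN_isIntegral M' p)) =
      phiN M' p A hA wBar Q₂ := by
  have hT : H.T.r P = Sum.inl (Sum.inr Q₂) := (H.T_r P).trans h
  rcases (H.T.r_eq_inl_inr_iff P Q₂).1 hT with ⟨h0, -, -, hQ⟩ | ⟨h1, -, -, hQ⟩
  · exact r1_eq_phiN₀ hw H.L h0 hQ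
  · exact r1_eq_phiN₁ hw H.L h1 hQ

include hw H in
/-- **(cN)**: the two branch points of the `j`-th node are partners. -/
theorem cN_rN (j : Fin (sN n e M' p hpM hb hnM A hA)) :
    (nodesN n e M' p hpM hb hnM A hA).ν₁ j =
      phiN M' p A hA wBar ((nodesN n e M' p hpM hb hnM A hA).ν₂ j) := by
  obtain ⟨hon₁, hon₂⟩ := (nodePt_node H.placeLeaves j).choose_spec
  obtain ⟨X, hX⟩ := H.node₂ _ (nodePt_node H.placeLeaves j).choose hon₁ hon₂
  have hR2 : IsR2 n e M' p hb hnM A (nodePt (hpM := hpM) (hA := hA) j) X :=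
    (isR2_iff₀ H.L (nodePt_node H.placeLeaves j).choose X).2 hX
  rw [ν₁_eq, ν₂_eq, r2_eq n e M' p hpM hb hnM A hA hR2]
  exact r1_eq_phiN₀ hw H.L _ hX

include hw H in
/-- **(c2) ∧ (cN)**, the first two conjuncts of `NodalCtxAsm26.CtxLeaves.rel` at `Φ := phiN … wBar`. -/
theorem c2_cN :
    (∀ (P : Place Qbar ↥(Fbar (M' * p))) (Q₂ : Place (kA A) (Ft M' A)),
      rN n e M' p hpM hb hnM A hA P = Sum.inl (Sum.inr Q₂) →
        rV n e M' p hpM hb hnM A hA (P.restrictAlong (alphaN M' p) (alphaN_isIntegral M' p)) =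
          phiN M' p A hA wBar Q₂) ∧
    (∀ j : Fin (sN n e M' p hpM hb hnM A hA),
      (nodesN n e M' p hpM hb hnM A hA).ν₁ j =
        phiN M' p A hA wBar ((nodesN n e M' p hpM hb hnM A hA).ν₂ j)) :=
  ⟨c2_rN hw H, cN_rN hw H⟩

end Exits

end Fermat.Agent.ES.W33.PhiLeafN20
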