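/-
Programme W (S33), chapter (B3′), leaf "branch-1 places" (helper8, written as a SPARE of helper3's
announced `R1LeavesN3`): **`R1Leaves` of helper20's `TwoChartsNRN20` at the instance, WITHOUT any
surjectivity input.**

For a place `P` of a chart `S_jN L` of the bad level whose centre lies ON the first component,
`O_{r1 P} = cSubring χ_P ρ₁` where `r1 P = rV (resAlpha P)`.

Proof.  `O_{rV P'} = rSubring` of the good-level chart (main `RedMain15.hr0/hr1`), `α` maps the good chart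
ring into the bad one with `χ_P ∘ α = χ_{resAlpha P}` and `ρ₁ ∘ α = red'` (helper20's `PhiLeafN20`
master lemmas + `FrickeBar8.rho1_alpha`); `⊆` is then formal, and `⊇` uses ONLY that `O_{rV P'}` is a
valuation ring: if `y = ρ₁ n / ρ₁ d` (`χ_P d ≠ 0`) is not in it, then `y⁻¹ = red' n' / red' d'` with
`χ' n' = 0 ≠ χ' d'`, so `ρ₁ (d · α d' − n · α n') = 0`, and the centre being on the first component
gives `χ_P d · χ' d' = χ_P n · χ' n' = 0`, a contradiction (`cSubring_eq_of_valuation`).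
-/
import Mathlib
import Fermat.Agent.ES.W33.PhiLeafN20
import Fermat.Agent.ES.W33.FrickeBar8

set_option autoImplicit false
set_option synthInstance.maxHeartbeats 400000
set_option linter.unusedSectionVars false
set_option linter.style.haveILetI false

open HahnSeries ModularCurve AlgebraicCurve Polynomial
open scoped MatrixGroups

noncomputable section

namespace Fermat.Agent.ES.W33.R1LeavesN8

open Fermat.Agent.RED.Interface4 Fermat.Agent.RED.BASE.Interface12 Fermat.Agent.RED.BASE.Hauptmodul12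
  Fermat.Agent.RED.PUR.ChartGeneric22
  Fermat.Agent.ES.RED.Contract8 Fermat.Agent.ES.RED.TwoCharts8 Fermat.Agent.ES.RED.ModelInst4
  Fermat.Agent.ES.RED.GaussRing15 Fermat.Agent.ES.RED.RedCharts15 Fermat.Agent.ES.RED.RedMain15
  Fermat.Agent.ES.RED.PlaceValue13
  Fermat.Agent.X0 Fermat.Agent.X0.FF
  Fermat.Agent.ES.V19.GaussFrac15 Fermat.Agent.ES.V19.InstNames3 Fermat.Agent.ES.W33.XiIfaceN29
  Fermat.Agent.ES.W33.NodalDefs3
open Fermat.Agent.ES.W33.CentreN20 Fermat.Agent.ES.W33.NodalChart20 Fermat.Agent.ES.W33.TwoChartsN20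
  Fermat.Agent.ES.W33.TwoChartsNInst20 Fermat.Agent.ES.W33.TwoChartsNRN20
  Fermat.Agent.ES.W33.PhiLeafN20

attribute [local instance 5000] HahnSeries.powerSeriesAlgebra SubalgebraClass.toAlgebra

/-! ### §0 the generic lemma -/

section Generic

variable {k : Type*} [Field k] {B B' : Type*} [CommRing B] [CommRing B'] {Ft : Type*} [Field Ft]
  [Algebra k Ft]

/-- **the local ring at a centre lying on the component, computed in a smaller ring whose local
ring is already a valuation ring** — no surjectivity needed. -/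
theorem cSubring_eq_of_valuation {χ : B →+* k} {ρ : B →+* Ft} {χ' : B' →+* k} {ρ' : B' →+* Ft}
    (hon : ∀ b : B, ρ b = 0 → χ b = 0) (a : B' → B) (hρ : ∀ b', ρ (a b') = ρ' b')
    (hχ : ∀ b', χ (a b') = χ' b') (X' : Place k Ft)
    (hX' : ∀ y, y ∈ X'.toValuationSubring ↔ y ∈ cSubring χ' ρ') (y : Ft) :
    y ∈ X'.toValuationSubring ↔ y ∈ cSubring χ ρ := by
  constructor
  · intro hy
    obtain ⟨n', d', hd', he⟩ := (hX' y).1 hy
    exact ⟨a n', a d', by rw [hχ]; exact hd', by rw [hρ, hρ]; exact he⟩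
  · rintro ⟨n, d, hd, he⟩
    rcases X'.toValuationSubring.mem_or_inv_mem y with hy | hy
    · exact hy
    · obtain ⟨n', d', hd', he'⟩ := (hX' y⁻¹).1 hy
      by_cases hy0 : y = 0
      · rw [hy0]; exact zero_mem _
      by_cases hn' : χ' n' = 0
      · exfalso
        -- `ρ d * ρ' d' = ρ n * ρ' n'`
        have h1 : ρ' d' = y * ρ' n' := by
          rw [← he', ← mul_assoc, mul_inv_cancel₀ hy0, one_mul]
        have h2 : ρ (d * a d' - n * a n') = 0 := by
          rw [map_sub, map_mul, map_mul, hρ, hρ, h1, ← he]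
          ring
        have h3 := hon _ h2
        rw [map_sub, map_mul, map_mul, hχ, hχ, hn', mul_zero, sub_zero] at h3
        rcases mul_eq_zero.mp h3 with h4 | h4
        · exact hd h4
        · exact hd' h4
      · rw [hX']
        refine ⟨d', n', hn', ?_⟩
        rw [← he', ← mul_assoc, mul_inv_cancel₀ hy0, one_mul]

end Generic

/-! ### §1 the instance -/

variable {M' : ℕ} [NeZero M'] {p : ℕ} [Fact p.Prime] {A : ValuationSubring Qbar}
  {hA : A.LiesOverPrime p} {n e : ℕ} [NeZero n] {hpM : ¬ p ∣ M'} {hb : BaseHyp n e} {hnM : n ∣ M'}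

section Master

variable (S : NodalChart A (hxN n e M' p hb hnM) (Ft M' A) (Ft M' A))
  (S' : ChartSpec A (hxV n e M' hb hnM) (Ft M' A))
  (hs : S.s = alphaN M' p S'.s) (hB : ∀ b' ∈ S'.B, alphaN M' p b' ∈ S.B)
  (hS' : Compat A M' S')
  (hρ₁ : ∀ b : ↥S.B, ∃ h : (b : ↥(Fbar (M' * p))) ∈ O1 M' p A, S.ρ₁ b = rho1 M' p A ⟨_, h⟩)

include hB hS' hρ₁ in
/-- `ρ₁ (α b') = b̄'`. -/
theorem rho1_alpha_chart (b' : ↥S'.B) :
    S.ρ₁ ⟨alphaN M' p b', hB _ b'.2⟩ = S'.red b' := by
  obtain ⟨h, he⟩ := hρ₁ ⟨alphaN M' p b', hB _ b'.2⟩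
  obtain ⟨h', he'⟩ := Fermat.Agent.ES.W33.FrickeBar8.rho1_alpha M' p A (isRedOf_of_compat hS' b')
  rw [he, ← he']

include hs hB hS' hρ₁ in
/-- **MASTER, chart form**: if the centre of `P` lies on the first component and `O_{X'}` is the
good-level local ring at the centre of `resAlpha P`, then `O_{X'} = cSubring χ_P ρ₁`. -/
theorem mem_iff_of_charts {P : Place Qbar ↥(Fbar (M' * p))} (hP : S.InChart P)
    (hon : S.On₁ P hP) (X' : Place (kA A) (Ft M' A))
    (hX' : ∀ y, y ∈ X'.toValuationSubring ↔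
      y ∈ S'.rSubring (resAlpha M' p P) (inChart_resAlpha S S' hs hP)) (y : Ft M' A) :
    y ∈ X'.toValuationSubring ↔ y ∈ cSubring (S.chi P hP) S.ρ₁ :=
  cSubring_eq_of_valuation (χ := S.chi P hP) (ρ := S.ρ₁)
    (χ' := S'.chi (resAlpha M' p P) (inChart_resAlpha S S' hs hP)) (ρ' := S'.red)
    hon (fun b' => ⟨alphaN M' p b', hB _ b'.2⟩)
    (fun b' => rho1_alpha_chart S S' hB hS' hρ₁ b')
    (fun b' => chi_alpha S S' hs hB hP b') X'
    (fun y => (hX' y).trans (S'.mem_rSubring_iff _ _ y)) y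

end Master

section Inst

variable (L : ChartLeaves n e M' p hb hnM A)

/-- **`r1₀`**: chart 0. -/
theorem r1₀ (P : Place Qbar ↥(Fbar (M' * p))) (h0 : (S0N L).InChart P)
    (hon : (S0N L).On₁ P h0) (y : Ft M' A) :
    y ∈ (r1 n e M' p hpM hb hnM A hA P).toValuationSubring ↔
      y ∈ cSubring ((S0N L).chi P h0) (S0N L).ρ₁ :=
  mem_iff_of_charts (S0N L) (TV n e M' p hpM hb hnM A hA).S0 rfl
    (alpha_mem_chart0 (hpM := hpM) (hA := hA) L)
    (inputs0V n e M' p hpM hb hnM A hA).compat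
    (fun b => ⟨GN_le_O1 M' p A (L.h0 _ b.2), S0N_ρ₁ L b⟩) h0 hon _
    (fun y => hr0 (TV n e M' p hpM hb hnM A hA) (resAlpha M' p P) _ y) y

/-- **`r1₁`**: chart 1. -/
theorem r1₁ (P : Place Qbar ↥(Fbar (M' * p))) (h1 : (S1N L).InChart P)
    (hon : (S1N L).On₁ P h1) (y : Ft M' A) :
    y ∈ (r1 n e M' p hpM hb hnM A hA P).toValuationSubring ↔
      y ∈ cSubring ((S1N L).chi P h1) (S1N L).ρ₁ :=
  haveI := isAlgClosed_kA A
  mem_iff_of_charts (S1N L) (TV n e M' p hpM hb hnM A hA).S1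
    (map_inv₀ (alphaN M' p) (tV n e M' hb hnM)).symm
    (alpha_mem_chart1 (hpM := hpM) (hA := hA) L)
    (inputs1V n e M' p hpM hb hnM A hA).compat
    (fun b => ⟨GN_le_O1 M' p A (L.h1 _ b.2), S1N_ρ₁ L b⟩) h1 hon _
    (fun y => hr1 (TV n e M' p hpM hb hnM A hA) (hxtV n e M' p hpM hb hnM A hA)
      (resAlpha M' p P) _ y) y

variable (n e M' p hpM hb hnM A hA) in
/-- **THE BRANCH-1 LEAVES** of `TwoChartsNRN20`, hypothesis-free. -/
theorem r1Leaves : R1Leaves n e M' p hpM hb hnM A hA L where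
  r1₀ := fun P h0 hon y => r1₀ L P h0 hon y
  r1₁ := fun P h1 hon y => r1₁ L P h1 hon y

end Inst

end Fermat.Agent.ES.W33.R1LeavesN8
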