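/-
Programme W (S33), chapter (B5′), helper29: **first consequences of the nodal function-level context**
`XiIfaceN29.RedCtxN` (no field is added to the interface; everything here is derived).

* `RedCtxN.const` : the constant `a ∈ A` as an element of `G`; `red_const'`;
* `RedCtxN.const_of_mem` : a constant of `K` lying in `G` lies in `A`  [`c ∉ A ⇒ c⁻¹` is a non-unit of
  `A`, `red c⁻¹ = 0`, `1 = red c · red c⁻¹ = 0`];
* `RedCtxN.scale_mem` : for `f ∈ G`, `f ≠ 0`, the scaling constant of `RedCtxN.scale` lies in `A`;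
* `RedCtxN.exists_small_of_red_eq_zero` : `f ∈ G`, `red f = 0` ⇒ `f = c · w` with `c` a NON-UNIT of `A`
  and `w ∈ G`  (the form "`h ≡ 1` modulo `𝔪_A · G`" of `red h = 1`);
* `RedCtxN.ord_scale` : scaling by a nonzero constant does not change orders.
-/
import Mathlib
import Fermat.Agent.X0.FFResidue
import Fermat.Agent.ES.V19.SupTrick15
import Fermat.Agent.ES.W33.XiIfaceN29

set_option autoImplicit false

noncomputable section

namespace Fermat.Agent.ES.W33.RedCtxN29

open AlgebraicCurve Fermat.Agent.X0.FF Fermat.Agent.RR.LSpace Fermat.Agent.ES.W33.XiIfaceN29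
  Fermat.Agent.ES.V19.SupTrick15

variable {K F k Ft₁ Ft₂ : Type*} [Field K] [Field F] [Algebra K F] [Field k]
  [Field Ft₁] [Algebra k Ft₁] [Field Ft₂] [Algebra k Ft₂]
variable {s : ℕ} {A : ValuationSubring K} {π : ↥A →+* k} {N : Nodes k Ft₁ Ft₂ s}
  {G : Subring F} {red : ↥G →+* Ft₁ × Ft₂} {r : Place K F → SPt k Ft₁ Ft₂ ⊕ Fin s}

/-- the constant `a ∈ A` as an element of `G`. -/
def const (C : RedCtxN A π N G red r) (a : ↥A) : ↥G := ⟨algebraMap K F (a : K), C.const_mem a⟩

theorem red_const' (C : RedCtxN A π N G red r) (a : ↥A) :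
    red (const C a) = (algebraMap k Ft₁ (π a), algebraMap k Ft₂ (π a)) := C.red_const a

theorem red_const_of_nonunit (C : RedCtxN A π N G red r) (a : ↥A) (ha : ¬ IsUnit a) :
    red (const C a) = 0 := by
  rw [red_const', C.pi_nonunit a ha, map_zero, map_zero]
  rfl

/-- **A constant of `K` lying in `G` lies in `A`.** -/
theorem const_of_mem (C : RedCtxN A π N G red r) (c : K) (hc : algebraMap K F c ∈ G) : c ∈ A := by
  by_contra hcA
  obtain ⟨hinv, hnu⟩ := inv_nonunit_of_notMem hcA
  have hc0 : c ≠ 0 := fun h => hcA (by rw [h]; exact A.zero_mem)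
  have h1 : (⟨algebraMap K F c, hc⟩ : ↥G) * const C ⟨c⁻¹, hinv⟩ = 1 := by
    apply Subtype.ext
    show algebraMap K F c * algebraMap K F c⁻¹ = 1
    rw [← map_mul, mul_inv_cancel₀ hc0, map_one]
  have h2 := congrArg red h1
  rw [map_mul, red_const_of_nonunit C _ hnu, mul_zero, map_one] at h2
  exact zero_ne_one h2

/-- for `f ∈ G` the scaling constant lies in `A`. -/
theorem scale_mem (C : RedCtxN A π N G red r) {f : F} (hf : f ∈ G) {c : K}
    (h : (algebraMap K F c)⁻¹ * f ∈ G) (hred : red ⟨_, h⟩ ≠ 0) : c ∈ A := by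
  by_contra hcA
  obtain ⟨hinv, hnu⟩ := inv_nonunit_of_notMem hcA
  apply hred
  have e : (⟨(algebraMap K F c)⁻¹ * f, h⟩ : ↥G) = const C ⟨c⁻¹, hinv⟩ * ⟨f, hf⟩ := by
    apply Subtype.ext
    show (algebraMap K F c)⁻¹ * f = algebraMap K F c⁻¹ * f
    rw [map_inv₀]
  rw [e, map_mul, red_const_of_nonunit C _ hnu, zero_mul]

/-- **`red f = 0` means `f ∈ 𝔪_A · G`.** -/
theorem exists_small_of_red_eq_zero (C : RedCtxN A π N G red r) {f : F} (hf : f ∈ G)
    (hred : red ⟨f, hf⟩ = 0) :
    ∃ c ∈ A.nonunits, ∃ w ∈ G, f = algebraMap K F c * w := by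
  rcases eq_or_ne f 0 with rfl | hf0
  · exact ⟨0, by rw [ValuationSubring.mem_nonunits_iff]; simp, 0, G.zero_mem,
      by rw [mul_zero]⟩
  obtain ⟨c, hc0, hw, hwred⟩ := C.scale f hf0
  have hcA : c ∈ A := scale_mem C hf hw hwred
  have hcF : algebraMap K F c ≠ 0 := (map_ne_zero _).mpr hc0
  refine ⟨c, ?_, _, hw, ?_⟩
  · rw [ValuationSubring.mem_nonunits_iff_exists_mem_maximalIdeal]
    refine ⟨hcA, ?_⟩
    rw [IsLocalRing.mem_maximalIdeal, mem_nonunits_iff]
    intro hu
    apply hwred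
    -- `f = c · w`, so `0 = red f = π c · red w` with `π c` a unit
    have e : (⟨f, hf⟩ : ↥G) = const C ⟨c, hcA⟩ * ⟨_, hw⟩ := by
      apply Subtype.ext
      show f = algebraMap K F c * ((algebraMap K F c)⁻¹ * f)
      rw [← mul_assoc, mul_inv_cancel₀ hcF, one_mul]
    rw [e, map_mul] at hred
    obtain ⟨b, hb⟩ := hu.exists_right_inv
    have e2 : red (const C b) * (red (const C ⟨c, hcA⟩) * red ⟨_, hw⟩) = red ⟨_, hw⟩ := by
      rw [← mul_assoc, ← map_mul]
      have : const C b * const C ⟨c, hcA⟩ = 1 := by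
        apply Subtype.ext
        show algebraMap K F (b : K) * algebraMap K F c = 1
        rw [← map_mul]
        have := congrArg Subtype.val hb
        simp only [MulMemClass.coe_mul, OneMemClass.coe_one] at this
        rw [mul_comm, this, map_one]
      rw [this, map_one, one_mul]
    rw [← e2, hred, mul_zero]
  · rw [← mul_assoc, mul_inv_cancel₀ hcF, one_mul]

/-- scaling by a nonzero constant does not change orders. -/
theorem ord_scale {c : K} (hc0 : c ≠ 0) {f : F} (hf : f ≠ 0) (v : Place K F) :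
    v.ord ((algebraMap K F c)⁻¹ * f) = v.ord f := by
  have hcF : algebraMap K F c ≠ 0 := (map_ne_zero _).mpr hc0
  rw [v.ord_mul (inv_ne_zero hcF) hf, Place.ord_inv, ffp_ord_algebraMap]
  ring

end Fermat.Agent.ES.W33.RedCtxN29
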