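/-
Programme W (S33), chapter (B3′), (R2) = helper22's RELATIVE COUNT (`W33/R2RelCtxN22`,
`R2RelInstN22`): **the numeric inputs `d`, `hsum`, `hord`** (helper15).

* `rho1_alpha` : `rho1 (α x) = x̄` for every Gauss-integral `x` of the good level (helper9's
  `AlphaRedN9.isRedOf_alpha`);
* **`hord_alpha`** : for `x` Gauss-integral at the good level with reduction `u`, `Q` any place of `F̃`,
  `Q₂ := Φ⁻¹ Q` its partner (`Φ = BranchTwoPhi15.phi wBar`):
  `ord_Q (rho1 (α x) − c̄) + ord_{Q₂} (rho2 (α x) − c̄) = (p + 1) · ord_Q (u − c̄)`;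
  `hord_alpha_le` : the last field of `R2RelCtxN22.RelPoint`, literally (`d := p + 1`,
  `m0 a := ord_Q (u − ā)`);  `isRedOf_tV'`, `isRedOf_tV_inv` : its hypothesis at `x0 := tV` (`u := t̃`),
  `x0 := tV⁻¹` (`u := t̃⁻¹`);
* **`finrankAlong_alphaN`** : `deg α = p + 1`;  **`hsum_alphaN`** : the local sum formula
  `∑_{w | v} e(w | v) = p + 1` along `α` (= the hypothesis `hsum` of `R2RelInstN22`, `d := p + 1`).
-/
import Mathlib
import Fermat.Agent.ES.W33.BranchTwoPhi15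
import Fermat.Agent.ES.W33.AlphaRedN9
import Fermat.Agent.ES.HECKE.FundId12
import Fermat.Agent.ES.HECKE.DegreeL25
import Fermat.Agent.RED.TOP.FbarFacts20

set_option autoImplicit false
set_option synthInstance.maxHeartbeats 400000
set_option linter.unusedSectionVars false

open HahnSeries ModularCurve AlgebraicCurve

noncomputable section

namespace Fermat.Agent.ES.W33.RelCountInputs15

open Fermat.Agent.RED.Interface4 Fermat.Agent.RED.BASE.Interface12 Fermat.Agent.RED.BASE.Hauptmodul12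
  Fermat.Agent.RED.BASE.EtaQuot12 Fermat.Agent.X0.FF
  Fermat.Agent.ES.RED.Contract8 Fermat.Agent.ES.RED.ModelInst4 Fermat.Agent.ES.RED.GaussRing15
  Fermat.Agent.ES.V19.GaussFrac15 Fermat.Agent.ES.V19.InstNames3 Fermat.Agent.ES.W33.NodalDefs3
  Fermat.Agent.ES.HECKE.LevelPullback12
  Fermat.Agent.ES.W33.BetaRed15 Fermat.Agent.ES.W33.BranchTwoPhi15 Fermat.Agent.ES.W33.AlphaRedN9

attribute [local instance 5000] HahnSeries.powerSeriesAlgebra SubalgebraClass.toAlgebra

variable (n e M' : ℕ) [NeZero n] [NeZero M'] (p : ℕ) [Fact p.Prime] (hpM : ¬ p ∣ M')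
  (hb : BaseHyp n e) (hnM : n ∣ M') (A : ValuationSubring Qbar) (hA : A.LiesOverPrime p)

/-! ### `hord` -/

variable {M' A} in
/-- `rho1 (α x) = x̄`. -/
theorem rho1_alpha {x : ↥(Fbar M')} {u : Ft M' A}
    (h : IsRedOf (GqV M' A) (redqV M' A) x u) :
    ∃ h1 : alphaN M' p x ∈ O1 M' p A, rho1 M' p A ⟨alphaN M' p x, h1⟩ = u :=
  ⟨(isRedOf_alpha M' p A h).isGI, rho_eq_of_isRedOf (isRedOf_alpha M' p A h)⟩

variable {M' A} in
/-- **`hord`, exact form**: the orders at `Q` on the first branch and at its partner `Φ⁻¹ Q` on the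
second branch add up to `(p + 1)` times the order at the good level. -/
theorem hord_alpha {wBar : Ft M' A ≃ₐ[kA A] Ft M' A} (hW : FrickeRed M' A wBar)
    {x : ↥(Fbar M')} {u : Ft M' A} (h : IsRedOf (GqV M' A) (redqV M' A) x u)
    (h1 : alphaN M' p x ∈ O1 M' p A) (h2 : alphaN M' p x ∈ O2 M' p A)
    (Q : Place (kA A) (Ft M' A)) (c : kA A) :
    Q.ord (rho1 M' p A ⟨alphaN M' p x, h1⟩ - algebraMap (kA A) (Ft M' A) c) +
        ((phi M' p A hA wBar).symm Q).ord
          (rho2 M' p A ⟨alphaN M' p x, h2⟩ - algebraMap (kA A) (Ft M' A) c) =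
      ((p : ℤ) + 1) * Q.ord (u - algebraMap (kA A) (Ft M' A) c) := by
  obtain ⟨h1', e1⟩ := rho1_alpha p h
  obtain ⟨h2', e2⟩ := rho2_alpha p hA hW h
  have e1' : rho1 M' p A ⟨alphaN M' p x, h1⟩ = u := e1
  have e2' : rho2 M' p A ⟨alphaN M' p x, h2⟩ = vpFt M' p A hA (wBar u) := e2
  rw [e1', e2', ord_phi M' p A hA wBar u c, Equiv.apply_symm_apply]
  ring

variable {M' A} in
/-- **`hord`, the literal of `R2RelCtxN22.RelPoint`** with `d := p + 1`,
`m0 a := ord_Q (u − ā)`. -/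
theorem hord_alpha_le {wBar : Ft M' A ≃ₐ[kA A] Ft M' A} (hW : FrickeRed M' A wBar)
    {x : ↥(Fbar M')} {u : Ft M' A} (h : IsRedOf (GqV M' A) (redqV M' A) x u)
    (h1 : alphaN M' p x ∈ O1 M' p A) (h2 : alphaN M' p x ∈ O2 M' p A)
    (Q : Place (kA A) (Ft M' A)) (a : ↥A) :
    Q.ord (rho1 M' p A ⟨alphaN M' p x, h1⟩ - algebraMap (kA A) (Ft M' A) (resA A a)) +
        ((phi M' p A hA wBar).symm Q).ord
          (rho2 M' p A ⟨alphaN M' p x, h2⟩ - algebraMap (kA A) (Ft M' A) (resA A a)) ≤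
      (((p + 1 : ℕ) : ℤ)) * Q.ord (u - algebraMap (kA A) (Ft M' A) (resA A a)) := by
  rw [hord_alpha p hA hW h h1 h2 Q (resA A a)]
  push_cast
  exact le_rfl

/-- `tV` is Gauss-integral at the good level with reduction `t̃`. -/
theorem isRedOf_tV' :
    IsRedOf (GqV M' A) (redqV M' A) (tV n e M' hb hnM) (tResV n e M' p hpM hb hnM A hA) :=
  isRedOf_tV M' p A n e hpM hb hnM hA

/-- `tV⁻¹` is Gauss-integral at the good level with reduction `t̃⁻¹`. -/
theorem isRedOf_tV_inv :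
    IsRedOf (GqV M' A) (redqV M' A) (tV n e M' hb hnM)⁻¹ (tResV n e M' p hpM hb hnM A hA)⁻¹ :=
  (isRedOf_tV M' p A n e hpM hb hnM hA).inv (hxtV n e M' p hpM hb hnM A hA).ne_zero

/-! ### `d` and `hsum` -/

include hpM in
/-- **`deg α = p + 1`.** -/
theorem finrankAlong_alphaN : finrankAlong Qbar (alphaN M' p) = p + 1 := by
  rw [finrankAlong_levelIncl]
  have h := Fermat.Agent.ES.HECKE.DegreeL25.relfinrank_alpha Qbar M' p (Fact.out : p.Prime) hpM
  rw [← Fermat.Agent.RED.PUR.DegBaseChange25.laurentBaseChange_full_eq,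
    ← Fermat.Agent.RED.PUR.DegBaseChange25.laurentBaseChange_full_eq] at h
  exact h

include hpM in
/-- **the local sum formula along `α`**: `∑_{w | v} e(w | v) = p + 1` (the hypothesis `hsum` of
`R2RelInstN22` with `d := ((p + 1 : ℕ) : ℤ)`). -/
theorem hsum_alphaN
    [HasPrincipalDivisors Qbar ↥(Fbar (M' * p))] (v : Place Qbar ↥(Fbar M')) :
    ∑ w ∈ Place.fiberAlong (alphaN M' p) (alphaN_isIntegral M' p) v,
      (w.ramificationIndexAlong (alphaN M' p) : ℤ) = ((p + 1 : ℕ) : ℤ) := by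
  rw [← finrankAlong_alphaN M' p hpM]
  exact Fermat.Agent.ES.HECKE.FundId12.sum_ramificationIndexAlong (alphaN M' p)
    (alphaN_isIntegral M' p) (levelIncl_finiteAlong _)
    (Fermat.Agent.RED.TOP.FbarFacts20.isGen_j M') v

end Fermat.Agent.ES.W33.RelCountInputs15
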