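/-
Programme W (S33, spine `W33_SPINE8.md`), chapter TOP/LVL, step (i) (helper19):
**raising the level `f` of the chart**.

`Assemble11.XiData A J1 Ξ (fixRing A Γ) Γ` for a subgroup `Γ ≥ I_A` of `G_ℚ` implies the same literal
over `(fixRing A Γ', Γ')` for every subgroup `I_A ≤ Γ' ≤ Γ`:

* `val`, `inj` do not mention the base; `eqv` restricts to the subgroup;
* `add`, `neg`: a nonzero `d' ∈ fixRing A Γ'` is `p^m · u` with `u` a unit of `fixRing A Γ'`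
  (`FixRingDVR16.exists_eq_pow_mul_unit`), so the polynomials delivered for `d := p^m ∈ fixRing A Γ`
  work for `d'` after mapping their coefficients along `fixRing A Γ ⊆ fixRing A Γ'`
  (`u⁻¹ ∈ A` is absorbed in the error term).

Consequence: `WIface8.HasNodalChart p N' A` gives its data at a level `f` divisible by any given `f₀`
(`hasNodalChart_raise`), which is what the quantifier `∀ f₀ ∃ f, f₀ ∣ f` of `WIface8.HasConnOrder` needs.
-/
import Mathlib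
import Fermat.Agent.ES.V19.FixRingDVR16
import Fermat.Agent.ES.W33.WIface8

set_option autoImplicit false

noncomputable section

namespace Fermat.Agent.ES.W33.XiRaise19

open ModularCurve
open Fermat.Agent.ES.V19.Assemble11 Fermat.Agent.ES.V19.GammaF16
  Fermat.Agent.ES.V19.TraceDescent26 Fermat.Agent.ES.V19.FixRingDVR16
  Fermat.Agent.ES.W33.WIface8

local notation "Qbar" => AlgebraicClosure ℚ
local notation "GQ" => (AlgebraicClosure ℚ ≃ₐ[ℚ] AlgebraicClosure ℚ)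

variable {A : ValuationSubring Qbar}

/-- The inclusion `fixRing A Γ → fixRing A Γ'` for `Γ' ≤ Γ`. -/
def fixIncl {Γ Γ' : Subgroup GQ} (h : Γ' ≤ Γ) : ↥(fixRing A Γ) →+* ↥(fixRing A Γ') :=
  Subring.inclusion (fixRing_anti A h)

theorem algebraMap_comp_fixIncl {Γ Γ' : Subgroup GQ} (h : Γ' ≤ Γ) :
    (algebraMap ↥(fixRing A Γ') Qbar).comp (fixIncl (A := A) h) =
      algebraMap ↥(fixRing A Γ) Qbar :=
  RingHom.ext fun _ => rfl

/-- Mapping the coefficients along `fixRing A Γ ⊆ fixRing A Γ'` does not change the values. -/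
theorem aeval_map_fixIncl {Γ Γ' : Subgroup GQ} (h : Γ' ≤ Γ) {κ : Type*} (v : κ → Qbar)
    (P : MvPolynomial κ ↥(fixRing A Γ)) :
    MvPolynomial.aeval v (MvPolynomial.map (fixIncl (A := A) h) P) = MvPolynomial.aeval v P := by
  rw [MvPolynomial.aeval_def, MvPolynomial.aeval_def, MvPolynomial.eval₂_map,
    algebraMap_comp_fixIncl]

/-- The image in `Qbar` of `(p : fixRing A Γ) ^ m`. -/
theorem algebraMap_natCast_pow (Γ : Subgroup GQ) (p m : ℕ) :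
    algebraMap ↥(fixRing A Γ) Qbar ((p : ↥(fixRing A Γ)) ^ m) = (p : Qbar) ^ m := by
  rw [map_pow, map_natCast]

/-- **The denominators**: every nonzero `d' ∈ fixRing A Γ'` (`I_A ≤ Γ'`) divides, inside `A`, a power
of `p`: `p^m = d' · a'` … in the form needed below: an error term `p^m · a` (`a ∈ A`) is `d' · a'`
with `a' ∈ A`. -/
theorem exists_pow_of_ne_zero {p : ℕ} (hp : p.Prime) (hA : A.LiesOverPrime p) {Γ' : Subgroup GQ}
    (hI : A.inertiaSubgroupIn ℚ ≤ Γ') (d' : ↥(fixRing A Γ'))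
    (hd' : algebraMap ↥(fixRing A Γ') Qbar d' ≠ 0) :
    ∃ m : ℕ, ∀ a ∈ A, ∃ a' ∈ A,
      (p : Qbar) ^ m * a = algebraMap ↥(fixRing A Γ') Qbar d' * a' := by
  have hd0 : d' ≠ 0 := fun h => hd' (by rw [h, map_zero])
  obtain ⟨m, u, hu, hdu⟩ := exists_eq_pow_mul_unit hp hA hI hd0
  obtain ⟨w, hw⟩ := isUnit_iff_exists_inv.mp hu
  refine ⟨m, fun a ha => ⟨(w : Qbar) * a, A.mul_mem _ _ w.2.1 ha, ?_⟩⟩
  have h1 : (u : Qbar) * (w : Qbar) = 1 := congrArg Subtype.val hw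
  have h2 : algebraMap ↥(fixRing A Γ') Qbar d' = (p : Qbar) ^ m * (u : Qbar) := by
    rw [hdu, map_mul, algebraMap_natCast_pow]
    rfl
  rw [h2]
  linear_combination (-(p : Qbar) ^ m * a) * h1

section Raise

variable {J : Type*} [AddCommGroup J] [DistribMulAction GQ J]

/-- **Raising the level of the chart**, abstract form: from `(fixRing A Γ, Γ)` to
`(fixRing A Γ', Γ')` for `I_A ≤ Γ' ≤ Γ`. -/
theorem xiData_of_le {p : ℕ} (hp : p.Prime) (hA : A.LiesOverPrime p) {Γ Γ' : Subgroup GQ}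
    (hΓ : Γ' ≤ Γ) (hI : A.inertiaSubgroupIn ℚ ≤ Γ') {J1 : AddSubgroup J} {g : ℕ}
    {Ξ : J → Fin g → Qbar} (h : XiData A.toSubring J1 Ξ ↥(fixRing A Γ) ↥Γ) :
    XiData A.toSubring J1 Ξ ↥(fixRing A Γ') ↥Γ' := by
  have hpne : ∀ m : ℕ, algebraMap ↥(fixRing A Γ) Qbar ((p : ↥(fixRing A Γ)) ^ m) ≠ 0 := by
    intro m
    rw [algebraMap_natCast_pow]
    exact pow_ne_zero m (Nat.cast_ne_zero.mpr hp.ne_zero)
  refine ⟨h.val, h.inj, fun σ y hy i => h.eqv ⟨σ.1, hΓ σ.2⟩ y hy i, ?_, ?_⟩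
  · intro d' hd' S
    obtain ⟨m, hm⟩ := exists_pow_of_ne_zero hp hA hI d' hd'
    obtain ⟨F, hF⟩ := h.add ((p : ↥(fixRing A Γ)) ^ m) (hpne m) S
    refine ⟨fun i => MvPolynomial.map (fixIncl (A := A) hΓ) (F i), ?_⟩
    intro y hy y' hy' hy1 hy1' i
    obtain ⟨a, ha, e⟩ := hF y hy y' hy' hy1 hy1' i
    obtain ⟨a', ha', e'⟩ := hm a ha
    refine ⟨a', ha', ?_⟩
    rw [aeval_map_fixIncl, e, algebraMap_natCast_pow, e']
  · intro d' hd' S
    obtain ⟨m, hm⟩ := exists_pow_of_ne_zero hp hA hI d' hd'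
    obtain ⟨F, hF⟩ := h.neg ((p : ↥(fixRing A Γ)) ^ m) (hpne m) S
    refine ⟨fun i => MvPolynomial.map (fixIncl (A := A) hΓ) (F i), ?_⟩
    intro y hy hy1 i
    obtain ⟨a, ha, e⟩ := hF y hy hy1 i
    obtain ⟨a', ha', e'⟩ := hm a ha
    refine ⟨a', ha', ?_⟩
    rw [aeval_map_fixIncl, e, algebraMap_natCast_pow, e']

/-- **Raising the level of the chart** along `f ∣ f'`. -/
theorem xiData_of_dvd {p : ℕ} (hp : p.Prime) (hA : A.LiesOverPrime p) {f f' : ℕ} (hff : f ∣ f')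
    {J1 : AddSubgroup J} {g : ℕ} {Ξ : J → Fin g → Qbar}
    (h : XiData A.toSubring J1 Ξ ↥(fixRing A (gammaF A p f)) ↥(gammaF A p f)) :
    XiData A.toSubring J1 Ξ ↥(fixRing A (gammaF A p f')) ↥(gammaF A p f') :=
  xiData_of_le hp hA (gammaF_anti hff) (inertia_le_gammaF f') h

end Raise

/-- **TOP/LVL (i)**: the data of `HasNodalChart` at a level `f` divisible by a given `f₀`. -/
theorem hasNodalChart_raise {p N' : ℕ} (hp : p.Prime) (hA : A.LiesOverPrime p)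
    (h : HasNodalChart p N' A) (f₀ : ℕ) (hf₀ : 0 < f₀) :
    ∃ (f : ℕ) (_ : 0 < f) (_ : f₀ ∣ f) (J1 : AddSubgroup (JZero N'))
      (_ : ∀ τ ∈ gammaF A p f, ∀ y ∈ J1, τ • y ∈ J1)
      (_ : ∀ τ ∈ A.inertiaSubgroupIn ℚ, ∀ τ' ∈ A.inertiaSubgroupIn ℚ, ∀ x : JZero N',
        (∃ m : ℕ, (p ^ m) • x = 0) → τ' • (τ • x - x) - (τ • x - x) ∈ J1)
      (g : ℕ) (Ξ : JZero N' → Fin g → Qbar),
      XiData A.toSubring J1 Ξ ↥(fixRing A (gammaF A p f)) ↥(gammaF A p f) ∧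
      ∀ y ∈ J1, ∀ y' ∈ J1, ∀ i, Ξ y i - Ξ y' i ∈ A.nonunits := by
  obtain ⟨f, hf, J1, hstab, hsec, g, Ξ, hΞ, hres⟩ := h
  have hff : f ∣ f₀ * f := Dvd.intro_left f₀ rfl
  exact ⟨f₀ * f, Nat.mul_pos hf₀ hf, Dvd.intro f rfl, J1,
    fun τ hτ y hy => hstab τ (gammaF_anti hff hτ) y hy, hsec, g, Ξ,
    xiData_of_dvd hp hA hff hΞ, hres⟩

end Fermat.Agent.ES.W33.XiRaise19
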