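/-
Programme W (S33, spine `W33_SPINE8.md`), chapter TOP/LVL, step (ii) (helper19):
**the funnel: one residually constant chart on `J1` ⇒ a connected equivariant order on every finite
`Γ`-submodule of `J1`**, and the literal (O) at the level of the chart.

* `exists_connOrder_of_xi` : `Γ ≤ G_ℚ`, `R := fixRing A Γ` noetherian, `Ξ` with
  `Assemble11.XiData A J1 Ξ R Γ` and residually constant on `J1`; `X` a finite `Γ`-module with an
  injective equivariant `inc : X →+ J`, `inc x ∈ J1`.  Then `H := R[1, Ξ(inc ·) i]`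
  (`CoordOrder23.order` with `M0 := J1.comap inc = ⊤`, base points `0`) satisfies
  `OrderHyp4.IsEquivOrder Γ H` (by `Assemble11.coordData_of_xi` + `CoordOrder23.coordOrder`) and
  `WIface8.IsConnOrderV A H` (the generators are residually constant: `ConnSubquot8.isConnOrderV_adjoin`).
* `hasConnOrder_of_hasNodalChart` : `HasNodalChart p N' A → HasConnOrder p N' m A`
  (`X := J1 ∩ J₀(N')[p^m]`, level raised by `XiRaise19.hasNodalChart_raise`).
-/
import Mathlib
import Fermat.Agent.ES.V19.FunnelAsm20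
import Fermat.Agent.ES.W33.WIface8
import Fermat.Agent.ES.W33.ConnSubquot8
import Fermat.Agent.ES.W33.XiRaise19

set_option autoImplicit false
set_option linter.style.haveILetI false

noncomputable section

namespace Fermat.Agent.ES.W33.TopFunnel19

open ModularCurve
open Fermat.Agent.ES.V19.OrderHyp4 Fermat.Agent.ES.V19.TopLevel19 Fermat.Agent.ES.V19.TopInst19
  Fermat.Agent.ES.V19.Assemble11 Fermat.Agent.ES.V19.GammaF16 Fermat.Agent.ES.V19.TraceDescent26
  Fermat.Agent.ES.V19.CoordOrder23 Fermat.Agent.ES.V19.CoordStable20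
  Fermat.Agent.ES.V19.FixRingDVR16
  Fermat.Agent.ES.W33.WIface8 Fermat.Agent.ES.W33.ConnSubquot8 Fermat.Agent.ES.W33.XiRaise19

local notation "Qbar" => AlgebraicClosure ℚ
local notation "GQ" => (AlgebraicClosure ℚ ≃ₐ[ℚ] AlgebraicClosure ℚ)

variable {A : ValuationSubring Qbar}

section Abstract

variable {J : Type*} [AddCommGroup J] [DistribMulAction GQ J]

/-- **The funnel of Programme W, abstract form.** -/
theorem exists_connOrder_of_xi (Γ : Subgroup GQ) [IsNoetherianRing ↥(fixRing A Γ)]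
    {J1 : AddSubgroup J} {g : ℕ} {Ξ : J → Fin g → Qbar}
    (hΞ : XiData A.toSubring J1 Ξ ↥(fixRing A Γ) ↥Γ)
    (hres : ∀ y ∈ J1, ∀ y' ∈ J1, ∀ i, Ξ y i - Ξ y' i ∈ A.nonunits)
    {X : Type*} [AddCommGroup X] [Finite X] [DistribMulAction ↥Γ X] (inc : X →+ J)
    (hinc : Function.Injective inc)
    (hincG : ∀ (σ : ↥Γ) (x : X), inc (σ • x) = (σ : GQ) • inc x)
    (hmem : ∀ x : X, inc x ∈ J1) :
    ∃ H : Subalgebra ↥(fixRing A Γ) (X → Qbar), IsEquivOrder ↥Γ H ∧ IsConnOrderV A H := by
  classical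
  have : Fintype X := Fintype.ofFinite X
  have hRA : ∀ r : ↥(fixRing A Γ), algebraMap ↥(fixRing A Γ) Qbar r ∈ A := fun r => r.2.1
  -- base points `0`
  have hP : BaseData J1 inc (fun _ : X => (0 : J)) ↥Γ :=
    ⟨fun _ _ _ => rfl, fun σ _ => smul_zero σ, fun x => by rw [sub_zero]; exact hmem x⟩
  have hall : ∀ x : X, x ∈ J1.comap inc := fun x => AddSubgroup.mem_comap.mpr (hmem x)
  have hD : CoordData A.toSubring (J1.comap inc) (fun (_ : Unit) (x : X) => Ξ (inc x - 0))
      ↥(fixRing A Γ) ↥Γ :=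
    coordData_of_xi inc (fixHyp_fixRing A Γ) (algebraMap_mem A Γ) hinc
      (fun σ x => hincG σ x) (fun σ x => hall _) (fun _ : Unit => Ξ) (fun _ => hΞ)
      (fun _ : Unit => fun _ : X => (0 : J)) (fun _ => hP) ⟨()⟩
  obtain ⟨hfg, heqv, -, hsep, hdelta, hneg, -⟩ :=
    coordOrder (fixHyp_fixRing A Γ) (algebraMap_mem A Γ) hD
  refine ⟨order (J1.comap inc) (fun (_ : Unit) (x : X) => Ξ (inc x - 0)) ↥(fixRing A Γ),
    ⟨Module.Finite.iff_fg.mpr hfg, fun h hh σ x => heqv h hh σ x, hsep, fun h hh => ?_, hneg⟩, ?_⟩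
  · obtain ⟨n, a, c, ha, hc, hac⟩ :=
      Fermat.Agent.ES.V19.FunnelAsm20.exists_sum_of_span (mem_span_of_mem_tens (hdelta h hh))
    exact ⟨n, a, c, ha, hc, fun x y => hac x y⟩
  · -- connectedness: check on the generators
    refine isConnOrderV_adjoin hRA _ ?_
    rintro _ (⟨q, rfl⟩ | ⟨⟨χ, i⟩, rfl⟩) x y
    · -- the indicator: all points lie in one coset
      have hxy : (QuotientAddGroup.mk x : X ⧸ J1.comap inc) = QuotientAddGroup.mk y :=
        QuotientAddGroup.eq.mpr (hall _)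
      have hval : ind (J1.comap inc) Qbar q x ∈ A := by
        unfold ind
        split_ifs
        · exact A.one_mem
        · exact A.zero_mem
      refine ⟨hval, ?_⟩
      have : ind (J1.comap inc) Qbar q x = ind (J1.comap inc) Qbar q y := by
        unfold ind
        rw [hxy]
      rw [this, sub_self]
      exact zero_mem_nonunits
    · -- a coordinate: residual constancy
      have hx : inc x - 0 ∈ J1 := by rw [sub_zero]; exact hmem x
      have hy : inc y - 0 ∈ J1 := by rw [sub_zero]; exact hmem y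
      exact ⟨hΞ.val _ hx i, hres _ hx _ hy i⟩

end Abstract

/-! ### The literal (O) at the level of the chart -/

section Concrete

variable {p N' : ℕ}

/-- `J1 ∩ J₀(N')[p^m]`, as a subgroup of `J₀(N')[p^m]`. -/
def torsJ1 (J1 : AddSubgroup (JZero N')) (p m : ℕ) : AddSubgroup (Tors N' p m) :=
  J1.comap (torsIncl N' p m)

theorem mem_torsJ1 {J1 : AddSubgroup (JZero N')} {m : ℕ} {x : Tors N' p m} :
    x ∈ torsJ1 J1 p m ↔ (x : JZero N') ∈ J1 := Iff.rfl

/-- **TOP (ii)**: `HasNodalChart p N' A → HasConnOrder p N' m A` (same level `N'`). -/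
theorem hasConnOrder_of_hasNodalChart [NeZero N'] (hp : p.Prime) (hA : A.LiesOverPrime p) (m : ℕ)
    (h : HasNodalChart p N' A) : HasConnOrder p N' m A := by
  intro f₀ hf₀
  obtain ⟨f, hf, hdvd, J1, hstab, hsec, g, Ξ, hΞ, hres⟩ := hasNodalChart_raise hp hA h f₀ hf₀
  refine ⟨f, hf, hdvd, ?_⟩
  have hfin : Finite (Tors N' p m) := finite_tors N' p m hp.ne_zero
  have hnoeth : IsNoetherianRing ↥(fixRing A (gammaF A p f)) :=
    isNoetherianRing_fixRing_gammaF hp hA f
  let S : AddSubgroup (Tors N' p m) := torsJ1 J1 p m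
  have hSstab : ∀ (σ : ↥(gammaF A p f)) (x : Tors N' p m), x ∈ S → (σ : GQ) • x ∈ S :=
    fun σ x hx => hstab σ σ.2 _ hx
  letI iSMul : SMul ↥(gammaF A p f) ↥S := ⟨fun σ x => ⟨(σ : GQ) • (x : Tors N' p m), hSstab σ x x.2⟩⟩
  have hcoe : ∀ (σ : ↥(gammaF A p f)) (x : ↥S),
      ((σ • x : ↥S) : Tors N' p m) = (σ : GQ) • (x : Tors N' p m) := fun _ _ => rfl
  letI iDMA : DistribMulAction ↥(gammaF A p f) ↥S :=
    { one_smul := fun x => Subtype.ext (by rw [hcoe, OneMemClass.coe_one, one_smul])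
      mul_smul := fun σ τ x => Subtype.ext (by rw [hcoe, hcoe, hcoe, Subgroup.coe_mul, mul_smul])
      smul_zero := fun σ => Subtype.ext (by rw [hcoe, AddSubgroup.coe_zero, smul_zero])
      smul_add := fun σ x y => Subtype.ext (by
        rw [hcoe, AddSubgroup.coe_add, AddSubgroup.coe_add, hcoe, hcoe, smul_add]) }
  refine ⟨↥S, inferInstance, inferInstance, iDMA, S.subtype, Subtype.val_injective,
    fun σ x => rfl, ?_, ?_⟩
  · -- mixed second differences of points of `J₀(N')[p^m]` lie in `J1`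
    intro τ hτ τ' hτ' x
    have hx : (p ^ m) • (x : JZero N') = 0 := (mem_tors_iff (x : JZero N')).mp x.2
    have hmem : τ' • (τ • x - x) - (τ • x - x) ∈ S :=
      hsec τ hτ τ' hτ' (x : JZero N') ⟨m, hx⟩
    exact ⟨⟨_, hmem⟩, rfl⟩
  · -- the connected order
    exact exists_connOrder_of_xi (gammaF A p f) hΞ hres
      ((torsIncl N' p m).comp S.subtype)
      (fun x y hxy => Subtype.ext (torsIncl_injective N' p m hxy))
      (fun σ x => rfl) (fun x => x.2)

end Concrete

end Fermat.Agent.ES.W33.TopFunnel19
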