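/-
Programme W (S33, spine `W33_SPINE8.md`), chapter TOP/LVL, **the exit** (helper19, ruling w25):
**(G) at the auxiliary level ⇒ (O) at level `N`, for every `m`.**

* `hasConnOrder_of_chart` : `HasNodalChart p N' A → ∀ m, HasConnOrder p N' m A` — the level-free core
  (`TopFunnel19.hasConnOrder_of_hasNodalChart`: steps (i) `XiRaise19.hasNodalChart_raise` and (ii) the
  funnel `TopFunnel19.exists_connOrder_of_xi`);
* `hasConnOrder_of_hasNodalChart` : `HasNodalChart p (auxLevel p N) A → ∀ m, HasConnOrder p N m A`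
  (step (iii): helper26's `LvlConn26.hasConnOrder_of_auxLevel`).
-/
import Mathlib
import Fermat.Agent.ES.W33.TopFunnel19
import Fermat.Agent.ES.W33.LvlConn26

set_option autoImplicit false
set_option linter.style.haveILetI false

namespace Fermat.Agent.ES.W33.TopW19

open Fermat.Agent.ES.V19.TopLevel19 Fermat.Agent.ES.W33.WIface8
open Fermat.Agent.RED.Interface4 (auxLevel)

local notation "Qbar" => AlgebraicClosure ℚ

variable {p : ℕ} {A : ValuationSubring Qbar}

/-- **TOP, level-free core**: (G) at level `N'` ⇒ (O) at level `N'`. -/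
theorem hasConnOrder_of_chart {N' : ℕ} [NeZero N'] (hp : p.Prime) (hA : A.LiesOverPrime p)
    (h : HasNodalChart p N' A) (m : ℕ) : HasConnOrder p N' m A :=
  Fermat.Agent.ES.W33.TopFunnel19.hasConnOrder_of_hasNodalChart hp hA m h

/-- **TOP/LVL, exit**: (G) at level `auxLevel p N` ⇒ (O) at level `N`. -/
theorem hasConnOrder_of_hasNodalChart {N : ℕ} [NeZero N] (hp : p.Prime) (hA : A.LiesOverPrime p)
    (h : HasNodalChart p (auxLevel p N) A) (m : ℕ) : HasConnOrder p N m A := by
  haveI := neZero_auxLevel19 p N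
  exact Fermat.Agent.ES.W33.LvlConn26.hasConnOrder_of_auxLevel hp.ne_zero
    (hasConnOrder_of_chart hp hA h m)

end Fermat.Agent.ES.W33.TopW19
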