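/-
Programme W (S33, spine `W33_SPINE8.md`): **the whole chain above GEO in one theorem** (helper19).

`s33_of_geoInput : GeoW23.GeoInput → (the frozen statement of S33)`:

  S33  ⇐(ALG, helper26 `AlgExit26.isOrdinaryAt_of_coinvUnbounded`)  (E) `CoinvUnbounded H.ρ p`
       ⇐(ASM, helper8 `AsmExit8.coinvUnbounded_of_hasConnOrder`)     (O) `HasConnOrder p N m A`, all `A`, `m`
       ⇐(TOP/LVL, `TopW19.hasConnOrder_of_hasNodalChart`)            (G) `HasNodalChart p (auxLevel p N) A`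
       ⇐(GEO join, helper23 `GeoW23.hasNodalChart`)                  `GeoW23.GeoInput`.

The only new content: the arithmetic of the auxiliary level for odd `p` with `p ∥ N`
(`auxLevel p N = lcm N 4`): `p ∣ auxLevel p N`, `¬ p ^ 2 ∣ auxLevel p N`, `4 ∣ auxLevel p N`.
-/
import Mathlib
import Fermat.Agent.ES.W33.AlgExit26
import Fermat.Agent.ES.W33.AsmExit8
import Fermat.Agent.ES.W33.TopW19
import Fermat.Agent.ES.W33.GeoW23

set_option autoImplicit false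
set_option linter.style.haveILetI false

namespace Fermat.Agent.ES.W33.S33OfGeo19

open Fermat.Agent.ES.V19.TopLevel19 Fermat.Agent.ES.W33.WIface8
open Fermat.Agent.RED.Interface4 (auxLevel dvd_auxLevel)

local notation "Qbar" => AlgebraicClosure ℚ

/-! ### The auxiliary level for odd `p`, `p ∥ N` -/

theorem auxLevel_eq_lcm {p : ℕ} (N : ℕ) (hp2 : p ≠ 2) : auxLevel p N = Nat.lcm N 4 := by
  show (if p = 2 then Nat.lcm N 9 else Nat.lcm N 4) = Nat.lcm N 4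
  rw [if_neg hp2]

theorem dvd_auxLevel_of_dvd {p N : ℕ} (h : p ∣ N) : p ∣ auxLevel p N :=
  h.trans (dvd_auxLevel p N)

theorem sq_not_dvd_auxLevel {p N : ℕ} (hp : p.Prime) (hp2 : p ≠ 2) (h : ¬ p ^ 2 ∣ N) :
    ¬ p ^ 2 ∣ auxLevel p N := by
  rw [auxLevel_eq_lcm N hp2]
  intro hdvd
  have hcop : Nat.Coprime (p ^ 2) 4 := by
    have h2 : Nat.Coprime p 2 := (Nat.coprime_primes hp Nat.prime_two).mpr hp2
    have h4 : (4 : ℕ) = 2 ^ 2 := by norm_num
    rw [h4]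
    exact Nat.Coprime.pow 2 2 h2
  have h1 : p ^ 2 ∣ N * 4 := hdvd.trans (Nat.lcm_dvd_mul N 4)
  exact h (hcop.dvd_of_dvd_mul_right h1)

theorem four_dvd_auxLevel' {p : ℕ} (N : ℕ) (hp2 : p ≠ 2) : 4 ∣ auxLevel p N := by
  rw [auxLevel_eq_lcm N hp2]
  exact Nat.dvd_lcm_right N 4

/-! ### (G) at the auxiliary level from the GEO input -/

/-- **(G)** `HasNodalChart p (auxLevel p N) A` for odd `p ∥ N`, from `GeoW23.GeoInput`. -/
theorem hasNodalChart_auxLevel (HG : Fermat.Agent.ES.W33.GeoW23.GeoInput) {p N : ℕ} [NeZero N]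
    (hp : p.Prime) (hp2 : p ≠ 2) (hN : p ∣ N ∧ ¬ p ^ 2 ∣ N) (A : ValuationSubring Qbar)
    (hA : A.LiesOverPrime p) : HasNodalChart p (auxLevel p N) A := by
  haveI := neZero_auxLevel19 p N
  haveI : Fact p.Prime := ⟨hp⟩
  exact Fermat.Agent.ES.W33.GeoW23.hasNodalChart HG p (auxLevel p N) hp2
    (dvd_auxLevel_of_dvd hN.1) (sq_not_dvd_auxLevel hp hp2 hN.2) (four_dvd_auxLevel' N hp2) A hA

/-! ### S33 -/

section S33

variable {p : ℕ} {N : ℕ} [NeZero N] {S : Finset ℕ}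
  {𝒪 : Type} [CommRing 𝒪] [IsDomain 𝒪] [IsDiscreteValuationRing 𝒪]
  [IsAdicComplete (IsLocalRing.maximalIdeal 𝒪) 𝒪]
  {θ : CuspForm.heckeAlgebra N 2 (↑S : Set ℕ) →+* IsLocalRing.ResidueField 𝒪}
  {T : Type} [CommRing T] [IsLocalRing T] [IsNoetherianRing T]
  [IsAdicComplete (IsLocalRing.maximalIdeal T) T] [Algebra 𝒪 T] [IsLocalHom (algebraMap 𝒪 T)]
  [Module.Finite 𝒪 T] [Module.Free 𝒪 T]

/-- **The frozen statement of S33 from the one input of GEO.** -/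
theorem s33_of_geoInput (HG : Fermat.Agent.ES.W33.GeoW23.GeoInput)
    [Finite (IsLocalRing.ResidueField 𝒪)] [CharZero 𝒪]
    (hp : p.Prime) (hp2 : p ≠ 2) (hp𝒪 : (p : 𝒪) ∈ IsLocalRing.maximalIdeal 𝒪)
    (hN : p ∣ N ∧ ¬ p ^ 2 ∣ N)
    (hNS : ∀ q : ℕ, q.Prime → q ∣ N → q ∈ S)
    (H : CuspForm.HeckeGaloisRepDatum N (↑S : Set ℕ) 𝒪 θ T)
    (hres : (GaloisRepAdic.ofResidualGaloisRep H.ρ.residual).IsOrdinaryAt p) :
    H.ρ.IsOrdinaryAt p :=
  Fermat.Agent.ES.W33.AlgExit26.isOrdinaryAt_of_coinvUnbounded hp hp2 hp𝒪 hN hNS H hres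
    (Fermat.Agent.ES.W33.AsmExit8.coinvUnbounded_of_hasConnOrder hp hp2 hp𝒪 hN hNS H hres
      (fun A hA m => Fermat.Agent.ES.W33.TopW19.hasConnOrder_of_hasNodalChart hp hA
        (hasNodalChart_auxLevel HG hp hp2 hN A hA) m))

end S33

end Fermat.Agent.ES.W33.S33OfGeo19
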