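/-
Programme W (S33), chapter B3′ (helper20): FROM THE CORE OF A NODAL TWO-CHART MODEL TO
`TwoChartsN20.TwoChartsN` WITH ITS NODES, NODE PLACES AND THE NODE FIELDS OF `RedCtxN`.

* `nodeCentres S0` : the centres of chart 0 lying on BOTH components (ring homomorphisms
  `B0 →+* k`);
* `CoreN A hx Ft₁ Ft₂` : two nodal charts with overlap, (VAL) + (PIR) at the one-component centres,
  transcendence of the coordinate on both components, no two-component centre outside chart 0, and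
  FINITENESS of `nodeCentres S0`;
* `CoreN.nn`, `CoreN.toT : TwoChartsN A hx Ft₁ Ft₂ C.nn` : the nodes are enumerated canonically
  (`Finite.equivFin`), so `node_on₁`, `node_on₂`, `node_ex`, `node_inj` are PROVED;
  `CoreN.exists_place_node` : every node is the centre of a place;
* for any `T` whose nodes are centres of places (`NodesReal T`) and with (VAL) + (PIR) at the node
  centres on both branches (`NodeVal T`): `nodesOf T … : Nodes k Ft₁ Ft₂ nn` (the branch places),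
  `nodePlaces_nodesOf : NodePlaces T (nodesOf …)`, `nodesOf_ν₁_injective`;
* `redCtx_fields` : the fields `smooth`, `glue`, `glue_unit` of `RedCtxN` at `r := T.r`,
  `N := nodesOf …`, from `NodalGlue20.GaussExt`.
-/
import Mathlib
import Fermat.Agent.ES.W33.NodalGlue20

set_option autoImplicit false

noncomputable section

open AlgebraicCurve

namespace Fermat.Agent.ES.W33.TwoChartsNCore20

open Fermat.Agent.X0.FF Fermat.Agent.ES.RED.PlaceValue13 Fermat.Agent.ES.RED.Contract8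
open Fermat.Agent.ES.W33.CentreN20 Fermat.Agent.ES.W33.NodalChart20
open Fermat.Agent.ES.W33.TwoChartsN20 Fermat.Agent.ES.W33.XiIfaceN29 Fermat.Agent.ES.W33.ValAt29
open Fermat.Agent.ES.W33.NodalGlue20

variable {L : Type*} [Field L] [IsAlgClosed L] {A : ValuationSubring L}
variable {F : Type*} [Field F] [Algebra L F] {x : F} {hx : IsGen L x}
variable {Ft₁ Ft₂ : Type*} [Field Ft₁] [Algebra (kA A) Ft₁] [Field Ft₂] [Algebra (kA A) Ft₂]

/-- the centres of the chart lying on both components. -/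
def nodeCentres (S0 : NodalChart A hx Ft₁ Ft₂) : Set (↥S0.B →+* kA A) :=
  {χ | ∃ (P : Place L F) (h0 : S0.InChart P), S0.On₁ P h0 ∧ S0.On₂ P h0 ∧ χ = S0.chi P h0}

/-- **The core of a nodal two-chart model**: everything in `TwoChartsN` except the enumeration of
the nodes, which is replaced by the finiteness of the set of two-component centres. -/
structure CoreN (A : ValuationSubring L) (hx : IsGen L x) (Ft₁ Ft₂ : Type*) [Field Ft₁]
    [Algebra (kA A) Ft₁] [Field Ft₂] [Algebra (kA A) Ft₂] where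
  S0 : NodalChart A hx Ft₁ Ft₂
  S1 : NodalChart A hx Ft₁ Ft₂
  s_ne : S0.s ≠ 0
  s_inv : S1.s = S0.s⁻¹
  red_s_mul : S0.red S0.sB * S1.red S1.sB = 1
  ov0 : ∀ b : ↥S1.B, ∃ (n : ℕ) (b0 : ↥S0.B),
    (b0 : F) = S0.s ^ n * (b : F) ∧ S0.red b0 = S0.red S0.sB ^ n * S1.red b
  ov1 : ∀ b : ↥S0.B, ∃ (n : ℕ) (b1 : ↥S1.B),
    (b1 : F) = S1.s ^ n * (b : F) ∧ S1.red b1 = S1.red S1.sB ^ n * S0.red b
  places₁0 : S0.HasPlaces₁
  places₂0 : S0.HasPlaces₂
  places₁1 : S1.HasPlaces₁
  places₂1 : S1.HasPlaces₂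
  tr₁ : Transcendental (kA A) (S0.ρ₁ S0.sB)
  tr₂ : Transcendental (kA A) (S0.ρ₂ S0.sB)
  no_node1 : ∀ (P : Place L F) (h1 : S1.InChart P), ¬ S0.InChart P →
    ¬ (S1.On₁ P h1 ∧ S1.On₂ P h1)
  fin : Finite ↥(nodeCentres S0)

namespace CoreN

variable (C : CoreN A hx Ft₁ Ft₂)

/-- the number of nodes. -/
def nn : ℕ := Nat.card ↥(nodeCentres C.S0)

/-- the `j`-th two-component centre. -/
def nodeElt (j : Fin C.nn) : ↥(nodeCentres C.S0) :=
  haveI := C.fin
  (Finite.equivFin ↥(nodeCentres C.S0)).symm j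

/-- the index of a two-component centre. -/
def nodeIdx (χ : ↥(nodeCentres C.S0)) : Fin C.nn :=
  haveI := C.fin
  Finite.equivFin ↥(nodeCentres C.S0) χ

theorem nodeElt_nodeIdx (χ : ↥(nodeCentres C.S0)) : C.nodeElt (C.nodeIdx χ) = χ := by
  haveI := C.fin
  exact (Finite.equivFin ↥(nodeCentres C.S0)).symm_apply_apply χ

theorem nodeElt_injective : Function.Injective C.nodeElt := by
  haveI := C.fin
  exact (Finite.equivFin ↥(nodeCentres C.S0)).symm.injective

/-- the centre of the `j`-th node. -/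
def nodeChi (j : Fin C.nn) : ↥C.S0.B →+* kA A := (C.nodeElt j).1

theorem nodeChi_spec (j : Fin C.nn) :
    ∃ (P : Place L F) (h0 : C.S0.InChart P), C.S0.On₁ P h0 ∧ C.S0.On₂ P h0 ∧
      C.nodeChi j = C.S0.chi P h0 :=
  (C.nodeElt j).2

/-- **the nodal two-chart model of a core.** -/
def toT : TwoChartsN A hx Ft₁ Ft₂ C.nn where
  S0 := C.S0
  S1 := C.S1
  s_ne := C.s_ne
  s_inv := C.s_inv
  red_s_mul := C.red_s_mul
  ov0 := C.ov0
  ov1 := C.ov1
  places₁0 := C.places₁0
  places₂0 := C.places₂0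
  places₁1 := C.places₁1
  places₂1 := C.places₂1
  tr₁ := C.tr₁
  tr₂ := C.tr₂
  nodeChi := C.nodeChi
  node_on₁ := fun j b hb => by
    obtain ⟨P, h0, h1, -, he⟩ := C.nodeChi_spec j
    rw [he]
    exact h1 b hb
  node_on₂ := fun j b hb => by
    obtain ⟨P, h0, -, h2, he⟩ := C.nodeChi_spec j
    rw [he]
    exact h2 b hb
  node_ex := fun P h0 h1 h2 => by
    refine ⟨C.nodeIdx ⟨C.S0.chi P h0, P, h0, h1, h2, rfl⟩, ?_⟩
    show C.S0.chi P h0 = (C.nodeElt (C.nodeIdx ⟨C.S0.chi P h0, P, h0, h1, h2, rfl⟩)).1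
    rw [C.nodeElt_nodeIdx]
  node_inj := fun j j' h => C.nodeElt_injective (Subtype.ext h)
  no_node1 := C.no_node1

@[simp] theorem toT_S0 : C.toT.S0 = C.S0 := rfl

@[simp] theorem toT_S1 : C.toT.S1 = C.S1 := rfl

@[simp] theorem toT_nodeChi : C.toT.nodeChi = C.nodeChi := rfl

/-- every node of the model of a core is the centre of a place. -/
theorem exists_place_node (j : Fin C.nn) : ∃ P : Place L F, C.toT.RedToNode P j := by
  obtain ⟨P, h0, -, -, he⟩ := C.nodeChi_spec j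
  exact ⟨P, h0, he.symm⟩

/-- … hence `r` takes the value `inr j`. -/
theorem exists_r_eq_node (j : Fin C.nn) : ∃ P : Place L F, C.toT.r P = Sum.inr j := by
  obtain ⟨P, hP⟩ := C.exists_place_node j
  exact ⟨P, C.toT.r_eq_of_redToNode hP⟩

/-- a two-component centre gives a node: `0 < nn`. -/
theorem nn_pos {P : Place L F} (h0 : C.S0.InChart P) (h1 : C.S0.On₁ P h0) (h2 : C.S0.On₂ P h0) :
    0 < C.nn :=
  Fin.pos (C.nodeIdx ⟨C.S0.chi P h0, P, h0, h1, h2, rfl⟩)

end CoreN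

/-! ### the branch places at the nodes -/

section Nodes

variable {nn : ℕ} (T : TwoChartsN A hx Ft₁ Ft₂ nn)

/-- every node is the centre of a place. -/
def NodesReal : Prop := ∀ j : Fin nn, ∃ P : Place L F, T.RedToNode P j

/-- (VAL) + (PIR) at the node centres, on both branches. -/
structure NodeVal : Prop where
  val₁ : ∀ j : Fin nn, ∃ hval : Val (T.nodeChi j) T.S0.ρ₁,
    IsPrincipalIdealRing ↥(cVS (T.nodeChi j) T.S0.ρ₁ hval)
  val₂ : ∀ j : Fin nn, ∃ hval : Val (T.nodeChi j) T.S0.ρ₂,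
    IsPrincipalIdealRing ↥(cVS (T.nodeChi j) T.S0.ρ₂ hval)

variable {T}

theorem isCentre_node₁ (hR : NodesReal T) (j : Fin nn) : IsCentre (T.nodeChi j) T.S0.ρ₁ := by
  obtain ⟨P, h0, he⟩ := hR j
  rw [← he]
  exact T.S0.isCentre₁ P h0 (T.on₁_of_chi_eq_nodeChi he)

theorem isCentre_node₂ (hR : NodesReal T) (j : Fin nn) : IsCentre (T.nodeChi j) T.S0.ρ₂ := by
  obtain ⟨P, h0, he⟩ := hR j
  rw [← he]
  exact T.S0.isCentre₂ P h0 (T.on₂_of_chi_eq_nodeChi he)

/-- an element of chart 0 vanishing at the node `j` and not identically on the components. -/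
theorem exists_vanishing (hR : NodesReal T) (j : Fin nn) :
    ∃ b : ↥T.S0.B, T.nodeChi j b = 0 ∧ T.S0.ρ₁ b ≠ 0 ∧ T.S0.ρ₂ b ≠ 0 := by
  obtain ⟨P, h0, he⟩ := hR j
  refine ⟨T.S0.sSub P h0, ?_, T.S0.ρ₁_sSub_ne_zero P h0 T.tr₁, T.S0.ρ₂_sSub_ne_zero P h0 T.tr₂⟩
  rw [← he]
  exact T.S0.chi_sSub P h0

theorem cVS_node₁_ne_top (hR : NodesReal T) (j : Fin nn) (hval : Val (T.nodeChi j) T.S0.ρ₁) :
    cVS (T.nodeChi j) T.S0.ρ₁ hval ≠ ⊤ := by
  obtain ⟨b, hb, hb₁, -⟩ := exists_vanishing hR j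
  exact (isCentre_node₁ hR j).cVS_ne_top hval hb hb₁

theorem cVS_node₂_ne_top (hR : NodesReal T) (j : Fin nn) (hval : Val (T.nodeChi j) T.S0.ρ₂) :
    cVS (T.nodeChi j) T.S0.ρ₂ hval ≠ ⊤ := by
  obtain ⟨b, hb, -, hb₂⟩ := exists_vanishing hR j
  exact (isCentre_node₂ hR j).cVS_ne_top hval hb hb₂

/-- **the node places**: the two branches of the nodes. -/
def nodesOf (hR : NodesReal T) (hV : NodeVal T) : Nodes (kA A) Ft₁ Ft₂ nn where
  ν₁ j := (isCentre_node₁ hR j).cPlace (hV.val₁ j).choose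
    (cVS_node₁_ne_top hR j _) (hV.val₁ j).choose_spec
  ν₂ j := (isCentre_node₂ hR j).cPlace (hV.val₂ j).choose
    (cVS_node₂_ne_top hR j _) (hV.val₂ j).choose_spec

theorem mem_ν₁_iff (hR : NodesReal T) (hV : NodeVal T) (j : Fin nn) (y : Ft₁) :
    y ∈ ((nodesOf hR hV).ν₁ j).toValuationSubring ↔ y ∈ cSubring (T.nodeChi j) T.S0.ρ₁ :=
  Iff.rfl

theorem mem_ν₂_iff (hR : NodesReal T) (hV : NodeVal T) (j : Fin nn) (y : Ft₂) :
    y ∈ ((nodesOf hR hV).ν₂ j).toValuationSubring ↔ y ∈ cSubring (T.nodeChi j) T.S0.ρ₂ :=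
  Iff.rfl

/-- the node places are the two branches of the nodes. -/
theorem nodePlaces_nodesOf (hR : NodesReal T) (hV : NodeVal T) :
    NodePlaces T (nodesOf hR hV) where
  val₁ j b := valAt_of_isCentre (isCentre_node₁ hR j) _ (mem_ν₁_iff hR hV j) b
  val₂ j b := valAt_of_isCentre (isCentre_node₂ hR j) _ (mem_ν₂_iff hR hV j) b

/-- for ANY node places which are the branches of the nodes, the first-branch places of distinct
nodes are distinct (the field `nodes_inj` of `GeoNames23.NodalInstHyp`). -/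
theorem ν₁_injective_of_nodePlaces {N : Nodes (kA A) Ft₁ Ft₂ nn} (hN : NodePlaces T N) :
    Function.Injective N.ν₁ := by
  intro j j' h
  apply T.node_inj
  ext b
  have h1 := hN.val₁ j b
  have h2 := hN.val₁ j' b
  rw [← h] at h2
  exact ValAt.unique h1 h2

/-- the same on the second branch. -/
theorem ν₂_injective_of_nodePlaces {N : Nodes (kA A) Ft₁ Ft₂ nn} (hN : NodePlaces T N) :
    Function.Injective N.ν₂ := by
  intro j j' h
  apply T.node_inj
  ext b
  have h1 := hN.val₂ j b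
  have h2 := hN.val₂ j' b
  rw [← h] at h2
  exact ValAt.unique h1 h2

theorem nodesOf_ν₁_injective (hR : NodesReal T) (hV : NodeVal T) :
    Function.Injective (nodesOf hR hV).ν₁ :=
  ν₁_injective_of_nodePlaces (nodePlaces_nodesOf hR hV)

/-- **the node fields of `RedCtxN`** at `r := T.r`, `N := nodesOf …`. -/
theorem redCtx_fields (hR : NodesReal T) (hV : NodeVal T) {G : Subring F}
    {red : ↥G →+* Ft₁ × Ft₂} (hG : GaussExt T G red) :
    (∀ (P : Place L F) (Q : SPt (kA A) Ft₁ Ft₂), T.r P = Sum.inl Q →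
        (nodesOf hR hV).IsSmooth Q) ∧
      (∀ (g : ↥G) (j : Fin nn), (∀ P : Place L F, T.r P = Sum.inr j → 0 ≤ P.ord (g : F)) →
        (nodesOf hR hV).GluedAt (red g) j) ∧
      ∀ (g : ↥G) (j : Fin nn), (∀ P : Place L F, T.r P = Sum.inr j → P.ord (g : F) = 0) →
        (red g).1 ≠ 0 → (red g).2 ≠ 0 →
        ∃ c : kA A, c ≠ 0 ∧ ValAt ((nodesOf hR hV).ν₁ j) (red g).1 c ∧
          ValAt ((nodesOf hR hV).ν₂ j) (red g).2 c :=
  ⟨smooth (nodePlaces_nodesOf hR hV), glue (nodePlaces_nodesOf hR hV) hG,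
    glue_unit (nodePlaces_nodesOf hR hV) hG⟩

end Nodes

/-- the nodes of the model of a core are centres of places. -/
theorem CoreN.nodesReal (C : CoreN A hx Ft₁ Ft₂) : NodesReal C.toT := C.exists_place_node

end Fermat.Agent.ES.W33.TwoChartsNCore20
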