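/-
Programme W (S33), chapter (B5′), helper29: **the function `h` of (Ξc) on the NODAL model** (geometric
half), from the function-level context `XiIfaceN29.RedCtxN` — the twin of `V19/XiAddH29`.

* `exists_unit_of_redN_eq_zero` : a principal divisor `D` of `F / K` through smooth points only
  (`OffNodes r D`) whose push-forward to the smooth points vanishes is the divisor of an `h ∈ G` with
  `red h = 1 = (1,1)`.
  [scale `h₀ = c · u`, `red u = (φ₁, φ₂) ≠ 0`; no zero or pole of `u` passes through a node, so `red u` is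
  glued at every node (`glue`); `(r1)` at the smooth points gives `ord φ_i = 0` there when `φ_i ≠ 0`; so
  each `φ_i` is regular everywhere, i.e. a constant `κ_i` (possibly `0`); the gluing at ONE node
  (`0 < s`) gives `κ₁ = κ₂ =: κ`, and `κ ≠ 0` since `red u ≠ 0`; lift `κ⁻¹` to `A`.]
* `exists_h_add`, `exists_h_neg` : for points `P_i, P'_i, P''_i` in the discs of the `Q̄_i` with
  `[ΣP - E₀] = y`, `[ΣP' - E₀] = y'`, `[ΣP'' - E₀] = y + y'`:
  `∃ h ≠ 0, (∃ hG : h ∈ G, red ⟨h, hG⟩ = 1) ∧ ∀ v, v.ord h = (ΣP + ΣP' - ΣP'' - E₀) v`.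
* `small_of_red_eq_one` : `red h = 1` ⇒ `h - 1 = c₁ · w` with `c₁` a non-unit of `A`, `w ∈ G`
  (the model-free form "`h ≡ 1` modulo `𝔪_A · G`" consumed by helper7's `XiBridgeA7`).
-/
import Mathlib
import Fermat.Agent.X0.FFResidue
import Fermat.Agent.ES.V19.XiAddH29
import Fermat.Agent.ES.W33.XiIfaceN29
import Fermat.Agent.ES.W33.ValAt29
import Fermat.Agent.ES.W33.RedCtxN29
import Fermat.Agent.ES.W33.PrinN29

set_option autoImplicit false

noncomputable section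

namespace Fermat.Agent.ES.W33.XiAddHN29

open scoped BigOperators
open AlgebraicCurve Fermat.Agent.X0.FF Fermat.Agent.RR.LSpace Fermat.Agent.ES.V19.OnePlaceRep9
  Fermat.Agent.ES.W33.XiIfaceN29 Fermat.Agent.ES.W33.ValAt29 Fermat.Agent.ES.W33.RedCtxN29
  Fermat.Agent.ES.W33.PrinN29

variable {K F k Ft₁ Ft₂ : Type*} [Field K] [Field F] [Algebra K F] [Field k]
  [Field Ft₁] [Algebra k Ft₁] [Field Ft₂] [Algebra k Ft₂]
variable {s : ℕ} {A : ValuationSubring K} {π : ↥A →+* k} {N : Nodes k Ft₁ Ft₂ s}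
  {G : Subring F} {red : ↥G →+* Ft₁ × Ft₂} {r : Place K F → SPt k Ft₁ Ft₂ ⊕ Fin s}

/-- a function on a component which has order `0` at the smooth points and is regular at the node
places is a constant. -/
theorem const_of_regular₁ (HL₁ : LHyp k Ft₁) {φ : Ft₁}
    (hsm : φ ≠ 0 → ∀ Q : Place k Ft₁, N.IsSmooth (Sum.inl Q) → Q.ord φ = 0)
    (hnode : ∀ j, φ ∈ (N.ν₁ j).toValuationSubring) : ∃ κ : k, φ = algebraMap k Ft₁ κ := by
  rcases eq_or_ne φ 0 with rfl | hφ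
  · exact ⟨0, (map_zero _).symm⟩
  refine eq_algebraMap_of_forall_ord_nonneg HL₁ (f := φ) fun Q => ?_
  by_cases hQ : ∀ j, Q ≠ N.ν₁ j
  · rw [hsm hφ Q hQ]
  · simp only [not_forall, not_not] at hQ
    obtain ⟨j, rfl⟩ := hQ
    exact ffp_ord_nonneg_of_mem _ (hnode j)

theorem const_of_regular₂ (HL₂ : LHyp k Ft₂) {φ : Ft₂}
    (hsm : φ ≠ 0 → ∀ Q : Place k Ft₂, N.IsSmooth (Sum.inr Q) → Q.ord φ = 0)
    (hnode : ∀ j, φ ∈ (N.ν₂ j).toValuationSubring) : ∃ κ : k, φ = algebraMap k Ft₂ κ := by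
  rcases eq_or_ne φ 0 with rfl | hφ
  · exact ⟨0, (map_zero _).symm⟩
  refine eq_algebraMap_of_forall_ord_nonneg HL₂ (f := φ) fun Q => ?_
  by_cases hQ : ∀ j, Q ≠ N.ν₂ j
  · rw [hsm hφ Q hQ]
  · simp only [not_forall, not_not] at hQ
    obtain ⟨j, rfl⟩ := hQ
    exact ffp_ord_nonneg_of_mem _ (hnode j)

/-- **A principal divisor through smooth points with trivial reduction is the divisor of an element
of `G` reducing to `1`.** -/
theorem exists_unit_of_redN_eq_zero (C : RedCtxN A π N G red r) (HL₁ : LHyp k Ft₁)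
    (HL₂ : LHyp k Ft₂) (hπ : Function.Surjective π) (hs : 0 < s) (D : Divisor K F)
    (hD : D ∈ Divisor.principal (K := K) (F := F)) (hoff : OffNodes r D)
    (hr : ∀ Q : SPt k Ft₁ Ft₂, Finsupp.mapDomain r D (Sum.inl Q) = 0) :
    ∃ h : F, h ≠ 0 ∧ (∃ hG : h ∈ G, red ⟨h, hG⟩ = 1) ∧ ∀ v : Place K F, D v = v.ord h := by
  obtain ⟨h₀, h₀ne, hDh⟩ := hD
  obtain ⟨c, hc0, hu, hured⟩ := C.scale h₀ h₀ne
  set u : F := (algebraMap K F c)⁻¹ * h₀ with hu_def
  have hcF : algebraMap K F c ≠ 0 := (map_ne_zero _).mpr hc0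
  have hu0 : u ≠ 0 := mul_ne_zero (inv_ne_zero hcF) h₀ne
  have hordu : ∀ v : Place K F, D v = v.ord u := fun v => by
    rw [hu_def, ord_scale hc0 h₀ne, hDh v]
  set φ : Ft₁ × Ft₂ := red ⟨u, hu⟩ with hφ_def
  -- no zero or pole of `u` passes through a node
  have hnode : ∀ (j : Fin s) (P : Place K F), r P = Sum.inr j → P.ord u = 0 := fun j P hP => by
    rw [← hordu P]
    by_contra hne
    exact hoff P (Finsupp.mem_support_iff.mpr hne) j hP
  have hglue : ∀ j, N.GluedAt φ j := fun j =>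
    C.glue ⟨u, hu⟩ j fun P hP => by
      show 0 ≤ P.ord u
      rw [hnode j P hP]
  have hsm1 : φ.1 ≠ 0 → ∀ Q : Place k Ft₁, N.IsSmooth (Sum.inl Q) → Q.ord φ.1 = 0 :=
    fun h1 Q hQ => by
      rw [← C.r1₁ ⟨u, hu⟩ h1 D hordu Q hQ]
      exact hr _
  have hsm2 : φ.2 ≠ 0 → ∀ Q : Place k Ft₂, N.IsSmooth (Sum.inr Q) → Q.ord φ.2 = 0 :=
    fun h2 Q hQ => by
      rw [← C.r1₂ ⟨u, hu⟩ h2 D hordu Q hQ]
      exact hr _
  obtain ⟨κ₁, hκ₁⟩ := const_of_regular₁ (N := N) HL₁ hsm1 fun j => by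
    obtain ⟨c', h1, -⟩ := hglue j
    exact ValAt.mem h1
  obtain ⟨κ₂, hκ₂⟩ := const_of_regular₂ (N := N) HL₂ hsm2 fun j => by
    obtain ⟨c', -, h2⟩ := hglue j
    exact ValAt.mem h2
  -- the two constants agree (gluing at one node)
  have hκ : κ₁ = κ₂ := by
    obtain ⟨c', h1, h2⟩ := hglue ⟨0, hs⟩
    rw [hκ₁] at h1
    rw [hκ₂] at h2
    rw [← ValAt.unique h1 (valAt_const κ₁), ← ValAt.unique h2 (valAt_const κ₂)]
  have hφeq : φ = (algebraMap k Ft₁ κ₁, algebraMap k Ft₂ κ₁) := by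
    refine Prod.ext hκ₁ ?_
    show φ.2 = algebraMap k Ft₂ κ₁
    rw [hκ, hκ₂]
  have hκ0 : κ₁ ≠ 0 := by
    intro h0
    apply hured
    show φ = 0
    rw [hφeq, h0, map_zero, map_zero]
    rfl
  obtain ⟨a, ha⟩ := hπ κ₁⁻¹
  have ha0 : (a : K) ≠ 0 := by
    intro h0
    have : a = 0 := Subtype.ext h0
    rw [this, map_zero] at ha
    exact inv_ne_zero hκ0 ha.symm
  have haF : algebraMap K F (a : K) ≠ 0 := (map_ne_zero _).mpr ha0
  refine ⟨algebraMap K F (a : K) * u, mul_ne_zero haF hu0,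
    ⟨G.mul_mem (C.const_mem a) hu, ?_⟩, fun v => ?_⟩
  · have e : (⟨algebraMap K F (a : K) * u, G.mul_mem (C.const_mem a) hu⟩ : ↥G)
        = const C a * ⟨u, hu⟩ := rfl
    rw [e, map_mul, red_const', ← hφ_def, hφeq, ha]
    refine Prod.ext ?_ ?_
    · show algebraMap k Ft₁ κ₁⁻¹ * algebraMap k Ft₁ κ₁ = 1
      rw [← map_mul, inv_mul_cancel₀ hκ0, map_one]
    · show algebraMap k Ft₂ κ₁⁻¹ * algebraMap k Ft₂ κ₁ = 1
      rw [← map_mul, inv_mul_cancel₀ hκ0, map_one]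
  · rw [v.ord_mul haF hu0, ffp_ord_algebraMap, zero_add, hordu v]

/-- `red h = 1` means `h ≡ 1` modulo `𝔪_A · G`. -/
theorem small_of_red_eq_one (C : RedCtxN A π N G red r) {h : F} (hG : h ∈ G)
    (hred : red ⟨h, hG⟩ = 1) :
    ∃ c₁ ∈ A.nonunits, ∃ w ∈ G, h - 1 = algebraMap K F c₁ * w := by
  have hG' : h - 1 ∈ G := G.sub_mem hG G.one_mem
  refine exists_small_of_red_eq_zero C hG' ?_
  have e : (⟨h - 1, hG'⟩ : ↥G) = ⟨h, hG⟩ - 1 := rfl
  rw [e, map_sub, hred, map_one, sub_self]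

/-- `r_* D = 0` on the smooth points, from `redN r D = 0`. -/
theorem mapDomain_inl_eq_zero {D : Divisor K F} (h : redN r D = 0) (Q : SPt k Ft₁ Ft₂) :
    Finsupp.mapDomain r D (Sum.inl Q) = 0 := by
  rw [← redN_apply, h]
  rfl

/-- **(Ξc), geometric half on the nodal model: the function `h` for `y + y'`.** -/
theorem exists_h_add (C : RedCtxN A π N G red r) (HL₁ : LHyp k Ft₁) (HL₂ : LHyp k Ft₂)
    (hπ : Function.Surjective π) {g : ℕ} {χ : ChartN K F k Ft₁ Ft₂ g} (hχ : ChartHypN A N r χ)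
    {y y' : Pic0 K F} {P P' P'' : Fin g → Place K F}
    (hP : ∀ i, r (P i) = Sum.inl (χ.Qbar i)) (hP' : ∀ i, r (P' i) = Sum.inl (χ.Qbar i))
    (hP'' : ∀ i, r (P'' i) = Sum.inl (χ.Qbar i))
    (hy : IsRep y (redDiv P - χ.E0)) (hy' : IsRep y' (redDiv P' - χ.E0))
    (hy'' : IsRep (y + y') (redDiv P'' - χ.E0)) :
    ∃ h : F, h ≠ 0 ∧ (∃ hG : h ∈ G, red ⟨h, hG⟩ = 1) ∧
      ∀ v : Place K F, v.ord h = (redDiv P + redDiv P' - redDiv P'' - χ.E0) v := by
  have hprin := Fermat.Agent.ES.V19.XiAddH29.sum_sub_mem_principal hy hy' hy''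
  have e : redDiv P - χ.E0 + (redDiv P' - χ.E0) - (redDiv P'' - χ.E0)
      = redDiv P + redDiv P' - redDiv P'' - χ.E0 := by abel
  rw [e] at hprin
  have hoffE : OffNodes r χ.E0 := offNodes_redDiv hχ.centre_red
  have hoff : OffNodes r (redDiv P + redDiv P' - redDiv P'' - χ.E0) :=
    offNodes_sub (offNodes_sub (offNodes_add (offNodes_redDiv hP) (offNodes_redDiv hP'))
      (offNodes_redDiv hP'')) hoffE
  have hE0 : redN r χ.E0 = ∑ i, Finsupp.single (χ.Qbar i) 1 := redN_redDiv r hχ.centre_red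
  have hred0 : redN r (redDiv P + redDiv P' - redDiv P'' - χ.E0) = 0 := by
    rw [redN_sub, redN_sub, redN_add, redN_redDiv r hP, redN_redDiv r hP', redN_redDiv r hP'',
      hE0]
    abel
  obtain ⟨h, hh0, hred, hord⟩ := exists_unit_of_redN_eq_zero C HL₁ HL₂ hπ (node_pos hχ) _ hprin
    hoff (mapDomain_inl_eq_zero hred0)
  exact ⟨h, hh0, hred, fun v => (hord v).symm⟩

/-- **(Ξc), geometric half on the nodal model: the function `h` for `-y`** (`P'' = Q`,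
`div h = ΣP + ΣP' - 2E₀`). -/
theorem exists_h_neg (C : RedCtxN A π N G red r) (HL₁ : LHyp k Ft₁) (HL₂ : LHyp k Ft₂)
    (hπ : Function.Surjective π) {g : ℕ} {χ : ChartN K F k Ft₁ Ft₂ g} (hχ : ChartHypN A N r χ)
    {y : Pic0 K F} {P P' : Fin g → Place K F}
    (hP : ∀ i, r (P i) = Sum.inl (χ.Qbar i)) (hP' : ∀ i, r (P' i) = Sum.inl (χ.Qbar i))
    (hy : IsRep y (redDiv P - χ.E0)) (hy' : IsRep (-y) (redDiv P' - χ.E0)) :
    ∃ h : F, h ≠ 0 ∧ (∃ hG : h ∈ G, red ⟨h, hG⟩ = 1) ∧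
      ∀ v : Place K F, v.ord h = (redDiv P + redDiv P' - χ.E0 - χ.E0) v := by
  have h0 : IsRep (y + -y) (redDiv χ.Q - χ.E0) := by
    have e : redDiv χ.Q - χ.E0 = 0 := sub_self _
    rw [e, add_neg_cancel]
    exact ⟨AddSubgroup.zero_mem _, rfl⟩
  obtain ⟨h, hh0, hred, hord⟩ :=
    exists_h_add C HL₁ HL₂ hπ hχ hP hP' hχ.centre_red hy hy' h0
  refine ⟨h, hh0, hred, fun v => ?_⟩
  rw [hord v]
  rfl

end Fermat.Agent.ES.W33.XiAddHN29
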